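import Mathlib

/-!
# S18, package VALEXT: abstract valuation-extension lemmas (Mathlib only)

`F` is a field, `O : ValuationSubring F` ("the Gauss valuation"), `L` a subfield given as a field
with `Algebra L F`.

* `valext_exists`: every valuation subring of `F` is the trace of a valuation subring of any
  extension field.
* `valext_le_sum`, `valext_linearIndependent`, `valext_span`: a family `b : Fin n → F` whose
  reductions at `O` are independent over the residue field of the trace of `O` on `L`
  (hypothesis `hind`, stated elementwise) is orthonormal, independent, and spans when `n = [F : L]`.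
* `valext_unique_of_span`, `valext_unique`: then `O` is the unique valuation subring of `F`
  with the given trace on `L` that contains the family (e.g. if the `b i` are integral over the
  trace, see `valext_mem_of_isIntegral`).
* `valext_coeff_mem`, `valext_integral`: the integrality lemma. If `O` is the unique valuation
  subring of `F` with its trace on `L` and `R` is integrally closed with fraction field `L`, then
  for `x ∈ O` integral over `R` the minimal polynomial over `R` has all coefficients in `O`;
  hence `x` is integral over any `R₀ → R` hitting `R ∩ O`.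
-/

set_option autoImplicit false

namespace Fermat.Agent.S18

open Polynomial

section Exists

variable {F Ω : Type*} [Field F] [Field Ω] [Algebra F Ω]

/-- Every valuation subring of `F` is the trace of a valuation subring of any extension field. -/
theorem valext_exists (O : ValuationSubring F) :
    ∃ W : ValuationSubring Ω, W.comap (algebraMap F Ω) = O := by
  obtain ⟨W, hle, hloc⟩ :=
    (LocalSubring.map (algebraMap F Ω) O.toLocalSubring).exists_le_valuationSubring
  refine ⟨W, ?_⟩
  have hinj : Function.Injective (algebraMap F Ω) := (algebraMap F Ω).injective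
  ext x
  rw [ValuationSubring.mem_comap]
  constructor
  · intro hx
    by_contra hxO
    have hx0 : x ≠ 0 := fun h => hxO (h ▸ O.zero_mem)
    have hxi : x⁻¹ ∈ O := (O.mem_or_inv_mem x).resolve_left hxO
    have hmem : algebraMap F Ω x⁻¹ ∈ (LocalSubring.map (algebraMap F Ω) O.toLocalSubring).toSubring :=
      ⟨x⁻¹, hxi, rfl⟩
    have hunit : IsUnit (Subring.inclusion hle ⟨algebraMap F Ω x⁻¹, hmem⟩) := by
      refine isUnit_iff_exists_inv.mpr ⟨⟨algebraMap F Ω x, hx⟩, Subtype.ext ?_⟩
      show algebraMap F Ω x⁻¹ * algebraMap F Ω x = 1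
      rw [← map_mul, inv_mul_cancel₀ hx0, map_one]
    have hunit' := hloc.map_nonunit _ hunit
    obtain ⟨⟨y, hy⟩, hy1⟩ := isUnit_iff_exists_inv.mp hunit'
    obtain ⟨z, hz, rfl⟩ := hy
    have h1 : algebraMap F Ω x⁻¹ * algebraMap F Ω z = 1 := congrArg Subtype.val hy1
    rw [← map_mul, ← map_one (algebraMap F Ω)] at h1
    have h2 := hinj h1
    have h3 : z = x := by
      field_simp at h2
      exact h2
    exact hxO (h3 ▸ hz)
  · intro hx
    exact hle ⟨x, hx, rfl⟩

end Exists

section Unique

variable {L F : Type*} [Field L] [Field F] [Algebra L F]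

/-- Key estimate: if the "reductions" of `b` are independent over the residue field of the trace of
`O` on `L` (hypothesis `hind`, stated elementwise), then the valuation of a combination dominates
the valuation of every coefficient. -/
theorem valext_le_sum (O : ValuationSubring F) {n : ℕ} (b : Fin n → F)
    (hind : ∀ a : Fin n → L, (∀ i, algebraMap L F (a i) ∈ O) →
      ∑ i, algebraMap L F (a i) * b i ∈ O.nonunits → ∀ i, algebraMap L F (a i) ∈ O.nonunits)
    (a : Fin n → L) (i : Fin n) :
    O.valuation (algebraMap L F (a i)) ≤ O.valuation (∑ j, algebraMap L F (a j) * b j) := by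
  obtain ⟨i₀, -, hi₀⟩ := Finset.exists_max_image Finset.univ
    (fun j => O.valuation (algebraMap L F (a j))) ⟨i, Finset.mem_univ i⟩
  refine (hi₀ i (Finset.mem_univ i)).trans ?_
  by_contra hlt
  rw [not_le] at hlt
  have ha0 : algebraMap L F (a i₀) ≠ 0 := by
    intro h
    rw [h, map_zero] at hlt
    exact not_lt_zero hlt
  have ha0' : a i₀ ≠ 0 := fun h => ha0 (by rw [h, map_zero])
  have hv0 : O.valuation (algebraMap L F (a i₀)) ≠ 0 := (Valuation.ne_zero_iff _).mpr ha0
  have hc : ∀ j, algebraMap L F (a j / a i₀) ∈ O := by
    intro j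
    rw [← ValuationSubring.valuation_le_one_iff, map_div₀, map_div₀]
    exact div_le_one_of_le₀ (hi₀ j (Finset.mem_univ j)) zero_le
  have hs : ∑ j, algebraMap L F (a j / a i₀) * b j =
      (∑ j, algebraMap L F (a j) * b j) / algebraMap L F (a i₀) := by
    rw [Finset.sum_div]
    refine Finset.sum_congr rfl fun j _ => ?_
    rw [map_div₀]
    ring
  have hsn : ∑ j, algebraMap L F (a j / a i₀) * b j ∈ O.nonunits := by
    rw [hs, ValuationSubring.mem_nonunits_iff, map_div₀]
    exact (div_lt_one₀ (zero_lt_iff.mpr hv0)).mpr hlt
  have h1 := hind (fun j => a j / a i₀) hc hsn i₀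
  rw [div_self ha0', map_one, ValuationSubring.mem_nonunits_iff, map_one] at h1
  exact lt_irrefl _ h1

/-- Under `hind` the family `b` is linearly independent over `L`. -/
theorem valext_linearIndependent (O : ValuationSubring F) {n : ℕ} (b : Fin n → F)
    (hind : ∀ a : Fin n → L, (∀ i, algebraMap L F (a i) ∈ O) →
      ∑ i, algebraMap L F (a i) * b i ∈ O.nonunits → ∀ i, algebraMap L F (a i) ∈ O.nonunits) :
    LinearIndependent L b := by
  rw [Fintype.linearIndependent_iff]
  intro g hg i
  have h := valext_le_sum O b hind g i
  have hg' : ∑ j, algebraMap L F (g j) * b j = 0 := by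
    rw [← hg]
    exact Finset.sum_congr rfl fun j _ => (Algebra.smul_def _ _).symm
  rw [hg', map_zero, le_zero_iff, Valuation.zero_iff] at h
  exact (algebraMap L F).injective (by rw [h, map_zero])

/-- Under `hind`, if `n = [F : L]` then `b` spans. -/
theorem valext_span [FiniteDimensional L F] (O : ValuationSubring F) {n : ℕ} (b : Fin n → F)
    (hind : ∀ a : Fin n → L, (∀ i, algebraMap L F (a i) ∈ O) →
      ∑ i, algebraMap L F (a i) * b i ∈ O.nonunits → ∀ i, algebraMap L F (a i) ∈ O.nonunits)
    (hn : Module.finrank L F = n) (x : F) :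
    ∃ a : Fin n → L, x = ∑ i, algebraMap L F (a i) * b i := by
  have hli := valext_linearIndependent O b hind
  have hspan : Submodule.span L (Set.range b) = ⊤ :=
    hli.span_eq_top_of_card_eq_finrank' (by simp [hn])
  have hx : x ∈ Submodule.span L (Set.range b) := hspan ▸ Submodule.mem_top
  obtain ⟨a, ha⟩ := (Submodule.mem_span_range_iff_exists_fun L).mp hx
  refine ⟨a, ?_⟩
  rw [← ha]
  exact Finset.sum_congr rfl fun j _ => Algebra.smul_def _ _

/-- Uniqueness of the extension: if `F` has an `L`-spanning family whose reductions at `O` are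
independent over the residue field of the trace of `O` on `L`, then `O` is the only valuation
subring of `F` containing the family and having the same trace on `L`. -/
theorem valext_unique_of_span (O : ValuationSubring F) {n : ℕ} (b : Fin n → F)
    (hspan : ∀ x : F, ∃ a : Fin n → L, x = ∑ i, algebraMap L F (a i) * b i)
    (hind : ∀ a : Fin n → L, (∀ i, algebraMap L F (a i) ∈ O) →
      ∑ i, algebraMap L F (a i) * b i ∈ O.nonunits → ∀ i, algebraMap L F (a i) ∈ O.nonunits)
    (O' : ValuationSubring F) (hO' : ∀ y : L, algebraMap L F y ∈ O' ↔ algebraMap L F y ∈ O)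
    (hbO' : ∀ i, b i ∈ O') : O' = O := by
  have hnon : ∀ y : L, algebraMap L F y ∈ O.nonunits → algebraMap L F y ∈ O'.nonunits := by
    intro y hy
    rw [ValuationSubring.mem_nonunits_iff_or] at hy ⊢
    rcases hy with hy | hy
    · exact Or.inl hy
    · right
      rw [← map_inv₀] at hy ⊢
      rwa [hO']
  apply le_antisymm
  · -- O' ≤ O
    intro w hw
    by_contra hwO
    have hw0 : w ≠ 0 := fun h => hwO (h ▸ O.zero_mem)
    have hwi : O.valuation w⁻¹ < 1 := by
      rw [← ValuationSubring.mem_nonunits_iff, ValuationSubring.inv_mem_nonunits_iff]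
      exact Or.inr hwO
    obtain ⟨a, ha⟩ := hspan w⁻¹
    have hai : ∀ i, algebraMap L F (a i) ∈ O'.nonunits := by
      intro i
      apply hnon
      rw [ValuationSubring.mem_nonunits_iff]
      exact lt_of_le_of_lt (valext_le_sum O b hind a i) (ha ▸ hwi)
    have hwi' : w⁻¹ ∈ O'.nonunits := by
      rw [ha]
      exact O'.nonunits.sum_mem fun i _ => by
        rw [ValuationSubring.mem_nonunits_iff, map_mul]
        have h1 := (ValuationSubring.mem_nonunits_iff O').mp (hai i)
        have h2 := (O'.valuation_le_one_iff _).mpr (hbO' i)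
        exact lt_of_le_of_lt (mul_le_of_le_one_right' h2) h1
    rw [ValuationSubring.inv_mem_nonunits_iff] at hwi'
    rcases hwi' with h | h
    · exact hw0 h
    · exact h hw
  · -- O ≤ O'
    intro w hw
    obtain ⟨a, ha⟩ := hspan w
    rw [ha]
    refine O'.toSubring.sum_mem fun i _ => O'.mul_mem _ _ ?_ (hbO' i)
    rw [hO']
    rw [← ValuationSubring.valuation_le_one_iff]
    exact (valext_le_sum O b hind a i).trans (ha ▸ (O.valuation_le_one_iff _).mpr hw)

/-- Uniqueness of the extension, degree form: `n = [F : L]` elements whose reductions at `O` are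
independent over the residue field of the trace of `O` on `L`. -/
theorem valext_unique [FiniteDimensional L F] (O : ValuationSubring F) {n : ℕ} (b : Fin n → F)
    (hn : Module.finrank L F = n)
    (hind : ∀ a : Fin n → L, (∀ i, algebraMap L F (a i) ∈ O) →
      ∑ i, algebraMap L F (a i) * b i ∈ O.nonunits → ∀ i, algebraMap L F (a i) ∈ O.nonunits)
    (O' : ValuationSubring F) (hO' : ∀ y : L, algebraMap L F y ∈ O' ↔ algebraMap L F y ∈ O)
    (hbO' : ∀ i, b i ∈ O') : O' = O :=
  valext_unique_of_span O b (valext_span O b hind hn) hind O' hO' hbO'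

end Unique

section Closed

variable {F : Type*} [Field F]

/-- Valuation subrings are integrally closed in the ambient field: an element integral over a ring
mapping into `O'` lies in `O'`. -/
theorem valext_mem_of_isIntegral (O' : ValuationSubring F) {S : Type*} [CommRing S] [Algebra S F]
    (hS : ∀ s : S, algebraMap S F s ∈ O') (x : F) (hx : IsIntegral S x) : x ∈ O' := by
  have h1 : IsIntegral O' x := by
    obtain ⟨p, hp, hpx⟩ := hx
    let f : S →+* O' := (algebraMap S F).codRestrict O'.toSubring hS
    refine ⟨p.map f, hp.map f, ?_⟩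
    rw [eval₂_map]
    have : (algebraMap O' F).comp f = algebraMap S F := by
      ext s
      rfl
    rw [this]
    exact hpx
  obtain ⟨y, hy⟩ := (IsIntegrallyClosed.isIntegral_iff (R := O') (K := F)).mp h1
  rw [← hy]
  exact y.2

end Closed

section Integral

variable {R L F : Type*} [CommRing R] [IsDomain R] [IsIntegrallyClosed R] [Field L] [Field F]
  [Algebra R L] [IsFractionRing R L] [Algebra L F] [Algebra R F] [IsScalarTower R L F]
  [Algebra.IsAlgebraic L F]

theorem valext_esymm_mem {Ω : Type*} [Field Ω] (W : ValuationSubring Ω) (s : Multiset Ω)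
    (hs : ∀ y ∈ s, y ∈ W) (k : ℕ) : s.esymm k ∈ W := by
  rw [Multiset.esymm]
  refine W.toSubring.multiset_sum_mem _ ?_
  intro c hc
  rw [Multiset.mem_map] at hc
  obtain ⟨t, ht, rfl⟩ := hc
  refine W.toSubring.multiset_prod_mem _ ?_
  intro y hy
  exact hs y (Multiset.mem_of_le (Multiset.mem_powersetCard.mp ht).1 hy)

theorem valext_coeff_mem (O : ValuationSubring F)
    (huniq : ∀ O' : ValuationSubring F,
      (∀ y : L, algebraMap L F y ∈ O' ↔ algebraMap L F y ∈ O) → O' = O)
    (x : F) (hx : x ∈ O) (hint : IsIntegral R x) (i : ℕ) :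
    algebraMap R F ((minpoly R x).coeff i) ∈ O := by
  classical
  obtain ⟨W, hW⟩ := valext_exists (Ω := AlgebraicClosure F) O
  have hp : minpoly L x = (minpoly R x).map (algebraMap R L) :=
    minpoly.isIntegrallyClosed_eq_field_fractions' L hint
  have hmonic : (minpoly L x).Monic := minpoly.monic (Algebra.IsIntegral.isIntegral x)
  set q : (AlgebraicClosure F)[X] := (minpoly L x).map (algebraMap L (AlgebraicClosure F)) with hq
  have hqmonic : q.Monic := hmonic.map _
  have hsplit : q.Splits := IsAlgClosed.splits q
  have hroots : ∀ y ∈ q.roots, y ∈ W := by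
    intro y hy
    have hy0 : aeval y (minpoly L x) = 0 := by
      have := (mem_roots hqmonic.ne_zero).mp hy
      rwa [IsRoot.def, hq, eval_map_algebraMap] at this
    obtain ⟨φ, hφ⟩ := IntermediateField.exists_algHom_of_splits_of_aeval
      (F := L) (E := F) (K := AlgebraicClosure F)
      (fun s => ⟨Algebra.IsIntegral.isIntegral s, IsAlgClosed.splits _⟩) hy0
    have hO' : W.comap φ.toRingHom = O := by
      apply huniq
      intro z
      rw [ValuationSubring.mem_comap, ← hW, ValuationSubring.mem_comap]
      have : φ.toRingHom (algebraMap L F z) = algebraMap F (AlgebraicClosure F) (algebraMap L F z) := by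
        rw [AlgHom.toRingHom_eq_coe, RingHom.coe_coe, AlgHom.commutes,
          ← IsScalarTower.algebraMap_apply]
      rw [this]
    have : x ∈ W.comap φ.toRingHom := hO' ▸ hx
    rw [ValuationSubring.mem_comap] at this
    rw [← hφ]
    exact this
  have hcoeff : ∀ k, q.coeff k ∈ W := by
    intro k
    by_cases hk : k ≤ q.natDegree
    · rw [coeff_eq_esymm_roots_of_splits hsplit hk, hqmonic.leadingCoeff, one_mul]
      refine W.mul_mem _ _ ?_ (valext_esymm_mem W _ hroots _)
      exact W.toSubring.pow_mem (W.toSubring.neg_mem W.one_mem) _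
    · rw [coeff_eq_zero_of_natDegree_lt (not_le.mp hk)]
      exact W.zero_mem
  have h1 : q.coeff i = algebraMap F (AlgebraicClosure F) (algebraMap R F ((minpoly R x).coeff i)) := by
    rw [hq, coeff_map, hp, coeff_map, IsScalarTower.algebraMap_apply R L F,
      ← IsScalarTower.algebraMap_apply L F (AlgebraicClosure F)]
  have h2 := hcoeff i
  rw [h1] at h2
  rw [← hW, ValuationSubring.mem_comap]
  exact h2

/-- The integrality lemma: if `O` is the unique valuation subring of `F` with its trace on `L`,
`R` is integrally closed with fraction field `L`, and `R₀ → R` hits every element of `R` lying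
in `O`, then an element of `O` integral over `R` is integral over `R₀`. -/
theorem valext_integral (O : ValuationSubring F)
    (huniq : ∀ O' : ValuationSubring F,
      (∀ y : L, algebraMap L F y ∈ O' ↔ algebraMap L F y ∈ O) → O' = O)
    {R₀ : Type*} [CommRing R₀] [Algebra R₀ R] [Algebra R₀ F] [IsScalarTower R₀ R F]
    (hR₀ : ∀ r : R, algebraMap R F r ∈ O → ∃ r₀ : R₀, algebraMap R₀ R r₀ = r)
    (x : F) (hx : x ∈ O) (hint : IsIntegral R x) : IsIntegral R₀ x := by
  classical
  have hc := fun i => hR₀ _ (valext_coeff_mem (L := L) O huniq x hx hint i)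
  choose c hc using hc
  set d := (minpoly R x).natDegree with hd
  refine ⟨X ^ d + ∑ i ∈ Finset.range d, C (c i) * X ^ i, ?_, ?_⟩
  · refine monic_X_pow_add ?_
    rw [degree_lt_iff_coeff_zero]
    intro m hm
    rw [finsetSum_coeff]
    refine Finset.sum_eq_zero fun i hi => ?_
    rw [coeff_C_mul_X_pow, if_neg]
    have := Finset.mem_range.mp hi
    omega
  · have hmonic := minpoly.monic hint
    have h0 := minpoly.aeval R x
    rw [aeval_eq_sum_range, Finset.sum_range_succ, ← hd, hmonic.coeff_natDegree, one_smul] at h0
    rw [eval₂_add, eval₂_X_pow, eval₂_finsetSum, add_comm]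
    rw [← h0]
    congr 1
    refine Finset.sum_congr rfl fun i _ => ?_
    rw [eval₂_mul, eval₂_C, eval₂_X_pow, Algebra.smul_def, ← hc i,
      ← IsScalarTower.algebraMap_apply]

end Integral

section Intermediate

variable {L E F : Type*} [Field L] [Field E] [Field F] [Algebra L E] [Algebra E F] [Algebra L F]
  [IsScalarTower L E F]

/-- Uniqueness passes to intermediate fields: if `O` is the only valuation subring of `F` with its
trace on `L`, then its trace on an intermediate field `E` is the only valuation subring of `E`
with that trace on `L`. -/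
theorem valext_unique_intermediate (O : ValuationSubring F)
    (huniq : ∀ O' : ValuationSubring F,
      (∀ y : L, algebraMap L F y ∈ O' ↔ algebraMap L F y ∈ O) → O' = O)
    (OE : ValuationSubring E) (hOE : ∀ y : L, algebraMap L E y ∈ OE ↔ algebraMap L F y ∈ O) :
    OE = O.comap (algebraMap E F) := by
  obtain ⟨W, hW⟩ := valext_exists (Ω := F) OE
  have hWO : W = O := by
    apply huniq
    intro y
    rw [← hOE y, ← hW, ValuationSubring.mem_comap, ← IsScalarTower.algebraMap_apply]
  rw [← hWO, hW]

/-- Uniqueness over `L` implies uniqueness over any intermediate field `E`. -/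
theorem valext_unique_of_intermediate (O : ValuationSubring F)
    (huniq : ∀ O' : ValuationSubring F,
      (∀ y : L, algebraMap L F y ∈ O' ↔ algebraMap L F y ∈ O) → O' = O)
    (O' : ValuationSubring F) (hO' : ∀ y : E, algebraMap E F y ∈ O' ↔ algebraMap E F y ∈ O) :
    O' = O := by
  apply huniq
  intro y
  rw [IsScalarTower.algebraMap_apply L E F]
  exact hO' _

end Intermediate

end Fermat.Agent.S18
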