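import Mathlib
import Fermat.Agent.S18.ValExt

/-!
# S18, package CHARTS: integral-closure charts (Mathlib + ValExt only)

`A0` is a commutative ring (in the main statements a DVR with uniformizer `τ` and fraction field
`K0`), `F` a field with `Algebra A0 F`, `t : F` the chart coordinate.  The chart rings are

* `chtO A0 s : Subalgebra A0 F` := integral closure of `Algebra.adjoin A0 s` in `F`;
  `O0 = chtO A0 {t}`, `O1 = chtO A0 {t⁻¹}`, `O01 = chtO A0 {t, t⁻¹}`.

The file supplies, in elementwise form, the hypotheses (h1)-(h5), (h8) of the abstract core.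
-/

set_option autoImplicit false

namespace Fermat.Agent.S18

open Polynomial

section Basic

variable {A0 F : Type*} [CommRing A0] [Field F] [Algebra A0 F]

/-- The chart ring: integral closure of `A0[s]` in `F`, as an `A0`-subalgebra of `F`. -/
noncomputable def chtO (A0 : Type*) {F : Type*} [CommRing A0] [Field F] [Algebra A0 F]
    (s : Set F) : Subalgebra A0 F :=
  (integralClosure (Algebra.adjoin A0 s) F).restrictScalars A0

theorem cht_mem_iff {s : Set F} {x : F} :
    x ∈ chtO A0 s ↔ IsIntegral (Algebra.adjoin A0 s) x := Iff.rfl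

/-- Integrality over a subalgebra, in terms of polynomials over the ambient field. -/
theorem cht_isIntegral_iff (S : Subalgebra A0 F) (x : F) :
    IsIntegral S x ↔ ∃ p : F[X], p.Monic ∧ (∀ i, p.coeff i ∈ S) ∧ p.eval x = 0 := by
  constructor
  · rintro ⟨p, hp, hpx⟩
    refine ⟨p.map (algebraMap S F), hp.map _, fun i => ?_, ?_⟩
    · rw [coeff_map]
      exact (p.coeff i).2
    · rw [eval_map]
      exact hpx
  · rintro ⟨p, hp, hc, hpx⟩
    have hl : p ∈ lifts (algebraMap S F) := by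
      rw [lifts_iff_coeff_lifts]
      intro n
      exact ⟨⟨p.coeff n, hc n⟩, rfl⟩
    obtain ⟨q, hq, -, hqm⟩ := lifts_and_natDegree_eq_and_monic hl hp
    refine ⟨q, hqm, ?_⟩
    rw [← eval_map, hq]
    exact hpx

theorem cht_mem_iff_poly {s : Set F} {x : F} :
    x ∈ chtO A0 s ↔
      ∃ p : F[X], p.Monic ∧ (∀ i, p.coeff i ∈ Algebra.adjoin A0 s) ∧ p.eval x = 0 :=
  cht_isIntegral_iff _ x

theorem cht_adjoin_le (s : Set F) : Algebra.adjoin A0 s ≤ chtO A0 s := by
  intro x hx
  rw [cht_mem_iff]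
  exact isIntegral_algebraMap (R := Algebra.adjoin A0 s) (x := ⟨x, hx⟩)

theorem cht_mono {s s' : Set F} (h : s ⊆ s') : chtO A0 s ≤ chtO A0 s' := by
  intro x hx
  rw [cht_mem_iff_poly] at hx ⊢
  obtain ⟨p, hp, hc, hpx⟩ := hx
  exact ⟨p, hp, fun i => Algebra.adjoin_mono h (hc i), hpx⟩

/-- (h1) -/
theorem cht_h1 (t : F) : t ∈ chtO A0 {t} ∧ t⁻¹ ∈ chtO A0 {t⁻¹} :=
  ⟨cht_adjoin_le _ (Algebra.subset_adjoin rfl), cht_adjoin_le _ (Algebra.subset_adjoin rfl)⟩

/-- (h3): the chart rings are integrally closed in `F` (weak form: roots). -/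
theorem cht_h3 (s : Set F) {m : ℕ} (hm : 0 < m) {x : F} (hx : x ^ m ∈ chtO A0 s) :
    x ∈ chtO A0 s := by
  rw [cht_mem_iff] at hx ⊢
  exact IsIntegral.of_pow hm hx

/-- The chart rings are integrally closed in `F` (strong form). -/
theorem cht_integral_closed (s : Set F) {x : F} (hx : IsIntegral (chtO A0 s) x) :
    x ∈ chtO A0 s := by
  rw [cht_mem_iff]
  have h1 : Algebra.IsIntegral (Algebra.adjoin A0 s) (integralClosure (Algebra.adjoin A0 s) F) :=
    inferInstance
  have h2 : IsIntegral (integralClosure (Algebra.adjoin A0 s) F) x := by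
    obtain ⟨p, hp, hc, hpx⟩ := (cht_isIntegral_iff _ x).mp hx
    exact (cht_isIntegral_iff (A0 := ↥(Algebra.adjoin A0 s))
      (integralClosure (Algebra.adjoin A0 s) F) x).mpr ⟨p, hp, hc, hpx⟩
  exact isIntegral_trans x h2

/-- Every element of `A0[t, t⁻¹]` becomes an element of `A0[t]` after multiplication by a power
of `t`. -/
theorem cht_adjoin_pair (t : F) (ht : t ≠ 0) {c : F} (hc : c ∈ Algebra.adjoin A0 {t, t⁻¹}) :
    ∃ n : ℕ, ∀ k, n ≤ k → c * t ^ k ∈ Algebra.adjoin A0 {t} := by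
  have htm : t ∈ Algebra.adjoin A0 ({t} : Set F) := Algebra.subset_adjoin rfl
  induction hc using Algebra.adjoin_induction with
  | mem x hx =>
    rcases hx with rfl | rfl
    · exact ⟨0, fun k _ => mul_mem htm (pow_mem htm k)⟩
    · refine ⟨1, fun k hk => ?_⟩
      obtain ⟨j, rfl⟩ := Nat.exists_eq_add_of_le hk
      rw [pow_add, pow_one, ← mul_assoc, inv_mul_cancel₀ ht, one_mul]
      exact pow_mem htm j
  | algebraMap r => exact ⟨0, fun k _ => mul_mem (Subalgebra.algebraMap_mem _ r) (pow_mem htm k)⟩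
  | add x y _ _ hx hy =>
    obtain ⟨n, hn⟩ := hx
    obtain ⟨n', hn'⟩ := hy
    refine ⟨max n n', fun k hk => ?_⟩
    rw [add_mul]
    exact add_mem (hn k (le_trans (le_max_left _ _) hk)) (hn' k (le_trans (le_max_right _ _) hk))
  | mul x y _ _ hx hy =>
    obtain ⟨n, hn⟩ := hx
    obtain ⟨n', hn'⟩ := hy
    refine ⟨n + n', fun k hk => ?_⟩
    obtain ⟨j, rfl⟩ := Nat.exists_eq_add_of_le hk
    have : x * y * t ^ (n + n' + j) = (x * t ^ n) * (y * t ^ (n' + j)) := by ring
    rw [this]
    exact mul_mem (hn n le_rfl) (hn' (n' + j) (Nat.le_add_right _ _))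

/-- (h2), first half: `x ∈ O01 ↔ ∃ n, x * t ^ n ∈ O0`. -/
theorem cht_h2 (t : F) (ht : t ≠ 0) (x : F) :
    x ∈ chtO A0 {t, t⁻¹} ↔ ∃ n : ℕ, x * t ^ n ∈ chtO A0 {t} := by
  constructor
  · intro hx
    rw [cht_mem_iff_poly] at hx
    obtain ⟨p, hp, hc, hpx⟩ := hx
    have hN : ∃ N : ℕ, ∀ i, ∀ k, N ≤ k → p.coeff i * t ^ k ∈ Algebra.adjoin A0 {t} := by
      choose n hn using fun i => cht_adjoin_pair (A0 := A0) t ht (hc i)
      refine ⟨(Finset.range (p.natDegree + 1)).sup n, fun i k hk => ?_⟩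
      by_cases hi : i ≤ p.natDegree
      · exact hn i k (le_trans (Finset.le_sup (Finset.mem_range.mpr (Nat.lt_succ_of_le hi))) hk)
      · rw [coeff_eq_zero_of_natDegree_lt (not_le.mp hi), zero_mul]
        exact zero_mem _
    obtain ⟨N, hN⟩ := hN
    refine ⟨N + 1, ?_⟩
    rw [cht_mem_iff_poly]
    refine ⟨p.scaleRoots (t ^ (N + 1)), (monic_scaleRoots_iff _).mpr hp, fun i => ?_, ?_⟩
    · rw [coeff_scaleRoots]
      by_cases hi : i < p.natDegree
      · rw [← pow_mul]
        refine hN i _ ?_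
        have : 1 ≤ p.natDegree - i := by omega
        calc N ≤ (N + 1) * 1 := by omega
          _ ≤ (N + 1) * (p.natDegree - i) := Nat.mul_le_mul_left _ this
      · rcases Nat.eq_or_lt_of_le (not_lt.mp hi) with h | h
        · rw [← h, hp.coeff_natDegree, Nat.sub_self, pow_zero, mul_one]
          exact one_mem _
        · rw [coeff_eq_zero_of_natDegree_lt h, zero_mul]
          exact zero_mem _
    · rw [mul_comm, scaleRoots_eval_mul, hpx, mul_zero]
  · rintro ⟨n, hn⟩
    have h1 : x * t ^ n ∈ chtO A0 {t, t⁻¹} := cht_mono (by simp) hn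
    have h2 : t⁻¹ ∈ chtO A0 ({t, t⁻¹} : Set F) :=
      cht_adjoin_le _ (Algebra.subset_adjoin (by simp))
    have h3 : x = x * t ^ n * t⁻¹ ^ n := by
      rw [mul_assoc, ← mul_pow, mul_inv_cancel₀ ht, one_pow, mul_one]
    rw [h3]
    exact mul_mem h1 (pow_mem h2 n)

/-- (h2), second half: `x ∈ O01 ↔ ∃ n, x * t⁻¹ ^ n ∈ O1`. -/
theorem cht_h2' (t : F) (ht : t ≠ 0) (x : F) :
    x ∈ chtO A0 {t, t⁻¹} ↔ ∃ n : ℕ, x * t⁻¹ ^ n ∈ chtO A0 {t⁻¹} := by
  have h := cht_h2 (A0 := A0) t⁻¹ (inv_ne_zero ht) x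
  rw [inv_inv, Set.pair_comm] at h
  exact h

end Basic

section Finite

variable {A0 F : Type*} [CommRing A0] [Field F] [Algebra A0 F]

/-- Integrality over `A0[t]` versus integrality over the polynomial ring via `aeval t`. -/
theorem cht_isIntegral_adjoin_iff (t x : F) :
    IsIntegral (Algebra.adjoin A0 {t}) x ↔
      (aeval t : A0[X] →ₐ[A0] F).toRingHom.IsIntegralElem x := by
  rw [cht_isIntegral_iff]
  constructor
  · rintro ⟨p, hp, hc, hpx⟩
    have hl : p ∈ lifts (aeval t : A0[X] →ₐ[A0] F).toRingHom := by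
      rw [lifts_iff_coeff_lifts]
      intro n
      have := hc n
      rw [Algebra.adjoin_singleton_eq_range_aeval] at this
      exact this
    obtain ⟨q, hq, -, hqm⟩ := lifts_and_natDegree_eq_and_monic hl hp
    refine ⟨q, hqm, ?_⟩
    rw [← eval_map, hq]
    exact hpx
  · rintro ⟨q, hqm, hq⟩
    refine ⟨q.map (aeval t : A0[X] →ₐ[A0] F).toRingHom, hqm.map _, fun i => ?_, ?_⟩
    · rw [coeff_map, Algebra.adjoin_singleton_eq_range_aeval]
      exact ⟨q.coeff i, rfl⟩
    · rw [eval_map]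
      exact hq

/-- The `A0`-span of the elements `t ^ k * y`, `y ∈ b`, is stable under multiplication by
polynomials in `t`. -/
theorem cht_span_mul_aeval (t : F) (b : Set F) (p : A0[X]) {x : F}
    (hx : x ∈ Submodule.span A0 (Set.image2 (fun (k : ℕ) (y' : F) => t ^ k * y') Set.univ b)) :
    aeval t p * x ∈ Submodule.span A0 (Set.image2 (fun (k : ℕ) (y' : F) => t ^ k * y') Set.univ b) := by
  have ht : ∀ x : F, x ∈ Submodule.span A0 (Set.image2 (fun (k : ℕ) (y' : F) => t ^ k * y') Set.univ b) →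
      t * x ∈ Submodule.span A0 (Set.image2 (fun (k : ℕ) (y' : F) => t ^ k * y') Set.univ b) := by
    intro x hx
    induction hx using Submodule.span_induction with
    | mem x hx =>
      obtain ⟨k, -, y, hy, rfl⟩ := hx
      refine Submodule.subset_span ⟨k + 1, Set.mem_univ _, y, hy, ?_⟩
      show t ^ (k + 1) * y = t * (t ^ k * y)
      ring
    | zero => rw [mul_zero]; exact zero_mem _
    | add x y _ _ hx hy => rw [mul_add]; exact add_mem hx hy
    | smul a x _ hx => rw [mul_smul_comm]; exact Submodule.smul_mem _ a hx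
  have htn : ∀ n : ℕ, ∀ x : F,
      x ∈ Submodule.span A0 (Set.image2 (fun (k : ℕ) (y' : F) => t ^ k * y') Set.univ b) →
      t ^ n * x ∈ Submodule.span A0 (Set.image2 (fun (k : ℕ) (y' : F) => t ^ k * y') Set.univ b) := by
    intro n
    induction n with
    | zero => intro x hx; rw [pow_zero, one_mul]; exact hx
    | succ n ih => intro x hx; rw [pow_succ, mul_assoc]; exact ih _ (ht x hx)
  induction p using Polynomial.induction_on' with
  | add p q hp hq => rw [map_add, add_mul]; exact add_mem hp hq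
  | monomial n a =>
    rw [aeval_monomial, mul_assoc, ← Algebra.smul_def]
    exact Submodule.smul_mem _ a (htn n x hx)

variable [IsDomain A0] [IsDiscreteValuationRing A0] [CharZero A0]

/-- (h4): the chart ring `O0` is finitely generated over `A0[t]`, in the elementwise form
consumed by `conn_finite`. -/
theorem cht_h4 (t : F) (ht : Transcendental A0 t)
    (hfin : ∃ (n : ℕ) (β : Fin n → F), ∀ x : F, ∃ (a : Fin n → A0[X]) (d : A0[X]),
      aeval t d ≠ 0 ∧ aeval t d * x = ∑ i, aeval t (a i) * β i) :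
    ∃ b : Finset F, (∀ y ∈ b, y ∈ chtO A0 {t}) ∧
      ∀ y ∈ chtO A0 {t}, y ∈ Submodule.span A0
        (Set.image2 (fun (k : ℕ) (y' : F) => t ^ k * y') Set.univ (b : Set F)) := by
  classical
  let _ : Algebra A0[X] F := (aeval t : A0[X] →ₐ[A0] F).toRingHom.toAlgebra
  have halg : ∀ p : A0[X], algebraMap A0[X] F p = aeval t p := fun p => rfl
  have hinj : Function.Injective (algebraMap A0[X] F) := transcendental_iff_injective.mp ht
  have : FaithfulSMul A0[X] F := (faithfulSMul_iff_algebraMap_injective _ _).mpr hinj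
  let _ : Algebra (FractionRing A0[X]) F := FractionRing.liftAlgebra A0[X] F
  have : IsScalarTower A0[X] (FractionRing A0[X]) F :=
    FractionRing.isScalarTower_liftAlgebra A0[X] F
  have : FiniteDimensional (FractionRing A0[X]) F := by
    obtain ⟨n, β, hβ⟩ := hfin
    refine ⟨⟨Finset.univ.image β, ?_⟩⟩
    rw [eq_top_iff]
    intro x _
    obtain ⟨a, d, hd, hx⟩ := hβ x
    have hx' : x = ∑ i, (algebraMap A0[X] (FractionRing A0[X]) (a i) /
        algebraMap A0[X] (FractionRing A0[X]) d) • β i := by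
      have h1 : ∀ i, (algebraMap A0[X] (FractionRing A0[X]) (a i) /
          algebraMap A0[X] (FractionRing A0[X]) d) • β i = aeval t (a i) * β i / aeval t d := by
        intro i
        rw [Algebra.smul_def, map_div₀, ← IsScalarTower.algebraMap_apply,
          ← IsScalarTower.algebraMap_apply, halg, halg]
        ring
      rw [Finset.sum_congr rfl fun i _ => h1 i, ← Finset.sum_div, ← hx]
      field_simp
    rw [hx']
    refine Submodule.sum_mem _ fun i _ => Submodule.smul_mem _ _ (Submodule.subset_span ?_)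
    simp
  have : CharZero (FractionRing A0[X]) :=
    charZero_of_injective_algebraMap (IsFractionRing.injective A0[X] (FractionRing A0[X]))
  have hfinite : Module.Finite A0[X] (integralClosure A0[X] F) :=
    IsIntegralClosure.finite A0[X] (FractionRing A0[X]) F (integralClosure A0[X] F)
  obtain ⟨s, hs⟩ := hfinite.fg_top
  have hmem : ∀ y : F, y ∈ chtO A0 {t} ↔ IsIntegral A0[X] y := fun y =>
    cht_mem_iff.trans (cht_isIntegral_adjoin_iff t y)
  refine ⟨s.image Subtype.val, ?_, ?_⟩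
  · intro y hy
    obtain ⟨z, -, rfl⟩ := Finset.mem_image.mp hy
    exact (hmem _).mpr z.2
  · intro y hy
    have hy' : (⟨y, (hmem y).mp hy⟩ : integralClosure A0[X] F) ∈
        Submodule.span A0[X] (s : Set (integralClosure A0[X] F)) := hs ▸ Submodule.mem_top
    have key : ∀ w : integralClosure A0[X] F,
        w ∈ Submodule.span A0[X] (s : Set (integralClosure A0[X] F)) →
        (w : F) ∈ Submodule.span A0
          (Set.image2 (fun (k : ℕ) (y' : F) => t ^ k * y') Set.univ
            ((s.image Subtype.val : Finset F) : Set F)) := by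
      intro w hw
      induction hw using Submodule.span_induction with
      | mem x hx =>
        refine Submodule.subset_span ⟨0, Set.mem_univ _, (x : F), ?_, by simp⟩
        simp only [Finset.coe_image, Set.mem_image, Finset.mem_coe]
        exact ⟨x, hx, rfl⟩
      | zero => exact zero_mem _
      | add x y _ _ hx hy => exact add_mem hx hy
      | smul a x _ hx =>
        have : ((a • x : integralClosure A0[X] F) : F) = aeval t a * (x : F) := by
          rw [← halg, ← Algebra.smul_def]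
          rfl
        rw [this]
        exact cht_span_mul_aeval t _ a hx
    exact key _ hy'

end Finite

section Gauss

variable {A0 K0 F : Type*} [CommRing A0] [IsDomain A0] [IsDiscreteValuationRing A0]
  [Field K0] [Algebra A0 K0] [IsFractionRing A0 K0]
  [Field F] [Algebra A0 F] [Algebra K0 F] [IsScalarTower A0 K0 F]

omit [IsDomain A0] [IsDiscreteValuationRing A0] in
/-- The chart ring `chtO A0 s` is contained in every valuation subring containing `A0` and `s`. -/
theorem cht_le_valuationSubring (V : ValuationSubring F) (hA : ∀ a : A0, algebraMap A0 F a ∈ V)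
    {s : Set F} (hs : ∀ y ∈ s, y ∈ V) {x : F} (hx : x ∈ chtO A0 s) : x ∈ V := by
  rw [cht_mem_iff] at hx
  refine valext_mem_of_isIntegral V (S := Algebra.adjoin A0 s) ?_ x hx
  rintro ⟨y, hy⟩
  show y ∈ V
  induction hy using Algebra.adjoin_induction with
  | mem x hx => exact hs x hx
  | algebraMap r => exact hA r
  | add x y _ _ hx hy => exact V.add_mem _ _ hx hy
  | mul x y _ _ hx hy => exact V.mul_mem _ _ hx hy

theorem cht_nonunits_mul (V : ValuationSubring F) {x y : F} (hx : x ∈ V.nonunits) (hy : y ∈ V) :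
    x * y ∈ V.nonunits := by
  rw [ValuationSubring.mem_nonunits_iff, map_mul] at *
  have h2 := (V.valuation_le_one_iff _).mpr hy
  exact lt_of_le_of_lt (mul_le_of_le_one_right' h2) hx

/-- `V ∩ K0 = A0` for a valuation subring containing `A0` in which the uniformizer is a
non-unit. -/
theorem cht_algebraMap_mem_iff (V : ValuationSubring F) (hA : ∀ a : A0, algebraMap A0 F a ∈ V)
    {τ : A0} (hτ : Irreducible τ) (hτV : algebraMap A0 F τ ∈ V.nonunits) (c : K0) :
    algebraMap K0 F c ∈ V ↔ ∃ a : A0, algebraMap A0 K0 a = c := by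
  constructor
  · intro hc
    by_cases hc0 : c = 0
    · exact ⟨0, by rw [map_zero, hc0]⟩
    obtain ⟨a, b, hb, hab⟩ := IsFractionRing.div_surjective (A := A0) c
    have hb0 : b ≠ 0 := nonZeroDivisors.ne_zero hb
    have ha0 : a ≠ 0 := by
      rintro rfl
      rw [map_zero, zero_div] at hab
      exact hc0 hab.symm
    obtain ⟨i, u, hu⟩ := IsDiscreteValuationRing.eq_unit_mul_pow_irreducible ha0 hτ
    obtain ⟨j, v, hv⟩ := IsDiscreteValuationRing.eq_unit_mul_pow_irreducible hb0 hτ
    have hbK : algebraMap A0 K0 b ≠ 0 := by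
      rw [Ne, map_eq_zero_iff _ (IsFractionRing.injective A0 K0)]
      exact hb0
    by_cases hij : j ≤ i
    · obtain ⟨d, rfl⟩ := Nat.exists_eq_add_of_le hij
      refine ⟨u * ↑(v⁻¹) * τ ^ d, ?_⟩
      rw [← hab, eq_div_iff hbK, ← map_mul, hu, hv]
      congr 1
      have : (v : A0) * ↑(v⁻¹) = 1 := Units.mul_inv v
      calc ↑u * ↑v⁻¹ * τ ^ d * (↑v * τ ^ j) = ↑u * τ ^ (j + d) * (↑v * ↑v⁻¹) := by ring
        _ = ↑u * τ ^ (j + d) := by rw [this, mul_one]
    · exfalso
      rw [not_le] at hij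
      obtain ⟨d, rfl⟩ := Nat.exists_eq_add_of_le hij.le
      have hd : 0 < d := by omega
      have hτK : algebraMap A0 K0 τ ≠ 0 := by
        rw [Ne, map_eq_zero_iff _ (IsFractionRing.injective A0 K0)]
        exact hτ.ne_zero
      have hcinv : c⁻¹ = algebraMap A0 K0 (τ * (↑v * ↑(u⁻¹) * τ ^ (d - 1))) := by
        have hu' : (algebraMap A0 K0 (u : A0)) * algebraMap A0 K0 ((u⁻¹ : A0ˣ) : A0) = 1 := by
          rw [← map_mul, Units.mul_inv, map_one]
        have huK : algebraMap A0 K0 (u : A0) ≠ 0 := left_ne_zero_of_mul_eq_one hu'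
        have huinv : algebraMap A0 K0 ((u⁻¹ : A0ˣ) : A0) = (algebraMap A0 K0 (u : A0))⁻¹ :=
          eq_inv_of_mul_eq_one_right hu'
        have hd' : d = (d - 1) + 1 := by omega
        rw [← hab, hu, hv, inv_div]
        simp only [map_mul, map_pow, huinv]
        rw [div_eq_iff (mul_ne_zero huK (pow_ne_zero _ hτK))]
        have hp : algebraMap A0 K0 τ ^ (i + d) =
            algebraMap A0 K0 τ ^ i * (algebraMap A0 K0 τ * algebraMap A0 K0 τ ^ (d - 1)) := by
          rw [← pow_succ', ← hd', pow_add]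
        rw [hp]
        field_simp
      have h1 : algebraMap K0 F c⁻¹ ∈ V.nonunits := by
        rw [hcinv, ← IsScalarTower.algebraMap_apply, map_mul]
        exact cht_nonunits_mul V hτV (hA _)
      rw [map_inv₀, ValuationSubring.inv_mem_nonunits_iff] at h1
      rcases h1 with h1 | h1
      · rw [map_eq_zero] at h1
        exact hc0 h1
      · exact h1 hc
  · rintro ⟨a, rfl⟩
    rw [← IsScalarTower.algebraMap_apply]
    exact hA a

/-- The Gauss property: a polynomial over `K0` whose value at `t` lies in `V` has coefficients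
in `A0`. -/
theorem cht_gauss (V : ValuationSubring F) (hA : ∀ a : A0, algebraMap A0 F a ∈ V)
    {τ : A0} (hτ : Irreducible τ) (hτV : algebraMap A0 F τ ∈ V.nonunits) (t : F)
    (hG : ∀ p : A0[X], (∃ i, ¬ τ ∣ p.coeff i) → aeval t p ∉ V.nonunits)
    (r : K0[X]) (hr : aeval t r ∈ V) : ∃ r₀ : A0[X], r₀.map (algebraMap A0 K0) = r := by
  have hτK : algebraMap A0 K0 τ ≠ 0 := by
    rw [Ne, map_eq_zero_iff _ (IsFractionRing.injective A0 K0)]
    exact hτ.ne_zero
  have key : ∀ n : ℕ, ∀ r' : A0[X], ∀ r : K0[X], aeval t r ∈ V →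
      r'.map (algebraMap A0 K0) = C (algebraMap A0 K0 τ ^ n) * r →
      ∃ r₀ : A0[X], r₀.map (algebraMap A0 K0) = r := by
    intro n
    induction n with
    | zero =>
      intro r' r _ h
      exact ⟨r', by rw [h, pow_zero, C_1, one_mul]⟩
    | succ n ih =>
      intro r' r hr h
      have h1 : aeval t r' ∈ V.nonunits := by
        have : aeval t r' = algebraMap A0 F τ * (algebraMap A0 F (τ ^ n) * aeval t r) := by
          rw [← aeval_map_algebraMap K0 t r', h, map_mul, aeval_C, pow_succ, map_mul,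
            ← IsScalarTower.algebraMap_apply, map_pow, ← IsScalarTower.algebraMap_apply, map_pow]
          ring
        rw [this]
        exact cht_nonunits_mul V hτV (V.mul_mem _ _ (hA _) hr)
      have h2 : ∀ i, τ ∣ r'.coeff i := by
        by_contra hcon
        rw [not_forall] at hcon
        exact hG r' hcon h1
      obtain ⟨r'', rfl⟩ := (C_dvd_iff_dvd_coeff τ r').mpr h2
      refine ih r'' r hr ?_
      rw [Polynomial.map_mul, map_C, pow_succ, C_mul, mul_comm (C (algebraMap A0 K0 τ ^ n)),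
        mul_assoc] at h
      exact mul_left_cancel₀ (C_ne_zero.mpr hτK) h
  obtain ⟨b, hb, hb'⟩ := IsLocalization.integerNormalization_spec (nonZeroDivisors A0) r
  have hb0 : b ≠ 0 := nonZeroDivisors.ne_zero hb
  obtain ⟨n, u, hu⟩ := IsDiscreteValuationRing.eq_unit_mul_pow_irreducible hb0 hτ
  refine key n (C ((u⁻¹ : A0ˣ) : A0) * IsLocalization.integerNormalization (nonZeroDivisors A0) r)
    r hr ?_
  have hcalc : (↑u⁻¹ : A0) * b = τ ^ n := by
    rw [hu]
    calc (↑u⁻¹ : A0) * (↑u * τ ^ n) = (↑u⁻¹ * ↑u) * τ ^ n := by ring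
      _ = τ ^ n := by rw [Units.inv_mul, one_mul]
  have hsm : b • r = C (algebraMap A0 K0 b) * r := by
    rw [Algebra.smul_def, Polynomial.algebraMap_apply, IsScalarTower.algebraMap_apply A0 K0 K0,
      Algebra.algebraMap_self, RingHom.id_apply]
  rw [Polynomial.map_mul, hb', map_C, hsm, ← mul_assoc, ← C_mul, ← map_mul, hcalc, map_pow]

end Gauss

section Main

variable {A0 K0 F : Type*} [CommRing A0] [IsDomain A0] [IsDiscreteValuationRing A0]
  [Field K0] [Algebra A0 K0] [IsFractionRing A0 K0]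
  [Field F] [Algebra A0 F] [Algebra K0 F] [IsScalarTower A0 K0 F]

/-- (h5), the integrality lemma on a chart: if `x ∈ O0` and `x / τ` lies in the Gauss ring `V`
then `x / τ ∈ O0`.  Here `V` is the unique valuation subring of `F` with its trace on `K0(t)`
(hypothesis `huniq`, elementwise), `hG` says that primitive polynomials in `t` are units of `V`,
and `hfin` that `F` is finite over `K0(t)`. -/
theorem cht_h5 (V : ValuationSubring F) (hA : ∀ a : A0, algebraMap A0 F a ∈ V)
    {τ : A0} (hτ : Irreducible τ) (hτV : algebraMap A0 F τ ∈ V.nonunits) (t : F)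
    (ht : Transcendental K0 t)
    (hG : ∀ p : A0[X], (∃ i, ¬ τ ∣ p.coeff i) → aeval t p ∉ V.nonunits)
    (hfin : ∃ (n : ℕ) (β : Fin n → F), ∀ x : F, ∃ (a : Fin n → A0[X]) (d : A0[X]),
      aeval t d ≠ 0 ∧ aeval t d * x = ∑ i, aeval t (a i) * β i)
    (huniq : ∀ O' : ValuationSubring F,
      (∀ p q : K0[X], aeval t q ≠ 0 →
        (aeval t p / aeval t q ∈ O' ↔ aeval t p / aeval t q ∈ V)) → O' = V)
    {x : F} (hx : x ∈ chtO A0 {t}) (hxV : x * (algebraMap A0 F τ)⁻¹ ∈ V) :
    x * (algebraMap A0 F τ)⁻¹ ∈ chtO A0 {t} := by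
  classical
  let _ : Algebra K0[X] F := (aeval t : K0[X] →ₐ[K0] F).toRingHom.toAlgebra
  have halgK : ∀ p : K0[X], algebraMap K0[X] F p = aeval t p := fun p => rfl
  have hinj : Function.Injective (algebraMap K0[X] F) := transcendental_iff_injective.mp ht
  have : FaithfulSMul K0[X] F := (faithfulSMul_iff_algebraMap_injective _ _).mpr hinj
  let _ : Algebra (FractionRing K0[X]) F := FractionRing.liftAlgebra K0[X] F
  have : IsScalarTower K0[X] (FractionRing K0[X]) F :=
    FractionRing.isScalarTower_liftAlgebra K0[X] F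
  have : FiniteDimensional (FractionRing K0[X]) F := by
    obtain ⟨n, β, hβ⟩ := hfin
    refine ⟨⟨Finset.univ.image β, ?_⟩⟩
    rw [eq_top_iff]
    intro x _
    obtain ⟨a, d, hd, hx⟩ := hβ x
    have hx' : x = ∑ i, (algebraMap K0[X] (FractionRing K0[X]) ((a i).map (algebraMap A0 K0)) /
        algebraMap K0[X] (FractionRing K0[X]) (d.map (algebraMap A0 K0))) • β i := by
      have h1 : ∀ i, (algebraMap K0[X] (FractionRing K0[X]) ((a i).map (algebraMap A0 K0)) /
          algebraMap K0[X] (FractionRing K0[X]) (d.map (algebraMap A0 K0))) • β i =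
          aeval t (a i) * β i / aeval t d := by
        intro i
        rw [Algebra.smul_def, map_div₀, ← IsScalarTower.algebraMap_apply,
          ← IsScalarTower.algebraMap_apply, halgK, halgK, aeval_map_algebraMap,
          aeval_map_algebraMap]
        ring
      rw [Finset.sum_congr rfl fun i _ => h1 i, ← Finset.sum_div, ← hx]
      field_simp
    rw [hx']
    refine Submodule.sum_mem _ fun i _ => Submodule.smul_mem _ _ (Submodule.subset_span ?_)
    simp
  let _ : Algebra A0[X] K0[X] := (mapRingHom (algebraMap A0 K0)).toAlgebra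
  let _ : Algebra A0[X] F := (aeval t : A0[X] →ₐ[A0] F).toRingHom.toAlgebra
  have : IsScalarTower A0[X] K0[X] F := IsScalarTower.of_algebraMap_eq fun p => by
    show aeval t p = aeval t (p.map (algebraMap A0 K0))
    rw [aeval_map_algebraMap]
  have hxi : IsIntegral A0[X] x := (cht_isIntegral_adjoin_iff t x).mp (cht_mem_iff.mp hx)
  have hxK : IsIntegral K0[X] x := hxi.tower_top
  have hτi : (algebraMap A0 F τ)⁻¹ = algebraMap K0[X] F (C (algebraMap A0 K0 τ)⁻¹) := by
    rw [halgK, aeval_C, map_inv₀, ← IsScalarTower.algebraMap_apply]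
  have hyK : IsIntegral K0[X] (x * (algebraMap A0 F τ)⁻¹) := by
    rw [hτi]
    exact hxK.mul isIntegral_algebraMap
  have hU : ∀ O' : ValuationSubring F,
      (∀ y : FractionRing K0[X], algebraMap (FractionRing K0[X]) F y ∈ O' ↔
        algebraMap (FractionRing K0[X]) F y ∈ V) → O' = V := by
    intro O' h
    apply huniq O'
    intro p q _
    have := h (algebraMap K0[X] (FractionRing K0[X]) p / algebraMap K0[X] (FractionRing K0[X]) q)
    rw [map_div₀, ← IsScalarTower.algebraMap_apply, ← IsScalarTower.algebraMap_apply, halgK,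
      halgK] at this
    exact this
  have hR₀ : ∀ r : K0[X], algebraMap K0[X] F r ∈ V →
      ∃ r₀ : A0[X], algebraMap A0[X] K0[X] r₀ = r := by
    intro r hr
    exact cht_gauss V hA hτ hτV t hG r hr
  have hfinal : IsIntegral A0[X] (x * (algebraMap A0 F τ)⁻¹) :=
    valext_integral (L := FractionRing K0[X]) (R := K0[X]) V hU (R₀ := A0[X]) hR₀ _ hxV hyK
  exact cht_mem_iff.mpr ((cht_isIntegral_adjoin_iff t _).mpr hfinal)

/-- (h8), constants: an element of `O0 ∩ O1` is a constant of `A0`, provided `K0` is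
algebraically closed in `F`. -/
theorem cht_h8 (V : ValuationSubring F) (hA : ∀ a : A0, algebraMap A0 F a ∈ V)
    {τ : A0} (hτ : Irreducible τ) (hτV : algebraMap A0 F τ ∈ V.nonunits) (t : F)
    (hconst : ∀ x : F, IsAlgebraic K0 x → ∃ c : K0, algebraMap K0 F c = x)
    {x : F} (h0 : x ∈ chtO A0 {t}) (h1 : x ∈ chtO A0 {t⁻¹}) (hxV : x ∈ V) :
    ∃ a : A0, algebraMap A0 F a = x := by
  have hmem : x ∈ (⨅ W : {W : ValuationSubring F //
      ((algebraMap K0 F).range : Set F) ⊆ W.toSubring}, W.1.toSubring) := by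
    rw [Subring.mem_iInf]
    rintro ⟨W, hW⟩
    have hAW : ∀ a : A0, algebraMap A0 F a ∈ W := fun a =>
      hW ⟨algebraMap A0 K0 a, (IsScalarTower.algebraMap_apply A0 K0 F a).symm⟩
    rcases W.mem_or_inv_mem t with ht | ht
    · exact cht_le_valuationSubring W hAW (s := {t}) (by rintro y rfl; exact ht) h0
    · exact cht_le_valuationSubring W hAW (s := {t⁻¹}) (by rintro y rfl; exact ht) h1
  rw [iInf_valuationSubring_superset, Subring.closure_eq] at hmem
  have hint : IsIntegral (algebraMap K0 F).range x := hmem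
  have halg : IsAlgebraic K0 x := by
    obtain ⟨p, hp, hpx⟩ := hint
    have hl : p ∈ lifts (algebraMap K0 F).rangeRestrict := by
      rw [lifts_iff_coeff_lifts]
      intro n
      exact (algebraMap K0 F).rangeRestrict_surjective _
    obtain ⟨q, hq, -, hqm⟩ := lifts_and_natDegree_eq_and_monic hl hp
    refine IsIntegral.isAlgebraic ⟨q, hqm, ?_⟩
    rw [← hq, eval₂_map] at hpx
    exact hpx
  obtain ⟨c, rfl⟩ := hconst x halg
  obtain ⟨a, rfl⟩ := (cht_algebraMap_mem_iff V hA hτ hτV c).mp hxV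
  exact ⟨a, IsScalarTower.algebraMap_apply A0 K0 F a⟩

end Main

section Reflect

variable {R F : Type*} [CommRing R] [Field F] [Algebra R F]

/-- Evaluating the reflected polynomial at `t⁻¹`. -/
theorem cht_aeval_inv_reflect (t : F) (ht0 : t ≠ 0) (N : ℕ) (f : R[X]) (hf : f.natDegree ≤ N) :
    aeval t⁻¹ (reflect N f) = aeval t f * t⁻¹ ^ N := by
  let _ := invertibleOfNonzero ht0
  have h := eval₂_reflect_mul_pow (algebraMap R F) t N f hf
  rw [invOf_eq_inv] at h
  rw [aeval_def, aeval_def, ← h, mul_assoc, ← mul_pow, mul_inv_cancel₀ ht0, one_pow, mul_one]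

/-- The finiteness hypothesis `hfin` passes from `t` to `t⁻¹`. -/
theorem cht_hfin_inv (t : F) (ht0 : t ≠ 0)
    (hfin : ∃ (n : ℕ) (β : Fin n → F), ∀ x : F, ∃ (a : Fin n → R[X]) (d : R[X]),
      aeval t d ≠ 0 ∧ aeval t d * x = ∑ i, aeval t (a i) * β i) :
    ∃ (n : ℕ) (β : Fin n → F), ∀ x : F, ∃ (a : Fin n → R[X]) (d : R[X]),
      aeval t⁻¹ d ≠ 0 ∧ aeval t⁻¹ d * x = ∑ i, aeval t⁻¹ (a i) * β i := by
  obtain ⟨n, β, hβ⟩ := hfin
  refine ⟨n, β, fun x => ?_⟩
  obtain ⟨a, d, hd, hx⟩ := hβ x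
  set N := d.natDegree + ∑ i, (a i).natDegree with hN
  have hdN : d.natDegree ≤ N := Nat.le_add_right _ _
  have haN : ∀ i, (a i).natDegree ≤ N := fun i =>
    le_trans (Finset.single_le_sum (f := fun i => (a i).natDegree) (fun _ _ => Nat.zero_le _)
      (Finset.mem_univ i)) (Nat.le_add_left _ _)
  refine ⟨fun i => reflect N (a i), reflect N d, ?_, ?_⟩
  · rw [cht_aeval_inv_reflect t ht0 N d hdN]
    exact mul_ne_zero hd (pow_ne_zero _ (inv_ne_zero ht0))
  · rw [cht_aeval_inv_reflect t ht0 N d hdN]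
    simp only [cht_aeval_inv_reflect t ht0 N _ (haN _)]
    rw [mul_right_comm, hx, Finset.sum_mul]
    exact Finset.sum_congr rfl fun i _ => by ring

end Reflect

section Transfer

variable {A0 K0 F : Type*} [CommRing A0] [Field K0] [Field F] [Algebra A0 F] [Algebra K0 F]

/-- The unit hypothesis `hG` passes from `t` to `t⁻¹`. -/
theorem cht_hG_inv (V : ValuationSubring F) (τ : A0) (t : F) (ht0 : t ≠ 0) (htV : t ∈ V)
    (hG : ∀ p : A0[X], (∃ i, ¬ τ ∣ p.coeff i) → aeval t p ∉ V.nonunits) :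
    ∀ p : A0[X], (∃ i, ¬ τ ∣ p.coeff i) → aeval t⁻¹ p ∉ V.nonunits := by
  rintro p ⟨i, hi⟩ hcon
  set N := max p.natDegree i with hN
  have h1 := cht_aeval_inv_reflect (R := A0) t⁻¹ (inv_ne_zero ht0) N p (le_max_left _ _)
  rw [inv_inv] at h1
  have h2 : aeval t (reflect N p) ∈ V.nonunits := by
    rw [h1]
    exact cht_nonunits_mul V hcon (V.pow_mem htV N)
  refine hG (reflect N p) ⟨revAt N i, ?_⟩ h2
  rw [coeff_reflect, revAt_invol]
  exact hi

/-- The uniqueness hypothesis `huniq` passes from `t` to `t⁻¹`. -/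
theorem cht_huniq_inv (V : ValuationSubring F) (t : F) (ht0 : t ≠ 0)
    (huniq : ∀ O' : ValuationSubring F,
      (∀ p q : K0[X], aeval t q ≠ 0 →
        (aeval t p / aeval t q ∈ O' ↔ aeval t p / aeval t q ∈ V)) → O' = V) :
    ∀ O' : ValuationSubring F,
      (∀ p q : K0[X], aeval t⁻¹ q ≠ 0 →
        (aeval t⁻¹ p / aeval t⁻¹ q ∈ O' ↔ aeval t⁻¹ p / aeval t⁻¹ q ∈ V)) → O' = V := by
  intro O' h
  apply huniq O'
  intro p q hq
  set N := max p.natDegree q.natDegree with hN
  have hp' := cht_aeval_inv_reflect (R := K0) t ht0 N p (le_max_left _ _)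
  have hq' := cht_aeval_inv_reflect (R := K0) t ht0 N q (le_max_right _ _)
  have key : aeval t p / aeval t q = aeval t⁻¹ (reflect N p) / aeval t⁻¹ (reflect N q) := by
    rw [hp', hq', mul_div_mul_right _ _ (pow_ne_zero _ (inv_ne_zero ht0))]
  rw [key]
  exact h _ _ (by rw [hq']; exact mul_ne_zero hq (pow_ne_zero _ (inv_ne_zero ht0)))

end Transfer

section Frac

variable {A0 F : Type*} [CommRing A0] [IsDomain A0] [Field F] [Algebra A0 F]

/-- Every element of `F` has a nonzero multiple by a polynomial in `t` lying in the chart ring. -/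
theorem cht_exists_multiple (t : F) (ht : Transcendental A0 t)
    (hfin : ∃ (n : ℕ) (β : Fin n → F), ∀ x : F, ∃ (a : Fin n → A0[X]) (d : A0[X]),
      aeval t d ≠ 0 ∧ aeval t d * x = ∑ i, aeval t (a i) * β i) (x : F) :
    ∃ y : A0[X], y ≠ 0 ∧ aeval t y * x ∈ chtO A0 {t} := by
  classical
  let _ : Algebra A0[X] F := (aeval t : A0[X] →ₐ[A0] F).toRingHom.toAlgebra
  have halg : ∀ p : A0[X], algebraMap A0[X] F p = aeval t p := fun p => rfl
  have hinj : Function.Injective (algebraMap A0[X] F) := transcendental_iff_injective.mp ht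
  have : FaithfulSMul A0[X] F := (faithfulSMul_iff_algebraMap_injective _ _).mpr hinj
  let _ : Algebra (FractionRing A0[X]) F := FractionRing.liftAlgebra A0[X] F
  have : IsScalarTower A0[X] (FractionRing A0[X]) F :=
    FractionRing.isScalarTower_liftAlgebra A0[X] F
  have : FiniteDimensional (FractionRing A0[X]) F := by
    obtain ⟨n, β, hβ⟩ := hfin
    refine ⟨⟨Finset.univ.image β, ?_⟩⟩
    rw [eq_top_iff]
    intro x _
    obtain ⟨a, d, hd, hx⟩ := hβ x
    have hx' : x = ∑ i, (algebraMap A0[X] (FractionRing A0[X]) (a i) /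
        algebraMap A0[X] (FractionRing A0[X]) d) • β i := by
      have h1 : ∀ i, (algebraMap A0[X] (FractionRing A0[X]) (a i) /
          algebraMap A0[X] (FractionRing A0[X]) d) • β i = aeval t (a i) * β i / aeval t d := by
        intro i
        rw [Algebra.smul_def, map_div₀, ← IsScalarTower.algebraMap_apply,
          ← IsScalarTower.algebraMap_apply, halg, halg]
        ring
      rw [Finset.sum_congr rfl fun i _ => h1 i, ← Finset.sum_div, ← hx]
      field_simp
    rw [hx']
    refine Submodule.sum_mem _ fun i _ => Submodule.smul_mem _ _ (Submodule.subset_span ?_)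
    simp
  have h1 : IsAlgebraic (FractionRing A0[X]) x := Algebra.IsAlgebraic.isAlgebraic x
  have h2 : IsAlgebraic A0[X] x := (IsFractionRing.isAlgebraic_iff A0[X] (FractionRing A0[X]) F).mpr h1
  obtain ⟨y, hy0, hy⟩ := h2.exists_integral_multiple
  refine ⟨y, hy0, ?_⟩
  have h3 : y • x = aeval t y * x := by rw [Algebra.smul_def, halg]
  rw [← h3]
  exact cht_mem_iff.mpr ((cht_isIntegral_adjoin_iff t _).mpr hy)

/-- `Frac O0 = F`, in the shape of `cz_main.hfrac0`. -/
theorem cht_hfrac (t : F) (ht : Transcendental A0 t)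
    (hfin : ∃ (n : ℕ) (β : Fin n → F), ∀ x : F, ∃ (a : Fin n → A0[X]) (d : A0[X]),
      aeval t d ≠ 0 ∧ aeval t d * x = ∑ i, aeval t (a i) * β i) (x : F) :
    ∃ a ∈ chtO A0 {t}, ∃ s ∈ chtO A0 {t}, s ≠ 0 ∧ x * s = a := by
  obtain ⟨y, hy0, hy⟩ := cht_exists_multiple t ht hfin x
  refine ⟨aeval t y * x, hy, aeval t y, ?_, ?_, mul_comm _ _⟩
  · refine cht_adjoin_le _ ?_
    rw [Algebra.adjoin_singleton_eq_range_aeval]
    exact ⟨y, rfl⟩
  · intro h
    exact hy0 (transcendental_iff_injective.mp ht (by rw [h, map_zero]))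

end Frac

section Bundle

variable {A0 K0 F : Type*} [CommRing A0] [IsDomain A0] [IsDiscreteValuationRing A0]
  [Field K0] [Algebra A0 K0] [IsFractionRing A0 K0]
  [Field F] [Algebra A0 F] [Algebra K0 F] [IsScalarTower A0 K0 F]

/-- `O0 ∩ m_V = τ O0`, in the shape of `cz_main.hVτ0`. -/
theorem cht_hVtau (V : ValuationSubring F) (hA : ∀ a : A0, algebraMap A0 F a ∈ V)
    {τ : A0} (hτ : Irreducible τ) (hτV : algebraMap A0 F τ ∈ V.nonunits)
    (hτgen : ∀ x ∈ V.nonunits, x * (algebraMap A0 F τ)⁻¹ ∈ V) (t : F)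
    (ht : Transcendental K0 t)
    (hG : ∀ p : A0[X], (∃ i, ¬ τ ∣ p.coeff i) → aeval t p ∉ V.nonunits)
    (hfin : ∃ (n : ℕ) (β : Fin n → F), ∀ x : F, ∃ (a : Fin n → A0[X]) (d : A0[X]),
      aeval t d ≠ 0 ∧ aeval t d * x = ∑ i, aeval t (a i) * β i)
    (huniq : ∀ O' : ValuationSubring F,
      (∀ p q : K0[X], aeval t q ≠ 0 →
        (aeval t p / aeval t q ∈ O' ↔ aeval t p / aeval t q ∈ V)) → O' = V)
    (x : F) (hx : x ∈ chtO A0 {t}) (hxV : x ∈ V.nonunits) :
    ∃ y ∈ chtO A0 {t}, x = algebraMap A0 F τ * y := by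
  have hτF : algebraMap A0 F τ ≠ 0 := by
    rw [IsScalarTower.algebraMap_apply A0 K0 F, Ne, map_eq_zero,
      map_eq_zero_iff _ (IsFractionRing.injective A0 K0)]
    exact hτ.ne_zero
  refine ⟨x * (algebraMap A0 F τ)⁻¹, cht_h5 V hA hτ hτV t ht hG hfin huniq hx (hτgen x hxV), ?_⟩
  field_simp

/-- All chart hypotheses of the abstract core `cz_main` for the integral-closure charts
`O0 = chtO A0 {t}`, `O1 = chtO A0 {t⁻¹}`. -/
theorem cht_all [CharZero K0] (V : ValuationSubring F) (hA : ∀ a : A0, algebraMap A0 F a ∈ V)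
    {τ : A0} (hτ : Irreducible τ) (hτV : algebraMap A0 F τ ∈ V.nonunits)
    (hτgen : ∀ x ∈ V.nonunits, x * (algebraMap A0 F τ)⁻¹ ∈ V) (t : F)
    (ht : Transcendental K0 t) (htV : t ∈ V) (htV' : t⁻¹ ∈ V)
    (hG : ∀ p : A0[X], (∃ i, ¬ τ ∣ p.coeff i) → aeval t p ∉ V.nonunits)
    (hfin : ∃ (n : ℕ) (β : Fin n → F), ∀ x : F, ∃ (a : Fin n → A0[X]) (d : A0[X]),
      aeval t d ≠ 0 ∧ aeval t d * x = ∑ i, aeval t (a i) * β i)
    (huniq : ∀ O' : ValuationSubring F,
      (∀ p q : K0[X], aeval t q ≠ 0 →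
        (aeval t p / aeval t q ∈ O' ↔ aeval t p / aeval t q ∈ V)) → O' = V)
    (hconst : ∀ x : F, IsAlgebraic K0 x → ∃ c : K0, algebraMap K0 F c = x)
    (m : ℕ) (hm : 0 < m) :
    t * t⁻¹ = 1 ∧ t ∈ chtO A0 {t} ∧ t⁻¹ ∈ chtO A0 {t⁻¹} ∧
    (∃ b0 : Finset F, (∀ y ∈ b0, y ∈ chtO A0 {t}) ∧ ∀ y ∈ chtO A0 {t}, y ∈ Submodule.span A0
      (Set.image2 (fun (k : ℕ) (y' : F) => t ^ k * y') Set.univ (b0 : Set F))) ∧
    (∃ b1 : Finset F, (∀ y ∈ b1, y ∈ chtO A0 {t⁻¹}) ∧ ∀ y ∈ chtO A0 {t⁻¹}, y ∈ Submodule.span A0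
      (Set.image2 (fun (k : ℕ) (y' : F) => t⁻¹ ^ k * y') Set.univ (b1 : Set F))) ∧
    (∀ x ∈ chtO A0 {t}, ∃ n : ℕ, x * t⁻¹ ^ n ∈ chtO A0 {t⁻¹}) ∧
    (∀ x ∈ chtO A0 {t⁻¹}, ∃ n : ℕ, x * t ^ n ∈ chtO A0 {t}) ∧
    (∀ x : F, ∃ a ∈ chtO A0 {t}, ∃ s ∈ chtO A0 {t}, s ≠ 0 ∧ x * s = a) ∧
    (∀ z : F, z ^ m ∈ chtO A0 {t} → z ∈ chtO A0 {t}) ∧
    (∀ z : F, z ^ m ∈ chtO A0 {t⁻¹} → z ∈ chtO A0 {t⁻¹}) ∧
    (∀ x ∈ chtO A0 {t}, x ∈ chtO A0 {t⁻¹} → x ∈ Set.range (algebraMap A0 F)) ∧
    (∀ x ∈ chtO A0 {t}, x ∈ V) ∧ (∀ x ∈ chtO A0 {t⁻¹}, x ∈ V) ∧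
    (∀ x ∈ chtO A0 {t}, x ∈ V.nonunits → ∃ y ∈ chtO A0 {t}, x = algebraMap A0 F τ * y) ∧
    (∀ x ∈ chtO A0 {t⁻¹}, x ∈ V.nonunits → ∃ y ∈ chtO A0 {t⁻¹}, x = algebraMap A0 F τ * y) := by
  have ht0 : t ≠ 0 := by
    rintro rfl
    exact ht (isAlgebraic_zero)
  have : CharZero A0 := (algebraMap A0 K0).charZero
  have htA : Transcendental A0 t := fun h =>
    ht (h.extendScalars (IsFractionRing.injective A0 K0))
  have ht' : Transcendental K0 t⁻¹ := fun h => ht (IsAlgebraic.inv_iff.mp h)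
  have htA' : Transcendental A0 t⁻¹ := fun h =>
    ht' (h.extendScalars (IsFractionRing.injective A0 K0))
  have hV0 : ∀ x ∈ chtO A0 {t}, x ∈ V := fun x hx =>
    cht_le_valuationSubring V hA (s := {t}) (by rintro y rfl; exact htV) hx
  have hV1 : ∀ x ∈ chtO A0 {t⁻¹}, x ∈ V := fun x hx =>
    cht_le_valuationSubring V hA (s := {t⁻¹}) (by rintro y rfl; exact htV') hx
  have hfin' := cht_hfin_inv (R := A0) t ht0 hfin
  have hG' := cht_hG_inv V τ t ht0 htV hG
  have huniq' := cht_huniq_inv (K0 := K0) V t ht0 huniq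
  refine ⟨mul_inv_cancel₀ ht0, (cht_h1 t).1, (cht_h1 t).2, cht_h4 t htA hfin,
    cht_h4 t⁻¹ htA' hfin', ?_, ?_, cht_hfrac t htA hfin, fun z hz => cht_h3 _ hm hz,
    fun z hz => cht_h3 _ hm hz, ?_, hV0, hV1, ?_, ?_⟩
  · intro x hx
    exact (cht_h2' t ht0 x).mp (cht_mono (by simp) hx)
  · intro x hx
    exact (cht_h2 t ht0 x).mp (cht_mono (by simp) hx)
  · intro x h0 h1
    exact cht_h8 (K0 := K0) V hA hτ hτV t hconst h0 h1 (hV0 x h0)
  · intro x hx hxV
    exact cht_hVtau V hA hτ hτV hτgen t ht hG hfin huniq x hx hxV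
  · intro x hx hxV
    exact cht_hVtau V hA hτ hτV hτgen t⁻¹ ht' hG' hfin' huniq' x hx hxV

end Bundle

section Const

/-- An element of `K0((q))` algebraic over `K0` is a constant. -/
theorem cht_const {K0 : Type*} [Field K0] (x : LaurentSeries K0) (hx : IsAlgebraic K0 x) :
    ∃ c : K0, algebraMap K0 (LaurentSeries K0) c = x := by
  classical
  let W : ValuationSubring (LaurentSeries K0) :=
    (Valued.v : Valuation (LaurentSeries K0) (WithZero (Multiplicative ℤ))).valuationSubring
  have hW : ∀ y : LaurentSeries K0, y ∈ W ↔ ∃ f : PowerSeries K0, (f : LaurentSeries K0) = y :=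
    fun y => by
      rw [Valuation.mem_valuationSubring_iff]
      exact LaurentSeries.val_le_one_iff_eq_coe K0 y
  have hC : ∀ c : K0, algebraMap K0 (LaurentSeries K0) c =
      ((PowerSeries.C c : PowerSeries K0) : LaurentSeries K0) := by
    intro c
    rw [HahnSeries.algebraMap_apply']
    congr 1
  have hK : ∀ c : K0, algebraMap K0 (LaurentSeries K0) c ∈ W := fun c =>
    (hW _).mpr ⟨PowerSeries.C c, (hC c).symm⟩
  have hint : ∀ y : LaurentSeries K0, IsAlgebraic K0 y → y ∈ W := fun y hy =>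
    valext_mem_of_isIntegral W (S := K0) hK y hy.isIntegral
  obtain ⟨f, hf⟩ := (hW x).mp (hint x hx)
  refine ⟨PowerSeries.constantCoeff f, ?_⟩
  by_contra hne
  have hy0 : x - algebraMap K0 _ (PowerSeries.constantCoeff f) ≠ 0 := sub_ne_zero.mpr (Ne.symm hne)
  have hyalg : IsAlgebraic K0 (x - algebraMap K0 _ (PowerSeries.constantCoeff f)) :=
    hx.sub (isAlgebraic_algebraMap _)
  obtain ⟨g', hg'⟩ := (hW _).mp (hint _ (IsAlgebraic.inv_iff.mpr hyalg))
  have hy : x - algebraMap K0 _ (PowerSeries.constantCoeff f) =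
      ((f - PowerSeries.C (PowerSeries.constantCoeff f) : PowerSeries K0) : LaurentSeries K0) := by
    rw [PowerSeries.coe_sub, hf, hC]
  have h1 : ((f - PowerSeries.C (PowerSeries.constantCoeff f)) * g' : PowerSeries K0) = 1 := by
    apply (HahnSeries.ofPowerSeries_injective (Γ := ℤ) (R := K0))
    show (((f - PowerSeries.C (PowerSeries.constantCoeff f)) * g' : PowerSeries K0) :
      LaurentSeries K0) = ((1 : PowerSeries K0) : LaurentSeries K0)
    rw [PowerSeries.coe_mul, ← hy, hg', mul_inv_cancel₀ hy0, PowerSeries.coe_one]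
  have h2 := congrArg PowerSeries.constantCoeff h1
  simp at h2

/-- `K0` is algebraically closed in every field embedded in `K0((q))`: the hypothesis `hconst`
of `cht_h8` / `cht_all`. -/
theorem cht_hconst_of_embedding {K0 F : Type*} [Field K0] [Field F] [Algebra K0 F]
    (ι : F →ₐ[K0] LaurentSeries K0) (x : F) (hx : IsAlgebraic K0 x) :
    ∃ c : K0, algebraMap K0 F c = x := by
  obtain ⟨c, hc⟩ := cht_const (ι x) (hx.algHom ι)
  exact ⟨c, ι.toRingHom.injective (by
    show ι (algebraMap K0 F c) = ι x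
    rw [AlgHom.commutes, hc])⟩

end Const

section Bridge

variable {A0 F : Type*} [CommRing A0] [Field F] [Algebra A0 F]

/-- Transfer of `IsDedekindDomain` along a ring isomorphism. -/
theorem cht_isDedekindDomain_of_equiv {R S : Type*} [CommRing R] [CommRing S] (φ : R ≃+* S)
    (h : IsDedekindDomain S) : IsDedekindDomain R := by
  have hdom : IsDomain R := φ.toMulEquiv.isDomain S
  have hn : IsNoetherianRing R := isNoetherianRing_of_ringEquiv S φ.symm
  have hdim : Ring.DimensionLEOne R := Ring.DimensionLEOne.of_ringEquiv φ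
  have hic : IsIntegrallyClosed R := IsIntegrallyClosed.of_equiv φ.symm
  exact { hdom, hn, hdim, hic with }

/-- The chart ring `chtO A0 {t}` is the integral closure of the polynomial ring `A0[X]` acting
through `X ↦ t`. -/
theorem cht_mem_iff_isIntegral_poly (t : F) [Algebra A0[X] F]
    (halg : ∀ p : A0[X], algebraMap A0[X] F p = aeval t p) (x : F) :
    x ∈ chtO A0 {t} ↔ IsIntegral A0[X] x := by
  rw [cht_mem_iff, cht_isIntegral_adjoin_iff]
  have : algebraMap A0[X] F = (aeval t : A0[X] →ₐ[A0] F).toRingHom := RingHom.ext halg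
  unfold IsIntegral
  rw [this]

/-- Bridge from the (SM) statement for `integralClosure A0[X] F` (output shape of `SMCore`) to
the quotient of the chart subalgebra (input shape of the abstract core). -/
theorem cht_dedekind_bridge (t : F) (τ : A0) [Algebra A0[X] F]
    (halg : ∀ p : A0[X], algebraMap A0[X] F p = aeval t p)
    (h : IsDedekindDomain (integralClosure A0[X] F ⧸
      Ideal.span {algebraMap A0[X] (integralClosure A0[X] F) (C τ)})) :
    IsDedekindDomain (chtO A0 {t} ⧸ Ideal.span {algebraMap A0 (chtO A0 {t}) τ}) := by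
  have hmem : ∀ x : F, x ∈ integralClosure A0[X] F ↔ x ∈ chtO A0 {t} := fun x =>
    (cht_mem_iff_isIntegral_poly t halg x).symm
  let e : chtO A0 {t} ≃+* integralClosure A0[X] F :=
    { toFun := fun x => ⟨x.1, (hmem x.1).mpr x.2⟩
      invFun := fun x => ⟨x.1, (hmem x.1).mp x.2⟩
      left_inv := fun x => rfl
      right_inv := fun x => rfl
      map_mul' := fun x y => rfl
      map_add' := fun x y => rfl }
  have hIJ : Ideal.span {algebraMap A0[X] (integralClosure A0[X] F) (C τ)} =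
      (Ideal.span {algebraMap A0 (chtO A0 {t}) τ}).map (e : chtO A0 {t} →+* integralClosure A0[X] F) := by
    rw [Ideal.map_span, Set.image_singleton]
    congr 2
    apply Subtype.ext
    show algebraMap A0[X] F (C τ) = algebraMap A0 F τ
    rw [halg, aeval_C]
  exact cht_isDedekindDomain_of_equiv (Ideal.quotientEquiv _ _ e hIJ) h

end Bridge


end Fermat.Agent.S18
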