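import Mathlib
import Fermat.Agent.S18.Charts

/-!
# S18, package CHARTS (part 2): adapters for the hypotheses of `cht_all`

The hypotheses `huniq`, `hτgen`, `hfin`, `hconst` of `cht_all` are derived from the shapes
exported by the Gauss-ring package: uniqueness and a spanning family over a subfield `L` of
`K0(t)` (e.g. `L = K0(j)`), the decomposition `x = c * u` of nonzero elements, and an embedding
into Laurent series.
-/

set_option autoImplicit false

namespace Fermat.Agent.S18

open Polynomial
open scoped IntermediateField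

section Adapt

variable {A0 K0 F : Type*} [CommRing A0] [IsDomain A0] [IsDiscreteValuationRing A0]
  [Field K0] [Algebra A0 K0] [IsFractionRing A0 K0]
  [Field F] [Algebra A0 F] [Algebra K0 F] [IsScalarTower A0 K0 F]

omit [IsDomain A0] [IsDiscreteValuationRing A0] [IsFractionRing A0 K0] [IsScalarTower A0 K0 F]
  [Algebra A0 K0] [Algebra A0 F] in
/-- `huniq` of `cht_all` from uniqueness over a subfield `L` of `K0(t)`. -/
theorem cht_huniq_of_sub {L : Type*} [Field L] [Algebra L F] (V : ValuationSubring F) (t : F)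
    (hL : ∀ y : L, algebraMap L F y ∈ K0⟮t⟯)
    (h : ∀ O' : ValuationSubring F,
      (∀ y : L, algebraMap L F y ∈ O' ↔ algebraMap L F y ∈ V) → O' = V) :
    ∀ O' : ValuationSubring F,
      (∀ p q : K0[X], aeval t q ≠ 0 →
        (aeval t p / aeval t q ∈ O' ↔ aeval t p / aeval t q ∈ V)) → O' = V := by
  intro O' h'
  apply h O'
  intro y
  obtain ⟨r, s, hy⟩ := (IntermediateField.mem_adjoin_simple_iff K0 _).mp (hL y)
  rw [hy]
  by_cases hs : aeval t s = 0
  · rw [hs, div_zero]
    exact ⟨fun _ => V.zero_mem, fun _ => O'.zero_mem⟩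
  · exact h' r s hs

/-- `hτgen` of `cht_all` from the decomposition `x = c * u` (`c ∈ K0`, `u` a unit of `V`) of the
nonzero elements of `F`. -/
theorem cht_htaugen_of_decomp (V : ValuationSubring F) (hA : ∀ a : A0, algebraMap A0 F a ∈ V)
    {τ : A0} (hτ : Irreducible τ) (hτV : algebraMap A0 F τ ∈ V.nonunits)
    (hdec : ∀ x : F, x ≠ 0 → ∃ (c : K0) (u : F), u ∈ V ∧ u⁻¹ ∈ V ∧ x = algebraMap K0 F c * u) :
    ∀ x ∈ V.nonunits, x * (algebraMap A0 F τ)⁻¹ ∈ V := by
  intro x hx
  by_cases hx0 : x = 0
  · rw [hx0, zero_mul]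
    exact V.zero_mem
  obtain ⟨c, u, hu, hu', rfl⟩ := hdec x hx0
  have hu0 : u ≠ 0 := right_ne_zero_of_mul hx0
  have hc : algebraMap K0 F c ∈ V.nonunits := by
    have := cht_nonunits_mul V hx hu'
    rwa [mul_assoc, mul_inv_cancel₀ hu0, mul_one] at this
  have hcV : algebraMap K0 F c ∈ V := by
    rw [← ValuationSubring.valuation_le_one_iff]
    exact le_of_lt ((ValuationSubring.mem_nonunits_iff V).mp hc)
  obtain ⟨a, rfl⟩ := (cht_algebraMap_mem_iff V hA hτ hτV c).mp hcV
  have hτF : algebraMap A0 F τ ≠ 0 := by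
    rw [IsScalarTower.algebraMap_apply A0 K0 F, Ne, map_eq_zero,
      map_eq_zero_iff _ (IsFractionRing.injective A0 K0)]
    exact hτ.ne_zero
  have ha : τ ∣ a := by
    by_contra hna
    have hunit : IsUnit a := by
      by_contra hnu
      have hmem : a ∈ IsLocalRing.maximalIdeal A0 := (IsLocalRing.mem_maximalIdeal a).mpr hnu
      rw [hτ.maximalIdeal_eq, Ideal.mem_span_singleton] at hmem
      exact hna hmem
    obtain ⟨b, hb⟩ := isUnit_iff_exists_inv.mp hunit
    have h1 : algebraMap A0 F a * algebraMap A0 F b = 1 := by rw [← map_mul, hb, map_one]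
    rw [← IsScalarTower.algebraMap_apply] at hc
    have h2 := cht_nonunits_mul V hc (hA b)
    rw [h1, ValuationSubring.mem_nonunits_iff, map_one] at h2
    exact lt_irrefl _ h2
  obtain ⟨a', rfl⟩ := ha
  have h3 : algebraMap K0 F (algebraMap A0 K0 (τ * a')) * u * (algebraMap A0 F τ)⁻¹ =
      algebraMap A0 F a' * u := by
    rw [← IsScalarTower.algebraMap_apply, map_mul]
    field_simp
  rw [h3]
  exact V.mul_mem _ _ (hA a') hu

/-- `hfin` of `cht_all` from a finite spanning family over a subfield `L` of `K0(t)`. -/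
theorem cht_hfin_of_span {L : Type*} [Field L] [Algebra L F] (t : F)
    (ht : Transcendental K0 t) (hL : ∀ y : L, algebraMap L F y ∈ K0⟮t⟯)
    {n : ℕ} (b : Fin n → F)
    (hspan : ∀ x : F, ∃ a : Fin n → L, x = ∑ i, algebraMap L F (a i) * b i) :
    ∃ (n : ℕ) (β : Fin n → F), ∀ x : F, ∃ (a : Fin n → A0[X]) (d : A0[X]),
      aeval t d ≠ 0 ∧ aeval t d * x = ∑ i, aeval t (a i) * β i := by
  classical
  refine ⟨n, b, fun x => ?_⟩
  obtain ⟨a, hx⟩ := hspan x
  have hfrac : ∀ i, ∃ r s : K0[X], s ≠ 0 ∧ algebraMap L F (a i) * aeval t s = aeval t r := by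
    intro i
    obtain ⟨r, s, hy⟩ := (IntermediateField.mem_adjoin_simple_iff K0 _).mp (hL (a i))
    by_cases hs : s = 0
    · refine ⟨0, 1, one_ne_zero, ?_⟩
      rw [hy, hs, map_zero, div_zero, zero_mul]
    · refine ⟨r, s, hs, ?_⟩
      rw [hy, div_mul_cancel₀]
      exact fun h0 => hs (transcendental_iff_injective.mp ht (by rw [h0, map_zero]))
  choose r s hs hrs using hfrac
  set D : K0[X] := ∏ i, s i with hD
  set num : Fin n → K0[X] := fun i => r i * ∏ j ∈ Finset.univ.erase i, s j with hnum
  have hD0 : D ≠ 0 := Finset.prod_ne_zero_iff.mpr fun i _ => hs i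
  have hDt : aeval t D ≠ 0 := fun h0 =>
    hD0 (transcendental_iff_injective.mp ht (by rw [h0, map_zero]))
  have hmain : aeval t D * x = ∑ i, aeval t (num i) * b i := by
    rw [hx, Finset.mul_sum]
    refine Finset.sum_congr rfl fun i _ => ?_
    have h1 : D = s i * ∏ j ∈ Finset.univ.erase i, s j :=
      (Finset.mul_prod_erase Finset.univ s (Finset.mem_univ i)).symm
    rw [h1, hnum, map_mul, map_mul, ← hrs i]
    ring
  -- clear the denominators of the coefficients
  obtain ⟨c, hc⟩ := IsLocalization.exist_integer_multiples_of_finset (nonZeroDivisors A0)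
    (D.coeffs ∪ Finset.univ.biUnion fun i => (num i).coeffs)
  have hlift : ∀ p : K0[X], p.coeffs ⊆ (D.coeffs ∪ Finset.univ.biUnion fun i => (num i).coeffs) →
      ∃ p' : A0[X], p'.map (algebraMap A0 K0) = (c : A0) • p := by
    intro p hp
    have hl : (c : A0) • p ∈ lifts (algebraMap A0 K0) := by
      rw [lifts_iff_coeff_lifts]
      intro m
      rw [coeff_smul]
      by_cases h0 : p.coeff m = 0
      · exact ⟨0, by rw [h0, smul_zero, map_zero]⟩
      · exact hc _ (hp (coeff_mem_coeffs h0))
    exact hl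
  obtain ⟨d, hd⟩ := hlift D Finset.subset_union_left
  have hnum' : ∀ i, ∃ p' : A0[X], p'.map (algebraMap A0 K0) = (c : A0) • num i := fun i =>
    hlift (num i) (fun y hy => Finset.mem_union_right _ (Finset.mem_biUnion.mpr ⟨i, Finset.mem_univ i, hy⟩))
  choose a' ha' using hnum'
  have hcF : algebraMap A0 F (c : A0) ≠ 0 := by
    rw [IsScalarTower.algebraMap_apply A0 K0 F, Ne, map_eq_zero,
      map_eq_zero_iff _ (IsFractionRing.injective A0 K0)]
    exact nonZeroDivisors.ne_zero c.2
  have hev : ∀ (p : K0[X]) (p' : A0[X]), p'.map (algebraMap A0 K0) = (c : A0) • p →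
      aeval t p' = algebraMap A0 F (c : A0) * aeval t p := by
    intro p p' h
    have hsm : (c : A0) • p = C (algebraMap A0 K0 (c : A0)) * p := by
      rw [Algebra.smul_def, Polynomial.algebraMap_apply, IsScalarTower.algebraMap_apply A0 K0 K0,
        Algebra.algebraMap_self, RingHom.id_apply]
    rw [← aeval_map_algebraMap K0 t p', h, hsm, map_mul, aeval_C,
      ← IsScalarTower.algebraMap_apply]
  refine ⟨a', d, ?_, ?_⟩
  · rw [hev D d hd]
    exact mul_ne_zero hcF hDt
  · rw [hev D d hd, mul_assoc, hmain, Finset.mul_sum]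
    refine Finset.sum_congr rfl fun i _ => ?_
    rw [hev (num i) (a' i) (ha' i), mul_assoc]

end Adapt

section Const

/-- `hconst` of `cht_all` for an intermediate field of `K0((q))`. -/
theorem cht_hconst_intermediateField {K0 : Type*} [Field K0]
    (E : IntermediateField K0 (LaurentSeries K0)) (x : E) (hx : IsAlgebraic K0 x) :
    ∃ c : K0, algebraMap K0 E c = x :=
  cht_hconst_of_embedding E.val x hx

end Const

end Fermat.Agent.S18
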