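import Mathlib
import Fermat.Prelude.Def_AlgebraicCurve_DivisorClassGroup
import Fermat.Prelude.Def_FLTPrelim_Ramification
import Fermat.Agent.S24.SumFormulaBase

/-!
# S18, work package COREINST, part 1: the place hypothesis of the abstract core

The abstract core theorem (`cz_main`) takes the hypothesis "`m ∣ ord_P f` at every place" in the
form: for every valuation subring `V` of `F` which contains the image of the discrete valuation
ring `A`, contains the inverse of the uniformizer `τ` and is a principal ideal ring, there is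
`w ≠ 0` such that `f * w ^ m` is a unit of `V`.  Here this is derived from the divisibility of
`Q.ord f` for all places `Q : AlgebraicCurve.Place K F`, `K = Frac A`.
-/

set_option autoImplicit false

open AlgebraicCurve

namespace Fermat.Agent.S18

section Hord

variable {A K F : Type*} [CommRing A] [IsDomain A] [IsDiscreteValuationRing A] [Field K] [Field F]
  [Algebra A K] [IsFractionRing A K] [Algebra K F] [Algebra A F] [IsScalarTower A K F]

/-- A valuation subring of `F` containing the image of the discrete valuation ring `A` and the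
inverse of a uniformizer contains the image of `K = Frac A`. -/
theorem cinst_field_mem (τ : A) (hτ : Irreducible τ) (V : ValuationSubring F)
    (hA : ∀ a : A, algebraMap A F a ∈ V) (hτV : (algebraMap A F τ)⁻¹ ∈ V) (c : K) :
    algebraMap K F c ∈ V := by
  obtain ⟨a, b, hb, rfl⟩ := IsFractionRing.div_surjective (A := A) c
  have hb0 : b ≠ 0 := nonZeroDivisors.ne_zero hb
  obtain ⟨n, u, hu⟩ := IsDiscreteValuationRing.eq_unit_mul_pow_irreducible hb0 hτ
  have hmap : ∀ x : A, algebraMap K F (algebraMap A K x) = algebraMap A F x := fun x =>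
    (IsScalarTower.algebraMap_apply A K F x).symm
  rw [map_div₀, hmap, hmap, hu, map_mul, map_pow, div_eq_mul_inv, mul_inv, ← inv_pow]
  have huinv : (algebraMap A F (u : A))⁻¹ = algebraMap A F ((u⁻¹ : Aˣ) : A) :=
    (eq_inv_of_mul_eq_one_left (by
      rw [← map_mul, ← Units.val_mul, inv_mul_cancel, Units.val_one, map_one])).symm
  rw [huinv]
  exact V.mul_mem _ _ (hA a) (V.mul_mem _ _ (hA _) (pow_mem hτV n))

/-- The place hypothesis of the abstract core theorem, from divisibility of `ord` at all places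
over `K = Frac A`. -/
theorem cinst_hord (τ : A) (hτ : Irreducible τ) (m : ℕ) (f : F)
    (hdiv : ∀ Q : Place K F, (m : ℤ) ∣ Q.ord f)
    (V : ValuationSubring F) (hA : ∀ a : A, algebraMap A F a ∈ V)
    (hτV : (algebraMap A F τ)⁻¹ ∈ V) (hV : IsPrincipalIdealRing V) :
    ∃ w : F, w ≠ 0 ∧ f * w ^ m ∈ V ∧ (f * w ^ m)⁻¹ ∈ V := by
  by_cases hVtop : V = ⊤
  · subst hVtop
    exact ⟨1, one_ne_zero, ValuationSubring.mem_top _, ValuationSubring.mem_top _⟩
  rcases eq_or_ne f 0 with rfl | hf
  · refine ⟨1, one_ne_zero, ?_, ?_⟩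
    · rw [zero_mul]; exact V.zero_mem
    · rw [zero_mul, inv_zero]; exact V.zero_mem
  obtain ⟨Q, hQ⟩ : ∃ Q : Place K F, Q.toValuationSubring = V :=
    ⟨⟨V, cinst_field_mem τ hτ V hA hτV, hVtop, hV⟩, rfl⟩
  subst hQ
  obtain ⟨k, hk⟩ := hdiv Q
  obtain ⟨π, hπ⟩ := IsDiscreteValuationRing.exists_irreducible Q.toValuationSubring
  have hπ0 : (π : F) ≠ 0 := by
    intro h
    exact hπ.ne_zero (Subtype.ext h)
  have hw0 : (π : F) ^ (-k) ≠ 0 := zpow_ne_zero _ hπ0
  have hx0 : f * ((π : F) ^ (-k)) ^ m ≠ 0 := mul_ne_zero hf (pow_ne_zero _ hw0)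
  have hord : Q.ord (f * ((π : F) ^ (-k)) ^ m) = 0 := by
    rw [Q.ord_mul hf (pow_ne_zero _ hw0), ← zpow_natCast, Q.ord_zpow, Q.ord_zpow,
      Q.ord_coe_irreducible hπ, hk]
    ring
  refine ⟨(π : F) ^ (-k), hw0, ?_, ?_⟩
  · exact (Fermat.Agent.S24.sf_ord_nonneg_iff Q _).mp hord.ge
  · exact (Fermat.Agent.S24.sf_ord_nonpos_iff Q _).mp hord.le

end Hord

section Unit

variable {K : Type*} [Field K]

/-- A natural number prime to the residue characteristic is a unit of the valuation ring. -/
theorem cinst_isUnit_natCast (A : ValuationSubring K) (ℓ : ℕ) (hA : A.LiesOverPrime ℓ) (d : ℕ)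
    (hd : d.Coprime ℓ) : IsUnit ((d : ℕ) : A) := by
  have h1 : A.valuation (d : K) ≤ 1 := (A.valuation_le_one_iff _).mpr (natCast_mem A d)
  have hval : A.valuation (d : K) = 1 := by
    refine le_antisymm h1 (not_lt.mp fun hlt => ?_)
    obtain ⟨a, b, hab⟩ := (Nat.isCoprime_iff_coprime.mpr hd : IsCoprime (d : ℤ) (ℓ : ℤ))
    have h2 : (a : K) * (d : K) + (b : K) * (ℓ : K) = 1 := by
      exact_mod_cast congrArg (Int.cast : ℤ → K) hab
    have hℓ : A.valuation (ℓ : K) < 1 := (A.mem_nonunits_iff).mp hA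
    have ha : A.valuation (a : K) ≤ 1 := (A.valuation_le_one_iff _).mpr (intCast_mem A a)
    have hb : A.valuation (b : K) ≤ 1 := (A.valuation_le_one_iff _).mpr (intCast_mem A b)
    have h3 : A.valuation ((a : K) * (d : K) + (b : K) * (ℓ : K)) < 1 := by
      refine lt_of_le_of_lt (A.valuation.map_add _ _) (max_lt ?_ ?_)
      · rw [map_mul]
        exact lt_of_le_of_lt (mul_le_of_le_one_left' ha) hlt
      · rw [map_mul]
        exact lt_of_le_of_lt (mul_le_of_le_one_left' hb) hℓ
    rw [h2, map_one] at h3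
    exact lt_irrefl _ h3
  have hcoe : (((d : ℕ) : A) : K) = (d : K) := by simp
  rw [ValuationSubring.valuation_eq_one_iff, hcoe]
  exact hval

end Unit

end Fermat.Agent.S18
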