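import Mathlib

/-!
# Local algebra for the smooth-special-fibre argument

* `cz_prime_eq_span`, `cz_ufd`: a noetherian local domain `R` with a prime element `τ` of the
  maximal ideal such that every prime ideal not containing `τ` is generated by one element
  modulo `τ` is a unique factorization domain.
* `cz_pow_of_multiplicity`, `cz_unit_mul_pow`: in the fraction field of a unique factorization
  domain, an element which is a unit times an `m`-th power at every prime element is globally a
  unit times an `m`-th power.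
* `cz_valSubring`, `cz_valSubring_pid`: the valuation subring of the fraction field attached to a
  prime element; it is a principal ideal ring.
* `cz_local`: the local statement at a closed point of the special fibre.
-/

set_option autoImplicit false

namespace Fermat.Agent.S18

/-! ### Local factoriality -/

/-- In a noetherian local ring `R` with `τ` in the maximal ideal, a prime ideal `P` not containing
`τ` and generated by `x ∈ P` modulo `τ` is generated by `x`. -/
theorem cz_prime_eq_span {R : Type*} [CommRing R] [IsNoetherianRing R] [IsLocalRing R]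
    (τ : R) (hτ : τ ∈ IsLocalRing.maximalIdeal R)
    (P : Ideal R) [hp : P.IsPrime] (hτP : τ ∉ P) (x : R) (hx : x ∈ P)
    (hP : P ≤ Ideal.span {x} ⊔ Ideal.span {τ}) : P = Ideal.span {x} := by
  refine le_antisymm ?_ ((Ideal.span_singleton_le_iff_mem _).mpr hx)
  refine Submodule.le_of_le_smul_of_le_jacobson_bot (I := Ideal.span {τ})
    (IsNoetherian.noetherian P) ?_ ?_
  · rw [IsLocalRing.jacobson_eq_maximalIdeal ⊥ bot_ne_top]
    exact (Ideal.span_singleton_le_iff_mem _).mpr hτ
  · intro y hy
    obtain ⟨u, hu, v, hv, huv⟩ := Submodule.mem_sup.mp (hP hy)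
    obtain ⟨a, rfl⟩ := Ideal.mem_span_singleton'.mp hu
    obtain ⟨z, rfl⟩ := Ideal.mem_span_singleton'.mp hv
    have hzp : z ∈ P := by
      have h1 : z * τ ∈ P := by
        have h2 : z * τ = y - a * x := by rw [← huv]; ring
        rw [h2]; exact P.sub_mem hy (P.mul_mem_left a hx)
      rcases hp.mem_or_mem h1 with h | h
      · exact h
      · exact absurd h hτP
    rw [← huv]
    refine Submodule.add_mem_sup ?_ ?_
    · exact Ideal.mem_span_singleton'.mpr ⟨a, rfl⟩
    · rw [mul_comm]; exact Submodule.smul_mem_smul (Ideal.mem_span_singleton_self τ) hzp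

/-- A noetherian local domain `R` with a prime element `τ` of the maximal ideal such that every
prime ideal not containing `τ` is generated by one element modulo `τ` is a unique factorization
domain. -/
theorem cz_ufd {R : Type*} [CommRing R] [IsDomain R] [IsNoetherianRing R] [IsLocalRing R]
    (τ : R) (hτ : τ ∈ IsLocalRing.maximalIdeal R) (hτprime : Prime τ)
    (hP : ∀ P : Ideal R, P.IsPrime → τ ∉ P →
      ∃ x ∈ P, P ≤ Ideal.span {x} ⊔ Ideal.span {τ}) :
    UniqueFactorizationMonoid R := by
  rw [UniqueFactorizationMonoid.iff_exists_prime_mem_of_isPrime]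
  intro I hI hIprime
  by_cases hτI : τ ∈ I
  · exact ⟨τ, hτI, hτprime⟩
  · obtain ⟨x, hxI, hle⟩ := hP I hIprime hτI
    have hIx : I = Ideal.span {x} := cz_prime_eq_span τ hτ I hτI x hxI hle
    have hx0 : x ≠ 0 := by
      rintro rfl
      apply hI
      rw [hIx]; simp
    refine ⟨x, hxI, ?_⟩
    have hspan : (Ideal.span {x}).IsPrime := hIx ▸ hIprime
    exact (Ideal.span_singleton_prime hx0).mp hspan

/-! ### Units times `m`-th powers in a unique factorization domain -/

theorem cz_pow_of_multiplicity {R : Type*} [CommRing R] [IsDomain R]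
    [UniqueFactorizationMonoid R] (m : ℕ) (a : R) (ha : a ≠ 0)
    (h : ∀ p : R, Prime p → m ∣ multiplicity p a) :
    ∃ (u : Rˣ) (c : R), a = u * c ^ m := by
  revert ha h
  induction a using UniqueFactorizationMonoid.induction_on_coprime with
  | h0 => intro ha; exact absurd rfl ha
  | @h1 x hx =>
    intro _ _
    exact ⟨hx.unit, 1, by simp⟩
  | @hpr p i hp =>
    intro _ h
    obtain ⟨k, hk⟩ := h _ hp
    rw [multiplicity_pow_self_of_prime hp] at hk
    exact ⟨1, p ^ k, by rw [hk, Units.val_one, one_mul, ← pow_mul, mul_comm]⟩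
  | @hcp x y hrel hx hy =>
    intro hxy h
    have hx0 := left_ne_zero_of_mul hxy
    have hy0 := right_ne_zero_of_mul hxy
    have key : ∀ p : R, Prime p → m ∣ multiplicity p x ∧ m ∣ multiplicity p y := by
      intro p hp
      have hmul := multiplicity_mul hp (FiniteMultiplicity.of_prime_left hp hxy)
      have hm := h p hp
      rw [hmul] at hm
      by_cases hpx : p ∣ x
      · have hpy : ¬ p ∣ y := fun hpy => hp.not_isUnit (hrel hpx hpy)
        have h0 : multiplicity p y = 0 := multiplicity_eq_zero.mpr hpy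
        rw [h0, add_zero] at hm
        exact ⟨hm, by rw [h0]; exact dvd_zero m⟩
      · have h0 : multiplicity p x = 0 := multiplicity_eq_zero.mpr hpx
        rw [h0, zero_add] at hm
        exact ⟨by rw [h0]; exact dvd_zero m, hm⟩
    obtain ⟨u, c, hu⟩ := hx hx0 (fun p hp => (key p hp).1)
    obtain ⟨u', c', hu'⟩ := hy hy0 (fun p hp => (key p hp).2)
    exact ⟨u * u', c * c', by rw [hu, hu', Units.val_mul, mul_pow]; ring⟩

/-- In the fraction field `F` of a unique factorization domain `R`: if for every prime element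
`p` the element `f` is, up to an `m`-th power, a unit of the localization at `p`, then `f` is
a unit of `R` times an `m`-th power. -/
theorem cz_unit_mul_pow {R F : Type*} [CommRing R] [IsDomain R] [UniqueFactorizationMonoid R]
    [Field F] [Algebra R F] [IsFractionRing R F] (m : ℕ) (hm : 0 < m) (f : F) (hf : f ≠ 0)
    (h : ∀ p : R, Prime p → ∃ w : F, ∃ a b : R, ¬ p ∣ a ∧ ¬ p ∣ b ∧
      f * w ^ m * algebraMap R F b = algebraMap R F a) :
    ∃ (w : F) (u : Rˣ), f * w ^ m = algebraMap R F u := by
  have hinj : Function.Injective (algebraMap R F) := IsFractionRing.injective R F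
  obtain ⟨a, ⟨b, hb⟩, hrel, hab⟩ := IsFractionRing.exists_reduced_fraction (A := R) f
  have hb0 : b ≠ 0 := nonZeroDivisors.ne_zero hb
  have hfb : f * algebraMap R F b = algebraMap R F a := by
    rw [← hab]; exact IsLocalization.mk'_spec F a ⟨b, hb⟩
  have ha0 : a ≠ 0 := by
    rintro rfl
    rw [map_zero] at hfb
    rcases mul_eq_zero.mp hfb with h1 | h1
    · exact hf h1
    · exact hb0 (hinj (by rw [h1, map_zero]))
  have key : ∀ p : R, Prime p → m ∣ multiplicity p a ∧ m ∣ multiplicity p b := by
    intro p hp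
    obtain ⟨w, a', b', ha', hb', hw⟩ := h p hp
    obtain ⟨c, ⟨d, hd⟩, -, hcd⟩ := IsFractionRing.exists_reduced_fraction (A := R) w
    have hd0 : d ≠ 0 := nonZeroDivisors.ne_zero hd
    have hwd : w * algebraMap R F d = algebraMap R F c := by
      rw [← hcd]; exact IsLocalization.mk'_spec F c ⟨d, hd⟩
    have ha'0 : a' ≠ 0 := fun h0 => ha' (h0 ▸ dvd_zero p)
    have heq : a * c ^ m * b' = a' * b * d ^ m := by
      apply hinj
      simp only [map_mul, map_pow]
      rw [← hfb, ← hwd, ← hw]
      ring
    have hR0 : a' * b * d ^ m ≠ 0 := mul_ne_zero (mul_ne_zero ha'0 hb0) (pow_ne_zero _ hd0)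
    have hL0 : a * c ^ m * b' ≠ 0 := heq ▸ hR0
    have hc0 : c ≠ 0 := by
      rintro rfl
      rw [zero_pow hm.ne', mul_zero, zero_mul] at hL0
      exact hL0 rfl
    have fin : ∀ z : R, z ≠ 0 → FiniteMultiplicity p z := fun z hz =>
      FiniteMultiplicity.of_prime_left hp hz
    have e1 : multiplicity p (a * c ^ m * b') = multiplicity p a + m * multiplicity p c := by
      rw [multiplicity_mul hp (fin _ hL0), multiplicity_mul hp (fin _ (left_ne_zero_of_mul hL0)),
        (fin c hc0).multiplicity_pow hp, multiplicity_eq_zero.mpr hb', add_zero]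
    have e2 : multiplicity p (a' * b * d ^ m) = multiplicity p b + m * multiplicity p d := by
      rw [multiplicity_mul hp (fin _ hR0), multiplicity_mul hp (fin _ (left_ne_zero_of_mul hR0)),
        (fin d hd0).multiplicity_pow hp, multiplicity_eq_zero.mpr ha', zero_add]
    have e3 : multiplicity p a + m * multiplicity p c =
        multiplicity p b + m * multiplicity p d := by
      rw [← e1, ← e2, heq]
    by_cases hpa : p ∣ a
    · have hpb : ¬ p ∣ b := fun hpb => hp.not_isUnit (hrel hpa hpb)
      have hb0' : multiplicity p b = 0 := multiplicity_eq_zero.mpr hpb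
      rw [hb0', zero_add] at e3
      refine ⟨?_, by rw [hb0']; exact dvd_zero m⟩
      have h1 : m ∣ m * multiplicity p c + multiplicity p a := by
        rw [add_comm, e3]; exact dvd_mul_right _ _
      exact (Nat.dvd_add_right (dvd_mul_right m _)).mp h1
    · have ha0' : multiplicity p a = 0 := multiplicity_eq_zero.mpr hpa
      rw [ha0', zero_add] at e3
      refine ⟨by rw [ha0']; exact dvd_zero m, ?_⟩
      have h1 : m ∣ m * multiplicity p d + multiplicity p b := by
        rw [add_comm, ← e3]; exact dvd_mul_right _ _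
      exact (Nat.dvd_add_right (dvd_mul_right m _)).mp h1
  obtain ⟨u, c, hu⟩ := cz_pow_of_multiplicity m a ha0 (fun p hp => (key p hp).1)
  obtain ⟨u', c', hu'⟩ := cz_pow_of_multiplicity m b hb0 (fun p hp => (key p hp).2)
  have hc0 : c ≠ 0 := by
    rintro rfl
    rw [zero_pow hm.ne', mul_zero] at hu
    exact ha0 hu
  have hc'0 : c' ≠ 0 := by
    rintro rfl
    rw [zero_pow hm.ne', mul_zero] at hu'
    exact hb0 hu'
  have hcF : algebraMap R F c ≠ 0 := fun h0 => hc0 (hinj (by rw [h0, map_zero]))
  have hc'F : algebraMap R F c' ≠ 0 := fun h0 => hc'0 (hinj (by rw [h0, map_zero]))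
  have hu'F : algebraMap R F (u' : R) * algebraMap R F ((u'⁻¹ : Rˣ) : R) = 1 := by
    rw [← map_mul, Units.mul_inv, map_one]
  have hu'F0 : algebraMap R F (u' : R) ≠ 0 := left_ne_zero_of_mul_eq_one hu'F
  refine ⟨algebraMap R F c' / algebraMap R F c, u * u'⁻¹, ?_⟩
  have h1 : f * (algebraMap R F c' / algebraMap R F c) ^ m * algebraMap R F (u' : R) =
      algebraMap R F (u : R) := by
    have h2 : f * (algebraMap R F (u' : R) * algebraMap R F c' ^ m) =
        algebraMap R F (u : R) * algebraMap R F c ^ m := by
      rw [← map_pow, ← map_pow, ← map_mul, ← map_mul, ← hu, ← hu']; exact hfb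
    rw [div_pow]
    field_simp
    linear_combination h2
  rw [Units.val_mul, map_mul, ← h1, mul_assoc, hu'F, mul_one]

/-! ### The valuation subring attached to a prime element -/

/-- The localization of a unique factorization domain at a prime element, as a valuation subring
of the fraction field. -/
noncomputable def cz_valSubring (R F : Type*) [CommRing R] [IsDomain R]
    [UniqueFactorizationMonoid R] [Field F] [Algebra R F] [IsFractionRing R F]
    (p : R) (hp : Prime p) : ValuationSubring F where
  carrier := {x | ∃ a b : R, ¬ p ∣ b ∧ x * algebraMap R F b = algebraMap R F a}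
  mul_mem' := by
    rintro x y ⟨a, b, hb, hx⟩ ⟨a', b', hb', hy⟩
    refine ⟨a * a', b * b', fun h => ?_, ?_⟩
    · rcases hp.dvd_or_dvd h with h | h
      exacts [hb h, hb' h]
    · rw [map_mul, map_mul, ← hx, ← hy]; ring
  one_mem' := ⟨1, 1, hp.not_dvd_one, by simp⟩
  add_mem' := by
    rintro x y ⟨a, b, hb, hx⟩ ⟨a', b', hb', hy⟩
    refine ⟨a * b' + a' * b, b * b', fun h => ?_, ?_⟩
    · rcases hp.dvd_or_dvd h with h | h
      exacts [hb h, hb' h]
    · simp only [map_mul, map_add]; rw [← hx, ← hy]; ring
  zero_mem' := ⟨0, 1, hp.not_dvd_one, by simp⟩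
  neg_mem' := by
    rintro x ⟨a, b, hb, hx⟩
    exact ⟨-a, b, hb, by rw [map_neg, ← hx]; ring⟩
  mem_or_inv_mem' := by
    intro x
    have hinj : Function.Injective (algebraMap R F) := IsFractionRing.injective R F
    by_cases hx0 : x = 0
    · left; exact ⟨0, 1, hp.not_dvd_one, by simp [hx0]⟩
    obtain ⟨a, b, hb, hab⟩ := IsFractionRing.div_surjective (A := R) x
    have hb0 : b ≠ 0 := nonZeroDivisors.ne_zero hb
    have ha0 : a ≠ 0 := by
      rintro rfl
      rw [map_zero, zero_div] at hab
      exact hx0 hab.symm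
    obtain ⟨i, a', ha', rfl⟩ := WfDvdMonoid.max_power_factor ha0 hp.irreducible
    obtain ⟨j, b', hb', rfl⟩ := WfDvdMonoid.max_power_factor hb0 hp.irreducible
    have hpF : algebraMap R F p ≠ 0 := fun h0 => hp.ne_zero (hinj (by rw [h0, map_zero]))
    have ha'F : algebraMap R F a' ≠ 0 := by
      intro h0
      have h1 : a' = 0 := hinj (by rw [h0, map_zero])
      exact ha' (h1 ▸ dvd_zero p)
    have hb'F : algebraMap R F b' ≠ 0 := by
      intro h0
      have h1 : b' = 0 := hinj (by rw [h0, map_zero])
      exact hb' (h1 ▸ dvd_zero p)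
    rcases le_total j i with hji | hij
    · left
      refine ⟨p ^ (i - j) * a', b', hb', ?_⟩
      rw [← hab]
      simp only [map_mul, map_pow]
      have h1 : algebraMap R F p ^ i = algebraMap R F p ^ (i - j) * algebraMap R F p ^ j := by
        rw [← pow_add, Nat.sub_add_cancel hji]
      rw [h1]
      field_simp
    · right
      refine ⟨p ^ (j - i) * b', a', ha', ?_⟩
      rw [← hab]
      simp only [map_mul, map_pow]
      have h1 : algebraMap R F p ^ j = algebraMap R F p ^ (j - i) * algebraMap R F p ^ i := by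
        rw [← pow_add, Nat.sub_add_cancel hij]
      rw [h1]
      field_simp

theorem cz_mem_valSubring {R F : Type*} [CommRing R] [IsDomain R]
    [UniqueFactorizationMonoid R] [Field F] [Algebra R F] [IsFractionRing R F]
    (p : R) (hp : Prime p) (x : F) :
    x ∈ cz_valSubring R F p hp ↔
      ∃ a b : R, ¬ p ∣ b ∧ x * algebraMap R F b = algebraMap R F a :=
  Iff.rfl

theorem cz_valSubring_pid (R F : Type*) [CommRing R] [IsDomain R]
    [UniqueFactorizationMonoid R] [Field F] [Algebra R F] [IsFractionRing R F]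
    (p : R) (hp : Prime p) : IsPrincipalIdealRing (cz_valSubring R F p hp) := by
  classical
  have hinj : Function.Injective (algebraMap R F) := IsFractionRing.injective R F
  have hpV : algebraMap R F p ∈ cz_valSubring R F p hp := ⟨p, 1, hp.not_dvd_one, by simp⟩
  set P : cz_valSubring R F p hp := ⟨algebraMap R F p, hpV⟩ with hPdef
  have hfac : ∀ z : cz_valSubring R F p hp, z ≠ 0 →
      ∃ (k : ℕ) (u v : cz_valSubring R F p hp), u * v = 1 ∧ z = P ^ k * u := by
    rintro ⟨z, a, b, hb, hz⟩ hz0
    have hz0' : z ≠ 0 := fun h => hz0 (Subtype.ext h)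
    have hb0 : b ≠ 0 := fun h => hb (h ▸ dvd_zero p)
    have hbF : algebraMap R F b ≠ 0 := fun h0 => hb0 (hinj (by rw [h0, map_zero]))
    have ha0 : a ≠ 0 := by
      rintro rfl
      rw [map_zero] at hz
      rcases mul_eq_zero.mp hz with h | h
      · exact hz0' h
      · exact hbF h
    obtain ⟨k, a', ha', rfl⟩ := WfDvdMonoid.max_power_factor ha0 hp.irreducible
    have ha'F : algebraMap R F a' ≠ 0 := by
      intro h0
      have h1 : a' = 0 := hinj (by rw [h0, map_zero])
      exact ha' (h1 ▸ dvd_zero p)
    refine ⟨k, ⟨algebraMap R F a' / algebraMap R F b, a', b, hb, by field_simp⟩,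
      ⟨algebraMap R F b / algebraMap R F a', b, a', ha', by field_simp⟩, ?_, ?_⟩
    · apply Subtype.ext
      show algebraMap R F a' / algebraMap R F b * (algebraMap R F b / algebraMap R F a') = 1
      field_simp
    · apply Subtype.ext
      show z = (algebraMap R F p) ^ k * (algebraMap R F a' / algebraMap R F b)
      rw [map_mul, map_pow] at hz
      rw [← mul_div_assoc, ← hz, mul_div_assoc, div_self hbF, mul_one]
  refine ⟨fun J => ⟨?_⟩⟩
  by_cases hJ : J = ⊥
  · exact ⟨0, by rw [hJ]; simp⟩
  obtain ⟨z, hzJ, hz0⟩ := Submodule.exists_mem_ne_zero_of_ne_bot hJ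
  have hex : ∃ k : ℕ, P ^ k ∈ J := by
    obtain ⟨k, u, v, huv, hzu⟩ := hfac z hz0
    refine ⟨k, ?_⟩
    have h1 : P ^ k = z * v := by rw [hzu, mul_assoc, huv, mul_one]
    rw [h1]; exact J.mul_mem_right v hzJ
  refine ⟨P ^ Nat.find hex, le_antisymm ?_ ?_⟩
  · intro y hy
    by_cases hy0 : y = 0
    · rw [hy0]; exact Submodule.zero_mem _
    obtain ⟨k, u, v, huv, hyu⟩ := hfac y hy0
    have hk : P ^ k ∈ J := by
      have h1 : P ^ k = y * v := by rw [hyu, mul_assoc, huv, mul_one]
      rw [h1]; exact J.mul_mem_right v hy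
    have hle := Nat.find_min' hex hk
    rw [hyu]
    refine Ideal.mem_span_singleton'.mpr ⟨P ^ (k - Nat.find hex) * u, ?_⟩
    rw [mul_right_comm, ← pow_add, Nat.sub_add_cancel hle]
  · rw [Ideal.span_le, Set.singleton_subset_iff]
    exact Nat.find_spec hex

/-! ### The local statement at a closed point of the special fibre -/

/-- Let `O` be a noetherian domain with fraction field `F`, `τ` a prime element, `n` a maximal
ideal containing `τ` such that the localization of `O ⧸ τ` at `n` is a principal ideal ring
(hypothesis `hloc`).  If `f ∈ F` is a unit at `τ` and is a unit times an `m`-th power in every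
principal valuation ring of `F` containing `O` and `τ⁻¹`, then `f` is a unit times an `m`-th power
in the localization of `O` at `n`. -/
theorem cz_local {O F : Type*} [CommRing O] [IsDomain O] [IsNoetherianRing O] [Field F]
    [Algebra O F] [IsFractionRing O F]
    (τ : O) (hτ : Prime τ) (n : Ideal O) [hn : n.IsMaximal] (hτn : τ ∈ n)
    (hloc : ∀ P : Ideal O, P ≤ n → ∃ x ∈ P, ∀ y ∈ P, ∃ s, s ∉ n ∧ ∃ r r' : O,
      s * y = x * r + τ * r')
    (m : ℕ) (hm : 0 < m) (f : F) (hf0 : f ≠ 0)
    (hfτ : ∃ a b : O, ¬ τ ∣ a ∧ ¬ τ ∣ b ∧ f * algebraMap O F b = algebraMap O F a)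
    (hord : ∀ V : ValuationSubring F, (∀ x : O, algebraMap O F x ∈ V) →
        (algebraMap O F τ)⁻¹ ∈ V → IsPrincipalIdealRing V →
        ∃ w : F, w ≠ 0 ∧ f * w ^ m ∈ V ∧ (f * w ^ m)⁻¹ ∈ V) :
    ∃ (w : F) (a s : O), a ∉ n ∧ s ∉ n ∧
      f * w ^ m * algebraMap O F s = algebraMap O F a := by
  let R := Localization.AtPrime n
  let _ : Algebra R F := IsLocalization.localizationAlgebraOfSubmonoidLe R F n.primeCompl
    (nonZeroDivisors O) n.primeCompl_le_nonZeroDivisors
  have : IsScalarTower O R F := IsLocalization.localization_isScalarTower_of_submonoid_le R F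
    n.primeCompl (nonZeroDivisors O) n.primeCompl_le_nonZeroDivisors
  have : IsFractionRing R F :=
    IsFractionRing.isFractionRing_of_isDomain_of_isLocalization n.primeCompl R F
  have : IsDomain R := IsLocalization.isDomain_localization n.primeCompl_le_nonZeroDivisors
  have : IsNoetherianRing R := IsLocalization.isNoetherianRing n.primeCompl R inferInstance
  have hinjR : Function.Injective (algebraMap O R) :=
    IsLocalization.injective R n.primeCompl_le_nonZeroDivisors
  set τR : R := algebraMap O R τ with hτR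
  have hτmax : τR ∈ IsLocalRing.maximalIdeal R :=
    (IsLocalization.AtPrime.to_map_mem_maximal_iff R n τ).mpr hτn
  have hτR0 : τR ≠ 0 := fun h0 => hτ.ne_zero (hinjR (by rw [← hτR, h0, map_zero]))
  have hτRprime : Prime τR := by
    have h1 : (Ideal.map (algebraMap O R) (Ideal.span {τ})).IsPrime := by
      refine IsLocalization.isPrime_of_isPrime_disjoint n.primeCompl R _
        ((Ideal.span_singleton_prime hτ.ne_zero).mpr hτ) ?_
      refine Set.disjoint_left.mpr fun x hx hx' => hx ?_
      exact (Ideal.span_singleton_le_iff_mem _).mpr hτn hx'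
    rw [Ideal.map_span, Set.image_singleton] at h1
    exact (Ideal.span_singleton_prime hτR0).mp h1
  have : UniqueFactorizationMonoid R := by
    refine cz_ufd τR hτmax hτRprime ?_
    intro P hP hτP
    have hP0 : P.comap (algebraMap O R) ≤ n := by
      intro y hy
      have h1 : algebraMap O R y ∈ IsLocalRing.maximalIdeal R :=
        IsLocalRing.le_maximalIdeal hP.ne_top hy
      exact (IsLocalization.AtPrime.to_map_mem_maximal_iff R n y).mp h1
    obtain ⟨x, hx, hxy⟩ := hloc _ hP0
    refine ⟨algebraMap O R x, hx, ?_⟩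
    intro z hz
    obtain ⟨y, s', rfl⟩ := IsLocalization.exists_mk'_eq n.primeCompl z
    have hy : y ∈ P.comap (algebraMap O R) := by
      rw [Ideal.mem_comap]
      have h1 := P.mul_mem_right (algebraMap O R s') hz
      rwa [IsLocalization.mk'_spec] at h1
    obtain ⟨s, hs, r, r', hsy⟩ := hxy y hy
    have h1 : algebraMap O R s * algebraMap O R y ∈
        Ideal.span {algebraMap O R x} ⊔ Ideal.span {τR} := by
      rw [← map_mul, hsy, map_add, map_mul, map_mul]
      exact Submodule.add_mem_sup (Ideal.mul_mem_right _ _ (Ideal.mem_span_singleton_self _))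
        (Ideal.mul_mem_right _ _ (Ideal.mem_span_singleton_self _))
    have hsu : IsUnit (algebraMap O R s) := IsLocalization.map_units R (⟨s, hs⟩ : n.primeCompl)
    have h2 : algebraMap O R y ∈ Ideal.span {algebraMap O R x} ⊔ Ideal.span {τR} :=
      (Ideal.unit_mul_mem_iff_mem _ hsu).mp h1
    have hs'u : IsUnit (algebraMap O R s') := IsLocalization.map_units R s'
    have h3 : IsLocalization.mk' R y s' * algebraMap O R s' ∈
        Ideal.span {algebraMap O R x} ⊔ Ideal.span {τR} := by
      rw [IsLocalization.mk'_spec]; exact h2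
    exact (Ideal.mul_unit_mem_iff_mem _ hs'u).mp h3
  have hτF : algebraMap O F τ ≠ 0 :=
    (map_ne_zero_iff _ (IsFractionRing.injective O F)).mpr hτ.ne_zero
  have hinjRF : Function.Injective (algebraMap R F) := IsFractionRing.injective R F
  obtain ⟨w, u, hwu⟩ := cz_unit_mul_pow (R := R) m hm f hf0 (by
    intro p hp
    by_cases hass : Associated p τR
    · obtain ⟨a, b, ha, hb, hfab⟩ := hfτ
      have hnd : ∀ c : O, ¬ τ ∣ c → ¬ p ∣ algebraMap O R c := by
        intro c hc hpc
        obtain ⟨z, hz⟩ := hass.symm.dvd.trans hpc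
        obtain ⟨y, s', rfl⟩ := IsLocalization.exists_mk'_eq n.primeCompl z
        have h1 : algebraMap O R (c * s') = algebraMap O R (τ * y) := by
          rw [map_mul, hz, mul_assoc, IsLocalization.mk'_spec, map_mul]
        have h2 : c * s' = τ * y := hinjR h1
        rcases hτ.dvd_or_dvd (⟨y, h2⟩ : τ ∣ c * s') with h | h
        · exact hc h
        · obtain ⟨q, hq⟩ := h
          exact s'.2 (by rw [hq]; exact n.mul_mem_right _ hτn)
      refine ⟨1, algebraMap O R a, algebraMap O R b, hnd a ha, hnd b hb, ?_⟩
      rw [one_pow, mul_one, ← IsScalarTower.algebraMap_apply, ← IsScalarTower.algebraMap_apply]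
      exact hfab
    · have hpτ : ¬ p ∣ τR := by
        rintro ⟨c, hc⟩
        rcases hτRprime.dvd_or_dvd (⟨1, by rw [mul_one, hc]⟩ : τR ∣ p * c) with h | h
        · exact hass (associated_of_dvd_dvd ⟨c, hc⟩ h)
        · obtain ⟨c', rfl⟩ := h
          have h1 : τR * (p * c') = τR * 1 := by
            rw [mul_one]; conv_rhs => rw [hc]
            ring
          exact hp.not_isUnit (IsUnit.of_mul_eq_one _ (mul_left_cancel₀ hτR0 h1))
      obtain ⟨w, hw0, hw1, hw2⟩ := hord (cz_valSubring R F p hp)
        (fun x => ⟨algebraMap O R x, 1, hp.not_dvd_one, by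
          rw [map_one, mul_one, ← IsScalarTower.algebraMap_apply]⟩)
        ⟨1, τR, hpτ, by
          rw [map_one, hτR, ← IsScalarTower.algebraMap_apply, inv_mul_cancel₀ hτF]⟩
        (cz_valSubring_pid R F p hp)
      obtain ⟨a1, b1, hb1, h1⟩ := hw1
      obtain ⟨a2, b2, hb2, h2⟩ := hw2
      refine ⟨w, a1, b1, ?_, hb1, h1⟩
      intro hpa1
      have hne : f * w ^ m ≠ 0 := mul_ne_zero hf0 (pow_ne_zero _ hw0)
      have h3 : b1 * b2 = a1 * a2 := by
        apply hinjRF
        rw [map_mul, map_mul, ← h1, ← h2]
        field_simp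
      rcases hp.dvd_or_dvd (h3 ▸ Dvd.dvd.mul_right hpa1 a2 : p ∣ b1 * b2) with h | h
      · exact hb1 h
      · exact hb2 h)
  obtain ⟨a, s, hmk⟩ := IsLocalization.exists_mk'_eq n.primeCompl (u : R)
  have ha : a ∈ n.primeCompl := by
    have hu : IsUnit (IsLocalization.mk' R a s) := hmk ▸ u.isUnit
    exact (IsLocalization.AtPrime.isUnit_mk'_iff R n a s).mp hu
  refine ⟨w, a, s, ha, s.2, ?_⟩
  rw [hwu, ← hmk, IsScalarTower.algebraMap_apply O R F (s : O), ← map_mul,
    IsLocalization.mk'_spec, ← IsScalarTower.algebraMap_apply]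

end Fermat.Agent.S18
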