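import Mathlib
import Fermat.Agent.S18.Cech

/-!
# One chart: sections of the twisted modules with reduction `1`

`cz_chart`: let `O` be a noetherian subalgebra of a field `F` (a chart of a normal model), `VG` a
valuation subring of `F` containing `O` with `O ∩ 𝔪_VG = τ O`, such that `O ⧸ τ` is integrally
closed with principal localizations (hypotheses `hroot'`, `hloc`).  If `f ≡ 1` modulo `𝔪_VG` and
`f` is a unit times an `m`-th power at every principal valuation ring containing `τ⁻¹`, then for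
every `c` there is `y ∈ F` with `y ^ m * f ^ c ∈ O` and `y ≡ 1` modulo `𝔪_VG`.
-/

set_option autoImplicit false

namespace Fermat.Agent.S18

/-! ### Consequences of a Dedekind special fibre -/

theorem cz_hroot_of_closed {O : Type*} [CommRing O] (τ : O)
    [IsDomain (O ⧸ Ideal.span {τ})] [IsIntegrallyClosed (O ⧸ Ideal.span {τ})]
    (m : ℕ) (hm : 0 < m) (a s w : O) (hs : ¬ τ ∣ s) (h : τ ∣ a ^ m - w * s ^ m) :
    ∃ w' : O, τ ∣ a - s * w' := by
  set B := O ⧸ Ideal.span {τ}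
  set mk := Ideal.Quotient.mk (Ideal.span {τ}) with hmk
  have hzero : ∀ x : O, mk x = 0 ↔ τ ∣ x := fun x => by
    rw [hmk, Ideal.Quotient.eq_zero_iff_mem, Ideal.mem_span_singleton]
  have hs0 : mk s ≠ 0 := fun h0 => hs ((hzero s).mp h0)
  have heq : mk a ^ m = mk w * mk s ^ m := by
    have h1 := (hzero _).mpr h
    rw [map_sub, map_mul, map_pow, map_pow, sub_eq_zero] at h1
    exact h1
  have hinj : Function.Injective (algebraMap B (FractionRing B)) :=
    IsFractionRing.injective B (FractionRing B)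
  have hsK : algebraMap B (FractionRing B) (mk s) ≠ 0 := fun h0 =>
    hs0 (hinj (by rw [h0, map_zero]))
  have hint : IsIntegral B ((algebraMap B (FractionRing B) (mk a) /
      algebraMap B (FractionRing B) (mk s)) ^ m) := by
    have h1 : (algebraMap B (FractionRing B) (mk a) /
        algebraMap B (FractionRing B) (mk s)) ^ m = algebraMap B (FractionRing B) (mk w) := by
      rw [div_pow, div_eq_iff (pow_ne_zero _ hsK)]
      calc algebraMap B (FractionRing B) (mk a) ^ m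
          = algebraMap B (FractionRing B) (mk a ^ m) := (map_pow _ _ _).symm
        _ = _ := by rw [heq, map_mul, map_pow]
    rw [h1]; exact isIntegral_algebraMap
  obtain ⟨yb, hyb⟩ := IsIntegrallyClosed.exists_algebraMap_eq_of_isIntegral_pow hm hint
  obtain ⟨w', rfl⟩ := Ideal.Quotient.mk_surjective yb
  refine ⟨w', (hzero _).mp ?_⟩
  have h2 : algebraMap B (FractionRing B) (mk w' * mk s) = algebraMap B (FractionRing B) (mk a) := by
    rw [map_mul, hyb, div_mul_cancel₀ _ hsK]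
  have h3 := hinj h2
  rw [map_sub, map_mul, ← h3]; ring

theorem cz_hloc_of_dedekind {O : Type*} [CommRing O] (τ : O)
    [IsDedekindDomain (O ⧸ Ideal.span {τ})]
    (n : Ideal O) [hn : n.IsMaximal] (hτn : τ ∈ n) (P : Ideal O) (hP : P ≤ n) :
    ∃ x ∈ P, ∀ y ∈ P, ∃ s, s ∉ n ∧ ∃ r r' : O, s * y = x * r + τ * r' := by
  set B := O ⧸ Ideal.span {τ}
  set mk := Ideal.Quotient.mk (Ideal.span {τ}) with hmk
  have hsurj : Function.Surjective mk := Ideal.Quotient.mk_surjective
  have hzero : ∀ x : O, mk x = 0 ↔ τ ∣ x := fun x => by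
    rw [hmk, Ideal.Quotient.eq_zero_iff_mem, Ideal.mem_span_singleton]
  have hker : RingHom.ker mk ≤ n := by
    rw [hmk, Ideal.mk_ker]; exact (Ideal.span_singleton_le_iff_mem _).mpr hτn
  have hMprime : (n.map mk).IsPrime := Ideal.map_isPrime_of_surjective hsurj hker
  have hnot : ∀ s : O, mk s ∉ n.map mk → s ∉ n := fun s hs hsn => hs (Ideal.mem_map_of_mem _ hsn)
  by_cases hM0 : n.map mk = ⊥
  · refine ⟨0, P.zero_mem, fun y hy => ⟨1, fun h1 => hn.ne_top ((Ideal.eq_top_iff_one _).mpr h1), ?_⟩⟩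
    have h1 : mk y ∈ n.map mk := Ideal.mem_map_of_mem _ (hP hy)
    rw [hM0, Ideal.mem_bot, hzero] at h1
    obtain ⟨r', hr'⟩ := h1
    exact ⟨0, r', by rw [one_mul, zero_mul, zero_add, hr']⟩
  · have : IsDiscreteValuationRing (Localization.AtPrime (n.map mk)) :=
      IsLocalization.AtPrime.isDiscreteValuationRing_of_dedekind_domain B hM0 _
    set L := Localization.AtPrime (n.map mk)
    obtain ⟨ξ, hξ⟩ := (IsPrincipalIdealRing.principal
      ((P.map mk).map (algebraMap B L))).principal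
    have hξmem : ξ ∈ (P.map mk).map (algebraMap B L) := by
      rw [hξ]; exact Submodule.mem_span_singleton_self ξ
    obtain ⟨⟨⟨xb, hxb⟩, s0⟩, hx0⟩ :=
      (IsLocalization.mem_map_algebraMap_iff (n.map mk).primeCompl L).mp hξmem
    simp only at hx0
    obtain ⟨x, hxP, rfl⟩ := (Ideal.mem_map_iff_of_surjective mk hsurj).mp hxb
    refine ⟨x, hxP, fun y hy => ?_⟩
    have hyJ : algebraMap B L (mk y) ∈ (P.map mk).map (algebraMap B L) :=
      Ideal.mem_map_of_mem _ (Ideal.mem_map_of_mem _ hy)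
    rw [hξ] at hyJ
    obtain ⟨c, hc⟩ := Submodule.mem_span_singleton.mp hyJ
    obtain ⟨cb, s1, rfl⟩ := IsLocalization.exists_mk'_eq (n.map mk).primeCompl c
    have h1 : algebraMap B L (mk y * (s0 * s1)) = algebraMap B L (cb * mk x) := by
      rw [map_mul, ← hc, smul_eq_mul, map_mul, map_mul, ← hx0]
      have h2 := IsLocalization.mk'_spec L cb s1
      rw [← h2]; ring
    obtain ⟨s2, hs2⟩ := (IsLocalization.eq_iff_exists (n.map mk).primeCompl L).mp h1
    obtain ⟨s, hs⟩ := hsurj ((s2 : B) * (s0 * s1))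
    obtain ⟨r, hr⟩ := hsurj ((s2 : B) * cb)
    have hsn : s ∉ n := by
      refine hnot s ?_
      rw [hs]
      exact ((n.map mk).primeCompl.mul_mem s2.2 ((n.map mk).primeCompl.mul_mem s0.2 s1.2))
    refine ⟨s, hsn, r, ?_⟩
    have h3 : mk (s * y - x * r) = 0 := by
      rw [map_sub, map_mul, map_mul, hs, hr]
      have h4 : (s2 : B) * (s0 * s1) * mk y = s2 * (mk y * (s0 * s1)) := by ring
      rw [h4, hs2]; ring
    obtain ⟨r', hr'⟩ := (hzero _).mp h3
    exact ⟨r', by rw [← hr']; ring⟩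

/-! ### Helpers on valuation subrings -/

theorem cz_nonunits_mul {F : Type*} [Field F] (V : ValuationSubring F) {a b : F}
    (ha : a ∈ V.nonunits) (hb : b ∈ V) : a * b ∈ V.nonunits := by
  rw [ValuationSubring.mem_nonunits_iff] at ha ⊢
  rw [map_mul]
  exact lt_of_le_of_lt (mul_le_of_le_one_right' ((V.valuation_le_one_iff b).mpr hb)) ha

theorem cz_one_not_mem_nonunits {F : Type*} [Field F] (V : ValuationSubring F) :
    (1 : F) ∉ V.nonunits := by
  rw [ValuationSubring.mem_nonunits_iff, map_one]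
  exact lt_irrefl _

theorem cz_nonunits_sub_pow {F : Type*} [Field F] (V : ValuationSubring F) {x y : F}
    (hx : x ∈ V) (hy : y ∈ V) (h : x - y ∈ V.nonunits) (k : ℕ) :
    x ^ k - y ^ k ∈ V.nonunits := by
  induction k with
  | zero => simp [V.nonunits.zero_mem]
  | succ k ih =>
    have h1 : x ^ (k + 1) - y ^ (k + 1) = (x - y) * x ^ k + (x ^ k - y ^ k) * y := by ring
    rw [h1]
    exact V.nonunits.add_mem (cz_nonunits_mul V h (V.pow_mem hx k)) (cz_nonunits_mul V ih hy)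

/-- The twisted modules are closed under addition. -/
theorem cz_twist_add {A F : Type*} [CommRing A] [Field F] [Algebra A F] (O : Subalgebra A F)
    (m : ℕ) (hroot : ∀ z : F, z ^ m ∈ O → z ∈ O) (g : F) {y y' : F}
    (hy : y ^ m * g ∈ O) (hy' : y' ^ m * g ∈ O) : (y + y') ^ m * g ∈ O := by
  have key : ∀ (k d : ℕ) (u u' v : F),
      (u ^ k * u' ^ d * v) ^ (k + d) = (u ^ (k + d) * v) ^ k * (u' ^ (k + d) * v) ^ d := by
    intros; ring
  rw [add_pow, Finset.sum_mul]
  refine O.sum_mem fun k hk => ?_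
  have hk' : k ≤ m := Nat.lt_succ_iff.mp (Finset.mem_range.mp hk)
  have hz : y ^ k * y' ^ (m - k) * g ∈ O := by
    apply hroot
    have h1 := key k (m - k) y y' g
    rw [Nat.add_sub_cancel' hk'] at h1
    rw [h1]
    exact O.mul_mem (O.pow_mem hy k) (O.pow_mem hy' (m - k))
  have h2 : y ^ k * y' ^ (m - k) * (m.choose k : F) * g =
      (m.choose k : F) * (y ^ k * y' ^ (m - k) * g) := by ring
  rw [h2]
  exact O.mul_mem (natCast_mem O _) hz

/-- A subalgebra generated by finitely many elements over a noetherian ring is noetherian;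
stated in the shape of the finiteness hypothesis of the charts. -/
theorem cz_noeth {A F : Type*} [CommRing A] [IsNoetherianRing A] [Field F] [Algebra A F]
    (t : F) (O : Subalgebra A F) (ht : t ∈ O) (b : Finset F) (hb : ∀ y ∈ b, y ∈ O)
    (hspan : ∀ y ∈ O, y ∈ Submodule.span A
      (Set.image2 (fun (k : ℕ) (y' : F) => t ^ k * y') Set.univ (b : Set F))) :
    IsNoetherianRing O := by
  classical
  refine isNoetherianRing_of_fg ⟨insert t b, le_antisymm ?_ ?_⟩
  · refine Algebra.adjoin_le ?_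
    intro y hy
    rw [Finset.coe_insert, Set.mem_insert_iff] at hy
    rcases hy with rfl | hy
    · exact ht
    · exact hb y hy
  · intro y hy
    have h1 : Submodule.span A
        (Set.image2 (fun (k : ℕ) (y' : F) => t ^ k * y') Set.univ (b : Set F)) ≤
        Subalgebra.toSubmodule (Algebra.adjoin A ((insert t b : Finset F) : Set F)) := by
      refine Submodule.span_le.mpr ?_
      rintro _ ⟨k, -, y', hy', rfl⟩
      refine Subalgebra.mul_mem _ (Subalgebra.pow_mem _ (Algebra.subset_adjoin ?_) k)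
        (Algebra.subset_adjoin ?_)
      · simp
      · rw [Finset.coe_insert]; exact Set.mem_insert_of_mem _ hy'
    exact h1 (hspan y hy)

/-! ### Basic facts on a chart -/

section ChartBasics

variable {A F : Type*} [CommRing A] [Field F] [Algebra A F] (τ : A) (VG : ValuationSubring F)
  (O : Subalgebra A F)

theorem cz_dvd_iff (hτV : algebraMap A F τ ∈ VG.nonunits) (hV : ∀ x ∈ O, x ∈ VG)
    (hVτ : ∀ x ∈ O, x ∈ VG.nonunits → ∃ y ∈ O, x = algebraMap A F τ * y) (x : O) :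
    algebraMap A O τ ∣ x ↔ (x : F) ∈ VG.nonunits := by
  constructor
  · rintro ⟨y, rfl⟩
    have h1 : ((algebraMap A O τ * y : O) : F) = algebraMap A F τ * (y : F) := rfl
    rw [h1]
    exact cz_nonunits_mul VG hτV (hV _ y.2)
  · intro hx
    obtain ⟨y, hy, hxy⟩ := hVτ x x.2 hx
    exact ⟨⟨y, hy⟩, Subtype.ext hxy⟩

theorem cz_not_isUnit (hτV : algebraMap A F τ ∈ VG.nonunits) (hV : ∀ x ∈ O, x ∈ VG) :
    ¬ IsUnit (algebraMap A O τ) := by
  intro hu
  obtain ⟨v, hv⟩ := hu.exists_right_inv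
  have h1 : algebraMap A F τ * (v : F) = 1 := congrArg Subtype.val hv
  have h2 := cz_nonunits_mul VG hτV (hV _ v.2)
  rw [h1] at h2
  exact cz_one_not_mem_nonunits VG h2

theorem cz_val_one (hV : ∀ x ∈ O, x ∈ VG) (x : F) (hx : x ∈ O) (hxn : x ∉ VG.nonunits) :
    VG.valuation x = 1 :=
  le_antisymm ((VG.valuation_le_one_iff x).mpr (hV x hx))
    (not_lt.mp (fun h => hxn (VG.mem_nonunits_iff.mpr h)))

theorem cz_not_mem_of_val_one (x : F) (hx : VG.valuation x = 1) : x ∉ VG.nonunits := by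
  intro hxn
  have h1 := VG.mem_nonunits_iff.mp hxn
  rw [hx] at h1
  exact lt_irrefl _ h1

theorem cz_FR [IsNoetherianRing O] (hτV : algebraMap A F τ ∈ VG.nonunits)
    (hfrac : ∀ x : F, ∃ a ∈ O, ∃ s ∈ O, s ≠ 0 ∧ x * s = a)
    (hV : ∀ x ∈ O, x ∈ VG)
    (hVτ : ∀ x ∈ O, x ∈ VG.nonunits → ∃ y ∈ O, x = algebraMap A F τ * y)
    (x : F) (hx : x ≠ 0) :
    ∃ (i j : ℕ) (a s : O), VG.valuation (a : F) = 1 ∧ VG.valuation (s : F) = 1 ∧
      x * (algebraMap A F τ ^ j * (s : F)) = algebraMap A F τ ^ i * (a : F) := by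
  have hτOnu := cz_not_isUnit τ VG O hτV hV
  obtain ⟨a, ha, s, hs, hs0, h⟩ := hfrac x
  have ha0 : (⟨a, ha⟩ : O) ≠ 0 := by
    intro h0
    have h1 : a = 0 := congrArg Subtype.val h0
    rw [h1] at h
    rcases mul_eq_zero.mp h with h2 | h2
    · exact hx h2
    · exact hs0 h2
  have hs0' : (⟨s, hs⟩ : O) ≠ 0 := fun h0 => hs0 (congrArg Subtype.val h0)
  obtain ⟨i, a', ha', hai⟩ := WfDvdMonoid.max_power_factor' ha0 hτOnu
  obtain ⟨j, s', hs', hsj⟩ := WfDvdMonoid.max_power_factor' hs0' hτOnu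
  refine ⟨i, j, a', s',
    cz_val_one VG O hV _ a'.2 ((cz_dvd_iff τ VG O hτV hV hVτ a').not.mp ha'),
    cz_val_one VG O hV _ s'.2 ((cz_dvd_iff τ VG O hτV hV hVτ s').not.mp hs'), ?_⟩
  have e1 : a = algebraMap A F τ ^ i * (a' : F) := congrArg Subtype.val hai
  have e2 : s = algebraMap A F τ ^ j * (s' : F) := congrArg Subtype.val hsj
  rw [← e2, ← e1]; exact h

theorem cz_frac1 [IsNoetherianRing O] (hτV : algebraMap A F τ ∈ VG.nonunits)
    (hτ0 : algebraMap A F τ ≠ 0)
    (hfrac : ∀ x : F, ∃ a ∈ O, ∃ s ∈ O, s ≠ 0 ∧ x * s = a)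
    (hV : ∀ x ∈ O, x ∈ VG)
    (hVτ : ∀ x ∈ O, x ∈ VG.nonunits → ∃ y ∈ O, x = algebraMap A F τ * y)
    (x : F) (hxV : x ∈ VG) :
    ∃ a s : O, VG.valuation (s : F) = 1 ∧ x * (s : F) = (a : F) := by
  by_cases hx : x = 0
  · exact ⟨0, 1, by simp, by simp [hx]⟩
  obtain ⟨i, j, a, s, ha, hs, h⟩ := cz_FR τ VG O hτV hfrac hV hVτ x hx
  have hτpow0 : ∀ k, algebraMap A F τ ^ k ≠ 0 := fun k => pow_ne_zero k hτ0
  rcases le_or_gt j i with hji | hij
  · refine ⟨algebraMap A O τ ^ (i - j) * a, s, hs, ?_⟩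
    have h1 : algebraMap A F τ ^ i = algebraMap A F τ ^ j * algebraMap A F τ ^ (i - j) := by
      rw [← pow_add, Nat.add_sub_cancel' hji]
    rw [h1] at h
    have h2 : algebraMap A F τ ^ j * (x * (s : F)) =
        algebraMap A F τ ^ j * (algebraMap A F τ ^ (i - j) * (a : F)) := by
      linear_combination h
    exact mul_left_cancel₀ (hτpow0 j) h2
  · exfalso
    have h1 : algebraMap A F τ ^ j = algebraMap A F τ ^ i * algebraMap A F τ ^ (j - i) := by
      rw [← pow_add, Nat.add_sub_cancel' hij.le]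
    rw [h1] at h
    have h2 : x * (algebraMap A F τ ^ (j - i) * (s : F)) = (a : F) := by
      apply mul_left_cancel₀ (hτpow0 i); linear_combination h
    have h3 : algebraMap A F τ ^ (j - i) ∈ VG.nonunits := by
      obtain ⟨k, hk⟩ : ∃ k, j - i = k + 1 := ⟨j - i - 1, by omega⟩
      rw [hk, pow_succ']
      exact cz_nonunits_mul VG hτV (VG.pow_mem (VG.nonunits_subset hτV) k)
    have h4 : x * (algebraMap A F τ ^ (j - i) * (s : F)) ∈ VG.nonunits := by
      have h5 := cz_nonunits_mul VG h3 (VG.mul_mem _ _ (hV _ s.2) hxV)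
      have h6 : algebraMap A F τ ^ (j - i) * ((s : F) * x) =
          x * (algebraMap A F τ ^ (j - i) * (s : F)) := by ring
      rwa [h6] at h5
    rw [h2] at h4
    exact cz_not_mem_of_val_one VG _ ha h4

theorem cz_frac2 [IsNoetherianRing O] (hτV : algebraMap A F τ ∈ VG.nonunits)
    (hτ0 : algebraMap A F τ ≠ 0)
    (hfrac : ∀ x : F, ∃ a ∈ O, ∃ s ∈ O, s ≠ 0 ∧ x * s = a)
    (hV : ∀ x ∈ O, x ∈ VG)
    (hVτ : ∀ x ∈ O, x ∈ VG.nonunits → ∃ y ∈ O, x = algebraMap A F τ * y)
    (x : F) (hxN : x ∈ VG.nonunits) :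
    ∃ v ∈ VG, x = algebraMap A F τ * v := by
  by_cases hx : x = 0
  · exact ⟨0, VG.zero_mem, by rw [hx, mul_zero]⟩
  obtain ⟨i, j, a, s, ha, hs, h⟩ := cz_FR τ VG O hτV hfrac hV hVτ x hx
  have hτpow0 : ∀ k, algebraMap A F τ ^ k ≠ 0 := fun k => pow_ne_zero k hτ0
  have hs0 : (s : F) ≠ 0 := fun h0 => by
    rw [h0, map_zero] at hs; exact zero_ne_one hs
  rcases lt_or_ge j i with hji | hij
  · obtain ⟨k, hk⟩ : ∃ k, i = j + (k + 1) := ⟨i - j - 1, by omega⟩
    have h2 : x * (s : F) = algebraMap A F τ ^ (k + 1) * (a : F) := by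
      apply mul_left_cancel₀ (hτpow0 j)
      rw [hk, pow_add] at h
      linear_combination h
    refine ⟨algebraMap A F τ ^ k * (a : F) / (s : F), ?_, ?_⟩
    · rw [← VG.valuation_le_one_iff, map_div₀, hs, div_one]
      exact (VG.valuation_le_one_iff _).mpr
        (VG.mul_mem _ _ (VG.pow_mem (VG.nonunits_subset hτV) k) (hV _ a.2))
    · calc x = x * (s : F) / (s : F) := (mul_div_cancel_right₀ x hs0).symm
        _ = algebraMap A F τ ^ (k + 1) * (a : F) / (s : F) := by rw [h2]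
        _ = algebraMap A F τ * (algebraMap A F τ ^ k * (a : F) / (s : F)) := by
          rw [pow_succ]; ring
  · exfalso
    have h1 : algebraMap A F τ ^ j = algebraMap A F τ ^ i * algebraMap A F τ ^ (j - i) := by
      rw [← pow_add, Nat.add_sub_cancel' hij]
    rw [h1] at h
    have h2 : x * (algebraMap A F τ ^ (j - i) * (s : F)) = (a : F) := by
      apply mul_left_cancel₀ (hτpow0 i); linear_combination h
    have h3 : x * (algebraMap A F τ ^ (j - i) * (s : F)) ∈ VG.nonunits :=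
      cz_nonunits_mul VG hxN (VG.mul_mem _ _ (VG.pow_mem (VG.nonunits_subset hτV) _) (hV _ s.2))
    rw [h2] at h3
    exact cz_not_mem_of_val_one VG _ ha h3

end ChartBasics

/-! ### The chart theorem -/

theorem cz_chart {A F : Type*} [CommRing A] [Field F] [Algebra A F]
    (τ : A) (m : ℕ) (hm : 0 < m)
    (VG : ValuationSubring F) (hτV : algebraMap A F τ ∈ VG.nonunits)
    (hτ0 : algebraMap A F τ ≠ 0)
    (O : Subalgebra A F) [IsNoetherianRing O]
    (hfrac : ∀ x : F, ∃ a ∈ O, ∃ s ∈ O, s ≠ 0 ∧ x * s = a)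
    (hroot : ∀ z : F, z ^ m ∈ O → z ∈ O)
    (hV : ∀ x ∈ O, x ∈ VG)
    (hVτ : ∀ x ∈ O, x ∈ VG.nonunits → ∃ y ∈ O, x = algebraMap A F τ * y)
    (hroot' : ∀ a s w : O, ¬ algebraMap A O τ ∣ s → algebraMap A O τ ∣ a ^ m - w * s ^ m →
      ∃ w' : O, algebraMap A O τ ∣ a - s * w')
    (hloc : ∀ n : Ideal O, n.IsMaximal → algebraMap A O τ ∈ n → ∀ P : Ideal O, P ≤ n →
      ∃ x ∈ P, ∀ y ∈ P, ∃ s, s ∉ n ∧ ∃ r r' : O, s * y = x * r + algebraMap A O τ * r')
    (f : F) (hf : f - 1 ∈ VG.nonunits)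
    (hord : ∀ V : ValuationSubring F, (∀ a : A, algebraMap A F a ∈ V) →
        (algebraMap A F τ)⁻¹ ∈ V → IsPrincipalIdealRing V →
        ∃ w : F, w ≠ 0 ∧ f * w ^ m ∈ V ∧ (f * w ^ m)⁻¹ ∈ V)
    (c : ℕ) :
    ∃ y : F, y ^ m * f ^ c ∈ O ∧ y - 1 ∈ VG.nonunits := by
  classical
  set τO : O := algebraMap A O τ with hτO
  set ν := VG.valuation with hν
  have hdvd := cz_dvd_iff τ VG O hτV hV hVτ
  have hτOnu := cz_not_isUnit τ VG O hτV hV
  have hν1 := cz_val_one VG O hV
  have hnu_of_ν1 := cz_not_mem_of_val_one VG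
  have hνle : ∀ x ∈ O, ν x ≤ 1 := fun x hx => (VG.valuation_le_one_iff x).mpr (hV x hx)
  have hτOprime : Prime τO := by
    refine ⟨fun h0 => hτ0 (congrArg Subtype.val h0), hτOnu, ?_⟩
    intro a b hab
    by_contra hcon
    push Not at hcon
    have ha := hν1 a a.2 ((hdvd a).not.mp hcon.1)
    have hb := hν1 b b.2 ((hdvd b).not.mp hcon.2)
    have hab' := (hdvd _).mp hab
    have h1 : ((a * b : O) : F) = (a : F) * (b : F) := rfl
    rw [h1] at hab'
    exact hnu_of_ν1 _ (by rw [map_mul, ha, hb, mul_one]) hab'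
  have : FaithfulSMul O F :=
    (faithfulSMul_iff_algebraMap_injective O F).mpr Subtype.val_injective
  have : IsFractionRing O F := IsFractionRing.of_field O F (fun z => by
    obtain ⟨a, ha, s, hs, hs0, h⟩ := hfrac z
    refine ⟨⟨a, ha⟩, ⟨s, hs⟩, ?_⟩
    show z = a / s
    rw [eq_div_iff hs0]; exact h)
  have hfV : f ∈ VG := by
    have h1 : f = 1 + (f - 1) := by ring
    rw [h1]; exact VG.add_mem _ _ VG.one_mem (VG.nonunits_subset hf)
  have hνf : ν f = 1 := by
    have h1 : f = 1 + (f - 1) := by ring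
    rw [h1]; exact Valuation.map_one_add_of_lt _ (VG.mem_nonunits_iff.mp hf)
  have hf0 : f ≠ 0 := fun h0 => by
    rw [h0, map_zero] at hνf; exact zero_ne_one hνf
  have hfc : f ^ c - 1 ∈ VG.nonunits := by
    have h1 := cz_nonunits_sub_pow VG hfV VG.one_mem hf c
    rwa [one_pow] at h1
  have hfτ : ∃ a b : O, ¬ τO ∣ a ∧ ¬ τO ∣ b ∧ f * algebraMap O F b = algebraMap O F a := by
    obtain ⟨a, s, hs, h⟩ := cz_frac1 τ VG O hτV hτ0 hfrac hV hVτ f hfV
    refine ⟨a, s, ?_, ?_, h⟩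
    · rw [hdvd]; apply hnu_of_ν1; rw [← h, map_mul, ← hν, hνf, hs, mul_one]
    · rw [hdvd]; exact hnu_of_ν1 _ hs
  let J : Ideal O :=
    { carrier := {w | ∃ y : F, y ^ m * f ^ c ∈ O ∧ y - (w : F) ∈ VG.nonunits}
      add_mem' := by
        rintro w w' ⟨y, hy, hyw⟩ ⟨y', hy', hyw'⟩
        refine ⟨y + y', cz_twist_add O m hroot (f ^ c) hy hy', ?_⟩
        have h1 : y + y' - ((w + w' : O) : F) = (y - (w : F)) + (y' - (w' : F)) := by
          push_cast; ring
        rw [h1]; exact VG.nonunits.add_mem hyw hyw'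
      zero_mem' := ⟨0, by rw [zero_pow hm.ne', zero_mul]; exact O.zero_mem, by
        simp [VG.nonunits.zero_mem]⟩
      smul_mem' := by
        rintro r w ⟨y, hy, hyw⟩
        refine ⟨(r : F) * y, ?_, ?_⟩
        · have h1 : ((r : F) * y) ^ m * f ^ c = (r : F) ^ m * (y ^ m * f ^ c) := by ring
          rw [h1]; exact O.mul_mem (O.pow_mem r.2 m) hy
        · have h1 : (r : F) * y - ((r • w : O) : F) = (y - (w : F)) * (r : F) := by
            rw [smul_eq_mul]; push_cast; ring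
          rw [h1]; exact cz_nonunits_mul VG hyw (hV _ r.2) }
  have hJ : J = ⊤ := by
    by_contra hne
    obtain ⟨n, hn, hJn⟩ := Ideal.exists_le_maximal J hne
    have hτJ : τO ∈ J := ⟨0, by rw [zero_pow hm.ne', zero_mul]; exact O.zero_mem, by
      rw [zero_sub]; exact VG.nonunits.neg_mem hτV⟩
    have hτn : τO ∈ n := hJn hτJ
    obtain ⟨w, a, s, ha, hs, hw⟩ := cz_local τO hτOprime n hτn (hloc n hn hτn) m hm f hf0 hfτ
      (fun V hVO hVτinv hpid => hord V (fun a => hVO (algebraMap A O a)) hVτinv hpid)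
    have hw' : f * w ^ m * (s : F) = (a : F) := hw
    set d : O := a ^ c * s ^ (c * (m - 1)) with hd
    have hdn : d ∉ n := by
      intro hdn
      rcases hn.isPrime.mem_or_mem hdn with h | h
      · exact ha (hn.isPrime.mem_of_pow_mem c h)
      · exact hs (hn.isPrime.mem_of_pow_mem _ h)
    set y : F := w ^ c * (s : F) ^ c with hy
    have hcm : c * m = c + c * (m - 1) := by
      obtain ⟨k, hk⟩ := Nat.exists_eq_succ_of_ne_zero hm.ne'
      rw [hk, Nat.succ_sub_one, Nat.mul_succ, add_comm]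
    have hyd : y ^ m * f ^ c = (d : F) := by
      have h1 : y ^ m * f ^ c = (f * w ^ m * (s : F)) ^ c * (s : F) ^ (c * (m - 1)) := by
        have h2 : ((s : F) ^ c) ^ m = (s : F) ^ c * (s : F) ^ (c * (m - 1)) := by
          rw [← pow_mul, hcm, pow_add]
        rw [hy, mul_pow, h2]; ring
      rw [h1, hw']; rfl
    have hyO : y ^ m * f ^ c ∈ O := by rw [hyd]; exact d.2
    have hyV : y ∈ VG := by
      rw [← VG.valuation_le_one_iff]
      have h1 : ν y ^ m ≤ 1 := by
        have h2 : ν (y ^ m * f ^ c) ≤ 1 := by rw [hyd]; exact hνle _ d.2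
        rwa [map_mul, map_pow, map_pow, hνf, one_pow, mul_one] at h2
      exact (pow_le_one_iff_of_nonneg zero_le hm.ne').mp h1
    obtain ⟨a1, s1, hs1, h1⟩ := cz_frac1 τ VG O hτV hτ0 hfrac hV hVτ y hyV
    have hs1τ : ¬ τO ∣ s1 := by rw [hdvd]; exact hnu_of_ν1 _ hs1
    have hdiv : τO ∣ a1 ^ m - d * s1 ^ m := by
      rw [hdvd]
      have h2 : ((a1 ^ m - d * s1 ^ m : O) : F) = -((y * (s1 : F)) ^ m * (f ^ c - 1)) := by
        have h3 : ((a1 ^ m - d * s1 ^ m : O) : F) =
            (a1 : F) ^ m - (d : F) * (s1 : F) ^ m := rfl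
        rw [h3, ← h1, ← hyd]; ring
      rw [h2]
      apply VG.nonunits.neg_mem
      rw [mul_comm]
      exact cz_nonunits_mul VG hfc (VG.pow_mem (VG.mul_mem _ _ hyV (hV _ s1.2)) m)
    obtain ⟨w', hw'dvd⟩ := hroot' a1 s1 d hs1τ hdiv
    have hyw' : y - (w' : F) ∈ VG.nonunits := by
      have h2 : (y - (w' : F)) * (s1 : F) ∈ VG.nonunits := by
        have h3 : (y - (w' : F)) * (s1 : F) = ((a1 - s1 * w' : O) : F) := by
          have h4 : ((a1 - s1 * w' : O) : F) = (a1 : F) - (s1 : F) * (w' : F) := rfl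
          rw [h4, ← h1]; ring
        rw [h3]; exact (hdvd _).mp hw'dvd
      rw [VG.mem_nonunits_iff] at h2 ⊢
      rwa [map_mul, hs1, mul_one] at h2
    have hw'J : w' ∈ J := ⟨y, hyO, hyw'⟩
    have hw'n : w' ∈ n := hJn hw'J
    have hdiv2 : τO ∣ w' ^ m - d := by
      rw [hdvd]
      have h2 : ((w' ^ m - d : O) : F) =
          -((y ^ m - (w' : F) ^ m) + y ^ m * (f ^ c - 1)) := by
        have h3 : ((w' ^ m - d : O) : F) = (w' : F) ^ m - (d : F) := rfl
        rw [h3, ← hyd]; ring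
      rw [h2]
      apply VG.nonunits.neg_mem
      refine VG.nonunits.add_mem (cz_nonunits_sub_pow VG hyV (hV _ w'.2) hyw' m) ?_
      rw [mul_comm]; exact cz_nonunits_mul VG hfc (VG.pow_mem hyV m)
    obtain ⟨r, hr⟩ := hdiv2
    apply hdn
    have h5 : d = w' ^ m - τO * r := by rw [← hr]; ring
    rw [h5]
    exact n.sub_mem (n.pow_mem_of_mem hw'n m hm) (n.mul_mem_right r hτn)
  have h1 : (1 : O) ∈ J := hJ ▸ Submodule.mem_top
  obtain ⟨y, hy, hy1⟩ := h1
  exact ⟨y, hy, hy1⟩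

end Fermat.Agent.S18
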