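import Mathlib

/-!
# Zariski connectedness by hand (two affine charts over a local base)

`conn_core`: let `A` be a noetherian local ring, `π` in its maximal ideal, `B` a commutative
`A`-algebra on which `π` is a nonzerodivisor, `O₀ O₁` two `A`-subalgebras of `B` such that the
`A`-module `B ⧸ (O₀ + O₁)` is finitely generated.  If `e₀ ∈ O₀` and `e₁ ∈ O₁` are idempotent
modulo `π O₀`, resp. `π O₁`, and congruent modulo `π B`, then `e₀ - π a₀ = e₁ + π a₁` for some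
`a₀ ∈ O₀`, `a₁ ∈ O₁`; the common value lies in `O₀ ∩ O₁`.

`conn_finite`: a criterion for the finiteness hypothesis.
-/

set_option autoImplicit false

namespace Fermat.Agent.S18

open IsLocalRing

section Ring

variable {B : Type*} [CommRing B]

theorem conn_newton_sq (e : B) :
    (3 * e ^ 2 - 2 * e ^ 3) ^ 2 - (3 * e ^ 2 - 2 * e ^ 3) =
      (e ^ 2 - e) ^ 2 * (4 * (e ^ 2 - e) - 3) := by
  ring

theorem conn_newton_sub (e : B) :
    (3 * e ^ 2 - 2 * e ^ 3) - e = (e ^ 2 - e) * (1 - 2 * e) := by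
  ring

/-- Two elements that are idempotent modulo `p ^ N` and congruent modulo `p` are congruent
modulo `p ^ N`. -/
theorem conn_idem_unique (p : B) (N : ℕ) (hN : 1 ≤ N) (a b x y z : B)
    (ha : a ^ 2 - a = p ^ N * x) (hb : b ^ 2 - b = p ^ N * y) (hab : a - b = p * z) :
    ∃ t : B, a - b = p ^ N * t := by
  obtain ⟨M, rfl⟩ : ∃ M, N = M + 1 := ⟨N - 1, by omega⟩
  set r : B := 4 * p ^ M * x - 2 * (2 * a - 1) * z + p * z ^ 2 with hr
  set s : B := (x - y) * (a + b - 1) with hs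
  have h1 : (a + b - 1) ^ 2 = 1 + p * r := by
    have e1 : a + b - 1 = (2 * a - 1) - p * z := by rw [← hab]; ring
    have e2 : (2 * a - 1) ^ 2 = 4 * (a ^ 2 - a) + 1 := by ring
    rw [e1, sub_sq, e2, ha, hr]
    ring
  have h2 : (a - b) * (a + b - 1) = p ^ (M + 1) * (x - y) := by
    have : (a - b) * (a + b - 1) = (a ^ 2 - a) - (b ^ 2 - b) := by ring
    rw [this, ha, hb]; ring
  have h3 : (a - b) * (1 + p * r) = p ^ (M + 1) * s := by
    rw [← h1, hs, sq, ← mul_assoc, h2]; ring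
  have h4 : (1 - (-(p * r))) * (∑ i ∈ Finset.range (M + 1), (-(p * r)) ^ i) =
      1 - (-(p * r)) ^ (M + 1) := mul_neg_geom_sum _ _
  refine ⟨s * (∑ i ∈ Finset.range (M + 1), (-(p * r)) ^ i) + (-r) ^ (M + 1) * (a - b), ?_⟩
  have h5 : (a - b) * (1 - (-(p * r)) ^ (M + 1)) =
      p ^ (M + 1) * s * (∑ i ∈ Finset.range (M + 1), (-(p * r)) ^ i) := by
    rw [← h4, ← mul_assoc, sub_neg_eq_add, h3]
  have h6 : (-(p * r)) ^ (M + 1) = p ^ (M + 1) * (-r) ^ (M + 1) := by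
    rw [← mul_pow]; ring
  calc a - b = (a - b) * (1 - (-(p * r)) ^ (M + 1)) + (a - b) * (-(p * r)) ^ (M + 1) := by
        ring
    _ = p ^ (M + 1) * s * (∑ i ∈ Finset.range (M + 1), (-(p * r)) ^ i) +
          (a - b) * (p ^ (M + 1) * (-r) ^ (M + 1)) := by rw [h5, h6]
    _ = p ^ (M + 1) * (s * (∑ i ∈ Finset.range (M + 1), (-(p * r)) ^ i) +
          (-r) ^ (M + 1) * (a - b)) := by ring

end Ring

section Alg

variable {A B : Type*} [CommRing A] [CommRing B] [Algebra A B]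

/-- Newton lifting of an idempotent modulo `π` inside a subalgebra. -/
theorem conn_inv (π : A) (O : Subalgebra A B) (e : B) (he : e ∈ O)
    (hi : ∃ x ∈ O, e ^ 2 - e = π • x) (k : ℕ) :
    ∃ f ∈ O, (∃ a ∈ O, f - e = π • a) ∧ ∃ x ∈ O, f ^ 2 - f = π ^ (2 ^ k) • x := by
  induction k with
  | zero =>
    obtain ⟨x, hx, hxe⟩ := hi
    exact ⟨e, he, ⟨0, O.zero_mem, by simp⟩, x, hx, by simpa using hxe⟩
  | succ k ih =>
    obtain ⟨f, hf, ⟨a, ha, hfa⟩, x, hx, hfx⟩ := ih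
    have hf' : 3 * f ^ 2 - 2 * f ^ 3 ∈ O := by
      have h3 : (3 : B) ∈ O := ofNat_mem O 3
      have h2 : (2 : B) ∈ O := ofNat_mem O 2
      exact O.sub_mem (O.mul_mem h3 (O.pow_mem hf 2)) (O.mul_mem h2 (O.pow_mem hf 3))
    have h2f : 1 - 2 * f ∈ O := by
      have h2 : (2 : B) ∈ O := ofNat_mem O 2
      exact O.sub_mem O.one_mem (O.mul_mem h2 hf)
    have hpos : 1 ≤ 2 ^ k := Nat.one_le_two_pow
    refine ⟨3 * f ^ 2 - 2 * f ^ 3, hf', ⟨π ^ (2 ^ k - 1) • (x * (1 - 2 * f)) + a,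
      O.add_mem (O.smul_mem (O.mul_mem hx h2f) _) ha, ?_⟩,
      x ^ 2 * (4 * (f ^ 2 - f) - 3), ?_, ?_⟩
    · have : 3 * f ^ 2 - 2 * f ^ 3 - e = (3 * f ^ 2 - 2 * f ^ 3 - f) + (f - e) := by ring
      rw [this, conn_newton_sub, hfx, hfa, smul_add, smul_smul, ← pow_succ',
        Nat.sub_add_cancel hpos, smul_mul_assoc]
    · have h4 : (4 : B) ∈ O := ofNat_mem O 4
      have h3 : (3 : B) ∈ O := ofNat_mem O 3
      have hff : f ^ 2 - f ∈ O := O.sub_mem (O.pow_mem hf 2) hf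
      exact O.mul_mem (O.pow_mem hx 2) (O.sub_mem (O.mul_mem h4 hff) h3)
    · have e1 : π ^ (2 ^ (k + 1)) = π ^ (2 ^ k) * π ^ (2 ^ k) := by
        rw [pow_succ, mul_two, pow_add]
      rw [conn_newton_sq, hfx, e1]
      simp only [Algebra.smul_def, map_mul]
      ring

/-- **Connectedness lemma.** -/
theorem conn_core [IsNoetherianRing A] [IsLocalRing A] (π : A) (hπ : π ∈ maximalIdeal A)
    (hreg : ∀ x : B, π • x = 0 → x = 0) (O₀ O₁ : Subalgebra A B)
    [Module.Finite A (B ⧸ (Subalgebra.toSubmodule O₀ ⊔ Subalgebra.toSubmodule O₁))]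
    (e₀ e₁ : B) (h₀ : e₀ ∈ O₀) (h₁ : e₁ ∈ O₁)
    (hi₀ : ∃ x ∈ O₀, e₀ ^ 2 - e₀ = π • x) (hi₁ : ∃ x ∈ O₁, e₁ ^ 2 - e₁ = π • x)
    (h₀₁ : ∃ c : B, e₀ - e₁ = π • c) :
    ∃ a₀ ∈ O₀, ∃ a₁ ∈ O₁, e₀ - π • a₀ = e₁ + π • a₁ := by
  obtain ⟨c, hc⟩ := h₀₁
  set S : Submodule A B := Subalgebra.toSubmodule O₀ ⊔ Subalgebra.toSubmodule O₁ with hS
  set I : Ideal A := Ideal.span {π} with hI
  have hItop : I ≠ ⊤ := by
    intro h
    have h1 : (1 : A) ∈ I := by rw [h]; trivial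
    have h2 : I ≤ maximalIdeal A := by
      rw [hI, Ideal.span_le]
      intro x hx
      rw [Set.mem_singleton_iff.mp hx]; exact hπ
    exact (Ideal.ne_top_iff_one _).mp (IsLocalRing.maximalIdeal.isMaximal A).ne_top (h2 h1)
  have hkrull := Ideal.iInf_pow_smul_eq_bot_of_isLocalRing (M := B ⧸ S) I hItop
  have hmem : S.mkQ c ∈ (⨅ i : ℕ, I ^ i • ⊤ : Submodule A (B ⧸ S)) := by
    rw [Submodule.mem_iInf]
    intro i
    obtain ⟨f₀, hf₀, ⟨a₀, ha₀, hfa₀⟩, x₀, hx₀, hfx₀⟩ := conn_inv π O₀ e₀ h₀ hi₀ i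
    obtain ⟨f₁, hf₁, ⟨a₁, ha₁, hfa₁⟩, x₁, hx₁, hfx₁⟩ := conn_inv π O₁ e₁ h₁ hi₁ i
    have hpos : 1 ≤ 2 ^ i := Nat.one_le_two_pow
    have hdiff : f₀ - f₁ = algebraMap A B π * (a₀ - a₁ + c) := by
      have : f₀ - f₁ = (f₀ - e₀) - (f₁ - e₁) + (e₀ - e₁) := by ring
      rw [this, hfa₀, hfa₁, hc, Algebra.smul_def, Algebra.smul_def, Algebra.smul_def]; ring
    obtain ⟨t, ht⟩ := conn_idem_unique (algebraMap A B π) (2 ^ i) hpos f₀ f₁ x₀ x₁ (a₀ - a₁ + c)
      (by rw [hfx₀, Algebra.smul_def, map_pow]) (by rw [hfx₁, Algebra.smul_def, map_pow]) hdiff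
    have hceq : c = π ^ (2 ^ i - 1) • t - a₀ + a₁ := by
      have h0 : π • (a₀ - a₁ + c - π ^ (2 ^ i - 1) • t) = 0 := by
        rw [smul_sub, smul_smul, ← pow_succ', Nat.sub_add_cancel hpos, Algebra.smul_def,
          Algebra.smul_def, map_pow, ← hdiff, ht, sub_self]
      have := hreg _ h0
      linear_combination this
    have hle : I ^ (2 ^ i - 1) ≤ I ^ i := by
      apply Ideal.pow_le_pow_right
      have : i + 1 ≤ 2 ^ i := Nat.lt_two_pow_self
      omega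
    have ha₀S : a₀ ∈ S := Submodule.mem_sup_left ha₀
    have ha₁S : a₁ ∈ S := Submodule.mem_sup_right ha₁
    have hq : S.mkQ c = π ^ (2 ^ i - 1) • S.mkQ t := by
      rw [hceq, map_add, map_sub, map_smul, (Submodule.mkQ_apply S a₀).trans
        ((Submodule.Quotient.mk_eq_zero S).mpr ha₀S), (Submodule.mkQ_apply S a₁).trans
        ((Submodule.Quotient.mk_eq_zero S).mpr ha₁S)]
      simp
    rw [hq]
    exact Submodule.smul_mem_smul (hle (Ideal.pow_mem_pow (Ideal.mem_span_singleton_self π) _))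
      Submodule.mem_top
  rw [hkrull, Submodule.mem_bot, Submodule.mkQ_apply, Submodule.Quotient.mk_eq_zero] at hmem
  obtain ⟨b₀, hb₀, b₁, hb₁, hbc⟩ := Submodule.mem_sup.mp hmem
  refine ⟨b₀, hb₀, b₁, hb₁, ?_⟩
  have : e₀ = e₁ + π • c := by rw [← hc]; ring
  rw [this, ← hbc, smul_add]; ring


/-- Finiteness criterion for `B ⧸ (O₀ + O₁)`: `u` is invertible in `B` with inverse `v`,
`O₀` is spanned over `A` by the `u ^ k * y`, `y` in a finite set `b ⊆ O₀`, every element of `b`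
is moved into `O₁` by `v ^ N`, and `B = O₀[1/u]`. -/
theorem conn_finite (u v : B) (huv : u * v = 1) (O₀ O₁ : Subalgebra A B) (hu : u ∈ O₀)
    (hv : v ∈ O₁) (b : Finset B) (hb₀ : ∀ y ∈ b, y ∈ O₀)
    (hb : ∀ y ∈ O₀, y ∈ Submodule.span A
      (Set.image2 (fun (k : ℕ) (y' : B) => u ^ k * y') Set.univ (b : Set B)))
    (N : ℕ) (hN : ∀ y ∈ b, y * v ^ N ∈ O₁)
    (htop : ∀ x : B, ∃ n : ℕ, x * u ^ n ∈ O₀) :
    Module.Finite A (B ⧸ (Subalgebra.toSubmodule O₀ ⊔ Subalgebra.toSubmodule O₁)) := by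
  classical
  set S : Submodule A B := Subalgebra.toSubmodule O₀ ⊔ Subalgebra.toSubmodule O₁ with hS
  set T : Finset B := (Finset.range N ×ˢ b).image (fun p => v ^ p.1 * p.2) with hT
  set W : Submodule A (B ⧸ S) := Submodule.span A (S.mkQ '' (T : Set B)) with hW
  have huvn : ∀ n : ℕ, u ^ n * v ^ n = 1 := fun n => by rw [← mul_pow, huv, one_pow]
  have hzero : ∀ x : B, x ∈ S → S.mkQ x ∈ W := fun x hx => by
    rw [Submodule.mkQ_apply, (Submodule.Quotient.mk_eq_zero S).mpr hx]; exact W.zero_mem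
  have key : ∀ (k n : ℕ) (y : B), y ∈ b → S.mkQ (u ^ k * y * v ^ n) ∈ W := by
    intro k n y hy
    rcases le_or_gt n k with hnk | hnk
    · apply hzero
      apply Submodule.mem_sup_left
      have : u ^ k * y * v ^ n = u ^ (k - n) * y := by
        obtain ⟨d, rfl⟩ := Nat.exists_eq_add_of_le hnk
        rw [Nat.add_sub_cancel_left, pow_add]
        calc u ^ n * u ^ d * y * v ^ n = (u ^ n * v ^ n) * (u ^ d * y) := by ring
          _ = u ^ d * y := by rw [huvn, one_mul]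
      rw [this]
      exact O₀.mul_mem (O₀.pow_mem hu _) (hb₀ y hy)
    · obtain ⟨j, rfl⟩ := Nat.exists_eq_add_of_lt hnk
      have e1 : u ^ k * y * v ^ (k + j + 1) = v ^ (j + 1) * y := by
        rw [add_assoc, pow_add]
        calc u ^ k * y * (v ^ k * v ^ (j + 1)) = (u ^ k * v ^ k) * (v ^ (j + 1) * y) := by ring
          _ = v ^ (j + 1) * y := by rw [huvn, one_mul]
      rw [e1]
      rcases lt_or_ge (j + 1) N with hj | hj
      · apply Submodule.subset_span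
        refine ⟨v ^ (j + 1) * y, ?_, rfl⟩
        rw [hT, Finset.coe_image]
        exact ⟨(j + 1, y), by simp [hj, hy], rfl⟩
      · apply hzero
        apply Submodule.mem_sup_right
        obtain ⟨d, hd⟩ := Nat.exists_eq_add_of_le hj
        have : v ^ (j + 1) * y = y * v ^ N * v ^ d := by rw [hd, pow_add]; ring
        rw [this]
        exact O₁.mul_mem (hN y hy) (O₁.pow_mem hv _)
  have hall : ∀ x : B, S.mkQ x ∈ W := by
    intro x
    obtain ⟨n, hn⟩ := htop x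
    have hx : x = x * u ^ n * v ^ n := by rw [mul_assoc, huvn, mul_one]
    let φ : B →ₗ[A] (B ⧸ S) := S.mkQ.comp (LinearMap.mulRight A (v ^ n))
    have hle : Submodule.span A
        (Set.image2 (fun (k : ℕ) (y' : B) => u ^ k * y') Set.univ (b : Set B)) ≤ W.comap φ := by
      rw [Submodule.span_le]
      rintro _ ⟨k, -, y, hy, rfl⟩
      exact key k n y hy
    have := hle (hb _ hn)
    rw [hx]
    exact this
  refine Module.finite_def.mpr ⟨T.image S.mkQ, ?_⟩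
  rw [Finset.coe_image, eq_top_iff]
  rintro q -
  obtain ⟨x, rfl⟩ := S.mkQ_surjective q
  exact hall x

end Alg

end Fermat.Agent.S18
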