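import Mathlib
import Fermat.Agent.S18.Conn

/-!
# Ambient versions of the connectedness lemma

Same as `conn_core` / `conn_finite`, but the overlap ring is a subalgebra `R₀₁` of an ambient
ring `E` (no subtypes for the consumer).
-/

set_option autoImplicit false

namespace Fermat.Agent.S18

open IsLocalRing

section

variable {A E : Type*} [CommRing A] [CommRing E] [Algebra A E]

/-- Ambient finiteness criterion: every element of `R₀₁ = R₀[1/u]` lies in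
`R₀ + R₁ + span T` for a finite set `T ⊆ R₀₁`. -/
theorem conn_finite_amb (u v : E) (huv : u * v = 1) (R₀ R₁ R₀₁ : Subalgebra A E)
    (h0 : R₀ ≤ R₀₁) (h1 : R₁ ≤ R₀₁) (hu : u ∈ R₀) (hv : v ∈ R₁) (b : Finset E)
    (hb₀ : ∀ y ∈ b, y ∈ R₀)
    (hb : ∀ y ∈ R₀, y ∈ Submodule.span A
      (Set.image2 (fun (k : ℕ) (y' : E) => u ^ k * y') Set.univ (b : Set E)))
    (N : ℕ) (hN : ∀ y ∈ b, y * v ^ N ∈ R₁)
    (htop : ∀ x ∈ R₀₁, ∃ n : ℕ, x * u ^ n ∈ R₀) :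
    ∃ T : Finset E, (∀ y ∈ T, y ∈ R₀₁) ∧ ∀ x ∈ R₀₁, x ∈ Subalgebra.toSubmodule R₀ ⊔
      Subalgebra.toSubmodule R₁ ⊔ Submodule.span A (T : Set E) := by
  classical
  set T : Finset E := (Finset.range N ×ˢ b).image (fun p => v ^ p.1 * p.2) with hT
  set W : Submodule A E := Subalgebra.toSubmodule R₀ ⊔ Subalgebra.toSubmodule R₁ ⊔
    Submodule.span A (T : Set E) with hW
  have huvn : ∀ n : ℕ, u ^ n * v ^ n = 1 := fun n => by rw [← mul_pow, huv, one_pow]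
  have hW0 : ∀ x ∈ R₀, x ∈ W := fun x hx =>
    Submodule.mem_sup_left (Submodule.mem_sup_left hx)
  have hW1 : ∀ x ∈ R₁, x ∈ W := fun x hx =>
    Submodule.mem_sup_left (Submodule.mem_sup_right hx)
  have key : ∀ (k n : ℕ) (y : E), y ∈ b → u ^ k * y * v ^ n ∈ W := by
    intro k n y hy
    rcases le_or_gt n k with hnk | hnk
    · apply hW0
      have : u ^ k * y * v ^ n = u ^ (k - n) * y := by
        obtain ⟨d, rfl⟩ := Nat.exists_eq_add_of_le hnk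
        rw [Nat.add_sub_cancel_left, pow_add]
        calc u ^ n * u ^ d * y * v ^ n = (u ^ n * v ^ n) * (u ^ d * y) := by ring
          _ = u ^ d * y := by rw [huvn, one_mul]
      rw [this]
      exact R₀.mul_mem (R₀.pow_mem hu _) (hb₀ y hy)
    · obtain ⟨j, rfl⟩ := Nat.exists_eq_add_of_lt hnk
      have e1 : u ^ k * y * v ^ (k + j + 1) = v ^ (j + 1) * y := by
        rw [add_assoc, pow_add]
        calc u ^ k * y * (v ^ k * v ^ (j + 1)) = (u ^ k * v ^ k) * (v ^ (j + 1) * y) := by ring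
          _ = v ^ (j + 1) * y := by rw [huvn, one_mul]
      rw [e1]
      rcases lt_or_ge (j + 1) N with hj | hj
      · apply Submodule.mem_sup_right
        apply Submodule.subset_span
        rw [hT, Finset.coe_image]
        exact ⟨(j + 1, y), by simp [hj, hy], rfl⟩
      · apply hW1
        obtain ⟨d, hd⟩ := Nat.exists_eq_add_of_le hj
        have : v ^ (j + 1) * y = y * v ^ N * v ^ d := by rw [hd, pow_add]; ring
        rw [this]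
        exact R₁.mul_mem (hN y hy) (R₁.pow_mem hv _)
  refine ⟨T, ?_, ?_⟩
  · intro y hy
    rw [hT, Finset.mem_image] at hy
    obtain ⟨⟨j, y'⟩, hp, rfl⟩ := hy
    rw [Finset.mem_product] at hp
    exact R₀₁.mul_mem (R₀₁.pow_mem (h1 hv) _) (h0 (hb₀ y' hp.2))
  · intro x hx
    obtain ⟨n, hn⟩ := htop x hx
    have hxe : x = x * u ^ n * v ^ n := by rw [mul_assoc, huvn, mul_one]
    let φ : E →ₗ[A] E := LinearMap.mulRight A (v ^ n)
    have hle : Submodule.span A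
        (Set.image2 (fun (k : ℕ) (y' : E) => u ^ k * y') Set.univ (b : Set E)) ≤ W.comap φ := by
      rw [Submodule.span_le]
      rintro _ ⟨k, -, y, hy, rfl⟩
      exact key k n y hy
    have := hle (hb _ hn)
    rw [hxe]
    exact this

/-- Ambient connectedness lemma. -/
theorem conn_core_amb [IsNoetherianRing A] [IsLocalRing A] (π : A) (hπ : π ∈ maximalIdeal A)
    (hreg : ∀ x : E, π • x = 0 → x = 0) (R₀ R₁ R₀₁ : Subalgebra A E)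
    (h0 : R₀ ≤ R₀₁) (h1 : R₁ ≤ R₀₁)
    (hfin : ∃ T : Finset E, (∀ y ∈ T, y ∈ R₀₁) ∧ ∀ x ∈ R₀₁, x ∈ Subalgebra.toSubmodule R₀ ⊔
      Subalgebra.toSubmodule R₁ ⊔ Submodule.span A (T : Set E))
    (e₀ e₁ : E) (he₀ : e₀ ∈ R₀) (he₁ : e₁ ∈ R₁)
    (hi₀ : ∃ x ∈ R₀, e₀ ^ 2 - e₀ = π • x) (hi₁ : ∃ x ∈ R₁, e₁ ^ 2 - e₁ = π • x)
    (h₀₁ : ∃ c ∈ R₀₁, e₀ - e₁ = π • c) :
    ∃ a₀ ∈ R₀, ∃ a₁ ∈ R₁, e₀ - π • a₀ = e₁ + π • a₁ := by
  classical
  obtain ⟨T, hT01, hT⟩ := hfin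
  obtain ⟨c, hc01, hc⟩ := h₀₁
  -- work in the ring `R₀₁`
  set O₀ : Subalgebra A ↥R₀₁ := R₀.comap R₀₁.val with hO₀
  set O₁ : Subalgebra A ↥R₀₁ := R₁.comap R₀₁.val with hO₁
  have hmem0 : ∀ x : ↥R₀₁, x ∈ O₀ ↔ (x : E) ∈ R₀ := fun x => Iff.rfl
  have hmem1 : ∀ x : ↥R₀₁, x ∈ O₁ ↔ (x : E) ∈ R₁ := fun x => Iff.rfl
  have hfinB : Module.Finite A
      (↥R₀₁ ⧸ (Subalgebra.toSubmodule O₀ ⊔ Subalgebra.toSubmodule O₁)) := by
    set S : Submodule A ↥R₀₁ := Subalgebra.toSubmodule O₀ ⊔ Subalgebra.toSubmodule O₁ with hS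
    let TB : Finset ↥R₀₁ := T.attach.image (fun y => (⟨y.1, hT01 y.1 y.2⟩ : ↥R₀₁))
    refine Module.finite_def.mpr ⟨TB.image S.mkQ, ?_⟩
    rw [Finset.coe_image, eq_top_iff]
    rintro q -
    obtain ⟨x, rfl⟩ := S.mkQ_surjective q
    have hx := hT x.1 x.2
    obtain ⟨y, hy, z, hz, hyz⟩ := Submodule.mem_sup.mp hx
    obtain ⟨r₀, hr₀, r₁, hr₁, hr⟩ := Submodule.mem_sup.mp hy
    -- `z` is an `A`-combination of elements of `T`
    have hzB : ∀ z ∈ Submodule.span A (T : Set E), ∃ zB : ↥R₀₁, (zB : E) = z ∧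
        S.mkQ zB ∈ Submodule.span A (S.mkQ '' (TB : Set ↥R₀₁)) := by
      intro z hz
      induction hz using Submodule.span_induction with
      | mem w hw =>
        refine ⟨⟨w, hT01 w hw⟩, rfl, Submodule.subset_span ⟨⟨w, hT01 w hw⟩, ?_, rfl⟩⟩
        rw [Finset.coe_image]
        exact ⟨⟨w, hw⟩, by simp, rfl⟩
      | zero => exact ⟨0, rfl, by simp⟩
      | add w w' _ _ ih ih' =>
        obtain ⟨wB, hwB, hw⟩ := ih
        obtain ⟨wB', hwB', hw'⟩ := ih'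
        refine ⟨wB + wB', ?_, ?_⟩
        · rw [Subalgebra.coe_add, hwB, hwB']
        · rw [map_add]; exact Submodule.add_mem _ hw hw'
      | smul a w _ ih =>
        obtain ⟨wB, hwB, hw⟩ := ih
        refine ⟨a • wB, ?_, ?_⟩
        · rw [Subalgebra.coe_smul, hwB]
        · rw [map_smul]; exact Submodule.smul_mem _ _ hw
    obtain ⟨zB, hzB1, hzB2⟩ := hzB z hz
    have hx_eq : x = (⟨r₀, h0 hr₀⟩ : ↥R₀₁) + ⟨r₁, h1 hr₁⟩ + zB := by
      apply Subtype.ext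
      rw [Subalgebra.coe_add, Subalgebra.coe_add, hzB1, ← hyz, ← hr]
    have h0S : (⟨r₀, h0 hr₀⟩ : ↥R₀₁) ∈ S := Submodule.mem_sup_left (show _ ∈ O₀ from hr₀)
    have h1S : (⟨r₁, h1 hr₁⟩ : ↥R₀₁) ∈ S := Submodule.mem_sup_right (show _ ∈ O₁ from hr₁)
    rw [hx_eq, map_add, map_add, (Submodule.mkQ_apply S _).trans
      ((Submodule.Quotient.mk_eq_zero S).mpr h0S), (Submodule.mkQ_apply S _).trans
      ((Submodule.Quotient.mk_eq_zero S).mpr h1S), zero_add, zero_add]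
    exact hzB2
  have hregB : ∀ x : ↥R₀₁, π • x = 0 → x = 0 := by
    intro x hx
    apply Subtype.ext
    rw [Subalgebra.coe_zero]
    apply hreg
    have := congrArg (Subtype.val) hx
    rwa [Subalgebra.coe_smul, Subalgebra.coe_zero] at this
  obtain ⟨x₀, hx₀, hx₀e⟩ := hi₀
  obtain ⟨x₁, hx₁, hx₁e⟩ := hi₁
  have hE0 : (⟨e₀, h0 he₀⟩ : ↥R₀₁) ^ 2 - ⟨e₀, h0 he₀⟩ = π • (⟨x₀, h0 hx₀⟩ : ↥R₀₁) := by
    apply Subtype.ext
    rw [Subalgebra.coe_sub, Subalgebra.coe_pow, Subalgebra.coe_smul]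
    exact hx₀e
  have hE1 : (⟨e₁, h1 he₁⟩ : ↥R₀₁) ^ 2 - ⟨e₁, h1 he₁⟩ = π • (⟨x₁, h1 hx₁⟩ : ↥R₀₁) := by
    apply Subtype.ext
    rw [Subalgebra.coe_sub, Subalgebra.coe_pow, Subalgebra.coe_smul]
    exact hx₁e
  have hE01 : (⟨e₀, h0 he₀⟩ : ↥R₀₁) - ⟨e₁, h1 he₁⟩ = π • (⟨c, hc01⟩ : ↥R₀₁) := by
    apply Subtype.ext
    rw [Subalgebra.coe_sub, Subalgebra.coe_smul]
    exact hc
  obtain ⟨a₀, ha₀, a₁, ha₁, hEq⟩ := conn_core (A := A) (B := ↥R₀₁) π hπ hregB O₀ O₁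
    (⟨e₀, h0 he₀⟩ : ↥R₀₁) (⟨e₁, h1 he₁⟩ : ↥R₀₁) (show _ ∈ R₀ from he₀) (show _ ∈ R₁ from he₁)
    ⟨⟨x₀, h0 hx₀⟩, (show _ ∈ R₀ from hx₀), hE0⟩
    ⟨⟨x₁, h1 hx₁⟩, (show _ ∈ R₁ from hx₁), hE1⟩
    ⟨⟨c, hc01⟩, hE01⟩
  refine ⟨a₀.1, ha₀, a₁.1, ha₁, ?_⟩
  have := congrArg (Subtype.val) hEq
  rwa [Subalgebra.coe_sub, Subalgebra.coe_add, Subalgebra.coe_smul, Subalgebra.coe_smul] at this

end

end Fermat.Agent.S18
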