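import Mathlib
import Fermat.Agent.S18.ConnAmb

/-!
# The abstract core of S18: an `m`-th power up to a constant

Setting: `A` a noetherian local ring, `τ` in its maximal ideal, `F` a field over `A`, two
`A`-subalgebras `O₀, O₁` of `F` (the two affine charts), a valuation ring `V` of `F` (the
"generic point of the special fibre"), and `f : F` with `f ≡ 1` modulo `τ V` which is locally an
`m`-th power up to a unit at every closed point of the special fibres of the two charts.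
Conclusion (`core_main`): `f = w * G ^ m` with `w` a constant.

The proof works in the Kummer ring `E = F[g] / (g ^ m - f)`, builds the subrings
`R(O) = ⊕_c I_c(O) g ^ c`, `I_c(O) = {y | y ^ m f ^ c ∈ O}`, and approximate idempotents
`e_i = (1/m) ∑ y_c g ^ c` with `y_c ∈ I_c(O_i)`, `y_c ≡ 1`, and then applies the connectedness
lemma `conn_core_amb`.
-/

set_option autoImplicit false
set_option linter.unusedSectionVars false

namespace Fermat.Agent.S18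

open Finset

section CoreDefs

variable {A F E : Type*} [CommRing A] [Field F] [Algebra A F] [CommRing E] [Algebra F E]
  [Algebra A E] [IsScalarTower A F E]

/-- The multiplicative monoid of monomials `y • g ^ c` with `y ^ m * f ^ c ∈ O`. -/
def core_M (m : ℕ) (f : F) (g : E) (O : Subalgebra A F) : Submonoid E where
  carrier := {x | ∃ c : ℕ, ∃ y : F, y ^ m * f ^ c ∈ O ∧ x = y • g ^ c}
  one_mem' := ⟨0, 1, by simp, by simp⟩
  mul_mem' := by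
    rintro _ _ ⟨a, y, hy, rfl⟩ ⟨b, y', hy', rfl⟩
    refine ⟨a + b, y * y', ?_, ?_⟩
    · have : (y * y') ^ m * f ^ (a + b) = (y ^ m * f ^ a) * (y' ^ m * f ^ b) := by ring
      rw [this]; exact O.mul_mem hy hy'
    · rw [pow_add, smul_mul_smul_comm]

theorem core_M_mem (m : ℕ) (f : F) (g : E) (O : Subalgebra A F) (x : E) :
    x ∈ core_M m f g O ↔ ∃ c : ℕ, ∃ y : F, y ^ m * f ^ c ∈ O ∧ x = y • g ^ c := Iff.rfl

/-- The subring `R(O) = ∑_c I_c(O) g ^ c` of the Kummer ring. -/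
def core_R (m : ℕ) (f : F) (g : E) (O : Subalgebra A F) : Subalgebra A E where
  toSubsemiring := (core_M m f g O).subsemiringClosure
  algebraMap_mem' := fun a => by
    apply AddSubmonoid.subset_closure
    refine ⟨0, algebraMap A F a, ?_, ?_⟩
    · rw [pow_zero, mul_one]; exact O.pow_mem (O.algebraMap_mem a) m
    · rw [pow_zero, IsScalarTower.algebraMap_apply A F E, Algebra.algebraMap_eq_smul_one]

theorem core_R_mem_closure (m : ℕ) (f : F) (g : E) (O : Subalgebra A F) (x : E) :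
    x ∈ core_R m f g O ↔ x ∈ AddSubmonoid.closure (core_M m f g O : Set E) := Iff.rfl

theorem core_R_monomial (m : ℕ) (f : F) (g : E) (O : Subalgebra A F) (c : ℕ) (y : F)
    (hy : y ^ m * f ^ c ∈ O) : y • g ^ c ∈ core_R m f g O :=
  AddSubmonoid.subset_closure ⟨c, y, hy, rfl⟩

theorem core_R_sum (m : ℕ) (f : F) (g : E) (O : Subalgebra A F) (s : Finset ℕ) (y : ℕ → F)
    (hy : ∀ c ∈ s, y c ^ m * f ^ c ∈ O) : ∑ c ∈ s, y c • g ^ c ∈ core_R m f g O :=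
  Subalgebra.sum_mem _ fun c hc => core_R_monomial m f g O c (y c) (hy c hc)

theorem core_R_mono (m : ℕ) (f : F) (g : E) {O O' : Subalgebra A F} (h : O ≤ O') :
    core_R m f g O ≤ core_R m f g O' := by
  intro x hx
  rw [core_R_mem_closure] at hx ⊢
  refine AddSubmonoid.closure_mono ?_ hx
  rintro _ ⟨c, y, hy, rfl⟩
  exact ⟨c, y, h hy, rfl⟩

/-- `I_c(O)` is closed under addition when `O` is closed under `m`-th roots. -/
theorem core_I_add (m : ℕ) (f : F) (O : Subalgebra A F) (hroot : ∀ x : F, x ^ m ∈ O → x ∈ O)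
    (c : ℕ) (y y' : F) (hy : y ^ m * f ^ c ∈ O) (hy' : y' ^ m * f ^ c ∈ O) :
    (y + y') ^ m * f ^ c ∈ O := by
  rw [add_pow, Finset.sum_mul]
  refine Subalgebra.sum_mem _ fun k hk => ?_
  have hkm : k ≤ m := Nat.lt_succ_iff.mp (Finset.mem_range.mp hk)
  have hz : y ^ k * y' ^ (m - k) * f ^ c ∈ O := by
    apply hroot
    obtain ⟨d, rfl⟩ := Nat.exists_eq_add_of_le hkm
    rw [Nat.add_sub_cancel_left]
    have : (y ^ k * y' ^ d * f ^ c) ^ (k + d) =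
        (y ^ (k + d) * f ^ c) ^ k * (y' ^ (k + d) * f ^ c) ^ d := by ring
    rw [this]
    exact O.mul_mem (O.pow_mem hy k) (O.pow_mem hy' d)
  have : y ^ k * y' ^ (m - k) * (m.choose k : F) * f ^ c =
      (m.choose k : F) * (y ^ k * y' ^ (m - k) * f ^ c) := by ring
  rw [this]
  exact O.mul_mem (natCast_mem O _) hz

/-- Coordinates: every element of `R(O)` is `∑_{c<m} y c • g ^ c` with `y c ∈ I_c(O)`. -/
theorem core_R_repr (m : ℕ) (hm : 0 < m) (f : F) (g : E) (hg : g ^ m = algebraMap F E f)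
    (O : Subalgebra A F) (hroot : ∀ x : F, x ^ m ∈ O → x ∈ O) (x : E)
    (hx : x ∈ core_R m f g O) :
    ∃ y : ℕ → F, (∀ c, y c ^ m * f ^ c ∈ O) ∧ x = ∑ c ∈ range m, y c • g ^ c := by
  classical
  rw [core_R_mem_closure] at hx
  induction hx using AddSubmonoid.closure_induction with
  | mem x hx =>
    obtain ⟨c, y, hy, rfl⟩ := hx
    refine ⟨fun c' => if c' = c % m then y * f ^ (c / m) else 0, ?_, ?_⟩
    · intro c'
      beta_reduce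
      by_cases h : c' = c % m
      · rw [if_pos h, h]
        have : (y * f ^ (c / m)) ^ m * f ^ (c % m) = y ^ m * f ^ (m * (c / m) + c % m) := by
          rw [pow_add, pow_mul]; ring
        rw [this, Nat.div_add_mod]
        exact hy
      · rw [if_neg h, zero_pow hm.ne', zero_mul]
        exact O.zero_mem
    · rw [Finset.sum_eq_single (c % m)]
      · beta_reduce
        rw [if_pos rfl]
        conv_lhs => rw [← Nat.div_add_mod c m, pow_add, pow_mul, hg, ← map_pow]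
        rw [Algebra.algebraMap_eq_smul_one, smul_mul_assoc, one_mul, smul_smul]
      · intro b _ hb
        beta_reduce
        rw [if_neg hb, zero_smul]
      · intro h
        exact absurd (Finset.mem_range.mpr (Nat.mod_lt c hm)) h
  | zero =>
    refine ⟨fun _ => 0, fun c => ?_, by simp⟩
    rw [zero_pow hm.ne', zero_mul]
    exact O.zero_mem
  | add x x' _ _ ih ih' =>
    obtain ⟨y, hy, rfl⟩ := ih
    obtain ⟨y', hy', rfl⟩ := ih'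
    refine ⟨fun c => y c + y' c, fun c => core_I_add m f O hroot c _ _ (hy c) (hy' c), ?_⟩
    rw [← Finset.sum_add_distrib]
    exact Finset.sum_congr rfl fun c _ => (add_smul _ _ _).symm

/-- Iterated divisibility by `τ'`. -/
theorem core_div_pow (O V' : Subalgebra A F) (τ' : F) (hτ' : τ' ≠ 0) (hτV : τ' ∈ V')
    (hdiv : ∀ x ∈ O, x * τ'⁻¹ ∈ V' → x * τ'⁻¹ ∈ O) (k : ℕ) :
    ∀ x ∈ O, x * τ'⁻¹ ^ k ∈ V' → x * τ'⁻¹ ^ k ∈ O := by
  induction k with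
  | zero => intro x hx _; simpa using hx
  | succ k ih =>
    intro x hx hxV
    have h1 : x * τ'⁻¹ ^ k ∈ V' := by
      have : x * τ'⁻¹ ^ k = x * τ'⁻¹ ^ (k + 1) * τ' := by
        rw [pow_succ]; field_simp
      rw [this]
      exact V'.mul_mem hxV hτV
    have h2 := ih x hx h1
    have h3 : x * τ'⁻¹ ^ (k + 1) = x * τ'⁻¹ ^ k * τ'⁻¹ := by rw [pow_succ, mul_assoc]
    rw [h3] at hxV ⊢
    exact hdiv _ h2 hxV

/-- Division by `τ'` in `R(O)`: an element of `R(O) ∩ τ' R(V')` lies in `τ' R(O)`. -/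
theorem core_R_div (m : ℕ) (hm : 0 < m) (f : F) (g : E) (hg : g ^ m = algebraMap F E f)
    (hli : ∀ y y' : ℕ → F, ∑ c ∈ range m, y c • g ^ c = ∑ c ∈ range m, y' c • g ^ c →
      ∀ c < m, y c = y' c)
    (O V' : Subalgebra A F) (hroot : ∀ x : F, x ^ m ∈ O → x ∈ O)
    (hrootV : ∀ x : F, x ^ m ∈ V' → x ∈ V') (τ' : F) (hτ' : τ' ≠ 0) (hτV : τ' ∈ V')
    (hdiv : ∀ x ∈ O, x * τ'⁻¹ ∈ V' → x * τ'⁻¹ ∈ O)
    (x z : E) (hx : x ∈ core_R m f g O) (hz : z ∈ core_R m f g V') (hxz : x = τ' • z) :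
    z ∈ core_R m f g O := by
  obtain ⟨y, hy, rfl⟩ := core_R_repr m hm f g hg O hroot x hx
  obtain ⟨w, hw, rfl⟩ := core_R_repr m hm f g hg V' hrootV z hz
  rw [Finset.smul_sum] at hxz
  have hc : ∀ c < m, y c = τ' * w c := by
    intro c hc
    have h1 : ∑ c ∈ range m, y c • g ^ c = ∑ c ∈ range m, (τ' * w c) • g ^ c := by
      rw [hxz]
      exact Finset.sum_congr rfl fun c _ => smul_smul _ _ _
    exact hli y (fun c => τ' * w c) h1 c hc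
  refine core_R_sum m f g O _ w fun c hcm => ?_
  have hcm' := Finset.mem_range.mp hcm
  have h1 : w c ^ m * f ^ c = y c ^ m * f ^ c * τ'⁻¹ ^ m := by
    rw [hc c hcm', mul_pow, inv_pow]
    have hτm : τ' ^ m ≠ 0 := pow_ne_zero m hτ'
    field_simp
  rw [h1]
  apply core_div_pow O V' τ' hτ' hτV hdiv m _ (hy c)
  rw [← h1]
  exact hw c

end CoreDefs

section CoreY

variable {A F : Type*} [CommRing A] [Field F] [Algebra A F]

/-- Congruences modulo `τ' V'` pass to powers. -/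
theorem core_T_pow_sub_pow (V' : Subalgebra A F) (τ' : F) (x y : F) (hx : x ∈ V') (hy : y ∈ V')
    (h : (x - y) * τ'⁻¹ ∈ V') (n : ℕ) : (x ^ n - y ^ n) * τ'⁻¹ ∈ V' := by
  rw [← geom_sum₂_mul, mul_assoc]
  exact V'.mul_mem
    (Subalgebra.sum_mem _ fun i _ => V'.mul_mem (V'.pow_mem hx _) (V'.pow_mem hy _)) h

/-- Basic facts on `f ≡ 1` modulo `τ' V'`. -/
theorem core_f_facts (f : F) (V' : Subalgebra A F) (τ' : F) (hτV : τ' ∈ V')
    (hτinv : τ'⁻¹ ∉ V') (hVunit : ∀ z : F, z * τ'⁻¹ ∈ V' → (1 + z)⁻¹ ∈ V')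
    (h7 : (f - 1) * τ'⁻¹ ∈ V') :
    τ' ≠ 0 ∧ (∀ z : F, z * τ'⁻¹ ∈ V' → z ∈ V') ∧ f ∈ V' ∧ f⁻¹ ∈ V' ∧ f ≠ 0 ∧
      (f⁻¹ - 1) * τ'⁻¹ ∈ V' := by
  have hτ0 : τ' ≠ 0 := fun h => hτinv (by rw [h, inv_zero]; exact V'.zero_mem)
  have hTV : ∀ z : F, z * τ'⁻¹ ∈ V' → z ∈ V' := fun z hz => by
    have : z = z * τ'⁻¹ * τ' := by field_simp
    rw [this]; exact V'.mul_mem hz hτV
  have hfV : f ∈ V' := by
    have : f = 1 + (f - 1) := by ring
    rw [this]; exact V'.add_mem V'.one_mem (hTV _ h7)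
  have hfinv : f⁻¹ ∈ V' := by
    have := hVunit (f - 1) h7
    rwa [add_sub_cancel] at this
  have hf0 : f ≠ 0 := by
    rintro rfl
    apply hτinv
    have : (0 - 1 : F) * τ'⁻¹ = -τ'⁻¹ := by ring
    rw [this] at h7
    simpa using V'.neg_mem h7
  refine ⟨hτ0, hTV, hfV, hfinv, hf0, ?_⟩
  have : (f⁻¹ - 1) * τ'⁻¹ = -((f - 1) * τ'⁻¹) * f⁻¹ := by field_simp; ring
  rw [this]; exact V'.mul_mem (V'.neg_mem h7) hfinv

/-- Existence of `y ∈ I_c(O)` with `y ≡ 1` modulo `τ V'`. -/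
theorem core_exists_y (m : ℕ) (hm : 0 < m) (f : F) (O V' : Subalgebra A F) (τ : A)
    (hOV : O ≤ V') (hroot : ∀ x : F, x ^ m ∈ O → x ∈ O)
    (hrootV : ∀ x : F, x ^ m ∈ V' → x ∈ V')
    (hτinv : (algebraMap A F τ)⁻¹ ∉ V')
    (hVunit : ∀ z : F, z * (algebraMap A F τ)⁻¹ ∈ V' → (1 + z)⁻¹ ∈ V')
    (hdiv : ∀ x ∈ O, x * (algebraMap A F τ)⁻¹ ∈ V' → x * (algebraMap A F τ)⁻¹ ∈ O)
    (hSM : ∀ y ∈ V', (∃ x ∈ O, (y ^ m - x) * (algebraMap A F τ)⁻¹ ∈ V') →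
      ∃ x' ∈ O, (y - x') * (algebraMap A F τ)⁻¹ ∈ V')
    (h6 : ∀ 𝔫 : Ideal ↥O, 𝔫.IsMaximal → algebraMap A ↥O τ ∈ 𝔫 →
      ∃ p : F, p ≠ 0 ∧ ∃ a b : ↥O, a ∉ 𝔫 ∧ b ∉ 𝔫 ∧ f * (b : F) = (a : F) * p ^ m)
    (h7 : (f - 1) * (algebraMap A F τ)⁻¹ ∈ V')
    (c : ℕ) (hc : c ≤ m) :
    ∃ y : F, y ^ m * f ^ c ∈ O ∧ (y - 1) * (algebraMap A F τ)⁻¹ ∈ V' := by
  classical
  set τ' := algebraMap A F τ with hτ'
  have hτV : τ' ∈ V' := V'.algebraMap_mem τ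
  obtain ⟨hτ0, hTV, hfV, hfinv, hf0, hfinvT⟩ := core_f_facts f V' τ' hτV hτinv hVunit h7
  -- the ideal `J`
  let J : Ideal ↥O :=
    { carrier := {x | ∃ y : F, y ^ m * f ^ c ∈ O ∧ (y - (x : F)) * τ'⁻¹ ∈ V'}
      zero_mem' := ⟨0, by rw [zero_pow hm.ne', zero_mul]; exact O.zero_mem, by
        simp [V'.zero_mem]⟩
      add_mem' := by
        rintro x x' ⟨y, hy, hyx⟩ ⟨y', hy', hyx'⟩
        refine ⟨y + y', core_I_add m f O hroot c y y' hy hy', ?_⟩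
        have : (y + y' - ((x + x' : ↥O) : F)) * τ'⁻¹ =
            (y - x) * τ'⁻¹ + (y' - x') * τ'⁻¹ := by push_cast; ring
        rw [this]; exact V'.add_mem hyx hyx'
      smul_mem' := by
        rintro r x ⟨y, hy, hyx⟩
        refine ⟨r * y, ?_, ?_⟩
        · have : ((r : F) * y) ^ m * f ^ c = (r : F) ^ m * (y ^ m * f ^ c) := by ring
          rw [this]; exact O.mul_mem (O.pow_mem r.2 m) hy
        · have : ((r : F) * y - ((r • x : ↥O) : F)) * τ'⁻¹ = r * ((y - x) * τ'⁻¹) := by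
            rw [smul_eq_mul]; push_cast; ring
          rw [this]; exact V'.mul_mem (hOV r.2) hyx }
  by_cases hJ : J = ⊤
  · have h1 : (1 : ↥O) ∈ J := by rw [hJ]; trivial
    obtain ⟨y, hy, hy1⟩ := h1
    exact ⟨y, hy, by simpa using hy1⟩
  · exfalso
    obtain ⟨𝔫, h𝔫, hJ𝔫⟩ := Ideal.exists_le_maximal J hJ
    have hτ𝔫 : algebraMap A ↥O τ ∈ 𝔫 := by
      apply hJ𝔫
      refine ⟨0, by rw [zero_pow hm.ne', zero_mul]; exact O.zero_mem, ?_⟩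
      have : ((0 : F) - ((algebraMap A ↥O τ : ↥O) : F)) * τ'⁻¹ = -1 := by
        rw [Subalgebra.coe_algebraMap, zero_sub, neg_mul, mul_inv_cancel₀ hτ0]
      rw [this]; exact V'.neg_mem V'.one_mem
    obtain ⟨p, hp, a, b, ha, hb, hfab⟩ := h6 𝔫 h𝔫 hτ𝔫
    have hprime := h𝔫.isPrime
    have hb0 : (b : F) ≠ 0 := by
      intro h
      apply hb
      have : b = 0 := Subtype.ext h
      rw [this]; exact 𝔫.zero_mem
    set x₀ : ↥O := b ^ (m - c) * a ^ c with hx₀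
    have hx₀𝔫 : x₀ ∉ 𝔫 := by
      intro h
      rcases hprime.mem_or_mem h with h | h
      · exact hb (hprime.mem_of_pow_mem _ h)
      · exact ha (hprime.mem_of_pow_mem _ h)
    set y : F := b * (p⁻¹) ^ c with hy
    have hyx₀ : y ^ m * f ^ c = (x₀ : F) := by
      have hpp : (p⁻¹ ^ c) ^ m * (p ^ m) ^ c = 1 := by
        rw [← pow_mul, ← pow_mul, mul_comm c m, ← mul_pow, inv_mul_cancel₀ hp, one_pow]
      have hbc : (b : F) ^ c ≠ 0 := pow_ne_zero c hb0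
      apply mul_right_cancel₀ hbc
      calc y ^ m * f ^ c * (b : F) ^ c
          = (b : F) ^ m * ((p⁻¹ ^ c) ^ m * (f * b) ^ c) := by rw [hy]; ring
        _ = (b : F) ^ m * (a : F) ^ c * ((p⁻¹ ^ c) ^ m * (p ^ m) ^ c) := by rw [hfab]; ring
        _ = (b : F) ^ m * (a : F) ^ c := by rw [hpp, mul_one]
        _ = (x₀ : F) * (b : F) ^ c := by
          rw [hx₀, Subalgebra.coe_mul, Subalgebra.coe_pow, Subalgebra.coe_pow, mul_right_comm,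
            ← pow_add, Nat.sub_add_cancel hc]
    have hyI : y ^ m * f ^ c ∈ O := by rw [hyx₀]; exact x₀.2
    have hym : y ^ m = x₀ * (f⁻¹) ^ c := by
      rw [← hyx₀, mul_assoc, ← mul_pow, mul_inv_cancel₀ hf0, one_pow, mul_one]
    have hyV : y ∈ V' := by
      apply hrootV
      rw [hym]
      exact V'.mul_mem (hOV x₀.2) (V'.pow_mem hfinv c)
    have hymT : (y ^ m - x₀) * τ'⁻¹ ∈ V' := by
      have : (y ^ m - (x₀ : F)) * τ'⁻¹ = x₀ * (((f⁻¹) ^ c - 1 ^ c) * τ'⁻¹) := by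
        rw [hym]; ring
      rw [this]
      exact V'.mul_mem (hOV x₀.2)
        (core_T_pow_sub_pow V' τ' _ _ hfinv V'.one_mem hfinvT c)
    obtain ⟨x', hx'O, hx'⟩ := hSM y hyV ⟨x₀, x₀.2, hymT⟩
    have hx'J : (⟨x', hx'O⟩ : ↥O) ∈ J := ⟨y, hyI, hx'⟩
    have hx'𝔫 : (⟨x', hx'O⟩ : ↥O) ∈ 𝔫 := hJ𝔫 hx'J
    have h1 : (x' ^ m - (x₀ : F)) * τ'⁻¹ ∈ V' := by
      have : (x' ^ m - (x₀ : F)) * τ'⁻¹ =
          (y ^ m - x₀) * τ'⁻¹ - (y ^ m - x' ^ m) * τ'⁻¹ := by ring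
      rw [this]
      exact V'.sub_mem hymT (core_T_pow_sub_pow V' τ' _ _ hyV (hOV hx'O) hx' m)
    have h2 := hdiv (x' ^ m - (x₀ : F)) (O.sub_mem (O.pow_mem hx'O m) x₀.2) h1
    apply hx₀𝔫
    have h3 : x₀ = (⟨x', hx'O⟩ : ↥O) ^ m - algebraMap A ↥O τ * ⟨_, h2⟩ := by
      apply Subtype.ext
      show (x₀ : F) = x' ^ m - τ' * ((x' ^ m - (x₀ : F)) * τ'⁻¹)
      rw [mul_comm (x' ^ m - (x₀ : F)), ← mul_assoc, mul_inv_cancel₀ hτ0, one_mul,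
        sub_sub_cancel]
    rw [h3]
    exact 𝔫.sub_mem (𝔫.pow_mem_of_mem hx'𝔫 m hm) (𝔫.mul_mem_right _ hτ𝔫)

end CoreY

section CoreIdem

open Pointwise

variable {A F E : Type*} [CommRing A] [Field F] [Algebra A F] [CommRing E] [Algebra F E]
  [Algebra A E] [IsScalarTower A F E]

theorem core_tR_mem (RV : Subalgebra A E) (τ : A) (x : E) :
    x ∈ τ • Subalgebra.toSubmodule RV ↔ ∃ z ∈ RV, τ • z = x :=
  Submodule.mem_smul_pointwise_iff_exists x τ (Subalgebra.toSubmodule RV)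

theorem core_tR_mul (RV : Subalgebra A E) (τ : A) (x r : E)
    (hx : x ∈ τ • Subalgebra.toSubmodule RV) (hr : r ∈ RV) :
    x * r ∈ τ • Subalgebra.toSubmodule RV := by
  obtain ⟨z, hz, rfl⟩ := (core_tR_mem RV τ x).mp hx
  exact (core_tR_mem RV τ _).mpr ⟨z * r, RV.mul_mem hz hr, by rw [smul_mul_assoc]⟩

theorem core_tR_le (RV : Subalgebra A E) (τ : A) (x : E)
    (hx : x ∈ τ • Subalgebra.toSubmodule RV) : x ∈ RV := by
  obtain ⟨z, hz, rfl⟩ := (core_tR_mem RV τ x).mp hx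
  exact RV.smul_mem hz τ

theorem core_s_mul_pow (m : ℕ) (g : E) (RV : Subalgebra A E) (τ : A) (hgR : g ∈ RV)
    (hgm : g ^ m - 1 ∈ τ • Subalgebra.toSubmodule RV) (i : ℕ) :
    (∑ c ∈ range m, g ^ c) * g ^ i - ∑ c ∈ range m, g ^ c ∈
      τ • Subalgebra.toSubmodule RV := by
  induction i with
  | zero => simp
  | succ i ih =>
    have h1 : (∑ c ∈ range m, g ^ c) * g ^ (i + 1) - ∑ c ∈ range m, g ^ c =
        ((∑ c ∈ range m, g ^ c) * g ^ i - ∑ c ∈ range m, g ^ c) * g + (g ^ m - 1) := by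
      rw [← geom_sum_mul g m]; ring
    rw [h1]
    exact Submodule.add_mem _ (core_tR_mul RV τ _ _ ih hgR) hgm

theorem core_estar (m : ℕ) (g : E) (RV : Subalgebra A E) (τ ν : A) (hν : ν * (m : A) = 1)
    (hgR : g ∈ RV) (hgm : g ^ m - 1 ∈ τ • Subalgebra.toSubmodule RV) :
    (ν • ∑ c ∈ range m, g ^ c) ^ 2 - ν • ∑ c ∈ range m, g ^ c ∈
      τ • Subalgebra.toSubmodule RV := by
  set s := ∑ c ∈ range m, g ^ c with hs
  have h1 : s * s - (m : A) • s ∈ τ • Subalgebra.toSubmodule RV := by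
    have : s * s - (m : A) • s = ∑ i ∈ range m, (s * g ^ i - s) := by
      rw [Finset.sum_sub_distrib, ← Finset.mul_sum, Finset.sum_const, Finset.card_range,
        Nat.cast_smul_eq_nsmul]
    rw [this]
    exact Submodule.sum_mem _ fun i _ => core_s_mul_pow m g RV τ hgR hgm i
  have h2 : (ν • s) ^ 2 - ν • s = (ν ^ 2) • (s * s - (m : A) • s) := by
    rw [smul_sub, smul_smul, smul_pow, pow_two s]
    congr 2
    rw [pow_two, mul_assoc, hν, mul_one]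
  rw [h2]
  exact Submodule.smul_mem _ _ h1

theorem core_idem_of_close (RV : Subalgebra A E) (τ : A) (e es : E) (hes : es ∈ RV)
    (h1 : es ^ 2 - es ∈ τ • Subalgebra.toSubmodule RV)
    (h2 : e - es ∈ τ • Subalgebra.toSubmodule RV) :
    e ^ 2 - e ∈ τ • Subalgebra.toSubmodule RV := by
  have : e ^ 2 - e = (es ^ 2 - es) + (e - es) * (2 * es + (e - es) - 1) := by ring
  rw [this]
  refine Submodule.add_mem _ h1 (core_tR_mul RV τ _ _ h2 ?_)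
  exact RV.sub_mem (RV.add_mem (RV.mul_mem (ofNat_mem RV 2) hes) (core_tR_le RV τ _ h2))
    RV.one_mem

theorem core_g_mem (m : ℕ) (f : F) (g : E) (V' : Subalgebra A F) (hfV : f ∈ V') :
    g ∈ core_R m f g V' := by
  have := core_R_monomial m f g V' 1 1 (by rw [one_pow, one_mul, pow_one]; exact hfV)
  rwa [one_smul, pow_one] at this

theorem core_gm_sub_one (m : ℕ) (f : F) (g : E) (hg : g ^ m = algebraMap F E f)
    (V' : Subalgebra A F) (τ : A) (hτ0 : algebraMap A F τ ≠ 0)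
    (h7 : (f - 1) * (algebraMap A F τ)⁻¹ ∈ V') :
    g ^ m - 1 ∈ τ • Subalgebra.toSubmodule (core_R m f g V') := by
  rw [core_tR_mem]
  refine ⟨((f - 1) * (algebraMap A F τ)⁻¹) • g ^ 0, core_R_monomial m f g V' 0 _ ?_, ?_⟩
  · rw [pow_zero, mul_one]; exact V'.pow_mem h7 m
  · rw [← algebraMap_smul F τ, smul_smul, mul_comm (f - 1), ← mul_assoc, mul_inv_cancel₀ hτ0,
      one_mul, pow_zero, hg, ← Algebra.algebraMap_eq_smul_one, map_sub, map_one]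

theorem core_e_sub (m : ℕ) (f : F) (g : E) (V' : Subalgebra A F) (τ ν : A) (hfV : f ∈ V')
    (hτ0 : algebraMap A F τ ≠ 0) (y : ℕ → F)
    (hy : ∀ c < m, (y c - 1) * (algebraMap A F τ)⁻¹ ∈ V') :
    ∑ c ∈ range m, (algebraMap A F ν * y c) • g ^ c - ν • ∑ c ∈ range m, g ^ c ∈
      τ • Subalgebra.toSubmodule (core_R m f g V') := by
  rw [core_tR_mem]
  refine ⟨∑ c ∈ range m, (algebraMap A F ν * ((y c - 1) * (algebraMap A F τ)⁻¹)) • g ^ c,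
    core_R_sum m f g V' _ _ fun c hc => ?_, ?_⟩
  · exact V'.mul_mem (V'.pow_mem (V'.mul_mem (V'.algebraMap_mem ν)
      (hy c (Finset.mem_range.mp hc))) m) (V'.pow_mem hfV c)
  · rw [Finset.smul_sum, Finset.smul_sum, ← Finset.sum_sub_distrib]
    refine Finset.sum_congr rfl fun c _ => ?_
    rw [← algebraMap_smul F τ, smul_smul, ← algebraMap_smul F ν (g ^ c), ← sub_smul]
    congr 1
    field_simp

end CoreIdem

section CoreFin

variable {A F E : Type*} [CommRing A] [Field F] [Algebra A F] [CommRing E] [Algebra F E]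
  [Algebra A E] [IsScalarTower A F E]

/-- The overlap chart `O₀₁ = O₀[1/t]`. -/
def core_O01 (t : F) (O₀ : Subalgebra A F) (ht₀ : t ∈ O₀) : Subalgebra A F where
  carrier := {x | ∃ n : ℕ, x * t ^ n ∈ O₀}
  mul_mem' := by
    rintro x x' ⟨n, hn⟩ ⟨n', hn'⟩
    refine ⟨n + n', ?_⟩
    have : x * x' * t ^ (n + n') = (x * t ^ n) * (x' * t ^ n') := by ring
    rw [this]; exact O₀.mul_mem hn hn'
  add_mem' := by
    rintro x x' ⟨n, hn⟩ ⟨n', hn'⟩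
    refine ⟨n + n', ?_⟩
    have : (x + x') * t ^ (n + n') = (x * t ^ n) * t ^ n' + (x' * t ^ n') * t ^ n := by ring
    rw [this]
    exact O₀.add_mem (O₀.mul_mem hn (O₀.pow_mem ht₀ _)) (O₀.mul_mem hn' (O₀.pow_mem ht₀ _))
  algebraMap_mem' := fun a => ⟨0, by rw [pow_zero, mul_one]; exact O₀.algebraMap_mem a⟩

theorem core_O01_mem (t : F) (O₀ : Subalgebra A F) (ht₀ : t ∈ O₀) (x : F) :
    x ∈ core_O01 t O₀ ht₀ ↔ ∃ n : ℕ, x * t ^ n ∈ O₀ := Iff.rfl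

theorem core_O01_root (m : ℕ) (hm : 0 < m) (t : F) (O₀ : Subalgebra A F) (ht₀ : t ∈ O₀)
    (hroot₀ : ∀ x : F, x ^ m ∈ O₀ → x ∈ O₀) :
    ∀ x : F, x ^ m ∈ core_O01 t O₀ ht₀ → x ∈ core_O01 t O₀ ht₀ := by
  rintro x ⟨n, hn⟩
  refine ⟨n, hroot₀ _ ?_⟩
  have : (x * t ^ n) ^ m = x ^ m * t ^ n * (t ^ n) ^ (m - 1) := by
    obtain ⟨k, rfl⟩ : ∃ k, m = k + 1 := ⟨m - 1, by omega⟩
    rw [Nat.add_sub_cancel]; ring
  rw [this]; exact O₀.mul_mem hn (O₀.pow_mem (O₀.pow_mem ht₀ _) _)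

theorem core_O01_div (t : F) (O₀ V' : Subalgebra A F) (ht₀ : t ∈ O₀) (hOV : O₀ ≤ V') (τ' : F)
    (hdiv : ∀ x ∈ O₀, x * τ'⁻¹ ∈ V' → x * τ'⁻¹ ∈ O₀) :
    ∀ x ∈ core_O01 t O₀ ht₀, x * τ'⁻¹ ∈ V' → x * τ'⁻¹ ∈ core_O01 t O₀ ht₀ := by
  rintro x ⟨n, hn⟩ hxV
  refine ⟨n, ?_⟩
  have e1 : x * τ'⁻¹ * t ^ n = x * t ^ n * τ'⁻¹ := by ring
  rw [e1]
  apply hdiv _ hn
  rw [← e1]
  exact V'.mul_mem hxV (V'.pow_mem (hOV ht₀) n)

theorem core_R_algebraMap_mem (m : ℕ) (f : F) (g : E) (O : Subalgebra A F) (x : F)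
    (hx : x ∈ O) : algebraMap F E x ∈ core_R m f g O := by
  have := core_R_monomial m f g O 0 x (by rw [pow_zero, mul_one]; exact O.pow_mem hx m)
  rwa [pow_zero, ← Algebra.algebraMap_eq_smul_one] at this

/-- Finite generation of `R(O₀)` over `A[t]`. -/
theorem core_fg (m : ℕ) (hm : 0 < m) (f : F) (g : E)
    (hg : g ^ m = algebraMap F E f) (t : F) (O₀ : Subalgebra A F)
    (hroot₀ : ∀ x : F, x ^ m ∈ O₀ → x ∈ O₀) [IsNoetherianRing ↥O₀]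
    (b₀ : Finset F) (hb₀ : ∀ β ∈ b₀, β ∈ O₀)
    (hspan : ∀ x ∈ O₀, x ∈ Submodule.span A
      (Set.image2 (fun (k : ℕ) (β : F) => t ^ k * β) Set.univ (b₀ : Set F)))
    (ψ : F) (hψ : ψ ∈ O₀) (hψ0 : ψ ≠ 0) (hψf : ψ * f⁻¹ ∈ O₀) (hf0 : f ≠ 0) :
    ∃ B : Finset E, (∀ w ∈ B, ∃ c : ℕ, ∃ η : F, η ^ m * f ^ c ∈ O₀ ∧ w = η • g ^ c) ∧
      ∀ x ∈ core_R m f g O₀, x ∈ Submodule.span A
        (Set.image2 (fun (k : ℕ) (w : E) => algebraMap F E t ^ k * w) Set.univ (B : Set E)) := by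
  classical
  have hψm : ψ ^ m * f⁻¹ ∈ O₀ := by
    obtain ⟨k, rfl⟩ := Nat.exists_eq_succ_of_ne_zero hm.ne'
    rw [pow_succ, mul_assoc]; exact O₀.mul_mem (O₀.pow_mem hψ k) hψf
  have hyψ : ∀ (c : ℕ) (y : F), y ^ m * f ^ c ∈ O₀ → y * ψ ^ c ∈ O₀ := by
    intro c y hy
    apply hroot₀
    have hfc : f ^ c * (f⁻¹) ^ c = 1 := by rw [← mul_pow, mul_inv_cancel₀ hf0, one_pow]
    have : (y * ψ ^ c) ^ m = (y ^ m * f ^ c) * (ψ ^ m * f⁻¹) ^ c := by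
      calc (y * ψ ^ c) ^ m = y ^ m * (ψ ^ m) ^ c * 1 := by
            rw [mul_one, mul_pow, ← pow_mul, ← pow_mul, mul_comm c m]
        _ = y ^ m * (ψ ^ m) ^ c * (f ^ c * (f⁻¹) ^ c) := by rw [hfc]
        _ = (y ^ m * f ^ c) * (ψ ^ m * f⁻¹) ^ c := by ring
    rw [this]; exact O₀.mul_mem hy (O₀.pow_mem hψm c)
  let J : ℕ → Ideal ↥O₀ := fun c =>
    { carrier := {x | ((x : F) * ψ⁻¹ ^ c) ^ m * f ^ c ∈ O₀}
      zero_mem' := by
        show (((0 : ↥O₀) : F) * ψ⁻¹ ^ c) ^ m * f ^ c ∈ O₀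
        rw [Subalgebra.coe_zero, zero_mul, zero_pow hm.ne', zero_mul]
        exact O₀.zero_mem
      add_mem' := by
        intro x x' hx hx'
        have := core_I_add m f O₀ hroot₀ c _ _ hx hx'
        show (((x + x' : ↥O₀) : F) * ψ⁻¹ ^ c) ^ m * f ^ c ∈ O₀
        rw [Subalgebra.coe_add, add_mul]; exact this
      smul_mem' := by
        intro r x hx
        show (((r • x : ↥O₀) : F) * ψ⁻¹ ^ c) ^ m * f ^ c ∈ O₀
        have : (((r • x : ↥O₀) : F) * ψ⁻¹ ^ c) ^ m * f ^ c =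
            (r : F) ^ m * (((x : F) * ψ⁻¹ ^ c) ^ m * f ^ c) := by
          rw [smul_eq_mul, Subalgebra.coe_mul]; ring
        rw [this]; exact O₀.mul_mem (O₀.pow_mem r.2 m) hx }
  have hJmem : ∀ (c : ℕ) (x : ↥O₀), x ∈ J c ↔ ((x : F) * ψ⁻¹ ^ c) ^ m * f ^ c ∈ O₀ :=
    fun c x => Iff.rfl
  have hJfg : ∀ c, ∃ S : Finset ↥O₀, Ideal.span (S : Set ↥O₀) = J c := fun c =>
    IsNoetherian.noetherian (J c)
  choose S hS using hJfg
  let B : Finset E := (range m).biUnion fun c => (S c).biUnion fun z =>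
    b₀.image fun β => (β * ((z : F) * ψ⁻¹ ^ c)) • g ^ c
  refine ⟨B, ?_, ?_⟩
  · intro w hw
    simp only [B, Finset.mem_biUnion, Finset.mem_image] at hw
    obtain ⟨c, hc, z, hz, β, hβ, rfl⟩ := hw
    refine ⟨c, β * (z * ψ⁻¹ ^ c), ?_, rfl⟩
    have hzJ : z ∈ J c := by rw [← hS c]; exact Ideal.subset_span hz
    have : (β * ((z : F) * ψ⁻¹ ^ c)) ^ m * f ^ c =
        β ^ m * (((z : F) * ψ⁻¹ ^ c) ^ m * f ^ c) := by ring
    rw [this]; exact O₀.mul_mem (O₀.pow_mem (hb₀ β hβ) m) ((hJmem c z).mp hzJ)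
  · intro x hx
    obtain ⟨y, hy, rfl⟩ := core_R_repr m hm f g hg O₀ hroot₀ x hx
    refine Submodule.sum_mem _ fun c hc => ?_
    have h1 : (⟨y c * ψ ^ c, hyψ c (y c) (hy c)⟩ : ↥O₀) ∈ J c := by
      rw [hJmem]
      show ((y c * ψ ^ c) * ψ⁻¹ ^ c) ^ m * f ^ c ∈ O₀
      rw [mul_assoc, ← mul_pow, mul_inv_cancel₀ hψ0, one_pow, mul_one]; exact hy c
    rw [← hS c, Ideal.span, Submodule.mem_span_finset] at h1
    obtain ⟨r, -, hr⟩ := h1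
    have h2' : ∑ z ∈ S c, (r z : F) * (z : F) = y c * ψ ^ c := by
      have := congrArg (O₀.val) hr
      rw [map_sum] at this
      simpa [smul_eq_mul] using this
    have h2 : y c = ∑ z ∈ S c, (r z : F) * ((z : F) * ψ⁻¹ ^ c) := by
      have h3 : y c = (y c * ψ ^ c) * ψ⁻¹ ^ c := by
        rw [mul_assoc, ← mul_pow, mul_inv_cancel₀ hψ0, one_pow, mul_one]
      rw [h3, ← h2', Finset.sum_mul]
      exact Finset.sum_congr rfl fun z _ => mul_assoc _ _ _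
    rw [h2, Finset.sum_smul]
    refine Submodule.sum_mem _ fun z hz => ?_
    have key : ∀ r ∈ Submodule.span A
        (Set.image2 (fun (k : ℕ) (β : F) => t ^ k * β) Set.univ (b₀ : Set F)),
        (r * ((z : F) * ψ⁻¹ ^ c)) • g ^ c ∈ Submodule.span A
          (Set.image2 (fun (k : ℕ) (w : E) => algebraMap F E t ^ k * w) Set.univ (B : Set E)) := by
      intro r hr
      induction hr using Submodule.span_induction with
      | mem r hr =>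
        obtain ⟨k, -, β, hβ, rfl⟩ := hr
        apply Submodule.subset_span
        refine ⟨k, trivial, (β * ((z : F) * ψ⁻¹ ^ c)) • g ^ c, ?_, ?_⟩
        · exact Finset.mem_coe.mpr (Finset.mem_biUnion.mpr ⟨c, hc, Finset.mem_biUnion.mpr
            ⟨z, hz, Finset.mem_image.mpr ⟨β, hβ, rfl⟩⟩⟩)
        · show algebraMap F E t ^ k * (β * ((z : F) * ψ⁻¹ ^ c)) • g ^ c = _
          rw [← map_pow, ← Algebra.smul_def, smul_smul, mul_assoc]
      | zero => rw [zero_mul, zero_smul]; exact Submodule.zero_mem _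
      | add r r' _ _ ih ih' => rw [add_mul, add_smul]; exact Submodule.add_mem _ ih ih'
      | smul a r _ ih => rw [smul_mul_assoc, smul_assoc]; exact Submodule.smul_mem _ a ih
    exact key _ (hspan _ (r z).2)

/-- The finiteness hypothesis of the connectedness lemma for the rings `R(O₀)`, `R(O₁)`. -/
theorem core_fin (m : ℕ) (hm : 0 < m) (f : F) (g : E)
    (hg : g ^ m = algebraMap F E f) (t : F) (ht : t ≠ 0) (O₀ O₁ : Subalgebra A F)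
    (ht₀ : t ∈ O₀) (ht₁ : t⁻¹ ∈ O₁)
    (h01 : ∀ x ∈ O₀, ∃ n : ℕ, x * t⁻¹ ^ n ∈ O₁) (h10 : ∀ x ∈ O₁, ∃ n : ℕ, x * t ^ n ∈ O₀)
    (hroot₀ : ∀ x : F, x ^ m ∈ O₀ → x ∈ O₀) [IsNoetherianRing ↥O₀]
    (b₀ : Finset F) (hb₀ : ∀ β ∈ b₀, β ∈ O₀)
    (hspan : ∀ x ∈ O₀, x ∈ Submodule.span A
      (Set.image2 (fun (k : ℕ) (β : F) => t ^ k * β) Set.univ (b₀ : Set F)))
    (ψ : F) (hψ : ψ ∈ O₀) (hψ0 : ψ ≠ 0) (hψf : ψ * f⁻¹ ∈ O₀) (hf0 : f ≠ 0) :
    ∃ T : Finset E, (∀ y ∈ T, y ∈ core_R m f g (core_O01 t O₀ ht₀)) ∧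
      ∀ x ∈ core_R m f g (core_O01 t O₀ ht₀),
        x ∈ Subalgebra.toSubmodule (core_R m f g O₀) ⊔
          Subalgebra.toSubmodule (core_R m f g O₁) ⊔ Submodule.span A (T : Set E) := by
  classical
  obtain ⟨B, hB, hBspan⟩ := core_fg m hm f g hg t O₀ hroot₀ b₀ hb₀ hspan ψ hψ hψ0 hψf hf0
  have huv : algebraMap F E t * algebraMap F E t⁻¹ = 1 := by
    rw [← map_mul, mul_inv_cancel₀ ht, map_one]
  have hu : algebraMap F E t ∈ core_R m f g O₀ := core_R_algebraMap_mem m f g O₀ t ht₀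
  have hv : algebraMap F E t⁻¹ ∈ core_R m f g O₁ := core_R_algebraMap_mem m f g O₁ t⁻¹ ht₁
  have hO0 : O₀ ≤ core_O01 t O₀ ht₀ := fun x hx => ⟨0, by rw [pow_zero, mul_one]; exact hx⟩
  have hO1 : O₁ ≤ core_O01 t O₀ ht₀ := fun x hx => h10 x hx
  have hNw : ∀ w ∈ B, ∃ N : ℕ, w * algebraMap F E t⁻¹ ^ N ∈ core_R m f g O₁ := by
    intro w hw
    obtain ⟨c, η, hη, rfl⟩ := hB w hw
    obtain ⟨n, hn⟩ := h01 _ hη
    refine ⟨n, ?_⟩
    have e1 : η • g ^ c * algebraMap F E t⁻¹ ^ n = (η * t⁻¹ ^ n) • g ^ c := by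
      rw [← map_pow, mul_comm, ← Algebra.smul_def, smul_smul, mul_comm]
    rw [e1]
    apply core_R_monomial
    have e2 : (η * t⁻¹ ^ n) ^ m * f ^ c = (η ^ m * f ^ c * t⁻¹ ^ n) * (t⁻¹ ^ n) ^ (m - 1) := by
      obtain ⟨k, rfl⟩ : ∃ k, m = k + 1 := ⟨m - 1, by omega⟩
      rw [Nat.add_sub_cancel]; ring
    rw [e2]; exact O₁.mul_mem hn (O₁.pow_mem (O₁.pow_mem ht₁ _) _)
  choose! Nf hNf using hNw
  have hN : ∀ w ∈ B, w * algebraMap F E t⁻¹ ^ (B.sup Nf) ∈ core_R m f g O₁ := by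
    intro w hw
    obtain ⟨k, hk⟩ := Nat.exists_eq_add_of_le (Finset.le_sup (f := Nf) hw)
    rw [hk, pow_add, ← mul_assoc]
    exact Subalgebra.mul_mem _ (hNf w hw) (Subalgebra.pow_mem _ hv _)
  refine conn_finite_amb (algebraMap F E t) (algebraMap F E t⁻¹) huv (core_R m f g O₀)
    (core_R m f g O₁) (core_R m f g (core_O01 t O₀ ht₀)) (core_R_mono m f g hO0)
    (core_R_mono m f g hO1) hu hv B (fun w hw => by
      obtain ⟨c, η, hη, rfl⟩ := hB w hw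
      exact core_R_monomial m f g O₀ c η hη) hBspan (B.sup Nf) hN ?_
  intro x hx
  obtain ⟨y, hy, rfl⟩ := core_R_repr m hm f g hg (core_O01 t O₀ ht₀)
    (core_O01_root m hm t O₀ ht₀ hroot₀) x hx
  choose n hn using hy
  refine ⟨∑ c ∈ range m, n c, ?_⟩
  have e1 : (∑ c ∈ range m, y c • g ^ c) * algebraMap F E t ^ (∑ c ∈ range m, n c) =
      ∑ c ∈ range m, (y c * t ^ (∑ c ∈ range m, n c)) • g ^ c := by
    rw [Finset.sum_mul]
    refine Finset.sum_congr rfl fun c _ => ?_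
    rw [← map_pow, mul_comm, ← Algebra.smul_def, smul_smul, mul_comm]
  rw [e1]
  refine core_R_sum m f g O₀ _ _ fun c hc => ?_
  obtain ⟨k, hk⟩ := Nat.exists_eq_add_of_le
    (Finset.single_le_sum (f := n) (fun i _ => Nat.zero_le _) hc)
  have e2 : (y c * t ^ (∑ c ∈ range m, n c)) ^ m * f ^ c =
      (y c ^ m * f ^ c * t ^ n c) * (t ^ (n c * (m - 1) + k * m)) := by
    rw [hk]
    obtain ⟨j, rfl⟩ : ∃ j, m = j + 1 := ⟨m - 1, by omega⟩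
    rw [Nat.add_sub_cancel]; ring
  rw [e2]; exact O₀.mul_mem (hn c) (O₀.pow_mem ht₀ _)

end CoreFin

section CoreMain

open Pointwise

variable {A F E : Type*} [CommRing A] [IsNoetherianRing A] [IsLocalRing A] [Field F]
  [Algebra A F] [CommRing E] [Algebra F E] [Algebra A E] [IsScalarTower A F E]

/-- The core theorem, in an abstract Kummer ring `E = F[g]`, `g ^ m = f`. -/
theorem core_main_aux (τ : A) (hτ : τ ∈ IsLocalRing.maximalIdeal A) (m : ℕ) (hm2 : 2 ≤ m)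
    (ν : A) (hν : ν * (m : A) = 1) (f : F) (g : E) (hg : g ^ m = algebraMap F E f)
    (hli : ∀ y y' : ℕ → F, ∑ c ∈ range m, y c • g ^ c = ∑ c ∈ range m, y' c • g ^ c →
      ∀ c < m, y c = y' c)
    (t : F) (ht : t ≠ 0) (O₀ O₁ V' : Subalgebra A F) (ht₀ : t ∈ O₀) (ht₁ : t⁻¹ ∈ O₁)
    (h01 : ∀ x ∈ O₀, ∃ n : ℕ, x * t⁻¹ ^ n ∈ O₁) (h10 : ∀ x ∈ O₁, ∃ n : ℕ, x * t ^ n ∈ O₀)
    (hroot₀ : ∀ x : F, x ^ m ∈ O₀ → x ∈ O₀) (hroot₁ : ∀ x : F, x ^ m ∈ O₁ → x ∈ O₁)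
    [IsNoetherianRing ↥O₀]
    (b₀ : Finset F) (hb₀ : ∀ β ∈ b₀, β ∈ O₀)
    (hspan : ∀ x ∈ O₀, x ∈ Submodule.span A
      (Set.image2 (fun (k : ℕ) (β : F) => t ^ k * β) Set.univ (b₀ : Set F)))
    (ψ : F) (hψ : ψ ∈ O₀) (hψ0 : ψ ≠ 0) (hψf : ψ * f⁻¹ ∈ O₀)
    (hV₀ : O₀ ≤ V') (hV₁ : O₁ ≤ V') (hrootV : ∀ x : F, x ^ m ∈ V' → x ∈ V')
    (hτinv : (algebraMap A F τ)⁻¹ ∉ V')
    (hVunit : ∀ z : F, z * (algebraMap A F τ)⁻¹ ∈ V' → (1 + z)⁻¹ ∈ V')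
    (hdiv₀ : ∀ x ∈ O₀, x * (algebraMap A F τ)⁻¹ ∈ V' → x * (algebraMap A F τ)⁻¹ ∈ O₀)
    (hdiv₁ : ∀ x ∈ O₁, x * (algebraMap A F τ)⁻¹ ∈ V' → x * (algebraMap A F τ)⁻¹ ∈ O₁)
    (hSM₀ : ∀ y ∈ V', (∃ x ∈ O₀, (y ^ m - x) * (algebraMap A F τ)⁻¹ ∈ V') →
      ∃ x' ∈ O₀, (y - x') * (algebraMap A F τ)⁻¹ ∈ V')
    (hSM₁ : ∀ y ∈ V', (∃ x ∈ O₁, (y ^ m - x) * (algebraMap A F τ)⁻¹ ∈ V') →
      ∃ x' ∈ O₁, (y - x') * (algebraMap A F τ)⁻¹ ∈ V')
    (h6₀ : ∀ 𝔫 : Ideal ↥O₀, 𝔫.IsMaximal → algebraMap A ↥O₀ τ ∈ 𝔫 →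
      ∃ p : F, p ≠ 0 ∧ ∃ a b : ↥O₀, a ∉ 𝔫 ∧ b ∉ 𝔫 ∧ f * (b : F) = (a : F) * p ^ m)
    (h6₁ : ∀ 𝔫 : Ideal ↥O₁, 𝔫.IsMaximal → algebraMap A ↥O₁ τ ∈ 𝔫 →
      ∃ p : F, p ≠ 0 ∧ ∃ a b : ↥O₁, a ∉ 𝔫 ∧ b ∉ 𝔫 ∧ f * (b : F) = (a : F) * p ^ m)
    (h7 : (f - 1) * (algebraMap A F τ)⁻¹ ∈ V')
    (h8 : ∀ x : F, x ∈ O₀ → x ∈ O₁ → x ∈ Set.range (algebraMap A F)) :
    ∃ w : A, ∃ G : F, G ≠ 0 ∧ f = algebraMap A F w * G ^ m := by
  classical
  have hm : 0 < m := by omega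
  have h1m : 1 < m := by omega
  set τ' := algebraMap A F τ with hτ'def
  have hτV : τ' ∈ V' := V'.algebraMap_mem τ
  obtain ⟨hτ0, hTV, hfV, hfinv, hf0, hfinvT⟩ := core_f_facts f V' τ' hτV hτinv hVunit h7
  have hex₀ : ∀ c, c < m → ∃ y : F, y ^ m * f ^ c ∈ O₀ ∧ (y - 1) * τ'⁻¹ ∈ V' := fun c hc =>
    core_exists_y m hm f O₀ V' τ hV₀ hroot₀ hrootV hτinv hVunit hdiv₀ hSM₀ h6₀ h7 c hc.le
  have hex₁ : ∀ c, c < m → ∃ y : F, y ^ m * f ^ c ∈ O₁ ∧ (y - 1) * τ'⁻¹ ∈ V' := fun c hc =>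
    core_exists_y m hm f O₁ V' τ hV₁ hroot₁ hrootV hτinv hVunit hdiv₁ hSM₁ h6₁ h7 c hc.le
  choose! y₀ hy₀I hy₀1 using hex₀
  choose! y₁ hy₁I hy₁1 using hex₁
  set μ := algebraMap A F ν with hμ
  set e₀ : E := ∑ c ∈ range m, (μ * y₀ c) • g ^ c with he₀def
  set e₁ : E := ∑ c ∈ range m, (μ * y₁ c) • g ^ c with he₁def
  set es : E := ν • ∑ c ∈ range m, g ^ c with hesdef
  set RV := core_R m f g V' with hRV
  set R₀ := core_R m f g O₀ with hR₀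
  set R₁ := core_R m f g O₁ with hR₁
  set R₀₁ := core_R m f g (core_O01 t O₀ ht₀) with hR₀₁
  have hO0 : O₀ ≤ core_O01 t O₀ ht₀ := fun x hx => ⟨0, by rw [pow_zero, mul_one]; exact hx⟩
  have hO1 : O₁ ≤ core_O01 t O₀ ht₀ := fun x hx => h10 x hx
  have he₀ : e₀ ∈ R₀ := core_R_sum m f g O₀ _ _ (fun c hc => by
    have : (μ * y₀ c) ^ m * f ^ c = μ ^ m * (y₀ c ^ m * f ^ c) := by ring
    rw [this]
    exact O₀.mul_mem (O₀.pow_mem (O₀.algebraMap_mem ν) m) (hy₀I c (Finset.mem_range.mp hc)))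
  have he₁ : e₁ ∈ R₁ := core_R_sum m f g O₁ _ _ (fun c hc => by
    have : (μ * y₁ c) ^ m * f ^ c = μ ^ m * (y₁ c ^ m * f ^ c) := by ring
    rw [this]
    exact O₁.mul_mem (O₁.pow_mem (O₁.algebraMap_mem ν) m) (hy₁I c (Finset.mem_range.mp hc)))
  have hgR : g ∈ RV := core_g_mem m f g V' hfV
  have hgm : g ^ m - 1 ∈ τ • Subalgebra.toSubmodule RV := core_gm_sub_one m f g hg V' τ hτ0 h7
  have hes : es ∈ RV := RV.smul_mem (Subalgebra.sum_mem _ fun c _ => RV.pow_mem hgR c) ν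
  have hes2 : es ^ 2 - es ∈ τ • Subalgebra.toSubmodule RV := core_estar m g RV τ ν hν hgR hgm
  have hd₀ : e₀ - es ∈ τ • Subalgebra.toSubmodule RV :=
    core_e_sub m f g V' τ ν hfV hτ0 y₀ hy₀1
  have hd₁ : e₁ - es ∈ τ • Subalgebra.toSubmodule RV :=
    core_e_sub m f g V' τ ν hfV hτ0 y₁ hy₁1
  have hi₀' : e₀ ^ 2 - e₀ ∈ τ • Subalgebra.toSubmodule RV :=
    core_idem_of_close RV τ e₀ es hes hes2 hd₀
  have hi₁' : e₁ ^ 2 - e₁ ∈ τ • Subalgebra.toSubmodule RV :=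
    core_idem_of_close RV τ e₁ es hes hes2 hd₁
  have hi₀ : ∃ x ∈ R₀, e₀ ^ 2 - e₀ = τ • x := by
    obtain ⟨z, hz, hzeq⟩ := (core_tR_mem RV τ _).mp hi₀'
    refine ⟨z, core_R_div m hm f g hg hli O₀ V' hroot₀ hrootV τ' hτ0 hτV hdiv₀ (e₀ ^ 2 - e₀) z
      (R₀.sub_mem (R₀.pow_mem he₀ 2) he₀) hz ?_, hzeq.symm⟩
    rw [← hzeq, hτ'def, algebraMap_smul]
  have hi₁ : ∃ x ∈ R₁, e₁ ^ 2 - e₁ = τ • x := by
    obtain ⟨z, hz, hzeq⟩ := (core_tR_mem RV τ _).mp hi₁'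
    refine ⟨z, core_R_div m hm f g hg hli O₁ V' hroot₁ hrootV τ' hτ0 hτV hdiv₁ (e₁ ^ 2 - e₁) z
      (R₁.sub_mem (R₁.pow_mem he₁ 2) he₁) hz ?_, hzeq.symm⟩
    rw [← hzeq, hτ'def, algebraMap_smul]
  have h₀₁ : ∃ c ∈ R₀₁, e₀ - e₁ = τ • c := by
    have h : e₀ - e₁ ∈ τ • Subalgebra.toSubmodule RV := by
      have : e₀ - e₁ = (e₀ - es) - (e₁ - es) := by ring
      rw [this]; exact Submodule.sub_mem _ hd₀ hd₁
    obtain ⟨z, hz, hzeq⟩ := (core_tR_mem RV τ _).mp h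
    refine ⟨z, core_R_div m hm f g hg hli (core_O01 t O₀ ht₀) V'
      (core_O01_root m hm t O₀ ht₀ hroot₀) hrootV τ' hτ0 hτV
      (core_O01_div t O₀ V' ht₀ hV₀ τ' hdiv₀) (e₀ - e₁) z
      (R₀₁.sub_mem (core_R_mono m f g hO0 he₀) (core_R_mono m f g hO1 he₁)) hz ?_, hzeq.symm⟩
    rw [← hzeq, hτ'def, algebraMap_smul]
  have hreg : ∀ x : E, τ • x = 0 → x = 0 := by
    intro x hx
    rw [← algebraMap_smul F τ x] at hx
    exact (smul_eq_zero.mp hx).resolve_left hτ0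
  have hfin := core_fin m hm f g hg t ht O₀ O₁ ht₀ ht₁ h01 h10 hroot₀ b₀ hb₀ hspan ψ hψ hψ0
    hψf hf0
  obtain ⟨a₀, ha₀, a₁, ha₁, hEq⟩ := conn_core_amb τ hτ hreg R₀ R₁ R₀₁
    (core_R_mono m f g hO0) (core_R_mono m f g hO1) hfin e₀ e₁ he₀ he₁ hi₀ hi₁ h₀₁
  have hE0 : e₀ - τ • a₀ ∈ R₀ := R₀.sub_mem he₀ (R₀.smul_mem ha₀ τ)
  have hE1 : e₀ - τ • a₀ ∈ R₁ := by rw [hEq]; exact R₁.add_mem he₁ (R₁.smul_mem ha₁ τ)
  obtain ⟨Y, hY, hYeq⟩ := core_R_repr m hm f g hg O₀ hroot₀ _ hE0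
  obtain ⟨Y', hY', hY'eq⟩ := core_R_repr m hm f g hg O₁ hroot₁ _ hE1
  obtain ⟨α, hα, hαeq⟩ := core_R_repr m hm f g hg O₀ hroot₀ a₀ ha₀
  have hYY' : Y 1 = Y' 1 := hli Y Y' (hYeq.symm.trans hY'eq) 1 h1m
  have hYα : Y 1 = μ * y₀ 1 - τ' * α 1 := by
    refine hli Y (fun c => μ * y₀ c - τ' * α c) ?_ 1 h1m
    rw [← hYeq, hαeq, Finset.smul_sum, he₀def, ← Finset.sum_sub_distrib]
    refine Finset.sum_congr rfl fun c _ => ?_
    rw [sub_smul, ← algebraMap_smul F τ, smul_smul]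
  have h0 := hY 1
  have h1 := hY' 1
  rw [← hYY'] at h1
  rw [pow_one] at h0 h1
  obtain ⟨w, hw⟩ := h8 _ h0 h1
  have hY0 : Y 1 ≠ 0 := by
    intro h0'
    apply hτinv
    have hα1 : α 1 ∈ V' := by
      apply hrootV
      have : α 1 ^ m = (α 1 ^ m * f ^ 1) * f⁻¹ := by
        rw [pow_one, mul_assoc, mul_inv_cancel₀ hf0, mul_one]
      rw [this]; exact V'.mul_mem (hV₀ (hα 1)) hfinv
    have hμm : μ * (m : F) = 1 := by
      have := congrArg (algebraMap A F) hν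
      rwa [map_mul, map_natCast, map_one] at this
    have h2 : μ * y₀ 1 = τ' * α 1 := by rw [hYα] at h0'; exact sub_eq_zero.mp h0'
    have h3 : y₀ 1 = (m : F) * τ' * α 1 := by
      calc y₀ 1 = (μ * m) * y₀ 1 := by rw [hμm, one_mul]
        _ = m * (μ * y₀ 1) := by ring
        _ = m * τ' * α 1 := by rw [h2]; ring
    have h4 : τ'⁻¹ = (m : F) * α 1 - (y₀ 1 - 1) * τ'⁻¹ := by
      rw [h3]; field_simp; ring
    rw [h4]
    exact V'.sub_mem (V'.mul_mem (natCast_mem V' m) hα1) (hy₀1 1 h1m)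
  refine ⟨w, (Y 1)⁻¹, inv_ne_zero hY0, ?_⟩
  rw [hw, mul_right_comm, ← mul_pow, mul_inv_cancel₀ hY0, one_pow, one_mul]

end CoreMain

section CoreFinal

open Polynomial

variable {A F : Type*} [CommRing A] [Field F] [Algebra A F]

/-- Uniqueness of coordinates in `F[X] / (X ^ m - f)`. -/
theorem core_adjoinRoot_li (m : ℕ) (hm : 0 < m) (f : F) (y y' : ℕ → F)
    (h : ∑ c ∈ range m, y c • (AdjoinRoot.root (X ^ m - C f : F[X])) ^ c =
      ∑ c ∈ range m, y' c • (AdjoinRoot.root (X ^ m - C f : F[X])) ^ c) :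
    ∀ c < m, y c = y' c := by
  classical
  set P : F[X] := X ^ m - C f with hP
  have hPdeg : P.degree = m := Polynomial.degree_X_pow_sub_C hm f
  set q : F[X] := ∑ c ∈ range m, C (y c - y' c) * X ^ c with hq
  have hq0 : AdjoinRoot.mk P q = 0 := by
    rw [hq, map_sum]
    have : ∀ c ∈ range m, AdjoinRoot.mk P (C (y c - y' c) * X ^ c) =
        y c • AdjoinRoot.root P ^ c - y' c • AdjoinRoot.root P ^ c := by
      intro c _
      rw [map_mul, map_pow, AdjoinRoot.mk_X, AdjoinRoot.mk_C, ← AdjoinRoot.algebraMap_eq,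
        ← Algebra.smul_def, sub_smul]
    rw [Finset.sum_congr rfl this, Finset.sum_sub_distrib, h, sub_self]
  have hdvd : P ∣ q := AdjoinRoot.mk_eq_zero.mp hq0
  have hqdeg : q.degree < P.degree := by
    rw [hPdeg]
    refine lt_of_le_of_lt (Polynomial.degree_sum_le _ _) ?_
    refine (Finset.sup_lt_iff (WithBot.bot_lt_coe m)).mpr fun c hc => ?_
    exact lt_of_le_of_lt (Polynomial.degree_C_mul_X_pow_le c _)
      (WithBot.coe_lt_coe.mpr (Finset.mem_range.mp hc))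
  have hq_zero : q = 0 := Polynomial.eq_zero_of_dvd_of_degree_lt hdvd hqdeg
  intro c hc
  have := congrArg (fun p : F[X] => p.coeff c) hq_zero
  simp only [hq, Polynomial.finsetSum_coeff, Polynomial.coeff_C_mul_X_pow,
    Polynomial.coeff_zero] at this
  rw [Finset.sum_ite_eq, if_pos (Finset.mem_range.mpr hc)] at this
  exact sub_eq_zero.mp this

/-- In a valuation ring, `1 + z` is a unit for `z` in a proper principal ideal. -/
theorem core_val_unit (V : ValuationSubring F) (τ' z : F) (hτinv : τ'⁻¹ ∉ V)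
    (hz : z * τ'⁻¹ ∈ V) : (1 + z)⁻¹ ∈ V := by
  by_cases hz0 : z = 0
  · rw [hz0, add_zero, inv_one]; exact one_mem V
  by_cases hw0 : 1 + z = 0
  · rw [hw0, inv_zero]; exact zero_mem V
  rcases V.mem_or_inv_mem (z * (1 + z)⁻¹) with h | h
  · have : (1 + z)⁻¹ = 1 - z * (1 + z)⁻¹ := by field_simp; ring
    rw [this]; exact sub_mem (one_mem V) h
  · exfalso
    apply hτinv
    have h1 : z⁻¹ ∈ V := by
      have : z⁻¹ = (z * (1 + z)⁻¹)⁻¹ - 1 := by field_simp; ring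
      rw [this]; exact sub_mem h (one_mem V)
    have : τ'⁻¹ = (z * τ'⁻¹) * z⁻¹ := by field_simp
    rw [this]; exact mul_mem hz h1

/-- Valuation rings are closed under roots. -/
theorem core_val_root (V : ValuationSubring F) (m : ℕ) (hm : 0 < m) (x : F) (hx : x ^ m ∈ V) :
    x ∈ V := by
  rcases V.mem_or_inv_mem x with h | h
  · exact h
  · by_cases hx0 : x = 0
    · rw [hx0]; exact zero_mem V
    have : x = x ^ m * x⁻¹ ^ (m - 1) := by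
      obtain ⟨k, rfl⟩ : ∃ k, m = k + 1 := ⟨m - 1, by omega⟩
      rw [Nat.add_sub_cancel, pow_succ, mul_right_comm, ← mul_pow, mul_inv_cancel₀ hx0, one_pow,
        one_mul]
    rw [this]; exact mul_mem hx (pow_mem h _)

/-- **The abstract core of S18.**  `A` noetherian local, `τ` in its maximal ideal, `m ≥ 2`
invertible in `A`; `O₀`, `O₁` two charts (subalgebras of the field `F`, `O₁ ⊆ O₀[1/t]`,
`O₀ ⊆ O₁[t]`, closed under `m`-th roots, `O₀` noetherian and spanned over `A` by the `t ^ k β`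
for finitely many `β`), `V` a valuation ring of `F` containing the charts in which `τ` is a
non-unit, with `O_i ∩ τ V = τ O_i`, and such that an `m`-th root modulo `τ V` of an element of
`O_i` is congruent to an element of `O_i` (special fibres integrally closed); `f ≡ 1` modulo
`τ V` is locally an `m`-th power up to a unit at every maximal ideal of `O_i` containing `τ`,
and `O₀ ∩ O₁` consists of constants.  Then `f` is a constant times an `m`-th power. -/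
theorem core_main [IsNoetherianRing A] [IsLocalRing A]
    (τ : A) (hτ : τ ∈ IsLocalRing.maximalIdeal A) (m : ℕ) (hm2 : 2 ≤ m)
    (hmu : IsUnit (m : A)) (f t : F) (ht : t ≠ 0) (O₀ O₁ : Subalgebra A F)
    (V : ValuationSubring F) (ht₀ : t ∈ O₀) (ht₁ : t⁻¹ ∈ O₁)
    (h01 : ∀ x ∈ O₀, ∃ n : ℕ, x * t⁻¹ ^ n ∈ O₁) (h10 : ∀ x ∈ O₁, ∃ n : ℕ, x * t ^ n ∈ O₀)
    (hroot₀ : ∀ x : F, x ^ m ∈ O₀ → x ∈ O₀) (hroot₁ : ∀ x : F, x ^ m ∈ O₁ → x ∈ O₁)
    [IsNoetherianRing ↥O₀]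
    (hfin : ∃ b₀ : Finset F, (∀ β ∈ b₀, β ∈ O₀) ∧ ∀ x ∈ O₀, x ∈ Submodule.span A
      (Set.image2 (fun (k : ℕ) (β : F) => t ^ k * β) Set.univ (b₀ : Set F)))
    (hψ : ∃ ψ ∈ O₀, ψ ≠ 0 ∧ ψ * f⁻¹ ∈ O₀)
    (hV₀ : ∀ x ∈ O₀, x ∈ V) (hV₁ : ∀ x ∈ O₁, x ∈ V)
    (hτinv : (algebraMap A F τ)⁻¹ ∉ V)
    (hdiv₀ : ∀ x ∈ O₀, x * (algebraMap A F τ)⁻¹ ∈ V → x * (algebraMap A F τ)⁻¹ ∈ O₀)
    (hdiv₁ : ∀ x ∈ O₁, x * (algebraMap A F τ)⁻¹ ∈ V → x * (algebraMap A F τ)⁻¹ ∈ O₁)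
    (hSM₀ : ∀ y ∈ V, (∃ x ∈ O₀, (y ^ m - x) * (algebraMap A F τ)⁻¹ ∈ V) →
      ∃ x' ∈ O₀, (y - x') * (algebraMap A F τ)⁻¹ ∈ V)
    (hSM₁ : ∀ y ∈ V, (∃ x ∈ O₁, (y ^ m - x) * (algebraMap A F τ)⁻¹ ∈ V) →
      ∃ x' ∈ O₁, (y - x') * (algebraMap A F τ)⁻¹ ∈ V)
    (h6₀ : ∀ 𝔫 : Ideal ↥O₀, 𝔫.IsMaximal → algebraMap A ↥O₀ τ ∈ 𝔫 →
      ∃ p : F, p ≠ 0 ∧ ∃ a b : ↥O₀, a ∉ 𝔫 ∧ b ∉ 𝔫 ∧ f * (b : F) = (a : F) * p ^ m)
    (h6₁ : ∀ 𝔫 : Ideal ↥O₁, 𝔫.IsMaximal → algebraMap A ↥O₁ τ ∈ 𝔫 →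
      ∃ p : F, p ≠ 0 ∧ ∃ a b : ↥O₁, a ∉ 𝔫 ∧ b ∉ 𝔫 ∧ f * (b : F) = (a : F) * p ^ m)
    (h7 : (f - 1) * (algebraMap A F τ)⁻¹ ∈ V)
    (h8 : ∀ x : F, x ∈ O₀ → x ∈ O₁ → x ∈ Set.range (algebraMap A F)) :
    ∃ w : A, ∃ G : F, G ≠ 0 ∧ f = algebraMap A F w * G ^ m := by
  have hm : 0 < m := by omega
  obtain ⟨b₀, hb₀, hspan⟩ := hfin
  obtain ⟨ψ, hψ, hψ0, hψf⟩ := hψ
  obtain ⟨ν, hν⟩ := hmu.exists_left_inv
  let V' : Subalgebra A F :=
    { V.toSubring.toSubsemiring with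
      algebraMap_mem' := fun a => hV₀ _ (O₀.algebraMap_mem a) }
  have hV'mem : ∀ x : F, x ∈ V' ↔ x ∈ V := fun x => Iff.rfl
  have hg : (AdjoinRoot.root (X ^ m - C f : F[X])) ^ m =
      algebraMap F (AdjoinRoot (X ^ m - C f : F[X])) f := by
    have h := AdjoinRoot.mk_self (f := (X ^ m - C f : F[X]))
    rw [map_sub, map_pow, AdjoinRoot.mk_X, AdjoinRoot.mk_C, sub_eq_zero] at h
    rw [h, AdjoinRoot.algebraMap_eq]
  exact core_main_aux (E := AdjoinRoot (X ^ m - C f : F[X])) τ hτ m hm2 ν hν f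
    (AdjoinRoot.root (X ^ m - C f : F[X])) hg (core_adjoinRoot_li m hm f) t ht O₀ O₁ V' ht₀ ht₁
    h01 h10 hroot₀ hroot₁ b₀ hb₀ hspan ψ hψ hψ0 hψf (fun x hx => hV₀ x hx)
    (fun x hx => hV₁ x hx) (fun x hx => core_val_root V m hm x hx) hτinv
    (fun z hz => core_val_unit V (algebraMap A F τ) z hτinv hz) hdiv₀ hdiv₁ hSM₀ hSM₁ h6₀ h6₁
    h7 h8

end CoreFinal

end Fermat.Agent.S18
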