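import Mathlib
import Fermat.Agent.S18.Core
import Fermat.Agent.S18.CechChart

/-!
# The abstract core of S18 in its final interface shape

* `corew_main_y`: `core_main` with the two hypothesis families (SM)/(h6) replaced by their only
  consequence used in the proof, the existence of sections `y_c ∈ I_c(O_i)`, `y_c ≡ 1`.
* `corew_main`: the statement in the shape consumed by the geometric packages: the special
  fibres of the two charts are Dedekind domains, `f ≡ 1` modulo the maximal ideal of the Gauss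
  valuation ring, and `f` is a unit times an `m`-th power in every principal valuation ring
  containing `τ⁻¹` (i.e. at every place of the generic fibre).  Then `f = c * G ^ m`.
-/

set_option autoImplicit false
set_option linter.unusedSectionVars false

namespace Fermat.Agent.S18

open Finset

section CoreWrapAux

open Pointwise

variable {A F E : Type*} [CommRing A] [IsNoetherianRing A] [IsLocalRing A] [Field F]
  [Algebra A F] [CommRing E] [Algebra F E] [Algebra A E] [IsScalarTower A F E]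

/-- The core theorem in an abstract Kummer ring, with the sections `y_c` given. -/
theorem corew_main_aux_y (τ : A) (hτ : τ ∈ IsLocalRing.maximalIdeal A) (m : ℕ) (hm2 : 2 ≤ m)
    (ν : A) (hν : ν * (m : A) = 1) (f : F) (g : E) (hg : g ^ m = algebraMap F E f)
    (hli : ∀ y y' : ℕ → F, ∑ c ∈ range m, y c • g ^ c = ∑ c ∈ range m, y' c • g ^ c →
      ∀ c < m, y c = y' c)
    (t : F) (ht : t ≠ 0) (O₀ O₁ V' : Subalgebra A F) (ht₀ : t ∈ O₀) (ht₁ : t⁻¹ ∈ O₁)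
    (h01 : ∀ x ∈ O₀, ∃ n : ℕ, x * t⁻¹ ^ n ∈ O₁) (h10 : ∀ x ∈ O₁, ∃ n : ℕ, x * t ^ n ∈ O₀)
    (hroot₀ : ∀ x : F, x ^ m ∈ O₀ → x ∈ O₀) (hroot₁ : ∀ x : F, x ^ m ∈ O₁ → x ∈ O₁)
    [IsNoetherianRing ↥O₀]
    (b₀ : Finset F) (hb₀ : ∀ β ∈ b₀, β ∈ O₀)
    (hspan : ∀ x ∈ O₀, x ∈ Submodule.span A
      (Set.image2 (fun (k : ℕ) (β : F) => t ^ k * β) Set.univ (b₀ : Set F)))
    (ψ : F) (hψ : ψ ∈ O₀) (hψ0 : ψ ≠ 0) (hψf : ψ * f⁻¹ ∈ O₀)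
    (hV₀ : O₀ ≤ V') (_hV₁ : O₁ ≤ V') (hrootV : ∀ x : F, x ^ m ∈ V' → x ∈ V')
    (hτinv : (algebraMap A F τ)⁻¹ ∉ V')
    (hVunit : ∀ z : F, z * (algebraMap A F τ)⁻¹ ∈ V' → (1 + z)⁻¹ ∈ V')
    (hdiv₀ : ∀ x ∈ O₀, x * (algebraMap A F τ)⁻¹ ∈ V' → x * (algebraMap A F τ)⁻¹ ∈ O₀)
    (hdiv₁ : ∀ x ∈ O₁, x * (algebraMap A F τ)⁻¹ ∈ V' → x * (algebraMap A F τ)⁻¹ ∈ O₁)
    (hex₀ : ∀ c, c < m → ∃ y : F, y ^ m * f ^ c ∈ O₀ ∧ (y - 1) * (algebraMap A F τ)⁻¹ ∈ V')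
    (hex₁ : ∀ c, c < m → ∃ y : F, y ^ m * f ^ c ∈ O₁ ∧ (y - 1) * (algebraMap A F τ)⁻¹ ∈ V')
    (h7 : (f - 1) * (algebraMap A F τ)⁻¹ ∈ V')
    (h8 : ∀ x : F, x ∈ O₀ → x ∈ O₁ → x ∈ Set.range (algebraMap A F)) :
    ∃ w : A, ∃ G : F, G ≠ 0 ∧ f = algebraMap A F w * G ^ m := by
  classical
  have hm : 0 < m := by omega
  have h1m : 1 < m := by omega
  set τ' := algebraMap A F τ with hτ'def
  have hτV : τ' ∈ V' := V'.algebraMap_mem τ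
  obtain ⟨hτ0, hTV, hfV, hfinv, hf0, hfinvT⟩ := core_f_facts f V' τ' hτV hτinv hVunit h7
  choose! y₀ hy₀I hy₀1 using hex₀
  choose! y₁ hy₁I hy₁1 using hex₁
  set μ := algebraMap A F ν with hμ
  set e₀ : E := ∑ c ∈ range m, (μ * y₀ c) • g ^ c with he₀def
  set e₁ : E := ∑ c ∈ range m, (μ * y₁ c) • g ^ c with he₁def
  set es : E := ν • ∑ c ∈ range m, g ^ c with hesdef
  set RV := core_R m f g V' with hRV
  set R₀ := core_R m f g O₀ with hR₀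
  set R₁ := core_R m f g O₁ with hR₁
  set R₀₁ := core_R m f g (core_O01 t O₀ ht₀) with hR₀₁
  have hO0 : O₀ ≤ core_O01 t O₀ ht₀ := fun x hx => ⟨0, by rw [pow_zero, mul_one]; exact hx⟩
  have hO1 : O₁ ≤ core_O01 t O₀ ht₀ := fun x hx => h10 x hx
  have he₀ : e₀ ∈ R₀ := core_R_sum m f g O₀ _ _ (fun c hc => by
    have : (μ * y₀ c) ^ m * f ^ c = μ ^ m * (y₀ c ^ m * f ^ c) := by ring
    rw [this]
    exact O₀.mul_mem (O₀.pow_mem (O₀.algebraMap_mem ν) m) (hy₀I c (Finset.mem_range.mp hc)))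
  have he₁ : e₁ ∈ R₁ := core_R_sum m f g O₁ _ _ (fun c hc => by
    have : (μ * y₁ c) ^ m * f ^ c = μ ^ m * (y₁ c ^ m * f ^ c) := by ring
    rw [this]
    exact O₁.mul_mem (O₁.pow_mem (O₁.algebraMap_mem ν) m) (hy₁I c (Finset.mem_range.mp hc)))
  have hgR : g ∈ RV := core_g_mem m f g V' hfV
  have hgm : g ^ m - 1 ∈ τ • Subalgebra.toSubmodule RV := core_gm_sub_one m f g hg V' τ hτ0 h7
  have hes : es ∈ RV := RV.smul_mem (Subalgebra.sum_mem _ fun c _ => RV.pow_mem hgR c) ν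
  have hes2 : es ^ 2 - es ∈ τ • Subalgebra.toSubmodule RV := core_estar m g RV τ ν hν hgR hgm
  have hd₀ : e₀ - es ∈ τ • Subalgebra.toSubmodule RV :=
    core_e_sub m f g V' τ ν hfV hτ0 y₀ hy₀1
  have hd₁ : e₁ - es ∈ τ • Subalgebra.toSubmodule RV :=
    core_e_sub m f g V' τ ν hfV hτ0 y₁ hy₁1
  have hi₀' : e₀ ^ 2 - e₀ ∈ τ • Subalgebra.toSubmodule RV :=
    core_idem_of_close RV τ e₀ es hes hes2 hd₀
  have hi₁' : e₁ ^ 2 - e₁ ∈ τ • Subalgebra.toSubmodule RV :=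
    core_idem_of_close RV τ e₁ es hes hes2 hd₁
  have hi₀ : ∃ x ∈ R₀, e₀ ^ 2 - e₀ = τ • x := by
    obtain ⟨z, hz, hzeq⟩ := (core_tR_mem RV τ _).mp hi₀'
    refine ⟨z, core_R_div m hm f g hg hli O₀ V' hroot₀ hrootV τ' hτ0 hτV hdiv₀ (e₀ ^ 2 - e₀) z
      (R₀.sub_mem (R₀.pow_mem he₀ 2) he₀) hz ?_, hzeq.symm⟩
    rw [← hzeq, hτ'def, algebraMap_smul]
  have hi₁ : ∃ x ∈ R₁, e₁ ^ 2 - e₁ = τ • x := by
    obtain ⟨z, hz, hzeq⟩ := (core_tR_mem RV τ _).mp hi₁'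
    refine ⟨z, core_R_div m hm f g hg hli O₁ V' hroot₁ hrootV τ' hτ0 hτV hdiv₁ (e₁ ^ 2 - e₁) z
      (R₁.sub_mem (R₁.pow_mem he₁ 2) he₁) hz ?_, hzeq.symm⟩
    rw [← hzeq, hτ'def, algebraMap_smul]
  have h₀₁ : ∃ c ∈ R₀₁, e₀ - e₁ = τ • c := by
    have h : e₀ - e₁ ∈ τ • Subalgebra.toSubmodule RV := by
      have : e₀ - e₁ = (e₀ - es) - (e₁ - es) := by ring
      rw [this]; exact Submodule.sub_mem _ hd₀ hd₁
    obtain ⟨z, hz, hzeq⟩ := (core_tR_mem RV τ _).mp h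
    refine ⟨z, core_R_div m hm f g hg hli (core_O01 t O₀ ht₀) V'
      (core_O01_root m hm t O₀ ht₀ hroot₀) hrootV τ' hτ0 hτV
      (core_O01_div t O₀ V' ht₀ hV₀ τ' hdiv₀) (e₀ - e₁) z
      (R₀₁.sub_mem (core_R_mono m f g hO0 he₀) (core_R_mono m f g hO1 he₁)) hz ?_, hzeq.symm⟩
    rw [← hzeq, hτ'def, algebraMap_smul]
  have hreg : ∀ x : E, τ • x = 0 → x = 0 := by
    intro x hx
    rw [← algebraMap_smul F τ x] at hx
    exact (smul_eq_zero.mp hx).resolve_left hτ0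
  have hfin := core_fin m hm f g hg t ht O₀ O₁ ht₀ ht₁ h01 h10 hroot₀ b₀ hb₀ hspan ψ hψ hψ0
    hψf hf0
  obtain ⟨a₀, ha₀, a₁, ha₁, hEq⟩ := conn_core_amb τ hτ hreg R₀ R₁ R₀₁
    (core_R_mono m f g hO0) (core_R_mono m f g hO1) hfin e₀ e₁ he₀ he₁ hi₀ hi₁ h₀₁
  have hE0 : e₀ - τ • a₀ ∈ R₀ := R₀.sub_mem he₀ (R₀.smul_mem ha₀ τ)
  have hE1 : e₀ - τ • a₀ ∈ R₁ := by rw [hEq]; exact R₁.add_mem he₁ (R₁.smul_mem ha₁ τ)
  obtain ⟨Y, hY, hYeq⟩ := core_R_repr m hm f g hg O₀ hroot₀ _ hE0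
  obtain ⟨Y', hY', hY'eq⟩ := core_R_repr m hm f g hg O₁ hroot₁ _ hE1
  obtain ⟨α, hα, hαeq⟩ := core_R_repr m hm f g hg O₀ hroot₀ a₀ ha₀
  have hYY' : Y 1 = Y' 1 := hli Y Y' (hYeq.symm.trans hY'eq) 1 h1m
  have hYα : Y 1 = μ * y₀ 1 - τ' * α 1 := by
    refine hli Y (fun c => μ * y₀ c - τ' * α c) ?_ 1 h1m
    rw [← hYeq, hαeq, Finset.smul_sum, he₀def, ← Finset.sum_sub_distrib]
    refine Finset.sum_congr rfl fun c _ => ?_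
    rw [sub_smul, ← algebraMap_smul F τ, smul_smul]
  have h0 := hY 1
  have h1 := hY' 1
  rw [← hYY'] at h1
  rw [pow_one] at h0 h1
  obtain ⟨w, hw⟩ := h8 _ h0 h1
  have hY0 : Y 1 ≠ 0 := by
    intro h0'
    apply hτinv
    have hα1 : α 1 ∈ V' := by
      apply hrootV
      have : α 1 ^ m = (α 1 ^ m * f ^ 1) * f⁻¹ := by
        rw [pow_one, mul_assoc, mul_inv_cancel₀ hf0, mul_one]
      rw [this]; exact V'.mul_mem (hV₀ (hα 1)) hfinv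
    have hμm : μ * (m : F) = 1 := by
      have := congrArg (algebraMap A F) hν
      rwa [map_mul, map_natCast, map_one] at this
    have h2 : μ * y₀ 1 = τ' * α 1 := by rw [hYα] at h0'; exact sub_eq_zero.mp h0'
    have h3 : y₀ 1 = (m : F) * τ' * α 1 := by
      calc y₀ 1 = (μ * m) * y₀ 1 := by rw [hμm, one_mul]
        _ = m * (μ * y₀ 1) := by ring
        _ = m * τ' * α 1 := by rw [h2]; ring
    have h4 : τ'⁻¹ = (m : F) * α 1 - (y₀ 1 - 1) * τ'⁻¹ := by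
      rw [h3]; field_simp; ring
    rw [h4]
    exact V'.sub_mem (V'.mul_mem (natCast_mem V' m) hα1) (hy₀1 1 h1m)
  refine ⟨w, (Y 1)⁻¹, inv_ne_zero hY0, ?_⟩
  rw [hw, mul_right_comm, ← mul_pow, mul_inv_cancel₀ hY0, one_pow, one_mul]

end CoreWrapAux

section CoreWrapFinal

open Polynomial

variable {A F : Type*} [CommRing A] [Field F] [Algebra A F]

/-- `core_main` with the sections `y_c` of the twisted modules as hypotheses. -/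
theorem corew_main_y [IsNoetherianRing A] [IsLocalRing A]
    (τ : A) (hτ : τ ∈ IsLocalRing.maximalIdeal A) (m : ℕ) (hm2 : 2 ≤ m)
    (hmu : IsUnit (m : A)) (f t : F) (ht : t ≠ 0) (O₀ O₁ : Subalgebra A F)
    (V : ValuationSubring F) (ht₀ : t ∈ O₀) (ht₁ : t⁻¹ ∈ O₁)
    (h01 : ∀ x ∈ O₀, ∃ n : ℕ, x * t⁻¹ ^ n ∈ O₁) (h10 : ∀ x ∈ O₁, ∃ n : ℕ, x * t ^ n ∈ O₀)
    (hroot₀ : ∀ x : F, x ^ m ∈ O₀ → x ∈ O₀) (hroot₁ : ∀ x : F, x ^ m ∈ O₁ → x ∈ O₁)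
    [IsNoetherianRing ↥O₀]
    (hfin : ∃ b₀ : Finset F, (∀ β ∈ b₀, β ∈ O₀) ∧ ∀ x ∈ O₀, x ∈ Submodule.span A
      (Set.image2 (fun (k : ℕ) (β : F) => t ^ k * β) Set.univ (b₀ : Set F)))
    (hψ : ∃ ψ ∈ O₀, ψ ≠ 0 ∧ ψ * f⁻¹ ∈ O₀)
    (hV₀ : ∀ x ∈ O₀, x ∈ V) (hV₁ : ∀ x ∈ O₁, x ∈ V)
    (hτinv : (algebraMap A F τ)⁻¹ ∉ V)
    (hdiv₀ : ∀ x ∈ O₀, x * (algebraMap A F τ)⁻¹ ∈ V → x * (algebraMap A F τ)⁻¹ ∈ O₀)
    (hdiv₁ : ∀ x ∈ O₁, x * (algebraMap A F τ)⁻¹ ∈ V → x * (algebraMap A F τ)⁻¹ ∈ O₁)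
    (hex₀ : ∀ c, c < m → ∃ y : F, y ^ m * f ^ c ∈ O₀ ∧ (y - 1) * (algebraMap A F τ)⁻¹ ∈ V)
    (hex₁ : ∀ c, c < m → ∃ y : F, y ^ m * f ^ c ∈ O₁ ∧ (y - 1) * (algebraMap A F τ)⁻¹ ∈ V)
    (h7 : (f - 1) * (algebraMap A F τ)⁻¹ ∈ V)
    (h8 : ∀ x : F, x ∈ O₀ → x ∈ O₁ → x ∈ Set.range (algebraMap A F)) :
    ∃ w : A, ∃ G : F, G ≠ 0 ∧ f = algebraMap A F w * G ^ m := by
  have hm : 0 < m := by omega
  obtain ⟨b₀, hb₀, hspan⟩ := hfin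
  obtain ⟨ψ, hψ, hψ0, hψf⟩ := hψ
  obtain ⟨ν, hν⟩ := hmu.exists_left_inv
  let V' : Subalgebra A F :=
    { V.toSubring.toSubsemiring with
      algebraMap_mem' := fun a => hV₀ _ (O₀.algebraMap_mem a) }
  have hg : (AdjoinRoot.root (X ^ m - C f : F[X])) ^ m =
      algebraMap F (AdjoinRoot (X ^ m - C f : F[X])) f := by
    have h := AdjoinRoot.mk_self (f := (X ^ m - C f : F[X]))
    rw [map_sub, map_pow, AdjoinRoot.mk_X, AdjoinRoot.mk_C, sub_eq_zero] at h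
    rw [h, AdjoinRoot.algebraMap_eq]
  exact corew_main_aux_y (E := AdjoinRoot (X ^ m - C f : F[X])) τ hτ m hm2 ν hν f
    (AdjoinRoot.root (X ^ m - C f : F[X])) hg (core_adjoinRoot_li m hm f) t ht O₀ O₁ V' ht₀ ht₁
    h01 h10 hroot₀ hroot₁ b₀ hb₀ hspan ψ hψ hψ0 hψf (fun x hx => hV₀ x hx)
    (fun x hx => hV₁ x hx) (fun x hx => core_val_root V m hm x hx) hτinv
    (fun z hz => core_val_unit V (algebraMap A F τ) z hτinv hz) hdiv₀ hdiv₁ hex₀ hex₁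
    h7 h8

/-- **The abstract core of S18, interface form.**  Two charts `O0`, `O1` (finite over `A[t]`,
`A[1/t]`, closed under `m`-th roots, with Dedekind special fibres), the Gauss valuation ring
`VG` with `O_i ∩ 𝔪_VG = τ O_i`, `f ≡ 1` modulo `𝔪_VG`, and `f` a unit times an `m`-th power in
every principal valuation ring containing `A` and `τ⁻¹`.  Then `f = c * G ^ m` with `c ∈ A`. -/
theorem corew_main [IsNoetherianRing A] [IsLocalRing A]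
    (τ : A) (hτ : τ ∈ IsLocalRing.maximalIdeal A) (m : ℕ) (hm : 0 < m) (hmA : IsUnit (m : A))
    (VG : ValuationSubring F) (hτV : algebraMap A F τ ∈ VG.nonunits)
    (hτ0 : algebraMap A F τ ≠ 0)
    (t tinv : F) (ht : t * tinv = 1) (O0 O1 : Subalgebra A F) (ht0 : t ∈ O0) (ht1 : tinv ∈ O1)
    (b0 : Finset F) (hb0 : ∀ y ∈ b0, y ∈ O0)
    (hspan0 : ∀ y ∈ O0, y ∈ Submodule.span A
      (Set.image2 (fun (k : ℕ) (y' : F) => t ^ k * y') Set.univ (b0 : Set F)))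
    (b1 : Finset F) (hb1 : ∀ y ∈ b1, y ∈ O1)
    (hspan1 : ∀ y ∈ O1, y ∈ Submodule.span A
      (Set.image2 (fun (k : ℕ) (y' : F) => tinv ^ k * y') Set.univ (b1 : Set F)))
    (h01 : ∀ x ∈ O0, ∃ n : ℕ, x * tinv ^ n ∈ O1) (h10 : ∀ x ∈ O1, ∃ n : ℕ, x * t ^ n ∈ O0)
    (hfrac0 : ∀ x : F, ∃ a ∈ O0, ∃ s ∈ O0, s ≠ 0 ∧ x * s = a)
    (hroot0 : ∀ z : F, z ^ m ∈ O0 → z ∈ O0) (hroot1 : ∀ z : F, z ^ m ∈ O1 → z ∈ O1)
    (hcap : ∀ x ∈ O0, x ∈ O1 → x ∈ Set.range (algebraMap A F))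
    (hV0 : ∀ x ∈ O0, x ∈ VG) (hV1 : ∀ x ∈ O1, x ∈ VG)
    (hVτ0 : ∀ x ∈ O0, x ∈ VG.nonunits → ∃ y ∈ O0, x = algebraMap A F τ * y)
    (hVτ1 : ∀ x ∈ O1, x ∈ VG.nonunits → ∃ y ∈ O1, x = algebraMap A F τ * y)
    (hD0 : IsDedekindDomain (O0 ⧸ Ideal.span {algebraMap A O0 τ}))
    (hD1 : IsDedekindDomain (O1 ⧸ Ideal.span {algebraMap A O1 τ}))
    (f : F) (hf : f - 1 ∈ VG.nonunits)
    (hord : ∀ V : ValuationSubring F, (∀ a : A, algebraMap A F a ∈ V) →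
        (algebraMap A F τ)⁻¹ ∈ V → IsPrincipalIdealRing V →
        ∃ w : F, w ≠ 0 ∧ f * w ^ m ∈ V ∧ (f * w ^ m)⁻¹ ∈ V) :
    ∃ (c : A) (G : F), f = algebraMap A F c * G ^ m := by
  classical
  -- the case `m = 1`
  rcases Nat.lt_or_ge m 2 with hm1 | hm2
  · have : m = 1 := by omega
    subst this
    exact ⟨1, f, by rw [map_one, one_mul, pow_one]⟩
  have ht_ne : t ≠ 0 := left_ne_zero_of_mul_eq_one ht
  have htinv_ne : tinv ≠ 0 := right_ne_zero_of_mul_eq_one ht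
  have htinv : tinv = t⁻¹ := eq_inv_of_mul_eq_one_right ht
  have ht' : tinv * t = 1 := by rw [mul_comm]; exact ht
  have hN0 : IsNoetherianRing ↥O0 := cz_noeth t O0 ht0 b0 hb0 hspan0
  have hN1 : IsNoetherianRing ↥O1 := cz_noeth tinv O1 ht1 b1 hb1 hspan1
  -- `Frac O1 = F`
  have hfrac1 : ∀ x : F, ∃ a ∈ O1, ∃ s ∈ O1, s ≠ 0 ∧ x * s = a := by
    intro x
    obtain ⟨a, ha, s, hs, hs0, hxs⟩ := hfrac0 x
    obtain ⟨n₁, hn₁⟩ := h01 a ha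
    obtain ⟨n₂, hn₂⟩ := h01 s hs
    refine ⟨a * tinv ^ (n₁ + n₂), ?_, s * tinv ^ (n₁ + n₂), ?_, ?_, ?_⟩
    · have : a * tinv ^ (n₁ + n₂) = a * tinv ^ n₁ * tinv ^ n₂ := by rw [pow_add, mul_assoc]
      rw [this]; exact O1.mul_mem hn₁ (O1.pow_mem ht1 _)
    · have : s * tinv ^ (n₁ + n₂) = s * tinv ^ n₂ * tinv ^ n₁ := by rw [pow_add]; ring
      rw [this]; exact O1.mul_mem hn₂ (O1.pow_mem ht1 _)
    · exact mul_ne_zero hs0 (pow_ne_zero _ htinv_ne)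
    · rw [← mul_assoc, hxs]
  set τ' := algebraMap A F τ with hτ'
  have hτinv : τ'⁻¹ ∉ VG := by
    intro h
    have := cz_nonunits_mul VG hτV h
    rw [mul_inv_cancel₀ hτ0] at this
    exact cz_one_not_mem_nonunits VG this
  -- `𝔪_VG = τ VG`
  have hnu : ∀ x : F, x ∈ VG.nonunits → x * τ'⁻¹ ∈ VG := by
    intro x hx
    obtain ⟨v, hv, rfl⟩ := cz_frac2 τ VG O0 hτV hτ0 hfrac0 hV0 hVτ0 x hx
    rw [mul_comm, ← mul_assoc, inv_mul_cancel₀ hτ0, one_mul]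
    exact hv
  have hdiv : ∀ (O : Subalgebra A F), (∀ x ∈ O, x ∈ VG) →
      (∀ x ∈ O, x ∈ VG.nonunits → ∃ y ∈ O, x = τ' * y) →
      ∀ x ∈ O, x * τ'⁻¹ ∈ VG → x * τ'⁻¹ ∈ O := by
    intro O _ hVτ x hx hxV
    have h1 : x ∈ VG.nonunits := by
      have := cz_nonunits_mul VG hτV hxV
      rwa [mul_comm x, ← mul_assoc, mul_inv_cancel₀ hτ0, one_mul] at this
    obtain ⟨y, hy, rfl⟩ := hVτ x hx h1
    rw [mul_comm, ← mul_assoc, inv_mul_cancel₀ hτ0, one_mul]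
    exact hy
  -- the sections
  have hD0' := hD0
  have hD1' := hD1
  have hex : ∀ (O : Subalgebra A F) [IsNoetherianRing ↥O]
      [IsDedekindDomain (↥O ⧸ Ideal.span {algebraMap A ↥O τ})],
      (∀ x : F, ∃ a ∈ O, ∃ s ∈ O, s ≠ 0 ∧ x * s = a) → (∀ z : F, z ^ m ∈ O → z ∈ O) →
      (∀ x ∈ O, x ∈ VG) → (∀ x ∈ O, x ∈ VG.nonunits → ∃ y ∈ O, x = τ' * y) →
      ∀ c, c < m → ∃ y : F, y ^ m * f ^ c ∈ O ∧ (y - 1) * τ'⁻¹ ∈ VG := by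
    intro O _ _ hfrac hroot hV hVτ c _
    obtain ⟨y, hy, hy1⟩ := cz_chart τ m hm VG hτV hτ0 O hfrac hroot hV hVτ
      (fun a s w hs h => cz_hroot_of_closed (algebraMap A ↥O τ) m hm a s w hs h)
      (fun n hn hτn P hP => by
        have hn' := hn
        exact cz_hloc_of_dedekind (algebraMap A ↥O τ) n hτn P hP)
      f hf hord c
    exact ⟨y, hy, hnu _ hy1⟩
  obtain ⟨ψ, hψ, hψ0, hψf⟩ : ∃ ψ ∈ O0, ψ ≠ 0 ∧ ψ * f⁻¹ ∈ O0 := by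
    obtain ⟨a, ha, s, hs, hs0, hxs⟩ := hfrac0 f⁻¹
    exact ⟨s, hs, hs0, by rw [mul_comm, hxs]; exact ha⟩
  obtain ⟨w, G, -, hfG⟩ := corew_main_y τ hτ m hm2 hmA f t ht_ne O0 O1 VG ht0 (htinv ▸ ht1)
    (htinv ▸ h01) h10 hroot0 hroot1 ⟨b0, hb0, hspan0⟩ ⟨ψ, hψ, hψ0, hψf⟩ hV0 hV1 hτinv
    (hdiv O0 hV0 hVτ0) (hdiv O1 hV1 hVτ1)
    (hex O0 hfrac0 hroot0 hV0 hVτ0) (hex O1 hfrac1 hroot1 hV1 hVτ1)
    (hnu _ hf) (fun x h0 h1 => hcap x h0 h1)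
  exact ⟨w, G, hfG⟩

end CoreWrapFinal

end Fermat.Agent.S18
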