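import Mathlib
import Fermat.Prelude.Def_AlgebraicCurve_DivisorClassGroup
import Fermat.Agent.S18.Charts
import Fermat.Agent.S18.CoreInstHord
import Fermat.Agent.S18.CoreWrap

/-!
# S18, work package COREINST, part 4: the abstract assembly

`cinst_abs`: for a discrete valuation ring `A0` with fraction field `K0` (characteristic zero), a
field `F` over `K0`, the Gauss valuation subring `V` of `F` and a chart coordinate `t`, under the
hypotheses of `cht_all` (CHARTS), the Dedekind property of the special fibres of the two charts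
`chtO A0 {t}`, `chtO A0 {t⁻¹}` (SM), `f ≡ 1` modulo the maximal ideal of `V` and `m ∣ ord_Q f`
at all places `Q` of `F / K0`:  `f = c * G ^ m` with `c ∈ K0`.

This is `corew_main ∘ cht_all ∘ cinst_hord`.
-/

set_option autoImplicit false

open Polynomial

namespace Fermat.Agent.S18

theorem cinst_abs {A0 K0 F : Type*} [CommRing A0] [IsDomain A0] [IsDiscreteValuationRing A0]
    [Field K0] [Algebra A0 K0] [IsFractionRing A0 K0] [CharZero K0]
    [Field F] [Algebra A0 F] [Algebra K0 F] [IsScalarTower A0 K0 F]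
    (V : ValuationSubring F) (hA : ∀ a : A0, algebraMap A0 F a ∈ V)
    {τ : A0} (hτ : Irreducible τ) (hτV : algebraMap A0 F τ ∈ V.nonunits)
    (hτgen : ∀ x ∈ V.nonunits, x * (algebraMap A0 F τ)⁻¹ ∈ V) (t : F)
    (ht : Transcendental K0 t) (htV : t ∈ V) (htV' : t⁻¹ ∈ V)
    (hG : ∀ p : A0[X], (∃ i, ¬ τ ∣ p.coeff i) → aeval t p ∉ V.nonunits)
    (hfin : ∃ (n : ℕ) (β : Fin n → F), ∀ x : F, ∃ (a : Fin n → A0[X]) (d : A0[X]),
      aeval t d ≠ 0 ∧ aeval t d * x = ∑ i, aeval t (a i) * β i)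
    (huniq : ∀ O' : ValuationSubring F,
      (∀ p q : K0[X], aeval t q ≠ 0 →
        (aeval t p / aeval t q ∈ O' ↔ aeval t p / aeval t q ∈ V)) → O' = V)
    (hconst : ∀ x : F, IsAlgebraic K0 x → ∃ c : K0, algebraMap K0 F c = x)
    (m : ℕ) (hm : 0 < m) (hmA : IsUnit (m : A0))
    (hD0 : IsDedekindDomain (chtO A0 {t} ⧸ Ideal.span {algebraMap A0 (chtO A0 {t}) τ}))
    (hD1 : IsDedekindDomain (chtO A0 {t⁻¹} ⧸ Ideal.span {algebraMap A0 (chtO A0 {t⁻¹}) τ}))
    (f : F) (hf : f - 1 ∈ V.nonunits)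
    (hdiv : ∀ Q : AlgebraicCurve.Place K0 F, (m : ℤ) ∣ Q.ord f) :
    ∃ (c : K0) (G : F), f = algebraMap K0 F c * G ^ m := by
  obtain ⟨h1, h2, h3, ⟨b0, hb0, hspan0⟩, ⟨b1, hb1, hspan1⟩, h01, h10, hfrac0, hroot0, hroot1, hcap,
    hV0, hV1, hVτ0, hVτ1⟩ :=
    cht_all (K0 := K0) V hA hτ hτV hτgen t ht htV htV' hG hfin huniq hconst m hm
  have hτmax : τ ∈ IsLocalRing.maximalIdeal A0 := by
    rw [IsLocalRing.mem_maximalIdeal, mem_nonunits_iff]
    exact hτ.not_isUnit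
  have hτ0 : algebraMap A0 F τ ≠ 0 := by
    rw [IsScalarTower.algebraMap_apply A0 K0 F, Ne, map_eq_zero,
      map_eq_zero_iff _ (IsFractionRing.injective A0 K0)]
    exact hτ.ne_zero
  obtain ⟨c, G, hcG⟩ := corew_main (A := A0) (F := F) τ hτmax m hm hmA V hτV hτ0 t t⁻¹ h1
    (chtO A0 {t}) (chtO A0 {t⁻¹}) h2 h3 b0 hb0 hspan0 b1 hb1 hspan1 h01 h10 hfrac0 hroot0 hroot1
    hcap hV0 hV1 hVτ0 hVτ1 hD0 hD1 f hf (cinst_hord (K := K0) τ hτ m f hdiv)
  exact ⟨algebraMap A0 K0 c, G, by rw [hcG, IsScalarTower.algebraMap_apply A0 K0 F]⟩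

end Fermat.Agent.S18
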