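import Mathlib
import Fermat.Agent.S28.Defs
import Fermat.Agent.S28.SturmDegree
import Fermat.Agent.S28.BoundedDegree
import Fermat.Agent.S28.PsiArith
import Fermat.Agent.S24.Degree
import Fermat.Agent.S24.SysCusp
import Fermat.Agent.S24.CosetsIndex

/-!
# S18, work package GBC3: `Ft M = modularFunctionFieldFull M`

`Ft M = ℚ(j(q^d), Δ(q^d)/Δ(q^e) : d, e ∣ M)` (the auxiliary field of the S28 library) coincides
with the function field `ℚ(j(q^d) : d ∣ M)` of `X₀(M)`.

Proof: `full M ≤ Ft M`, `[Ft M : ℚ(j)] ≤ [SL₂(ℤ) : Γ₀(M)]` (Sturm bound, S28) and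
`[SL₂(ℤ) : Γ₀(M)] = [ℚ̄ ⊗ full M : ℚ̄(j)] ≤ [full M : ℚ(j)]` (S24 + the compositum inequality).

Also: `psi M = dedekindPsi M`.
-/

set_option autoImplicit false

open ModularCurve Fermat.Agent.S28 IntermediateField
open scoped MatrixGroups

noncomputable section

namespace Fermat.Agent.S18

/-- `S24.dg_rank_le` with an arbitrary bound: `[ℚ̄ ⊗ full N : ℚ̄(j)] ≤ [full N : ℚ(j)]`. -/
theorem gbc3_rank_le (N : ℕ) [NeZero N] (n : ℕ)
    (h : Subfield.relrank (Qj 1) (modularFunctionFieldFull N).toSubfield ≤ (n : Cardinal)) :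
    Module.rank ↥((AlgebraicClosure ℚ)⟮Fermat.Agent.S24.jBar N⟯)
      ↥(modularFunctionFieldBar N) ≤ (n : Cardinal) := by
  rw [← IntermediateField.relrank_top_right ((AlgebraicClosure ℚ)⟮Fermat.Agent.S24.jBar N⟯)]
  show Subfield.relrank ((AlgebraicClosure ℚ)⟮Fermat.Agent.S24.jBar N⟯).toSubfield
    (⊤ : IntermediateField (AlgebraicClosure ℚ) ↥(modularFunctionFieldBar N)).toSubfield ≤ _
  set val : ↥(modularFunctionFieldBar N) →+* LaurentSeries (AlgebraicClosure ℚ) :=
    (modularFunctionFieldBar N).val.toRingHom with hval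
  set ce : LaurentSeries ℚ →+* LaurentSeries (AlgebraicClosure ℚ) :=
    coeffEmb (AlgebraicClosure ℚ) with hce
  rw [← Subfield.relrank_map_map _ _ val]
  refine Fermat.Agent.S24.dg_relrank_sup_le ((Qj 1).map ce)
    ((modularFunctionFieldFull N).toSubfield.map ce) _ _
    ((Subfield.gc_map_comap ce).monotone_l (Fermat.Agent.S24.dg_Qj_le_full N)) ?_ ?_ ?_ _ ?_
  · rw [Subfield.map_le_iff_le_comap, Qj, Subfield.closure_le]
    rintro x rfl
    refine ⟨Fermat.Agent.S24.jBar N, IntermediateField.mem_adjoin_simple_self _ _, ?_⟩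
    show ((Fermat.Agent.S24.jBar N : ↥(modularFunctionFieldBar N)) :
      LaurentSeries (AlgebraicClosure ℚ)) = ce (jd ℚ 1)
    rw [jd_one]
    rfl
  · exact (Subfield.gc_map_comap val).monotone_l (fun x _ => trivial)
  · rintro _ ⟨y, -, rfl⟩
    have hy : (y : LaurentSeries (AlgebraicClosure ℚ)) ∈
        (modularFunctionFieldBar N).toSubfield := y.2
    have hle : (modularFunctionFieldBar N).toSubfield ≤
        Subfield.closure
          ((((AlgebraicClosure ℚ)⟮Fermat.Agent.S24.jBar N⟯).toSubfield.map val : Set _) ∪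
            ((modularFunctionFieldFull N).toSubfield.map ce)) := by
      show (laurentBaseChange (AlgebraicClosure ℚ) (modularFunctionFieldFull N)).toSubfield ≤ _
      rw [laurentBaseChange, IntermediateField.adjoin_toSubfield, Subfield.closure_le]
      rintro z (⟨c, rfl⟩ | ⟨x, hx, rfl⟩)
      · refine Subfield.subset_closure (Or.inl ?_)
        exact ⟨algebraMap _ _ c,
          ((AlgebraicClosure ℚ)⟮Fermat.Agent.S24.jBar N⟯).algebraMap_mem c, rfl⟩
      · refine Subfield.subset_closure (Or.inr ?_)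
        exact ⟨x, hx, rfl⟩
    exact hle hy
  · rw [Subfield.relrank_map_map]
    exact h

/-- `[Ft M : ℚ(j)] ≤ [SL₂(ℤ) : Γ₀(M)]`. -/
theorem gbc3_relrank_Ft_le (M : ℕ) [NeZero M] :
    Subfield.relrank (Qj 1) (Ft M).toSubfield ≤
      ((CongruenceSubgroup.Gamma0 M).index : Cardinal) := by
  have hle : Qj 1 ≤ (Ft M).toSubfield := by
    rw [Qj, Subfield.closure_le]
    rintro x rfl
    exact jd_mem_Ft (one_dvd M)
  refine @relrank_le_of_forall_degree_le (LaurentSeries ℚ) _
    (charZero_of_injective_ringHom (HahnSeries.C : ℚ →+* LaurentSeries ℚ).injective)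
    (Qj 1) (Ft M).toSubfield hle (CongruenceSubgroup.Gamma0 M).index ?_
  intro x hx
  exact exists_poly_of_mem_Ft M 1 (NeZero.pos M) (one_dvd M) x hx

/-- `[SL₂(ℤ) : Γ₀(M)] ≤ [full M : ℚ(j)]`. -/
theorem gbc3_index_le_relrank (M : ℕ) [NeZero M] :
    ((CongruenceSubgroup.Gamma0 M).index : Cardinal) ≤
      Subfield.relrank (Qj 1) (modularFunctionFieldFull M).toSubfield := by
  have hfin : Subfield.relrank (Qj 1) (modularFunctionFieldFull M).toSubfield <
      Cardinal.aleph0 :=
    (Fermat.Agent.S24.dg_relrank_full_le M).trans_lt (Cardinal.natCast_lt_aleph0)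
  obtain ⟨n, hn⟩ := Cardinal.lt_aleph0.mp hfin
  rw [hn]
  have h1 := gbc3_rank_le M n hn.le
  have hfd := Fermat.Agent.S24.finiteDimensional_jBar' M
  have h2 : Module.finrank ↥((AlgebraicClosure ℚ)⟮Fermat.Agent.S24.jBar M⟯)
      ↥(modularFunctionFieldBar M) ≤ n := Module.finrank_le_of_rank_le h1
  obtain ⟨hfd', hrank⟩ := Fermat.Agent.S24.sc_transport _ _
    (Fermat.Agent.S24.sc_adjoin_inv (K := AlgebraicClosure ℚ) (Fermat.Agent.S24.jBar M))
  have h3 := Fermat.Agent.S24.sc_card_eq M
  rw [hrank] at h3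
  have h4 : (CongruenceSubgroup.Gamma0 M).index ≤ n := by
    show Nat.card (SL(2, ℤ) ⧸ CongruenceSubgroup.Gamma0 M) ≤ n
    rw [h3]
    exact h2
  exact_mod_cast h4

/-- **GBC3.** The auxiliary field `Ft M` of the S28 library is the function field of `X₀(M)`
over `ℚ`. -/
theorem gbc_Ft_eq_full (M : ℕ) [NeZero M] : Ft M = modularFunctionFieldFull M := by
  refine le_antisymm ?_ (full_le_Ft M)
  have hAB : Qj 1 ≤ (modularFunctionFieldFull M).toSubfield := Fermat.Agent.S24.dg_Qj_le_full M
  have hBC : (modularFunctionFieldFull M).toSubfield ≤ (Ft M).toSubfield := full_le_Ft M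
  have hmul := Subfield.relrank_mul_relrank hAB hBC
  have hfin : Subfield.relrank (Qj 1) (modularFunctionFieldFull M).toSubfield <
      Cardinal.aleph0 :=
    (Fermat.Agent.S24.dg_relrank_full_le M).trans_lt (Cardinal.natCast_lt_aleph0)
  have hAC : Subfield.relrank (Qj 1) (Ft M).toSubfield ≤
      Subfield.relrank (Qj 1) (modularFunctionFieldFull M).toSubfield :=
    (gbc3_relrank_Ft_le M).trans (gbc3_index_le_relrank M)
  have hfinC : Subfield.relrank (Qj 1) (Ft M).toSubfield < Cardinal.aleph0 :=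
    hAC.trans_lt hfin
  obtain ⟨a, ha⟩ := Cardinal.lt_aleph0.mp hfin
  obtain ⟨c, hc⟩ := Cardinal.lt_aleph0.mp hfinC
  have ha0 : a ≠ 0 := by
    rintro rfl
    have h0 : Subfield.relrank (Qj 1) (modularFunctionFieldFull M).toSubfield = 0 := by
      rw [ha]; simp
    rw [Subfield.relrank_eq_rank_of_le hAB] at h0
    exact (rank_pos (R := ↥(Qj 1))
      (M := ↥(Subfield.extendScalars hAB))).ne' h0
  have hBfin : Subfield.relrank (modularFunctionFieldFull M).toSubfield (Ft M).toSubfield <
      Cardinal.aleph0 := by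
    by_contra hinf
    rw [not_lt] at hinf
    have h1 : Cardinal.aleph0 ≤ Subfield.relrank (Qj 1) (Ft M).toSubfield := by
      rw [← hmul]
      refine hinf.trans (Cardinal.le_mul_left ?_)
      rw [ha]
      exact_mod_cast ha0
    exact absurd hfinC (not_lt.mpr h1)
  obtain ⟨b, hb⟩ := Cardinal.lt_aleph0.mp hBfin
  rw [ha, hb, hc] at hmul
  rw [ha, hc] at hAC
  have hmul' : a * b = c := by exact_mod_cast hmul
  have hAC' : c ≤ a := by exact_mod_cast hAC
  have hb1 : b ≤ 1 := by
    by_contra hb2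
    rw [not_le] at hb2
    have : a * 2 ≤ a * b := Nat.mul_le_mul_left a hb2
    omega
  have hb0 : b ≠ 0 := by
    rintro rfl
    have h0 : Subfield.relrank (modularFunctionFieldFull M).toSubfield (Ft M).toSubfield = 0 := by
      rw [hb]; simp
    rw [Subfield.relrank_eq_rank_of_le hBC] at h0
    exact (rank_pos (R := ↥(modularFunctionFieldFull M).toSubfield)
      (M := ↥(Subfield.extendScalars hBC))).ne' h0
  have hbone : b = 1 := by omega
  have hone : Subfield.relrank (modularFunctionFieldFull M).toSubfield (Ft M).toSubfield = 1 := by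
    rw [hb, hbone]; simp
  exact Subfield.relrank_eq_one_iff.mp hone

/-- The two versions of Dedekind's `ψ` agree. -/
theorem gbc_psi_eq (M : ℕ) (hM : 0 < M) : psi M = dedekindPsi M := by
  induction M using Nat.strong_induction_on with
  | _ M ih =>
    rcases Nat.lt_or_ge 1 M with h1 | h1
    · obtain ⟨p, hp, hpM⟩ := Nat.exists_prime_and_dvd (by omega : M ≠ 1)
      obtain ⟨K, rfl⟩ := hpM
      have hK : 0 < K := Nat.pos_of_ne_zero (by rintro rfl; simp at hM)
      have hlt : K < p * K := by nlinarith [hp.two_le]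
      have ihK := ih K hlt hK
      by_cases hd : p ∣ K
      · rw [psi_mul_of_dvd hp hK hd, Fermat.Agent.S24.dedekindPsi_mul_of_dvd hp hK hd, ihK]
      · rw [psi_mul_of_not_dvd hp hK hd, Fermat.Agent.S24.dedekindPsi_mul_of_not_dvd hp hK hd,
          ihK]
    · have hM1 : M = 1 := by omega
      subst hM1
      rw [psi_one, dedekindPsi_one]

end Fermat.Agent.S18
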