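import Mathlib
import Fermat.Prelude.Def_ModularCurve_ReductionModL
import Fermat.Agent.S28.Defs

/-!
# S18, package GAUSSRING (part 1): the Gauss ring over a general valuation ring

`K` a field, `A : ValuationSubring K`, `k = IsLocalRing.ResidueField A`.

* `grV A : Subring (LaurentSeries K)`: the elements `a / b` with `a, b ∈ A((q))`, `b mod 𝔪 ≠ 0`
  (coefficient maps: `coeffMap A.subtype`, `coeffMap (IsLocalRing.residue A)`);
* `grRho A : grV A →+* LaurentSeries k`: its residue map, `grRho (a / b) = ā / b̄`;
* `grRho_spec`, `grRho_coeffMap`: computation rules;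
* `gr_inv_mem`, `grRho_inv`: elements with nonzero residue are units of `grV A`;
* `gr_algebraMap_mem_iff`: a constant `c ∈ K` lies in `grV A` iff `c ∈ A`; `grRho_algebraMap`.

This is the `(K, A, k)`-version of `Vw ℓ` / `rho ℓ` of S28 (`Fermat.Agent.S28.Defs`).
All names are prefixed `gr`.
-/

set_option autoImplicit false

noncomputable section

open ModularCurve

namespace Fermat.Agent.S18

section GaussDef

variable {K : Type*} [Field K] (A : ValuationSubring K)

theorem gr_inc_injective : Function.Injective (coeffMap A.subtype) := by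
  intro x y h
  ext n
  have := congrArg (fun z => HahnSeries.coeff z n) h
  simpa using this

/-- The Gauss ring of `A` inside `K((q))`: elements `a / b` with `a, b ∈ A((q))` and
`b ≢ 0` modulo the maximal ideal. -/
def grV : Subring (LaurentSeries K) where
  carrier := {x | ∃ a b : LaurentSeries A,
    coeffMap (IsLocalRing.residue A) b ≠ 0 ∧ x * coeffMap A.subtype b = coeffMap A.subtype a}
  mul_mem' := by
    rintro x y ⟨a, b, hb, h⟩ ⟨a', b', hb', h'⟩
    refine ⟨a * a', b * b', ?_, ?_⟩
    · rw [map_mul]; exact mul_ne_zero hb hb'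
    · rw [map_mul, map_mul, ← h, ← h']; ring
  one_mem' := ⟨1, 1, by simp, by simp⟩
  add_mem' := by
    rintro x y ⟨a, b, hb, h⟩ ⟨a', b', hb', h'⟩
    refine ⟨a * b' + a' * b, b * b', ?_, ?_⟩
    · rw [map_mul]; exact mul_ne_zero hb hb'
    · rw [map_mul, map_add, map_mul, map_mul, ← h, ← h']; ring
  zero_mem' := ⟨0, 1, by simp, by simp⟩
  neg_mem' := by
    rintro x ⟨a, b, hb, h⟩
    exact ⟨-a, b, hb, by rw [map_neg, ← h]; ring⟩

theorem gr_mem_iff {x : LaurentSeries K} :
    x ∈ grV A ↔ ∃ a b : LaurentSeries A,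
      coeffMap (IsLocalRing.residue A) b ≠ 0 ∧ x * coeffMap A.subtype b = coeffMap A.subtype a :=
  Iff.rfl

theorem gr_coeffMap_mem (a : LaurentSeries A) : coeffMap A.subtype a ∈ grV A :=
  ⟨a, 1, by simp, by simp⟩

/-- A chosen numerator of an element of `grV A`. -/
def grNum (x : grV A) : LaurentSeries A := Classical.choose x.2

/-- A chosen denominator of an element of `grV A`. -/
def grDen (x : grV A) : LaurentSeries A := Classical.choose (Classical.choose_spec x.2)

theorem gr_red_grDen_ne_zero (x : grV A) : coeffMap (IsLocalRing.residue A) (grDen A x) ≠ 0 :=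
  (Classical.choose_spec (Classical.choose_spec x.2)).1

theorem gr_mul_grDen (x : grV A) :
    (x : LaurentSeries K) * coeffMap A.subtype (grDen A x) = coeffMap A.subtype (grNum A x) :=
  (Classical.choose_spec (Classical.choose_spec x.2)).2

theorem gr_num_div_den (x : grV A) (a b : LaurentSeries A)
    (hb : coeffMap (IsLocalRing.residue A) b ≠ 0)
    (h : (x : LaurentSeries K) * coeffMap A.subtype b = coeffMap A.subtype a) :
    coeffMap (IsLocalRing.residue A) (grNum A x) / coeffMap (IsLocalRing.residue A) (grDen A x) =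
      coeffMap (IsLocalRing.residue A) a / coeffMap (IsLocalRing.residue A) b := by
  rw [div_eq_div_iff (gr_red_grDen_ne_zero A x) hb, ← map_mul, ← map_mul]
  congr 1
  apply gr_inc_injective A
  rw [map_mul, map_mul, ← h, ← gr_mul_grDen A x]
  ring

/-- The residue map of the Gauss ring: `grRho (a / b) = ā / b̄`. -/
def grRho : grV A →+* LaurentSeries (IsLocalRing.ResidueField A) where
  toFun x := coeffMap (IsLocalRing.residue A) (grNum A x) /
    coeffMap (IsLocalRing.residue A) (grDen A x)
  map_one' := by
    rw [gr_num_div_den A 1 1 1 (by simp) (by simp)]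
    simp
  map_zero' := by
    rw [gr_num_div_den A 0 0 1 (by simp) (by simp)]
    simp
  map_mul' x y := by
    rw [gr_num_div_den A (x * y) (grNum A x * grNum A y) (grDen A x * grDen A y)
      (by rw [map_mul]; exact mul_ne_zero (gr_red_grDen_ne_zero A x) (gr_red_grDen_ne_zero A y))
      (by rw [map_mul, map_mul, ← gr_mul_grDen A x, ← gr_mul_grDen A y, Subring.coe_mul]; ring)]
    rw [map_mul, map_mul, mul_div_mul_comm]
  map_add' x y := by
    rw [gr_num_div_den A (x + y) (grNum A x * grDen A y + grNum A y * grDen A x)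
      (grDen A x * grDen A y)
      (by rw [map_mul]; exact mul_ne_zero (gr_red_grDen_ne_zero A x) (gr_red_grDen_ne_zero A y))
      (by rw [map_mul, map_add, map_mul, map_mul, ← gr_mul_grDen A x, ← gr_mul_grDen A y,
            Subring.coe_add]; ring)]
    rw [map_mul, map_add, map_mul, map_mul,
      div_add_div _ _ (gr_red_grDen_ne_zero A x) (gr_red_grDen_ne_zero A y)]
    ring

/-- Computation rule for `grRho`: if `x · b = a` with `b̄ ≠ 0`, then `grRho x · b̄ = ā`. -/
theorem grRho_spec (x : grV A) (a b : LaurentSeries A)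
    (hb : coeffMap (IsLocalRing.residue A) b ≠ 0)
    (h : (x : LaurentSeries K) * coeffMap A.subtype b = coeffMap A.subtype a) :
    grRho A x * coeffMap (IsLocalRing.residue A) b = coeffMap (IsLocalRing.residue A) a := by
  show coeffMap (IsLocalRing.residue A) (grNum A x) /
    coeffMap (IsLocalRing.residue A) (grDen A x) * coeffMap (IsLocalRing.residue A) b = _
  rw [gr_num_div_den A x a b hb h, div_mul_cancel₀ _ hb]

theorem grRho_coeffMap (a : LaurentSeries A) :
    grRho A ⟨coeffMap A.subtype a, gr_coeffMap_mem A a⟩ = coeffMap (IsLocalRing.residue A) a := by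
  have := grRho_spec A ⟨coeffMap A.subtype a, gr_coeffMap_mem A a⟩ a 1 (by simp) (by simp)
  simpa using this

/-- `grRho` of a series with coefficients in `A`, any membership proof. -/
theorem grRho_coeffMap' (a : LaurentSeries A) (h : coeffMap A.subtype a ∈ grV A) :
    grRho A ⟨coeffMap A.subtype a, h⟩ = coeffMap (IsLocalRing.residue A) a :=
  grRho_coeffMap A a

/-- Elements of the Gauss ring with nonzero residue are units. -/
theorem gr_inv_mem (x : grV A) (hx : grRho A x ≠ 0) : (x : LaurentSeries K)⁻¹ ∈ grV A := by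
  obtain ⟨a, b, hb, h⟩ := x.2
  have hspec := grRho_spec A x a b hb h
  have ha : coeffMap (IsLocalRing.residue A) a ≠ 0 := by
    rw [← hspec]
    exact mul_ne_zero hx hb
  have haQ : coeffMap A.subtype a ≠ 0 := fun hq => ha (by
    have : a = 0 := gr_inc_injective A (by rw [hq, map_zero])
    rw [this, map_zero])
  have hx0 : (x : LaurentSeries K) ≠ 0 := by
    intro hx0
    rw [hx0, zero_mul] at h
    exact haQ h.symm
  refine ⟨b, a, ha, ?_⟩
  rw [← h]
  field_simp

theorem grRho_inv (x : grV A) (hx : grRho A x ≠ 0) :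
    grRho A ⟨(x : LaurentSeries K)⁻¹, gr_inv_mem A x hx⟩ = (grRho A x)⁻¹ := by
  have hx0 : (x : LaurentSeries K) ≠ 0 := by
    intro h0
    apply hx
    have : x = 0 := Subtype.ext h0
    rw [this, map_zero]
  have h1 : (⟨(x : LaurentSeries K)⁻¹, gr_inv_mem A x hx⟩ : grV A) * x = 1 :=
    Subtype.ext (by simp [hx0])
  have h2 := congrArg (grRho A) h1
  rw [map_mul, map_one] at h2
  exact eq_inv_of_mul_eq_one_left h2

/-- An element of the Gauss ring with zero residue has no inverse in the Gauss ring. -/
theorem gr_inv_notMem (x : grV A) (hx : grRho A x = 0) (hx0 : (x : LaurentSeries K) ≠ 0) :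
    (x : LaurentSeries K)⁻¹ ∉ grV A := by
  intro hmem
  have h1 : (⟨(x : LaurentSeries K)⁻¹, hmem⟩ : grV A) * x = 1 :=
    Subtype.ext (by simp [hx0])
  have h2 := congrArg (grRho A) h1
  rw [map_mul, map_one, hx, mul_zero] at h2
  exact zero_ne_one h2

/-! ### Constants -/

theorem gr_algebraMap_eq (c : A) :
    algebraMap K (LaurentSeries K) (c : K) = coeffMap A.subtype (HahnSeries.single 0 c) := by
  rw [algebraMap_laurentSeries_eq_single, coeffMap_single]
  rfl

theorem gr_algebraMap_mem (c : A) : algebraMap K (LaurentSeries K) (c : K) ∈ grV A := by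
  rw [gr_algebraMap_eq]
  exact gr_coeffMap_mem A _

theorem grRho_algebraMap (c : A) :
    grRho A ⟨algebraMap K (LaurentSeries K) (c : K), gr_algebraMap_mem A c⟩ =
      algebraMap (IsLocalRing.ResidueField A) (LaurentSeries (IsLocalRing.ResidueField A))
        (IsLocalRing.residue A c) := by
  have h : (⟨algebraMap K (LaurentSeries K) (c : K), gr_algebraMap_mem A c⟩ : grV A) =
      ⟨coeffMap A.subtype (HahnSeries.single 0 c), gr_coeffMap_mem A _⟩ :=
    Subtype.ext (gr_algebraMap_eq A c)
  rw [h, grRho_coeffMap, coeffMap_single, algebraMap_laurentSeries_eq_single]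

/-- A constant lies in the Gauss ring iff it lies in `A`. -/
theorem gr_algebraMap_mem_iff (c : K) : algebraMap K (LaurentSeries K) c ∈ grV A ↔ c ∈ A := by
  constructor
  · intro hc
    by_contra hcA
    have hc0 : c ≠ 0 := fun h => hcA (h ▸ A.zero_mem)
    have hci : c⁻¹ ∈ A := (A.mem_or_inv_mem c).resolve_left hcA
    have hnu : (⟨c⁻¹, hci⟩ : A) ∈ IsLocalRing.maximalIdeal A := by
      rw [IsLocalRing.mem_maximalIdeal, mem_nonunits_iff]
      intro hu
      obtain ⟨⟨d, hd⟩, hd1⟩ := isUnit_iff_exists_inv.mp hu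
      have h1 : c⁻¹ * d = 1 := congrArg Subtype.val hd1
      have h2 : d = c := by
        field_simp at h1
        exact h1
      exact hcA (h2 ▸ hd)
    have hres : IsLocalRing.residue A ⟨c⁻¹, hci⟩ = 0 :=
      (IsLocalRing.residue_eq_zero_iff _).mpr hnu
    have h1 : (⟨algebraMap K (LaurentSeries K) c, hc⟩ : grV A) *
        ⟨algebraMap K (LaurentSeries K) ((⟨c⁻¹, hci⟩ : A) : K), gr_algebraMap_mem A _⟩ = 1 := by
      apply Subtype.ext
      show algebraMap K (LaurentSeries K) c * algebraMap K (LaurentSeries K) c⁻¹ = 1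
      rw [← map_mul, mul_inv_cancel₀ hc0, map_one]
    have h2 := congrArg (grRho A) h1
    rw [map_mul, map_one, grRho_algebraMap, hres, map_zero, mul_zero] at h2
    exact zero_ne_one h2
  · intro hc
    exact gr_algebraMap_mem A ⟨c, hc⟩

end GaussDef

end Fermat.Agent.S18
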