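import Mathlib
import Fermat.Prelude.Def_ModularCurve_X0

/-!
# S18, package HAUPT4 (part 1): the coefficient check

Truncated power-series arithmetic over `ℤ` modulo `X^10`, used to verify the first ten
coefficients of the two level-2 identities

* `E₄(q)³ Δ(q) Δ(q²) = (Δ(q) + 256 Δ(q²))³`,
* `E₄(q²)³ Δ(q) Δ(q²) = (Δ(q) + 16 Δ(q²))³`

(the Sturm bound for weight 36 on `Gamma0(2)` is 9).  Everything here is formal: `eisenstein4`,
`etaProd`, `dedekindEtaUnit` are the Prelude power series.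
-/

set_option autoImplicit false

open PowerSeries ModularCurve Filter Topology
open scoped PowerSeries.WithPiTopology

namespace Fermat.Agent.S18

/-- `f ≡ l` modulo `X^10`: the first ten coefficients of `f` are the entries of the list `l`. -/
def Hp4Tab (f : PowerSeries ℤ) (l : List ℤ) : Prop := ∀ n < 10, coeff n f = l.getD n 0

/-- truncated convolution of two coefficient tables. -/
def hp4Conv (a b : List ℤ) (n : ℕ) : ℤ :=
  ∑ i ∈ Finset.range (n + 1), a.getD i 0 * b.getD (n - i) 0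

theorem Hp4Tab.mul {f g : PowerSeries ℤ} {a b c : List ℤ} (hf : Hp4Tab f a) (hg : Hp4Tab g b)
    (h : ∀ n < 10, hp4Conv a b n = c.getD n 0) : Hp4Tab (f * g) c := by
  intro n hn
  rw [coeff_mul, Finset.Nat.sum_antidiagonal_eq_sum_range_succ
    (fun i j => coeff i f * coeff j g), ← h n hn]
  refine Finset.sum_congr rfl fun i hi => ?_
  rw [Finset.mem_range] at hi
  rw [hf i (by omega), hg (n - i) (by omega)]

theorem Hp4Tab.add {f g : PowerSeries ℤ} {a b c : List ℤ} (hf : Hp4Tab f a) (hg : Hp4Tab g b)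
    (h : ∀ n < 10, a.getD n 0 + b.getD n 0 = c.getD n 0) : Hp4Tab (f + g) c := by
  intro n hn
  rw [map_add, hf n hn, hg n hn, h n hn]

theorem Hp4Tab.const_mul {f : PowerSeries ℤ} {a c : List ℤ} (k : ℤ) (hf : Hp4Tab f a)
    (h : ∀ n < 10, k * a.getD n 0 = c.getD n 0) : Hp4Tab (C k * f) c := by
  intro n hn
  rw [coeff_C_mul, hf n hn, h n hn]

theorem Hp4Tab.X_mul {f : PowerSeries ℤ} {a c : List ℤ} (hf : Hp4Tab f a)
    (h : ∀ n < 10, (if n = 0 then 0 else a.getD (n - 1) 0) = c.getD n 0) : Hp4Tab (X * f) c := by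
  intro n hn
  rw [← h n hn]
  rcases n with _ | n
  · simp
  · rw [coeff_succ_X_mul, hf n (by omega)]
    simp

/-- `f(q) ↦ f(q²)` on power series over `ℤ`. -/
noncomputable def hp4V2 (f : PowerSeries ℤ) : PowerSeries ℤ :=
  PowerSeries.mk fun n => if 2 ∣ n then coeff (n / 2) f else 0

theorem Hp4Tab.v2 {f : PowerSeries ℤ} {a c : List ℤ} (hf : Hp4Tab f a)
    (h : ∀ n < 10, (if 2 ∣ n then a.getD (n / 2) 0 else 0) = c.getD n 0) :
    Hp4Tab (hp4V2 f) c := by
  intro n hn
  rw [← h n hn, hp4V2, coeff_mk]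
  split_ifs with h2
  · rw [hf (n / 2) (by omega)]
  · rfl

/-! ### The eta product -/

/-- coefficients of the partial products `∏_{i<k} (1 - X^(i+1))`. -/
def hp4EtaFun : ℕ → ℕ → ℤ
  | 0, n => if n = 0 then 1 else 0
  | k + 1, n => hp4EtaFun k n - if k + 1 ≤ n then hp4EtaFun k (n - (k + 1)) else 0

theorem hp4_coeff_partial (k n : ℕ) :
    coeff n (∏ i ∈ Finset.range k, ((1 : PowerSeries ℤ) - X ^ (i + 1))) = hp4EtaFun k n := by
  induction k generalizing n with
  | zero => simp [hp4EtaFun, coeff_one]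
  | succ k ih =>
    rw [Finset.prod_range_succ, mul_sub, mul_one, map_sub, coeff_mul_X_pow', hp4EtaFun, ih]
    split_ifs with h
    · rw [ih]
    · rfl

theorem hp4_coeff_partial_stable (N n : ℕ) (hN : 9 ≤ N) (hn : n < 10) :
    coeff n (∏ i ∈ Finset.range N, ((1 : PowerSeries ℤ) - X ^ (i + 1))) = hp4EtaFun 9 n := by
  induction N, hN using Nat.le_induction with
  | base => exact hp4_coeff_partial 9 n
  | succ N hN ih =>
    rw [Finset.prod_range_succ, mul_sub, mul_one, map_sub, coeff_mul_X_pow', ih,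
      if_neg (by omega), sub_zero]

theorem hp4_coeff_etaProd (n : ℕ) (hn : n < 10) : coeff n etaProd = hp4EtaFun 9 n := by
  have h1 : HasProd (fun i : ℕ => (1 : PowerSeries ℤ) - X ^ (i + 1)) etaProd :=
    (PowerSeries.WithPiTopology.multipliable_one_sub_X_pow ℤ).hasProd
  have h2 : Tendsto (fun N : ℕ =>
      coeff n (∏ i ∈ Finset.range N, ((1 : PowerSeries ℤ) - X ^ (i + 1)))) atTop
      (𝓝 (coeff n etaProd)) :=
    ((PowerSeries.WithPiTopology.continuous_coeff ℤ n).tendsto _).comp h1.tendsto_prod_nat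
  rw [nhds_discrete, tendsto_pure] at h2
  obtain ⟨N, hN, hN9⟩ := (h2.and (eventually_ge_atTop 9)).exists
  rw [← hN, hp4_coeff_partial_stable N n hN9 hn]

theorem hp4_tab_eta : Hp4Tab etaProd [1, -1, -1, 0, 0, 1, 0, 1, 0, 0] := by
  intro n hn
  rw [hp4_coeff_etaProd n hn]
  revert n
  decide

theorem hp4_tab_E4 :
    Hp4Tab eisenstein4 [1, 240, 2160, 6720, 17520, 30240, 60480, 82560, 140400, 181680] := by
  intro n hn
  rw [eisenstein4, coeff_mk]
  revert n
  decide


/-! ### `η^24` and `Δ` -/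

theorem hp4_tab_eta24 : Hp4Tab dedekindEtaUnit
    [1, -24, 252, -1472, 4830, -6048, -16744, 84480, -113643, -115920] := by
  have h1 := hp4_tab_eta
  have h2 : Hp4Tab (etaProd * etaProd) [1, -2, -1, 2, 1, 2, -2, 0, -2, -2] :=
    h1.mul h1 (by decide)
  have h3 : Hp4Tab (etaProd * etaProd * etaProd) [1, -3, 0, 5, 0, 0, -7, 0, 0, 0] :=
    h2.mul h1 (by decide)
  have h6 : Hp4Tab (etaProd * etaProd * etaProd * (etaProd * etaProd * etaProd))
      [1, -6, 9, 10, -30, 0, 11, 42, 0, -70] := h3.mul h3 (by decide)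
  have h12 : Hp4Tab (etaProd * etaProd * etaProd * (etaProd * etaProd * etaProd) *
      (etaProd * etaProd * etaProd * (etaProd * etaProd * etaProd)))
      [1, -12, 54, -88, -99, 540, -418, -648, 594, 836] := h6.mul h6 (by decide)
  have h24 := h12.mul h12 (c := [1, -24, 252, -1472, 4830, -6048, -16744, 84480, -113643, -115920])
    (by decide)
  have e : dedekindEtaUnit = etaProd * etaProd * etaProd * (etaProd * etaProd * etaProd) *
      (etaProd * etaProd * etaProd * (etaProd * etaProd * etaProd)) *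
      (etaProd * etaProd * etaProd * (etaProd * etaProd * etaProd) *
      (etaProd * etaProd * etaProd * (etaProd * etaProd * etaProd))) := by
    rw [dedekindEtaUnit]; ring
  rw [e]
  exact h24

/-- `Δ = X η^24`. -/
theorem hp4_tab_D : Hp4Tab (X * dedekindEtaUnit)
    [0, 1, -24, 252, -1472, 4830, -6048, -16744, 84480, -113643] :=
  hp4_tab_eta24.X_mul (by decide)

/-- `Δ(q²)`. -/
theorem hp4_tab_D2 : Hp4Tab (hp4V2 (X * dedekindEtaUnit))
    [0, 0, 1, 0, -24, 0, 252, 0, -1472, 0] :=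
  hp4_tab_D.v2 (by decide)

/-- `E₄(q²)`. -/
theorem hp4_tab_E4v2 : Hp4Tab (hp4V2 eisenstein4)
    [1, 0, 240, 0, 2160, 0, 6720, 0, 17520, 0] :=
  hp4_tab_E4.v2 (by decide)

/-! ### The two level-2 identities modulo `X^10` -/

/-- First ten coefficients of `E₄³ Δ Δ(q²) - (Δ + 256 Δ(q²))³` vanish. -/
theorem hp4_coeff_I1 (n : ℕ) (hn : n < 10) :
    coeff n (eisenstein4 ^ 3 * (X * dedekindEtaUnit) * hp4V2 (X * dedekindEtaUnit) -
      (X * dedekindEtaUnit + C 256 * hp4V2 (X * dedekindEtaUnit)) ^ 3) = 0 := by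
  have hE := hp4_tab_E4
  have hD := hp4_tab_D
  have hD2 := hp4_tab_D2
  have hE2 : Hp4Tab (eisenstein4 * eisenstein4)
      [1, 480, 61920, 1050240, 7926240, 37500480, 135480960, 395301120, 1014559200,
        2296875360] := hE.mul hE (by decide)
  have hE3 : Hp4Tab (eisenstein4 * eisenstein4 * eisenstein4)
      [1, 720, 179280, 16954560, 396974160, 4632858720, 34413301440, 187477879680,
        814940600400, 2975469665040] := hE2.mul hE (by decide)
  have hT1 : Hp4Tab (eisenstein4 * eisenstein4 * eisenstein4 * (X * dedekindEtaUnit))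
      [0, 1, 696, 162252, 12831808, 34188270, -882400608, -833380744, 25487347200,
        -20041723323] := hE3.mul hD (by decide)
  have hT2 : Hp4Tab (eisenstein4 * eisenstein4 * eisenstein4 * (X * dedekindEtaUnit) *
      hp4V2 (X * dedekindEtaUnit))
      [0, 0, 0, 1, 696, 162228, 12815104, 30294474, -1190188608, -1613013192] :=
    hT1.mul hD2 (by decide)
  have hS : Hp4Tab (X * dedekindEtaUnit + C 256 * hp4V2 (X * dedekindEtaUnit))
      [0, 1, 232, 252, -7616, 4830, 58464, -16744, -292352, -113643] :=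
    hD.add (hD2.const_mul 256 (c := [0, 0, 256, 0, -6144, 0, 64512, 0, -376832, 0]) (by decide))
      (by decide)
  have hS2 := hS.mul hS (c := [0, 0, 1, 464, 54328, 101696, -3460660, -1480416, 87531584,
    -52458624]) (by decide)
  have hS3 := hS2.mul hS (c := [0, 0, 0, 1, 696, 162228, 12815104, 30294474, -1190188608,
    -1613013192]) (by decide)
  have e1 : eisenstein4 ^ 3 * (X * dedekindEtaUnit) * hp4V2 (X * dedekindEtaUnit) =
      eisenstein4 * eisenstein4 * eisenstein4 * (X * dedekindEtaUnit) *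
      hp4V2 (X * dedekindEtaUnit) := by ring
  have e2 : (X * dedekindEtaUnit + C 256 * hp4V2 (X * dedekindEtaUnit)) ^ 3 =
      (X * dedekindEtaUnit + C 256 * hp4V2 (X * dedekindEtaUnit)) *
      (X * dedekindEtaUnit + C 256 * hp4V2 (X * dedekindEtaUnit)) *
      (X * dedekindEtaUnit + C 256 * hp4V2 (X * dedekindEtaUnit)) := by ring
  rw [e1, e2, map_sub, hT2 n hn, hS3 n hn, sub_self]

/-- First ten coefficients of `E₄(q²)³ Δ Δ(q²) - (Δ + 16 Δ(q²))³` vanish. -/
theorem hp4_coeff_I2 (n : ℕ) (hn : n < 10) :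
    coeff n (hp4V2 eisenstein4 ^ 3 * (X * dedekindEtaUnit) * hp4V2 (X * dedekindEtaUnit) -
      (X * dedekindEtaUnit + C 16 * hp4V2 (X * dedekindEtaUnit)) ^ 3) = 0 := by
  have hE := hp4_tab_E4v2
  have hD := hp4_tab_D
  have hD2 := hp4_tab_D2
  have hE2 : Hp4Tab (hp4V2 eisenstein4 * hp4V2 eisenstein4)
      [1, 0, 480, 0, 61920, 0, 1050240, 0, 7926240, 0] := hE.mul hE (by decide)
  have hE3 : Hp4Tab (hp4V2 eisenstein4 * hp4V2 eisenstein4 * hp4V2 eisenstein4)
      [1, 0, 720, 0, 179280, 0, 16954560, 0, 396974160, 0] := hE2.mul hE (by decide)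
  have hT1 : Hp4Tab (hp4V2 eisenstein4 * hp4V2 eisenstein4 * hp4V2 eisenstein4 *
      (X * dedekindEtaUnit))
      [0, 1, -24, 972, -18752, 365550, -5368608, 65593976, -675079680, 5523276357] :=
    hE3.mul hD (by decide)
  have hT2 : Hp4Tab (hp4V2 eisenstein4 * hp4V2 eisenstein4 * hp4V2 eisenstein4 *
      (X * dedekindEtaUnit) * hp4V2 (X * dedekindEtaUnit))
      [0, 0, 0, 1, -24, 948, -18176, 342474, -4924608, 57064248] :=
    hT1.mul hD2 (by decide)
  have hS : Hp4Tab (X * dedekindEtaUnit + C 16 * hp4V2 (X * dedekindEtaUnit))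
      [0, 1, -8, 252, -1856, 4830, -2016, -16744, 60928, -113643] :=
    hD.add (hD2.const_mul 16 (c := [0, 0, 16, 0, -384, 0, 4032, 0, -23552, 0]) (by decide))
      (by decide)
  have hS2 := hS.mul hS (c := [0, 0, 1, -16, 568, -7744, 102860, -1016736, 5877824,
    -18555264]) (by decide)
  have hS3 := hS2.mul hS (c := [0, 0, 0, 1, -24, 948, -18176, 342474, -4924608, 57064248])
    (by decide)
  have e1 : hp4V2 eisenstein4 ^ 3 * (X * dedekindEtaUnit) * hp4V2 (X * dedekindEtaUnit) =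
      hp4V2 eisenstein4 * hp4V2 eisenstein4 * hp4V2 eisenstein4 * (X * dedekindEtaUnit) *
      hp4V2 (X * dedekindEtaUnit) := by ring
  have e2 : (X * dedekindEtaUnit + C 16 * hp4V2 (X * dedekindEtaUnit)) ^ 3 =
      (X * dedekindEtaUnit + C 16 * hp4V2 (X * dedekindEtaUnit)) *
      (X * dedekindEtaUnit + C 16 * hp4V2 (X * dedekindEtaUnit)) *
      (X * dedekindEtaUnit + C 16 * hp4V2 (X * dedekindEtaUnit)) := by ring
  rw [e1, e2, map_sub, hT2 n hn, hS3 n hn, sub_self]

end Fermat.Agent.S18
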