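import Mathlib
import Fermat.Agent.S28.Defs
import Fermat.Agent.S28.Forms
import Fermat.Agent.S28.SturmDegree
import Fermat.Agent.S28.PsiArith
import Fermat.Agent.S28.Index
import Fermat.Agent.S28.LevelOneInt
import Fermat.Agent.S28.UnitPoly
import Fermat.Agent.S18.Haupt4Coeff

/-!
# S18, package HAUPT4 (part 2): the Hauptmodul of `X₀(4)` as a Laurent series

Over every commutative ring `R` we construct Laurent series `hp4U R`, `hp4W R`, `hp4H R`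
(images of series over `ℤ`) with

* `hp4U R * Dd R 2 = Dd R 1`, `hp4W R * Dd R 4 = Dd R 2`  (so `u = Δ(q)/Δ(q²)`, `w = Δ(q²)/Δ(q⁴)`),
* `hp4H R * (hp4U R + 16) = hp4W R - 16 * hp4U R`,
* `u (h + 16) = h²`, `w = h (h + 16)`,
* `j(q) h⁴ (h + 16) = (h² + 256 h + 4096)³`, `j(q²) h² (h + 16)² = (h² + 16 h + 256)³`,
  `j(q⁴) h (h + 16) = (h² + 16 h + 16)³`,
* `h = q⁻¹ · (1 + ...)` with integral coefficients.

The only analytic input is the Sturm bound on `Gamma0(2)` in weight 36, through the `qForms` API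
of S28, applied to the two identities whose first ten coefficients are checked in
`Haupt4Coeff.lean`.
-/

set_option autoImplicit false

open ModularCurve PowerSeries
open Fermat.Agent.S28

noncomputable section

namespace Fermat.Agent.S18

/-! ### Bridge between `V R 2` and `hp4V2` -/

theorem hp4_V2_ofPowerSeries (R : Type*) [CommRing R] (f : PowerSeries ℤ) :
    V R 2 (HahnSeries.ofPowerSeries ℤ R (f.map (Int.castRingHom R))) =
      HahnSeries.ofPowerSeries ℤ R ((hp4V2 f).map (Int.castRingHom R)) := by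
  refine (unitPoly_ofPowerSeries_V two_ne_zero _ _ fun n => ?_).symm
  rw [coeff_map, hp4V2, coeff_mk]
  split_ifs with h
  · rw [coeff_map]
  · rw [map_zero]

theorem hp4_Dd_one (R : Type*) [CommRing R] :
    Dd R 1 = HahnSeries.ofPowerSeries ℤ R (DqZ.map (Int.castRingHom R)) := V_one R _

theorem hp4_Dd_two (R : Type*) [CommRing R] :
    Dd R 2 = HahnSeries.ofPowerSeries ℤ R ((hp4V2 DqZ).map (Int.castRingHom R)) :=
  hp4_V2_ofPowerSeries R DqZ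

theorem hp4_E4_two (R : Type*) [CommRing R] :
    V R 2 (E4q R) = HahnSeries.ofPowerSeries ℤ R ((hp4V2 eisenstein4).map (Int.castRingHom R)) :=
  hp4_V2_ofPowerSeries R eisenstein4

/-! ### The Sturm bound in weight 36 on `Gamma0(2)` -/

theorem hp4_sturm {g : LaurentSeries ℚ} (hg : g ∈ qForms 2 36) (g0 : PowerSeries ℤ)
    (hg0 : g = HahnSeries.ofPowerSeries ℤ ℚ (g0.map (Int.castRingHom ℚ)))
    (h : ∀ n < 10, coeff n g0 = 0) : g0 = 0 := by
  have hidx : (CongruenceSubgroup.Gamma0 2).index ≤ 3 := by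
    have := index_Gamma0_le_psi 2 (by norm_num)
    rwa [psi_prime Nat.prime_two] at this
  have h0 : g = 0 := by
    refine qForms_sturm hg fun n hn => ?_
    have hn' : n < 10 := by
      have h1 : (36 * ((CongruenceSubgroup.Gamma0 2).index : ℤ)).toNat ≤ 108 := by
        have : ((CongruenceSubgroup.Gamma0 2).index : ℤ) ≤ 3 := by exact_mod_cast hidx
        omega
      have h2 : (36 * ((CongruenceSubgroup.Gamma0 2).index : ℤ)).toNat / 12 ≤ 9 := by omega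
      omega
    rw [hg0, HahnSeries.ofPowerSeries_apply_coeff, coeff_map, h n hn', map_zero]
  rw [hg0] at h0
  have h1 : g0.map (Int.castRingHom ℚ) = 0 :=
    HahnSeries.ofPowerSeries_injective (by rw [h0, map_zero])
  ext n
  have h2 := congrArg (coeff n) h1
  rw [coeff_map, map_zero] at h2
  rw [map_zero]
  rw [eq_intCast] at h2
  exact_mod_cast h2

/-- `E₄(q)³ Δ(q) Δ(q²) = (Δ(q) + 256 Δ(q²))³` as power series over `ℤ`. -/
theorem hp4_series_I1 :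
    eisenstein4 ^ 3 * DqZ * hp4V2 DqZ = (DqZ + C 256 * hp4V2 DqZ) ^ 3 := by
  rw [← sub_eq_zero]
  refine hp4_sturm (g := E4q ℚ ^ 3 * Dd ℚ 1 * Dd ℚ 2 +
      HahnSeries.C (-1 : ℚ) * (Dd ℚ 1 + HahnSeries.C (256 : ℚ) * Dd ℚ 2) ^ 3) ?_ _ ?_ hp4_coeff_I1
  · have hE : E4q ℚ ∈ qForms 2 4 := by
      have := E4_mem_qForms (M := 2) (one_dvd 2)
      rwa [V_one] at this
    have hD1 : Dd ℚ 1 ∈ qForms 2 12 := Delta_mem_qForms (one_dvd 2)
    have hD2 : Dd ℚ 2 ∈ qForms 2 12 := Delta_mem_qForms dvd_rfl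
    have hL : E4q ℚ ^ 3 * Dd ℚ 1 * Dd ℚ 2 ∈ qForms 2 36 :=
      sd_qForms_congr (by norm_num) (qForms_mul (qForms_mul (sd_qForms_pow hE 3) hD1) hD2)
    have hR : (Dd ℚ 1 + HahnSeries.C (256 : ℚ) * Dd ℚ 2) ^ 3 ∈ qForms 2 36 :=
      sd_qForms_congr (by norm_num) (sd_qForms_pow (qForms_add hD1 (qForms_const_mul 256 hD2)) 3)
    exact qForms_add hL (qForms_const_mul (-1) hR)
  · rw [hp4_Dd_one, hp4_Dd_two, E4q]
    simp only [map_sub, map_mul, map_pow, map_add, PowerSeries.map_C,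
      HahnSeries.ofPowerSeries_C]
    simp only [eq_intCast, Int.cast_ofNat]
    rw [show (HahnSeries.C (-1 : ℚ) : LaurentSeries ℚ) = -1 by rw [map_neg, map_one]]
    ring

/-- `E₄(q²)³ Δ(q) Δ(q²) = (Δ(q) + 16 Δ(q²))³` as power series over `ℤ`. -/
theorem hp4_series_I2 :
    hp4V2 eisenstein4 ^ 3 * DqZ * hp4V2 DqZ = (DqZ + C 16 * hp4V2 DqZ) ^ 3 := by
  rw [← sub_eq_zero]
  refine hp4_sturm (g := V ℚ 2 (E4q ℚ) ^ 3 * Dd ℚ 1 * Dd ℚ 2 +
      HahnSeries.C (-1 : ℚ) * (Dd ℚ 1 + HahnSeries.C (16 : ℚ) * Dd ℚ 2) ^ 3) ?_ _ ?_ hp4_coeff_I2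
  · have hE : V ℚ 2 (E4q ℚ) ∈ qForms 2 4 := E4_mem_qForms (M := 2) dvd_rfl
    have hD1 : Dd ℚ 1 ∈ qForms 2 12 := Delta_mem_qForms (one_dvd 2)
    have hD2 : Dd ℚ 2 ∈ qForms 2 12 := Delta_mem_qForms dvd_rfl
    have hL : V ℚ 2 (E4q ℚ) ^ 3 * Dd ℚ 1 * Dd ℚ 2 ∈ qForms 2 36 :=
      sd_qForms_congr (by norm_num) (qForms_mul (qForms_mul (sd_qForms_pow hE 3) hD1) hD2)
    have hR : (Dd ℚ 1 + HahnSeries.C (16 : ℚ) * Dd ℚ 2) ^ 3 ∈ qForms 2 36 :=
      sd_qForms_congr (by norm_num) (sd_qForms_pow (qForms_add hD1 (qForms_const_mul 16 hD2)) 3)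
    exact qForms_add hL (qForms_const_mul (-1) hR)
  · rw [hp4_Dd_one, hp4_Dd_two, hp4_E4_two]
    simp only [map_sub, map_mul, map_pow, map_add, PowerSeries.map_C,
      HahnSeries.ofPowerSeries_C]
    simp only [eq_intCast, Int.cast_ofNat]
    rw [show (HahnSeries.C (-1 : ℚ) : LaurentSeries ℚ) = -1 by rw [map_neg, map_one]]
    ring

/-! ### The identities for Laurent series over any ring -/

theorem hp4_jd_mul_Dd (R : Type*) [CommRing R] (d : ℕ) :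
    jd R d * Dd R d = V R d (E4q R) ^ 3 := by
  rw [jd, Dd, ← map_mul, levelOneInt_jq_mul_Dq, map_pow]

theorem hp4_V2_jd_one (R : Type*) [CommRing R] : V R 2 (jd R 1) = jd R 2 := by
  rw [jd, V_V R two_ne_zero one_ne_zero, mul_one, jd]

theorem hp4_V2_jd_two (R : Type*) [CommRing R] : V R 2 (jd R 2) = jd R 4 := by
  rw [jd, V_V R two_ne_zero two_ne_zero, jd]

theorem hp4_V2_Dd_one (R : Type*) [CommRing R] : V R 2 (Dd R 1) = Dd R 2 := by
  rw [Dd, V_V R two_ne_zero one_ne_zero, mul_one, Dd]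

theorem hp4_V2_Dd_two (R : Type*) [CommRing R] : V R 2 (Dd R 2) = Dd R 4 := by
  rw [Dd, V_V R two_ne_zero two_ne_zero, Dd]

/-- `E₄(q)³ Δ(q) Δ(q²) = (Δ(q) + 256 Δ(q²))³` over any ring. -/
theorem hp4_E4_D (R : Type*) [CommRing R] :
    E4q R ^ 3 * Dd R 1 * Dd R 2 = (Dd R 1 + 256 * Dd R 2) ^ 3 := by
  have h := congrArg
    (fun f => HahnSeries.ofPowerSeries ℤ R (PowerSeries.map (Int.castRingHom R) f)) hp4_series_I1
  simp only [map_mul, map_pow, map_add, map_ofNat] at h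
  rw [hp4_Dd_one, hp4_Dd_two, E4q]
  exact h

/-- `E₄(q²)³ Δ(q) Δ(q²) = (Δ(q) + 16 Δ(q²))³` over any ring. -/
theorem hp4_E4v2_D (R : Type*) [CommRing R] :
    V R 2 (E4q R) ^ 3 * Dd R 1 * Dd R 2 = (Dd R 1 + 16 * Dd R 2) ^ 3 := by
  have h := congrArg
    (fun f => HahnSeries.ofPowerSeries ℤ R (PowerSeries.map (Int.castRingHom R) f)) hp4_series_I2
  simp only [map_mul, map_pow, map_add, map_ofNat] at h
  rw [hp4_Dd_one, hp4_Dd_two, hp4_E4_two]
  exact h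

/-- `j(q) Δ(q)² Δ(q²) = (Δ(q) + 256 Δ(q²))³`. -/
theorem hp4_jD_one (R : Type*) [CommRing R] :
    jd R 1 * Dd R 1 ^ 2 * Dd R 2 = (Dd R 1 + 256 * Dd R 2) ^ 3 := by
  have h1 := hp4_jd_mul_Dd R 1
  rw [V_one] at h1
  rw [← hp4_E4_D, ← h1]
  ring

/-- `j(q²) Δ(q) Δ(q²)² = (Δ(q) + 16 Δ(q²))³`. -/
theorem hp4_jD_two (R : Type*) [CommRing R] :
    jd R 2 * Dd R 1 * Dd R 2 ^ 2 = (Dd R 1 + 16 * Dd R 2) ^ 3 := by
  rw [← hp4_E4v2_D, ← hp4_jd_mul_Dd R 2]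
  ring

/-- `j(q²) Δ(q²)² Δ(q⁴) = (Δ(q²) + 256 Δ(q⁴))³`. -/
theorem hp4_jD_two' (R : Type*) [CommRing R] :
    jd R 2 * Dd R 2 ^ 2 * Dd R 4 = (Dd R 2 + 256 * Dd R 4) ^ 3 := by
  have h := congrArg (V R 2) (hp4_jD_one R)
  simp only [map_mul, map_pow, map_add, map_ofNat, hp4_V2_jd_one, hp4_V2_Dd_one,
    hp4_V2_Dd_two] at h
  exact h

/-- `j(q⁴) Δ(q²) Δ(q⁴)² = (Δ(q²) + 16 Δ(q⁴))³`. -/
theorem hp4_jD_four (R : Type*) [CommRing R] :
    jd R 4 * Dd R 2 * Dd R 4 ^ 2 = (Dd R 2 + 16 * Dd R 4) ^ 3 := by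
  have h := congrArg (V R 2) (hp4_jD_two R)
  simp only [map_mul, map_pow, map_add, map_ofNat, hp4_V2_jd_two, hp4_V2_Dd_one,
    hp4_V2_Dd_two] at h
  exact h

/-! ### Leading terms of Laurent series over `ℤ` -/

/-- `x = q^n · p` with `p` a power series over `ℤ` with constant coefficient `1`. -/
def Hp4Lead (x : LaurentSeries ℤ) (n : ℤ) : Prop :=
  ∃ p : PowerSeries ℤ, constantCoeff p = 1 ∧
    x = HahnSeries.single n (1 : ℤ) * HahnSeries.ofPowerSeries ℤ ℤ p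

theorem hp4_single_add (n m : ℤ) :
    (HahnSeries.single (n + m) (1 : ℤ) : LaurentSeries ℤ) =
      HahnSeries.single n 1 * HahnSeries.single m 1 := by
  rw [HahnSeries.single_mul_single, mul_one]

theorem Hp4Lead.mul {x y : LaurentSeries ℤ} {n m : ℤ} (hx : Hp4Lead x n) (hy : Hp4Lead y m) :
    Hp4Lead (x * y) (n + m) := by
  obtain ⟨p, hp, rfl⟩ := hx
  obtain ⟨r, hr, rfl⟩ := hy
  refine ⟨p * r, by rw [map_mul, hp, hr, mul_one], ?_⟩
  rw [map_mul, hp4_single_add]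
  ring

theorem Hp4Lead.add_next {x : LaurentSeries ℤ} {n : ℤ} (hx : Hp4Lead x n) (r : PowerSeries ℤ) :
    Hp4Lead (x + HahnSeries.single (n + 1) (1 : ℤ) * HahnSeries.ofPowerSeries ℤ ℤ r) n := by
  obtain ⟨p, hp, rfl⟩ := hx
  refine ⟨p + X * r, by rw [map_add, map_mul, hp, constantCoeff_X, zero_mul, add_zero], ?_⟩
  rw [map_add, map_mul, HahnSeries.ofPowerSeries_X, hp4_single_add]
  ring

theorem Hp4Lead.exists_inv {x : LaurentSeries ℤ} {n : ℤ} (hx : Hp4Lead x n) :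
    ∃ y, Hp4Lead y (-n) ∧ x * y = 1 := by
  obtain ⟨p, hp, rfl⟩ := hx
  refine ⟨HahnSeries.single (-n) (1 : ℤ) * HahnSeries.ofPowerSeries ℤ ℤ (invOfUnit p 1),
    ⟨_, ?_, rfl⟩, ?_⟩
  · rw [constantCoeff_invOfUnit]
    rfl
  · have h1 : p * invOfUnit p 1 = 1 := mul_invOfUnit p 1 (by rw [hp]; rfl)
    have h2 : (HahnSeries.single n (1 : ℤ) : LaurentSeries ℤ) * HahnSeries.single (-n) 1 = 1 := by
      rw [HahnSeries.single_mul_single, add_neg_cancel, mul_one]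
      rfl
    calc HahnSeries.single n (1 : ℤ) * HahnSeries.ofPowerSeries ℤ ℤ p *
          (HahnSeries.single (-n) (1 : ℤ) * HahnSeries.ofPowerSeries ℤ ℤ (invOfUnit p 1))
        = (HahnSeries.single n (1 : ℤ) * HahnSeries.single (-n) 1) *
            HahnSeries.ofPowerSeries ℤ ℤ (p * invOfUnit p 1) := by
          rw [map_mul]
          ring
      _ = 1 := by rw [h1, h2, map_one, mul_one]

theorem Hp4Lead.isUnit {x : LaurentSeries ℤ} {n : ℤ} (hx : Hp4Lead x n) : IsUnit x := by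
  obtain ⟨y, -, h⟩ := hx.exists_inv
  exact IsUnit.of_mul_eq_one y h

theorem Hp4Lead.inverse {x : LaurentSeries ℤ} {n : ℤ} (hx : Hp4Lead x n) :
    Hp4Lead (Ring.inverse x) (-n) := by
  obtain ⟨y, hy, h⟩ := hx.exists_inv
  have h2 := Ring.inverse_mul_cancel x hx.isUnit
  have h3 : Ring.inverse x = y := by
    calc Ring.inverse x = Ring.inverse x * (x * y) := by rw [h, mul_one]
      _ = y := by rw [← mul_assoc, h2, one_mul]
  rw [h3]
  exact hy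

theorem hp4_map_castInt (p : PowerSeries ℤ) : p.map (Int.castRingHom ℤ) = p := by
  ext n
  simp

theorem hp4_V2_ofPowerSeries_int (p : PowerSeries ℤ) :
    V ℤ 2 (HahnSeries.ofPowerSeries ℤ ℤ p) = HahnSeries.ofPowerSeries ℤ ℤ (hp4V2 p) := by
  have h := hp4_V2_ofPowerSeries ℤ p
  rwa [hp4_map_castInt, hp4_map_castInt] at h

theorem hp4_V2_single (R : Type*) [CommRing R] (n : ℤ) (r : R) :
    V R 2 (HahnSeries.single n r) = HahnSeries.single (2 * n) r := by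
  rw [V_eq_qExpand, qExpand_single]
  rfl

theorem hp4_constantCoeff_V2 (p : PowerSeries ℤ) : constantCoeff (hp4V2 p) = constantCoeff p := by
  rw [← coeff_zero_eq_constantCoeff_apply, hp4V2, coeff_mk, if_pos (dvd_zero 2),
    coeff_zero_eq_constantCoeff_apply]

theorem Hp4Lead.V2 {x : LaurentSeries ℤ} {n : ℤ} (hx : Hp4Lead x n) :
    Hp4Lead (V ℤ 2 x) (2 * n) := by
  obtain ⟨p, hp, rfl⟩ := hx
  exact ⟨hp4V2 p, by rw [hp4_constantCoeff_V2, hp],
    by rw [map_mul, hp4_V2_single, hp4_V2_ofPowerSeries_int]⟩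

theorem Hp4Lead.coeff_self {x : LaurentSeries ℤ} {n : ℤ} (hx : Hp4Lead x n) : x.coeff n = 1 := by
  obtain ⟨p, hp, rfl⟩ := hx
  rw [HahnSeries.coeff_single_mul, sub_self, one_mul]
  have := HahnSeries.ofPowerSeries_apply_coeff (Γ := ℤ) p 0
  rw [Nat.cast_zero] at this
  rw [this, coeff_zero_eq_constantCoeff_apply, hp]

theorem Hp4Lead.coeff_lt {x : LaurentSeries ℤ} {n : ℤ} (hx : Hp4Lead x n) {m : ℤ} (hm : m < n) :
    x.coeff m = 0 := by
  obtain ⟨p, hp, rfl⟩ := hx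
  rw [HahnSeries.coeff_single_mul, ofPowerSeries_coeff_of_neg _ (by omega), mul_zero]

theorem Hp4Lead.ne_zero {x : LaurentSeries ℤ} {n : ℤ} (hx : Hp4Lead x n) : x ≠ 0 := by
  intro h
  have := hx.coeff_self
  rw [h] at this
  simp at this

/-! ### `u`, `w`, `h` over `ℤ` -/

theorem hp4_Dq_int :
    Dq ℤ = HahnSeries.single 1 (1 : ℤ) * HahnSeries.ofPowerSeries ℤ ℤ dedekindEtaUnit := by
  rw [Dq, hp4_map_castInt, DqZ, map_mul, HahnSeries.ofPowerSeries_X]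

theorem hp4_Dd_one_lead : Hp4Lead (Dd ℤ 1) 1 := by
  rw [Dd, V_one]
  exact ⟨dedekindEtaUnit, constantCoeff_dedekindEtaUnit, hp4_Dq_int⟩

theorem hp4_Dd_two_lead : Hp4Lead (Dd ℤ 2) 2 := by
  have h := hp4_Dd_one_lead.V2
  rwa [hp4_V2_Dd_one, mul_one] at h

theorem hp4_Dd_four_lead : Hp4Lead (Dd ℤ 4) 4 := by
  have h := hp4_Dd_two_lead.V2
  rwa [hp4_V2_Dd_two, show (2 : ℤ) * 2 = 4 by norm_num] at h

/-- `u = Δ(q)/Δ(q²)` over `ℤ`. -/
def hp4UZ : LaurentSeries ℤ := Dd ℤ 1 * Ring.inverse (Dd ℤ 2)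

/-- `w = Δ(q²)/Δ(q⁴)` over `ℤ`. -/
def hp4WZ : LaurentSeries ℤ := Dd ℤ 2 * Ring.inverse (Dd ℤ 4)

/-- the Hauptmodul `h = (w - 16 u)/(u + 16) = q⁻¹ - 8 + ...` of `X₀(4)` over `ℤ`. -/
def hp4HZ : LaurentSeries ℤ := (hp4WZ - 16 * hp4UZ) * Ring.inverse (hp4UZ + 16)

theorem hp4UZ_mul : hp4UZ * Dd ℤ 2 = Dd ℤ 1 := by
  rw [hp4UZ, mul_assoc, Ring.inverse_mul_cancel _ hp4_Dd_two_lead.isUnit, mul_one]

theorem hp4WZ_mul : hp4WZ * Dd ℤ 4 = Dd ℤ 2 := by
  rw [hp4WZ, mul_assoc, Ring.inverse_mul_cancel _ hp4_Dd_four_lead.isUnit, mul_one]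

theorem hp4UZ_lead : Hp4Lead hp4UZ (-1) := by
  have h := hp4_Dd_one_lead.mul hp4_Dd_two_lead.inverse
  rwa [show (1 : ℤ) + -2 = -1 by norm_num] at h

theorem hp4WZ_lead : Hp4Lead hp4WZ (-2) := by
  have h := hp4_Dd_two_lead.mul hp4_Dd_four_lead.inverse
  rwa [show (2 : ℤ) + -4 = -2 by norm_num] at h

theorem hp4UZ_add_lead : Hp4Lead (hp4UZ + 16) (-1) := by
  have h := hp4UZ_lead.add_next 16
  rwa [show (-1 : ℤ) + 1 = 0 by norm_num, HahnSeries.single_zero_one, one_mul,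
    map_ofNat (HahnSeries.ofPowerSeries ℤ ℤ) 16] at h

theorem hp4WZ_sub_lead : Hp4Lead (hp4WZ - 16 * hp4UZ) (-2) := by
  obtain ⟨p, hp, hU⟩ := hp4UZ_lead
  have h := hp4WZ_lead.add_next (-16 * p)
  have e : HahnSeries.single (-2 + 1) (1 : ℤ) * HahnSeries.ofPowerSeries ℤ ℤ (-16 * p) =
      -(16 * hp4UZ) := by
    rw [hU, map_mul, map_neg (HahnSeries.ofPowerSeries ℤ ℤ),
      map_ofNat (HahnSeries.ofPowerSeries ℤ ℤ) 16, show (-2 : ℤ) + 1 = -1 by norm_num]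
    ring
  rwa [e, ← sub_eq_add_neg] at h

theorem hp4HZ_lead : Hp4Lead hp4HZ (-1) := by
  have h := hp4WZ_sub_lead.mul hp4UZ_add_lead.inverse
  rwa [show (-2 : ℤ) + - -1 = -1 by norm_num] at h

theorem hp4HZ_mul : hp4HZ * (hp4UZ + 16) = hp4WZ - 16 * hp4UZ := by
  rw [hp4HZ, mul_assoc, Ring.inverse_mul_cancel _ hp4UZ_add_lead.isUnit, mul_one]

theorem hp4WZ_eq_V2 : hp4WZ = V ℤ 2 hp4UZ := by
  have h := congrArg (V ℤ 2) hp4UZ_mul
  rw [map_mul, hp4_V2_Dd_one, hp4_V2_Dd_two] at h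
  obtain ⟨y, -, hy⟩ := hp4_Dd_four_lead.exists_inv
  calc hp4WZ = hp4WZ * Dd ℤ 4 * y := by rw [mul_assoc, hy, mul_one]
    _ = V ℤ 2 hp4UZ * Dd ℤ 4 * y := by rw [hp4WZ_mul, h]
    _ = V ℤ 2 hp4UZ := by rw [mul_assoc, hy, mul_one]

/-! ### The relations over `ℤ` -/

theorem hp4Z_I1 : jd ℤ 1 * hp4UZ ^ 2 = (hp4UZ + 256) ^ 3 := by
  have h := hp4_jD_one ℤ
  rw [← hp4UZ_mul] at h
  apply mul_right_cancel₀ (pow_ne_zero 3 hp4_Dd_two_lead.ne_zero)
  linear_combination h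

theorem hp4Z_I2 : jd ℤ 2 * hp4UZ = (hp4UZ + 16) ^ 3 := by
  have h := hp4_jD_two ℤ
  rw [← hp4UZ_mul] at h
  apply mul_right_cancel₀ (pow_ne_zero 3 hp4_Dd_two_lead.ne_zero)
  linear_combination h

theorem hp4Z_I2' : jd ℤ 2 * hp4WZ ^ 2 = (hp4WZ + 256) ^ 3 := by
  have h := hp4_jD_two' ℤ
  rw [← hp4WZ_mul] at h
  apply mul_right_cancel₀ (pow_ne_zero 3 hp4_Dd_four_lead.ne_zero)
  linear_combination h

theorem hp4Z_I4 : jd ℤ 4 * hp4WZ = (hp4WZ + 16) ^ 3 := by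
  have h := hp4_jD_four ℤ
  rw [← hp4WZ_mul] at h
  apply mul_right_cancel₀ (pow_ne_zero 3 hp4_Dd_four_lead.ne_zero)
  linear_combination h

/-- the modular equation of level 2 in terms of `u = Δ(q)/Δ(q²)` and `w = u(q²)`. -/
theorem hp4Z_rel : hp4WZ ^ 2 = hp4UZ * hp4WZ * (hp4UZ + 48) + 4096 * hp4UZ := by
  have key : (hp4UZ * hp4WZ - 4096) *
      (hp4WZ ^ 2 - (hp4UZ * hp4WZ * (hp4UZ + 48) + 4096 * hp4UZ)) = 0 := by
    linear_combination hp4WZ ^ 2 * hp4Z_I2 - hp4UZ * hp4Z_I2'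
  have hne : hp4UZ * hp4WZ - 4096 ≠ 0 := by
    intro h0
    have h1 := (hp4UZ_lead.mul hp4WZ_lead).coeff_self
    have h2 : (hp4UZ * hp4WZ - 4096).coeff (-1 + -2) = 1 := by
      rw [HahnSeries.coeff_sub, h1, ← map_ofNat (HahnSeries.C (Γ := ℤ) (R := ℤ)) 4096,
        HahnSeries.C_apply, HahnSeries.coeff_single_of_ne (by norm_num), sub_zero]
    rw [h0] at h2
    simp at h2
  rcases mul_eq_zero.mp key with h | h
  · exact absurd h hne
  · exact sub_eq_zero.mp h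

theorem hp4Z_w : hp4WZ = hp4HZ * (hp4HZ + 16) := by
  have hA : hp4UZ + 16 ≠ 0 := hp4UZ_add_lead.ne_zero
  apply mul_right_cancel₀ (pow_ne_zero 2 hA)
  linear_combination (-1 : LaurentSeries ℤ) * hp4Z_rel -
    (hp4HZ * (hp4UZ + 16) + hp4WZ - 16 * hp4UZ + 16 * (hp4UZ + 16)) * hp4HZ_mul

theorem hp4Z_u : hp4UZ * (hp4HZ + 16) = hp4HZ ^ 2 := by
  have hA : hp4UZ + 16 ≠ 0 := hp4UZ_add_lead.ne_zero
  apply mul_right_cancel₀ (pow_ne_zero 2 hA)
  linear_combination (hp4UZ * (hp4UZ + 16) - hp4HZ * (hp4UZ + 16) - (hp4WZ - 16 * hp4UZ)) *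
    hp4HZ_mul - hp4Z_rel

theorem hp4Z_j1 :
    jd ℤ 1 * (hp4HZ ^ 4 * (hp4HZ + 16)) = (hp4HZ ^ 2 + 256 * hp4HZ + 4096) ^ 3 := by
  have hY := hp4Z_u
  calc jd ℤ 1 * (hp4HZ ^ 4 * (hp4HZ + 16))
      = jd ℤ 1 * hp4UZ ^ 2 * (hp4HZ + 16) ^ 3 := by
        rw [show hp4HZ ^ 4 = (hp4HZ ^ 2) ^ 2 by ring, ← hY]
        ring
    _ = (hp4UZ * (hp4HZ + 16) + 256 * (hp4HZ + 16)) ^ 3 := by rw [hp4Z_I1]; ring
    _ = (hp4HZ ^ 2 + 256 * hp4HZ + 4096) ^ 3 := by rw [hY]; ring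

theorem hp4Z_j2 :
    jd ℤ 2 * (hp4HZ ^ 2 * (hp4HZ + 16) ^ 2) = (hp4HZ ^ 2 + 16 * hp4HZ + 256) ^ 3 := by
  have hY := hp4Z_u
  calc jd ℤ 2 * (hp4HZ ^ 2 * (hp4HZ + 16) ^ 2)
      = jd ℤ 2 * hp4UZ * (hp4HZ + 16) ^ 3 := by rw [← hY]; ring
    _ = (hp4UZ * (hp4HZ + 16) + 16 * (hp4HZ + 16)) ^ 3 := by rw [hp4Z_I2]; ring
    _ = (hp4HZ ^ 2 + 16 * hp4HZ + 256) ^ 3 := by rw [hY]; ring

theorem hp4Z_j4 :
    jd ℤ 4 * (hp4HZ * (hp4HZ + 16)) = (hp4HZ ^ 2 + 16 * hp4HZ + 16) ^ 3 := by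
  rw [← hp4Z_w, hp4Z_I4, hp4Z_w]
  ring

theorem hp4HZ_add_lead : Hp4Lead (hp4HZ + 16) (-1) := by
  have h := hp4HZ_lead.add_next 16
  rwa [show (-1 : ℤ) + 1 = 0 by norm_num, HahnSeries.single_zero_one, one_mul,
    map_ofNat (HahnSeries.ofPowerSeries ℤ ℤ) 16] at h

/-! ### Over an arbitrary commutative ring -/

/-- `u = Δ(q)/Δ(q²)` as a Laurent series over `R`. -/
def hp4U (R : Type*) [CommRing R] : LaurentSeries R := coeffMap (Int.castRingHom R) hp4UZ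

/-- `w = Δ(q²)/Δ(q⁴)` as a Laurent series over `R`. -/
def hp4W (R : Type*) [CommRing R] : LaurentSeries R := coeffMap (Int.castRingHom R) hp4WZ

/-- the Hauptmodul `h = q⁻¹ - 8 + ...` of `X₀(4)` as a Laurent series over `R`. -/
def hp4H (R : Type*) [CommRing R] : LaurentSeries R := coeffMap (Int.castRingHom R) hp4HZ

theorem hp4_coeffMap_cast {R S : Type*} [CommRing R] [CommRing S] (f : R →+* S)
    (x : LaurentSeries ℤ) :
    coeffMap f (coeffMap (Int.castRingHom R) x) = coeffMap (Int.castRingHom S) x := by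
  rw [coeffMap_coeffMap, RingHom.ext_int (f.comp (Int.castRingHom R)) (Int.castRingHom S)]

theorem coeffMap_hp4U {R S : Type*} [CommRing R] [CommRing S] (f : R →+* S) :
    coeffMap f (hp4U R) = hp4U S := hp4_coeffMap_cast f _

theorem coeffMap_hp4W {R S : Type*} [CommRing R] [CommRing S] (f : R →+* S) :
    coeffMap f (hp4W R) = hp4W S := hp4_coeffMap_cast f _

theorem coeffMap_hp4H {R S : Type*} [CommRing R] [CommRing S] (f : R →+* S) :
    coeffMap f (hp4H R) = hp4H S := hp4_coeffMap_cast f _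

theorem hp4U_mul_Dd (R : Type*) [CommRing R] : hp4U R * Dd R 2 = Dd R 1 := by
  have h := congrArg (coeffMap (Int.castRingHom R)) hp4UZ_mul
  rwa [map_mul, coeffMap_Dd, coeffMap_Dd] at h

theorem hp4W_mul_Dd (R : Type*) [CommRing R] : hp4W R * Dd R 4 = Dd R 2 := by
  have h := congrArg (coeffMap (Int.castRingHom R)) hp4WZ_mul
  rwa [map_mul, coeffMap_Dd, coeffMap_Dd] at h

theorem hp4H_mul (R : Type*) [CommRing R] :
    hp4H R * (hp4U R + 16) = hp4W R - 16 * hp4U R := by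
  have h := congrArg (coeffMap (Int.castRingHom R)) hp4HZ_mul
  simp only [map_mul, map_add, map_sub, map_ofNat] at h
  exact h

theorem hp4W_eq_V2 (R : Type*) [CommRing R] : hp4W R = V R 2 (hp4U R) := by
  rw [hp4W, hp4WZ_eq_V2, coeffMap_V, hp4U]

/-- `j(q) u² = (u + 256)³`. -/
theorem hp4_I1 (R : Type*) [CommRing R] : jd R 1 * hp4U R ^ 2 = (hp4U R + 256) ^ 3 := by
  have h := congrArg (coeffMap (Int.castRingHom R)) hp4Z_I1
  simp only [map_mul, map_add, map_pow, map_ofNat, coeffMap_jd] at h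
  exact h

/-- `j(q²) u = (u + 16)³`. -/
theorem hp4_I2 (R : Type*) [CommRing R] : jd R 2 * hp4U R = (hp4U R + 16) ^ 3 := by
  have h := congrArg (coeffMap (Int.castRingHom R)) hp4Z_I2
  simp only [map_mul, map_add, map_pow, map_ofNat, coeffMap_jd] at h
  exact h

/-- `j(q²) w² = (w + 256)³`. -/
theorem hp4_I2' (R : Type*) [CommRing R] : jd R 2 * hp4W R ^ 2 = (hp4W R + 256) ^ 3 := by
  have h := congrArg (coeffMap (Int.castRingHom R)) hp4Z_I2'
  simp only [map_mul, map_add, map_pow, map_ofNat, coeffMap_jd] at h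
  exact h

/-- `j(q⁴) w = (w + 16)³`. -/
theorem hp4_I4 (R : Type*) [CommRing R] : jd R 4 * hp4W R = (hp4W R + 16) ^ 3 := by
  have h := congrArg (coeffMap (Int.castRingHom R)) hp4Z_I4
  simp only [map_mul, map_add, map_pow, map_ofNat, coeffMap_jd] at h
  exact h

/-- the level-2 modular equation `w² = u w (u + 48) + 4096 u`. -/
theorem hp4_rel (R : Type*) [CommRing R] :
    hp4W R ^ 2 = hp4U R * hp4W R * (hp4U R + 48) + 4096 * hp4U R := by
  have h := congrArg (coeffMap (Int.castRingHom R)) hp4Z_rel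
  simp only [map_mul, map_add, map_pow, map_ofNat] at h
  exact h

/-- `u (h + 16) = h²`. -/
theorem hp4_u (R : Type*) [CommRing R] : hp4U R * (hp4H R + 16) = hp4H R ^ 2 := by
  have h := congrArg (coeffMap (Int.castRingHom R)) hp4Z_u
  simp only [map_mul, map_add, map_pow, map_ofNat] at h
  exact h

/-- `w = h (h + 16)`. -/
theorem hp4_w (R : Type*) [CommRing R] : hp4W R = hp4H R * (hp4H R + 16) := by
  have h := congrArg (coeffMap (Int.castRingHom R)) hp4Z_w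
  simp only [map_mul, map_add, map_ofNat] at h
  exact h

/-- `u w = h³` (so `Δ(q) = h³ Δ(q⁴)`). -/
theorem hp4_uw (R : Type*) [CommRing R] : hp4U R * hp4W R = hp4H R ^ 3 := by
  rw [hp4_w]
  linear_combination hp4H R * hp4_u R

/-- `j(q) h⁴ (h + 16) = (h² + 256 h + 4096)³`. -/
theorem hp4_j1 (R : Type*) [CommRing R] :
    jd R 1 * (hp4H R ^ 4 * (hp4H R + 16)) = (hp4H R ^ 2 + 256 * hp4H R + 4096) ^ 3 := by
  have h := congrArg (coeffMap (Int.castRingHom R)) hp4Z_j1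
  simp only [map_mul, map_add, map_pow, map_ofNat, coeffMap_jd] at h
  exact h

/-- `j(q²) h² (h + 16)² = (h² + 16 h + 256)³`. -/
theorem hp4_j2 (R : Type*) [CommRing R] :
    jd R 2 * (hp4H R ^ 2 * (hp4H R + 16) ^ 2) = (hp4H R ^ 2 + 16 * hp4H R + 256) ^ 3 := by
  have h := congrArg (coeffMap (Int.castRingHom R)) hp4Z_j2
  simp only [map_mul, map_add, map_pow, map_ofNat, coeffMap_jd] at h
  exact h

/-- `j(q⁴) h (h + 16) = (h² + 16 h + 16)³`. -/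
theorem hp4_j4 (R : Type*) [CommRing R] :
    jd R 4 * (hp4H R * (hp4H R + 16)) = (hp4H R ^ 2 + 16 * hp4H R + 16) ^ 3 := by
  have h := congrArg (coeffMap (Int.castRingHom R)) hp4Z_j4
  simp only [map_mul, map_add, map_pow, map_ofNat, coeffMap_jd] at h
  exact h

/-! ### Leading terms over `R` -/

theorem hp4_lead_map (R : Type*) [CommRing R] {x : LaurentSeries ℤ} {n : ℤ} (hx : Hp4Lead x n) :
    ∃ p : PowerSeries ℤ, constantCoeff p = 1 ∧
      coeffMap (Int.castRingHom R) x = HahnSeries.single n (1 : R) *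
        HahnSeries.ofPowerSeries ℤ R (p.map (Int.castRingHom R)) := by
  obtain ⟨p, hp, rfl⟩ := hx
  exact ⟨p, hp, by rw [map_mul, coeffMap_single, coeffMap_ofPowerSeries, map_one]⟩

theorem hp4_lead_coeff (R : Type*) [CommRing R] {x : LaurentSeries ℤ} {n : ℤ} (hx : Hp4Lead x n) :
    (coeffMap (Int.castRingHom R) x).coeff n = 1 := by
  rw [coeffMap_coeff, hx.coeff_self, map_one]

theorem hp4_lead_coeff_lt (R : Type*) [CommRing R] {x : LaurentSeries ℤ} {n : ℤ}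
    (hx : Hp4Lead x n) {m : ℤ} (hm : m < n) : (coeffMap (Int.castRingHom R) x).coeff m = 0 := by
  rw [coeffMap_coeff, hx.coeff_lt hm, map_zero]

theorem hp4_lead_ne_zero (R : Type*) [CommRing R] [Nontrivial R] {x : LaurentSeries ℤ} {n : ℤ}
    (hx : Hp4Lead x n) : coeffMap (Int.castRingHom R) x ≠ 0 := by
  intro h
  have h1 := hp4_lead_coeff R hx
  rw [h] at h1
  simp at h1

theorem hp4_lead_isUnit (R : Type*) [CommRing R] {x : LaurentSeries ℤ} {n : ℤ}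
    (hx : Hp4Lead x n) : IsUnit (coeffMap (Int.castRingHom R) x) :=
  hx.isUnit.map _

/-- `h = q⁻¹ · (1 + ...)` with integral coefficients. -/
theorem hp4H_lead (R : Type*) [CommRing R] :
    ∃ p : PowerSeries ℤ, constantCoeff p = 1 ∧
      hp4H R = HahnSeries.single (-1) (1 : R) *
        HahnSeries.ofPowerSeries ℤ R (p.map (Int.castRingHom R)) :=
  hp4_lead_map R hp4HZ_lead

/-- `u = q⁻¹ · (1 + ...)` with integral coefficients. -/
theorem hp4U_lead (R : Type*) [CommRing R] :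
    ∃ p : PowerSeries ℤ, constantCoeff p = 1 ∧
      hp4U R = HahnSeries.single (-1) (1 : R) *
        HahnSeries.ofPowerSeries ℤ R (p.map (Int.castRingHom R)) :=
  hp4_lead_map R hp4UZ_lead

/-- `w = q⁻² · (1 + ...)` with integral coefficients. -/
theorem hp4W_lead (R : Type*) [CommRing R] :
    ∃ p : PowerSeries ℤ, constantCoeff p = 1 ∧
      hp4W R = HahnSeries.single (-2) (1 : R) *
        HahnSeries.ofPowerSeries ℤ R (p.map (Int.castRingHom R)) :=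
  hp4_lead_map R hp4WZ_lead

theorem hp4H_coeff_neg_one (R : Type*) [CommRing R] : (hp4H R).coeff (-1) = 1 :=
  hp4_lead_coeff R hp4HZ_lead

theorem hp4H_coeff_of_lt (R : Type*) [CommRing R] {m : ℤ} (hm : m < -1) :
    (hp4H R).coeff m = 0 :=
  hp4_lead_coeff_lt R hp4HZ_lead hm

theorem hp4H_isUnit (R : Type*) [CommRing R] : IsUnit (hp4H R) := hp4_lead_isUnit R hp4HZ_lead

theorem hp4U_isUnit (R : Type*) [CommRing R] : IsUnit (hp4U R) := hp4_lead_isUnit R hp4UZ_lead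

theorem hp4W_isUnit (R : Type*) [CommRing R] : IsUnit (hp4W R) := hp4_lead_isUnit R hp4WZ_lead

theorem hp4H_add_isUnit (R : Type*) [CommRing R] : IsUnit (hp4H R + 16) := by
  have h := hp4_lead_isUnit R hp4HZ_add_lead
  rwa [map_add, map_ofNat] at h

theorem hp4U_add_isUnit (R : Type*) [CommRing R] : IsUnit (hp4U R + 16) := by
  have h := hp4_lead_isUnit R hp4UZ_add_lead
  rwa [map_add, map_ofNat] at h

theorem hp4H_ne_zero (R : Type*) [CommRing R] [Nontrivial R] : hp4H R ≠ 0 :=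
  hp4_lead_ne_zero R hp4HZ_lead

theorem hp4H_add_ne_zero (R : Type*) [CommRing R] [Nontrivial R] : hp4H R + 16 ≠ 0 := by
  have h := hp4_lead_ne_zero R hp4HZ_add_lead
  rwa [map_add, map_ofNat] at h

theorem hp4U_add_ne_zero (R : Type*) [CommRing R] [Nontrivial R] : hp4U R + 16 ≠ 0 := by
  have h := hp4_lead_ne_zero R hp4UZ_add_lead
  rwa [map_add, map_ofNat] at h

/-! ### Over a field -/

theorem hp4U_eq_div (K : Type*) [Field K] : hp4U K = Dd K 1 / Dd K 2 :=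
  eq_div_of_mul_eq (Dd_ne_zero K two_ne_zero) (hp4U_mul_Dd K)

theorem hp4W_eq_div (K : Type*) [Field K] : hp4W K = Dd K 2 / Dd K 4 :=
  eq_div_of_mul_eq (Dd_ne_zero K (by norm_num)) (hp4W_mul_Dd K)

theorem hp4H_eq_div (K : Type*) [Field K] :
    hp4H K = (hp4W K - 16 * hp4U K) / (hp4U K + 16) :=
  eq_div_of_mul_eq (hp4U_add_ne_zero K) (hp4H_mul K)

theorem hp4U_eq_div_H (K : Type*) [Field K] : hp4U K = hp4H K ^ 2 / (hp4H K + 16) :=
  eq_div_of_mul_eq (hp4H_add_ne_zero K) (hp4_u K)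

theorem hp4_jd_one_eq (K : Type*) [Field K] :
    jd K 1 = (hp4H K ^ 2 + 256 * hp4H K + 4096) ^ 3 / (hp4H K ^ 4 * (hp4H K + 16)) :=
  eq_div_of_mul_eq (mul_ne_zero (pow_ne_zero 4 (hp4H_ne_zero K)) (hp4H_add_ne_zero K)) (hp4_j1 K)

theorem hp4_jd_two_eq (K : Type*) [Field K] :
    jd K 2 = (hp4H K ^ 2 + 16 * hp4H K + 256) ^ 3 / (hp4H K ^ 2 * (hp4H K + 16) ^ 2) :=
  eq_div_of_mul_eq (mul_ne_zero (pow_ne_zero 2 (hp4H_ne_zero K))
    (pow_ne_zero 2 (hp4H_add_ne_zero K))) (hp4_j2 K)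

theorem hp4_jd_four_eq (K : Type*) [Field K] :
    jd K 4 = (hp4H K ^ 2 + 16 * hp4H K + 16) ^ 3 / (hp4H K * (hp4H K + 16)) :=
  eq_div_of_mul_eq (mul_ne_zero (hp4H_ne_zero K) (hp4H_add_ne_zero K)) (hp4_j4 K)

/-! ### `Ft 4 = ℚ(h)` -/

theorem hp4H_mem_Ft : hp4H ℚ ∈ Ft 4 := by
  have hu : hp4U ℚ ∈ Ft 4 := by
    rw [hp4U_eq_div]
    exact Dd_div_mem_Ft (one_dvd 4) (by norm_num)
  have hw : hp4W ℚ ∈ Ft 4 := by
    rw [hp4W_eq_div]
    exact Dd_div_mem_Ft (by norm_num) dvd_rfl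
  rw [hp4H_eq_div]
  exact (Ft 4).div_mem ((Ft 4).sub_mem hw ((Ft 4).mul_mem (ofNat_mem (Ft 4) 16) hu))
    ((Ft 4).add_mem hu (ofNat_mem (Ft 4) 16))

theorem hp4_Ft_four : Ft 4 = IntermediateField.adjoin ℚ {hp4H ℚ} := by
  set S := IntermediateField.adjoin ℚ {hp4H ℚ} with hS
  have hh : hp4H ℚ ∈ S := IntermediateField.mem_adjoin_simple_self ℚ _
  have hh16 : hp4H ℚ + 16 ∈ S := S.add_mem hh (ofNat_mem S 16)
  have hu : hp4U ℚ ∈ S := by
    rw [hp4U_eq_div_H]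
    exact S.div_mem (S.pow_mem hh 2) hh16
  have hw : hp4W ℚ ∈ S := by
    rw [hp4_w]
    exact S.mul_mem hh hh16
  have hD4 : Dd ℚ 4 ≠ 0 := Dd_ne_zero ℚ (by norm_num)
  have hr : ∀ d, d ∣ 4 → Dd ℚ d / Dd ℚ 4 ∈ S := by
    intro d hd
    have hd' : d ∈ Nat.divisors 4 := Nat.mem_divisors.mpr ⟨hd, by norm_num⟩
    rw [show Nat.divisors 4 = {1, 2, 4} by decide] at hd'
    simp only [Finset.mem_insert, Finset.mem_singleton] at hd'
    rcases hd' with rfl | rfl | rfl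
    · have : Dd ℚ 1 / Dd ℚ 4 = hp4U ℚ * hp4W ℚ := by
        rw [hp4U_eq_div, hp4W_eq_div]
        field_simp [Dd_ne_zero ℚ (two_ne_zero)]
      rw [this]
      exact S.mul_mem hu hw
    · rw [← hp4W_eq_div]
      exact hw
    · rw [div_self hD4]
      exact S.one_mem
  apply le_antisymm
  · rw [Ft, IntermediateField.adjoin_le_iff]
    rintro x (⟨d, hd, rfl⟩ | ⟨d, e, hd, he, rfl⟩)
    · have hd' : d ∈ Nat.divisors 4 := Nat.mem_divisors.mpr ⟨hd, by norm_num⟩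
      rw [show Nat.divisors 4 = {1, 2, 4} by decide] at hd'
      simp only [Finset.mem_insert, Finset.mem_singleton] at hd'
      have h256 : hp4H ℚ ^ 2 + 256 * hp4H ℚ + 4096 ∈ S :=
        S.add_mem (S.add_mem (S.pow_mem hh 2) (S.mul_mem (ofNat_mem S 256) hh)) (ofNat_mem S 4096)
      have h16 : hp4H ℚ ^ 2 + 16 * hp4H ℚ + 256 ∈ S :=
        S.add_mem (S.add_mem (S.pow_mem hh 2) (S.mul_mem (ofNat_mem S 16) hh)) (ofNat_mem S 256)
      have h1 : hp4H ℚ ^ 2 + 16 * hp4H ℚ + 16 ∈ S :=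
        S.add_mem (S.add_mem (S.pow_mem hh 2) (S.mul_mem (ofNat_mem S 16) hh)) (ofNat_mem S 16)
      rcases hd' with rfl | rfl | rfl
      · rw [SetLike.mem_coe, hp4_jd_one_eq]
        exact S.div_mem (S.pow_mem h256 3) (S.mul_mem (S.pow_mem hh 4) hh16)
      · rw [SetLike.mem_coe, hp4_jd_two_eq]
        exact S.div_mem (S.pow_mem h16 3) (S.mul_mem (S.pow_mem hh 2) (S.pow_mem hh16 2))
      · rw [SetLike.mem_coe, hp4_jd_four_eq]
        exact S.div_mem (S.pow_mem h1 3) (S.mul_mem hh hh16)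
    · rw [SetLike.mem_coe, ← div_div_div_cancel_right₀ hD4 (Dd ℚ d) (Dd ℚ e)]
      exact S.div_mem (hr d hd) (hr e he)
  · rw [hS, IntermediateField.adjoin_simple_le_iff]
    exact hp4H_mem_Ft

end Fermat.Agent.S18
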