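import Mathlib
import Fermat.Agent.S28.Defs
import Fermat.Agent.S28.ValRing
import Fermat.Agent.S28.FundIneq
import Fermat.Agent.S28.RelrankFt
import Fermat.Agent.S28.Induction
import Fermat.Agent.S18.Haupt4

/-!
# S18, package HAUPT4DEG: the degree of the `h`-line over the `j`-line

`h = hp4H K` is the Hauptmodul of `X₀(4)` of `Haupt4.lean`.

* `hp4H_aeval_ne_zero`, `hp4H_transcendental`: `h` is transcendental over the constants;
* `hp4_relfinrank_of_rel`: abstract degree formula `[K(h) : K(N(h)/D(h))] = max (deg N) (deg D)`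
  for a transcendental `h` (from Mathlib's `RatFunc.finrank_eq_max_natDegree`);
* `hp4_relfinrank`, `hp4_relrank`: `[K(h) : K(j)] = 6` for every field `K` with `2 ≠ 0`;
* `hp4_relrank_Qj`, `hp4_relrank_kj`: the same for the `Subfield`s used by S28;
* `hp4_mobius`: `K((a h + b)/(c h + d)) = K(h)`;
* level `M` with `4 ∣ M`: `h ∈ Ft M`, `h̄ ∈ kappa ℓ M`, and the degrees of `Ft M` over `ℚ(h)` and
  of `kappa ℓ M` over `𝔽_ℓ(h̄)` are both `psi M / 6`.
-/

set_option autoImplicit false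

open ModularCurve Polynomial
open Fermat.Agent.S28
open scoped IntermediateField

noncomputable section

namespace Fermat.Agent.S18

/-! ### Transcendence of `h` -/

theorem Hp4Lead.one : Hp4Lead 1 0 :=
  ⟨1, map_one _, by rw [HahnSeries.single_zero_one, map_one, mul_one]⟩

theorem Hp4Lead.pow {x : LaurentSeries ℤ} {n : ℤ} (hx : Hp4Lead x n) (k : ℕ) :
    Hp4Lead (x ^ k) (k * n) := by
  induction k with
  | zero =>
    rw [pow_zero, Nat.cast_zero, zero_mul]
    exact Hp4Lead.one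
  | succ k ih =>
    have h := ih.mul hx
    rw [pow_succ, show ((k + 1 : ℕ) : ℤ) * n = (k : ℤ) * n + n by push_cast; ring]
    exact h

theorem hp4H_coeff_pow_self (R : Type*) [CommRing R] (n : ℕ) :
    (hp4H R ^ n).coeff (-(n : ℤ)) = 1 := by
  have h := hp4_lead_coeff R (hp4HZ_lead.pow n)
  rw [map_pow, mul_neg_one] at h
  exact h

theorem hp4H_coeff_pow_of_lt (R : Type*) [CommRing R] {n : ℕ} {m : ℤ} (hm : m < -(n : ℤ)) :
    (hp4H R ^ n).coeff m = 0 := by
  have h := hp4_lead_coeff_lt R (hp4HZ_lead.pow n) (m := m) (by rw [mul_neg_one]; exact hm)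
  rw [map_pow] at h
  exact h

/-- `h` satisfies no nonzero polynomial over the coefficient ring. -/
theorem hp4H_aeval_ne_zero (R : Type*) [CommRing R] (P : Polynomial R) (hP : P ≠ 0) :
    Polynomial.aeval (hp4H R) P ≠ 0 := by
  intro h
  have hc := congrArg (fun z => HahnSeries.coeff z (-(P.natDegree : ℤ))) h
  simp only [HahnSeries.coeff_zero] at hc
  rw [Polynomial.aeval_eq_sum_range, HahnSeries.coeff_sum, Finset.sum_range_succ] at hc
  rw [Finset.sum_eq_zero, zero_add, Algebra.smul_def, valRing_coeff_algebraMap_mul,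
    hp4H_coeff_pow_self, mul_one] at hc
  · exact hP (Polynomial.leadingCoeff_eq_zero.mp hc)
  · intro i hi
    have hi' : i < P.natDegree := Finset.mem_range.mp hi
    rw [Algebra.smul_def, valRing_coeff_algebraMap_mul, hp4H_coeff_pow_of_lt R (by omega),
      mul_zero]

theorem hp4H_transcendental (K : Type*) [Field K] : Transcendental K (hp4H K) := by
  rw [transcendental_iff]
  intro P hP
  by_contra h0
  exact hp4H_aeval_ne_zero K P h0 hP

/-! ### The abstract degree formula -/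

/-- numerator/denominator of a reduced fraction with monic denominator. -/
theorem hp4_num_denom {K : Type*} [Field K] (N D : K[X]) (hcop : IsCoprime N D) (hD : D.Monic) :
    (algebraMap K[X] (RatFunc K) N / algebraMap K[X] (RatFunc K) D).num = N ∧
    (algebraMap K[X] (RatFunc K) N / algebraMap K[X] (RatFunc K) D).denom = D := by
  classical
  have hg : gcd N D = 1 := by
    have h1 : IsUnit (gcd N D) := (gcd_isUnit_iff N D).mpr hcop
    rw [← normalize_gcd]
    exact normalize_eq_one.mpr h1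
  have hD0 : D ≠ 0 := hD.ne_zero
  rw [RatFunc.num_div, RatFunc.denom_div _ hD0, hg]
  simp [hD]

/-- Degree of a transcendental generator `h` over the field generated by `j = N(h)/D(h)`,
`N`, `D` coprime, `D` monic. -/
theorem hp4_relfinrank_of_rel {K L : Type*} [Field K] [Field L] [Algebra K L] (h j : L)
    (hh : Transcendental K h) (N D : K[X]) (hcop : IsCoprime N D) (hD : D.Monic)
    (hj : j * aeval h D = aeval h N) :
    K⟮j⟯ ≤ K⟮h⟯ ∧
      IntermediateField.relfinrank K⟮j⟯ K⟮h⟯ = max N.natDegree D.natDegree := by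
  set e := RatFunc.algEquivOfTranscendental h hh with he
  set ι : RatFunc K →ₐ[K] L := (K⟮h⟯.val).comp (e : RatFunc K →ₐ[K] K⟮h⟯) with hι
  set g : RatFunc K := algebraMap K[X] (RatFunc K) N / algebraMap K[X] (RatFunc K) D with hg
  obtain ⟨hnum, hden⟩ := hp4_num_denom N D hcop hD
  have hD0 : aeval h D ≠ 0 := fun h0 => hD.ne_zero (transcendental_iff.mp hh D h0)
  have hιg : ι g = j := by
    have h1 : ι g = aeval h g.num / aeval h g.denom := by
      rw [hι]
      exact RatFunc.algEquivOfTranscendental_apply h hh g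
    rw [h1, hnum, hden, ← hj, mul_div_cancel_right₀ _ hD0]
  have hmapg : (K⟮g⟯).map ι = K⟮j⟯ := by
    rw [IntermediateField.adjoin_map, Set.image_singleton, hιg]
  have hmaptop : (⊤ : IntermediateField K (RatFunc K)).map ι = K⟮h⟯ := by
    rw [← AlgHom.fieldRange_eq_map]
    ext x
    rw [AlgHom.mem_fieldRange]
    constructor
    · rintro ⟨y, rfl⟩
      exact (e y).2
    · intro hx
      exact ⟨e.symm ⟨x, hx⟩, by simp [hι]⟩
  refine ⟨?_, ?_⟩
  · rw [← hmapg, ← hmaptop]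
    exact IntermediateField.map_mono ι le_top
  · rw [← hmapg, ← hmaptop, IntermediateField.relfinrank_map_map,
      IntermediateField.relfinrank_top_right, RatFunc.finrank_eq_max_natDegree, hnum, hden]

/-! ### `[K(h) : K(j)] = 6` in characteristic `≠ 2` -/

/-- numerator of `j` as a rational function of `h`. -/
def hp4Num (K : Type*) [Field K] : K[X] := (X ^ 2 + C 256 * X + C 4096) ^ 3

/-- denominator of `j` as a rational function of `h`. -/
def hp4Den (K : Type*) [Field K] : K[X] := X ^ 4 * (X + C 16)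

theorem hp4Den_monic (K : Type*) [Field K] : (hp4Den K).Monic :=
  (monic_X_pow 4).mul (monic_X_add_C 16)

theorem hp4Num_natDegree (K : Type*) [Field K] : (hp4Num K).natDegree = 6 := by
  rw [hp4Num]
  compute_degree!

theorem hp4Den_natDegree (K : Type*) [Field K] : (hp4Den K).natDegree = 5 := by
  rw [hp4Den]
  compute_degree!

theorem hp4_isCoprime (K : Type*) [Field K] (h2 : (2 : K) ≠ 0) :
    IsCoprime (hp4Num K) (hp4Den K) := by
  have h4096 : (4096 : K) ≠ 0 := by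
    rw [show (4096 : K) = 2 ^ 12 by norm_num]
    exact pow_ne_zero 12 h2
  have h256 : (256 : K) ≠ 0 := by
    rw [show (256 : K) = 2 ^ 8 by norm_num]
    exact pow_ne_zero 8 h2
  have e1 : (C (4096⁻¹ : K)) * C 4096 = 1 := by
    rw [← C_mul, inv_mul_cancel₀ h4096, C_1]
  have e2 : (C (256⁻¹ : K)) * C 256 = 1 := by
    rw [← C_mul, inv_mul_cancel₀ h256, C_1]
  have e3 : (C (240 : K)) * C 16 + C 256 = C 4096 := by
    rw [← C_mul, ← C_add]
    norm_num
  have e4 : (C (240 : K)) + C 16 = C 256 := by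
    rw [← C_add]
    norm_num
  have c1 : IsCoprime (X ^ 2 + C 256 * X + C 4096 : K[X]) X :=
    ⟨C (4096⁻¹ : K), -(C (4096⁻¹ : K) * (X + C 256)), by linear_combination e1⟩
  have c2 : IsCoprime (X ^ 2 + C 256 * X + C 4096 : K[X]) (X + C 16) :=
    ⟨C (256⁻¹ : K), -(C (256⁻¹ : K) * (X + C 240)), by
      linear_combination e2 - C (256⁻¹ : K) * e3 - C (256⁻¹ : K) * X * e4⟩
  rw [hp4Num, hp4Den]
  exact (IsCoprime.mul_right c1.pow_right c2).pow_left

theorem hp4_aeval_num (K : Type*) [Field K] :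
    aeval (hp4H K) (hp4Num K) = (hp4H K ^ 2 + 256 * hp4H K + 4096) ^ 3 := by
  rw [hp4Num]
  simp only [map_pow, map_add, map_mul, aeval_X, map_ofNat]

theorem hp4_aeval_den (K : Type*) [Field K] :
    aeval (hp4H K) (hp4Den K) = hp4H K ^ 4 * (hp4H K + 16) := by
  rw [hp4Den]
  simp only [map_pow, map_add, map_mul, aeval_X, map_ofNat]

theorem hp4_adjoin_le (K : Type*) [Field K] (h2 : (2 : K) ≠ 0) :
    K⟮jd K 1⟯ ≤ K⟮hp4H K⟯ :=
  (hp4_relfinrank_of_rel (hp4H K) (jd K 1) (hp4H_transcendental K) (hp4Num K) (hp4Den K)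
    (hp4_isCoprime K h2) (hp4Den_monic K)
    (by rw [hp4_aeval_num, hp4_aeval_den]; exact hp4_j1 K)).1

/-- `[K(h) : K(j)] = 6`. -/
theorem hp4_relfinrank (K : Type*) [Field K] (h2 : (2 : K) ≠ 0) :
    IntermediateField.relfinrank K⟮jd K 1⟯ K⟮hp4H K⟯ = 6 := by
  have h := (hp4_relfinrank_of_rel (hp4H K) (jd K 1) (hp4H_transcendental K) (hp4Num K)
    (hp4Den K) (hp4_isCoprime K h2) (hp4Den_monic K)
    (by rw [hp4_aeval_num, hp4_aeval_den]; exact hp4_j1 K)).2
  rw [h, hp4Num_natDegree, hp4Den_natDegree]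
  rfl

/-- `[K(h) : K(j)] = 6` as a cardinal. -/
theorem hp4_relrank (K : Type*) [Field K] (h2 : (2 : K) ≠ 0) :
    IntermediateField.relrank K⟮jd K 1⟯ K⟮hp4H K⟯ = 6 := by
  have h := hp4_relfinrank K h2
  rw [IntermediateField.relfinrank] at h
  have h6 : ((6 : ℕ) : Cardinal) = 6 := by norm_num
  rw [← h6]
  exact (Cardinal.toNat_eq_iff (by norm_num)).mp h

/-! ### Subfield forms over `ℚ` and `𝔽_ℓ` -/

theorem hp4_adjoin_toSubfield_rat (x : LaurentSeries ℚ) :
    (ℚ⟮x⟯).toSubfield = Subfield.closure {x} := by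
  rw [IntermediateField.adjoin_toSubfield]
  apply le_antisymm
  · rw [Subfield.closure_le]
    rintro y (⟨q, rfl⟩ | hy)
    · rw [eq_ratCast]
      exact SubfieldClass.ratCast_mem _ q
    · exact Subfield.subset_closure hy
  · exact Subfield.closure_mono Set.subset_union_right

theorem hp4_adjoin_toSubfield_zmod (ℓ : ℕ) [Fact ℓ.Prime] (x : LaurentSeries (ZMod ℓ)) :
    ((ZMod ℓ)⟮x⟯).toSubfield = Subfield.closure {x} := by
  rw [IntermediateField.adjoin_toSubfield]
  apply le_antisymm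
  · rw [Subfield.closure_le]
    rintro y (⟨c, rfl⟩ | hy)
    · rw [← ZMod.natCast_zmod_val c, map_natCast]
      exact natCast_mem _ _
    · exact Subfield.subset_closure hy
  · exact Subfield.closure_mono Set.subset_union_right

theorem hp4_two_ne_zero (ℓ : ℕ) [Fact ℓ.Prime] (hℓ : ℓ ≠ 2) : (2 : ZMod ℓ) ≠ 0 := by
  intro h
  have h1 : ((2 : ℕ) : ZMod ℓ) = 0 := by exact_mod_cast h
  rw [ZMod.natCast_eq_zero_iff] at h1
  exact hℓ ((Nat.prime_dvd_prime_iff_eq (Fact.out : ℓ.Prime) Nat.prime_two).mp h1)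

/-- `[ℚ(h) : ℚ(j)] = 6`. -/
theorem hp4_relrank_Qj : Subfield.relrank (Qj 1) (Subfield.closure {hp4H ℚ}) = 6 := by
  have h := hp4_relrank ℚ (by norm_num)
  rw [IntermediateField.relrank, hp4_adjoin_toSubfield_rat, hp4_adjoin_toSubfield_rat] at h
  exact h

theorem hp4_Qj_le : Qj 1 ≤ Subfield.closure {hp4H ℚ} := by
  have h := hp4_adjoin_le ℚ (by norm_num)
  have hj : jd ℚ 1 ∈ (ℚ⟮hp4H ℚ⟯).toSubfield := h (IntermediateField.mem_adjoin_simple_self ℚ _)
  rw [hp4_adjoin_toSubfield_rat] at hj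
  rw [Qj, Subfield.closure_le]
  rintro x rfl
  exact hj

/-- `[𝔽_ℓ(h̄) : 𝔽_ℓ(j̄)] = 6` for `ℓ` odd. -/
theorem hp4_relrank_kj (ℓ : ℕ) [Fact ℓ.Prime] (hℓ : ℓ ≠ 2) :
    Subfield.relrank (kj ℓ 1) (Subfield.closure {hp4H (ZMod ℓ)}) = 6 := by
  have h := hp4_relrank (ZMod ℓ) (hp4_two_ne_zero ℓ hℓ)
  rw [IntermediateField.relrank, hp4_adjoin_toSubfield_zmod, hp4_adjoin_toSubfield_zmod] at h
  exact h

theorem hp4_kj_le (ℓ : ℕ) [Fact ℓ.Prime] (hℓ : ℓ ≠ 2) :
    kj ℓ 1 ≤ Subfield.closure {hp4H (ZMod ℓ)} := by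
  have h := hp4_adjoin_le (ZMod ℓ) (hp4_two_ne_zero ℓ hℓ)
  have hj : jd (ZMod ℓ) 1 ∈ ((ZMod ℓ)⟮hp4H (ZMod ℓ)⟯).toSubfield :=
    h (IntermediateField.mem_adjoin_simple_self (ZMod ℓ) _)
  rw [hp4_adjoin_toSubfield_zmod] at hj
  rw [kj, Subfield.closure_le]
  rintro x rfl
  exact hj

/-! ### Level `M` with `4 ∣ M` -/

theorem hp4H_mem_Ft_of_dvd {M : ℕ} (hM : 4 ∣ M) : hp4H ℚ ∈ Ft M := Ft_mono hM hp4H_mem_Ft

theorem hp4H_eq_toQ (ℓ : ℕ) : hp4H ℚ = toQ ℓ (hp4H (Oℓ ℓ)) := (coeffMap_hp4H _).symm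

theorem hp4H_mem_Vw (ℓ : ℕ) [Fact ℓ.Prime] : hp4H ℚ ∈ Vw ℓ := by
  rw [hp4H_eq_toQ ℓ]
  exact toQ_mem_Vw ℓ _

/-- the reduction of `h` is `h` over `𝔽_ℓ`. -/
theorem hp4_rho (ℓ : ℕ) [Fact ℓ.Prime] : rho ℓ ⟨hp4H ℚ, hp4H_mem_Vw ℓ⟩ = hp4H (ZMod ℓ) := by
  have h := rho_toQ ℓ (hp4H (Oℓ ℓ))
  have e : (⟨hp4H ℚ, hp4H_mem_Vw ℓ⟩ : Vw ℓ) = ⟨toQ ℓ (hp4H (Oℓ ℓ)), toQ_mem_Vw ℓ _⟩ :=
    Subtype.ext (hp4H_eq_toQ ℓ)
  rw [e, h]
  exact coeffMap_hp4H _

theorem hp4H_mem_kappa (ℓ : ℕ) [Fact ℓ.Prime] {M : ℕ} (hM : 4 ∣ M) :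
    hp4H (ZMod ℓ) ∈ kappa ℓ M :=
  ⟨⟨hp4H ℚ, hp4H_mem_Vw ℓ⟩, hp4H_mem_Ft_of_dvd hM, hp4_rho ℓ⟩

/-- tower law: `6 · [Ft M : ℚ(h)] = [Ft M : ℚ(j)]`. -/
theorem hp4_relrank_Ft {M : ℕ} (hM : 4 ∣ M) :
    6 * Subfield.relrank (Subfield.closure {hp4H ℚ}) (Ft M).toSubfield =
      Subfield.relrank (Qj 1) (Ft M).toSubfield := by
  rw [← hp4_relrank_Qj]
  refine Subfield.relrank_mul_relrank hp4_Qj_le ?_
  rw [Subfield.closure_le]
  rintro x rfl
  exact hp4H_mem_Ft_of_dvd hM

/-- tower law: `6 · [kappa ℓ M : 𝔽_ℓ(h̄)] = [kappa ℓ M : 𝔽_ℓ(j̄)]`. -/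
theorem hp4_relrank_kappa (ℓ : ℕ) [Fact ℓ.Prime] (hℓ : ℓ ≠ 2) {M : ℕ} (hM : 4 ∣ M) :
    6 * Subfield.relrank (Subfield.closure {hp4H (ZMod ℓ)}) (kappa ℓ M) =
      Subfield.relrank (kj ℓ 1) (kappa ℓ M) := by
  rw [← hp4_relrank_kj ℓ hℓ]
  refine Subfield.relrank_mul_relrank (hp4_kj_le ℓ hℓ) ?_
  rw [Subfield.closure_le]
  rintro x rfl
  exact hp4H_mem_kappa ℓ hM

/-- S28: both `j`-line degrees equal `psi M` when `ℓ ∤ M`. -/
theorem hp4_relrank_j_eq_psi (ℓ : ℕ) [Fact ℓ.Prime] {M : ℕ} (hM : 0 < M) (hℓM : ¬ ℓ ∣ M) :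
    Subfield.relrank (Qj 1) (Ft M).toSubfield = (psi M : Cardinal) ∧
      Subfield.relrank (kj ℓ 1) (kappa ℓ M) = (psi M : Cardinal) := by
  have h1 := relrank_Ft_le M 1 hM (one_dvd M)
  have h2 := relrank_kappa_le ℓ M 1 hM (one_dvd M)
  have h3 := psi_le_relrank ℓ M hM hℓM
  rw [← relrank_one_eq ℓ M hM hℓM] at h3
  exact ⟨le_antisymm h1 (h3.trans h2), le_antisymm (h2.trans h1) h3⟩

theorem hp4_card_div {a : Cardinal} {n : ℕ} (h : 6 * a = (n : Cardinal)) :
    a = ((n / 6 : ℕ) : Cardinal) := by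
  have ha : a < Cardinal.aleph0 := by
    by_contra hge
    rw [not_lt] at hge
    have h1 : Cardinal.aleph0 ≤ 6 * a :=
      hge.trans (Cardinal.le_mul_left (by norm_num))
    rw [h] at h1
    exact absurd (Cardinal.natCast_lt_aleph0 (n := n)) (not_lt.mpr h1)
  obtain ⟨m, rfl⟩ := Cardinal.lt_aleph0.mp ha
  have h2 : 6 * m = n := by exact_mod_cast h
  congr 1
  omega

/-- the `h`-line degrees in characteristic `0` and `ℓ` agree: both are `psi M / 6`. -/
theorem hp4_relrank_eq_psi (ℓ : ℕ) [Fact ℓ.Prime] (hℓ : ℓ ≠ 2) {M : ℕ} (hM : 4 ∣ M)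
    (hM0 : 0 < M) (hℓM : ¬ ℓ ∣ M) :
    Subfield.relrank (Subfield.closure {hp4H ℚ}) (Ft M).toSubfield = ((psi M / 6 : ℕ) : Cardinal) ∧
      Subfield.relrank (Subfield.closure {hp4H (ZMod ℓ)}) (kappa ℓ M) =
        ((psi M / 6 : ℕ) : Cardinal) := by
  obtain ⟨h1, h2⟩ := hp4_relrank_j_eq_psi ℓ hM0 hℓM
  exact ⟨hp4_card_div ((hp4_relrank_Ft hM).trans h1),
    hp4_card_div ((hp4_relrank_kappa ℓ hℓ hM).trans h2)⟩

/-! ### Moebius changes of the coordinate -/

theorem hp4_mobius {K L : Type*} [Field K] [Field L] [Algebra K L] (h : L)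
    (hh : Transcendental K h) (a b c d : K) (hdet : a * d - b * c ≠ 0) :
    K⟮(algebraMap K L a * h + algebraMap K L b) / (algebraMap K L c * h + algebraMap K L d)⟯ =
      K⟮h⟯ := by
  set u := (algebraMap K L a * h + algebraMap K L b) / (algebraMap K L c * h + algebraMap K L d)
    with hu
  have hden : algebraMap K L c * h + algebraMap K L d ≠ 0 := by
    intro h0
    have h1 : aeval h (C c * X + C d : K[X]) = 0 := by
      simpa using h0
    have h2 := transcendental_iff.mp hh _ h1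
    have hc : c = 0 := by
      have := congrArg (fun p => Polynomial.coeff p 1) h2
      simpa using this
    have hd : d = 0 := by
      have := congrArg (fun p => Polynomial.coeff p 0) h2
      simpa using this
    apply hdet
    rw [hc, hd]
    ring
  have hrel : u * (algebraMap K L c * h + algebraMap K L d) =
      algebraMap K L a * h + algebraMap K L b := div_mul_cancel₀ _ hden
  have hden2 : algebraMap K L c * u - algebraMap K L a ≠ 0 := by
    intro h0
    have h1 : algebraMap K L (a * d - b * c) = 0 := by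
      rw [map_sub, map_mul, map_mul]
      linear_combination (algebraMap K L c) * hrel -
        (algebraMap K L c * h + algebraMap K L d) * h0
    exact hdet ((map_eq_zero (algebraMap K L)).mp h1)
  have hsolve : h = (algebraMap K L b - algebraMap K L d * u) /
      (algebraMap K L c * u - algebraMap K L a) := by
    rw [eq_div_iff hden2]
    linear_combination hrel
  apply le_antisymm
  · rw [IntermediateField.adjoin_simple_le_iff]
    have hmem : h ∈ K⟮h⟯ := IntermediateField.mem_adjoin_simple_self K h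
    exact div_mem (add_mem (mul_mem (algebraMap_mem _ a) hmem) (algebraMap_mem _ b))
      (add_mem (mul_mem (algebraMap_mem _ c) hmem) (algebraMap_mem _ d))
  · rw [IntermediateField.adjoin_simple_le_iff, hsolve]
    have hmem : u ∈ K⟮u⟯ := IntermediateField.mem_adjoin_simple_self K u
    exact div_mem (sub_mem (algebraMap_mem _ b) (mul_mem (algebraMap_mem _ d) hmem))
      (sub_mem (mul_mem (algebraMap_mem _ c) hmem) (algebraMap_mem _ a))

end Fermat.Agent.S18
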