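import Mathlib
import Fermat.Agent.S28.Defs
import Fermat.Agent.S28.ValRing
import Fermat.Agent.S28.FundIneq
import Fermat.Agent.S28.RelrankFt
import Fermat.Agent.S28.Induction
import Fermat.Agent.S18.Haupt4Deg

/-!
# S18: the abstract Hauptmodul record

`HauptRec a2 ℓ` packages what the S18 proof uses about a Hauptmodul `h` of `X₀(a2)`
(`a2 = 4` for `ℓ` odd, `a2 = 9` for `ℓ = 2`):

* `hZ : LaurentSeries ℤ`, `h = q⁻¹ · (1 + ...)`, `h ∈ Ft a2` (over `ℚ`);
* `j · Q(h) = P(h)` with `P, Q ∈ ℤ[X]` monic, `deg P = psi a2 > deg Q`, coprime over `ℚ` and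
  modulo `ℓ`;
* `Qrad`: the radical of `Q` (its roots are the finite cusp values of `h`), separable over `ℚ`
  and modulo `ℓ`;
* `P = P3³` and `P - 1728 Q = P2²` (the fibres over `j = 0` and `j = 1728`).

Derived API (for `H : HauptRec a2 ℓ`): `H.h R` (the Hauptmodul over any commutative ring),
`H.rel_map`, `H.rel_field`, leading terms, transcendence, the degree `[K(h) : K(j)] = psi a2`
in characteristic `0` and `ℓ`, and for a level `M` with `a2 ∣ M`, `ℓ ∤ M` the equality
`[Ft M : ℚ(h)] = [kappa ℓ M : 𝔽_ℓ(h̄)] = psi M / psi a2`.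
-/

set_option autoImplicit false

open ModularCurve Polynomial
open Fermat.Agent.S28
open scoped IntermediateField

noncomputable section

namespace Fermat.Agent.S18

/-- Abstract Hauptmodul data of level `a2` for the residue characteristic `ℓ`. -/
structure HauptRec (a2 ℓ : ℕ) where
  /-- the Hauptmodul as a Laurent series over `ℤ` -/
  hZ : LaurentSeries ℤ
  /-- numerator of `j` as a rational function of `h` -/
  P : Polynomial ℤ
  /-- denominator of `j` as a rational function of `h` -/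
  Q : Polynomial ℤ
  /-- radical of `Q`: its roots are the finite cusp values of `h` -/
  Qrad : Polynomial ℤ
  /-- `P = P3 ^ 3` (fibre over `j = 0`) -/
  P3 : Polynomial ℤ
  /-- `P - 1728 Q = P2 ^ 2` (fibre over `j = 1728`) -/
  P2 : Polynomial ℤ
  pos : 0 < a2
  not_dvd : ¬ ℓ ∣ a2
  lead : ∃ p : PowerSeries ℤ, PowerSeries.constantCoeff p = 1 ∧
    hZ = HahnSeries.single (-1) (1 : ℤ) * HahnSeries.ofPowerSeries ℤ ℤ p
  mem_Ft : coeffMap (Int.castRingHom ℚ) hZ ∈ Ft a2
  rel : jd ℤ 1 * Polynomial.aeval hZ Q = Polynomial.aeval hZ P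
  P_monic : P.Monic
  Q_monic : Q.Monic
  natDegree_P : P.natDegree = psi a2
  natDegree_Q : Q.natDegree < psi a2
  coprime_rat : IsCoprime (P.map (Int.castRingHom ℚ)) (Q.map (Int.castRingHom ℚ))
  coprime_mod : IsCoprime (P.map (Int.castRingHom (ZMod ℓ))) (Q.map (Int.castRingHom (ZMod ℓ)))
  Qrad_monic : Qrad.Monic
  Qrad_dvd : Qrad ∣ Q
  dvd_Qrad_pow : ∃ n : ℕ, Q ∣ Qrad ^ n
  Qrad_sep_rat : (Qrad.map (Int.castRingHom ℚ)).Separable
  Qrad_sep_mod : (Qrad.map (Int.castRingHom (ZMod ℓ))).Separable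
  cube : P = P3 ^ 3
  square : P - 1728 * Q = P2 ^ 2

/-- `coeffMap` commutes with evaluation of integer polynomials. -/
theorem hrec_coeffMap_aeval {R S : Type*} [CommRing R] [CommRing S] (f : R →+* S)
    (x : LaurentSeries R) (p : Polynomial ℤ) :
    coeffMap f (Polynomial.aeval x p) = Polynomial.aeval (coeffMap f x) p := by
  rw [Polynomial.aeval_def, Polynomial.aeval_def, Polynomial.hom_eval₂]
  congr 1
  exact RingHom.ext_int _ _

/-- evaluation of an integer polynomial versus its image over a field. -/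
theorem hrec_aeval_map (K : Type*) [Field K] (x : LaurentSeries K) (p : Polynomial ℤ) :
    Polynomial.aeval x (p.map (Int.castRingHom K)) = Polynomial.aeval x p := by
  rw [Polynomial.aeval_def, Polynomial.aeval_def, Polynomial.eval₂_map]
  congr 1
  exact RingHom.ext_int _ _

theorem hrec_card_div {a : Cardinal} {n d : ℕ} (hd : 0 < d) (h : (d : Cardinal) * a = (n : Cardinal)) :
    a = ((n / d : ℕ) : Cardinal) := by
  have ha : a < Cardinal.aleph0 := by
    by_contra hge
    rw [not_lt] at hge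
    have h1 : Cardinal.aleph0 ≤ (d : Cardinal) * a :=
      hge.trans (Cardinal.le_mul_left (by exact_mod_cast hd.ne'))
    rw [h] at h1
    exact absurd (Cardinal.natCast_lt_aleph0 (n := n)) (not_lt.mpr h1)
  obtain ⟨m, rfl⟩ := Cardinal.lt_aleph0.mp ha
  have h2 : d * m = n := by exact_mod_cast h
  congr 1
  rw [← h2, Nat.mul_div_cancel_left m hd]

namespace HauptRec

variable {a2 ℓ : ℕ} (H : HauptRec a2 ℓ)

/-- the Hauptmodul over an arbitrary commutative ring. -/
def h (R : Type*) [CommRing R] : LaurentSeries R := coeffMap (Int.castRingHom R) H.hZ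

theorem coeffMap_h {R S : Type*} [CommRing R] [CommRing S] (f : R →+* S) :
    coeffMap f (H.h R) = H.h S := hp4_coeffMap_cast f _

theorem leadZ : Hp4Lead H.hZ (-1) := H.lead

theorem psi_pos (H : HauptRec a2 ℓ) : 0 < psi a2 :=
  lt_of_le_of_lt (Nat.zero_le _) H.natDegree_Q

/-- `j · Q(h) = P(h)` over any ring. -/
theorem rel_map (R : Type*) [CommRing R] :
    jd R 1 * Polynomial.aeval (H.h R) H.Q = Polynomial.aeval (H.h R) H.P := by
  have h := congrArg (coeffMap (Int.castRingHom R)) H.rel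
  rwa [map_mul, coeffMap_jd, hrec_coeffMap_aeval, hrec_coeffMap_aeval] at h

/-- `j · Q(h) = P(h)` over a field, with the polynomials mapped to the field. -/
theorem rel_field (K : Type*) [Field K] :
    jd K 1 * Polynomial.aeval (H.h K) (H.Q.map (Int.castRingHom K)) =
      Polynomial.aeval (H.h K) (H.P.map (Int.castRingHom K)) := by
  rw [hrec_aeval_map, hrec_aeval_map]
  exact H.rel_map K

/-! ### Leading terms, transcendence -/

theorem h_lead (R : Type*) [CommRing R] :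
    ∃ p : PowerSeries ℤ, PowerSeries.constantCoeff p = 1 ∧
      H.h R = HahnSeries.single (-1) (1 : R) *
        HahnSeries.ofPowerSeries ℤ R (p.map (Int.castRingHom R)) :=
  hp4_lead_map R H.leadZ

theorem h_coeff_neg_one (R : Type*) [CommRing R] : (H.h R).coeff (-1) = 1 :=
  hp4_lead_coeff R H.leadZ

theorem h_coeff_of_lt (R : Type*) [CommRing R] {m : ℤ} (hm : m < -1) : (H.h R).coeff m = 0 :=
  hp4_lead_coeff_lt R H.leadZ hm

theorem h_isUnit (R : Type*) [CommRing R] : IsUnit (H.h R) := hp4_lead_isUnit R H.leadZ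

theorem h_ne_zero (R : Type*) [CommRing R] [Nontrivial R] : H.h R ≠ 0 :=
  hp4_lead_ne_zero R H.leadZ

theorem h_coeff_pow_self (R : Type*) [CommRing R] (n : ℕ) :
    (H.h R ^ n).coeff (-(n : ℤ)) = 1 := by
  have h := hp4_lead_coeff R (H.leadZ.pow n)
  rw [map_pow, mul_neg_one] at h
  exact h

theorem h_coeff_pow_of_lt (R : Type*) [CommRing R] {n : ℕ} {m : ℤ} (hm : m < -(n : ℤ)) :
    (H.h R ^ n).coeff m = 0 := by
  have h := hp4_lead_coeff_lt R (H.leadZ.pow n) (m := m) (by rw [mul_neg_one]; exact hm)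
  rw [map_pow] at h
  exact h

/-- `h` satisfies no nonzero polynomial over the coefficient ring. -/
theorem aeval_ne_zero (R : Type*) [CommRing R] (p : Polynomial R) (hp : p ≠ 0) :
    Polynomial.aeval (H.h R) p ≠ 0 := by
  intro h
  have hc := congrArg (fun z => HahnSeries.coeff z (-(p.natDegree : ℤ))) h
  simp only [HahnSeries.coeff_zero] at hc
  rw [Polynomial.aeval_eq_sum_range, HahnSeries.coeff_sum, Finset.sum_range_succ] at hc
  rw [Finset.sum_eq_zero, zero_add, Algebra.smul_def, valRing_coeff_algebraMap_mul,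
    H.h_coeff_pow_self, mul_one] at hc
  · exact hp (Polynomial.leadingCoeff_eq_zero.mp hc)
  · intro i hi
    have hi' : i < p.natDegree := Finset.mem_range.mp hi
    rw [Algebra.smul_def, valRing_coeff_algebraMap_mul, H.h_coeff_pow_of_lt R (by omega),
      mul_zero]

theorem transcendental (K : Type*) [Field K] : Transcendental K (H.h K) := by
  rw [transcendental_iff]
  intro p hp
  by_contra h0
  exact H.aeval_ne_zero K p h0 hp

/-! ### The degree of the `h`-line over the `j`-line -/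

theorem natDegree_P_map (K : Type*) [Field K] :
    (H.P.map (Int.castRingHom K)).natDegree = psi a2 := by
  rw [H.P_monic.natDegree_map, H.natDegree_P]

theorem natDegree_Q_map (K : Type*) [Field K] :
    (H.Q.map (Int.castRingHom K)).natDegree < psi a2 := by
  rw [H.Q_monic.natDegree_map]
  exact H.natDegree_Q

theorem coprime_of_charZero (K : Type*) [Field K] [CharZero K] :
    IsCoprime (H.P.map (Int.castRingHom K)) (H.Q.map (Int.castRingHom K)) := by
  have h := H.coprime_rat.map (Polynomial.mapRingHom (algebraMap ℚ K))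
  simp only [Polynomial.coe_mapRingHom, Polynomial.map_map] at h
  rwa [RingHom.ext_int ((algebraMap ℚ K).comp (Int.castRingHom ℚ)) (Int.castRingHom K)] at h

theorem coprime_of_charP (K : Type*) [Field K] [CharP K ℓ] :
    IsCoprime (H.P.map (Int.castRingHom K)) (H.Q.map (Int.castRingHom K)) := by
  have h := H.coprime_mod.map (Polynomial.mapRingHom (ZMod.castHom (dvd_refl ℓ) K))
  simp only [Polynomial.coe_mapRingHom, Polynomial.map_map] at h
  rwa [RingHom.ext_int ((ZMod.castHom (dvd_refl ℓ) K).comp (Int.castRingHom (ZMod ℓ)))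
    (Int.castRingHom K)] at h

theorem adjoin_le_of_coprime (K : Type*) [Field K]
    (hc : IsCoprime (H.P.map (Int.castRingHom K)) (H.Q.map (Int.castRingHom K))) :
    K⟮jd K 1⟯ ≤ K⟮H.h K⟯ :=
  (hp4_relfinrank_of_rel (H.h K) (jd K 1) (H.transcendental K) _ _ hc
    (H.Q_monic.map _) (H.rel_field K)).1

theorem relfinrank_of_coprime (K : Type*) [Field K]
    (hc : IsCoprime (H.P.map (Int.castRingHom K)) (H.Q.map (Int.castRingHom K))) :
    IntermediateField.relfinrank K⟮jd K 1⟯ K⟮H.h K⟯ = psi a2 := by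
  rw [(hp4_relfinrank_of_rel (H.h K) (jd K 1) (H.transcendental K) _ _ hc
    (H.Q_monic.map _) (H.rel_field K)).2, H.natDegree_P_map K]
  exact max_eq_left (H.natDegree_Q_map K).le

theorem relrank_of_coprime (K : Type*) [Field K]
    (hc : IsCoprime (H.P.map (Int.castRingHom K)) (H.Q.map (Int.castRingHom K))) :
    IntermediateField.relrank K⟮jd K 1⟯ K⟮H.h K⟯ = (psi a2 : Cardinal) := by
  have h := H.relfinrank_of_coprime K hc
  rw [IntermediateField.relfinrank] at h
  exact (Cardinal.toNat_eq_iff H.psi_pos.ne').mp h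

/-- `[K(h) : K(j)] = psi a2` in characteristic `0`. -/
theorem relrank_of_charZero (K : Type*) [Field K] [CharZero K] :
    IntermediateField.relrank K⟮jd K 1⟯ K⟮H.h K⟯ = (psi a2 : Cardinal) :=
  H.relrank_of_coprime K (H.coprime_of_charZero K)

/-- `[K(h) : K(j)] = psi a2` in characteristic `ℓ`. -/
theorem relrank_of_charP (K : Type*) [Field K] [CharP K ℓ] :
    IntermediateField.relrank K⟮jd K 1⟯ K⟮H.h K⟯ = (psi a2 : Cardinal) :=
  H.relrank_of_coprime K (H.coprime_of_charP K)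

/-! ### Subfield forms over `ℚ` and `𝔽_ℓ` -/

theorem relrank_Qj : Subfield.relrank (Qj 1) (Subfield.closure {H.h ℚ}) = (psi a2 : Cardinal) := by
  have h := H.relrank_of_charZero ℚ
  rw [IntermediateField.relrank, hp4_adjoin_toSubfield_rat, hp4_adjoin_toSubfield_rat] at h
  exact h

theorem Qj_le : Qj 1 ≤ Subfield.closure {H.h ℚ} := by
  have h := H.adjoin_le_of_coprime ℚ (H.coprime_of_charZero ℚ)
  have hj : jd ℚ 1 ∈ (ℚ⟮H.h ℚ⟯).toSubfield := h (IntermediateField.mem_adjoin_simple_self ℚ _)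
  rw [hp4_adjoin_toSubfield_rat] at hj
  rw [Qj, Subfield.closure_le]
  rintro x rfl
  exact hj

theorem relrank_kj [Fact ℓ.Prime] :
    Subfield.relrank (kj ℓ 1) (Subfield.closure {H.h (ZMod ℓ)}) = (psi a2 : Cardinal) := by
  have h := H.relrank_of_charP (ZMod ℓ)
  rw [IntermediateField.relrank, hp4_adjoin_toSubfield_zmod, hp4_adjoin_toSubfield_zmod] at h
  exact h

theorem kj_le [Fact ℓ.Prime] : kj ℓ 1 ≤ Subfield.closure {H.h (ZMod ℓ)} := by
  have h := H.adjoin_le_of_coprime (ZMod ℓ) (H.coprime_of_charP (ZMod ℓ))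
  have hj : jd (ZMod ℓ) 1 ∈ ((ZMod ℓ)⟮H.h (ZMod ℓ)⟯).toSubfield :=
    h (IntermediateField.mem_adjoin_simple_self (ZMod ℓ) _)
  rw [hp4_adjoin_toSubfield_zmod] at hj
  rw [kj, Subfield.closure_le]
  rintro x rfl
  exact hj

/-! ### Level `M` with `a2 ∣ M` -/

theorem h_mem_Ft {M : ℕ} (hM : a2 ∣ M) : H.h ℚ ∈ Ft M := Ft_mono hM H.mem_Ft

theorem h_eq_toQ : H.h ℚ = toQ ℓ (H.h (Oℓ ℓ)) := (H.coeffMap_h _).symm

theorem h_mem_Vw [Fact ℓ.Prime] : H.h ℚ ∈ Vw ℓ := by
  rw [H.h_eq_toQ]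
  exact toQ_mem_Vw ℓ _

/-- the reduction of `h` is `h` over `𝔽_ℓ`. -/
theorem rho_h [Fact ℓ.Prime] : rho ℓ ⟨H.h ℚ, H.h_mem_Vw⟩ = H.h (ZMod ℓ) := by
  have h := rho_toQ ℓ (H.h (Oℓ ℓ))
  have e : (⟨H.h ℚ, H.h_mem_Vw⟩ : Vw ℓ) = ⟨toQ ℓ (H.h (Oℓ ℓ)), toQ_mem_Vw ℓ _⟩ :=
    Subtype.ext H.h_eq_toQ
  rw [e, h]
  exact H.coeffMap_h _

theorem h_mem_kappa [Fact ℓ.Prime] {M : ℕ} (hM : a2 ∣ M) : H.h (ZMod ℓ) ∈ kappa ℓ M :=
  ⟨⟨H.h ℚ, H.h_mem_Vw⟩, H.h_mem_Ft hM, H.rho_h⟩

/-- tower law: `psi a2 · [Ft M : ℚ(h)] = [Ft M : ℚ(j)]`. -/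
theorem relrank_Ft {M : ℕ} (hM : a2 ∣ M) :
    (psi a2 : Cardinal) * Subfield.relrank (Subfield.closure {H.h ℚ}) (Ft M).toSubfield =
      Subfield.relrank (Qj 1) (Ft M).toSubfield := by
  rw [← H.relrank_Qj]
  refine Subfield.relrank_mul_relrank H.Qj_le ?_
  rw [Subfield.closure_le]
  rintro x rfl
  exact H.h_mem_Ft hM

/-- tower law: `psi a2 · [kappa ℓ M : 𝔽_ℓ(h̄)] = [kappa ℓ M : 𝔽_ℓ(j̄)]`. -/
theorem relrank_kappa [Fact ℓ.Prime] {M : ℕ} (hM : a2 ∣ M) :
    (psi a2 : Cardinal) * Subfield.relrank (Subfield.closure {H.h (ZMod ℓ)}) (kappa ℓ M) =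
      Subfield.relrank (kj ℓ 1) (kappa ℓ M) := by
  rw [← H.relrank_kj]
  refine Subfield.relrank_mul_relrank H.kj_le ?_
  rw [Subfield.closure_le]
  rintro x rfl
  exact H.h_mem_kappa hM

/-- the `h`-line degrees in characteristic `0` and `ℓ` agree: both are `psi M / psi a2`. -/
theorem relrank_eq_psi [Fact ℓ.Prime] {M : ℕ} (hM : a2 ∣ M) (hM0 : 0 < M) (hℓM : ¬ ℓ ∣ M) :
    Subfield.relrank (Subfield.closure {H.h ℚ}) (Ft M).toSubfield =
        ((psi M / psi a2 : ℕ) : Cardinal) ∧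
      Subfield.relrank (Subfield.closure {H.h (ZMod ℓ)}) (kappa ℓ M) =
        ((psi M / psi a2 : ℕ) : Cardinal) := by
  obtain ⟨h1, h2⟩ := hp4_relrank_j_eq_psi ℓ hM0 hℓM
  exact ⟨hrec_card_div H.psi_pos ((H.relrank_Ft hM).trans h1),
    hrec_card_div H.psi_pos ((H.relrank_kappa hM).trans h2)⟩

end HauptRec

end Fermat.Agent.S18
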