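import Mathlib
import Fermat.Agent.S18.HauptRec
import Fermat.Agent.S18.GaussRing
import Fermat.Agent.S18.GaussBC3

/-!
# S18, work package COREINST, part 5: the chart coordinate

For a Hauptmodul record `H : HauptRec a2 ℓ`, a field `K` and `c0 c1 : K` the chart coordinate is
`cinstU H K c0 c1 = (h - c1) / (h - c0)`, `h = H.h K`, a Laurent series over `K`.

* `cinstU_inv`, `cinstU_coeffMap` (base change), `cinstU_adjoin` (`K(u) = K(h)` for `c0 ≠ c1`),
  `cinstU_transcendental`, `cinstU_jd_mem` (`j ∈ K(u)` in characteristic `0` or `ℓ`),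
  `cinstU_mem` (`u` lies in the level-`M` function field over `K`, `a2 ∣ M`);
* Gauss ring: for `A : ValuationSubring K` and `c0 c1 ∈ A`: `u`, `u⁻¹ ∈ grV A` and the residue
  of `u` is the chart coordinate over the residue field (`cinstU_mem_grV`, `cinstU_grRho`).
-/

set_option autoImplicit false

noncomputable section

open ModularCurve Polynomial
open Fermat.Agent.S28
open scoped IntermediateField

namespace Fermat.Agent.S18

variable {a2 ℓ : ℕ} (H : HauptRec a2 ℓ)

/-- The chart coordinate `u = (h - c1) / (h - c0)`. -/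
def cinstU (K : Type*) [Field K] (c0 c1 : K) : LaurentSeries K :=
  (H.h K - algebraMap K (LaurentSeries K) c1) / (H.h K - algebraMap K (LaurentSeries K) c0)

section Series

variable (K : Type*) [Field K]

theorem cinst_h_sub_ne_zero (c : K) : H.h K - algebraMap K (LaurentSeries K) c ≠ 0 := by
  have h := H.aeval_ne_zero K (X - C c) (X_sub_C_ne_zero c)
  rwa [map_sub, aeval_X, aeval_C] at h

theorem cinstU_ne_zero (c0 c1 : K) : cinstU H K c0 c1 ≠ 0 :=
  div_ne_zero (cinst_h_sub_ne_zero H K c1) (cinst_h_sub_ne_zero H K c0)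

theorem cinstU_inv (c0 c1 : K) : (cinstU H K c0 c1)⁻¹ = cinstU H K c1 c0 := by
  rw [cinstU, cinstU, inv_div]

variable {K} in
theorem cinst_coeffMap_algebraMap {L : Type*} [Field L] (f : K →+* L) (c : K) :
    coeffMap f (algebraMap K (LaurentSeries K) c) = algebraMap L (LaurentSeries L) (f c) := by
  rw [algebraMap_laurentSeries_eq_single, algebraMap_laurentSeries_eq_single, coeffMap_single]

variable {K} in
/-- base change of the chart coordinate -/
theorem cinstU_coeffMap {L : Type*} [Field L] (f : K →+* L) (c0 c1 : K) :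
    coeffMap f (cinstU H K c0 c1) = cinstU H L (f c0) (f c1) := by
  rw [cinstU, cinstU, map_div₀, map_sub, map_sub, H.coeffMap_h, cinst_coeffMap_algebraMap,
    cinst_coeffMap_algebraMap]

/-- `K(u) = K(h)` -/
theorem cinstU_adjoin (c0 c1 : K) (hc : c0 ≠ c1) : K⟮cinstU H K c0 c1⟯ = K⟮H.h K⟯ := by
  have h := hp4_mobius (K := K) (L := LaurentSeries K) (H.h K) (H.transcendental K) 1 (-c1) 1
    (-c0) (by
      intro h0
      apply hc
      linear_combination -h0)
  have e : (algebraMap K (LaurentSeries K) 1 * H.h K + algebraMap K (LaurentSeries K) (-c1)) /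
      (algebraMap K (LaurentSeries K) 1 * H.h K + algebraMap K (LaurentSeries K) (-c0)) =
      cinstU H K c0 c1 := by
    rw [cinstU, map_one, one_mul, map_neg, map_neg, ← sub_eq_add_neg, ← sub_eq_add_neg]
  rw [e] at h
  exact h

theorem cinstU_transcendental (c0 c1 : K) (hc : c0 ≠ c1) :
    Transcendental K (cinstU H K c0 c1) := by
  intro halg
  have h1 : Algebra.IsAlgebraic K K⟮cinstU H K c0 c1⟯ :=
    IntermediateField.isAlgebraic_adjoin_simple halg.isIntegral
  rw [cinstU_adjoin H K c0 c1 hc] at h1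
  have h2 : IsAlgebraic K (⟨H.h K, IntermediateField.mem_adjoin_simple_self K _⟩ : K⟮H.h K⟯) :=
    h1.isAlgebraic _
  exact H.transcendental K (IntermediateField.isAlgebraic_iff.mp h2)

/-- `j ∈ K(u)` as soon as `P`, `Q` are coprime over `K` -/
theorem cinstU_jd_mem (c0 c1 : K) (hc : c0 ≠ c1)
    (hcop : IsCoprime (H.P.map (Int.castRingHom K)) (H.Q.map (Int.castRingHom K))) :
    jd K 1 ∈ K⟮cinstU H K c0 c1⟯ := by
  rw [cinstU_adjoin H K c0 c1 hc]
  exact H.adjoin_le_of_coprime K hcop (IntermediateField.mem_adjoin_simple_self K _)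

/-- the Hauptmodul over `K` lies in the level-`M` function field over `K` -/
theorem cinst_h_mem [Algebra ℚ K] {M : ℕ} [NeZero M] (hM : a2 ∣ M) :
    H.h K ∈ laurentBaseChange K (modularFunctionFieldFull M) := by
  have h1 : H.h ℚ ∈ modularFunctionFieldFull M := by
    rw [← gbc_Ft_eq_full]
    exact H.h_mem_Ft hM
  have h2 := coeffEmb_mem_laurentBaseChange K h1
  rwa [coeffEmb, H.coeffMap_h] at h2

/-- the chart coordinate lies in the level-`M` function field over `K` -/
theorem cinstU_mem [Algebra ℚ K] {M : ℕ} [NeZero M] (hM : a2 ∣ M) (c0 c1 : K) :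
    cinstU H K c0 c1 ∈ laurentBaseChange K (modularFunctionFieldFull M) := by
  have hh := cinst_h_mem H K hM
  exact (laurentBaseChange K (modularFunctionFieldFull M)).div_mem
    ((laurentBaseChange K (modularFunctionFieldFull M)).sub_mem hh
      ((laurentBaseChange K (modularFunctionFieldFull M)).algebraMap_mem c1))
    ((laurentBaseChange K (modularFunctionFieldFull M)).sub_mem hh
      ((laurentBaseChange K (modularFunctionFieldFull M)).algebraMap_mem c0))

end Series

section Gauss

variable {K : Type*} [Field K] (A : ValuationSubring K)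

theorem cinst_h_mem_grV : H.h K ∈ grV A := by
  rw [← H.coeffMap_h A.subtype]
  exact gr_coeffMap_mem A _

theorem cinst_h_grRho : grRho A ⟨H.h K, cinst_h_mem_grV H A⟩ = H.h (IsLocalRing.ResidueField A) := by
  have e : (⟨H.h K, cinst_h_mem_grV H A⟩ : grV A) =
      ⟨coeffMap A.subtype (H.h A), gr_coeffMap_mem A _⟩ :=
    Subtype.ext (H.coeffMap_h A.subtype).symm
  rw [e, grRho_coeffMap, H.coeffMap_h]

theorem cinst_h_sub_mem_grV (c : A) : H.h K - algebraMap K (LaurentSeries K) (c : K) ∈ grV A :=
  (grV A).sub_mem (cinst_h_mem_grV H A) (gr_algebraMap_mem A c)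

theorem cinst_h_sub_grRho (c : A) :
    grRho A ⟨H.h K - algebraMap K (LaurentSeries K) (c : K), cinst_h_sub_mem_grV H A c⟩ =
      H.h (IsLocalRing.ResidueField A) -
        algebraMap (IsLocalRing.ResidueField A) (LaurentSeries (IsLocalRing.ResidueField A))
          (IsLocalRing.residue A c) := by
  have e : (⟨H.h K - algebraMap K (LaurentSeries K) (c : K), cinst_h_sub_mem_grV H A c⟩ : grV A) =
      ⟨H.h K, cinst_h_mem_grV H A⟩ - ⟨algebraMap K (LaurentSeries K) (c : K),
        gr_algebraMap_mem A c⟩ := rfl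
  rw [e, map_sub, cinst_h_grRho, grRho_algebraMap]

theorem cinst_h_sub_inv_mem_grV (c : A) :
    (H.h K - algebraMap K (LaurentSeries K) (c : K))⁻¹ ∈ grV A := by
  refine gr_inv_mem A ⟨_, cinst_h_sub_mem_grV H A c⟩ ?_
  rw [cinst_h_sub_grRho]
  exact cinst_h_sub_ne_zero H _ _

/-- the chart coordinate lies in the Gauss ring -/
theorem cinstU_mem_grV (c0 c1 : A) : cinstU H K (c0 : K) (c1 : K) ∈ grV A := by
  rw [cinstU, div_eq_mul_inv]
  exact (grV A).mul_mem (cinst_h_sub_mem_grV H A c1) (cinst_h_sub_inv_mem_grV H A c0)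

/-- the inverse of the chart coordinate lies in the Gauss ring -/
theorem cinstU_inv_mem_grV (c0 c1 : A) : (cinstU H K (c0 : K) (c1 : K))⁻¹ ∈ grV A := by
  rw [cinstU_inv]
  exact cinstU_mem_grV H A c1 c0

/-- the residue of the chart coordinate is the chart coordinate over the residue field -/
theorem cinstU_grRho (c0 c1 : A) :
    grRho A ⟨cinstU H K (c0 : K) (c1 : K), cinstU_mem_grV H A c0 c1⟩ =
      cinstU H (IsLocalRing.ResidueField A) (IsLocalRing.residue A c0)
        (IsLocalRing.residue A c1) := by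
  have e : (⟨cinstU H K (c0 : K) (c1 : K), cinstU_mem_grV H A c0 c1⟩ : grV A) =
      ⟨H.h K - algebraMap K (LaurentSeries K) (c1 : K), cinst_h_sub_mem_grV H A c1⟩ *
        ⟨(H.h K - algebraMap K (LaurentSeries K) (c0 : K))⁻¹,
          cinst_h_sub_inv_mem_grV H A c0⟩ :=
    Subtype.ext (div_eq_mul_inv _ _)
  have hne : grRho A ⟨H.h K - algebraMap K (LaurentSeries K) (c0 : K),
      cinst_h_sub_mem_grV H A c0⟩ ≠ 0 := by
    rw [cinst_h_sub_grRho]
    exact cinst_h_sub_ne_zero H _ _
  have hinv := grRho_inv A ⟨_, cinst_h_sub_mem_grV H A c0⟩ hne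
  rw [e, map_mul, hinv, cinst_h_sub_grRho, cinst_h_sub_grRho]
  exact (div_eq_mul_inv _ _).symm

end Gauss

end Fermat.Agent.S18
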