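import Mathlib
import Fermat.Prelude.Def_FLTPrelim_Ramification
import Fermat.Prelude.Def_ModularCurve_LaurentCoeff

/-!
# S18: descent from `(ℚ̄, A)` to a discrete valuation ring of definition

* `dvd_isDVR`: a valuation subring `≠ ⊤` of a number field is a DVR with finite residue field.
* `dvd_exists`: for a valuation subring `A` of `ℚ̄` over a prime `l`, a finite set `s ⊆ ℚ̄` and a
  finite set `t` of residue classes, a number field `K₀ ⊆ ℚ̄` containing `s` such that `A ∩ K₀` is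
  a DVR with finite residue field, `l` is a non-unit of it and every class in `t` has a lift in
  `A ∩ K₀`.
* `dvd_descend`: an element of the field generated over `K` by the coefficient-images of a set of
  Laurent series over a ring `R` is defined over every subfield of `K` containing a suitable
  finite set.
-/

set_option autoImplicit false

open NumberField IsDedekindDomain

namespace Fermat.Agent.S18

theorem dvd_inv_mem {K₀ : Type*} [Field K₀] (A₀ : ValuationSubring K₀) (y : A₀) (hy : IsUnit y) :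
    ((y : K₀))⁻¹ ∈ A₀ := by
  obtain ⟨c, hc⟩ := hy.exists_right_inv
  have hc' : (y : K₀) * (c : K₀) = 1 := by exact_mod_cast congrArg Subtype.val hc
  rw [inv_eq_of_mul_eq_one_right hc']
  exact c.2

/-- a valuation subring `≠ ⊤` of a number field is a discrete valuation ring with finite residue
field -/
theorem dvd_isDVR (K₀ : Type*) [Field K₀] [NumberField K₀] (A₀ : ValuationSubring K₀)
    (h : A₀ ≠ ⊤) :
    IsDiscreteValuationRing A₀ ∧ Finite (IsLocalRing.ResidueField A₀) := by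
  have hint : ∀ x : 𝓞 K₀, algebraMap (𝓞 K₀) K₀ x ∈ A₀ := by
    intro x
    have hx : IsIntegral ℤ (algebraMap (𝓞 K₀) K₀ x) := RingOfIntegers.isIntegral_coe x
    have hx' : IsIntegral A₀ (algebraMap (𝓞 K₀) K₀ x) := hx.tower_top
    obtain ⟨y, hy⟩ := IsIntegrallyClosed.isIntegral_iff.mp hx'
    rw [← hy]; exact y.2
  let φ : 𝓞 K₀ →+* A₀ := (algebraMap (𝓞 K₀) K₀).codRestrict A₀.toSubring hint
  have hφ : ∀ x : 𝓞 K₀, ((φ x : A₀) : K₀) = algebraMap (𝓞 K₀) K₀ x := fun x => rfl
  let 𝔭 : Ideal (𝓞 K₀) := (IsLocalRing.maximalIdeal A₀).comap φ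
  have h𝔭prime : 𝔭.IsPrime := Ideal.comap_isPrime φ _
  -- a nonzero element of `𝔭`
  obtain ⟨x, hx⟩ : ∃ x : K₀, x ∉ A₀ := by
    by_contra hall
    push Not at hall
    exact h (SetLike.ext fun x => ⟨fun _ => ValuationSubring.mem_top x, fun _ => hall x⟩)
  obtain ⟨a, b, hb, hab⟩ := IsFractionRing.div_surjective (A := 𝓞 K₀) x
  have hbmem : b ∈ 𝔭 := by
    show φ b ∈ IsLocalRing.maximalIdeal A₀
    rw [IsLocalRing.mem_maximalIdeal, mem_nonunits_iff]
    intro hu
    apply hx
    rw [← hab, div_eq_mul_inv, ← hφ a, ← hφ b]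
    exact A₀.mul_mem _ _ (φ a).2 (dvd_inv_mem A₀ _ hu)
  have h𝔭ne : 𝔭 ≠ ⊥ := by
    intro hbot
    rw [hbot, Ideal.mem_bot] at hbmem
    exact nonZeroDivisors.ne_zero hb hbmem
  let v : HeightOneSpectrum (𝓞 K₀) := ⟨𝔭, h𝔭prime, h𝔭ne⟩
  have hle : v.valuationSubringAtPrime K₀ ≤ A₀ := by
    rintro y ⟨a', s, hs, rfl⟩
    have hsu : IsUnit (φ s) := by
      by_contra hnu
      exact hs (show φ s ∈ IsLocalRing.maximalIdeal A₀ from hnu)
    rw [← hφ a', ← hφ s]
    exact A₀.mul_mem _ _ (φ a').2 (dvd_inv_mem A₀ _ hsu)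
  have heq : v.valuationSubringAtPrime K₀ = A₀ := ValuationSubring.eq_of_le_of_ne_top _ hle h
  have hded : IsDedekindDomain ↥A₀ :=
    heq ▸ (inferInstance : IsDedekindDomain ↥(v.valuationSubringAtPrime K₀))
  have hnf : ¬ IsField ↥A₀ := by
    rw [IsLocalRing.isField_iff_maximalIdeal_eq]
    intro hbot
    have h1 : φ b ∈ IsLocalRing.maximalIdeal ↥A₀ := hbmem
    rw [hbot, Ideal.mem_bot] at h1
    have h2 : algebraMap (𝓞 K₀) K₀ b = 0 := by rw [← hφ, h1]; rfl
    exact nonZeroDivisors.ne_zero hb ((FaithfulSMul.algebraMap_injective (𝓞 K₀) K₀) (by rw [h2, map_zero]))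
  refine ⟨((IsDiscreteValuationRing.TFAE ↥A₀ hnf).out 0 2).mpr hded, ?_⟩
  -- finiteness of the residue field
  have h𝔭max : 𝔭.IsMaximal := h𝔭prime.isMaximal h𝔭ne
  let ψ : 𝓞 K₀ →+* IsLocalRing.ResidueField ↥A₀ := (IsLocalRing.residue ↥A₀).comp φ
  have hψker : ∀ a ∈ 𝔭, ψ a = 0 := fun a ha =>
    (IsLocalRing.residue_eq_zero_iff (φ a)).mpr ha
  have hψsurj : Function.Surjective ψ := by
    intro z
    obtain ⟨y, rfl⟩ := IsLocalRing.residue_surjective z
    have hy : (y : K₀) ∈ v.valuationSubringAtPrime K₀ := by rw [heq]; exact y.2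
    obtain ⟨a', s, hs, hys⟩ := hy
    have hs' : Ideal.Quotient.mk 𝔭 s ≠ 0 := by
      rw [ne_eq, Ideal.Quotient.eq_zero_iff_mem]
      exact hs
    obtain ⟨t', ht'⟩ := (Ideal.Quotient.maximal_ideal_iff_isField_quotient 𝔭).mp h𝔭max
      |>.mul_inv_cancel hs'
    obtain ⟨t, rfl⟩ := Ideal.Quotient.mk_surjective t'
    have hst : s * t - 1 ∈ 𝔭 := by
      rw [← Ideal.Quotient.eq, map_mul, ht', map_one]
    refine ⟨a' * t, ?_⟩
    show IsLocalRing.residue ↥A₀ (φ (a' * t)) = IsLocalRing.residue ↥A₀ y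
    rw [← sub_eq_zero, ← map_sub, IsLocalRing.residue_eq_zero_iff]
    have hsu : IsUnit (φ s) := by
      by_contra hnu
      exact hs (show φ s ∈ IsLocalRing.maximalIdeal A₀ from hnu)
    obtain ⟨c, hc⟩ := hsu.exists_right_inv
    have hc' : algebraMap (𝓞 K₀) K₀ s * (c : K₀) = 1 := by
      rw [← hφ]; exact_mod_cast congrArg Subtype.val hc
    have hyc : y = φ a' * c := by
      apply Subtype.ext
      rw [hys]
      push_cast
      rw [hφ, inv_eq_of_mul_eq_one_right hc']
    have hkey : φ (a' * t) - y = φ a' * c * φ (s * t - 1) := by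
      rw [hyc, map_sub, map_mul, map_mul, map_one]
      have : φ s * c = 1 := hc
      linear_combination (-(φ a' * φ t)) * this
    rw [hkey]
    exact Ideal.mul_mem_left _ _ (show φ (s * t - 1) ∈ IsLocalRing.maximalIdeal ↥A₀ from hst)
  have : Finite (𝓞 K₀ ⧸ 𝔭) := Ideal.finiteQuotientOfFreeOfNeBot 𝔭 h𝔭ne
  exact Finite.of_surjective (Ideal.Quotient.lift 𝔭 ψ hψker)
    (Ideal.Quotient.lift_surjective_of_surjective 𝔭 hψker hψsurj)



theorem dvd_mem_nonunits_comap {K₀ K : Type*} [Field K₀] [Field K] (f : K₀ →+* K)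
    (A : ValuationSubring K) (x : K₀) : x ∈ (A.comap f).nonunits ↔ f x ∈ A.nonunits := by
  rw [ValuationSubring.mem_nonunits_iff_or, ValuationSubring.mem_nonunits_iff_or,
    ValuationSubring.mem_comap, map_inv₀, map_eq_zero]

/-- a DVR of definition: a number field `K₀ ⊆ ℚ̄` containing a given finite set such that
`A ∩ K₀` is a DVR with finite residue field in which `l` is a non-unit, and such that finitely
many prescribed residue classes of `A` have representatives in `A ∩ K₀` -/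
theorem dvd_exists (l : ℕ) (hl : l ≠ 0) (A : ValuationSubring (AlgebraicClosure ℚ))
    (hA : A.LiesOverPrime l) (s : Finset (AlgebraicClosure ℚ))
    (t : Finset (IsLocalRing.ResidueField ↥A)) :
    ∃ K₀ : IntermediateField ℚ (AlgebraicClosure ℚ), FiniteDimensional ℚ K₀ ∧
      (∀ x ∈ s, x ∈ K₀) ∧
      IsDiscreteValuationRing ↥(A.comap (algebraMap K₀ (AlgebraicClosure ℚ))) ∧
      Finite (IsLocalRing.ResidueField ↥(A.comap (algebraMap K₀ (AlgebraicClosure ℚ)))) ∧
      (l : K₀) ∈ (A.comap (algebraMap K₀ (AlgebraicClosure ℚ))).nonunits ∧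
      ∀ z ∈ t, ∃ (y : K₀) (hy : algebraMap K₀ (AlgebraicClosure ℚ) y ∈ A),
        IsLocalRing.residue ↥A ⟨algebraMap K₀ (AlgebraicClosure ℚ) y, hy⟩ = z := by
  classical
  -- lifts of the residue classes
  have hlift : ∀ z : IsLocalRing.ResidueField ↥A, ∃ y : A, IsLocalRing.residue ↥A y = z :=
    fun z => IsLocalRing.residue_surjective z
  choose lift hliftspec using hlift
  let s' : Finset (AlgebraicClosure ℚ) := s ∪ t.image (fun z => ((lift z : A) : AlgebraicClosure ℚ))
  let K₀ : IntermediateField ℚ (AlgebraicClosure ℚ) :=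
    IntermediateField.adjoin ℚ (s' : Set (AlgebraicClosure ℚ))
  have hfd : FiniteDimensional ℚ K₀ :=
    IntermediateField.finiteDimensional_adjoin
      (fun x _ => ((AlgebraicClosure.isAlgebraic ℚ).isAlgebraic x).isIntegral)
  have hs' : ∀ x ∈ s', x ∈ K₀ := fun x hx =>
    IntermediateField.subset_adjoin ℚ _ (Finset.mem_coe.mpr hx)
  have : NumberField K₀ := { to_charZero := inferInstance, to_finiteDimensional := hfd }
  have hlnon : (l : K₀) ∈ (A.comap (algebraMap K₀ (AlgebraicClosure ℚ))).nonunits := by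
    rw [dvd_mem_nonunits_comap, map_natCast]
    exact hA
  have hne : A.comap (algebraMap K₀ (AlgebraicClosure ℚ)) ≠ ⊤ := by
    intro htop
    rw [ValuationSubring.mem_nonunits_iff_or] at hlnon
    rcases hlnon with h0 | h1
    · exact hl (by exact_mod_cast h0)
    · exact h1 (htop ▸ ValuationSubring.mem_top _)
  obtain ⟨hdvr, hfin⟩ := dvd_isDVR K₀ _ hne
  refine ⟨K₀, hfd, fun x hx => hs' x (Finset.mem_union_left _ hx), hdvr, hfin, hlnon, ?_⟩
  intro z hz
  have hmem : ((lift z : A) : AlgebraicClosure ℚ) ∈ K₀ :=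
    hs' _ (Finset.mem_union_right _ (Finset.mem_image_of_mem _ hz))
  refine ⟨⟨_, hmem⟩, (lift z).2, ?_⟩
  exact hliftspec z

open ModularCurve in
/-- descent of an element of a field generated by coefficient-images of Laurent series over a
ring `R`: it is defined over every subfield containing a suitable finite set -/
theorem dvd_descend {R K : Type*} [CommRing R] [Field K] (φ : R →+* K)
    (S : Set (LaurentSeries R)) (x : LaurentSeries K)
    (hx : x ∈ Subfield.closure
      (Set.range (algebraMap K (LaurentSeries K)) ∪ (⇑(coeffMap φ) '' S))) :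
    ∃ T : Finset K, ∀ (K₀ : Subfield K) (hφ : ∀ r, φ r ∈ K₀), (∀ c ∈ T, c ∈ K₀) →
      ∃ x₀ ∈ Subfield.closure (Set.range (algebraMap K₀ (LaurentSeries K₀)) ∪
          (⇑(coeffMap (φ.codRestrict K₀ hφ)) '' S)),
        coeffMap K₀.subtype x₀ = x := by
  classical
  induction hx using Subfield.closure_induction with
  | mem y hy =>
    rcases hy with ⟨c, rfl⟩ | ⟨g, hg, rfl⟩
    · refine ⟨{c}, fun K₀ hφ hT => ?_⟩
      have hc : c ∈ K₀ := hT c (Finset.mem_singleton_self c)
      refine ⟨algebraMap K₀ (LaurentSeries K₀) ⟨c, hc⟩,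
        Subfield.subset_closure (Or.inl ⟨_, rfl⟩), ?_⟩
      rw [algebraMap_laurentSeries_eq_single, algebraMap_laurentSeries_eq_single, coeffMap_single]
      rfl
    · refine ⟨∅, fun K₀ hφ _ => ?_⟩
      refine ⟨coeffMap (φ.codRestrict K₀ hφ) g,
        Subfield.subset_closure (Or.inr ⟨g, hg, rfl⟩), ?_⟩
      rw [coeffMap_coeffMap]
      rfl
  | one =>
    exact ⟨∅, fun K₀ hφ _ => ⟨1, Subfield.one_mem _, map_one _⟩⟩
  | add y z _ _ ihy ihz =>
    obtain ⟨Ty, hTy⟩ := ihy
    obtain ⟨Tz, hTz⟩ := ihz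
    refine ⟨Ty ∪ Tz, fun K₀ hφ hT => ?_⟩
    obtain ⟨y₀, hy₀, rfl⟩ := hTy K₀ hφ (fun c hc => hT c (Finset.mem_union_left _ hc))
    obtain ⟨z₀, hz₀, rfl⟩ := hTz K₀ hφ (fun c hc => hT c (Finset.mem_union_right _ hc))
    exact ⟨y₀ + z₀, Subfield.add_mem _ hy₀ hz₀, map_add _ _ _⟩
  | neg y _ ihy =>
    obtain ⟨Ty, hTy⟩ := ihy
    refine ⟨Ty, fun K₀ hφ hT => ?_⟩
    obtain ⟨y₀, hy₀, rfl⟩ := hTy K₀ hφ hT
    exact ⟨-y₀, Subfield.neg_mem _ hy₀, map_neg _ _⟩
  | inv y _ ihy =>
    obtain ⟨Ty, hTy⟩ := ihy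
    refine ⟨Ty, fun K₀ hφ hT => ?_⟩
    obtain ⟨y₀, hy₀, rfl⟩ := hTy K₀ hφ hT
    exact ⟨y₀⁻¹, Subfield.inv_mem _ hy₀, map_inv₀ _ _⟩
  | mul y z _ _ ihy ihz =>
    obtain ⟨Ty, hTy⟩ := ihy
    obtain ⟨Tz, hTz⟩ := ihz
    refine ⟨Ty ∪ Tz, fun K₀ hφ hT => ?_⟩
    obtain ⟨y₀, hy₀, rfl⟩ := hTy K₀ hφ (fun c hc => hT c (Finset.mem_union_left _ hc))
    obtain ⟨z₀, hz₀, rfl⟩ := hTz K₀ hφ (fun c hc => hT c (Finset.mem_union_right _ hc))
    exact ⟨y₀ * z₀, Subfield.mul_mem _ hy₀ hz₀, map_mul _ _ _⟩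


/-- for every number field `K₀ ⊆ ℚ̄`, the trace `A ∩ K₀` of a valuation subring of `ℚ̄` over a
prime `l` is a DVR with finite residue field in which `l` is a non-unit -/
theorem dvd_isDVR_comap (l : ℕ) (hl : l ≠ 0) (A : ValuationSubring (AlgebraicClosure ℚ))
    (hA : A.LiesOverPrime l) (K₀ : IntermediateField ℚ (AlgebraicClosure ℚ))
    [FiniteDimensional ℚ K₀] :
    IsDiscreteValuationRing ↥(A.comap (algebraMap K₀ (AlgebraicClosure ℚ))) ∧
      Finite (IsLocalRing.ResidueField ↥(A.comap (algebraMap K₀ (AlgebraicClosure ℚ)))) ∧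
      (l : K₀) ∈ (A.comap (algebraMap K₀ (AlgebraicClosure ℚ))).nonunits := by
  have : NumberField K₀ := { to_charZero := inferInstance, to_finiteDimensional := inferInstance }
  have hlnon : (l : K₀) ∈ (A.comap (algebraMap K₀ (AlgebraicClosure ℚ))).nonunits := by
    rw [dvd_mem_nonunits_comap, map_natCast]
    exact hA
  have hne : A.comap (algebraMap K₀ (AlgebraicClosure ℚ)) ≠ ⊤ := by
    intro htop
    rw [ValuationSubring.mem_nonunits_iff_or] at hlnon
    rcases hlnon with h0 | h1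
    · exact hl (by exact_mod_cast h0)
    · exact h1 (htop ▸ ValuationSubring.mem_top _)
  obtain ⟨hdvr, hfin⟩ := dvd_isDVR K₀ _ hne
  exact ⟨hdvr, hfin, hlnon⟩

/-- the intermediate field generated by a finite subset of `ℚ̄` is a number field -/
theorem dvd_adjoin_finite (s : Finset (AlgebraicClosure ℚ)) :
    FiniteDimensional ℚ
      (IntermediateField.adjoin ℚ (s : Set (AlgebraicClosure ℚ))) :=
  IntermediateField.finiteDimensional_adjoin
    (fun x _ => ((AlgebraicClosure.isAlgebraic ℚ).isAlgebraic x).isIntegral)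

/-- finitely many residue classes of `A` have representatives in `A ∩ K₀` as soon as `K₀` contains
a suitable finite set -/
theorem dvd_residue_lift {K : Type*} [Field K] (A : ValuationSubring K)
    (t : Finset (IsLocalRing.ResidueField ↥A)) :
    ∃ T : Finset K, ∀ K₀ : Subfield K, (∀ c ∈ T, c ∈ K₀) →
      ∀ z ∈ t, ∃ (y : K₀) (hy : (y : K) ∈ A), IsLocalRing.residue ↥A ⟨(y : K), hy⟩ = z := by
  classical
  have hlift : ∀ z : IsLocalRing.ResidueField ↥A, ∃ y : A, IsLocalRing.residue ↥A y = z :=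
    fun z => IsLocalRing.residue_surjective z
  choose lift hliftspec using hlift
  refine ⟨t.image (fun z => ((lift z : A) : K)), fun K₀ hT z hz => ?_⟩
  exact ⟨⟨_, hT _ (Finset.mem_image_of_mem _ hz)⟩, (lift z).2, hliftspec z⟩

open ModularCurve in
/-- a Laurent series all of whose coefficients lie in a subring comes from a Laurent series over
the subring -/
theorem dvd_lift_coeff {R : Type*} [CommRing R] (S : Subring R) (x : LaurentSeries R)
    (hx : ∀ n, x.coeff n ∈ S) : ∃ y : LaurentSeries S, coeffMap S.subtype y = x := by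
  refine ⟨⟨fun n => ⟨x.coeff n, hx n⟩, ?_⟩, ?_⟩
  · refine x.isPWO_support.mono ?_
    intro n hn
    rw [Function.mem_support] at hn
    rw [HahnSeries.mem_support]
    intro h0
    exact hn (Subtype.ext h0)
  · ext n
    rfl

open ModularCurve in
/-- base change along a field homomorphism maps `laurentBaseChange K₀ F₀` into
`laurentBaseChange L F₀` -/
theorem dvd_bc_mem {K₀ L : Type*} [Field K₀] [Field L] [Algebra ℚ K₀] [Algebra ℚ L]
    (f : K₀ →+* L) (F₀ : IntermediateField ℚ (LaurentSeries ℚ)) {x : LaurentSeries K₀}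
    (hx : x ∈ laurentBaseChange K₀ F₀) : coeffMap f x ∈ laurentBaseChange L F₀ := by
  rw [mem_laurentBaseChange_iff] at hx
  induction hx using Subfield.closure_induction with
  | mem y hy =>
    rcases hy with ⟨a, rfl⟩ | ⟨z, hz, rfl⟩
    · rw [algebraMap_laurentSeries_eq_single, coeffMap_single,
        ← algebraMap_laurentSeries_eq_single]
      exact (laurentBaseChange L F₀).algebraMap_mem _
    · rw [coeffEmb, coeffMap_coeffMap]
      have h : f.comp (algebraMap ℚ K₀) = algebraMap ℚ L := Subsingleton.elim _ _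
      rw [h]
      exact coeffEmb_mem_laurentBaseChange L hz
  | one => rw [map_one]; exact one_mem _
  | add x y _ _ hx hy => rw [map_add]; exact add_mem hx hy
  | neg x _ hx => rw [map_neg]; exact neg_mem hx
  | inv x _ hx => rw [map_inv₀]; exact inv_mem hx
  | mul x y _ _ hx hy => rw [map_mul]; exact mul_mem hx hy

open ModularCurve in
/-- descent of an element of `laurentBaseChange L F₀` to every intermediate field containing a
suitable finite set -/
theorem dvd_descend_bc (L : Type*) [Field L] [Algebra ℚ L]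
    (F₀ : IntermediateField ℚ (LaurentSeries ℚ)) (x : LaurentSeries L)
    (hx : x ∈ laurentBaseChange L F₀) :
    ∃ T : Finset L, ∀ K₀ : IntermediateField ℚ L, (∀ c ∈ T, c ∈ K₀) →
      ∃ x₀ ∈ laurentBaseChange K₀ F₀, coeffMap (algebraMap K₀ L) x₀ = x := by
  rw [mem_laurentBaseChange_iff] at hx
  obtain ⟨T, hT⟩ := dvd_descend (algebraMap ℚ L) (F₀ : Set (LaurentSeries ℚ)) x hx
  refine ⟨T, fun K₀ hK₀ => ?_⟩
  obtain ⟨x₀, hx₀, hxx₀⟩ := hT K₀.toSubfield (fun r => K₀.algebraMap_mem r) hK₀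
  refine ⟨x₀, ?_, hxx₀⟩
  rw [mem_laurentBaseChange_iff]
  have h : (algebraMap ℚ L).codRestrict K₀.toSubfield (fun r => K₀.algebraMap_mem r)
      = algebraMap ℚ K₀ := Subsingleton.elim _ _
  rw [h] at hx₀
  exact hx₀

open ModularCurve in
/-- joint descent: a number field `K₀ ⊆ ℚ̄` containing a given finite set, over which finitely
many given elements of `laurentBaseChange ℚ̄ F₀` are defined, with `A ∩ K₀` a DVR with finite
residue field in which `l` is a non-unit -/
theorem dvd_exists_bc (l : ℕ) (hl : l ≠ 0) (A : ValuationSubring (AlgebraicClosure ℚ))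
    (hA : A.LiesOverPrime l) (s : Finset (AlgebraicClosure ℚ))
    (F₀ : IntermediateField ℚ (LaurentSeries ℚ))
    (X : Finset (LaurentSeries (AlgebraicClosure ℚ)))
    (hX : ∀ x ∈ X, x ∈ laurentBaseChange (AlgebraicClosure ℚ) F₀) :
    ∃ K₀ : IntermediateField ℚ (AlgebraicClosure ℚ), FiniteDimensional ℚ K₀ ∧
      (∀ x ∈ s, x ∈ K₀) ∧
      IsDiscreteValuationRing ↥(A.comap (algebraMap K₀ (AlgebraicClosure ℚ))) ∧
      Finite (IsLocalRing.ResidueField ↥(A.comap (algebraMap K₀ (AlgebraicClosure ℚ)))) ∧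
      (l : K₀) ∈ (A.comap (algebraMap K₀ (AlgebraicClosure ℚ))).nonunits ∧
      ∀ x ∈ X, ∃ x₀ ∈ laurentBaseChange K₀ F₀,
        coeffMap (algebraMap K₀ (AlgebraicClosure ℚ)) x₀ = x := by
  classical
  have hT : ∀ x : LaurentSeries (AlgebraicClosure ℚ), ∃ T : Finset (AlgebraicClosure ℚ),
      x ∈ laurentBaseChange (AlgebraicClosure ℚ) F₀ →
      ∀ K₀ : IntermediateField ℚ (AlgebraicClosure ℚ), (∀ c ∈ T, c ∈ K₀) →
        ∃ x₀ ∈ laurentBaseChange K₀ F₀,
          coeffMap (algebraMap K₀ (AlgebraicClosure ℚ)) x₀ = x := by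
    intro x
    by_cases hx : x ∈ laurentBaseChange (AlgebraicClosure ℚ) F₀
    · obtain ⟨T, hT⟩ := dvd_descend_bc (AlgebraicClosure ℚ) F₀ x hx
      exact ⟨T, fun _ => hT⟩
    · exact ⟨∅, fun h => absurd h hx⟩
  choose T hT using hT
  let s' : Finset (AlgebraicClosure ℚ) := s ∪ X.biUnion T
  let K₀ : IntermediateField ℚ (AlgebraicClosure ℚ) :=
    IntermediateField.adjoin ℚ (s' : Set (AlgebraicClosure ℚ))
  have hfd : FiniteDimensional ℚ K₀ := dvd_adjoin_finite s'
  have hs' : ∀ x ∈ s', x ∈ K₀ := fun x hx =>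
    IntermediateField.subset_adjoin ℚ _ (Finset.mem_coe.mpr hx)
  obtain ⟨hdvr, hfin, hlnon⟩ := dvd_isDVR_comap l hl A hA K₀
  refine ⟨K₀, hfd, fun x hx => hs' x (Finset.mem_union_left _ hx), hdvr, hfin, hlnon, ?_⟩
  intro x hx
  exact hT x (hX x hx) K₀ (fun c hc =>
    hs' c (Finset.mem_union_right _ (Finset.mem_biUnion.mpr ⟨x, hx, hc⟩)))

end Fermat.Agent.S18
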