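import Mathlib
import Fermat.Prelude.Def_ModularCurve_LaurentCoeff
import Fermat.Agent.S18.DvrDef
import Fermat.Agent.S18.GaussRing

/-!
# S18: base change of the coefficient field of the function fields `laurentBaseChange K F₀`

`K₀ → L` an extension of fields of characteristic zero, `F₀ ⊆ ℚ((q))`.

* `bcfHom K₀ L F₀ : laurentBaseChange K₀ F₀ →+* laurentBaseChange L F₀` (coefficientwise);
* `bcf_linearIndependent`: `K₀((q))` and `L` are linearly disjoint over `K₀` inside `L((q))`;
* `bcf_closure_eq`, `bcf_adjoin_eq_top`: `laurentBaseChange L F₀` is the compositum of the image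
  of `laurentBaseChange K₀ F₀` and the constants `L`;
* `bcf_grV_mem`, `bcf_grRho_ne_zero`: compatibility with the Gauss rings of `A ∩ K₀ ⊆ A`.
-/

set_option autoImplicit false

noncomputable section

open ModularCurve

namespace Fermat.Agent.S18

section Hom

variable (K₀ L : Type*) [Field K₀] [Field L] [Algebra ℚ K₀] [Algebra ℚ L] [Algebra K₀ L]
variable (F₀ : IntermediateField ℚ (LaurentSeries ℚ))

/-- the base-change embedding `F₀ · K₀ → F₀ · L` -/
def bcfHom : ↥(laurentBaseChange K₀ F₀) →+* ↥(laurentBaseChange L F₀) :=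
  ((coeffMap (algebraMap K₀ L)).comp (algebraMap ↥(laurentBaseChange K₀ F₀) (LaurentSeries K₀))).codRestrict
    (laurentBaseChange L F₀) (fun x => dvd_bc_mem (algebraMap K₀ L) F₀ x.2)

theorem bcfHom_coe (x : ↥(laurentBaseChange K₀ F₀)) :
    ((bcfHom K₀ L F₀ x : ↥(laurentBaseChange L F₀)) : LaurentSeries L) =
      coeffMap (algebraMap K₀ L) (x : LaurentSeries K₀) :=
  rfl

theorem bcfHom_injective : Function.Injective (bcfHom K₀ L F₀) :=
  (bcfHom K₀ L F₀).injective

omit [Algebra ℚ K₀] [Algebra ℚ L] in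
theorem bcf_coeffMap_algebraMap (c : K₀) :
    coeffMap (algebraMap K₀ L) (algebraMap K₀ (LaurentSeries K₀) c) =
      algebraMap L (LaurentSeries L) (algebraMap K₀ L c) := by
  rw [algebraMap_laurentSeries_eq_single, coeffMap_single, ← algebraMap_laurentSeries_eq_single]

theorem bcfHom_algebraMap (c : K₀) :
    bcfHom K₀ L F₀ (algebraMap K₀ ↥(laurentBaseChange K₀ F₀) c) =
      algebraMap L ↥(laurentBaseChange L F₀) (algebraMap K₀ L c) :=
  Subtype.ext (bcf_coeffMap_algebraMap K₀ L c)

theorem bcf_coeffMap_coeffEmb (x : LaurentSeries ℚ) :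
    coeffMap (algebraMap K₀ L) (coeffEmb K₀ x) = coeffEmb L x := by
  rw [coeffEmb, coeffMap_coeffMap]
  have h : (algebraMap K₀ L).comp (algebraMap ℚ K₀) = algebraMap ℚ L := Subsingleton.elim _ _
  rw [h]
  rfl

theorem bcfHom_coeffEmb {x : LaurentSeries ℚ} (hx : x ∈ F₀) :
    bcfHom K₀ L F₀ ⟨coeffEmb K₀ x, coeffEmb_mem_laurentBaseChange K₀ hx⟩ =
      ⟨coeffEmb L x, coeffEmb_mem_laurentBaseChange L hx⟩ :=
  Subtype.ext (bcf_coeffMap_coeffEmb K₀ L x)

omit [Algebra ℚ K₀] [Algebra ℚ L] in
/-- `K₀((q))` and `L` are linearly disjoint over `K₀` inside `L((q))` -/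
theorem bcf_linearIndependent {ι : Type*} (x : ι → LaurentSeries K₀)
    (h : LinearIndependent K₀ x) :
    LinearIndependent L (fun i => coeffMap (algebraMap K₀ L) (x i)) := by
  classical
  rw [linearIndependent_iff'] at h ⊢
  intro s g hg i hi
  rw [← Module.forall_dual_apply_eq_zero_iff (R := K₀)]
  intro φ
  refine h s (fun i => φ (g i)) ?_ i hi
  ext n
  have hn := congrArg (fun y => HahnSeries.coeff y n) hg
  simp only [HahnSeries.coeff_sum, HahnSeries.coeff_smul, coeffMap_coeff, HahnSeries.coeff_zero,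
    smul_eq_mul] at hn
  rw [HahnSeries.coeff_sum, HahnSeries.coeff_zero]
  have h2 := congrArg φ hn
  rw [map_sum, map_zero] at h2
  rw [← h2]
  refine Finset.sum_congr rfl fun j _ => ?_
  rw [HahnSeries.coeff_smul, smul_eq_mul, mul_comm (g j), ← Algebra.smul_def, map_smul,
    smul_eq_mul, mul_comm]

/-- `laurentBaseChange L F₀` is generated by the constants and the image of
`laurentBaseChange K₀ F₀` -/
theorem bcf_closure_eq :
    Subfield.closure (Set.range (algebraMap L (LaurentSeries L)) ∪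
      (⇑(coeffMap (algebraMap K₀ L)) '' (laurentBaseChange K₀ F₀ : Set (LaurentSeries K₀)))) =
      (laurentBaseChange L F₀).toSubfield := by
  apply le_antisymm
  · rw [Subfield.closure_le]
    rintro y (⟨c, rfl⟩ | ⟨z, hz, rfl⟩)
    · exact (laurentBaseChange L F₀).algebraMap_mem c
    · exact dvd_bc_mem (algebraMap K₀ L) F₀ hz
  · intro y hy
    have hy' : y ∈ Subfield.closure (Set.range (algebraMap L (LaurentSeries L)) ∪
        (⇑(coeffEmb L) '' (F₀ : Set (LaurentSeries ℚ)))) := hy
    refine Subfield.closure_mono ?_ hy'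
    rintro z (hz | ⟨w, hw, rfl⟩)
    · exact Or.inl hz
    · exact Or.inr ⟨coeffEmb K₀ w, coeffEmb_mem_laurentBaseChange K₀ hw,
        bcf_coeffMap_coeffEmb K₀ L w⟩

/-- the algebra structure `F₀ · K₀ → F₀ · L` given by `bcfHom` (to be used with `letI`) -/
@[reducible] def bcfAlgebra : Algebra ↥(laurentBaseChange K₀ F₀) ↥(laurentBaseChange L F₀) :=
  (bcfHom K₀ L F₀).toAlgebra

/-- the `K₀`-algebra structure on `F₀ · L` through the constants `L` (to be used with `letI`) -/
@[reducible] def bcfAlgebraConst : Algebra K₀ ↥(laurentBaseChange L F₀) :=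
  ((algebraMap L ↥(laurentBaseChange L F₀)).comp (algebraMap K₀ L)).toAlgebra

theorem bcf_isScalarTower_const :
    letI := bcfAlgebraConst K₀ L F₀
    IsScalarTower K₀ L ↥(laurentBaseChange L F₀) := by
  letI := bcfAlgebraConst K₀ L F₀
  exact IsScalarTower.of_algebraMap_eq (fun _ => rfl)

theorem bcf_isScalarTower :
    letI := bcfAlgebraConst K₀ L F₀
    letI := bcfAlgebra K₀ L F₀
    IsScalarTower K₀ ↥(laurentBaseChange K₀ F₀) ↥(laurentBaseChange L F₀) := by
  letI := bcfAlgebraConst K₀ L F₀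
  letI := bcfAlgebra K₀ L F₀
  exact IsScalarTower.of_algebraMap_eq (fun c => (bcfHom_algebraMap K₀ L F₀ c).symm)

/-- `F₀ · L` is the compositum of (the image of) `F₀ · K₀` and the constants `L`, in the shape
of an `IntermediateField.adjoin` over `F₀ · K₀` -/
theorem bcf_adjoin_eq_top :
    letI := bcfAlgebra K₀ L F₀
    IntermediateField.adjoin ↥(laurentBaseChange K₀ F₀)
      (Set.range (algebraMap L ↥(laurentBaseChange L F₀))) = ⊤ := by
  letI := bcfAlgebra K₀ L F₀
  rw [eq_top_iff]
  intro y _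
  set E := IntermediateField.adjoin ↥(laurentBaseChange K₀ F₀)
      (Set.range (algebraMap L ↥(laurentBaseChange L F₀))) with hE
  have hy : (y : LaurentSeries L) ∈ (laurentBaseChange L F₀).toSubfield := y.2
  rw [← bcf_closure_eq K₀ L F₀] at hy
  have hle : Subfield.closure (Set.range (algebraMap L (LaurentSeries L)) ∪
      (⇑(coeffMap (algebraMap K₀ L)) '' (laurentBaseChange K₀ F₀ : Set (LaurentSeries K₀)))) ≤
      E.toSubfield.map (algebraMap ↥(laurentBaseChange L F₀) (LaurentSeries L)) := by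
    rw [Subfield.closure_le]
    rintro z (⟨c, rfl⟩ | ⟨w, hw, rfl⟩)
    · exact ⟨algebraMap L ↥(laurentBaseChange L F₀) c,
        IntermediateField.subset_adjoin _ _ ⟨c, rfl⟩, rfl⟩
    · exact ⟨algebraMap ↥(laurentBaseChange K₀ F₀) ↥(laurentBaseChange L F₀) ⟨w, hw⟩,
        E.algebraMap_mem _, rfl⟩
  obtain ⟨y', hy', hyy'⟩ := hle hy
  have : y' = y := Subtype.ext hyy'
  rw [← this]
  exact hy'

end Hom

section Gauss

variable {K₀ L : Type*} [Field K₀] [Field L] [Algebra K₀ L] (A : ValuationSubring L)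

/-- the inclusion `A ∩ K₀ → A` -/
def bcfInc : ↥(A.comap (algebraMap K₀ L)) →+* ↥A :=
  ((algebraMap K₀ L).comp (A.comap (algebraMap K₀ L)).subtype).codRestrict A.toSubring
    (fun x => x.2)

theorem bcfInc_coe (x : ↥(A.comap (algebraMap K₀ L))) :
    ((bcfInc A x : ↥A) : L) = algebraMap K₀ L (x : K₀) :=
  rfl

theorem bcfInc_isUnit_iff (x : ↥(A.comap (algebraMap K₀ L))) :
    IsUnit (bcfInc A x) ↔ IsUnit x := by
  constructor
  · intro h
    by_contra hx
    have h1 : (x : K₀) ∈ (A.comap (algebraMap K₀ L)).nonunits := by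
      rw [ValuationSubring.mem_nonunits_iff_exists_mem_maximalIdeal]
      exact ⟨x.2, hx⟩
    rw [dvd_mem_nonunits_comap, ValuationSubring.mem_nonunits_iff_exists_mem_maximalIdeal] at h1
    obtain ⟨hmem, hmax⟩ := h1
    exact hmax h
  · intro h
    exact h.map (bcfInc A)

instance bcfInc_isLocalHom : IsLocalHom (bcfInc (K₀ := K₀) A) :=
  ⟨fun x hx => (bcfInc_isUnit_iff A x).mp hx⟩

/-- the induced map of residue fields -/
def bcfResMap : IsLocalRing.ResidueField ↥(A.comap (algebraMap K₀ L)) →+*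
    IsLocalRing.ResidueField ↥A :=
  IsLocalRing.ResidueField.map (bcfInc A)

theorem bcfResMap_residue (x : ↥(A.comap (algebraMap K₀ L))) :
    bcfResMap A (IsLocalRing.residue _ x) = IsLocalRing.residue ↥A (bcfInc A x) :=
  rfl

theorem bcf_coeffMap_inc (a : LaurentSeries ↥(A.comap (algebraMap K₀ L))) :
    coeffMap A.subtype (coeffMap (bcfInc A) a) =
      coeffMap (algebraMap K₀ L) (coeffMap (A.comap (algebraMap K₀ L)).subtype a) := by
  rw [coeffMap_coeffMap, coeffMap_coeffMap]
  rfl

theorem bcf_coeffMap_residue_inc (a : LaurentSeries ↥(A.comap (algebraMap K₀ L))) :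
    coeffMap (IsLocalRing.residue ↥A) (coeffMap (bcfInc A) a) =
      coeffMap (bcfResMap A) (coeffMap (IsLocalRing.residue _) a) := by
  rw [coeffMap_coeffMap, coeffMap_coeffMap]
  rfl

theorem bcf_coeffMap_injective {R S : Type*} [CommRing R] [CommRing S] (f : R →+* S)
    (hf : Function.Injective f) : Function.Injective (coeffMap f) := by
  intro x y h
  ext n
  have := congrArg (fun z => HahnSeries.coeff z n) h
  exact hf (by simpa using this)

/-- the Gauss ring of `A ∩ K₀` maps into the Gauss ring of `A` -/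
theorem bcf_grV_mem {x : LaurentSeries K₀} (hx : x ∈ grV (A.comap (algebraMap K₀ L))) :
    coeffMap (algebraMap K₀ L) x ∈ grV A := by
  obtain ⟨a, b, hb, h⟩ := hx
  refine ⟨coeffMap (bcfInc A) a, coeffMap (bcfInc A) b, ?_, ?_⟩
  · rw [bcf_coeffMap_residue_inc]
    intro h0
    exact hb (bcf_coeffMap_injective _ (bcfResMap A).injective (by rw [h0, map_zero]))
  · rw [bcf_coeffMap_inc, bcf_coeffMap_inc, ← map_mul, h]

/-- compatibility of the residue maps of the Gauss rings of `A ∩ K₀` and `A` -/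
theorem bcf_grRho (x : grV (A.comap (algebraMap K₀ L))) :
    grRho A ⟨coeffMap (algebraMap K₀ L) (x : LaurentSeries K₀), bcf_grV_mem A x.2⟩ =
      coeffMap (bcfResMap A) (grRho (A.comap (algebraMap K₀ L)) x) := by
  obtain ⟨a, b, hb, h⟩ := x.2
  have h1 := grRho_spec (A.comap (algebraMap K₀ L)) x a b hb h
  have hb' : coeffMap (IsLocalRing.residue ↥A) (coeffMap (bcfInc A) b) ≠ 0 := by
    rw [bcf_coeffMap_residue_inc]
    intro h0
    exact hb (bcf_coeffMap_injective _ (bcfResMap A).injective (by rw [h0, map_zero]))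
  have h2 := grRho_spec A ⟨coeffMap (algebraMap K₀ L) (x : LaurentSeries K₀), bcf_grV_mem A x.2⟩
    (coeffMap (bcfInc A) a) (coeffMap (bcfInc A) b) hb'
    (by rw [bcf_coeffMap_inc, bcf_coeffMap_inc, ← map_mul, h])
  apply mul_right_cancel₀ hb'
  rw [h2, bcf_coeffMap_residue_inc, bcf_coeffMap_residue_inc, ← map_mul, h1]

theorem bcf_grRho_eq_zero_iff (x : grV (A.comap (algebraMap K₀ L))) :
    grRho A ⟨coeffMap (algebraMap K₀ L) (x : LaurentSeries K₀), bcf_grV_mem A x.2⟩ = 0 ↔
      grRho (A.comap (algebraMap K₀ L)) x = 0 := by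
  rw [bcf_grRho]
  constructor
  · intro h
    exact bcf_coeffMap_injective _ (bcfResMap A).injective (by rw [h, map_zero])
  · intro h
    rw [h, map_zero]

/-- descent of membership in the Gauss ring for elements of the form `constant * unit` -/
theorem bcf_grV_mem_iff_of_unit (c : K₀) (u : LaurentSeries K₀)
    (hu : u ∈ grV (A.comap (algebraMap K₀ L))) (hu' : u⁻¹ ∈ grV (A.comap (algebraMap K₀ L))) :
    coeffMap (algebraMap K₀ L) (algebraMap K₀ (LaurentSeries K₀) c * u) ∈ grV A ↔
      algebraMap K₀ (LaurentSeries K₀) c * u ∈ grV (A.comap (algebraMap K₀ L)) := by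
  constructor
  · intro h
    by_cases hu0 : u = 0
    · rw [hu0, mul_zero]; exact Subring.zero_mem _
    have h1 : coeffMap (algebraMap K₀ L) (algebraMap K₀ (LaurentSeries K₀) c) ∈ grV A := by
      have h2 := Subring.mul_mem _ h (bcf_grV_mem A hu')
      rw [← map_mul, mul_assoc, mul_inv_cancel₀ hu0, mul_one] at h2
      exact h2
    rw [bcf_coeffMap_algebraMap, gr_algebraMap_mem_iff] at h1
    have h3 : algebraMap K₀ (LaurentSeries K₀) c ∈ grV (A.comap (algebraMap K₀ L)) := by
      rw [gr_algebraMap_mem_iff]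
      exact h1
    exact Subring.mul_mem _ h3 hu
  · exact bcf_grV_mem A

end Gauss

end Fermat.Agent.S18
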