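import Mathlib
import Fermat.Prelude.Def_ModularCurve_LaurentCoeff
import Fermat.Agent.S28.Defs
import Fermat.Agent.S18.GaussRing
import Fermat.Agent.S18.BaseChangeField

/-!
# S18: the Gauss lemma over a discrete valuation ring

`A₀ : ValuationSubring K₀` a discrete valuation ring.

* `gdv_content`: every nonzero Laurent series over `A₀` is a power of the uniformizer times a
  series with nonzero reduction;
* `gdvField A₀ : Subfield (LaurentSeries K₀)`: the elements that are zero or `constant * unit of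
  the Gauss ring`; it contains the constants and all series with coefficients in `A₀`;
* `gdv_full_le`: the level-`M` function field over `K₀` is contained in `gdvField A₀`;
* `gdv_descend`: for `x₀` in the level-`M` function field over `K₀`, membership in the Gauss ring
  of a valuation subring `A` of an extension `L` with `A ∩ K₀ = A₀` (and vanishing of the
  residue) descends to `A₀`.
-/

set_option autoImplicit false

noncomputable section

open ModularCurve

namespace Fermat.Agent.S18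

section Content

variable {K₀ : Type*} [Field K₀] (A₀ : ValuationSubring K₀)

/-- Gauss units: nonzero elements of the Gauss ring whose inverse lies in the Gauss ring -/
def gdvUnit (u : LaurentSeries K₀) : Prop := u ≠ 0 ∧ u ∈ grV A₀ ∧ u⁻¹ ∈ grV A₀

theorem gdvUnit_one : gdvUnit A₀ 1 :=
  ⟨one_ne_zero, Subring.one_mem _, by rw [inv_one]; exact Subring.one_mem _⟩

theorem gdvUnit_mul {u w : LaurentSeries K₀} (hu : gdvUnit A₀ u) (hw : gdvUnit A₀ w) :
    gdvUnit A₀ (u * w) :=
  ⟨mul_ne_zero hu.1 hw.1, Subring.mul_mem _ hu.2.1 hw.2.1,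
    by rw [mul_inv]; exact Subring.mul_mem _ hu.2.2 hw.2.2⟩

theorem gdvUnit_inv {u : LaurentSeries K₀} (hu : gdvUnit A₀ u) : gdvUnit A₀ u⁻¹ :=
  ⟨inv_ne_zero hu.1, hu.2.2, by rw [inv_inv]; exact hu.2.1⟩

theorem gdvUnit_neg {u : LaurentSeries K₀} (hu : gdvUnit A₀ u) : gdvUnit A₀ (-u) :=
  ⟨neg_ne_zero.mpr hu.1, Subring.neg_mem _ hu.2.1,
    by rw [inv_neg]; exact Subring.neg_mem _ hu.2.2⟩

/-- a series over `A₀` with nonzero reduction is a Gauss unit -/
theorem gdvUnit_of_primitive (b : LaurentSeries A₀)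
    (hb : coeffMap (IsLocalRing.residue A₀) b ≠ 0) : gdvUnit A₀ (coeffMap A₀.subtype b) := by
  have hb0 : coeffMap A₀.subtype b ≠ 0 := by
    intro h0
    apply hb
    have : b = 0 := gr_inc_injective A₀ (by rw [h0, map_zero])
    rw [this, map_zero]
  refine ⟨hb0, gr_coeffMap_mem A₀ b, ?_⟩
  refine ⟨1, b, hb, ?_⟩
  rw [map_one, inv_mul_cancel₀ hb0]

/-- a Gauss unit has nonzero residue -/
theorem gdvUnit_rho_ne_zero {u : LaurentSeries K₀} (hu : gdvUnit A₀ u) :
    grRho A₀ ⟨u, hu.2.1⟩ ≠ 0 := by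
  intro h0
  exact gr_inv_notMem A₀ ⟨u, hu.2.1⟩ h0 hu.1 hu.2.2

theorem gdvUnit_of_rho_ne_zero (u : grV A₀) (hu : grRho A₀ u ≠ 0) :
    gdvUnit A₀ (u : LaurentSeries K₀) := by
  refine ⟨?_, u.2, gr_inv_mem A₀ u hu⟩
  intro h0
  apply hu
  have : u = 0 := Subtype.ext h0
  rw [this, map_zero]

variable [IsDiscreteValuationRing ↥A₀]

/-- content of a nonzero Laurent series over a discrete valuation ring -/
theorem gdv_content (a : LaurentSeries A₀) (ha : a ≠ 0) :
    ∃ (c : A₀) (b : LaurentSeries A₀), c ≠ 0 ∧ coeffMap (IsLocalRing.residue A₀) b ≠ 0 ∧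
      coeffMap A₀.subtype a =
        algebraMap K₀ (LaurentSeries K₀) (c : K₀) * coeffMap A₀.subtype b := by
  classical
  obtain ⟨ϖ, hϖ⟩ := IsDiscreteValuationRing.exists_irreducible ↥A₀
  -- the minimal exponent
  have hex : ∃ n : ℕ, ∃ k : ℤ, a.coeff k ≠ 0 ∧ ∃ u : (↥A₀)ˣ, a.coeff k = u * ϖ ^ n := by
    obtain ⟨k, hk⟩ : ∃ k, a.coeff k ≠ 0 := by
      by_contra hall
      push Not at hall
      exact ha (HahnSeries.ext (funext hall))
    obtain ⟨n, u, hu⟩ := IsDiscreteValuationRing.eq_unit_mul_pow_irreducible hk hϖ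
    exact ⟨n, k, hk, u, hu⟩
  set n := Nat.find hex with hn
  obtain ⟨k₀, hk₀, u₀, hu₀⟩ := Nat.find_spec hex
  have hdvd : ∀ k : ℤ, ϖ ^ n ∣ a.coeff k := by
    intro k
    by_cases hk : a.coeff k = 0
    · rw [hk]; exact dvd_zero _
    · obtain ⟨m, u, hu⟩ := IsDiscreteValuationRing.eq_unit_mul_pow_irreducible hk hϖ
      have hnm : n ≤ m := Nat.find_min' hex ⟨k, hk, u, hu⟩
      rw [hu]
      exact Dvd.dvd.mul_left (pow_dvd_pow ϖ hnm) _
  choose bc hbc using hdvd
  have hϖn : ϖ ^ n ≠ 0 := pow_ne_zero _ hϖ.ne_zero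
  let b : LaurentSeries A₀ := ⟨bc, by
    refine a.isPWO_support.mono ?_
    intro k hk
    rw [Function.mem_support] at hk
    rw [HahnSeries.mem_support, hbc k]
    exact mul_ne_zero hϖn hk⟩
  have hbcoeff : ∀ k, b.coeff k = bc k := fun k => rfl
  refine ⟨ϖ ^ n, b, hϖn, ?_, ?_⟩
  · intro h0
    have h1 := congrArg (fun y => HahnSeries.coeff y k₀) h0
    simp only [coeffMap_coeff, HahnSeries.coeff_zero] at h1
    rw [IsLocalRing.residue_eq_zero_iff, hbcoeff] at h1
    have h2 : bc k₀ = u₀ := by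
      have h3 := hbc k₀
      rw [hu₀, mul_comm] at h3
      exact (mul_left_cancel₀ hϖn h3).symm
    rw [h2] at h1
    exact (IsLocalRing.mem_maximalIdeal _).mp h1 u₀.isUnit
  · ext k
    rw [algebraMap_laurentSeries_eq_single, HahnSeries.coeff_single_zero_mul, coeffMap_coeff,
      coeffMap_coeff, hbcoeff, hbc k]
    rfl

/-- zero, or a nonzero constant times a Gauss unit -/
def gdvProp (x : LaurentSeries K₀) : Prop :=
  x = 0 ∨ ∃ c : K₀, c ≠ 0 ∧ ∃ u : LaurentSeries K₀, gdvUnit A₀ u ∧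
    x = algebraMap K₀ (LaurentSeries K₀) c * u

omit [IsDiscreteValuationRing ↥A₀] in
theorem gdvProp_const (c : K₀) : gdvProp A₀ (algebraMap K₀ (LaurentSeries K₀) c) := by
  by_cases hc : c = 0
  · left; rw [hc, map_zero]
  · exact Or.inr ⟨c, hc, 1, gdvUnit_one A₀, (mul_one _).symm⟩

omit [IsDiscreteValuationRing ↥A₀] in
theorem gdvProp_mul {x y : LaurentSeries K₀} (hx : gdvProp A₀ x) (hy : gdvProp A₀ y) :
    gdvProp A₀ (x * y) := by
  rcases hx with rfl | ⟨c, hc, u, hu, rfl⟩
  · left; rw [zero_mul]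
  rcases hy with rfl | ⟨d, hd, w, hw, rfl⟩
  · left; rw [mul_zero]
  refine Or.inr ⟨c * d, mul_ne_zero hc hd, u * w, gdvUnit_mul A₀ hu hw, ?_⟩
  rw [map_mul]; ring

omit [IsDiscreteValuationRing ↥A₀] in
theorem gdvProp_inv {x : LaurentSeries K₀} (hx : gdvProp A₀ x) : gdvProp A₀ x⁻¹ := by
  rcases hx with rfl | ⟨c, hc, u, hu, rfl⟩
  · left; rw [inv_zero]
  refine Or.inr ⟨c⁻¹, inv_ne_zero hc, u⁻¹, gdvUnit_inv A₀ hu, ?_⟩
  rw [mul_inv, map_inv₀]

omit [IsDiscreteValuationRing ↥A₀] in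
theorem gdvProp_neg {x : LaurentSeries K₀} (hx : gdvProp A₀ x) : gdvProp A₀ (-x) := by
  rcases hx with rfl | ⟨c, hc, u, hu, rfl⟩
  · left; rw [neg_zero]
  refine Or.inr ⟨c, hc, -u, gdvUnit_neg A₀ hu, ?_⟩
  rw [mul_neg]

/-- every element of the Gauss ring of a DVR is (a constant of `A₀`) times a Gauss unit -/
theorem gdvProp_of_mem_grV {z : LaurentSeries K₀} (hz : z ∈ grV A₀) : gdvProp A₀ z := by
  by_cases hz0 : z = 0
  · exact Or.inl hz0
  obtain ⟨a, b, hb, h⟩ := hz
  have hbu := gdvUnit_of_primitive A₀ b hb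
  have ha : a ≠ 0 := by
    rintro rfl
    rw [map_zero] at h
    exact (mul_ne_zero hz0 hbu.1) h
  obtain ⟨c, a', hc, ha', hca⟩ := gdv_content A₀ a ha
  have hau := gdvUnit_of_primitive A₀ a' ha'
  have hc' : (c : K₀) ≠ 0 := by
    intro h0
    exact hc (Subtype.ext h0)
  refine Or.inr ⟨c, hc', coeffMap A₀.subtype a' * (coeffMap A₀.subtype b)⁻¹,
    gdvUnit_mul A₀ hau (gdvUnit_inv A₀ hbu), ?_⟩
  rw [← mul_assoc, ← hca, ← h, mul_assoc, mul_inv_cancel₀ hbu.1, mul_one]

theorem gdvProp_add {x y : LaurentSeries K₀} (hx : gdvProp A₀ x) (hy : gdvProp A₀ y) :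
    gdvProp A₀ (x + y) := by
  rcases hx with rfl | ⟨c, hc, u, hu, rfl⟩
  · rw [zero_add]; exact hy
  rcases hy with rfl | ⟨d, hd, w, hw, rfl⟩
  · rw [add_zero]; exact Or.inr ⟨c, hc, u, hu, rfl⟩
  -- one of `c / d`, `d / c` lies in `A₀`
  have key : ∀ (c d : K₀) (u w : LaurentSeries K₀), c ≠ 0 → d ≠ 0 → gdvUnit A₀ u →
      gdvUnit A₀ w → c / d ∈ A₀ →
      gdvProp A₀ (algebraMap K₀ (LaurentSeries K₀) c * u +
        algebraMap K₀ (LaurentSeries K₀) d * w) := by
    intro c d u w hc hd hu hw hcd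
    have hz : algebraMap K₀ (LaurentSeries K₀) (c / d) * u + w ∈ grV A₀ :=
      Subring.add_mem _ (Subring.mul_mem _ ((gr_algebraMap_mem_iff A₀ _).mpr hcd) hu.2.1) hw.2.1
    have h1 := gdvProp_mul A₀ (gdvProp_const A₀ d) (gdvProp_of_mem_grV A₀ hz)
    have h2 : algebraMap K₀ (LaurentSeries K₀) d *
        (algebraMap K₀ (LaurentSeries K₀) (c / d) * u + w) =
        algebraMap K₀ (LaurentSeries K₀) c * u + algebraMap K₀ (LaurentSeries K₀) d * w := by
      rw [mul_add, ← mul_assoc, ← map_mul, mul_div_cancel₀ c hd]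
    rw [h2] at h1
    exact h1
  rcases A₀.mem_or_inv_mem (c / d) with h | h
  · exact key c d u w hc hd hu hw h
  · rw [add_comm]
    refine key d c w u hd hc hw hu ?_
    rw [inv_div] at h
    exact h

/-- the field of all elements that are zero or a constant times a Gauss unit -/
def gdvField : Subfield (LaurentSeries K₀) where
  carrier := {x | gdvProp A₀ x}
  mul_mem' := fun hx hy => gdvProp_mul A₀ hx hy
  one_mem' := by
    have := gdvProp_const A₀ (1 : K₀)
    rw [map_one] at this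
    exact this
  add_mem' := fun hx hy => gdvProp_add A₀ hx hy
  zero_mem' := Or.inl rfl
  neg_mem' := fun hx => gdvProp_neg A₀ hx
  inv_mem' := fun _ hx => gdvProp_inv A₀ hx

theorem mem_gdvField {x : LaurentSeries K₀} : x ∈ gdvField A₀ ↔ gdvProp A₀ x := Iff.rfl

theorem gdv_coeffMap_mem (a : LaurentSeries A₀) : coeffMap A₀.subtype a ∈ gdvField A₀ :=
  gdvProp_of_mem_grV A₀ (gr_coeffMap_mem A₀ a)

/-- the field generated by the constants and a set of series with coefficients in `A₀` is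
contained in `gdvField A₀` -/
theorem gdv_closure_le (T : Set (LaurentSeries A₀)) :
    Subfield.closure (Set.range (algebraMap K₀ (LaurentSeries K₀)) ∪
      (⇑(coeffMap A₀.subtype) '' T)) ≤ gdvField A₀ := by
  rw [Subfield.closure_le]
  rintro y (⟨c, rfl⟩ | ⟨a, -, rfl⟩)
  · exact gdvProp_const A₀ c
  · exact gdv_coeffMap_mem A₀ a

/-- the level-`M` function field over `K₀` consists of constants times Gauss units -/
theorem gdv_full_le [Algebra ℚ K₀] (M : ℕ) [NeZero M] {x : LaurentSeries K₀}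
    (hx : x ∈ laurentBaseChange K₀ (modularFunctionFieldFull M)) : gdvProp A₀ x := by
  rw [mem_laurentBaseChange_iff] at hx
  have hle : Subfield.closure (Set.range (algebraMap K₀ (LaurentSeries K₀)) ∪
      (⇑(coeffEmb K₀) '' (modularFunctionFieldFull M : Set (LaurentSeries ℚ)))) ≤ gdvField A₀ := by
    rw [Subfield.closure_le]
    rintro y (⟨c, rfl⟩ | ⟨z, hz, rfl⟩)
    · exact gdvProp_const A₀ c
    · -- the preimage of `gdvField` is a subfield containing the generators
      have hz' : z ∈ (modularFunctionFieldFull M).toSubfield := hz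
      rw [modularFunctionFieldFull, IntermediateField.adjoin_toSubfield] at hz'
      have hle2 : Subfield.closure (Set.range (algebraMap ℚ (LaurentSeries ℚ)) ∪
          divisorExpansions M) ≤ (gdvField A₀).comap (coeffEmb K₀) := by
        rw [Subfield.closure_le]
        rintro w (⟨c, rfl⟩ | ⟨d, hd, -, rfl⟩)
        · show coeffEmb K₀ (algebraMap ℚ (LaurentSeries ℚ) c) ∈ gdvField A₀
          rw [coeffEmb, algebraMap_laurentSeries_eq_single, coeffMap_single,
            ← algebraMap_laurentSeries_eq_single]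
          exact gdvProp_const A₀ _
        · show coeffEmb K₀ (qExpand ℚ d jq) ∈ gdvField A₀
          rw [← Fermat.Agent.S28.jd_rat_eq_qExpand, coeffEmb, Fermat.Agent.S28.coeffMap_jd,
            ← Fermat.Agent.S28.coeffMap_jd A₀.subtype d]
          exact gdv_coeffMap_mem A₀ _
      exact hle2 hz'
  exact hle hx

end Content

section Descend

variable {K₀ L : Type*} [Field K₀] [Field L] [Algebra K₀ L] (A : ValuationSubring L)

/-- descent of membership in the Gauss ring: constants times Gauss units of `A ∩ K₀` whose image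
lies in the Gauss ring of `A` lie in the Gauss ring of `A ∩ K₀` -/
theorem gdv_descend_mem {x₀ : LaurentSeries K₀} (hx₀ : gdvProp (A.comap (algebraMap K₀ L)) x₀)
    (h : coeffMap (algebraMap K₀ L) x₀ ∈ grV A) : x₀ ∈ grV (A.comap (algebraMap K₀ L)) := by
  rcases hx₀ with rfl | ⟨c, -, u, hu, rfl⟩
  · exact Subring.zero_mem _
  · exact (bcf_grV_mem_iff_of_unit A c u hu.2.1 hu.2.2).mp h

/-- descent of `membership in the Gauss ring with residue zero` -/
theorem gdv_descend {x₀ : LaurentSeries K₀} (hx₀ : gdvProp (A.comap (algebraMap K₀ L)) x₀)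
    (h : coeffMap (algebraMap K₀ L) x₀ ∈ grV A) (h0 : grRho A ⟨_, h⟩ = 0) :
    ∃ h' : x₀ ∈ grV (A.comap (algebraMap K₀ L)),
      grRho (A.comap (algebraMap K₀ L)) ⟨x₀, h'⟩ = 0 := by
  have h' := gdv_descend_mem A hx₀ h
  exact ⟨h', (bcf_grRho_eq_zero_iff A ⟨x₀, h'⟩).mp h0⟩

/-- the consumer's form: for `x₀` in the level-`M` function field over `K₀` -/
theorem gdv_descend_full [IsDiscreteValuationRing ↥(A.comap (algebraMap K₀ L))] [Algebra ℚ K₀]
    (M : ℕ) [NeZero M] {x₀ : LaurentSeries K₀}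
    (hx₀ : x₀ ∈ laurentBaseChange K₀ (modularFunctionFieldFull M))
    (h : coeffMap (algebraMap K₀ L) x₀ ∈ grV A) (h0 : grRho A ⟨_, h⟩ = 0) :
    ∃ h' : x₀ ∈ grV (A.comap (algebraMap K₀ L)),
      grRho (A.comap (algebraMap K₀ L)) ⟨x₀, h'⟩ = 0 :=
  gdv_descend A (gdv_full_le _ M hx₀) h h0

end Descend

end Fermat.Agent.S18
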