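import Mathlib
import Fermat.Agent.S18.GaussRing
import Fermat.Agent.S18.GaussDvr

/-!
# S18, work package COREINST, part 2: the Gauss valuation subring over a DVR of definition

`A₀ : ValuationSubring K₀`, `F` an intermediate field of `K₀((q)) / K₀` all of whose elements are
zero or a constant times a Gauss unit (`gdvProp`; for the level-`M` function field over `K₀` and
a discrete valuation ring `A₀` this is `gdv_full_le`).

* `cinstVG A₀ F hF : ValuationSubring F`, with `x ∈ cinstVG ↔ (x : K₀((q))) ∈ grV A₀`;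
* for ANY valuation subring `VG` of `F` with this membership characterisation:
  `cinst_mem_nonunits_iff` (nonunits = elements with residue zero),
  `cinst_algebraMap_mem_iff` (`VG ∩ K₀ = A₀`), `cinst_nonunits_eq_mul` (`e = 1`: the nonunits are
  the multiples of a uniformizer of `A₀`), `cinst_hf` (the hypothesis `f - 1 ∈ VG.nonunits` of
  the abstract core from the explicit `a / b` form).
-/

set_option autoImplicit false

noncomputable section

open ModularCurve

namespace Fermat.Agent.S18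

section CinstGauss

variable {K₀ : Type*} [Field K₀] (A₀ : ValuationSubring K₀)
  (F : IntermediateField K₀ (LaurentSeries K₀))

/-- The Gauss valuation subring of a subfield of `K₀((q))` all of whose elements are constants
times Gauss units. -/
def cinstVG (hF : ∀ x ∈ F, gdvProp A₀ x) : ValuationSubring F where
  carrier := {x | (x : LaurentSeries K₀) ∈ grV A₀}
  mul_mem' := fun {_ _} ha hb => (grV A₀).mul_mem ha hb
  one_mem' := (grV A₀).one_mem
  add_mem' := fun {_ _} ha hb => (grV A₀).add_mem ha hb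
  zero_mem' := (grV A₀).zero_mem
  neg_mem' := fun {_} ha => (grV A₀).neg_mem ha
  mem_or_inv_mem' := by
    intro x
    rcases hF x x.2 with h | ⟨c, hc, u, hu, hx⟩
    · left
      show (x : LaurentSeries K₀) ∈ grV A₀
      rw [h]
      exact (grV A₀).zero_mem
    · by_cases hcA : c ∈ A₀
      · left
        show (x : LaurentSeries K₀) ∈ grV A₀
        rw [hx]
        exact (grV A₀).mul_mem (gr_algebraMap_mem A₀ ⟨c, hcA⟩) hu.2.1
      · right
        have hci : c⁻¹ ∈ A₀ := (A₀.mem_or_inv_mem c).resolve_left hcA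
        show ((x⁻¹ : F) : LaurentSeries K₀) ∈ grV A₀
        rw [IntermediateField.coe_inv, hx, mul_inv, ← map_inv₀]
        exact (grV A₀).mul_mem (gr_algebraMap_mem A₀ ⟨c⁻¹, hci⟩) hu.2.2

theorem cinst_mem_VG (hF : ∀ x ∈ F, gdvProp A₀ x) (x : F) :
    x ∈ cinstVG A₀ F hF ↔ (x : LaurentSeries K₀) ∈ grV A₀ := Iff.rfl

variable {A₀ F}
variable (VG : ValuationSubring F) (hVG : ∀ x : F, x ∈ VG ↔ (x : LaurentSeries K₀) ∈ grV A₀)

include hVG

/-- nonunits of the Gauss valuation subring = elements of the Gauss ring with residue zero -/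
theorem cinst_mem_nonunits_iff (x : F) :
    x ∈ VG.nonunits ↔ ∃ h : (x : LaurentSeries K₀) ∈ grV A₀, grRho A₀ ⟨x, h⟩ = 0 := by
  rw [ValuationSubring.mem_nonunits_iff]
  constructor
  · intro hlt
    have hx : x ∈ VG := (VG.valuation_le_one_iff x).mp hlt.le
    have hx' := (hVG x).mp hx
    refine ⟨hx', ?_⟩
    by_contra hne
    have hinv := gr_inv_mem A₀ ⟨x, hx'⟩ hne
    have hinv' : x⁻¹ ∈ VG := (hVG x⁻¹).mpr (by rw [IntermediateField.coe_inv]; exact hinv)
    have h1 : VG.valuation x⁻¹ ≤ 1 := (VG.valuation_le_one_iff _).mpr hinv'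
    have hx0 : x ≠ 0 := by
      rintro rfl
      apply hne
      have : (⟨((0 : F) : LaurentSeries K₀), hx'⟩ : grV A₀) = 0 := Subtype.ext (by simp)
      rw [this, map_zero]
    have hv0 : VG.valuation x ≠ 0 := (Valuation.ne_zero_iff _).mpr hx0
    rw [map_inv₀] at h1
    have h2 : 1 ≤ VG.valuation x := by
      by_contra hlt'
      rw [not_le] at hlt'
      have h3 : 1 < (VG.valuation x)⁻¹ := (one_lt_inv₀ (zero_lt_iff.mpr hv0)).mpr hlt'
      exact absurd h1 (not_le.mpr h3)
    exact absurd hlt (not_lt.mpr h2)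
  · rintro ⟨h, h0⟩
    have hx : x ∈ VG := (hVG x).mpr h
    have hle : VG.valuation x ≤ 1 := (VG.valuation_le_one_iff x).mpr hx
    refine lt_of_le_of_ne hle fun h1 => ?_
    have hx0 : x ≠ 0 := by
      rintro rfl
      rw [map_zero] at h1
      exact zero_ne_one h1
    have hinv : x⁻¹ ∈ VG := by
      rw [← VG.valuation_le_one_iff, map_inv₀, h1, inv_one]
    have hinv' := (hVG x⁻¹).mp hinv
    rw [IntermediateField.coe_inv] at hinv'
    exact gr_inv_notMem A₀ ⟨x, h⟩ h0 (by simpa using hx0) hinv'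

/-- `VG ∩ K₀ = A₀` -/
theorem cinst_algebraMap_mem_iff (c : K₀) : algebraMap K₀ F c ∈ VG ↔ c ∈ A₀ := by
  rw [hVG]
  exact gr_algebraMap_mem_iff A₀ c

/-- an element of the maximal ideal of `A₀` is a nonunit of the Gauss valuation subring -/
theorem cinst_algebraMap_mem_nonunits (c : A₀) (hc : c ∈ IsLocalRing.maximalIdeal A₀) :
    algebraMap K₀ F (c : K₀) ∈ VG.nonunits := by
  rw [cinst_mem_nonunits_iff VG hVG]
  refine ⟨gr_algebraMap_mem A₀ c, ?_⟩
  show grRho A₀ ⟨algebraMap K₀ (LaurentSeries K₀) (c : K₀), gr_algebraMap_mem A₀ c⟩ = 0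
  rw [grRho_algebraMap, (IsLocalRing.residue_eq_zero_iff _).mpr hc, map_zero]

/-- `e = 1`: the nonunits of the Gauss valuation subring are the multiples of a uniformizer
of `A₀`. -/
theorem cinst_nonunits_eq_mul (hF : ∀ x ∈ F, gdvProp A₀ x) (τ : A₀)
    (hτ : IsLocalRing.maximalIdeal A₀ = Ideal.span {τ}) (x : F) (hx : x ∈ VG.nonunits) :
    ∃ y ∈ VG, x = algebraMap K₀ F (τ : K₀) * y := by
  obtain ⟨hmem, hres⟩ := (cinst_mem_nonunits_iff VG hVG x).mp hx
  rcases hF x x.2 with h | ⟨c, hc, u, hu, hxu⟩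
  · refine ⟨0, VG.zero_mem, ?_⟩
    rw [mul_zero]
    exact Subtype.ext (by simpa using h)
  · -- `c = x * u⁻¹` lies in the Gauss ring, hence in `A₀`
    have hcu : algebraMap K₀ (LaurentSeries K₀) c = (x : LaurentSeries K₀) * u⁻¹ := by
      rw [hxu, mul_assoc, mul_inv_cancel₀ hu.1, mul_one]
    have hcmem : algebraMap K₀ (LaurentSeries K₀) c ∈ grV A₀ := by
      rw [hcu]
      exact (grV A₀).mul_mem hmem hu.2.2
    have hcA : c ∈ A₀ := (gr_algebraMap_mem_iff A₀ c).mp hcmem
    -- its residue is zero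
    have hres' : grRho A₀ ⟨algebraMap K₀ (LaurentSeries K₀) c, hcmem⟩ = 0 := by
      have h1 : (⟨algebraMap K₀ (LaurentSeries K₀) c, hcmem⟩ : grV A₀) =
          ⟨(x : LaurentSeries K₀), hmem⟩ * ⟨u⁻¹, hu.2.2⟩ := Subtype.ext hcu
      rw [h1, map_mul, hres, zero_mul]
    have hcmax : (⟨c, hcA⟩ : A₀) ∈ IsLocalRing.maximalIdeal A₀ := by
      rw [← IsLocalRing.residue_eq_zero_iff]
      have h2 := grRho_algebraMap A₀ ⟨c, hcA⟩
      rw [hres'] at h2
      have h3 := congrArg (fun s : LaurentSeries (IsLocalRing.ResidueField A₀) => s.coeff 0) h2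
      simpa [algebraMap_laurentSeries_eq_single] using h3.symm
    rw [hτ, Ideal.mem_span_singleton] at hcmax
    obtain ⟨c', hc'⟩ := hcmax
    have hc'' : c = (τ : K₀) * (c' : K₀) := by
      have := congrArg (Subtype.val) hc'
      simpa using this
    have hy : algebraMap K₀ (LaurentSeries K₀) (c' : K₀) * u ∈ F := by
      have h1 : algebraMap K₀ (LaurentSeries K₀) (c' : K₀) * u =
          (algebraMap K₀ (LaurentSeries K₀) (τ : K₀))⁻¹ * (x : LaurentSeries K₀) := by
        have hτ0 : (τ : K₀) ≠ 0 := by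
          intro h0
          apply hc
          rw [hc'', h0, zero_mul]
        have hτ0' : algebraMap K₀ (LaurentSeries K₀) (τ : K₀) ≠ 0 := by
          rw [Ne, map_eq_zero]; exact hτ0
        rw [hxu, hc'', map_mul]
        field_simp
      rw [h1]
      exact F.mul_mem (F.inv_mem (F.algebraMap_mem _)) x.2
    refine ⟨⟨_, hy⟩, ?_, ?_⟩
    · rw [hVG]
      exact (grV A₀).mul_mem (gr_algebraMap_mem A₀ c') hu.2.1
    · apply Subtype.ext
      show (x : LaurentSeries K₀) = algebraMap K₀ (LaurentSeries K₀) (τ : K₀) *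
        (algebraMap K₀ (LaurentSeries K₀) (c' : K₀) * u)
      rw [hxu, hc'', map_mul, mul_assoc]

/-- The hypothesis `f - 1 ∈ VG.nonunits` of the abstract core from the explicit quotient form. -/
theorem cinst_hf (f : F)
    (h : ∃ a b : LaurentSeries A₀, coeffMap (IsLocalRing.residue A₀) b ≠ 0 ∧
      coeffMap (IsLocalRing.residue A₀) a = 0 ∧
      ((f : LaurentSeries K₀) - 1) * coeffMap A₀.subtype b = coeffMap A₀.subtype a) :
    f - 1 ∈ VG.nonunits := by
  obtain ⟨a, b, hb, ha, hab⟩ := h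
  rw [cinst_mem_nonunits_iff VG hVG]
  have hmem : (f : LaurentSeries K₀) - 1 ∈ grV A₀ := ⟨a, b, hb, hab⟩
  refine ⟨hmem, ?_⟩
  have hspec := grRho_spec A₀ ⟨_, hmem⟩ a b hb hab
  rw [ha] at hspec
  exact (mul_eq_zero.mp hspec).resolve_right hb

end CinstGauss

end Fermat.Agent.S18
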