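import Mathlib

/-!
# S18, package GAUSSRING (part 2): the abstract Gauss-valuation core

`K` a field, `A : ValuationSubring K` (no hypothesis on the value group), `k` its residue field.
`E ⊇ K` a field, `V` a subring of `E` with a ring hom `ρ : V → Fk` into a field `Fk ⊇ k` such that
(`GabHyp`) `A ⊆ V`, `ρ` restricts to the residue map on `A`, and elements of `V` with nonzero
residue are invertible in `V`.

* `gab_content`: content normalisation of a finite family of polynomials over `K`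
  (choose a coefficient of maximal valuation);
* `gab_normalize`, `gab_indep`: if the residues of `y i ∈ V` are independent over `k[ρ τ]`
  (polynomial form), then `∑ P i(τ) y i = c · u` with `c ∈ Kˣ`, `ρ u ≠ 0`; in particular the
  `y i` are independent over `K[τ]`;
* `gab_span_unit`, `gab_orthonormal`, `gab_orthonormal_rho`, `gab_linearIndep`: the same with
  coefficients in `K(τ)` (for `ρ τ` transcendental over `k`): orthonormality of the family;
* `gab_mem_adjoin`: `V ∩ K(τ)` is the Gauss ring `{P(τ)/Q(τ) : P, Q ∈ A[X], Q̄ ≠ 0}`.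

All names are prefixed `gab_` / `Gab`.
-/

set_option autoImplicit false

noncomputable section

open Polynomial
open scoped IntermediateField

namespace Fermat.Agent.S18

section Content

variable {K : Type*} [Field K] (A : ValuationSubring K)

theorem gab_residue_inv_eq_zero (c : K) (hc : c ∉ A) (hci : c⁻¹ ∈ A) :
    IsLocalRing.residue A ⟨c⁻¹, hci⟩ = 0 := by
  have hc0 : c ≠ 0 := fun h => hc (h ▸ A.zero_mem)
  rw [IsLocalRing.residue_eq_zero_iff, IsLocalRing.mem_maximalIdeal, mem_nonunits_iff]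
  intro hu
  obtain ⟨⟨d, hd⟩, hd1⟩ := isUnit_iff_exists_inv.mp hu
  have h1 : c⁻¹ * d = 1 := congrArg Subtype.val hd1
  have h2 : d = c := by
    field_simp at h1
    exact h1
  exact hc (h2 ▸ hd)

/-- Content normalisation: a finite family of polynomials over `K`, not all zero, is a constant
`c ≠ 0` times a family of polynomials over `A` whose reductions are not all zero. -/
theorem gab_content {ι : Type*} (s : Finset ι) (P : ι → K[X]) (h : ∃ i ∈ s, P i ≠ 0) :
    ∃ (c : K) (R : ι → A[X]), c ≠ 0 ∧ (∀ i ∈ s, P i = C c * (R i).map A.subtype) ∧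
      ∃ i ∈ s, (R i).map (IsLocalRing.residue A) ≠ 0 := by
  classical
  obtain ⟨i₁, hi₁, hP₁⟩ := h
  obtain ⟨n₁, hn₁⟩ : ∃ n, (P i₁).coeff n ≠ 0 := by
    by_contra hh
    push Not at hh
    exact hP₁ (Polynomial.ext (by simpa using hh))
  set N := s.sup (fun i => (P i).natDegree) with hN
  have hdeg : ∀ i ∈ s, (P i).natDegree ≤ N := fun i hi =>
    Finset.le_sup (f := fun i => (P i).natDegree) hi
  set T : Finset (ι × ℕ) := s ×ˢ Finset.range (N + 1) with hT
  have hn₁N : n₁ ≤ N := (Polynomial.le_natDegree_of_ne_zero hn₁).trans (hdeg i₁ hi₁)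
  have hT₁ : (i₁, n₁) ∈ T := by
    rw [hT, Finset.mem_product]
    exact ⟨hi₁, Finset.mem_range.mpr (Nat.lt_succ_of_le hn₁N)⟩
  obtain ⟨⟨i₀, n₀⟩, h₀T, hmax⟩ := Finset.exists_max_image T
    (fun p => A.valuation ((P p.1).coeff p.2)) ⟨_, hT₁⟩
  have hi₀ : i₀ ∈ s := (Finset.mem_product.mp h₀T).1
  set c := (P i₀).coeff n₀ with hc
  have hc0 : c ≠ 0 := by
    intro h0
    have h1 := hmax (i₁, n₁) hT₁
    simp only [h0, map_zero, le_zero_iff, Valuation.zero_iff] at h1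
    exact hn₁ h1
  have hv0 : A.valuation c ≠ 0 := (Valuation.ne_zero_iff _).mpr hc0
  have hle : ∀ i ∈ s, ∀ n, A.valuation ((P i).coeff n) ≤ A.valuation c := by
    intro i hi n
    by_cases hn : n ≤ N
    · exact hmax (i, n) (Finset.mem_product.mpr ⟨hi, Finset.mem_range.mpr (Nat.lt_succ_of_le hn)⟩)
    · rw [Polynomial.coeff_eq_zero_of_natDegree_lt (lt_of_le_of_lt (hdeg i hi) (not_le.mp hn)),
        map_zero]
      exact zero_le
  have hmemA : ∀ i ∈ s, ∀ n, c⁻¹ * (P i).coeff n ∈ A := by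
    intro i hi n
    rw [← ValuationSubring.valuation_le_one_iff, map_mul, map_inv₀, inv_mul_le_iff₀
      (zero_lt_iff.mpr hv0), mul_one]
    exact hle i hi n
  have hlift : ∀ i, i ∈ s → ∃ q : A[X], q.map A.subtype = C c⁻¹ * P i := by
    intro i hi
    have : C c⁻¹ * P i ∈ Polynomial.lifts A.subtype := by
      rw [Polynomial.lifts_iff_coeff_lifts]
      intro n
      rw [coeff_C_mul]
      exact ⟨⟨_, hmemA i hi n⟩, rfl⟩
    exact (Polynomial.mem_lifts _).mp this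
  choose! R hR using hlift
  refine ⟨c, R, hc0, fun i hi => ?_, i₀, hi₀, ?_⟩
  · rw [hR i hi, ← mul_assoc, ← C_mul, mul_inv_cancel₀ hc0, C_1, one_mul]
  · intro h0
    have h1 : ((R i₀).map A.subtype).coeff n₀ = 1 := by
      rw [hR i₀ hi₀, coeff_C_mul, ← hc, inv_mul_cancel₀ hc0]
    rw [coeff_map] at h1
    have h2 : (R i₀).coeff n₀ = 1 := Subtype.ext h1
    have h3 := congrArg (fun p => p.coeff n₀) h0
    simp only [coeff_map, h2, map_one, coeff_zero] at h3
    exact one_ne_zero h3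

end Content

section Abs

variable {K : Type*} [Field K] (A : ValuationSubring K)
  {E : Type*} [Field E] [Algebra K E]
  {Fk : Type*} [Field Fk] [Algebra (IsLocalRing.ResidueField A) Fk]
  (V : Subring E) (ρ : V →+* Fk)

/-- The hypotheses on `(V, ρ)`: `A ⊆ V`, `ρ` is the residue map on `A`, and elements with
nonzero residue are units of `V`. -/
structure GabHyp : Prop where
  mem : ∀ c : A, algebraMap K E (c : K) ∈ V
  rho : ∀ c : A, ρ ⟨algebraMap K E (c : K), mem c⟩ =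
    algebraMap (IsLocalRing.ResidueField A) Fk (IsLocalRing.residue A c)
  inv : ∀ x : V, ρ x ≠ 0 → (x : E)⁻¹ ∈ V

variable {A V ρ}

/-- The structure map `A → V`. -/
def gabToV (H : GabHyp A V ρ) : A →+* V where
  toFun c := ⟨algebraMap K E (c : K), H.mem c⟩
  map_one' := Subtype.ext (by simp)
  map_mul' x y := Subtype.ext (by simp)
  map_zero' := Subtype.ext (by simp)
  map_add' x y := Subtype.ext (by simp)

theorem gab_coe_toV (H : GabHyp A V ρ) (c : A) : ((gabToV H c : V) : E) = algebraMap K E (c : K) :=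
  rfl

theorem gab_rho_toV (H : GabHyp A V ρ) (c : A) :
    ρ (gabToV H c) = algebraMap (IsLocalRing.ResidueField A) Fk (IsLocalRing.residue A c) :=
  H.rho c

theorem gab_coe_eval₂ (H : GabHyp A V ρ) (τ : V) (R : A[X]) :
    ((R.eval₂ (gabToV H) τ : V) : E) = aeval (τ : E) (R.map A.subtype) := by
  rw [aeval_def, eval₂_map]
  exact Polynomial.hom_eval₂ R (gabToV H) V.subtype τ

theorem gab_rho_eval₂ (H : GabHyp A V ρ) (τ : V) (R : A[X]) :
    ρ (R.eval₂ (gabToV H) τ) = aeval (ρ τ) (R.map (IsLocalRing.residue A)) := by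
  rw [aeval_def, eval₂_map, Polynomial.hom_eval₂]
  congr 1
  exact RingHom.ext fun c => H.rho c

/-- Polynomials over `A` evaluated at `τ ∈ V` lie in `V`. -/
theorem gab_aeval_mem (H : GabHyp A V ρ) (τ : V) (R : A[X]) :
    aeval (τ : E) (R.map A.subtype) ∈ V := by
  rw [← gab_coe_eval₂ H τ R]
  exact (R.eval₂ (gabToV H) τ).2

theorem gab_rho_aeval (H : GabHyp A V ρ) (τ : V) (R : A[X]) :
    ρ ⟨aeval (τ : E) (R.map A.subtype), gab_aeval_mem H τ R⟩ =
      aeval (ρ τ) (R.map (IsLocalRing.residue A)) := by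
  rw [← gab_rho_eval₂ H τ R]
  congr 1
  exact Subtype.ext (gab_coe_eval₂ H τ R).symm

/-- If `c · u ∈ V` with `ρ u ≠ 0`, then `c ∈ A`. -/
theorem gab_const_mem (H : GabHyp A V ρ) (c : K) (u : V) (hu : ρ u ≠ 0)
    (h : algebraMap K E c * (u : E) ∈ V) : c ∈ A := by
  by_contra hcA
  have hc0 : c ≠ 0 := fun h0 => hcA (h0 ▸ A.zero_mem)
  have hci : c⁻¹ ∈ A := (A.mem_or_inv_mem c).resolve_left hcA
  have hres := gab_residue_inv_eq_zero A c hcA hci
  have h1 : u = gabToV H ⟨c⁻¹, hci⟩ * ⟨_, h⟩ := by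
    apply Subtype.ext
    show (u : E) = algebraMap K E c⁻¹ * (algebraMap K E c * (u : E))
    rw [← mul_assoc, ← map_mul, inv_mul_cancel₀ hc0, map_one, one_mul]
  have h2 := congrArg ρ h1
  rw [map_mul, gab_rho_toV, hres, map_zero, zero_mul] at h2
  exact hu h2

/-- If `c · u ∈ V` has residue zero and `ρ u ≠ 0`, then `c` is a non-unit of `A`. -/
theorem gab_const_residue (H : GabHyp A V ρ) (c : K) (u : V) (hu : ρ u ≠ 0)
    (h : algebraMap K E c * (u : E) ∈ V) (h0 : ρ ⟨_, h⟩ = 0) :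
    ∃ hc : c ∈ A, IsLocalRing.residue A ⟨c, hc⟩ = 0 := by
  have hc := gab_const_mem H c u hu h
  refine ⟨hc, ?_⟩
  have h1 : (⟨_, h⟩ : V) = gabToV H ⟨c, hc⟩ * u := Subtype.ext rfl
  rw [h1, map_mul, gab_rho_toV] at h0
  rcases mul_eq_zero.mp h0 with h2 | h2
  · exact (algebraMap (IsLocalRing.ResidueField A) Fk).injective (by rw [h2, map_zero])
  · exact absurd h2 hu

variable {ι : Type*}

/-- Normalisation: if the residues of the `y i` are independent over `k[ρ τ]`, then a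
combination `∑ P i(τ) y i` with polynomial coefficients, not all zero, is `c · u` with
`c ∈ Kˣ` and `ρ u ≠ 0`. -/
theorem gab_normalize (H : GabHyp A V ρ) (τ : V) (y : ι → V) (s : Finset ι)
    (hy : ∀ g : ι → (IsLocalRing.ResidueField A)[X],
      ∑ i ∈ s, aeval (ρ τ) (g i) * ρ (y i) = 0 → ∀ i ∈ s, g i = 0)
    (P : ι → K[X]) (hP : ∃ i ∈ s, P i ≠ 0) :
    ∃ (c : K) (R : ι → A[X]) (u : V), c ≠ 0 ∧ (∀ i ∈ s, P i = C c * (R i).map A.subtype) ∧
      ρ u ≠ 0 ∧ (u : E) = ∑ i ∈ s, aeval (τ : E) ((R i).map A.subtype) * (y i : E) ∧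
      ∑ i ∈ s, aeval (τ : E) (P i) * (y i : E) = algebraMap K E c * (u : E) := by
  obtain ⟨c, R, hc, hPR, i₀, hi₀, hR₀⟩ := gab_content A s P hP
  have hu : ((∑ i ∈ s, (R i).eval₂ (gabToV H) τ * y i : V) : E) =
      ∑ i ∈ s, aeval (τ : E) ((R i).map A.subtype) * (y i : E) := by
    rw [show ((∑ i ∈ s, (R i).eval₂ (gabToV H) τ * y i : V) : E) =
      ∑ i ∈ s, (((R i).eval₂ (gabToV H) τ * y i : V) : E) from map_sum V.subtype _ _]
    refine Finset.sum_congr rfl fun i _ => ?_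
    rw [Subring.coe_mul, gab_coe_eval₂]
  refine ⟨c, R, ∑ i ∈ s, (R i).eval₂ (gabToV H) τ * y i, hc, hPR, ?_, hu, ?_⟩
  · intro h0
    rw [map_sum] at h0
    have h1 : ∑ i ∈ s, aeval (ρ τ) ((R i).map (IsLocalRing.residue A)) * ρ (y i) = 0 := by
      rw [← h0]
      refine Finset.sum_congr rfl fun i _ => ?_
      rw [map_mul, gab_rho_eval₂]
    exact hR₀ (hy _ h1 i₀ hi₀)
  · rw [hu, Finset.mul_sum]
    refine Finset.sum_congr rfl fun i hi => ?_
    rw [hPR i hi, map_mul, aeval_C]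
    ring

/-- Lifts of a residually independent family are independent over `K[τ]`. -/
theorem gab_indep (H : GabHyp A V ρ) (τ : V) (y : ι → V) (s : Finset ι)
    (hy : ∀ g : ι → (IsLocalRing.ResidueField A)[X],
      ∑ i ∈ s, aeval (ρ τ) (g i) * ρ (y i) = 0 → ∀ i ∈ s, g i = 0)
    (P : ι → K[X]) (h : ∑ i ∈ s, aeval (τ : E) (P i) * (y i : E) = 0) : ∀ i ∈ s, P i = 0 := by
  by_contra hcon
  push Not at hcon
  obtain ⟨c, R, u, hc, -, hu, -, hsum⟩ := gab_normalize H τ y s hy P hcon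
  rw [h] at hsum
  rcases mul_eq_zero.mp hsum.symm with h1 | h1
  · exact hc ((algebraMap K E).injective (by rw [h1, map_zero]))
  · apply hu
    have : u = 0 := Subtype.ext h1
    rw [this, map_zero]

/-- A nonzero polynomial in `τ` (with `ρ τ` transcendental) is `c · u`, `ρ u ≠ 0`. -/
theorem gab_aeval_unit (H : GabHyp A V ρ) (τ : V)
    (hτ : Transcendental (IsLocalRing.ResidueField A) (ρ τ)) (Q : K[X]) (hQ : Q ≠ 0) :
    ∃ (c : K) (u : V), c ≠ 0 ∧ ρ u ≠ 0 ∧ aeval (τ : E) Q = algebraMap K E c * (u : E) := by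
  obtain ⟨c, R, hc, hQR, i₀, -, hR₀⟩ :=
    gab_content A ({()} : Finset Unit) (fun _ => Q) ⟨(), Finset.mem_singleton_self _, hQ⟩
  refine ⟨c, (R ()).eval₂ (gabToV H) τ, hc, ?_, ?_⟩
  · rw [gab_rho_eval₂]
    intro h0
    exact hR₀ (transcendental_iff.mp hτ _ h0)
  · rw [gab_coe_eval₂]
    conv_lhs => rw [hQR () (Finset.mem_singleton_self _)]
    rw [map_mul, aeval_C]

theorem gab_aeval_ne_zero (H : GabHyp A V ρ) (τ : V)
    (hτ : Transcendental (IsLocalRing.ResidueField A) (ρ τ)) (Q : K[X]) (hQ : Q ≠ 0) :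
    aeval (τ : E) Q ≠ 0 := by
  obtain ⟨c, u, hc, hu, h⟩ := gab_aeval_unit H τ hτ Q hQ
  rw [h]
  refine mul_ne_zero (fun h0 => hc ((algebraMap K E).injective (by rw [h0, map_zero]))) ?_
  intro h0
  apply hu
  have : u = 0 := Subtype.ext h0
  rw [this, map_zero]

/-- `τ` is transcendental over `K` as soon as `ρ τ` is transcendental over `k`. -/
theorem gab_transcendental (H : GabHyp A V ρ) (τ : V)
    (hτ : Transcendental (IsLocalRing.ResidueField A) (ρ τ)) : Transcendental K (τ : E) :=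
  transcendental_iff.mpr fun Q hQ => by
    by_contra hne
    exact gab_aeval_ne_zero H τ hτ Q hne hQ

/-- The fraction form: `x · Q(τ) = ∑ P i(τ) y i`. -/
theorem gab_frac (H : GabHyp A V ρ) (τ : V)
    (hτ : Transcendental (IsLocalRing.ResidueField A) (ρ τ)) (y : ι → V) (s : Finset ι)
    (hy : ∀ g : ι → (IsLocalRing.ResidueField A)[X],
      ∑ i ∈ s, aeval (ρ τ) (g i) * ρ (y i) = 0 → ∀ i ∈ s, g i = 0)
    (Q : K[X]) (hQ : Q ≠ 0) (P : ι → K[X]) (hP : ∃ i ∈ s, P i ≠ 0) (x : E)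
    (hx : x * aeval (τ : E) Q = ∑ i ∈ s, aeval (τ : E) (P i) * (y i : E)) :
    ∃ (c : K) (u : V), c ≠ 0 ∧ ρ u ≠ 0 ∧ x = algebraMap K E c * (u : E) ∧
      ∀ i ∈ s, ∃ v : V, aeval (τ : E) (P i) = algebraMap K E c * (v : E) * aeval (τ : E) Q := by
  obtain ⟨c₁, R, u₁, hc₁, hPR, hu₁, -, hsum⟩ := gab_normalize H τ y s hy P hP
  obtain ⟨c₂, u₂, hc₂, hu₂, hQu⟩ := gab_aeval_unit H τ hτ Q hQ
  have hu₂0 : (u₂ : E) ≠ 0 := by
    intro h0
    apply hu₂
    have : u₂ = 0 := Subtype.ext h0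
    rw [this, map_zero]
  have hc₂E : algebraMap K E c₂ ≠ 0 := fun h0 =>
    hc₂ ((algebraMap K E).injective (by rw [h0, map_zero]))
  set w : V := ⟨(u₂ : E)⁻¹, H.inv u₂ hu₂⟩ with hw
  have hwu : w * u₂ = 1 := Subtype.ext (inv_mul_cancel₀ hu₂0)
  have hρw : ρ w ≠ 0 := by
    intro h0
    have := congrArg ρ hwu
    rw [map_mul, h0, zero_mul, map_one] at this
    exact zero_ne_one this
  refine ⟨c₁ / c₂, u₁ * w, div_ne_zero hc₁ hc₂, ?_, ?_, fun i hi => ?_⟩
  · rw [map_mul]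
    exact mul_ne_zero hu₁ hρw
  · have h1 : x * (algebraMap K E c₂ * (u₂ : E)) = algebraMap K E c₁ * (u₁ : E) := by
      rw [← hQu, hx, hsum]
    rw [Subring.coe_mul, map_div₀]
    show x = algebraMap K E c₁ / algebraMap K E c₂ * ((u₁ : E) * (u₂ : E)⁻¹)
    field_simp
    rw [← h1]
    ring
  · refine ⟨(R i).eval₂ (gabToV H) τ * w, ?_⟩
    rw [Subring.coe_mul, gab_coe_eval₂, hQu, map_div₀]
    show _ = algebraMap K E c₁ / algebraMap K E c₂ *
      (aeval (τ : E) ((R i).map A.subtype) * (u₂ : E)⁻¹) * (algebraMap K E c₂ * (u₂ : E))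
    rw [hPR i hi, map_mul, aeval_C]
    field_simp

/-- Elements of `K(τ)` as fractions of polynomials. -/
theorem gab_exists_frac (H : GabHyp A V ρ) (τ : V)
    (hτ : Transcendental (IsLocalRing.ResidueField A) (ρ τ)) (a : E) (ha : a ∈ K⟮(τ : E)⟯) :
    ∃ r q : K[X], q ≠ 0 ∧ a * aeval (τ : E) q = aeval (τ : E) r := by
  obtain ⟨r, q, rfl⟩ := (IntermediateField.mem_adjoin_simple_iff K a).mp ha
  by_cases hq : q = 0
  · refine ⟨0, 1, one_ne_zero, ?_⟩
    rw [hq, map_zero, div_zero, zero_mul]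
  · exact ⟨r, q, hq, div_mul_cancel₀ _ (gab_aeval_ne_zero H τ hτ q hq)⟩

/-- The main statement with coefficients in `K(τ)`: a combination of a residually independent
family, not all coefficients zero, is `c · u` with `c ∈ Kˣ`, `ρ u ≠ 0`, and all coefficients
lie in `c · V`. -/
theorem gab_span_unit (H : GabHyp A V ρ) (τ : V)
    (hτ : Transcendental (IsLocalRing.ResidueField A) (ρ τ)) (y : ι → V) (s : Finset ι)
    (hy : ∀ g : ι → (IsLocalRing.ResidueField A)[X],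
      ∑ i ∈ s, aeval (ρ τ) (g i) * ρ (y i) = 0 → ∀ i ∈ s, g i = 0)
    (a : ι → E) (ha : ∀ i ∈ s, a i ∈ K⟮(τ : E)⟯) (hne : ∃ i ∈ s, a i ≠ 0) :
    ∃ (c : K) (u : V), c ≠ 0 ∧ ρ u ≠ 0 ∧ ∑ i ∈ s, a i * (y i : E) = algebraMap K E c * (u : E) ∧
      ∀ i ∈ s, ∃ v : V, a i = algebraMap K E c * (v : E) := by
  classical
  have hfr : ∀ i, i ∈ s → ∃ r q : K[X], q ≠ 0 ∧ a i * aeval (τ : E) q = aeval (τ : E) r :=
    fun i hi => gab_exists_frac H τ hτ (a i) (ha i hi)
  choose! r q hq hrq using hfr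
  set Q : K[X] := ∏ j ∈ s, q j with hQdef
  have hQ : Q ≠ 0 := Finset.prod_ne_zero_iff.mpr hq
  have hQE : aeval (τ : E) Q ≠ 0 := gab_aeval_ne_zero H τ hτ Q hQ
  have hD : ∀ i ∈ s, a i * aeval (τ : E) Q = aeval (τ : E) (r i * ∏ j ∈ s.erase i, q j) := by
    intro i hi
    rw [hQdef, ← Finset.mul_prod_erase s _ hi, map_mul, ← mul_assoc, hrq i hi, map_mul]
  obtain ⟨i₀, hi₀, ha₀⟩ := hne
  have hP : ∃ i ∈ s, r i * ∏ j ∈ s.erase i, q j ≠ 0 := by
    refine ⟨i₀, hi₀, fun h0 => ?_⟩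
    have := hD i₀ hi₀
    rw [h0, map_zero] at this
    rcases mul_eq_zero.mp this with h1 | h1
    · exact ha₀ h1
    · exact hQE h1
  have hx : (∑ i ∈ s, a i * (y i : E)) * aeval (τ : E) Q =
      ∑ i ∈ s, aeval (τ : E) (r i * ∏ j ∈ s.erase i, q j) * (y i : E) := by
    rw [Finset.sum_mul]
    refine Finset.sum_congr rfl fun i hi => ?_
    rw [← hD i hi]
    ring
  obtain ⟨c, u, hc, hu, hxu, hv⟩ := gab_frac H τ hτ y s hy Q hQ _ hP _ hx
  refine ⟨c, u, hc, hu, hxu, fun i hi => ?_⟩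
  obtain ⟨v, hv⟩ := hv i hi
  refine ⟨v, ?_⟩
  rw [← hD i hi] at hv
  exact mul_right_cancel₀ hQE hv

/-- Orthonormality, part 1: if `∑ a i y i ∈ V` (coefficients in `K(τ)`), then all `a i ∈ V`. -/
theorem gab_orthonormal (H : GabHyp A V ρ) (τ : V)
    (hτ : Transcendental (IsLocalRing.ResidueField A) (ρ τ)) (y : ι → V) (s : Finset ι)
    (hy : ∀ g : ι → (IsLocalRing.ResidueField A)[X],
      ∑ i ∈ s, aeval (ρ τ) (g i) * ρ (y i) = 0 → ∀ i ∈ s, g i = 0)
    (a : ι → E) (ha : ∀ i ∈ s, a i ∈ K⟮(τ : E)⟯)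
    (hmem : ∑ i ∈ s, a i * (y i : E) ∈ V) : ∀ i ∈ s, a i ∈ V := by
  by_cases hne : ∃ i ∈ s, a i ≠ 0
  · obtain ⟨c, u, hc, hu, hxu, hv⟩ := gab_span_unit H τ hτ y s hy a ha hne
    rw [hxu] at hmem
    have hcA := gab_const_mem H c u hu hmem
    intro i hi
    obtain ⟨v, hv⟩ := hv i hi
    rw [hv]
    exact V.mul_mem (H.mem ⟨c, hcA⟩) v.2
  · push Not at hne
    intro i hi
    rw [hne i hi]
    exact V.zero_mem

/-- Orthonormality, part 2: if moreover `∑ a i y i` has residue zero, then so do all `a i`. -/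
theorem gab_orthonormal_rho (H : GabHyp A V ρ) (τ : V)
    (hτ : Transcendental (IsLocalRing.ResidueField A) (ρ τ)) (y : ι → V) (s : Finset ι)
    (hy : ∀ g : ι → (IsLocalRing.ResidueField A)[X],
      ∑ i ∈ s, aeval (ρ τ) (g i) * ρ (y i) = 0 → ∀ i ∈ s, g i = 0)
    (a : ι → E) (ha : ∀ i ∈ s, a i ∈ K⟮(τ : E)⟯)
    (hmem : ∑ i ∈ s, a i * (y i : E) ∈ V) (h0 : ρ ⟨_, hmem⟩ = 0) :
    ∀ i ∈ s, ∀ h : a i ∈ V, ρ ⟨a i, h⟩ = 0 := by
  by_cases hne : ∃ i ∈ s, a i ≠ 0
  · obtain ⟨c, u, hc, hu, hxu, hv⟩ := gab_span_unit H τ hτ y s hy a ha hne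
    have hmem' : algebraMap K E c * (u : E) ∈ V := hxu ▸ hmem
    have h0' : ρ ⟨_, hmem'⟩ = 0 := by
      rw [← h0]
      congr 1
      exact Subtype.ext hxu.symm
    obtain ⟨hcA, hres⟩ := gab_const_residue H c u hu hmem' h0'
    intro i hi h
    obtain ⟨v, hv⟩ := hv i hi
    have h1 : (⟨a i, h⟩ : V) = gabToV H ⟨c, hcA⟩ * v := Subtype.ext hv
    rw [h1, map_mul, gab_rho_toV, hres, map_zero, zero_mul]
  · push Not at hne
    intro i hi h
    have h1 : (⟨a i, h⟩ : V) = 0 := Subtype.ext (hne i hi)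
    rw [h1, map_zero]

/-- Lifts of a residually independent family are independent over `K(τ)`. -/
theorem gab_linearIndep (H : GabHyp A V ρ) (τ : V)
    (hτ : Transcendental (IsLocalRing.ResidueField A) (ρ τ)) (y : ι → V) (s : Finset ι)
    (hy : ∀ g : ι → (IsLocalRing.ResidueField A)[X],
      ∑ i ∈ s, aeval (ρ τ) (g i) * ρ (y i) = 0 → ∀ i ∈ s, g i = 0)
    (a : ι → E) (ha : ∀ i ∈ s, a i ∈ K⟮(τ : E)⟯)
    (h0 : ∑ i ∈ s, a i * (y i : E) = 0) : ∀ i ∈ s, a i = 0 := by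
  by_contra hne
  push Not at hne
  obtain ⟨c, u, hc, hu, hxu, -⟩ := gab_span_unit H τ hτ y s hy a ha hne
  rw [h0] at hxu
  rcases mul_eq_zero.mp hxu.symm with h1 | h1
  · exact hc ((algebraMap K E).injective (by rw [h1, map_zero]))
  · apply hu
    have : u = 0 := Subtype.ext h1
    rw [this, map_zero]

/-- `V ∩ K(τ)` is the Gauss ring of `K(τ)`: every element is `P(τ)/Q(τ)` with `P, Q ∈ A[X]`
and `Q̄ ≠ 0`. -/
theorem gab_mem_adjoin (H : GabHyp A V ρ) (τ : V)
    (hτ : Transcendental (IsLocalRing.ResidueField A) (ρ τ)) (a : V)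
    (ha : (a : E) ∈ K⟮(τ : E)⟯) :
    ∃ P Q : A[X], Q.map (IsLocalRing.residue A) ≠ 0 ∧
      (a : E) * aeval (τ : E) (Q.map A.subtype) = aeval (τ : E) (P.map A.subtype) ∧
      ρ a * aeval (ρ τ) (Q.map (IsLocalRing.residue A)) =
        aeval (ρ τ) (P.map (IsLocalRing.residue A)) := by
  have key : ∃ P Q : A[X], Q.map (IsLocalRing.residue A) ≠ 0 ∧
      (a : E) * aeval (τ : E) (Q.map A.subtype) = aeval (τ : E) (P.map A.subtype) := by
    obtain ⟨r, q, hq, hrq⟩ := gab_exists_frac H τ hτ (a : E) ha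
    obtain ⟨c₂, R₂, hc₂, hqR, i₂, -, hR₂⟩ :=
      gab_content A ({()} : Finset Unit) (fun _ => q) ⟨(), Finset.mem_singleton_self _, hq⟩
    have hq' : q = C c₂ * (R₂ ()).map A.subtype := hqR () (Finset.mem_singleton_self _)
    have hc₂E : algebraMap K E c₂ ≠ 0 := fun h0 =>
      hc₂ ((algebraMap K E).injective (by rw [h0, map_zero]))
    by_cases hr : r = 0
    · refine ⟨0, R₂ (), hR₂, ?_⟩
      rw [hr, map_zero, hq', map_mul, aeval_C] at hrq
      rw [Polynomial.map_zero, map_zero]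
      rcases mul_eq_zero.mp hrq with h1 | h1
      · rw [h1, zero_mul]
      · rcases mul_eq_zero.mp h1 with h2 | h2
        · exact absurd h2 hc₂E
        · rw [h2, mul_zero]
    · obtain ⟨c₁, R₁, hc₁, hrR, i₁, -, hR₁⟩ :=
        gab_content A ({()} : Finset Unit) (fun _ => r) ⟨(), Finset.mem_singleton_self _, hr⟩
      have hr' : r = C c₁ * (R₁ ()).map A.subtype := hrR () (Finset.mem_singleton_self _)
      -- `a · c₂ R₂(τ) = c₁ R₁(τ)`
      have hu₂ : ρ ((R₂ ()).eval₂ (gabToV H) τ) ≠ 0 := by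
        rw [gab_rho_eval₂]
        exact fun h0 => hR₂ (transcendental_iff.mp hτ _ h0)
      have hu₁ : ρ ((R₁ ()).eval₂ (gabToV H) τ) ≠ 0 := by
        rw [gab_rho_eval₂]
        exact fun h0 => hR₁ (transcendental_iff.mp hτ _ h0)
      have hrel : (a : E) * (algebraMap K E c₂ * aeval (τ : E) ((R₂ ()).map A.subtype)) =
          algebraMap K E c₁ * aeval (τ : E) ((R₁ ()).map A.subtype) := by
        rw [hq', hr', map_mul, map_mul, aeval_C, aeval_C] at hrq
        exact hrq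
      -- `c₁ / c₂ · R₁(τ) = a · R₂(τ) ∈ V`, so `c₁ / c₂ ∈ A`
      have hmem : algebraMap K E (c₁ / c₂) * (((R₁ ()).eval₂ (gabToV H) τ : V) : E) ∈ V := by
        have : algebraMap K E (c₁ / c₂) * (((R₁ ()).eval₂ (gabToV H) τ : V) : E) =
            ((a * (R₂ ()).eval₂ (gabToV H) τ : V) : E) := by
          rw [Subring.coe_mul, gab_coe_eval₂, gab_coe_eval₂, map_div₀]
          field_simp
          rw [← hrel]
          ring
        rw [this]
        exact (a * (R₂ ()).eval₂ (gabToV H) τ).2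
      have hcA := gab_const_mem H (c₁ / c₂) _ hu₁ hmem
      refine ⟨C (⟨c₁ / c₂, hcA⟩ : A) * R₁ (), R₂ (), hR₂, ?_⟩
      rw [Polynomial.map_mul, Polynomial.map_C, map_mul, aeval_C]
      show _ = algebraMap K E (c₁ / c₂) * _
      rw [map_div₀]
      field_simp
      rw [← hrel]
      ring
  obtain ⟨P, Q, hQ, h⟩ := key
  refine ⟨P, Q, hQ, h, ?_⟩
  have h1 : a * Q.eval₂ (gabToV H) τ = P.eval₂ (gabToV H) τ := by
    apply Subtype.ext
    rw [Subring.coe_mul, gab_coe_eval₂, gab_coe_eval₂]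
    exact h
  have h2 := congrArg ρ h1
  rwa [map_mul, gab_rho_eval₂, gab_rho_eval₂] at h2

end Abs

end Fermat.Agent.S18
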