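import Mathlib
import Fermat.Agent.S28.Defs
import Fermat.Agent.S24.Degree

/-!
# GBC1: independence over `𝔽_ℓ(j)` survives extension of the constant field

A family of Laurent series over `𝔽_ℓ` which is linearly independent over `𝔽_ℓ(j)` stays
independent over `k[j]` after applying `coeffMap (ZMod ℓ →+* k)` (polynomial form).

The proof applies `𝔽_ℓ`-linear functionals `k → 𝔽_ℓ` coefficientwise.
-/

set_option autoImplicit false

open ModularCurve Fermat.Agent.S28

namespace Fermat.Agent.S18

section aux

variable {R S : Type*} [CommRing R] [CommRing S]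

/-- Coefficientwise application of an additive map, as an additive map of Laurent series. -/
noncomputable def gbcCoeffwise (lam : S →+ R) : LaurentSeries S →+ LaurentSeries R where
  toFun x := x.map lam
  map_zero' := by
    ext k
    simp
  map_add' x y := by
    ext k
    simp

@[simp]
theorem gbcCoeffwise_coeff (lam : S →+ R) (x : LaurentSeries S) (n : ℤ) :
    (gbcCoeffwise lam x).coeff n = lam (x.coeff n) := rfl

theorem gbcCoeffwise_support (lam : S →+ R) (x : LaurentSeries S) :
    (gbcCoeffwise lam x).support ⊆ x.support := by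
  intro n hn
  rw [HahnSeries.mem_support] at hn ⊢
  intro h
  apply hn
  rw [gbcCoeffwise_coeff, h, map_zero]

/-- A coefficientwise `R`-semilinear functional is linear over Laurent series with
coefficients in `R`. -/
theorem gbcCoeffwise_mul (φ : R →+* S) (lam : S →+ R)
    (hlam : ∀ (a : R) (x : S), lam (x * φ a) = lam x * a)
    (x : LaurentSeries S) (a : LaurentSeries R) :
    gbcCoeffwise lam (x * coeffMap φ a) = gbcCoeffwise lam x * a := by
  ext n
  have hsupp : (coeffMap φ a).support ⊆ a.support := by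
    intro m hm
    rw [HahnSeries.mem_support] at hm ⊢
    intro h
    apply hm
    rw [coeffMap_coeff, h, map_zero]
  rw [gbcCoeffwise_coeff, HahnSeries.coeff_mul_right' a.isPWO_support hsupp,
    HahnSeries.coeff_mul_left' x.isPWO_support (gbcCoeffwise_support lam x), map_sum]
  refine Finset.sum_congr rfl fun ij _ => ?_
  rw [coeffMap_coeff, hlam, gbcCoeffwise_coeff]

end aux

section main

variable {ℓ : ℕ} [Fact ℓ.Prime] {k : Type*} [Field k]

theorem gbc_aeval_mem_kj (p : Polynomial (ZMod ℓ)) :
    Polynomial.aeval (jqModC (ZMod ℓ)) p ∈ kj ℓ 1 := by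
  have hj : jqModC (ZMod ℓ) ∈ kj ℓ 1 := by
    have : jd (ZMod ℓ) 1 ∈ kj ℓ 1 := Subfield.subset_closure (Set.mem_singleton _)
    rwa [jd_one] at this
  rw [Polynomial.aeval_eq_sum_range]
  refine Subfield.sum_mem _ fun i _ => ?_
  rw [Algebra.smul_def]
  refine mul_mem ?_ (pow_mem hj i)
  have h1 : p.coeff i = ((p.coeff i).val : ZMod ℓ) := (ZMod.natCast_zmod_val _).symm
  rw [h1, map_natCast]
  exact natCast_mem _ _

/-- Applying a semilinear functional coefficientwise to `g(j)`, `g ∈ k[X]`, gives `g'(j)` with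
`g' ∈ 𝔽_ℓ[X]` obtained coefficientwise. -/
theorem gbc_coeffwise_aeval (φ : ZMod ℓ →+* k) (lam : k →+ ZMod ℓ)
    (hlam : ∀ (a : ZMod ℓ) (x : k), lam (x * φ a) = lam x * a) (g : Polynomial k) :
    ∃ g' : Polynomial (ZMod ℓ), (∀ n, g'.coeff n = lam (g.coeff n)) ∧
      gbcCoeffwise lam (Polynomial.aeval (jqModC k) g) =
        Polynomial.aeval (jqModC (ZMod ℓ)) g' := by
  induction g using Polynomial.induction_on' with
  | add p q hp hq =>
    obtain ⟨p', hp1, hp2⟩ := hp
    obtain ⟨q', hq1, hq2⟩ := hq
    refine ⟨p' + q', fun n => ?_, ?_⟩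
    · rw [Polynomial.coeff_add, Polynomial.coeff_add, hp1, hq1, map_add]
    · rw [map_add, map_add, hp2, hq2, map_add]
  | monomial n c =>
    refine ⟨Polynomial.monomial n (lam c), fun m => ?_, ?_⟩
    · rw [Polynomial.coeff_monomial, Polynomial.coeff_monomial]
      split_ifs
      · rfl
      · rw [map_zero]
    · rw [Polynomial.aeval_monomial, Polynomial.aeval_monomial,
        ← coeffMap_jqModC φ, ← map_pow, gbcCoeffwise_mul φ lam hlam]
      congr 1
      rw [algebraMap_laurentSeries_eq_single, algebraMap_laurentSeries_eq_single]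
      ext m
      rw [gbcCoeffwise_coeff]
      rcases eq_or_ne m 0 with rfl | hm
      · rw [HahnSeries.coeff_single_same, HahnSeries.coeff_single_same]
      · rw [HahnSeries.coeff_single_of_ne hm, HahnSeries.coeff_single_of_ne hm, map_zero]

/-- **GBC1.** A family of Laurent series over `𝔽_ℓ`, linearly independent over `𝔽_ℓ(j)`, stays
independent over `k[j]` after extension of the constant field along `φ : 𝔽_ℓ →+* k`. -/
theorem gbc_indep {ℓ : ℕ} [Fact ℓ.Prime] {k : Type*} [Field k] (φ : ZMod ℓ →+* k) {ι : Type*}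
    (y : ι → LaurentSeries (ZMod ℓ)) (hy : LinearIndependent (kj ℓ 1) y) (s : Finset ι)
    (g : ι → Polynomial k)
    (h : ∑ i ∈ s, Polynomial.aeval (jqModC k) (g i) * coeffMap φ (y i) = 0) :
    ∀ i ∈ s, g i = 0 := by
  classical
  -- `k` as a vector space over `𝔽_ℓ` via `φ`
  let _ : Algebra (ZMod ℓ) k := φ.toAlgebra
  have key : ∀ f : Module.Dual (ZMod ℓ) k, ∀ i ∈ s, ∀ n, f ((g i).coeff n) = 0 := by
    intro f
    have hlam : ∀ (a : ZMod ℓ) (x : k), f.toAddMonoidHom (x * φ a) = f.toAddMonoidHom x * a := by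
      intro a x
      have h1 : x * φ a = a • x := by
        rw [Algebra.smul_def, mul_comm]
        rfl
      rw [h1]
      show f (a • x) = f x * a
      rw [map_smul, smul_eq_mul, mul_comm]
    choose g' hg'1 hg'2 using fun i => gbc_coeffwise_aeval φ f.toAddMonoidHom hlam (g i)
    have h2 := congrArg (gbcCoeffwise f.toAddMonoidHom) h
    rw [map_sum, map_zero] at h2
    have h3 : ∑ i ∈ s, (⟨Polynomial.aeval (jqModC (ZMod ℓ)) (g' i), gbc_aeval_mem_kj (g' i)⟩ :
        kj ℓ 1) • y i = 0 := by
      rw [← h2]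
      refine Finset.sum_congr rfl fun i _ => ?_
      rw [gbcCoeffwise_mul φ _ hlam, hg'2]
      rfl
    have h4 := linearIndependent_iff'.mp hy s _ h3
    intro i hi n
    have h5 := h4 i hi
    have h6 : Polynomial.aeval (jqModC (ZMod ℓ)) (g' i) = 0 := congrArg Subtype.val h5
    have h7 : g' i = 0 :=
      (transcendental_iff.mp (Fermat.Agent.S24.dg_transcendental_jqModC (ZMod ℓ))) _ h6
    have h8 := hg'1 i n
    rw [h7, Polynomial.coeff_zero] at h8
    exact h8.symm
  intro i hi
  ext n
  rw [Polynomial.coeff_zero]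
  exact (Module.forall_dual_apply_eq_zero_iff (ZMod ℓ) _).mp fun f => key f i hi n

end main

end Fermat.Agent.S18
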