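import Mathlib
import Fermat.Prelude.Def_ModularCurve_LaurentCoeff
import Fermat.Agent.S24.Degree

/-!
# S18, leaf GBC2: the compositum inequality `[K·F₀ : K(t₀)] ≤ [F₀ : ℚ(t₀)]`

For `F₀ ⊆ ℚ((q))`, `t₀ ∈ F₀` and any field `K ⊇ ℚ`, the degree of `laurentBaseChange K F₀` over
`K(t₀)` is bounded by the degree of `F₀` over `ℚ(t₀)` (generalisation of S24 `dg_rank_le`).
-/

set_option autoImplicit false

open ModularCurve
open scoped IntermediateField

namespace Fermat.Agent.S18

theorem gbc_relrank_le (K : Type*) [Field K] [Algebra ℚ K]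
    (F₀ : IntermediateField ℚ (LaurentSeries ℚ)) (t₀ : LaurentSeries ℚ) (ht₀ : t₀ ∈ F₀) (n : ℕ)
    (hn : Subfield.relrank (Subfield.closure {t₀}) F₀.toSubfield ≤ (n : Cardinal)) :
    IntermediateField.relrank (K⟮coeffEmb K t₀⟯) (laurentBaseChange K F₀) ≤ (n : Cardinal) := by
  set ce : LaurentSeries ℚ →+* LaurentSeries K := coeffEmb K with hce
  show Subfield.relrank (K⟮ce t₀⟯).toSubfield (laurentBaseChange K F₀).toSubfield ≤ (n : Cardinal)
  have hle0 : Subfield.closure {t₀} ≤ F₀.toSubfield := by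
    rw [Subfield.closure_le]
    intro x hx
    rw [Set.mem_singleton_iff] at hx
    rw [hx]
    exact ht₀
  refine Fermat.Agent.S24.dg_relrank_sup_le ((Subfield.closure {t₀}).map ce)
    (F₀.toSubfield.map ce) _ _ ((Subfield.gc_map_comap ce).monotone_l hle0) ?_ ?_ ?_ n ?_
  · rw [Subfield.map_le_iff_le_comap, Subfield.closure_le]
    intro x hx
    rw [Set.mem_singleton_iff] at hx
    rw [hx]
    exact IntermediateField.mem_adjoin_simple_self K (ce t₀)
  · show K⟮ce t₀⟯ ≤ laurentBaseChange K F₀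
    rw [IntermediateField.adjoin_simple_le_iff]
    exact coeffEmb_mem_laurentBaseChange K ht₀
  · rw [laurentBaseChange, IntermediateField.adjoin_toSubfield, Subfield.closure_le]
    rintro z (⟨c, rfl⟩ | ⟨x, hx, rfl⟩)
    · exact Subfield.subset_closure (Or.inl ((K⟮ce t₀⟯).algebraMap_mem c))
    · exact Subfield.subset_closure (Or.inr ⟨x, hx, rfl⟩)
  · have h := Subfield.lift_relrank_map_map (Subfield.closure {t₀}) F₀.toSubfield ce
    rw [Cardinal.lift_uzero] at h
    rw [h, ← Cardinal.lift_natCast.{_, 0} n]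
    exact Cardinal.lift_le.mpr hn

end Fermat.Agent.S18
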