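import Mathlib
import Fermat.Prelude.Def_ModularCurve_ReductionModL
import Fermat.Prelude.Def_FLTPrelim_Ramification
import Fermat.Agent.S28.Defs
import Fermat.Agent.S28.TensorDomain
import Fermat.Agent.S18.GaussRing

/-!
# S18, package GAUSSRING (part 3): compatibility of `grV A` with `Vw ℓ` of S28

`K` a field of characteristic zero (`[Algebra ℚ K]`), `A : ValuationSubring K` lying over `ℓ`.

* `grcHom : ℤ_(ℓ) →+* A`, `grcPhi : ZMod ℓ →+* k` and the commutative square `grc_comp`;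
* `grc_mem`: `x ∈ Vw ℓ ⇒ coeffEmb K x ∈ grV A`;
* `grc_rho`: `grRho A (coeffEmb K x) = coeffMap grcPhi (rho ℓ x)`;
* `gr_jd_mem`, `grRho_jd`: `j(q^d) ∈ grV A` with residue `j(q^d)` (no hypothesis on `A`).

Names are prefixed `grc` / `gr`.
-/

set_option autoImplicit false

noncomputable section

open ModularCurve

namespace Fermat.Agent.S18

open Fermat.Agent.S28

/-! ### `j(q^d)` -/

section Jd

variable {K : Type*} [Field K] (A : ValuationSubring K)

theorem gr_jd_eq (d : ℕ) : jd K d = coeffMap A.subtype (jd A d) := (coeffMap_jd A.subtype d).symm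

theorem gr_jd_mem (d : ℕ) : jd K d ∈ grV A := by
  rw [gr_jd_eq A d]
  exact gr_coeffMap_mem A _

theorem grRho_jd (d : ℕ) (h : jd K d ∈ grV A) :
    grRho A ⟨jd K d, h⟩ = jd (IsLocalRing.ResidueField A) d := by
  have h1 : (⟨jd K d, h⟩ : grV A) = ⟨coeffMap A.subtype (jd A d), gr_coeffMap_mem A _⟩ :=
    Subtype.ext (gr_jd_eq A d)
  rw [h1, grRho_coeffMap, coeffMap_jd]

theorem gr_jqModC_mem : jqModC K ∈ grV A := by
  rw [← jd_one K]
  exact gr_jd_mem A 1

theorem grRho_jqModC (h : jqModC K ∈ grV A) :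
    grRho A ⟨jqModC K, h⟩ = jqModC (IsLocalRing.ResidueField A) := by
  have h1 : (⟨jqModC K, h⟩ : grV A) = ⟨jd K 1, gr_jd_mem A 1⟩ := Subtype.ext (jd_one K).symm
  rw [h1, grRho_jd, jd_one]

end Jd

/-! ### Injectivity of coefficient maps -/

theorem grc_coeffMap_injective {R S : Type*} [CommRing R] [CommRing S] (f : R →+* S)
    (hf : Function.Injective f) : Function.Injective (coeffMap f) := by
  intro x y h
  ext n
  have := congrArg (fun z => HahnSeries.coeff z n) h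
  simp only [coeffMap_coeff] at this
  exact hf this

section Compat

variable {K : Type*} [Field K] [Algebra ℚ K] (A : ValuationSubring K) (ℓ : ℕ) [Fact ℓ.Prime]

omit [Algebra ℚ K] [Fact ℓ.Prime] in
theorem grc_valuation_natCast (hA : A.LiesOverPrime ℓ) (d : ℕ) (hd : d.Coprime ℓ) :
    A.valuation (d : K) = 1 := by
  have h1 : A.valuation (d : K) ≤ 1 := (A.valuation_le_one_iff _).mpr (natCast_mem A d)
  refine le_antisymm h1 (not_lt.mp fun hlt => ?_)
  obtain ⟨a, b, hab⟩ := (Nat.isCoprime_iff_coprime.mpr hd : IsCoprime (d : ℤ) (ℓ : ℤ))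
  have h2 : (a : K) * (d : K) + (b : K) * (ℓ : K) = 1 := by
    exact_mod_cast congrArg (Int.cast : ℤ → K) hab
  have hℓ : A.valuation (ℓ : K) < 1 := (A.mem_nonunits_iff).mp hA
  have ha : A.valuation (a : K) ≤ 1 := (A.valuation_le_one_iff _).mpr (intCast_mem A a)
  have hb : A.valuation (b : K) ≤ 1 := (A.valuation_le_one_iff _).mpr (intCast_mem A b)
  have h3 : A.valuation ((a : K) * (d : K) + (b : K) * (ℓ : K)) < 1 := by
    refine lt_of_le_of_lt (A.valuation.map_add _ _) (max_lt ?_ ?_)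
    · rw [map_mul]
      exact lt_of_le_of_lt (mul_le_of_le_one_left' ha) hlt
    · rw [map_mul]
      exact lt_of_le_of_lt (mul_le_of_le_one_left' hb) hℓ
  rw [h2, map_one] at h3
  exact lt_irrefl _ h3

theorem grc_algebraMap_mem (hA : A.LiesOverPrime ℓ) (x : Oℓ ℓ) : algebraMap ℚ K (x : ℚ) ∈ A := by
  rw [eq_ratCast, Rat.cast_def, ← ValuationSubring.valuation_le_one_iff, map_div₀,
    grc_valuation_natCast A ℓ hA _ x.2, div_one]
  exact (A.valuation_le_one_iff _).mpr (intCast_mem A _)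

/-- The structure map `ℤ_(ℓ) → A`. -/
def grcHom (hA : A.LiesOverPrime ℓ) : Oℓ ℓ →+* A where
  toFun x := ⟨algebraMap ℚ K (x : ℚ), grc_algebraMap_mem A ℓ hA x⟩
  map_one' := Subtype.ext (by simp)
  map_mul' x y := Subtype.ext (by
    show algebraMap ℚ K ((x * y : Oℓ ℓ) : ℚ) = algebraMap ℚ K (x : ℚ) * algebraMap ℚ K (y : ℚ)
    rw [Subring.coe_mul, map_mul])
  map_zero' := Subtype.ext (by simp)
  map_add' x y := Subtype.ext (by
    show algebraMap ℚ K ((x + y : Oℓ ℓ) : ℚ) = algebraMap ℚ K (x : ℚ) + algebraMap ℚ K (y : ℚ)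
    rw [Subring.coe_add, map_add])

omit [Algebra ℚ K] in
theorem grc_charP (hA : A.LiesOverPrime ℓ) : CharP (IsLocalRing.ResidueField A) ℓ := by
  rw [CharP.charP_iff_prime_eq_zero (Fact.out : ℓ.Prime)]
  have h1 : ((ℓ : A) : K) ∈ A.nonunits := by
    rw [show ((ℓ : A) : K) = (ℓ : K) from by simp]
    exact hA
  have h2 : (ℓ : A) ∈ IsLocalRing.maximalIdeal A := by
    rw [IsLocalRing.mem_maximalIdeal]
    exact (A.coe_mem_nonunits_iff).mp h1
  have h3 := (IsLocalRing.residue_eq_zero_iff (ℓ : A)).mpr h2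
  rwa [map_natCast] at h3

/-- The inclusion `𝔽_ℓ → k` of the prime field into the residue field of `A`. -/
def grcPhi (hA : A.LiesOverPrime ℓ) : ZMod ℓ →+* IsLocalRing.ResidueField A :=
  @ZMod.castHom ℓ ℓ (dvd_refl ℓ) (IsLocalRing.ResidueField A) _ (grc_charP A ℓ hA)

theorem grc_comp (hA : A.LiesOverPrime ℓ) :
    (IsLocalRing.residue A).comp (grcHom A ℓ hA) = (grcPhi A ℓ hA).comp (red ℓ) :=
  ratLocalizedAt_ringHom_ext ℓ _ _

theorem grc_subtype_comp (hA : A.LiesOverPrime ℓ) :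
    A.subtype.comp (grcHom A ℓ hA) =
      (algebraMap ℚ K).comp (GaloisRep.ratLocalizedAt ℓ).subtype := rfl

theorem grc_inc (hA : A.LiesOverPrime ℓ) (a : LaurentSeries (Oℓ ℓ)) :
    coeffMap A.subtype (coeffMap (grcHom A ℓ hA) a) = coeffEmb K (toQ ℓ a) := by
  rw [coeffMap_coeffMap, grc_subtype_comp, coeffEmb, toQ, coeffMap_coeffMap]

theorem grc_red (hA : A.LiesOverPrime ℓ) (a : LaurentSeries (Oℓ ℓ)) :
    coeffMap (IsLocalRing.residue A) (coeffMap (grcHom A ℓ hA) a) =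
      coeffMap (grcPhi A ℓ hA) (toF ℓ a) := by
  rw [coeffMap_coeffMap, grc_comp, toF, coeffMap_coeffMap]

/-- Elements of the Gauss ring `Vw ℓ` of S28 lie in the Gauss ring of `A`. -/
theorem grc_mem (hA : A.LiesOverPrime ℓ) (x : LaurentSeries ℚ) (hx : x ∈ Vw ℓ) :
    coeffEmb K x ∈ grV A := by
  obtain ⟨a, b, hb, h⟩ := hx
  refine ⟨coeffMap (grcHom A ℓ hA) a, coeffMap (grcHom A ℓ hA) b, ?_, ?_⟩
  · rw [grc_red]
    intro h0
    apply hb
    exact grc_coeffMap_injective _ (grcPhi A ℓ hA).injective (by rw [h0, map_zero])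
  · rw [grc_inc, grc_inc, ← h, map_mul]

/-- ... and the residue maps are compatible. -/
theorem grc_rho (hA : A.LiesOverPrime ℓ) (x : Vw ℓ) (h : coeffEmb K (x : LaurentSeries ℚ) ∈ grV A) :
    grRho A ⟨coeffEmb K (x : LaurentSeries ℚ), h⟩ = coeffMap (grcPhi A ℓ hA) (rho ℓ x) := by
  obtain ⟨a, b, hb, hab⟩ := x.2
  have hb' : coeffMap (IsLocalRing.residue A) (coeffMap (grcHom A ℓ hA) b) ≠ 0 := by
    rw [grc_red]
    intro h0
    apply hb
    exact grc_coeffMap_injective _ (grcPhi A ℓ hA).injective (by rw [h0, map_zero])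
  have h1 := grRho_spec A ⟨coeffEmb K (x : LaurentSeries ℚ), h⟩ (coeffMap (grcHom A ℓ hA) a)
    (coeffMap (grcHom A ℓ hA) b) hb' (by rw [grc_inc, grc_inc, ← hab, map_mul])
  have h2 := rho_spec ℓ x a b hb hab
  rw [grc_red, grc_red, ← h2, map_mul] at h1
  rw [grc_red] at hb'
  exact mul_right_cancel₀ hb' h1

end Compat

end Fermat.Agent.S18
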