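import Mathlib
import Fermat.Agent.S18.ValExt

/-!
# S18, package GAUSSRING (part 4): integrality and uniqueness from an orthonormal basis

`F` a field, `O : ValuationSubring F`, `L` a subfield (a field with `Algebra L F`),
`b : Fin n → F` a family in `O` spanning `F` over `L` and orthonormal in the sense of
`valext_le_sum` (hypothesis `hind` of `Fermat.Agent.S18.ValExt`).

* `gun_coeff_mem`: coefficients of elements of `O` lie in `O`;
* `gun_isIntegral`: every element of `O` is integral over `O ∩ L`
  (multiplication by `z` preserves the `O ∩ L`-lattice spanned by `b`);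
* `gun_unique`: `O` is the only valuation subring of `F` with the same trace on `L`
  (hypothesis shape `huniq` of `valext_coeff_mem` / `valext_integral`).

Mathlib + ValExt only; names prefixed `gun_`.
-/

set_option autoImplicit false

namespace Fermat.Agent.S18

section

variable {L F : Type*} [Field L] [Field F] [Algebra L F]

/-- Coefficients of an element of `O` with respect to an orthonormal family lie in `O`. -/
theorem gun_coeff_mem (O : ValuationSubring F) {n : ℕ} (b : Fin n → F)
    (hind : ∀ a : Fin n → L, (∀ i, algebraMap L F (a i) ∈ O) →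
      ∑ i, algebraMap L F (a i) * b i ∈ O.nonunits → ∀ i, algebraMap L F (a i) ∈ O.nonunits)
    (a : Fin n → L) (h : ∑ i, algebraMap L F (a i) * b i ∈ O) (i : Fin n) :
    algebraMap L F (a i) ∈ O := by
  rw [← ValuationSubring.valuation_le_one_iff]
  exact (valext_le_sum O b hind a i).trans ((O.valuation_le_one_iff _).mpr h)

/-- Every element of `O` is integral over the trace of `O` on `L`, stated for an arbitrary ring
`R` with an algebra structure hitting the trace. -/
theorem gun_isIntegral (O : ValuationSubring F) {n : ℕ} (b : Fin n → F)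
    (hspan : ∀ x : F, ∃ a : Fin n → L, x = ∑ i, algebraMap L F (a i) * b i)
    (hind : ∀ a : Fin n → L, (∀ i, algebraMap L F (a i) ∈ O) →
      ∑ i, algebraMap L F (a i) * b i ∈ O.nonunits → ∀ i, algebraMap L F (a i) ∈ O.nonunits)
    (hb : ∀ i, b i ∈ O)
    {R : Type*} [CommRing R] [Algebra R F]
    (hR : ∀ y : L, algebraMap L F y ∈ O → ∃ r : R, algebraMap R F r = algebraMap L F y)
    (z : F) (hz : z ∈ O) : IsIntegral R z := by
  classical
  set N : Submodule R F := Submodule.span R (Set.range b) with hN
  have hNbot : N ≠ ⊥ := by
    intro h0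
    have hb0 : ∀ i, b i = 0 := by
      intro i
      have : b i ∈ N := Submodule.subset_span ⟨i, rfl⟩
      rw [h0, Submodule.mem_bot] at this
      exact this
    obtain ⟨a, ha⟩ := hspan 1
    have : (1 : F) = 0 := by
      rw [ha]
      exact Finset.sum_eq_zero fun i _ => by rw [hb0 i, mul_zero]
    exact one_ne_zero this
  have hNfg : N.FG := Submodule.fg_span (Set.finite_range b)
  refine isIntegral_of_smul_mem_submodule N hNbot hNfg z ?_
  intro y hy
  induction hy using Submodule.span_induction with
  | mem x hx =>
    obtain ⟨i, rfl⟩ := hx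
    obtain ⟨a, ha⟩ := hspan (z * b i)
    have hmem : ∑ j, algebraMap L F (a j) * b j ∈ O := ha ▸ O.mul_mem _ _ hz (hb i)
    rw [smul_eq_mul, ha]
    refine N.sum_mem fun j _ => ?_
    obtain ⟨r, hr⟩ := hR (a j) (gun_coeff_mem O b hind a hmem j)
    rw [← hr, ← Algebra.smul_def]
    exact N.smul_mem r (Submodule.subset_span ⟨j, rfl⟩)
  | zero => rw [smul_zero]; exact N.zero_mem
  | add x y _ _ hx hy => rw [smul_add]; exact N.add_mem hx hy
  | smul r x _ hx => rw [smul_comm]; exact N.smul_mem r hx

/-- Uniqueness of the extension: `O` is the only valuation subring of `F` with the same trace on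
`L` (no hypothesis that the family lies in the competitor). -/
theorem gun_unique (O : ValuationSubring F) {n : ℕ} (b : Fin n → F)
    (hspan : ∀ x : F, ∃ a : Fin n → L, x = ∑ i, algebraMap L F (a i) * b i)
    (hind : ∀ a : Fin n → L, (∀ i, algebraMap L F (a i) ∈ O) →
      ∑ i, algebraMap L F (a i) * b i ∈ O.nonunits → ∀ i, algebraMap L F (a i) ∈ O.nonunits)
    (hb : ∀ i, b i ∈ O)
    (O' : ValuationSubring F) (hO' : ∀ y : L, algebraMap L F y ∈ O' ↔ algebraMap L F y ∈ O) :
    O' = O := by
  refine valext_unique_of_span O b hspan hind O' hO' fun i => ?_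
  -- `b i` is integral over the trace `O ∩ L = O' ∩ L`, hence lies in `O'`
  let R : ValuationSubring L := O.comap (algebraMap L F)
  letI : Algebra R F := ((algebraMap L F).comp R.subtype).toAlgebra
  have hint : IsIntegral R (b i) :=
    gun_isIntegral O b hspan hind hb (R := R)
      (fun y hy => ⟨⟨y, ValuationSubring.mem_comap.mpr hy⟩, rfl⟩) (b i) (hb i)
  refine valext_mem_of_isIntegral O' (S := R) (fun s => ?_) (b i) hint
  show algebraMap L F (s : L) ∈ O'
  rw [hO']
  exact ValuationSubring.mem_comap.mp s.2

end

end Fermat.Agent.S18
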