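import Mathlib
import Fermat.Prelude.Def_ModularCurve_ReductionModL
import Fermat.Prelude.Def_FLTPrelim_Ramification
import Fermat.Agent.S28.Induction
import Fermat.Agent.S28.RelrankFt
import Fermat.Agent.S24.Degree
import Fermat.Agent.S18.GaussRing
import Fermat.Agent.S18.GaussAbs
import Fermat.Agent.S18.GaussCompat
import Fermat.Agent.S18.GaussBC1
import Fermat.Agent.S18.GaussBC2
import Fermat.Agent.S18.GaussBC3
import Fermat.Agent.S18.GaussUnique

/-!
# S18, package GAUSSRING (part 5): the Gauss valuation ring of the level-`M` function field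

`K` a field of characteristic zero, `A : ValuationSubring K` lying over a prime `ℓ ∤ M`,
`k` its residue field, `F = laurentBaseChange K (modularFunctionFieldFull M) ⊂ K((q))`.

Series level (`E = K((q))`):
* `gr_gabHyp`: `(grV A, grRho A)` satisfies the hypotheses of the abstract core `GaussAbs`;
* `grTau A = j ∈ grV A`, with residue `j`, transcendental over `k`;
* `gr_exists_basis`: `ψ(M)` elements `Y i ∈ grV A ∩ F` whose residues are independent over
  `k[j]` and which span `F` over `K(j)`;
* `gr_exists_unit`: every nonzero `x ∈ F` is `c · u`, `c ∈ Kˣ`, `u` a unit of `grV A`.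

Field level (`F` as a field):
* `grO A hA M hℓM : ValuationSubring ↥F` (`mem_grO_iff`, `gr_mem_nonunits_iff`), residue map
  `grRes : grO →+* LaurentSeries k`;
* `gr_hind_j`: a family `b : Fin (ψ M) → F` in `grO`, spanning `F` over `K(j)`, orthonormal in
  the shape `hind` of `ValExt`;
* `gr_finrank_j`: `[F : K(j)] = ψ(M)`;
* `gr_unique_j`: `grO` is the unique valuation subring of `F` with its trace on `K(j)`;
* `gr_isIntegral_j`: every element of `grO` is integral over `grO ∩ K(j)`.
-/

set_option autoImplicit false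

noncomputable section

open ModularCurve Polynomial
open scoped IntermediateField

namespace Fermat.Agent.S18

open Fermat.Agent.S28

/-! ### Series level -/

section Series

variable {K : Type*} [Field K] (A : ValuationSubring K)

theorem gr_gabHyp : GabHyp A (grV A) (grRho A) where
  mem := gr_algebraMap_mem A
  rho := grRho_algebraMap A
  inv := gr_inv_mem A

/-- `j` as an element of the Gauss ring. -/
def grTau : grV A := ⟨jqModC K, gr_jqModC_mem A⟩

theorem grRho_grTau : grRho A (grTau A) = jqModC (IsLocalRing.ResidueField A) :=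
  grRho_jqModC A _

theorem gr_transcendental_tau :
    Transcendental (IsLocalRing.ResidueField A) (grRho A (grTau A)) := by
  rw [grRho_grTau]
  exact Fermat.Agent.S24.dg_transcendental_jqModC _

end Series

/-! ### A spanning lemma -/

theorem gr_span_aux {K E : Type*} [Field K] [Field E] [Algebra K E] {L F : IntermediateField K E}
    (h : L ≤ F) {n : ℕ} (y : Fin n → E) (hyF : ∀ i, y i ∈ F)
    (hy : ∀ a : Fin n → E, (∀ i, a i ∈ L) → ∑ i, a i * y i = 0 → ∀ i, a i = 0)
    (hn : IntermediateField.relrank L F ≤ (n : Cardinal)) (w : E) (hw : w ∈ F) :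
    ∃ a : Fin n → E, (∀ i, a i ∈ L) ∧ w = ∑ i, a i * y i := by
  classical
  have hli : LinearIndependent L y := by
    rw [Fintype.linearIndependent_iff]
    intro g hg i
    have h1 := hy (fun i => (g i : E)) (fun i => (g i).2) (by
      rw [← hg]
      exact Finset.sum_congr rfl fun j _ => (Algebra.smul_def (g j) (y j)).symm) i
    exact Subtype.ext h1
  set S : Submodule L E := Submodule.span L (Set.range y) with hS
  set T : Submodule L E := (IntermediateField.extendScalars h).toSubmodule with hT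
  have hST : S ≤ T := Submodule.span_le.mpr (by
    rintro _ ⟨i, rfl⟩
    exact hyF i)
  have hrank : Module.rank L T ≤ (n : Cardinal) := by
    rw [IntermediateField.relrank_eq_rank_of_le h] at hn
    exact hn
  have hfinT : Module.Finite L T :=
    Module.rank_lt_aleph0_iff.mp (hrank.trans_lt (Cardinal.natCast_lt_aleph0))
  have hfin : Module.finrank L T ≤ n := Module.finrank_le_of_rank_le hrank
  have hSn : Module.finrank L S = n := by
    rw [hS, finrank_span_eq_card hli, Fintype.card_fin]
  have hEq : S = T := Submodule.eq_of_le_of_finrank_le hST (by rw [hSn]; exact hfin)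
  have hw' : w ∈ S := by
    rw [hEq]
    exact hw
  obtain ⟨c, hc⟩ := (Submodule.mem_span_range_iff_exists_fun L).mp hw'
  refine ⟨fun i => (c i : E), fun i => (c i).2, ?_⟩
  rw [← hc]
  exact Finset.sum_congr rfl fun j _ => Algebra.smul_def (c j) (y j)

/-! ### The residually independent family -/

section Family

variable {K : Type*} [Field K] [Algebra ℚ K] (A : ValuationSubring K) {ℓ : ℕ} [Fact ℓ.Prime]

theorem gr_coeffEmb_jd_one : coeffEmb K (jd ℚ 1) = jqModC K := by
  rw [coeffEmb, coeffMap_jd, jd_one]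

theorem gr_jqModC_mem_base (M : ℕ) :
    jqModC K ∈ laurentBaseChange K (modularFunctionFieldFull M) := by
  rw [← gr_coeffEmb_jd_one]
  refine coeffEmb_mem_laurentBaseChange K ?_
  rw [jd_one]
  have h := jqd_mem_full M (one_dvd M)
  rw [qExpand_one_apply] at h
  exact h

theorem gr_adjoin_le_base (M : ℕ) :
    K⟮jqModC K⟯ ≤ laurentBaseChange K (modularFunctionFieldFull M) :=
  IntermediateField.adjoin_simple_le_iff.mpr (gr_jqModC_mem_base M)

theorem gr_relrank_le (M : ℕ) [NeZero M] :
    IntermediateField.relrank K⟮jqModC K⟯ (laurentBaseChange K (modularFunctionFieldFull M)) ≤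
      (psi M : Cardinal) := by
  have h1 := relrank_Ft_le M 1 (NeZero.pos M) (one_dvd M)
  rw [gbc_Ft_eq_full M] at h1
  have h2 := gbc_relrank_le K (modularFunctionFieldFull M) (jd ℚ 1)
    (by
      rw [jd_one]
      have h := jqd_mem_full M (one_dvd M)
      rw [qExpand_one_apply] at h
      exact h) (psi M) h1
  rwa [gr_coeffEmb_jd_one] at h2

theorem gr_exists_family (hA : A.LiesOverPrime ℓ) (M : ℕ) [NeZero M] (hℓM : ¬ ℓ ∣ M) :
    ∃ Y : Fin (psi M) → grV A,
      (∀ i, (Y i : LaurentSeries K) ∈ laurentBaseChange K (modularFunctionFieldFull M)) ∧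
      ∀ g : Fin (psi M) → (IsLocalRing.ResidueField A)[X],
        ∑ i, aeval (grRho A (grTau A)) (g i) * grRho A (Y i) = 0 → ∀ i, g i = 0 := by
  have hM : 0 < M := NeZero.pos M
  have h1 : (psi M : Cardinal) ≤ Subfield.relrank (kj ℓ 1) (kappa ℓ M) := by
    rw [relrank_one_eq ℓ M hM hℓM]
    exact psi_le_relrank ℓ M hM hℓM
  obtain ⟨ybar, hyk, hyli⟩ := fundIneq_exists_family (kj_le_kappa ℓ (one_dvd M)) (psi M) h1
  have hlift : ∀ i, ∃ x : Vw ℓ, (x : LaurentSeries ℚ) ∈ Ft M ∧ rho ℓ x = ybar i :=
    fun i => (mem_kappa_iff ℓ M).mp (hyk i)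
  choose x hxF hxρ using hlift
  refine ⟨fun i => ⟨coeffEmb K (x i : LaurentSeries ℚ), grc_mem A ℓ hA _ (x i).2⟩,
    fun i => ?_, fun g hg i => ?_⟩
  · refine coeffEmb_mem_laurentBaseChange K ?_
    rw [← gbc_Ft_eq_full M]
    exact hxF i
  · refine gbc_indep (grcPhi A ℓ hA) ybar hyli Finset.univ g ?_ i (Finset.mem_univ i)
    rw [← hg]
    refine Finset.sum_congr rfl fun i _ => ?_
    rw [grRho_grTau, grc_rho A ℓ hA (x i), hxρ]

/-- The main structure statement at series level: a family of `ψ(M)` elements of the Gauss ring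
lying in `F`, residually independent over `k[j]`, spanning `F` over `K(j)`. -/
theorem gr_exists_basis (hA : A.LiesOverPrime ℓ) (M : ℕ) [NeZero M] (hℓM : ¬ ℓ ∣ M) :
    ∃ Y : Fin (psi M) → grV A,
      (∀ i, (Y i : LaurentSeries K) ∈ laurentBaseChange K (modularFunctionFieldFull M)) ∧
      (∀ g : Fin (psi M) → (IsLocalRing.ResidueField A)[X],
        ∑ i, aeval (grRho A (grTau A)) (g i) * grRho A (Y i) = 0 → ∀ i, g i = 0) ∧
      ∀ x ∈ laurentBaseChange K (modularFunctionFieldFull M),
        ∃ a : Fin (psi M) → LaurentSeries K, (∀ i, a i ∈ K⟮jqModC K⟯) ∧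
          x = ∑ i, a i * (Y i : LaurentSeries K) := by
  obtain ⟨Y, hYF, hY⟩ := gr_exists_family A hA M hℓM
  refine ⟨Y, hYF, hY, fun x hx => ?_⟩
  refine gr_span_aux (gr_adjoin_le_base M) (fun i => (Y i : LaurentSeries K)) hYF ?_
    (gr_relrank_le M) x hx
  intro a ha h0 i
  exact gab_linearIndep (gr_gabHyp A) (grTau A) (gr_transcendental_tau A) Y Finset.univ
    (fun g hg i _ => hY g hg i) a (fun i _ => ha i) h0 i (Finset.mem_univ i)

/-- Every nonzero element of `F` is a constant times a unit of the Gauss ring. -/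
theorem gr_exists_unit (hA : A.LiesOverPrime ℓ) (M : ℕ) [NeZero M] (hℓM : ¬ ℓ ∣ M)
    (x : LaurentSeries K) (hx : x ∈ laurentBaseChange K (modularFunctionFieldFull M))
    (hx0 : x ≠ 0) :
    ∃ (c : K) (u : grV A), c ≠ 0 ∧ grRho A u ≠ 0 ∧
      x = algebraMap K (LaurentSeries K) c * (u : LaurentSeries K) := by
  obtain ⟨Y, -, hY, hspan⟩ := gr_exists_basis A hA M hℓM
  obtain ⟨a, ha, hxa⟩ := hspan x hx
  have hne : ∃ i ∈ Finset.univ, a i ≠ 0 := by
    by_contra hcon
    push Not at hcon
    apply hx0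
    rw [hxa]
    exact Finset.sum_eq_zero fun i hi => by rw [hcon i hi, zero_mul]
  obtain ⟨c, u, hc, hu, hsum, -⟩ := gab_span_unit (gr_gabHyp A) (grTau A)
    (gr_transcendental_tau A) Y Finset.univ (fun g hg i _ => hY g hg i) a (fun i _ => ha i) hne
  exact ⟨c, u, hc, hu, hxa.trans hsum⟩

theorem gr_mem_or_inv_mem (hA : A.LiesOverPrime ℓ) (M : ℕ) [NeZero M] (hℓM : ¬ ℓ ∣ M)
    (x : LaurentSeries K) (hx : x ∈ laurentBaseChange K (modularFunctionFieldFull M)) :
    x ∈ grV A ∨ x⁻¹ ∈ grV A := by
  by_cases hx0 : x = 0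
  · left
    rw [hx0]
    exact (grV A).zero_mem
  obtain ⟨c, u, hc, hu, hxu⟩ := gr_exists_unit A hA M hℓM x hx hx0
  rcases A.mem_or_inv_mem c with hcA | hcA
  · left
    rw [hxu]
    exact (grV A).mul_mem (gr_algebraMap_mem A ⟨c, hcA⟩) u.2
  · right
    rw [hxu, mul_inv, ← map_inv₀]
    exact (grV A).mul_mem (gr_algebraMap_mem A ⟨c⁻¹, hcA⟩) (gr_inv_mem A u hu)

end Family

/-! ### Field level -/

section FieldLevel

variable {K : Type*} [Field K] [Algebra ℚ K] (A : ValuationSubring K) {ℓ : ℕ} [Fact ℓ.Prime]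
  (hA : A.LiesOverPrime ℓ) (M : ℕ) [NeZero M] (hℓM : ¬ ℓ ∣ M)

/-- The Gauss valuation ring of the level-`M` function field over `K`. -/
def grO : ValuationSubring ↥(laurentBaseChange K (modularFunctionFieldFull M)) where
  carrier := {x | (x : LaurentSeries K) ∈ grV A}
  mul_mem' := fun ha hb => (grV A).mul_mem ha hb
  one_mem' := (grV A).one_mem
  add_mem' := fun ha hb => (grV A).add_mem ha hb
  zero_mem' := (grV A).zero_mem
  neg_mem' := fun ha => (grV A).neg_mem ha
  mem_or_inv_mem' := fun x => gr_mem_or_inv_mem A hA M hℓM (x : LaurentSeries K) x.2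

theorem mem_grO_iff (x : ↥(laurentBaseChange K (modularFunctionFieldFull M))) :
    x ∈ grO A hA M hℓM ↔ (x : LaurentSeries K) ∈ grV A := Iff.rfl

/-- The inclusion of the Gauss valuation ring of `F` into the Gauss ring of `K((q))`. -/
def grOToV : ↥(grO A hA M hℓM) →+* grV A where
  toFun x := ⟨((x : ↥(laurentBaseChange K (modularFunctionFieldFull M))) : LaurentSeries K), x.2⟩
  map_one' := rfl
  map_mul' _ _ := rfl
  map_zero' := rfl
  map_add' _ _ := rfl

/-- The residue map of the Gauss valuation ring of `F`, with values in `k((q))`. -/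
def grRes : ↥(grO A hA M hℓM) →+* LaurentSeries (IsLocalRing.ResidueField A) :=
  (grRho A).comp (grOToV A hA M hℓM)

theorem grRes_apply (x : ↥(grO A hA M hℓM)) :
    grRes A hA M hℓM x =
      grRho A ⟨((x : ↥(laurentBaseChange K (modularFunctionFieldFull M))) : LaurentSeries K), x.2⟩ :=
  rfl

/-- The non-units of the Gauss valuation ring are the elements with residue zero. -/
theorem gr_mem_nonunits_iff (x : ↥(laurentBaseChange K (modularFunctionFieldFull M))) :
    x ∈ (grO A hA M hℓM).nonunits ↔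
      ∃ h : (x : LaurentSeries K) ∈ grV A, grRho A ⟨(x : LaurentSeries K), h⟩ = 0 := by
  constructor
  · intro hx
    have hv : (grO A hA M hℓM).valuation x < 1 := (ValuationSubring.mem_nonunits_iff _).mp hx
    have hmem : x ∈ grO A hA M hℓM := (ValuationSubring.valuation_le_one_iff _ _).mp hv.le
    refine ⟨hmem, ?_⟩
    by_contra hρ
    have hinv : (x : LaurentSeries K)⁻¹ ∈ grV A := gr_inv_mem A ⟨_, hmem⟩ hρ
    have hx0 : x ≠ 0 := by
      rintro rfl
      apply hρ
      have : (⟨((0 : ↥(laurentBaseChange K (modularFunctionFieldFull M))) : LaurentSeries K),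
        hmem⟩ : grV A) = 0 := rfl
      rw [this, map_zero]
    have hinv' : x⁻¹ ∈ grO A hA M hℓM := hinv
    have h1 : (grO A hA M hℓM).valuation x⁻¹ ≤ 1 :=
      (ValuationSubring.valuation_le_one_iff _ _).mpr hinv'
    have hv0 : (grO A hA M hℓM).valuation x ≠ 0 := (Valuation.ne_zero_iff _).mpr hx0
    rw [map_inv₀, inv_le_one₀ (zero_lt_iff.mpr hv0)] at h1
    exact absurd hv (not_lt.mpr h1)
  · rintro ⟨h, hρ⟩
    by_cases hx0 : x = 0
    · rw [hx0, ValuationSubring.mem_nonunits_iff, map_zero]
      exact zero_lt_one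
    · have hx0' : (x : LaurentSeries K) ≠ 0 := fun h0 => hx0 (Subtype.ext h0)
      have hnot : (x : LaurentSeries K)⁻¹ ∉ grV A := gr_inv_notMem A ⟨_, h⟩ hρ hx0'
      rw [ValuationSubring.mem_nonunits_iff]
      by_contra hv
      rw [not_lt] at hv
      apply hnot
      have hv0 : (grO A hA M hℓM).valuation x ≠ 0 := (Valuation.ne_zero_iff _).mpr hx0
      have h1 : (grO A hA M hℓM).valuation x⁻¹ ≤ 1 := by
        rw [map_inv₀, inv_le_one₀ (zero_lt_iff.mpr hv0)]
        exact hv
      exact (ValuationSubring.valuation_le_one_iff _ _).mp h1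

theorem gr_mem_nonunits_iff_grRes (x : ↥(grO A hA M hℓM)) :
    (x : ↥(laurentBaseChange K (modularFunctionFieldFull M))) ∈ (grO A hA M hℓM).nonunits ↔
      grRes A hA M hℓM x = 0 := by
  rw [gr_mem_nonunits_iff]
  exact ⟨fun ⟨_, h⟩ => h, fun h => ⟨x.2, h⟩⟩

variable (K) in
/-- `j` as an element of the function field `F`. -/
def grJ : ↥(laurentBaseChange K (modularFunctionFieldFull M)) :=
  ⟨jqModC K, gr_jqModC_mem_base M⟩

omit [NeZero M] in
theorem gr_map_adjoin_grJ :
    (K⟮grJ K M⟯).map (laurentBaseChange K (modularFunctionFieldFull M)).val = K⟮jqModC K⟯ := by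
  rw [IntermediateField.adjoin_map, Set.image_singleton]
  rfl

omit [NeZero M] in
theorem gr_coe_mem_adjoin (a : ↥(laurentBaseChange K (modularFunctionFieldFull M)))
    (ha : a ∈ K⟮grJ K M⟯) : (a : LaurentSeries K) ∈ K⟮jqModC K⟯ := by
  rw [← gr_map_adjoin_grJ M]
  exact ⟨a, ha, rfl⟩

omit [NeZero M] in
theorem gr_exists_of_mem_adjoin (a' : LaurentSeries K) (ha : a' ∈ K⟮jqModC K⟯) :
    ∃ a : ↥(laurentBaseChange K (modularFunctionFieldFull M)),
      a ∈ K⟮grJ K M⟯ ∧ (a : LaurentSeries K) = a' := by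
  rw [← gr_map_adjoin_grJ M] at ha
  obtain ⟨a, ha, rfl⟩ := ha
  exact ⟨a, ha, rfl⟩

omit [NeZero M] in
theorem gr_coe_sum {n : ℕ} (f : Fin n → ↥(laurentBaseChange K (modularFunctionFieldFull M))) :
    ((∑ i, f i : ↥(laurentBaseChange K (modularFunctionFieldFull M))) : LaurentSeries K) =
      ∑ i, (f i : LaurentSeries K) :=
  map_sum (laurentBaseChange K (modularFunctionFieldFull M)).val f Finset.univ

/-- The orthonormal basis over `K(j)`: a family `b` of `ψ(M)` elements of the Gauss valuation
ring of `F`, spanning `F` over `K(j)`, satisfying `hind` of `ValExt`, with residues independent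
over `k[j]`. -/
theorem gr_hind_j :
    ∃ (b : Fin (psi M) → ↥(laurentBaseChange K (modularFunctionFieldFull M)))
      (hb : ∀ i, b i ∈ grO A hA M hℓM),
      (∀ x : ↥(laurentBaseChange K (modularFunctionFieldFull M)),
        ∃ a : Fin (psi M) → ↥K⟮grJ K M⟯,
          x = ∑ i, algebraMap ↥K⟮grJ K M⟯
            ↥(laurentBaseChange K (modularFunctionFieldFull M)) (a i) * b i) ∧
      (∀ a : Fin (psi M) → ↥K⟮grJ K M⟯,
        (∀ i, algebraMap ↥K⟮grJ K M⟯ ↥(laurentBaseChange K (modularFunctionFieldFull M)) (a i) ∈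
          grO A hA M hℓM) →
        ∑ i, algebraMap ↥K⟮grJ K M⟯ ↥(laurentBaseChange K (modularFunctionFieldFull M)) (a i) *
          b i ∈ (grO A hA M hℓM).nonunits →
        ∀ i, algebraMap ↥K⟮grJ K M⟯ ↥(laurentBaseChange K (modularFunctionFieldFull M)) (a i) ∈
          (grO A hA M hℓM).nonunits) ∧
      (∀ g : Fin (psi M) → (IsLocalRing.ResidueField A)[X],
        ∑ i, aeval (jqModC (IsLocalRing.ResidueField A)) (g i) *
          grRes A hA M hℓM ⟨b i, hb i⟩ = 0 → ∀ i, g i = 0) := by
  obtain ⟨Y, hYF, hY, hspan⟩ := gr_exists_basis A hA M hℓM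
  refine ⟨fun i => ⟨(Y i : LaurentSeries K), hYF i⟩, fun i => (Y i).2, ?_, ?_, ?_⟩
  · intro x
    obtain ⟨a', ha', hx⟩ := hspan (x : LaurentSeries K) x.2
    have hex := fun i => gr_exists_of_mem_adjoin M (a' i) (ha' i)
    choose a₀ ha₀ ha₀' using hex
    refine ⟨fun i => ⟨a₀ i, ha₀ i⟩, Subtype.ext ?_⟩
    rw [hx, gr_coe_sum]
    refine Finset.sum_congr rfl fun i _ => ?_
    rw [← ha₀' i]
    rfl
  · intro a ha hsum i
    rw [gr_mem_nonunits_iff] at hsum
    obtain ⟨hmem, hρ⟩ := hsum
    have hcoe : ((∑ i, algebraMap ↥K⟮grJ K M⟯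
        ↥(laurentBaseChange K (modularFunctionFieldFull M)) (a i) *
          (⟨(Y i : LaurentSeries K), hYF i⟩ : ↥(laurentBaseChange K (modularFunctionFieldFull M))) :
        ↥(laurentBaseChange K (modularFunctionFieldFull M))) : LaurentSeries K) =
        ∑ i, (((a i : ↥(laurentBaseChange K (modularFunctionFieldFull M))) : LaurentSeries K)) *
          (Y i : LaurentSeries K) := by
      rw [gr_coe_sum]
      rfl
    have hmem' : ∑ i, (((a i : ↥(laurentBaseChange K (modularFunctionFieldFull M))) :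
        LaurentSeries K)) * (Y i : LaurentSeries K) ∈ grV A := hcoe ▸ hmem
    have hρ' : grRho A ⟨_, hmem'⟩ = 0 := by
      rw [← hρ]
      congr 1
      exact Subtype.ext hcoe.symm
    have key := gab_orthonormal_rho (gr_gabHyp A) (grTau A) (gr_transcendental_tau A) Y
      Finset.univ (fun g hg i _ => hY g hg i)
      (fun i => (((a i : ↥(laurentBaseChange K (modularFunctionFieldFull M))) : LaurentSeries K)))
      (fun i _ => gr_coe_mem_adjoin M _ (a i).2) hmem' hρ' i (Finset.mem_univ i) (ha i)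
    rw [gr_mem_nonunits_iff]
    exact ⟨ha i, key⟩
  · intro g hg i
    refine hY g ?_ i
    rw [grRho_grTau]
    exact hg

include A hA hℓM in
/-- `[F : K(j)] = ψ(M)` (for any `K` admitting a valuation subring over a prime `ℓ ∤ M`). -/
theorem gr_finrank_j :
    Module.finrank ↥K⟮grJ K M⟯ ↥(laurentBaseChange K (modularFunctionFieldFull M)) = psi M ∧
      FiniteDimensional ↥K⟮grJ K M⟯ ↥(laurentBaseChange K (modularFunctionFieldFull M)) := by
  obtain ⟨b, hb, hspan, hind, -⟩ := gr_hind_j A hA M hℓM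
  have hli := valext_linearIndependent (grO A hA M hℓM) b hind
  have htop : ⊤ ≤ Submodule.span ↥K⟮grJ K M⟯ (Set.range b) := by
    intro x _
    obtain ⟨a, ha⟩ := hspan x
    rw [Submodule.mem_span_range_iff_exists_fun]
    refine ⟨a, ?_⟩
    rw [ha]
    exact Finset.sum_congr rfl fun i _ => Algebra.smul_def _ _
  have hfin := Module.finrank_eq_card_basis (Module.Basis.mk hli htop)
  rw [Fintype.card_fin] at hfin
  exact ⟨hfin, Module.Finite.of_basis (Module.Basis.mk hli htop)⟩

/-- The Gauss valuation ring is the unique valuation subring of `F` with its trace on `K(j)`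
(shape `huniq` of `valext_coeff_mem`, `valext_integral`, `valext_unique_of_intermediate`). -/
theorem gr_unique_j (O' : ValuationSubring ↥(laurentBaseChange K (modularFunctionFieldFull M)))
    (hO' : ∀ y : ↥K⟮grJ K M⟯,
      algebraMap ↥K⟮grJ K M⟯ ↥(laurentBaseChange K (modularFunctionFieldFull M)) y ∈ O' ↔
        algebraMap ↥K⟮grJ K M⟯ ↥(laurentBaseChange K (modularFunctionFieldFull M)) y ∈
          grO A hA M hℓM) :
    O' = grO A hA M hℓM := by
  obtain ⟨b, hb, hspan, hind, -⟩ := gr_hind_j A hA M hℓM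
  exact gun_unique (grO A hA M hℓM) b hspan hind hb O' hO'

/-- Every element of the Gauss valuation ring is integral over its trace on `K(j)` (stated for
any ring `R` with an algebra structure hitting the trace). -/
theorem gr_isIntegral_j {R : Type*} [CommRing R]
    [Algebra R ↥(laurentBaseChange K (modularFunctionFieldFull M))]
    (hR : ∀ y : ↥K⟮grJ K M⟯,
      algebraMap ↥K⟮grJ K M⟯ ↥(laurentBaseChange K (modularFunctionFieldFull M)) y ∈
        grO A hA M hℓM →
      ∃ r : R, algebraMap R ↥(laurentBaseChange K (modularFunctionFieldFull M)) r =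
        algebraMap ↥K⟮grJ K M⟯ ↥(laurentBaseChange K (modularFunctionFieldFull M)) y)
    (z : ↥(laurentBaseChange K (modularFunctionFieldFull M))) (hz : z ∈ grO A hA M hℓM) :
    IsIntegral R z := by
  obtain ⟨b, hb, hspan, hind, -⟩ := gr_hind_j A hA M hℓM
  exact gun_isIntegral (grO A hA M hℓM) b hspan hind hb hR z hz

/-- Integrality in polynomial form: every element of the Gauss valuation ring is a root of a
monic polynomial over `K(j)` with coefficients in the Gauss valuation ring. -/
theorem gr_monic_j (z : ↥(laurentBaseChange K (modularFunctionFieldFull M)))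
    (hz : z ∈ grO A hA M hℓM) :
    ∃ P : Polynomial ↥K⟮grJ K M⟯, P.Monic ∧
      (∀ i, algebraMap ↥K⟮grJ K M⟯ ↥(laurentBaseChange K (modularFunctionFieldFull M))
        (P.coeff i) ∈ grO A hA M hℓM) ∧ Polynomial.aeval z P = 0 := by
  let R : ValuationSubring ↥K⟮grJ K M⟯ := (grO A hA M hℓM).comap
    (algebraMap ↥K⟮grJ K M⟯ ↥(laurentBaseChange K (modularFunctionFieldFull M)))
  letI : Algebra R ↥(laurentBaseChange K (modularFunctionFieldFull M)) :=
    ((algebraMap ↥K⟮grJ K M⟯ ↥(laurentBaseChange K (modularFunctionFieldFull M))).comp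
      R.subtype).toAlgebra
  have hint : IsIntegral R z := gr_isIntegral_j A hA M hℓM (R := R)
    (fun y hy => ⟨⟨y, ValuationSubring.mem_comap.mpr hy⟩, rfl⟩) z hz
  obtain ⟨p, hp, hpz⟩ := hint
  refine ⟨p.map R.subtype, hp.map _, fun i => ?_, ?_⟩
  · rw [coeff_map]
    exact ValuationSubring.mem_comap.mp (p.coeff i).2
  · rw [aeval_def, eval₂_map]
    exact hpz

end FieldLevel

end Fermat.Agent.S18
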