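import Mathlib
import Fermat.Agent.S18.Charts
import Fermat.Agent.S18.ChartsAdapt
import Fermat.Agent.S18.GaussMain
import Fermat.Agent.S18.GaussDvr
import Fermat.Agent.S18.CoreInstHord
import Fermat.Agent.S18.CoreInstGauss
import Fermat.Agent.S18.CoreInstChart
import Fermat.Agent.S18.CoreInstAbs

/-!
# S18, work package COREINST, part 6: the core theorem at a level with a Hauptmodul chart

`cinst_of_chart`: `K0` a field of characteristic zero, `A0` a discrete valuation subring of `K0`
over the prime `ℓ`, `M` a level prime to `ℓ` and divisible by the level `a2` of a Hauptmodul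
record `H`, `F` the level-`M` function field over `K0`, `t ∈ F` the chart coordinate
`(h - c1) / (h - c0)` with `c0, c1 ∈ A0` of distinct residues.  If the special fibres of the two
charts `chtO A0 {t}`, `chtO A0 {t⁻¹}` are Dedekind domains, then every `f ∈ F` with `f ≡ 1`
modulo the maximal ideal of the Gauss valuation ring and `m ∣ ord_Q f` at all places `Q` of
`F / K0` (`m` prime to `ℓ`) is a constant times an `m`-th power.
-/

set_option autoImplicit false
set_option linter.unusedSectionVars false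

noncomputable section

open ModularCurve Polynomial
open Fermat.Agent.S28
open scoped IntermediateField

namespace Fermat.Agent.S18

section CinstChartField

variable {K0 : Type*} [Field K0] [Algebra ℚ K0] (A0 : ValuationSubring K0)
  {ℓ : ℕ} [Fact ℓ.Prime] (hA0 : A0.LiesOverPrime ℓ) (M : ℕ) [NeZero M] (hℓM : ¬ ℓ ∣ M)
  {a2 : ℕ} (H : HauptRec a2 ℓ)

/-- `j ∈ K0(t)` inside the function field, for the chart coordinate `t`. -/
theorem cinst_grJ_mem (c0 c1 : K0) (hc : c0 ≠ c1)
    (t : ↥(laurentBaseChange K0 (modularFunctionFieldFull M)))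
    (ht : (t : LaurentSeries K0) = cinstU H K0 c0 c1) :
    grJ K0 M ∈ K0⟮t⟯ := by
  have : CharZero K0 := algebraRat.charZero K0
  have h1 : jd K0 1 ∈ K0⟮cinstU H K0 c0 c1⟯ :=
    cinstU_jd_mem H K0 c0 c1 hc (H.coprime_of_charZero K0)
  have h2 : (K0⟮t⟯).map (laurentBaseChange K0 (modularFunctionFieldFull M)).val =
      K0⟮cinstU H K0 c0 c1⟯ := by
    rw [IntermediateField.adjoin_map, Set.image_singleton, ← ht]
    rfl
  rw [← h2, jd_one] at h1
  obtain ⟨x, hx, hxj⟩ := h1
  have : x = grJ K0 M := Subtype.ext hxj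
  rw [← this]
  exact hx

/-- `K0(j) ⊆ K0(t)` inside the function field. -/
theorem cinst_adjoin_grJ_le (c0 c1 : K0) (hc : c0 ≠ c1)
    (t : ↥(laurentBaseChange K0 (modularFunctionFieldFull M)))
    (ht : (t : LaurentSeries K0) = cinstU H K0 c0 c1)
    (y : ↥K0⟮grJ K0 M⟯) :
    algebraMap ↥K0⟮grJ K0 M⟯ ↥(laurentBaseChange K0 (modularFunctionFieldFull M)) y ∈ K0⟮t⟯ := by
  have hle : K0⟮grJ K0 M⟯ ≤ K0⟮t⟯ :=
    IntermediateField.adjoin_simple_le_iff.mpr (cinst_grJ_mem M H c0 c1 hc t ht)
  exact hle y.2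

/-- the chart coordinate is transcendental over `K0` as an element of the function field -/
theorem cinst_transcendental_t (c0 c1 : K0) (hc : c0 ≠ c1)
    (t : ↥(laurentBaseChange K0 (modularFunctionFieldFull M)))
    (ht : (t : LaurentSeries K0) = cinstU H K0 c0 c1) : Transcendental K0 t := by
  intro halg
  have h1 : IsAlgebraic K0 (t : LaurentSeries K0) := IntermediateField.isAlgebraic_iff.mp halg
  rw [ht] at h1
  exact cinstU_transcendental H K0 c0 c1 hc h1

end CinstChartField

section CinstMain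

variable {K0 : Type*} [Field K0] [Algebra ℚ K0] (A0 : ValuationSubring K0)
  [IsDiscreteValuationRing A0]
  {ℓ : ℕ} [Fact ℓ.Prime] (hA0 : A0.LiesOverPrime ℓ) (M : ℕ) [NeZero M] (hℓM : ¬ ℓ ∣ M)
  {a2 : ℕ} (H : HauptRec a2 ℓ)

include hA0 hℓM in
/-- **COREINST for a Hauptmodul chart.** -/
theorem cinst_of_chart
    [Algebra A0 ↥(laurentBaseChange K0 (modularFunctionFieldFull M))]
    [IsScalarTower A0 K0 ↥(laurentBaseChange K0 (modularFunctionFieldFull M))]
    (c0 c1 : A0) (hc : IsLocalRing.residue A0 c0 ≠ IsLocalRing.residue A0 c1)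
    (t : ↥(laurentBaseChange K0 (modularFunctionFieldFull M)))
    (ht : (t : LaurentSeries K0) = cinstU H K0 (c0 : K0) (c1 : K0))
    (τ : A0) (hτ : Irreducible τ) (m : ℕ) (hm : 0 < m) (hmℓ : m.Coprime ℓ)
    (hD0 : IsDedekindDomain (chtO A0 {t} ⧸ Ideal.span {algebraMap A0 (chtO A0 {t}) τ}))
    (hD1 : IsDedekindDomain (chtO A0 {t⁻¹} ⧸ Ideal.span {algebraMap A0 (chtO A0 {t⁻¹}) τ}))
    (f : ↥(laurentBaseChange K0 (modularFunctionFieldFull M)))
    (hf : ∃ h : (f : LaurentSeries K0) - 1 ∈ grV A0, grRho A0 ⟨_, h⟩ = 0)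
    (hdiv : ∀ Q : AlgebraicCurve.Place K0 ↥(laurentBaseChange K0 (modularFunctionFieldFull M)),
      (m : ℤ) ∣ Q.ord f) :
    ∃ (c : K0) (G : ↥(laurentBaseChange K0 (modularFunctionFieldFull M))),
      f = algebraMap K0 ↥(laurentBaseChange K0 (modularFunctionFieldFull M)) c * G ^ m := by
  classical
  have : CharZero K0 := algebraRat.charZero K0
  have hVG : ∀ x : ↥(laurentBaseChange K0 (modularFunctionFieldFull M)),
      x ∈ grO A0 hA0 M hℓM ↔ (x : LaurentSeries K0) ∈ grV A0 := fun x => Iff.rfl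
  have hgdv : ∀ x ∈ laurentBaseChange K0 (modularFunctionFieldFull M), gdvProp A0 x :=
    fun x hx => gdv_full_le A0 M hx
  have hmap : ∀ a : A0, algebraMap A0 ↥(laurentBaseChange K0 (modularFunctionFieldFull M)) a = algebraMap K0 ↥(laurentBaseChange K0 (modularFunctionFieldFull M)) (a : K0) := fun a =>
    IsScalarTower.algebraMap_apply A0 K0 ↥(laurentBaseChange K0 (modularFunctionFieldFull M)) a
  have hτmax : τ ∈ IsLocalRing.maximalIdeal A0 := by
    rw [IsLocalRing.mem_maximalIdeal, mem_nonunits_iff]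
    exact hτ.not_isUnit
  -- the constants
  have hA : ∀ a : A0, algebraMap A0 ↥(laurentBaseChange K0 (modularFunctionFieldFull M)) a ∈ grO A0 hA0 M hℓM := fun a => by
    rw [hmap]
    exact (cinst_algebraMap_mem_iff (grO A0 hA0 M hℓM) hVG _).mpr a.2
  have hτV : algebraMap A0 ↥(laurentBaseChange K0 (modularFunctionFieldFull M)) τ ∈ (grO A0 hA0 M hℓM).nonunits := by
    rw [hmap]
    exact cinst_algebraMap_mem_nonunits (grO A0 hA0 M hℓM) hVG τ hτmax
  have hτF : algebraMap A0 ↥(laurentBaseChange K0 (modularFunctionFieldFull M)) τ ≠ 0 := by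
    rw [hmap, Ne, map_eq_zero]
    intro h0
    exact hτ.ne_zero (Subtype.ext h0)
  have hτgen : ∀ x ∈ (grO A0 hA0 M hℓM).nonunits, x * (algebraMap A0 ↥(laurentBaseChange K0 (modularFunctionFieldFull M)) τ)⁻¹ ∈ grO A0 hA0 M hℓM := by
    intro x hx
    obtain ⟨y, hy, hxy⟩ := cinst_nonunits_eq_mul (grO A0 hA0 M hℓM) hVG hgdv τ hτ.maximalIdeal_eq x hx
    rw [hxy, ← hmap, mul_comm, ← mul_assoc, inv_mul_cancel₀ hτF, one_mul]
    exact hy
  -- the chart coordinate
  have hc' : (c0 : K0) ≠ (c1 : K0) := by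
    intro h0
    apply hc
    rw [Subtype.ext h0]
  have htt : Transcendental K0 t := cinst_transcendental_t M H _ _ hc' t ht
  have htV : t ∈ grO A0 hA0 M hℓM := by
    rw [hVG, ht]
    exact cinstU_mem_grV H A0 c0 c1
  have htV' : t⁻¹ ∈ grO A0 hA0 M hℓM := by
    rw [hVG, IntermediateField.coe_inv, ht]
    exact cinstU_inv_mem_grV H A0 c0 c1
  -- the residue of the chart coordinate is transcendental
  have hres : Transcendental (IsLocalRing.ResidueField A0)
      (cinstU H (IsLocalRing.ResidueField A0) (IsLocalRing.residue A0 c0)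
        (IsLocalRing.residue A0 c1)) :=
    cinstU_transcendental H _ _ _ hc
  have hG : ∀ p : A0[X], (∃ i, ¬ τ ∣ p.coeff i) → aeval t p ∉ (grO A0 hA0 M hℓM).nonunits := by
    rintro p ⟨i, hi⟩ hmem
    rw [cinst_mem_nonunits_iff (grO A0 hA0 M hℓM) hVG] at hmem
    obtain ⟨hmemV, hρ⟩ := hmem
    have hcoe : ((aeval t p : ↥(laurentBaseChange K0 (modularFunctionFieldFull M))) : LaurentSeries K0) =
        aeval (cinstU H K0 (c0 : K0) (c1 : K0)) (p.map A0.subtype) := by
      rw [← ht, aeval_def, aeval_def, eval₂_map]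
      have h1 := Polynomial.hom_eval₂ p
        (algebraMap A0 ↥(laurentBaseChange K0 (modularFunctionFieldFull M)))
        (laurentBaseChange K0 (modularFunctionFieldFull M)).val.toRingHom t
      refine h1.trans ?_
      congr 1
      refine RingHom.ext fun a => ?_
      show ((algebraMap A0 ↥(laurentBaseChange K0 (modularFunctionFieldFull M)) a :
        ↥(laurentBaseChange K0 (modularFunctionFieldFull M))) : LaurentSeries K0) = _
      rw [hmap]
      rfl
    have hρ' := gab_rho_aeval (gr_gabHyp A0) ⟨cinstU H K0 (c0 : K0) (c1 : K0),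
      cinstU_mem_grV H A0 c0 c1⟩ p
    rw [cinstU_grRho] at hρ'
    have hzero : aeval (cinstU H (IsLocalRing.ResidueField A0) (IsLocalRing.residue A0 c0)
        (IsLocalRing.residue A0 c1)) (p.map (IsLocalRing.residue A0)) = 0 := by
      rw [← hρ', ← hρ]
      congr 1
      exact Subtype.ext hcoe.symm
    have hp0 : p.map (IsLocalRing.residue A0) = 0 := by
      by_contra hne
      exact hres ⟨_, hne, hzero⟩
    have hci : IsLocalRing.residue A0 (p.coeff i) = 0 := by
      rw [← coeff_map, hp0, coeff_zero]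
    rw [IsLocalRing.residue_eq_zero_iff, hτ.maximalIdeal_eq, Ideal.mem_span_singleton] at hci
    exact hi hci
  -- finiteness and uniqueness over `K0(t)` from those over `K0(j)`
  have hL := cinst_adjoin_grJ_le M H _ _ hc' t ht
  obtain ⟨b, -, hspan, -, -⟩ := gr_hind_j A0 hA0 M hℓM
  have hfin := cht_hfin_of_span (A0 := A0) (K0 := K0) (L := ↥K0⟮grJ K0 M⟯) t htt hL b hspan
  have huniq := cht_huniq_of_sub (K0 := K0) (L := ↥K0⟮grJ K0 M⟯) (grO A0 hA0 M hℓM) t hL
    (gr_unique_j A0 hA0 M hℓM)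
  have hconst : ∀ x : ↥(laurentBaseChange K0 (modularFunctionFieldFull M)), IsAlgebraic K0 x → ∃ c : K0, algebraMap K0 ↥(laurentBaseChange K0 (modularFunctionFieldFull M)) c = x :=
    cht_hconst_intermediateField (laurentBaseChange K0 (modularFunctionFieldFull M))
  exact cinst_abs (K0 := K0) (grO A0 hA0 M hℓM) hA hτ hτV hτgen t htt htV htV' hG hfin huniq hconst m hm
    (cinst_isUnit_natCast A0 ℓ hA0 m hmℓ) hD0 hD1 f ((cinst_mem_nonunits_iff (grO A0 hA0 M hℓM) hVG (f - 1)).mpr hf) hdiv

end CinstMain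

end Fermat.Agent.S18
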