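import Mathlib
import Fermat.Prelude.Def_AlgebraicCurve_DivisorClassGroup
import Fermat.Agent.S18.ValExt

/-!
# S18, package PLACEEXT: places extend along constant field extensions, with the same order

`K₀ ⊆ K` separable algebraic, `F₀ ⊆ F` fields with `F = F₀ K`.  Every place `P₀` of `F₀ / K₀`
(a discrete valuation subring containing `K₀`) is the trace of a place `P` of `F / K` with
`P.ord y = P₀.ord y` for all `y ∈ F₀` (constant field extensions are unramified).

* `plx_val_sum_zero`, `plx_commens`: two terms of a vanishing sum have the same valuation; the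
  valuation of an algebraic element is commensurable with the valuations of the base field.
* `plx_core`: the valuation-theoretic heart for one generator `a` (root of a separable polynomial
  with constant coefficients).
* `plx_exists`: the statement for `AlgebraicCurve.Place`.
* `plx_dvd_ord`: the consumer's corollary (divisibility of all orders descends).
-/

set_option autoImplicit false

namespace Fermat.Agent.S18

open Polynomial

section Val

variable {F Γ : Type*} [Field F] [LinearOrderedCommGroupWithZero Γ]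

/-- Two terms of a vanishing sum have the same (nonzero) valuation. -/
theorem plx_val_sum_zero (v : Valuation F Γ) {ι : Type*} (s : Finset ι) (f : ι → F)
    (hsum : ∑ i ∈ s, f i = 0) (hne : ∃ i ∈ s, f i ≠ 0) :
    ∃ i ∈ s, ∃ j ∈ s, i ≠ j ∧ v (f i) = v (f j) ∧ f i ≠ 0 := by
  classical
  obtain ⟨i₁, hi₁, hf₁⟩ := hne
  obtain ⟨i₀, hi₀, hmax⟩ := Finset.exists_max_image s (fun i => v (f i)) ⟨i₁, hi₁⟩
  have hv0 : v (f i₀) ≠ 0 := by
    intro h
    have h1 := hmax i₁ hi₁
    rw [h] at h1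
    exact hf₁ ((v.zero_iff).mp (le_antisymm h1 zero_le))
  have hf0 : f i₀ ≠ 0 := fun h => hv0 (by rw [h, map_zero])
  by_contra hcon
  push Not at hcon
  have hlt : ∀ j ∈ s.erase i₀, v (f j) < v (f i₀) := by
    intro j hj
    have hj' := Finset.mem_erase.mp hj
    refine lt_of_le_of_ne (hmax j hj'.2) ?_
    intro h
    exact hf0 (hcon i₀ hi₀ j hj'.2 (Ne.symm hj'.1) h.symm)
  have hs : f i₀ = - ∑ j ∈ s.erase i₀, f j := by
    rw [← Finset.add_sum_erase s f hi₀] at hsum
    exact eq_neg_of_add_eq_zero_left hsum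
  have h2 := v.map_sum_lt hv0 hlt
  rw [← v.map_neg, ← hs] at h2
  exact lt_irrefl _ h2

/-- The valuation of a nonzero algebraic element has a positive power in the value group of the
base field. -/
theorem plx_commens {F₀ : Type*} [Field F₀] [Algebra F₀ F] (v : Valuation F Γ) (x : F)
    (hx : x ≠ 0) (hxa : IsAlgebraic F₀ x) :
    ∃ k : ℕ, 0 < k ∧ ∃ y : F₀, y ≠ 0 ∧ v x ^ k = v (algebraMap F₀ F y) := by
  obtain ⟨p, hp0, hpx⟩ := hxa
  have hsum : ∑ i ∈ p.support, algebraMap F₀ F (p.coeff i) * x ^ i = 0 := by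
    rw [← hpx, aeval_def, eval₂_eq_sum, Polynomial.sum]
  have hne : ∃ i ∈ p.support, algebraMap F₀ F (p.coeff i) * x ^ i ≠ 0 := by
    obtain ⟨i, hi⟩ := Polynomial.support_nonempty.mpr hp0
    exact ⟨i, hi, mul_ne_zero ((_root_.map_ne_zero _).mpr (Polynomial.mem_support_iff.mp hi))
      (pow_ne_zero _ hx)⟩
  obtain ⟨i, hi, j, hj, hij, hv, -⟩ := plx_val_sum_zero v p.support _ hsum hne
  have key : ∀ i d : ℕ, i ∈ p.support → i + (d + 1) ∈ p.support →
      v (algebraMap F₀ F (p.coeff i) * x ^ i) =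
        v (algebraMap F₀ F (p.coeff (i + (d + 1))) * x ^ (i + (d + 1))) →
      ∃ k : ℕ, 0 < k ∧ ∃ y : F₀, y ≠ 0 ∧ v x ^ k = v (algebraMap F₀ F y) := by
    intro i d hi hj hv
    have hci := Polynomial.mem_support_iff.mp hi
    have hcj := Polynomial.mem_support_iff.mp hj
    refine ⟨d + 1, Nat.succ_pos d, p.coeff i / p.coeff (i + (d + 1)), div_ne_zero hci hcj, ?_⟩
    have hvx : v x ≠ 0 := (v.ne_zero_iff).mpr hx
    have hvcj : v (algebraMap F₀ F (p.coeff (i + (d + 1)))) ≠ 0 :=
      (v.ne_zero_iff).mpr ((_root_.map_ne_zero _).mpr hcj)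
    rw [map_mul, map_mul, map_pow, map_pow, pow_add] at hv
    rw [map_div₀, map_div₀, eq_div_iff hvcj]
    have hvxi : v x ^ i ≠ 0 := pow_ne_zero _ hvx
    have h3 : v (algebraMap F₀ F (p.coeff i)) * v x ^ i =
        (v x ^ (d + 1) * v (algebraMap F₀ F (p.coeff (i + (d + 1))))) * v x ^ i := by
      rw [hv]
      ac_rfl
    exact (mul_right_cancel₀ hvxi h3).symm
  rcases lt_or_gt_of_ne hij with h | h
  · obtain ⟨d, rfl⟩ := Nat.exists_eq_add_of_lt h
    exact key i d hi (by simpa [add_assoc] using hj) (by simpa [add_assoc] using hv)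
  · obtain ⟨d, rfl⟩ := Nat.exists_eq_add_of_lt h
    exact key j d hj (by simpa [add_assoc] using hi) (by simpa [add_assoc] using hv.symm)

end Val

section Core

variable {K₀ F₀ F : Type*} [Field K₀] [Field F₀] [Field F] [Algebra K₀ F₀] [Algebra F₀ F]
  [Algebra K₀ F] [IsScalarTower K₀ F₀ F]

/-- Valuation-theoretic heart of PLACEEXT.  `O₀` is a valuation subring of `F₀` containing the
constants `K₀`, with maximal ideal generated by `π₀ ≠ 0` and every nonzero element a unit times a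
power of `π₀`; `O` is a valuation subring of `F` with trace `O₀`; `a ∈ F` is a root of a monic
separable polynomial `g` with coefficients in `K₀`.  Then the valuation of every nonzero element
of `F₀[a]` is an integral power of the valuation of `π₀`. -/
theorem plx_core (O₀ : ValuationSubring F₀) (O : ValuationSubring F)
    (hK₀ : ∀ c : K₀, algebraMap K₀ F₀ c ∈ O₀)
    (π₀ : F₀) (hπ0 : π₀ ≠ 0) (hπlt : O₀.valuation π₀ < 1)
    (hπgen : ∀ y : F₀, O₀.valuation y < 1 → ∃ z ∈ O₀, y = π₀ * z)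
    (hπfact : ∀ y : F₀, y ≠ 0 → ∃ m : ℤ, ∃ u : F₀, O₀.valuation u = 1 ∧ y = u * π₀ ^ m)
    (hO : O.comap (algebraMap F₀ F) = O₀)
    (a : F) (g : K₀[X]) (hg : g.Monic) (hgs : g.Separable) (hga : aeval a g = 0)
    (H : F₀[X]) (hH : aeval a H ≠ 0) :
    ∃ n : ℤ, O.valuation (aeval a H) = O.valuation (algebraMap F₀ F π₀) ^ n := by
  classical
  -- basic facts about the trace
  have hOmem : ∀ y : F₀, algebraMap F₀ F y ∈ O ↔ y ∈ O₀ := fun y => by
    rw [← hO]; exact ValuationSubring.mem_comap.symm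
  have hπ₀ : π₀ ∈ O₀ := (O₀.valuation_le_one_iff π₀).mp hπlt.le
  set ϖ := O.valuation (algebraMap F₀ F π₀) with hϖ
  have hϖ0 : ϖ ≠ 0 := (O.valuation.ne_zero_iff).mpr ((_root_.map_ne_zero _).mpr hπ0)
  have hϖlt : ϖ < 1 := by
    have h1 : ϖ ≤ 1 := (O.valuation_le_one_iff _).mpr ((hOmem π₀).mpr hπ₀)
    refine lt_of_le_of_ne h1 ?_
    intro h
    have h2 : O.valuation (algebraMap F₀ F π₀⁻¹) ≤ 1 := by
      rw [map_inv₀, map_inv₀, ← hϖ, h, inv_one]
    have h3 : π₀⁻¹ ∈ O₀ := (hOmem _).mp ((O.valuation_le_one_iff _).mp h2)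
    have h4 : O₀.valuation π₀⁻¹ ≤ 1 := (O₀.valuation_le_one_iff _).mpr h3
    rw [map_inv₀] at h4
    have h5 : O₀.valuation π₀ ≠ 0 := (O₀.valuation.ne_zero_iff).mpr hπ0
    have h6 : 1 ≤ O₀.valuation π₀ := (inv_le_one₀ (zero_lt_iff.mpr h5)).mp h4
    exact absurd hπlt (not_lt.mpr h6)
  have hv1 : ∀ u : F₀, O₀.valuation u = 1 → O.valuation (algebraMap F₀ F u) = 1 := by
    intro u hu
    have hu0 : u ≠ 0 := by
      rintro rfl
      rw [map_zero] at hu
      exact zero_ne_one hu
    have h1 : O.valuation (algebraMap F₀ F u) ≤ 1 :=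
      (O.valuation_le_one_iff _).mpr ((hOmem u).mpr ((O₀.valuation_le_one_iff u).mp hu.le))
    have h2 : O.valuation (algebraMap F₀ F u⁻¹) ≤ 1 := by
      refine (O.valuation_le_one_iff _).mpr ((hOmem _).mpr ((O₀.valuation_le_one_iff _).mp ?_))
      rw [map_inv₀, hu, inv_one]
    rw [map_inv₀, map_inv₀] at h2
    have h3 : O.valuation (algebraMap F₀ F u) ≠ 0 :=
      (O.valuation.ne_zero_iff).mpr ((_root_.map_ne_zero _).mpr hu0)
    exact le_antisymm h1 ((inv_le_one₀ (zero_lt_iff.mpr h3)).mp h2)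
  have hvF₀ : ∀ y : F₀, y ≠ 0 → ∃ m : ℤ, O.valuation (algebraMap F₀ F y) = ϖ ^ m := by
    intro y hy
    obtain ⟨m, u, hu, rfl⟩ := hπfact y hy
    exact ⟨m, by rw [map_mul, map_mul, map_zpow₀, map_zpow₀, hv1 u hu, one_mul]⟩
  -- the ring homs
  let φK : K₀ →+* O₀ := (algebraMap K₀ F₀).codRestrict O₀ hK₀
  let φ : O₀ →+* O := ((algebraMap F₀ F).comp O₀.subtype).codRestrict O
    (fun y => (hOmem _).mpr y.2)
  have hφcoe : ∀ y : O₀, ((φ y : O) : F) = algebraMap F₀ F (y : F₀) := fun y => rfl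
  -- `a ∈ O`
  have haO : a ∈ O := by
    have hint : IsIntegral O a := by
      refine ⟨g.map (φ.comp φK), hg.map _, ?_⟩
      rw [eval₂_map]
      have hcomp : (algebraMap O F).comp (φ.comp φK) = algebraMap K₀ F := by
        ext c
        exact (IsScalarTower.algebraMap_apply K₀ F₀ F c).symm
      rw [hcomp]
      exact hga
    obtain ⟨y, hy⟩ := IsIntegrallyClosed.isIntegral_iff.mp hint
    rw [← hy]
    exact y.2
  let aO : O := ⟨a, haO⟩
  let E : O₀[X] →+* O := eval₂RingHom φ aO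
  have hEcoe : ∀ h : O₀[X], ((E h : O) : F) =
      eval₂ ((algebraMap F₀ F).comp O₀.subtype) a h := by
    intro h
    have := hom_eval₂ h φ O.subtype aO
    exact this
  let G : O₀[X] := g.map φK
  have hGm : G.Monic := hg.map _
  have hEG : E G = 0 := by
    apply Subtype.ext
    rw [hEcoe]
    show eval₂ ((algebraMap F₀ F).comp O₀.subtype) a (g.map φK) = ((0 : O) : F)
    rw [eval₂_map]
    have hcomp : ((algebraMap F₀ F).comp O₀.subtype).comp φK = algebraMap K₀ F := by
      ext c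
      exact (IsScalarTower.algebraMap_apply K₀ F₀ F c).symm
    rw [hcomp]
    exact hga
  -- residue field of `O₀`
  let res₀ : O₀ →+* IsLocalRing.ResidueField O₀ := IsLocalRing.residue O₀
  have hres_surj : Function.Surjective res₀ := IsLocalRing.residue_surjective
  let π' : O₀ := ⟨π₀, hπ₀⟩
  have hEC : ∀ c : O₀, E (C c) = φ c := fun c => eval₂_C _ _
  have hker : ∀ r : O₀[X], r.map res₀ = 0 → ∃ r' : O₀[X], r = C π' * r' := by
    intro r hr
    have hdvd : C π' ∣ r := by
      rw [C_dvd_iff_dvd_coeff]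
      intro i
      have h0 : res₀ (r.coeff i) = 0 := by
        have h := congrArg (fun q => q.coeff i) hr
        simpa using h
      have h1 : r.coeff i ∈ IsLocalRing.maximalIdeal O₀ :=
        (IsLocalRing.residue_eq_zero_iff _).mp h0
      have h2 : O₀.valuation ((r.coeff i : O₀) : F₀) < 1 := (O₀.valuation_lt_one_iff _).mp h1
      obtain ⟨z, hz, hz'⟩ := hπgen _ h2
      exact ⟨⟨z, hz⟩, Subtype.ext hz'⟩
    exact hdvd
  have hφπ : φ π' ∈ IsLocalRing.maximalIdeal O := by
    rw [O.valuation_lt_one_iff]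
    exact hϖlt
  let 𝔫 : Ideal O₀[X] := (IsLocalRing.maximalIdeal O).comap E
  let 𝔫b : Ideal (IsLocalRing.ResidueField O₀)[X] := 𝔫.map (mapRingHom res₀)
  have hmap_surj : Function.Surjective (mapRingHom res₀) := map_surjective res₀ hres_surj
  have h𝔫b_ne_top : 𝔫b ≠ ⊤ := by
    intro htop
    have h1 : (1 : (IsLocalRing.ResidueField O₀)[X]) ∈ 𝔫b := by rw [htop]; trivial
    obtain ⟨h, hh, hh1⟩ := (Ideal.mem_map_iff_of_surjective _ hmap_surj).mp h1
    obtain ⟨r', hr'⟩ := hker (h - 1) (by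
      rw [Polynomial.map_sub, Polynomial.map_one]
      exact sub_eq_zero.mpr hh1)
    have h2 : E h - 1 = φ π' * E r' := by
      have h3 := congrArg E hr'
      rw [map_sub, map_one, map_mul, hEC] at h3
      exact h3
    have h4 : E h ∈ IsLocalRing.maximalIdeal O := hh
    have h5 : E h - 1 ∈ IsLocalRing.maximalIdeal O := by
      rw [h2]; exact Ideal.mul_mem_right _ _ hφπ
    have h6 : (1 : O) ∈ IsLocalRing.maximalIdeal O := by
      have h7 := sub_mem h4 h5
      simp at h7
    exact (Ideal.ne_top_iff_one _).mp (IsLocalRing.maximalIdeal.isMaximal O).ne_top h6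
  let Gb : (IsLocalRing.ResidueField O₀)[X] := G.map res₀
  have hGbm : Gb.Monic := hGm.map _
  have hG𝔫 : G ∈ 𝔫 := by
    show E G ∈ IsLocalRing.maximalIdeal O
    rw [hEG]; exact zero_mem _
  have hGb𝔫 : Gb ∈ 𝔫b := Ideal.mem_map_of_mem (mapRingHom res₀) hG𝔫
  have hprinc : ∃ μ : (IsLocalRing.ResidueField O₀)[X], μ.Monic ∧ 𝔫b = Ideal.span {μ} := by
    obtain ⟨gen, hgen⟩ := (IsPrincipalIdealRing.principal 𝔫b).principal
    have hgen' : 𝔫b = Ideal.span {gen} := hgen
    have hgen0 : gen ≠ 0 := by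
      rintro rfl
      have h := hGb𝔫
      rw [hgen', Ideal.mem_span_singleton, zero_dvd_iff] at h
      exact hGbm.ne_zero h
    refine ⟨normalize gen, monic_normalize hgen0, ?_⟩
    rw [hgen']
    exact Ideal.span_singleton_eq_span_singleton.mpr (associated_normalize gen)
  obtain ⟨μ, hμm, hμ⟩ := hprinc
  have hμdvd : ∀ h ∈ 𝔫, μ ∣ h.map res₀ := by
    intro h hh
    have h1 : h.map res₀ ∈ 𝔫b := Ideal.mem_map_of_mem (mapRingHom res₀) hh
    rw [hμ] at h1
    exact Ideal.mem_span_singleton.mp h1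
  have hμnu : ¬ IsUnit μ := by
    intro hu
    apply h𝔫b_ne_top
    rw [hμ]
    exact Ideal.span_singleton_eq_top.mpr hu
  obtain ⟨ν, hν⟩ := hμdvd G hG𝔫
  have hGbsep : Gb.Separable := by
    have h1 : Gb = g.map (res₀.comp φK) := by
      show (g.map φK).map res₀ = _
      rw [Polynomial.map_map]
    rw [h1]
    exact hgs.map
  have hsqf : Squarefree Gb := hGbsep.squarefree
  obtain ⟨M, hMmap, -, hMm⟩ :=
    lifts_and_degree_eq_and_monic (mem_lifts_of_surjective hres_surj μ) hμm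
  obtain ⟨V, hVmap⟩ := hmap_surj ν
  have hVmap' : V.map res₀ = ν := hVmap
  have hV𝔫 : V ∉ 𝔫 := by
    intro hV
    obtain ⟨c, hc⟩ := hμdvd V hV
    apply hμnu
    apply hsqf μ
    refine ⟨c, ?_⟩
    show G.map res₀ = μ * μ * c
    rw [hν, ← hVmap', hc, mul_assoc]
  have hEVunit : IsUnit (E V) := by
    by_contra h
    exact hV𝔫 ((IsLocalRing.mem_maximalIdeal _).mpr h)
  obtain ⟨R₀, hR₀⟩ := hker (G - M * V) (by
    rw [Polynomial.map_sub, Polynomial.map_mul, hMmap, hVmap', ← hν]
    exact sub_self _)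
  have hEMV : E M * E V = - (φ π' * E R₀) := by
    have h := congrArg E hR₀
    rw [map_sub, map_mul, hEG, map_mul, zero_sub, hEC] at h
    rw [← h, neg_neg]
  have hstep : ∀ h : O₀[X], E h ∈ IsLocalRing.maximalIdeal O →
      ∃ h₃ : O₀[X], E h * E V = φ π' * E h₃ := by
    intro h hh
    have hdvd : μ ∣ h.map res₀ := hμdvd h hh
    have hrem : (h %ₘ M).map res₀ = 0 := by
      rw [map_modByMonic _ hMm, hMmap]
      exact (modByMonic_eq_zero_iff_dvd hμm).mpr hdvd
    obtain ⟨r', hr'⟩ := hker _ hrem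
    refine ⟨r' * V - R₀ * (h /ₘ M), ?_⟩
    have hdecomp : h = C π' * r' + M * (h /ₘ M) := by
      rw [← hr']; exact (modByMonic_add_div h M).symm
    calc E h * E V = (φ π' * E r' + E M * E (h /ₘ M)) * E V := by
            conv_lhs => rw [hdecomp]
            rw [map_add, map_mul, map_mul, hEC]
      _ = φ π' * E r' * E V + (E M * E V) * E (h /ₘ M) := by ring
      _ = φ π' * E (r' * V - R₀ * (h /ₘ M)) := by
            rw [hEMV, map_sub, map_mul, map_mul]; ring
  have hvEV : O.valuation ((E V : O) : F) = 1 := (O.valuation_eq_one_iff _).mp hEVunit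
  -- the main iteration
  have hmain : ∀ h : O₀[X], E h ≠ 0 → ∃ n : ℕ, O.valuation ((E h : O) : F) = ϖ ^ n := by
    intro h hh0
    have hx0 : ((E h : O) : F) ≠ 0 := fun h0 => hh0 (Subtype.ext h0)
    have hxalg : IsAlgebraic F₀ ((E h : O) : F) := by
      rw [isAlgebraic_iff_isIntegral, hEcoe, ← eval₂_map, ← aeval_def]
      have haint : IsIntegral F₀ a := by
        refine ⟨g.map (algebraMap K₀ F₀), hg.map _, ?_⟩
        rw [eval₂_map, ← IsScalarTower.algebraMap_eq]
        exact hga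
      have hle : Algebra.adjoin F₀ {a} ≤ integralClosure F₀ F :=
        Algebra.adjoin_le (Set.singleton_subset_iff.mpr haint)
      exact hle (aeval_mem_adjoin_singleton F₀ a)
    obtain ⟨k, hk, y, hy, hky⟩ := plx_commens (F₀ := F₀) O.valuation _ hx0 hxalg
    obtain ⟨m, hm⟩ := hvF₀ y hy
    rw [hm] at hky
    have hval : ∀ (n : ℕ) (h' : O₀[X]), E h * E V ^ n = φ π' ^ n * E h' →
        O.valuation ((E h : O) : F) = ϖ ^ n * O.valuation ((E h' : O) : F) := by
      intro n h' hh'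
      have h2 := congrArg (fun z : O => O.valuation (z : F)) hh'
      simp only [MulMemClass.coe_mul, SubmonoidClass.coe_pow, map_mul, map_pow, hvEV, one_pow,
        mul_one] at h2
      rw [h2]
      rfl
    have hDbound : ∀ n : ℕ, (∃ h' : O₀[X], E h * E V ^ n = φ π' ^ n * E h') →
        (n : ℤ) * k ≤ m := by
      rintro n ⟨h', hh'⟩
      by_contra hlt
      push Not at hlt
      have h3 : O.valuation ((E h : O) : F) ≤ ϖ ^ n := by
        rw [hval n h' hh']
        exact mul_le_of_le_one_right' (O.valuation_le_one _)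
      have h4 : O.valuation ((E h : O) : F) ^ k ≤ (ϖ ^ n) ^ k := pow_le_pow_left₀ zero_le h3 k
      rw [hky, ← pow_mul, ← zpow_natCast] at h4
      have h5 : ϖ ^ (((n * k : ℕ)) : ℤ) < ϖ ^ m :=
        zpow_lt_zpow_right_of_lt_one₀ (zero_lt_iff.mpr hϖ0) hϖlt (by push_cast; exact hlt)
      exact absurd h4 (not_le.mpr h5)
    have hbd : ∀ n : ℕ, (∃ h' : O₀[X], E h * E V ^ n = φ π' ^ n * E h') → n ≤ m.toNat := by
      intro n hn
      have h1 := hDbound n hn
      have hk' : (1 : ℤ) ≤ k := by exact_mod_cast hk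
      have h2 : (n : ℤ) ≤ m := le_trans (by nlinarith) h1
      omega
    have hP0 : ∃ h' : O₀[X], E h * E V ^ 0 = φ π' ^ 0 * E h' := ⟨h, by simp⟩
    obtain ⟨n, ⟨h', hh'⟩, hmaxn⟩ : ∃ n : ℕ,
        (∃ h' : O₀[X], E h * E V ^ n = φ π' ^ n * E h') ∧
        ∀ n' : ℕ, (∃ h' : O₀[X], E h * E V ^ n' = φ π' ^ n' * E h') → n' ≤ n := by
      refine ⟨Nat.findGreatest (fun n => ∃ h' : O₀[X], E h * E V ^ n = φ π' ^ n * E h') m.toNat,
        ?_, ?_⟩
      · exact Nat.findGreatest_spec (P := fun n => ∃ h' : O₀[X], E h * E V ^ n = φ π' ^ n * E h')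
          (Nat.zero_le _) hP0
      · intro n' hn'
        exact Nat.le_findGreatest (hbd n' hn') hn'
    have hunit : IsUnit (E h') := by
      by_contra hnu
      have hmem : E h' ∈ IsLocalRing.maximalIdeal O := (IsLocalRing.mem_maximalIdeal _).mpr hnu
      obtain ⟨h₃, hh₃⟩ := hstep h' hmem
      have h1 : ∃ h'' : O₀[X], E h * E V ^ (n + 1) = φ π' ^ (n + 1) * E h'' := by
        refine ⟨h₃, ?_⟩
        calc E h * E V ^ (n + 1) = (E h * E V ^ n) * E V := by ring
          _ = φ π' ^ n * (E h' * E V) := by rw [hh']; ring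
          _ = φ π' ^ (n + 1) * E h₃ := by rw [hh₃]; ring
      have h2 := hmaxn (n + 1) h1
      omega
    refine ⟨n, ?_⟩
    rw [hval n h' hh', (O.valuation_eq_one_iff _).mp hunit, mul_one]
  -- clearing denominators
  have hpow : ∀ c : F₀, ∃ N : ℕ, π₀ ^ N * c ∈ O₀ := by
    intro c
    rcases eq_or_ne c 0 with rfl | hc
    · exact ⟨0, by simp [O₀.zero_mem]⟩
    · obtain ⟨m, u, hu, rfl⟩ := hπfact c hc
      refine ⟨(-m).toNat, ?_⟩
      have hu' : u ∈ O₀ := (O₀.valuation_le_one_iff u).mp hu.le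
      have h1 : π₀ ^ (-m).toNat * (u * π₀ ^ m) = u * π₀ ^ ((m + (-m).toNat).toNat) := by
        have h2 : ((m + (-m).toNat).toNat : ℤ) = m + (-m).toNat := Int.toNat_of_nonneg (by omega)
        rw [← zpow_natCast π₀ ((m + (-m).toNat).toNat), h2, zpow_add₀ hπ0, zpow_natCast]
        ring
      rw [h1]
      exact O₀.mul_mem _ _ hu' (pow_mem hπ₀ _)
  have hclear : ∀ H : F₀[X], ∃ N : ℕ, ∃ h : O₀[X],
      algebraMap F₀ F π₀ ^ N * aeval a H = ((E h : O) : F) := by
    intro H
    induction H using Polynomial.induction_on' with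
    | add p q hp hq =>
      obtain ⟨N₁, h₁, e₁⟩ := hp
      obtain ⟨N₂, h₂, e₂⟩ := hq
      refine ⟨N₁ + N₂, C (π' ^ N₂) * h₁ + C (π' ^ N₁) * h₂, ?_⟩
      rw [map_add, mul_add, map_add, map_mul, map_mul, hEC, hEC]
      show _ = ((φ (π' ^ N₂) : O) : F) * ((E h₁ : O) : F) + ((φ (π' ^ N₁) : O) : F) * ((E h₂ : O) : F)
      rw [← e₁, ← e₂, hφcoe, hφcoe]
      show _ = algebraMap F₀ F (π₀ ^ N₂) * _ + algebraMap F₀ F (π₀ ^ N₁) * _
      rw [map_pow, map_pow]
      ring
    | monomial n c =>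
      obtain ⟨N, hN⟩ := hpow c
      refine ⟨N, C ⟨π₀ ^ N * c, hN⟩ * X ^ n, ?_⟩
      rw [map_mul, hEC, map_pow]
      show _ = ((φ ⟨π₀ ^ N * c, hN⟩ : O) : F) * ((E X : O) : F) ^ n
      have hEX : ((E X : O) : F) = a := by
        show ((eval₂ φ aO X : O) : F) = a
        rw [eval₂_X]
      rw [hEX, hφcoe, aeval_monomial]
      show _ = algebraMap F₀ F (π₀ ^ N * c) * a ^ n
      rw [map_mul, map_pow]
      ring
  obtain ⟨N, h, hNh⟩ := hclear H
  have hEh0 : E h ≠ 0 := by
    intro h0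
    rw [h0] at hNh
    have h1 : algebraMap F₀ F π₀ ^ N * aeval a H = 0 := by rw [hNh]; rfl
    rcases mul_eq_zero.mp h1 with h2 | h2
    · exact (pow_ne_zero N ((_root_.map_ne_zero _).mpr hπ0)) h2
    · exact hH h2
  obtain ⟨n, hn⟩ := hmain h hEh0
  refine ⟨(n : ℤ) - N, ?_⟩
  have h1 := congrArg O.valuation hNh
  rw [map_mul, map_pow, hn] at h1
  rw [zpow_sub₀ hϖ0, zpow_natCast, zpow_natCast, eq_div_iff (pow_ne_zero N hϖ0), mul_comm]
  exact h1

end Core

section Wrapper

open AlgebraicCurve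

variable {K₀ K F₀ F : Type*} [Field K₀] [Field K] [Field F₀] [Field F]
  [Algebra K₀ K] [Algebra K₀ F₀] [Algebra K₀ F] [Algebra K F] [Algebra F₀ F]
  [IsScalarTower K₀ K F] [IsScalarTower K₀ F₀ F]

/-- If `F = F₀ K` with `K / K₀` separable algebraic, every element of `F` is a polynomial
expression with coefficients in `F₀` in a single root of a separable polynomial over `K₀`. -/
theorem plx_repr [Algebra.IsSeparable K₀ K]
    (hgen : IntermediateField.adjoin F₀ (Set.range (algebraMap K F)) = ⊤) (x : F) :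
    ∃ (a : F) (g : K₀[X]) (H : F₀[X]), g.Monic ∧ g.Separable ∧ aeval a g = 0 ∧
      aeval a H = x := by
  classical
  have halg : ∀ y ∈ Set.range (algebraMap K F), IsAlgebraic F₀ y := by
    rintro y ⟨κ, rfl⟩
    have h1 : IsIntegral K₀ κ := Algebra.IsSeparable.isIntegral K₀ κ
    have h2 : IsIntegral K₀ (algebraMap K F κ) := h1.map (IsScalarTower.toAlgHom K₀ K F)
    exact (h2.tower_top (A := F₀)).isAlgebraic
  have hx : x ∈ (IntermediateField.adjoin F₀ (Set.range (algebraMap K F))).toSubalgebra := by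
    rw [hgen]; trivial
  rw [IntermediateField.adjoin_toSubalgebra_of_isAlgebraic halg] at hx
  have hx2 : x ∈ Submodule.span F₀ (Set.range (algebraMap K F)) := by
    have h3 : (Algebra.adjoin F₀ (Set.range (algebraMap K F))).toSubmodule
        = Submodule.span F₀ (Set.range (algebraMap K F)) := by
      rw [Algebra.adjoin_eq_span]
      congr 1
      have h4 : Set.range (algebraMap K F)
          = (MonoidHom.mrange ((algebraMap K F : K →+* F) : K →* F) : Set F) := by
        ext y; simp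
      rw [h4, Submonoid.closure_eq]
    rw [← h3]
    exact hx
  obtain ⟨c, hc⟩ := (Finsupp.mem_span_range_iff_exists_finsupp).mp hx2
  -- the finitely many constants involved generate a finite separable extension of `K₀`
  let S : Finset K := c.support
  let K₁ : IntermediateField K₀ K := IntermediateField.adjoin K₀ (S : Set K)
  have : FiniteDimensional K₀ K₁ :=
    IntermediateField.finiteDimensional_adjoin
      (fun κ _ => Algebra.IsSeparable.isIntegral K₀ κ)
  have : Algebra.IsSeparable K₀ K₁ := Algebra.isSeparable_tower_bot_of_isSeparable K₀ K₁ K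
  obtain ⟨α, hα⟩ := Field.exists_primitive_element K₀ K₁
  have hαint : IsIntegral K₀ α := Algebra.IsSeparable.isIntegral K₀ α
  have hpoly : ∀ κ ∈ S, ∃ p : K₀[X], aeval (α : K) p = κ := by
    intro κ hκ
    have hκ1 : κ ∈ K₁ := IntermediateField.subset_adjoin K₀ _ hκ
    have h5 : (⟨κ, hκ1⟩ : K₁) ∈ (IntermediateField.adjoin K₀ {α}).toSubalgebra := by
      rw [hα]; trivial
    rw [IntermediateField.adjoin_simple_toSubalgebra_of_isAlgebraic hαint.isAlgebraic,
      Algebra.adjoin_singleton_eq_range_aeval] at h5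
    obtain ⟨p, hp⟩ := h5
    refine ⟨p, ?_⟩
    have h6 := congrArg (fun z : K₁ => (z : K)) hp
    simp only at h6
    rw [← h6]
    have h7 : ((aeval α) p : K₁) = aeval α p := rfl
    change aeval ((K₁.val) α) p = (K₁.val) (aeval α p)
    rw [aeval_algHom_apply]
  choose! pf hpf using hpoly
  refine ⟨algebraMap K F (α : K), minpoly K₀ (α : K),
    ∑ κ ∈ S, C (c κ) * (pf κ).map (algebraMap K₀ F₀), ?_, ?_, ?_, ?_⟩
  · exact minpoly.monic (Algebra.IsSeparable.isIntegral K₀ (α : K))
  · exact Algebra.IsSeparable.isSeparable K₀ (α : K)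
  · rw [aeval_algebraMap_apply, minpoly.aeval, map_zero]
  · rw [map_sum, ← hc, Finsupp.sum]
    refine Finset.sum_congr rfl (fun κ hκ => ?_)
    rw [map_mul, aeval_C, aeval_map_algebraMap, aeval_algebraMap_apply, hpf κ hκ,
      Algebra.smul_def]

/-- **PLACEEXT.**  Constant field extensions are unramified: if `K / K₀` is separable algebraic
and `F = F₀ K`, every place `P₀` of `F₀ / K₀` extends to a place `P` of `F / K` with the same
order function on `F₀`. -/
theorem plx_exists [Algebra.IsSeparable K₀ K]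
    (hgen : IntermediateField.adjoin F₀ (Set.range (algebraMap K F)) = ⊤)
    (P₀ : Place K₀ F₀) :
    ∃ P : Place K F, ∀ y : F₀, P.ord (algebraMap F₀ F y) = P₀.ord y := by
  classical
  set O₀ : ValuationSubring F₀ := P₀.toValuationSubring with hO₀
  obtain ⟨O, hO⟩ := valext_exists (Ω := F) O₀
  have hOmem : ∀ y : F₀, algebraMap F₀ F y ∈ O ↔ y ∈ O₀ := fun y => by
    rw [← hO]; exact ValuationSubring.mem_comap.symm
  obtain ⟨π, hπ⟩ := IsDiscreteValuationRing.exists_irreducible O₀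
  have hπ0 : (π : F₀) ≠ 0 := by
    simpa [ne_eq, ZeroMemClass.coe_eq_zero] using hπ.ne_zero
  have hπmax : π ∈ IsLocalRing.maximalIdeal O₀ := by
    rw [hπ.maximalIdeal_eq]; exact Ideal.mem_span_singleton_self π
  have hπlt : O₀.valuation (π : F₀) < 1 := (O₀.valuation_lt_one_iff π).mp hπmax
  have hπgen : ∀ y : F₀, O₀.valuation y < 1 → ∃ z ∈ O₀, y = (π : F₀) * z := by
    intro y hy
    have hyO : y ∈ O₀ := (O₀.valuation_le_one_iff y).mp hy.le
    have h1 : (⟨y, hyO⟩ : O₀) ∈ IsLocalRing.maximalIdeal O₀ :=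
      (O₀.valuation_lt_one_iff ⟨y, hyO⟩).mpr hy
    rw [hπ.maximalIdeal_eq, Ideal.mem_span_singleton] at h1
    obtain ⟨z, hz⟩ := h1
    exact ⟨z, z.2, by simpa using congrArg (fun w : O₀ => (w : F₀)) hz⟩
  have hπfact : ∀ y : F₀, y ≠ 0 → ∃ m : ℤ, ∃ u : F₀, O₀.valuation u = 1 ∧
      y = u * (π : F₀) ^ m := by
    intro y hy
    obtain ⟨u, hu⟩ := P₀.exists_unit_mul_zpow hy hπ
    exact ⟨P₀.ord y, ((u : O₀) : F₀), O₀.valuation_unit u, hu⟩
  have hK₀ : ∀ c : K₀, algebraMap K₀ F₀ c ∈ O₀ := P₀.algebraMap_mem'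
  have hK₀O : ∀ c : K₀, algebraMap K₀ F c ∈ O := fun c => by
    rw [IsScalarTower.algebraMap_apply K₀ F₀ F]; exact (hOmem _).mpr (hK₀ c)
  -- the value group of `O` is generated by the value of `π`
  set ϖ := O.valuation (algebraMap F₀ F (π : F₀)) with hϖ
  have hϖ0 : ϖ ≠ 0 := (O.valuation.ne_zero_iff).mpr ((_root_.map_ne_zero _).mpr hπ0)
  have hπO : algebraMap F₀ F (π : F₀) ∈ O := (hOmem _).mpr π.2
  have hϖlt : ϖ < 1 := by
    have h1 : ϖ ≤ 1 := (O.valuation_le_one_iff _).mpr hπO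
    refine lt_of_le_of_ne h1 (fun h => ?_)
    have h2 : (algebraMap F₀ F (π : F₀))⁻¹ ∈ O := by
      rw [← O.valuation_le_one_iff, map_inv₀, ← hϖ, h, inv_one]
    rw [← map_inv₀, hOmem, ← O₀.valuation_le_one_iff, map_inv₀] at h2
    have h3 : 1 ≤ O₀.valuation (π : F₀) := by
      have hv0 : O₀.valuation (π : F₀) ≠ 0 := (O₀.valuation.ne_zero_iff).mpr hπ0
      exact (inv_le_one₀ (zero_lt_iff.mpr hv0)).mp h2
    exact absurd hπlt (not_lt.mpr h3)
  have hval : ∀ x : F, x ≠ 0 → ∃ n : ℤ, O.valuation x = ϖ ^ n := by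
    intro x hx
    obtain ⟨a, g, H, hg, hgs, hga, hH⟩ := plx_repr (K₀ := K₀) (K := K) hgen x
    have := plx_core O₀ O hK₀ (π : F₀) hπ0 hπlt hπgen hπfact hO a g hg hgs hga H
      (by rw [hH]; exact hx)
    rwa [hH] at this
  have hnonneg : ∀ x : F, ∀ n : ℤ, O.valuation x = ϖ ^ n → (x ∈ O ↔ 0 ≤ n) := by
    intro x n hn
    rw [← O.valuation_le_one_iff, hn]
    constructor
    · intro h
      by_contra hneg
      push Not at hneg
      have h1 : (1 : (ValuationRing.ValueGroup O F)) < ϖ ^ n := by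
        have h2 : ϖ ^ (-n) < 1 := by
          have h3 : (0 : ℤ) < -n := by omega
          obtain ⟨k, hk⟩ := Int.eq_ofNat_of_zero_le h3.le
          rw [hk, zpow_natCast]
          exact pow_lt_one₀ zero_le hϖlt (by omega)
        rw [zpow_neg] at h2
        exact (inv_lt_one₀ (zero_lt_iff.mpr (zpow_ne_zero n hϖ0))).mp h2
      exact absurd h (not_le.mpr h1)
    · intro h
      obtain ⟨k, hk⟩ := Int.eq_ofNat_of_zero_le h
      rw [hk, zpow_natCast]
      exact pow_le_one₀ zero_le hϖlt.le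
  have hinj : ∀ i j : ℤ, ϖ ^ i = ϖ ^ j → i = j := by
    intro i j hij
    exact zpow_right_injective₀ (zero_lt_iff.mpr hϖ0) hϖlt.ne hij
  -- `O` is a discrete valuation ring with uniformizer `π`
  let πO : O := ⟨algebraMap F₀ F (π : F₀), hπO⟩
  have hπOval : O.valuation (πO : F) = ϖ := rfl
  have hunit : ∀ a : O, O.valuation (a : F) = 1 → IsUnit a :=
    fun a ha => (O.valuation_eq_one_iff a).mpr ha
  have hπOirr : Irreducible πO := by
    refine ⟨?_, ?_⟩
    · intro hu
      have := (O.valuation_eq_one_iff πO).mp hu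
      rw [hπOval] at this
      exact hϖlt.ne this
    · intro a b hab
      have ha0 : (a : F) ≠ 0 := by
        intro h
        have : (πO : F) = 0 := by rw [hab]; simp [h]
        exact ((_root_.map_ne_zero (algebraMap F₀ F)).mpr hπ0) this
      have hb0 : (b : F) ≠ 0 := by
        intro h
        have : (πO : F) = 0 := by rw [hab]; simp [h]
        exact ((_root_.map_ne_zero (algebraMap F₀ F)).mpr hπ0) this
      obtain ⟨i, hi⟩ := hval a ha0
      obtain ⟨j, hj⟩ := hval b hb0
      have hi0 : 0 ≤ i := (hnonneg a i hi).mp a.2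
      have hj0 : 0 ≤ j := (hnonneg b j hj).mp b.2
      have h1 : ϖ ^ (1 : ℤ) = ϖ ^ (i + j) := by
        rw [zpow_add₀ hϖ0, ← hi, ← hj, ← map_mul, zpow_one, ← hπOval, hab]
        rfl
      have h2 := hinj _ _ h1
      rcases (show i = 0 ∨ j = 0 by omega) with h | h
      · left; apply hunit; rw [hi, h, zpow_zero]
      · right; apply hunit; rw [hj, h, zpow_zero]
  have hfact : ∀ {x : O}, x ≠ 0 → ∃ n : ℕ, Associated (πO ^ n) x := by
    intro x hx
    have hx0 : (x : F) ≠ 0 := by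
      simpa [ne_eq, ZeroMemClass.coe_eq_zero] using hx
    obtain ⟨n, hn⟩ := hval x hx0
    have hn0 : 0 ≤ n := (hnonneg x n hn).mp x.2
    obtain ⟨k, hk⟩ := Int.eq_ofNat_of_zero_le hn0
    refine ⟨k, ?_⟩
    have hπF0 : (πO : F) ≠ 0 := (_root_.map_ne_zero (algebraMap F₀ F)).mpr hπ0
    have hu1 : O.valuation ((x : F) / (πO : F) ^ k) = 1 := by
      rw [map_div₀, map_pow, hπOval, hn, hk, zpow_natCast]
      exact div_self (pow_ne_zero k hϖ0)
    have huO : (x : F) / (πO : F) ^ k ∈ O := (O.valuation_le_one_iff _).mp hu1.le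
    have hu := hunit ⟨_, huO⟩ hu1
    refine ⟨hu.unit, ?_⟩
    apply Subtype.ext
    simp only [IsUnit.unit_spec]
    change (πO : F) ^ k * ((x : F) / (πO : F) ^ k) = x
    field_simp
  have : IsDiscreteValuationRing O :=
    IsDiscreteValuationRing.ofHasUnitMulPowIrreducibleFactorization ⟨πO, hπOirr, hfact⟩
  have hKO : ∀ c : K, algebraMap K F c ∈ O := by
    intro c
    refine valext_mem_of_isIntegral O (S := K₀) hK₀O _ ?_
    exact (Algebra.IsSeparable.isIntegral K₀ c).map (IsScalarTower.toAlgHom K₀ K F)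
  have hne : O ≠ ⊤ := by
    intro h
    have h1 : (algebraMap F₀ F (π : F₀))⁻¹ ∈ O := by rw [h]; trivial
    rw [← O.valuation_le_one_iff, map_inv₀, ← hϖ] at h1
    exact absurd hϖlt (not_lt.mpr ((inv_le_one₀ (zero_lt_iff.mpr hϖ0)).mp h1))
  let P : Place K F := ⟨O, hKO, hne, inferInstance⟩
  refine ⟨P, fun y => ?_⟩
  rcases eq_or_ne y 0 with rfl | hy
  · rw [map_zero, Place.ord_zero, Place.ord_zero]
  · obtain ⟨u, hu⟩ := P₀.exists_unit_mul_zpow hy hπ
    have hu1 : O.valuation (algebraMap F₀ F ((u : O₀) : F₀)) = 1 := by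
      have h1 : algebraMap F₀ F ((u : O₀) : F₀) ∈ O := (hOmem _).mpr (u : O₀).2
      have h2 : algebraMap F₀ F (((u⁻¹ : O₀ˣ) : O₀) : F₀) ∈ O :=
        (hOmem _).mpr ((u⁻¹ : O₀ˣ) : O₀).2
      have h3 : algebraMap F₀ F ((u : O₀) : F₀) * algebraMap F₀ F (((u⁻¹ : O₀ˣ) : O₀) : F₀)
          = 1 := by
        rw [← map_mul, ← MulMemClass.coe_mul, Units.mul_inv]; simp
      have h4 := congrArg O.valuation h3
      rw [map_mul, map_one] at h4
      have h5 := (O.valuation_le_one_iff _).mpr h1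
      have h6 := (O.valuation_le_one_iff _).mpr h2
      refine le_antisymm h5 ?_
      by_contra hlt
      push Not at hlt
      have h7 : O.valuation (algebraMap F₀ F ((u : O₀) : F₀))
          * O.valuation (algebraMap F₀ F (((u⁻¹ : O₀ˣ) : O₀) : F₀)) < 1 :=
        mul_lt_one_of_nonneg_of_lt_one_left zero_le hlt h6
      exact h7.ne h4
    have huO : algebraMap F₀ F ((u : O₀) : F₀) ∈ O := (O.valuation_le_one_iff _).mp hu1.le
    have hunit' := hunit ⟨_, huO⟩ hu1
    have hrw : algebraMap F₀ F y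
        = ((hunit'.unit : O) : F) * ((πO : O) : F) ^ (P₀.ord y) := by
      conv_lhs => rw [hu]
      rw [map_mul, map_zpow₀]
      rfl
    rw [hrw]
    exact P.ord_unit_smul_zpow hunit'.unit (π := πO) hπOirr (P₀.ord y)

/-- Consumer's form of PLACEEXT: divisibility of all orders of `f ∈ F₀` at the places of the
constant field extension `F / K` descends to the places of `F₀ / K₀`. -/
theorem plx_dvd_ord [Algebra.IsSeparable K₀ K]
    (hgen : IntermediateField.adjoin F₀ (Set.range (algebraMap K F)) = ⊤)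
    (m : ℤ) (f : F₀) (h : ∀ P : Place K F, m ∣ P.ord (algebraMap F₀ F f))
    (P₀ : Place K₀ F₀) : m ∣ P₀.ord f := by
  obtain ⟨P, hP⟩ := plx_exists (K₀ := K₀) (K := K) hgen P₀
  rw [← hP f]
  exact h P

/-- The same in characteristic zero (every algebraic extension is separable). -/
theorem plx_exists_charZero [CharZero K₀] [Algebra.IsAlgebraic K₀ K]
    (hgen : IntermediateField.adjoin F₀ (Set.range (algebraMap K F)) = ⊤)
    (P₀ : Place K₀ F₀) :
    ∃ P : Place K F, ∀ y : F₀, P.ord (algebraMap F₀ F y) = P₀.ord y :=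
  plx_exists (K₀ := K₀) (K := K) hgen P₀

/-- The divisibility corollary in characteristic zero. -/
theorem plx_dvd_ord_charZero [CharZero K₀] [Algebra.IsAlgebraic K₀ K]
    (hgen : IntermediateField.adjoin F₀ (Set.range (algebraMap K F)) = ⊤)
    (m : ℤ) (f : F₀) (h : ∀ P : Place K F, m ∣ P.ord (algebraMap F₀ F f))
    (P₀ : Place K₀ F₀) : m ∣ P₀.ord f :=
  plx_dvd_ord (K₀ := K₀) (K := K) hgen m f h P₀

end Wrapper

end Fermat.Agent.S18

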