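import Mathlib
import Fermat.Prelude.Def_AlgebraicCurve_DivisorClassGroup
import Fermat.Agent.S18.BaseChangeField
import Fermat.Agent.S18.PlaceExt

/-!
# S18: places of `laurentBaseChange K₀ F₀` versus places of `laurentBaseChange L F₀`

For `K₀ → L` algebraic of characteristic zero, every place of `F₀ · K₀` over `K₀` extends to a
place of `F₀ · L` over `L` with the same order function (`bcf_exists_place`); hence divisibility
of all orders descends (`bcf_dvd_ord`).
-/

set_option autoImplicit false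

open ModularCurve AlgebraicCurve

namespace Fermat.Agent.S18

variable (K₀ L : Type*) [Field K₀] [Field L] [Algebra ℚ K₀] [Algebra ℚ L] [Algebra K₀ L]
variable (F₀ : IntermediateField ℚ (LaurentSeries ℚ))

/-- every place of `F₀ · K₀` is the trace of a place of `F₀ · L` with the same order function -/
theorem bcf_exists_place [Algebra.IsAlgebraic K₀ L]
    (P₀ : Place K₀ ↥(laurentBaseChange K₀ F₀)) :
    ∃ P : Place L ↥(laurentBaseChange L F₀),
      ∀ y : ↥(laurentBaseChange K₀ F₀), P.ord (bcfHom K₀ L F₀ y) = P₀.ord y := by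
  letI := bcfAlgebraConst K₀ L F₀
  letI := bcfAlgebra K₀ L F₀
  haveI := bcf_isScalarTower_const K₀ L F₀
  haveI := bcf_isScalarTower K₀ L F₀
  haveI : CharZero K₀ := algebraRat.charZero K₀
  exact plx_exists_charZero (K₀ := K₀) (K := L) (bcf_adjoin_eq_top K₀ L F₀) P₀

/-- divisibility of all orders descends from `F₀ · L` to `F₀ · K₀` -/
theorem bcf_dvd_ord [Algebra.IsAlgebraic K₀ L] (m : ℤ) (f₀ : ↥(laurentBaseChange K₀ F₀))
    (h : ∀ P : Place L ↥(laurentBaseChange L F₀), m ∣ P.ord (bcfHom K₀ L F₀ f₀))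
    (P₀ : Place K₀ ↥(laurentBaseChange K₀ F₀)) : m ∣ P₀.ord f₀ := by
  obtain ⟨P, hP⟩ := bcf_exists_place K₀ L F₀ P₀
  rw [← hP f₀]
  exact h P

/-- a field between `ℚ` and an algebraic extension `L` of `ℚ`: `L` is algebraic over it -/
theorem bcf_isAlgebraic [Algebra.IsAlgebraic ℚ L] : Algebra.IsAlgebraic K₀ L :=
  Algebra.IsAlgebraic.tower_top (K := ℚ) K₀

end Fermat.Agent.S18
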