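import Mathlib
import Fermat.Prelude.Def_AlgebraicCurve_DivisorClassGroup
import Fermat.Agent.S24.SumFormulaBase

/-!
# S18: a dictionary for the places of `AlgebraicCurve.Place`

* `pld_ord_eq_mul`: any additive "order function" on `F` which is trivial on the units of the
  valuation ring of a place `P` is a multiple of `P.ord`.
* `pld_exists_place_of_ord`: a nontrivial integer valued valuation on `F`, trivial on the
  constants, is a positive multiple of the order function of a place.
* `pld_restrict`: a place of `F'` restricts to a place of a subfield `F` over which `F'` is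
  algebraic, and the order functions differ by a positive factor.
* `pld_place_of_prime`: a prime element `p` of a domain `R` with fraction field `F`, such that
  the constants lie in the localisation at `p`, defines a place whose order function is the
  multiplicity of `p`.
-/

set_option autoImplicit false

open AlgebraicCurve

namespace Fermat.Agent.S18

open Fermat.Agent.S24

variable {K F : Type*} [Field K] [Field F] [Algebra K F]

/-- Any additive function on `Fˣ` which vanishes on the units of the valuation ring of `P`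
is `w π` times `P.ord`, for a uniformizer `π`. -/
theorem pld_ord_eq_mul (P : Place K F) (w : F → ℤ)
    (hmul : ∀ x y : F, x ≠ 0 → y ≠ 0 → w (x * y) = w x + w y)
    (hunit : ∀ u : F, u ≠ 0 → u ∈ P.toValuationSubring → u⁻¹ ∈ P.toValuationSubring → w u = 0)
    {π : P.toValuationSubring} (hπ : Irreducible π) (y : F) (hy : y ≠ 0) :
    w y = w (π : F) * P.ord y := by
  have hπ0 : (π : F) ≠ 0 := by
    simpa [ne_eq, ZeroMemClass.coe_eq_zero] using hπ.ne_zero
  have h1 : w 1 = 0 := by
    have h := hmul 1 1 one_ne_zero one_ne_zero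
    rw [mul_one] at h
    omega
  have hinv : ∀ x : F, x ≠ 0 → w x⁻¹ = -w x := by
    intro x hx
    have h := hmul x x⁻¹ hx (inv_ne_zero hx)
    rw [mul_inv_cancel₀ hx, h1] at h
    omega
  have hpow : ∀ n : ℕ, w ((π : F) ^ n) = n * w (π : F) := by
    intro n
    induction n with
    | zero => simp [h1]
    | succ n ih =>
      rw [pow_succ, hmul _ _ (pow_ne_zero n hπ0) hπ0, ih]
      push_cast
      ring
  have hzpow : ∀ n : ℤ, w ((π : F) ^ n) = n * w (π : F) := by
    intro n
    obtain ⟨k, rfl | rfl⟩ := Int.eq_nat_or_neg n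
    · rw [zpow_natCast, hpow]
    · rw [zpow_neg, zpow_natCast, hinv _ (pow_ne_zero k hπ0), hpow]
      ring
  obtain ⟨u, hu⟩ := P.exists_unit_mul_zpow hy hπ
  have hu0 : ((u : P.toValuationSubring) : F) ≠ 0 := by
    simp [ne_eq, ZeroMemClass.coe_eq_zero]
  have hwu : w ((u : P.toValuationSubring) : F) = 0 := by
    refine hunit _ hu0 (u : P.toValuationSubring).2 ?_
    have h : (((u⁻¹ : (P.toValuationSubring)ˣ) : P.toValuationSubring) : F) *
        ((u : P.toValuationSubring) : F) = 1 := by
      rw [← MulMemClass.coe_mul, Units.inv_mul]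
      rfl
    rw [← eq_inv_of_mul_eq_one_left h]
    exact ((u⁻¹ : (P.toValuationSubring)ˣ) : P.toValuationSubring).2
  calc w y = w (((u : P.toValuationSubring) : F) * (π : F) ^ P.ord y) := by rw [← hu]
    _ = w (π : F) * P.ord y := by
      rw [hmul _ _ hu0 (zpow_ne_zero _ hπ0), hwu, hzpow]
      ring

/-- Two places with comparable valuation rings are equal. -/
theorem pld_eq_of_le {P Q : Place K F} (h : P.toValuationSubring ≤ Q.toValuationSubring) :
    P = Q := by
  apply Place.ext
  refine le_antisymm h ?_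
  intro x hx
  by_contra hxP
  have hx0 : x ≠ 0 := fun h0 => hxP (h0 ▸ zero_mem _)
  have hord : P.ord x < 0 := (sf_ord_neg_iff P x).mpr hxP
  apply Q.ne_top'
  refine SetLike.ext fun z => ⟨fun _ => ValuationSubring.mem_top z, fun _ => ?_⟩
  rcases eq_or_ne z 0 with rfl | hz
  · exact zero_mem _
  obtain ⟨n, hn⟩ : ∃ n : ℕ, 0 ≤ P.ord (z * (x ^ n)⁻¹) := by
    refine ⟨(-(P.ord z)).toNat, ?_⟩
    rw [P.ord_mul hz (inv_ne_zero (pow_ne_zero _ hx0)), P.ord_inv, ← zpow_natCast, P.ord_zpow]
    have h1 : ((-(P.ord z)).toNat : ℤ) * P.ord x ≤ -((-(P.ord z)).toNat : ℤ) := by nlinarith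
    have h2 : (-(P.ord z)) ≤ ((-(P.ord z)).toNat : ℤ) := Int.self_le_toNat _
    omega
  have h1 : z * (x ^ n)⁻¹ ∈ Q.toValuationSubring := h ((sf_ord_nonneg_iff P _).mp hn)
  have h2 : z = z * (x ^ n)⁻¹ * x ^ n := by
    field_simp
  rw [h2]
  exact mul_mem h1 (pow_mem hx n)

/-- The valuation subring of an integer valued valuation. -/
def pldVS (w : F → ℤ)
    (hmul : ∀ x y : F, x ≠ 0 → y ≠ 0 → w (x * y) = w x + w y)
    (hadd : ∀ x y : F, x ≠ 0 → y ≠ 0 → x + y ≠ 0 → 0 ≤ w x → 0 ≤ w y → 0 ≤ w (x + y)) :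
    ValuationSubring F where
  carrier := {x | x = 0 ∨ 0 ≤ w x}
  mul_mem' := by
    rintro a b (rfl | ha) (rfl | hb)
    · left; simp
    · left; simp
    · left; simp
    · rcases eq_or_ne a 0 with rfl | ha0
      · left; simp
      rcases eq_or_ne b 0 with rfl | hb0
      · left; simp
      right
      rw [hmul a b ha0 hb0]
      exact add_nonneg ha hb
  one_mem' := by
    right
    have h := hmul 1 1 one_ne_zero one_ne_zero
    rw [mul_one] at h
    omega
  add_mem' := by
    rintro a b (rfl | ha) (rfl | hb)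
    · left; simp
    · right; simpa using hb
    · right; simpa using ha
    · rcases eq_or_ne a 0 with rfl | ha0
      · right; simpa using hb
      rcases eq_or_ne b 0 with rfl | hb0
      · right; simpa using ha
      rcases eq_or_ne (a + b) 0 with h0 | h0
      · left; exact h0
      · right; exact hadd a b ha0 hb0 h0 ha hb
  zero_mem' := Or.inl rfl
  neg_mem' := by
    rintro a (rfl | ha)
    · left; simp
    rcases eq_or_ne a 0 with rfl | ha0
    · left; simp
    right
    have h1 : w 1 = 0 := by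
      have h := hmul 1 1 one_ne_zero one_ne_zero
      rw [mul_one] at h
      omega
    have h2 : w (-1) = 0 := by
      have h := hmul (-1) (-1) (neg_ne_zero.mpr one_ne_zero) (neg_ne_zero.mpr one_ne_zero)
      rw [neg_mul_neg, mul_one, h1] at h
      omega
    have h3 := hmul (-1) a (neg_ne_zero.mpr one_ne_zero) ha0
    rw [neg_one_mul, h2, zero_add] at h3
    rw [h3]
    exact ha
  mem_or_inv_mem' := by
    intro a
    rcases eq_or_ne a 0 with rfl | ha0
    · left; left; rfl
    have h1 : w 1 = 0 := by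
      have h := hmul 1 1 one_ne_zero one_ne_zero
      rw [mul_one] at h
      omega
    have h := hmul a a⁻¹ ha0 (inv_ne_zero ha0)
    rw [mul_inv_cancel₀ ha0, h1] at h
    rcases le_total 0 (w a) with h' | h'
    · left; right; exact h'
    · right; right; omega

theorem pld_mem_pldVS (w : F → ℤ)
    (hmul : ∀ x y : F, x ≠ 0 → y ≠ 0 → w (x * y) = w x + w y)
    (hadd : ∀ x y : F, x ≠ 0 → y ≠ 0 → x + y ≠ 0 → 0 ≤ w x → 0 ≤ w y → 0 ≤ w (x + y))
    (x : F) : x ∈ pldVS w hmul hadd ↔ x = 0 ∨ 0 ≤ w x := Iff.rfl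

theorem pld_isPrincipalIdealRing (w : F → ℤ)
    (hmul : ∀ x y : F, x ≠ 0 → y ≠ 0 → w (x * y) = w x + w y)
    (hadd : ∀ x y : F, x ≠ 0 → y ≠ 0 → x + y ≠ 0 → 0 ≤ w x → 0 ≤ w y → 0 ≤ w (x + y)) :
    IsPrincipalIdealRing (pldVS w hmul hadd) := by
  refine ⟨fun I => ?_⟩
  by_cases hI : I = ⊥
  · rw [hI]; exact bot_isPrincipal
  classical
  have h1 : w 1 = 0 := by
    have h := hmul 1 1 one_ne_zero one_ne_zero
    rw [mul_one] at h
    omega
  have hinv : ∀ x : F, x ≠ 0 → w x⁻¹ = -w x := by
    intro x hx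
    have h := hmul x x⁻¹ hx (inv_ne_zero hx)
    rw [mul_inv_cancel₀ hx, h1] at h
    omega
  have hnn : ∀ a : pldVS w hmul hadd, a ≠ 0 → 0 ≤ w (a : F) := by
    intro a ha
    rcases a.2 with h | h
    · exact absurd (Subtype.ext h) ha
    · exact h
  have hex : ∃ n : ℕ, ∃ a ∈ I, a ≠ 0 ∧ w (a : F) = n := by
    obtain ⟨a, haI, ha0⟩ := Submodule.exists_mem_ne_zero_of_ne_bot hI
    have h := hnn a ha0
    exact ⟨(w (a : F)).toNat, a, haI, ha0, by omega⟩
  obtain ⟨a, haI, ha0, han⟩ := Nat.find_spec hex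
  refine ⟨a, le_antisymm ?_ ?_⟩
  · intro b hb
    rcases eq_or_ne b 0 with rfl | hb0
    · exact Submodule.zero_mem _
    have haF : (a : F) ≠ 0 := by simpa [ne_eq, ZeroMemClass.coe_eq_zero] using ha0
    have hbF : (b : F) ≠ 0 := by simpa [ne_eq, ZeroMemClass.coe_eq_zero] using hb0
    have hbn : (Nat.find hex : ℤ) ≤ w (b : F) := by
      have h := hnn b hb0
      have := Nat.find_min' hex ⟨b, hb, hb0, (Int.toNat_of_nonneg h).symm⟩
      omega
    have hq : (b : F) * (a : F)⁻¹ ∈ pldVS w hmul hadd := by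
      right
      rw [hmul _ _ hbF (inv_ne_zero haF), hinv _ haF]
      omega
    rw [Submodule.mem_span_singleton]
    refine ⟨⟨_, hq⟩, ?_⟩
    apply Subtype.ext
    show (b : F) * (a : F)⁻¹ * (a : F) = b
    rw [mul_assoc, inv_mul_cancel₀ haF, mul_one]
  · rw [Submodule.span_le]
    intro b hb
    rw [Set.mem_singleton_iff] at hb
    rw [hb]; exact haI

/-- A nontrivial integer valued valuation on `F` which is trivial on the constants is a
positive multiple of the order function of a place. -/
theorem pld_exists_place_of_ord (w : F → ℤ)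
    (hmul : ∀ x y : F, x ≠ 0 → y ≠ 0 → w (x * y) = w x + w y)
    (hadd : ∀ x y : F, x ≠ 0 → y ≠ 0 → x + y ≠ 0 → 0 ≤ w x → 0 ≤ w y → 0 ≤ w (x + y))
    (hK : ∀ c : K, c ≠ 0 → 0 ≤ w (algebraMap K F c))
    (hnt : ∃ x : F, x ≠ 0 ∧ w x ≠ 0) :
    ∃ (P : Place K F) (e : ℤ), 0 < e ∧
      (∀ x : F, x ∈ P.toValuationSubring ↔ x = 0 ∨ 0 ≤ w x) ∧
      ∀ x : F, x ≠ 0 → w x = e * P.ord x := by
  have h1 : w 1 = 0 := by
    have h := hmul 1 1 one_ne_zero one_ne_zero
    rw [mul_one] at h
    omega
  have hinv : ∀ x : F, x ≠ 0 → w x⁻¹ = -w x := by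
    intro x hx
    have h := hmul x x⁻¹ hx (inv_ne_zero hx)
    rw [mul_inv_cancel₀ hx, h1] at h
    omega
  obtain ⟨P, hP⟩ : ∃ P : Place K F, P.toValuationSubring = pldVS w hmul hadd :=
    ⟨{ toValuationSubring := pldVS w hmul hadd
       algebraMap_mem' := by
         intro c
         rcases eq_or_ne c 0 with rfl | hc
         · left; simp
         · right; exact hK c hc
       ne_top' := by
         intro htop
         obtain ⟨x, hx0, hx⟩ := hnt
         have hx1 : x ∈ pldVS w hmul hadd := by rw [htop]; exact ValuationSubring.mem_top _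
         have hx2 : x⁻¹ ∈ pldVS w hmul hadd := by rw [htop]; exact ValuationSubring.mem_top _
         rcases hx1 with h | h
         · exact hx0 h
         rcases hx2 with h' | h'
         · exact hx0 (inv_eq_zero.mp h')
         rw [hinv x hx0] at h'
         omega
       isPrincipalIdealRing' := pld_isPrincipalIdealRing w hmul hadd }, rfl⟩
  have hmemP : ∀ x : F, x ∈ P.toValuationSubring ↔ x = 0 ∨ 0 ≤ w x := by
    intro x
    rw [hP]
    exact Iff.rfl
  obtain ⟨π, hπ⟩ := IsDiscreteValuationRing.exists_irreducible P.toValuationSubring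
  have hπ0 : (π : F) ≠ 0 := by
    simpa [ne_eq, ZeroMemClass.coe_eq_zero] using hπ.ne_zero
  have hπw : 0 < w (π : F) := by
    have h0 : 0 ≤ w (π : F) := by
      rcases (hmemP _).mp π.2 with h | h
      · exact absurd h hπ0
      · exact h
    rcases h0.lt_or_eq with h | h
    · exact h
    exfalso
    apply hπ.not_isUnit
    have hinvmem : (π : F)⁻¹ ∈ P.toValuationSubring := by
      rw [hmemP]
      right
      rw [hinv _ hπ0]
      omega
    refine IsUnit.of_mul_eq_one (⟨(π : F)⁻¹, hinvmem⟩ : P.toValuationSubring) ?_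
    apply Subtype.ext
    show (π : F) * (π : F)⁻¹ = 1
    exact mul_inv_cancel₀ hπ0
  refine ⟨P, w (π : F), hπw, hmemP, fun x hx => ?_⟩
  refine pld_ord_eq_mul P w hmul ?_ hπ x hx
  intro u hu0 hu hu'
  rcases (hmemP _).mp hu with h | h
  · exact absurd h hu0
  rcases (hmemP _).mp hu' with h' | h'
  · exact absurd (inv_eq_zero.mp h') hu0
  rw [hinv u hu0] at h'
  omega

section restrict

variable {F' : Type*} [Field F'] [Algebra K F'] [Algebra F F'] [IsScalarTower K F F']

/-- The valuation ring of a place of `F'` pulled back to a subfield `F` over which `F'` is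
algebraic is the valuation ring of a place of `F`; the order functions differ by a positive
factor. -/
theorem pld_restrict [Algebra.IsAlgebraic F F'] (P' : Place K F') :
    ∃ (P : Place K F) (e : ℤ), 0 < e ∧
      P.toValuationSubring = P'.toValuationSubring.comap (algebraMap F F') ∧
      ∀ y : F, P'.ord (algebraMap F F' y) = e * P.ord y := by
  classical
  have hinj : Function.Injective (algebraMap F F') := (algebraMap F F').injective
  have hne : ∀ y : F, y ≠ 0 → algebraMap F F' y ≠ 0 := fun y hy =>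
    (map_ne_zero_iff _ hinj).mpr hy
  set w : F → ℤ := fun y => P'.ord (algebraMap F F' y) with hw
  have hmul : ∀ x y : F, x ≠ 0 → y ≠ 0 → w (x * y) = w x + w y := by
    intro x y hx hy
    simp only [hw, map_mul]
    exact P'.ord_mul (hne x hx) (hne y hy)
  have hadd : ∀ x y : F, x ≠ 0 → y ≠ 0 → x + y ≠ 0 → 0 ≤ w x → 0 ≤ w y → 0 ≤ w (x + y) := by
    intro x y _ _ hxy hx hy
    simp only [hw, map_add] at hx hy ⊢
    exact sf_ord_add_ge P' (by rw [← map_add]; exact hne _ hxy) 0 (Or.inr hx) (Or.inr hy)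
  have hK : ∀ c : K, c ≠ 0 → 0 ≤ w (algebraMap K F c) := by
    intro c _
    simp only [hw]
    rw [← IsScalarTower.algebraMap_apply K F F', sf_ord_algebraMap]
  -- nontriviality: otherwise `F ⊆ O_{P'}` and `F'`, integral over `F`, lies in `O_{P'}`.
  have hnt : ∃ x : F, x ≠ 0 ∧ w x ≠ 0 := by
    by_contra hcon
    push Not at hcon
    have hall : ∀ y : F, algebraMap F F' y ∈ P'.toValuationSubring := by
      intro y
      rcases eq_or_ne y 0 with rfl | hy
      · simp [zero_mem]
      · rw [← sf_ord_nonneg_iff]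
        exact (hcon y hy).ge
    apply P'.ne_top'
    refine SetLike.ext fun z => ⟨fun _ => ValuationSubring.mem_top z, fun _ => ?_⟩
    let _ : Algebra F P'.toValuationSubring :=
      ((algebraMap F F').codRestrict P'.toValuationSubring.toSubring hall).toAlgebra
    have : IsScalarTower F P'.toValuationSubring F' :=
      IsScalarTower.of_algebraMap_eq fun _ => rfl
    have hz : IsIntegral F z := (Algebra.IsAlgebraic.isAlgebraic (R := F) z).isIntegral
    have hz' : IsIntegral P'.toValuationSubring z := hz.tower_top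
    obtain ⟨y, hy⟩ :=
      (IsIntegrallyClosed.isIntegral_iff (R := P'.toValuationSubring) (K := F')).mp hz'
    rw [← hy]
    exact y.2
  obtain ⟨P, e, he, hmem, hord⟩ := pld_exists_place_of_ord (K := K) w hmul hadd hK hnt
  refine ⟨P, e, he, ?_, ?_⟩
  · ext y
    rw [hmem, ValuationSubring.mem_comap, ← sf_ord_nonneg_iff]
    constructor
    · rintro (rfl | h)
      · simp
      · exact h
    · intro h
      exact Or.inr h
  · intro y
    rcases eq_or_ne y 0 with rfl | hy
    · simp
    · exact hord y hy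

/-- Divisibility of all orders passes from a subfield to an algebraic extension. -/
theorem pld_dvd_ord_of_restrict [Algebra.IsAlgebraic F F'] (m : ℤ) (y : F)
    (h : ∀ P : Place K F, m ∣ P.ord y) (P' : Place K F') :
    m ∣ P'.ord (algebraMap F F' y) := by
  obtain ⟨P, e, -, -, hord⟩ := pld_restrict (K := K) (F := F) P'
  rw [hord]
  exact Dvd.dvd.mul_left (h P) e

end restrict

section prime

variable {R : Type*} [CommRing R] [IsDomain R] [Algebra R F] [IsFractionRing R F]

/-- `x = p ^ n * a / b` with `a`, `b` prime to `p`. -/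
def pldRep (p : R) (x : F) (n : ℤ) (a b : R) : Prop :=
  ¬ p ∣ a ∧ ¬ p ∣ b ∧ x * algebraMap R F b = algebraMap R F p ^ n * algebraMap R F a

omit [IsDomain R] in
theorem pldRep_unique {p : R} (hp : Prime p) {x : F} (hx : x ≠ 0) {n n' : ℤ} {a b a' b' : R}
    (h : pldRep p x n a b) (h' : pldRep p x n' a' b') : n = n' := by
  wlog hle : n ≤ n' generalizing n n' a b a' b'
  · exact (this h' h (le_of_not_ge hle)).symm
  obtain ⟨ha, hb, e⟩ := h
  obtain ⟨ha', hb', e'⟩ := h'
  have hπ : algebraMap R F p ≠ 0 :=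
    (map_ne_zero_iff _ (IsFractionRing.injective R F)).mpr hp.ne_zero
  obtain ⟨k, hk⟩ := Int.eq_ofNat_of_zero_le (sub_nonneg.mpr hle)
  have hn' : n' = n + k := by omega
  have h2 : x * (algebraMap R F b * (algebraMap R F p ^ n' * algebraMap R F a')) =
      x * (algebraMap R F p ^ n * algebraMap R F a * algebraMap R F b') := by
    rw [← e, ← e']; ring
  have h3 := mul_left_cancel₀ hx h2
  rw [hn', zpow_add₀ hπ, zpow_natCast] at h3
  have h4 : algebraMap R F p ^ n *
      (algebraMap R F p ^ k * algebraMap R F a' * algebraMap R F b) =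
      algebraMap R F p ^ n * (algebraMap R F a * algebraMap R F b') := by
    linear_combination h3
  have h5 := mul_left_cancel₀ (zpow_ne_zero n hπ) h4
  have key : p ^ k * a' * b = a * b' := by
    apply IsFractionRing.injective R F
    simpa [map_mul, map_pow] using h5
  rcases Nat.eq_zero_or_pos k with h0 | hpos
  · omega
  · exfalso
    have hdvd : p ∣ a * b' := by
      rw [← key]
      exact Dvd.dvd.mul_right (Dvd.dvd.mul_right (dvd_pow_self p hpos.ne') _) _
    rcases hp.dvd_or_dvd hdvd with h | h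
    · exact ha h
    · exact hb' h

theorem pldRep_exists {p : R}
    (hfin : ∀ r : R, r ≠ 0 → ∃ (n : ℕ) (r' : R), ¬ p ∣ r' ∧ r = p ^ n * r')
    (hp : Prime p) {x : F} (hx : x ≠ 0) : ∃ n a b, pldRep p x n a b := by
  obtain ⟨r, s, hs, rfl⟩ := IsFractionRing.div_surjective (A := R) x
  have hs0 : s ≠ 0 := nonZeroDivisors.ne_zero hs
  have hr0 : r ≠ 0 := by
    rintro rfl
    simp at hx
  obtain ⟨i, r', hr', rfl⟩ := hfin r hr0
  obtain ⟨j, s', hs', rfl⟩ := hfin s hs0
  have hπ : algebraMap R F p ≠ 0 :=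
    (map_ne_zero_iff _ (IsFractionRing.injective R F)).mpr hp.ne_zero
  have hs'0 : algebraMap R F s' ≠ 0 := by
    refine (map_ne_zero_iff _ (IsFractionRing.injective R F)).mpr ?_
    rintro rfl
    exact hs' (dvd_zero p)
  refine ⟨(i : ℤ) - j, r', s', hr', hs', ?_⟩
  rw [zpow_sub₀ hπ, zpow_natCast, zpow_natCast, map_mul, map_mul, map_pow, map_pow]
  field_simp

open Classical in
/-- The `p`-adic order function on the fraction field. -/
noncomputable def pldW (p : R) (x : F) : ℤ :=
  if h : ∃ n a b, pldRep p x n a b then h.choose else 0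

omit [IsDomain R] in
theorem pldW_eq {p : R} (hp : Prime p) {x : F} (hx : x ≠ 0) {n : ℤ} {a b : R}
    (h : pldRep p x n a b) : pldW p x = n := by
  have hex : ∃ n a b, pldRep p x n a b := ⟨n, a, b, h⟩
  rw [pldW, dif_pos hex]
  obtain ⟨a', b', h'⟩ := hex.choose_spec
  exact pldRep_unique hp hx h' h

/-- A prime element `p` of a domain `R` with fraction field `F`, with finite multiplicities,
such that the constants lie in the localisation of `R` at `p`, defines a place of `F`, whose
order function is the multiplicity of `p`. -/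
theorem pld_place_of_prime (p : R) (hp : Prime p)
    (hfin : ∀ r : R, r ≠ 0 → ∃ (n : ℕ) (r' : R), ¬ p ∣ r' ∧ r = p ^ n * r')
    (hK : ∀ c : K, ∃ a b : R, ¬ p ∣ b ∧
      algebraMap K F c * algebraMap R F b = algebraMap R F a) :
    ∃ Q : Place K F,
      (∀ (x : F) (n : ℤ) (a b : R), ¬ p ∣ a → ¬ p ∣ b →
        x * algebraMap R F b = algebraMap R F p ^ n * algebraMap R F a → Q.ord x = n) ∧
      (∀ a : R, algebraMap R F a ∈ Q.toValuationSubring) ∧
      Q.ord (algebraMap R F p) = 1 ∧
      (∀ a : R, ¬ p ∣ a → Q.ord (algebraMap R F a) = 0) := by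
  have hinj := IsFractionRing.injective R F
  have hπ : algebraMap R F p ≠ 0 := (map_ne_zero_iff _ hinj).mpr hp.ne_zero
  have hne : ∀ b : R, ¬ p ∣ b → algebraMap R F b ≠ 0 := by
    intro b hb
    refine (map_ne_zero_iff _ hinj).mpr ?_
    rintro rfl
    exact hb (dvd_zero p)
  have hp1 : ¬ p ∣ (1 : R) := fun h => hp.not_isUnit (isUnit_of_dvd_one h)
  set w : F → ℤ := pldW p with hw
  have hmul : ∀ x y : F, x ≠ 0 → y ≠ 0 → w (x * y) = w x + w y := by
    intro x y hx hy
    obtain ⟨n, a, b, h⟩ := pldRep_exists hfin hp hx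
    obtain ⟨n', a', b', h'⟩ := pldRep_exists hfin hp hy
    have hxy : pldRep p (x * y) (n + n') (a * a') (b * b') := by
      refine ⟨fun hd => ?_, fun hd => ?_, ?_⟩
      · rcases hp.dvd_or_dvd hd with hd | hd
        · exact h.1 hd
        · exact h'.1 hd
      · rcases hp.dvd_or_dvd hd with hd | hd
        · exact h.2.1 hd
        · exact h'.2.1 hd
      · rw [map_mul, map_mul, zpow_add₀ hπ]
        calc x * y * (algebraMap R F b * algebraMap R F b')
            = (x * algebraMap R F b) * (y * algebraMap R F b') := by ring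
          _ = _ := by rw [h.2.2, h'.2.2]; ring
    rw [hw]
    show pldW p (x * y) = pldW p x + pldW p y
    rw [pldW_eq hp (mul_ne_zero hx hy) hxy, pldW_eq hp hx h, pldW_eq hp hy h']
  have hadd : ∀ x y : F, x ≠ 0 → y ≠ 0 → x + y ≠ 0 → 0 ≤ w x → 0 ≤ w y → 0 ≤ w (x + y) := by
    intro x y hx hy hxy hwx hwy
    obtain ⟨n, a, b, h⟩ := pldRep_exists hfin hp hx
    obtain ⟨n', a', b', h'⟩ := pldRep_exists hfin hp hy
    have hwx' : w x = n := pldW_eq hp hx h
    have hwy' : w y = n' := pldW_eq hp hy h'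
    obtain ⟨i, rfl⟩ := Int.eq_ofNat_of_zero_le (hwx' ▸ hwx)
    obtain ⟨j, rfl⟩ := Int.eq_ofNat_of_zero_le (hwy' ▸ hwy)
    set c : R := p ^ i * a * b' + p ^ j * a' * b with hc
    have hceq : (x + y) * algebraMap R F (b * b') = algebraMap R F c := by
      have e1 := h.2.2
      have e2 := h'.2.2
      rw [zpow_natCast] at e1 e2
      rw [hc, map_add, map_mul, map_mul, map_mul, map_mul, map_mul, map_pow, map_pow, ← e1, ← e2]
      ring
    have hbb : ¬ p ∣ b * b' := by
      intro hd
      rcases hp.dvd_or_dvd hd with hd | hd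
      · exact h.2.1 hd
      · exact h'.2.1 hd
    have hc0 : c ≠ 0 := by
      intro h0
      rw [h0, map_zero] at hceq
      rcases mul_eq_zero.mp hceq with h1 | h1
      · exact hxy h1
      · exact hne _ hbb h1
    obtain ⟨k, c', hc', hck⟩ := hfin c hc0
    have hrep : pldRep p (x + y) (k : ℤ) c' (b * b') := by
      refine ⟨hc', hbb, ?_⟩
      rw [hceq, hck, map_mul, map_pow, zpow_natCast]
    have : w (x + y) = k := pldW_eq hp hxy hrep
    rw [this]
    exact Int.natCast_nonneg k
  have hKw : ∀ c : K, c ≠ 0 → 0 ≤ w (algebraMap K F c) := by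
    intro c hc
    obtain ⟨a, b, hb, hab⟩ := hK c
    have hc' : algebraMap K F c ≠ 0 := (map_ne_zero_iff _ (algebraMap K F).injective).mpr hc
    have ha0 : a ≠ 0 := by
      rintro rfl
      rw [map_zero] at hab
      rcases mul_eq_zero.mp hab with h1 | h1
      · exact hc' h1
      · exact hne _ hb h1
    obtain ⟨k, a', ha', hak⟩ := hfin a ha0
    have hrep : pldRep p (algebraMap K F c) (k : ℤ) a' b := by
      refine ⟨ha', hb, ?_⟩
      rw [hab, hak, map_mul, map_pow, zpow_natCast]
    have : w (algebraMap K F c) = k := pldW_eq hp hc' hrep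
    rw [this]
    exact Int.natCast_nonneg k
  have hwp : w (algebraMap R F p) = 1 := by
    refine pldW_eq hp hπ (a := 1) (b := 1) ⟨hp1, hp1, ?_⟩
    simp
  have hnt : ∃ x : F, x ≠ 0 ∧ w x ≠ 0 := ⟨algebraMap R F p, hπ, by rw [hwp]; exact one_ne_zero⟩
  obtain ⟨Q, e, he, hmem, hord⟩ := pld_exists_place_of_ord (K := K) w hmul hadd hKw hnt
  have he1 : e = 1 := by
    have h := hord _ hπ
    rw [hwp] at h
    have hd : e ∣ 1 := ⟨_, h⟩
    exact Int.eq_one_of_dvd_one he.le hd
  have hordw : ∀ x : F, x ≠ 0 → Q.ord x = w x := by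
    intro x hx
    rw [hord x hx, he1, one_mul]
  have hmain : ∀ (x : F) (n : ℤ) (a b : R), ¬ p ∣ a → ¬ p ∣ b →
      x * algebraMap R F b = algebraMap R F p ^ n * algebraMap R F a → Q.ord x = n := by
    intro x n a b ha hb hx
    have hx0 : x ≠ 0 := by
      rintro rfl
      rw [zero_mul] at hx
      exact mul_ne_zero (zpow_ne_zero n hπ) (hne a ha) hx.symm
    rw [hordw x hx0]
    exact pldW_eq hp hx0 ⟨ha, hb, hx⟩
  refine ⟨Q, hmain, ?_, ?_, ?_⟩
  · intro a
    rcases eq_or_ne a 0 with rfl | ha0
    · simp [zero_mem]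
    obtain ⟨k, a', ha', hak⟩ := hfin a ha0
    rw [← sf_ord_nonneg_iff, hmain (algebraMap R F a) (k : ℤ) a' 1 ha' hp1
      (by rw [hak, map_mul, map_pow, zpow_natCast, map_one, mul_one])]
    exact Int.natCast_nonneg k
  · exact hmain _ 1 1 1 hp1 hp1 (by simp)
  · intro a ha
    exact hmain _ 0 a 1 ha hp1 (by simp)

/-- `pld_place_of_prime` for a domain with well-founded divisibility (e.g. a noetherian domain
or a unique factorisation domain). -/
theorem pld_place_of_prime' [WfDvdMonoid R] (p : R) (hp : Prime p)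
    (hK : ∀ c : K, ∃ a b : R, ¬ p ∣ b ∧
      algebraMap K F c * algebraMap R F b = algebraMap R F a) :
    ∃ Q : Place K F,
      (∀ (x : F) (n : ℤ) (a b : R), ¬ p ∣ a → ¬ p ∣ b →
        x * algebraMap R F b = algebraMap R F p ^ n * algebraMap R F a → Q.ord x = n) ∧
      (∀ a : R, algebraMap R F a ∈ Q.toValuationSubring) ∧
      Q.ord (algebraMap R F p) = 1 ∧
      (∀ a : R, ¬ p ∣ a → Q.ord (algebraMap R F a) = 0) :=
  pld_place_of_prime p hp (fun _ hr => WfDvdMonoid.max_power_factor hr hp.irreducible) hK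

/-- If all orders of `f` at the places of `F / K` are divisible by `m`, then so is the
multiplicity in `f` of every prime element `p` of `R` such that the constants lie in the
localisation of `R` at `p`. -/
theorem pld_dvd_of_prime [WfDvdMonoid R] (p : R) (hp : Prime p)
    (hK : ∀ c : K, ∃ a b : R, ¬ p ∣ b ∧
      algebraMap K F c * algebraMap R F b = algebraMap R F a)
    (m : ℤ) (f : F) (hf : ∀ Q : Place K F, m ∣ Q.ord f)
    (n : ℤ) (a b : R) (ha : ¬ p ∣ a) (hb : ¬ p ∣ b)
    (h : f * algebraMap R F b = algebraMap R F p ^ n * algebraMap R F a) : m ∣ n := by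
  obtain ⟨Q, hQ, -⟩ := pld_place_of_prime' (K := K) (F := F) p hp hK
  rw [← hQ f n a b ha hb h]
  exact hf Q

end prime

end Fermat.Agent.S18
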