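import Mathlib
import Fermat.Prelude.Def_ModularCurve_ReductionModL
import Fermat.Agent.S24.Degree
import Fermat.Agent.S18.PlaceDict
import Fermat.Agent.S18.DvrDef
import Fermat.Agent.S18.GaussRing
import Fermat.Agent.S18.BaseChangeField
import Fermat.Agent.S18.BaseChangePlace
import Fermat.Agent.S18.GaussDvr

/-!
# S18, package NORMALIZE: descent to a number field and ascent

From the normal form of the interface (`Y`, `g'` in the function field of level `N` over `ℚ̄`,
Gauss units, all orders of `Y` divisible by `p`, the residue of `Y` a `p`-th power of the residue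
of `g'`) to the input of the core statement at the auxiliary level `N'` over a number field, and
back.
-/

set_option autoImplicit false

open ModularCurve AlgebraicCurve
open scoped IntermediateField

namespace Fermat.Agent.S18

local notation "Qb" => AlgebraicClosure ℚ

/-! ### Level raising -/

theorem nrm_bc_mono (L : Type*) [Field L] [Algebra ℚ L]
    {F₀ F₁ : IntermediateField ℚ (LaurentSeries ℚ)} (h : F₀ ≤ F₁) :
    laurentBaseChange L F₀ ≤ laurentBaseChange L F₁ :=
  IntermediateField.adjoin.mono L _ _ (Set.image_mono h)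

theorem nrm_bar_le {N N' : ℕ} [NeZero N] [NeZero N'] (h : N ∣ N') :
    modularFunctionFieldBar N ≤ modularFunctionFieldBar N' :=
  nrm_bc_mono _ (full_degeneracy_le h)

/-- The function field of level `N'` is algebraic over the function field of level `N ∣ N'`. -/
theorem nrm_isAlgebraic {N N' : ℕ} [NeZero N] [NeZero N'] (h : N ∣ N') :
    letI := (IntermediateField.inclusion (nrm_bar_le h)).toRingHom.toAlgebra
    Algebra.IsAlgebraic ↥(modularFunctionFieldBar N) ↥(modularFunctionFieldBar N') := by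
  have _i := Fermat.Agent.S24.finiteDimensional_jBar' N'
  have _ia : Algebra.IsAlgebraic ↥(Qb⟮Fermat.Agent.S24.jBar N'⟯) ↥(modularFunctionFieldBar N') :=
    Algebra.IsAlgebraic.of_finite _ _
  have hy' : ∀ y : ↥(modularFunctionFieldBar N'), IsAlgebraic ↥(Qb⟮Fermat.Agent.S24.jBar N'⟯) y :=
    fun y => Algebra.IsAlgebraic.isAlgebraic y
  let _ := (IntermediateField.inclusion (nrm_bar_le h)).toRingHom.toAlgebra
  refine ⟨fun y => ?_⟩
  have hy := hy' y
  let T : IntermediateField Qb ↥(modularFunctionFieldBar N') :=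
    (modularFunctionFieldBar N).comap (modularFunctionFieldBar N').val
  have hT : Qb⟮Fermat.Agent.S24.jBar N'⟯ ≤ T := by
    rw [IntermediateField.adjoin_simple_le_iff]
    show ((Fermat.Agent.S24.jBar N' : ↥(modularFunctionFieldBar N')) : LaurentSeries Qb) ∈
      modularFunctionFieldBar N
    exact (Fermat.Agent.S24.jBar N).2
  let f : ↥(Qb⟮Fermat.Agent.S24.jBar N'⟯) →+* ↥(modularFunctionFieldBar N) :=
    { toFun := fun x => ⟨((x : ↥(modularFunctionFieldBar N')) : LaurentSeries Qb), hT x.2⟩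
      map_one' := rfl
      map_mul' := fun _ _ => rfl
      map_zero' := rfl
      map_add' := fun _ _ => rfl }
  have key := hy.ringHom_of_comp_eq f (RingHom.id ↥(modularFunctionFieldBar N'))
    f.injective (by ext x; rfl)
  simpa using key

/-- Divisibility of the orders passes from level `N` to level `N'`. -/
theorem nrm_level_up {N N' : ℕ} [NeZero N] [NeZero N'] (h : N ∣ N') (m : ℤ)
    (f : ↥(modularFunctionFieldBar N))
    (hord : ∀ P : Place Qb ↥(modularFunctionFieldBar N), m ∣ P.ord f)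
    (P' : Place Qb ↥(modularFunctionFieldBar N')) :
    m ∣ P'.ord (IntermediateField.inclusion (nrm_bar_le h) f) := by
  let _ := (IntermediateField.inclusion (nrm_bar_le h)).toRingHom.toAlgebra
  have : IsScalarTower Qb ↥(modularFunctionFieldBar N) ↥(modularFunctionFieldBar N') :=
    IsScalarTower.of_algebraMap_eq (fun c => rfl)
  have := nrm_isAlgebraic h
  exact pld_dvd_ord_of_restrict (K := Qb) m f hord P'

/-! ### The main chain -/

/-- The core statement over a field `K₀` with valuation subring `A₀`, at level `M`, for the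
exponent `p`: a nonzero function `f0` of the level-`M` function field over `K₀` whose Gauss
residue is `1` and all of whose orders are divisible by `p` is a constant times a `p`-th power. -/
def nrmCoreStmt (K₀ : Type*) [Field K₀] [Algebra ℚ K₀] (A₀ : ValuationSubring K₀) (M p : ℕ) :
    Prop :=
  ∀ f0 : ↥(laurentBaseChange K₀ (modularFunctionFieldFull M)), f0 ≠ 0 →
    (∃ h : (f0 : LaurentSeries K₀) - 1 ∈ grV A₀, grRho A₀ ⟨_, h⟩ = 0) →
    (∀ Q : Place K₀ ↥(laurentBaseChange K₀ (modularFunctionFieldFull M)), (p : ℤ) ∣ Q.ord f0) →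
    ∃ (c : K₀) (G : ↥(laurentBaseChange K₀ (modularFunctionFieldFull M))),
      f0 = algebraMap K₀ _ c * G ^ p

/-- Descent step: a function over `ℚ̄` which is defined over `K₀` inherits the hypotheses of the
core statement over `K₀`; hence it is a constant times a `p`-th power over `K₀`. -/
theorem nrm_descend_core {K₀ : Type*} [Field K₀] [Algebra ℚ K₀] [Algebra K₀ Qb]
    (A : ValuationSubring Qb) [IsDiscreteValuationRing ↥(A.comap (algebraMap K₀ Qb))]
    (M p : ℕ) [NeZero M]
    (hcore : nrmCoreStmt K₀ (A.comap (algebraMap K₀ Qb)) M p)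
    (f : ↥(modularFunctionFieldBar M)) (hf0 : f ≠ 0)
    (hf1V : (f : LaurentSeries Qb) - 1 ∈ grV A) (hf1ρ : grRho A ⟨_, hf1V⟩ = 0)
    (hordf : ∀ P' : Place Qb ↥(modularFunctionFieldBar M), (p : ℤ) ∣ P'.ord f)
    (x0 : LaurentSeries K₀) (hx0 : x0 ∈ laurentBaseChange K₀ (modularFunctionFieldFull M))
    (hx0f : coeffMap (algebraMap K₀ Qb) x0 = (f : LaurentSeries Qb)) :
    ∃ (c : K₀) (G : LaurentSeries K₀), G ∈ laurentBaseChange K₀ (modularFunctionFieldFull M) ∧
      x0 = algebraMap K₀ (LaurentSeries K₀) c * G ^ p := by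
  have _algQ : Algebra.IsAlgebraic ℚ Qb := AlgebraicClosure.isAlgebraic ℚ
  have _alg : Algebra.IsAlgebraic K₀ Qb := bcf_isAlgebraic K₀ Qb
  set f0 : ↥(laurentBaseChange K₀ (modularFunctionFieldFull M)) := ⟨x0, hx0⟩ with hf0def
  have hf00 : f0 ≠ 0 := by
    intro h0
    have h1 : x0 = 0 := congrArg Subtype.val h0
    rw [h1, map_zero] at hx0f
    exact hf0 (Subtype.ext hx0f.symm)
  -- the Gauss condition over `K₀`
  have hred0 : ∃ h : (f0 : LaurentSeries K₀) - 1 ∈ grV (A.comap (algebraMap K₀ Qb)),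
      grRho (A.comap (algebraMap K₀ Qb)) ⟨_, h⟩ = 0 := by
    have hmem : x0 - 1 ∈ laurentBaseChange K₀ (modularFunctionFieldFull M) :=
      sub_mem hx0 (one_mem _)
    have hco : coeffMap (algebraMap K₀ Qb) (x0 - 1) = (f : LaurentSeries Qb) - 1 := by
      rw [map_sub, map_one, hx0f]
    have hV : coeffMap (algebraMap K₀ Qb) (x0 - 1) ∈ grV A := by rw [hco]; exact hf1V
    have hρ : grRho A ⟨_, hV⟩ = 0 := by
      have h1 : (⟨coeffMap (algebraMap K₀ Qb) (x0 - 1), hV⟩ : grV A) =
          ⟨(f : LaurentSeries Qb) - 1, hf1V⟩ := Subtype.ext hco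
      rw [h1, hf1ρ]
    exact gdv_descend_full A M hmem hV hρ
  -- the place condition over `K₀`
  have hord0 : ∀ Q : Place K₀ ↥(laurentBaseChange K₀ (modularFunctionFieldFull M)),
      (p : ℤ) ∣ Q.ord f0 := by
    intro Q
    obtain ⟨P, hP⟩ := bcf_exists_place K₀ Qb (modularFunctionFieldFull M) Q
    rw [← hP f0]
    have h1 : bcfHom K₀ Qb (modularFunctionFieldFull M) f0 = f := Subtype.ext hx0f
    rw [h1]
    exact hordf P
  obtain ⟨c, G, hG⟩ := hcore f0 hf00 hred0 hord0
  exact ⟨c, (G : LaurentSeries K₀), G.2, congrArg Subtype.val hG⟩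

/-- NORMALIZE: from the normal form of the interface at level `N` over `ℚ̄` to a `p`-th power,
given the core statement at the auxiliary level `N'` over all sufficiently large number fields
(`hcore`) and the Kummer descent from level `N'` to level `N` (`hdesc`). -/
theorem nrm_main (N N' : ℕ) [NeZero N] [NeZero N'] (hNN' : N ∣ N') {ℓ p : ℕ} (hℓ : ℓ ≠ 0)
    (hp : p.Prime) (A : ValuationSubring Qb) (hA : A.LiesOverPrime ℓ)
    (hcore : ∃ T : Finset Qb, ∀ (K0 : IntermediateField ℚ Qb) [FiniteDimensional ℚ K0],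
      (∀ c ∈ T, c ∈ K0) → nrmCoreStmt ↥K0 (A.comap (algebraMap ↥K0 Qb)) N' p)
    (hdesc : ∀ g : LaurentSeries Qb, g ∈ modularFunctionFieldBar N' →
      g ^ p ∈ modularFunctionFieldBar N →
      (∃ g' ∈ modularFunctionFieldBar N, g' ≠ 0 ∧
        ∃ h : g ^ p / g' ^ p - 1 ∈ grV A, grRho A ⟨_, h⟩ = 0) →
      g ∈ modularFunctionFieldBar N)
    (Y g' : ↥(modularFunctionFieldBar N)) (hY0 : Y ≠ 0) (hg0 : g' ≠ 0)
    (hord : ∀ P : Place Qb ↥(modularFunctionFieldBar N), (p : ℤ) ∣ P.ord Y)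
    (hY : (Y : LaurentSeries Qb) ∈ grV A) (hg : (g' : LaurentSeries Qb) ∈ grV A)
    (hgne : grRho A ⟨_, hg⟩ ≠ 0) (hYg : grRho A ⟨_, hY⟩ = grRho A ⟨_, hg⟩ ^ p) :
    ∃ g : ↥(modularFunctionFieldBar N), Y = g ^ p := by
  classical
  have hg0' : (g' : LaurentSeries Qb) ≠ 0 := fun h => hg0 (Subtype.ext h)
  -- the function `f = Y / g'^p`
  set f : ↥(modularFunctionFieldBar N) := Y / g' ^ p with hf
  have hf0 : f ≠ 0 := div_ne_zero hY0 (pow_ne_zero p hg0)
  have hfcoe : (f : LaurentSeries Qb) = (Y : LaurentSeries Qb) / (g' : LaurentSeries Qb) ^ p := rfl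
  -- its orders are divisible by `p`
  have hordf : ∀ P : Place Qb ↥(modularFunctionFieldBar N), (p : ℤ) ∣ P.ord f := by
    intro P
    rw [hf, div_eq_mul_inv, P.ord_mul hY0 (inv_ne_zero (pow_ne_zero p hg0)), P.ord_inv,
      ← zpow_natCast, P.ord_zpow]
    exact dvd_add (hord P) (Dvd.intro _ rfl).neg_right
  -- `f - 1` lies in the Gauss ring and has residue `0`
  have hginv : ((g' : LaurentSeries Qb))⁻¹ ∈ grV A := gr_inv_mem A ⟨_, hg⟩ hgne
  have hfV : (f : LaurentSeries Qb) ∈ grV A := by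
    rw [hfcoe, div_eq_mul_inv, ← inv_pow]
    exact Subring.mul_mem _ hY (Subring.pow_mem _ hginv p)
  have hfρ : grRho A ⟨_, hfV⟩ = 1 := by
    have h1 : (⟨(f : LaurentSeries Qb), hfV⟩ : grV A) =
        ⟨(Y : LaurentSeries Qb), hY⟩ * ⟨((g' : LaurentSeries Qb))⁻¹, hginv⟩ ^ p := by
      apply Subtype.ext
      show (f : LaurentSeries Qb) = (Y : LaurentSeries Qb) * ((g' : LaurentSeries Qb))⁻¹ ^ p
      rw [hfcoe, div_eq_mul_inv, inv_pow]
    rw [h1, map_mul, map_pow, grRho_inv A ⟨_, hg⟩ hgne, hYg, inv_pow,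
      mul_inv_cancel₀ (pow_ne_zero p hgne)]
  have hf1V : (f : LaurentSeries Qb) - 1 ∈ grV A := Subring.sub_mem _ hfV (Subring.one_mem _)
  have hf1ρ : grRho A ⟨_, hf1V⟩ = 0 := by
    have h1 : (⟨(f : LaurentSeries Qb) - 1, hf1V⟩ : grV A) = ⟨(f : LaurentSeries Qb), hfV⟩ - 1 :=
      rfl
    rw [h1, map_sub, map_one, hfρ, sub_self]
  -- level raising
  have hfN' : (f : LaurentSeries Qb) ∈ modularFunctionFieldBar N' := nrm_bar_le hNN' f.2
  have hordf' : ∀ P' : Place Qb ↥(modularFunctionFieldBar N'),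
      (p : ℤ) ∣ P'.ord (⟨(f : LaurentSeries Qb), hfN'⟩ : ↥(modularFunctionFieldBar N')) :=
    fun P' => nrm_level_up hNN' (p : ℤ) f hordf P'
  -- descent to a number field
  obtain ⟨T, hT⟩ := hcore
  obtain ⟨K0, hK0fin, hTK0, hdvr, -, -, hX⟩ := dvd_exists_bc ℓ hℓ A hA T
    (modularFunctionFieldFull N') {(f : LaurentSeries Qb)} (by
      intro x hx
      rw [Finset.mem_singleton] at hx
      rw [hx]
      exact hfN')
  obtain ⟨x0, hx0, hx0f⟩ := hX _ (Finset.mem_singleton_self _)
  have hf0N' : (⟨(f : LaurentSeries Qb), hfN'⟩ : ↥(modularFunctionFieldBar N')) ≠ 0 := by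
    intro h0
    have h1 : (f : LaurentSeries Qb) = 0 :=
      congrArg (fun z : ↥(modularFunctionFieldBar N') => (z : LaurentSeries Qb)) h0
    exact hf0 (Subtype.ext h1)
  obtain ⟨c, G, hGmem, hGcoe⟩ := nrm_descend_core (K₀ := ↥K0) A N' p
    (hT K0 hTK0) ⟨(f : LaurentSeries Qb), hfN'⟩ hf0N' hf1V hf1ρ hordf' x0 hx0 hx0f
  -- ascent
  obtain ⟨μ, hμ⟩ := IsAlgClosed.exists_pow_nat_eq (algebraMap K0 Qb c) hp.pos
  set g : LaurentSeries Qb := algebraMap Qb (LaurentSeries Qb) μ *
    coeffMap (algebraMap K0 Qb) G * (g' : LaurentSeries Qb) with hgdef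
  have hgmem : g ∈ modularFunctionFieldBar N' :=
    mul_mem (mul_mem ((modularFunctionFieldBar N').algebraMap_mem μ)
      (dvd_bc_mem (algebraMap K0 Qb) (modularFunctionFieldFull N') hGmem)) (nrm_bar_le hNN' g'.2)
  have hfg : (f : LaurentSeries Qb) = algebraMap Qb (LaurentSeries Qb) μ ^ p *
      coeffMap (algebraMap K0 Qb) G ^ p := by
    rw [← hx0f, hGcoe, map_mul, bcf_coeffMap_algebraMap, ← hμ,
      map_pow (algebraMap Qb (LaurentSeries Qb)), map_pow (coeffMap (algebraMap K0 Qb))]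
  have hgp : g ^ p = (Y : LaurentSeries Qb) := by
    rw [hgdef, mul_pow, mul_pow, ← hfg, hfcoe, div_mul_cancel₀ _ (pow_ne_zero p hg0')]
  have hgN : g ∈ modularFunctionFieldBar N := by
    refine hdesc g hgmem (by rw [hgp]; exact Y.2) ⟨(g' : LaurentSeries Qb), g'.2, hg0', ?_⟩
    have h1 : g ^ p / (g' : LaurentSeries Qb) ^ p - 1 = (f : LaurentSeries Qb) - 1 := by
      rw [hgp, hfcoe]
    refine ⟨by rw [h1]; exact hf1V, ?_⟩
    have h2 : (⟨g ^ p / (g' : LaurentSeries Qb) ^ p - 1, by rw [h1]; exact hf1V⟩ : grV A) =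
        ⟨(f : LaurentSeries Qb) - 1, hf1V⟩ := Subtype.ext h1
    rw [h2, hf1ρ]
  exact ⟨⟨g, hgN⟩, Subtype.ext hgp.symm⟩

end Fermat.Agent.S18
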