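import Mathlib
import Fermat.Agent.S18.CoreInst
import Fermat.Agent.S18.Normalize
import Fermat.Agent.S18.DvrDef

/-!
# S18, work package COREINST, part 7: the core statement over all large number fields

* `cinstSMStmt K₀ A₀ M H`: the statement (SM) consumed by COREINST: there are `c0, c1 ∈ A₀` with
  distinct residues such that, for the chart coordinate `t = (h - c1) / (h - c0)` of the level-`M`
  function field over `K₀`, the special fibres of the two charts `chtO A₀ {t}`, `chtO A₀ {t⁻¹}`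
  are Dedekind domains.
* `cinst_core_of_SM`: `cinstSMStmt K₀ A₀ M H → nrmCoreStmt K₀ A₀ M p` (`A₀` a discrete valuation
  ring over `ℓ`, `ℓ ∤ M`, `a2 ∣ M`, `p` prime to `ℓ`).
* `cinst_main`: the hypothesis `hcore` of `nrm_main` from (SM) over all number fields containing
  a finite set.
-/

set_option autoImplicit false

noncomputable section

open ModularCurve AlgebraicCurve

namespace Fermat.Agent.S18

local notation "Qb" => AlgebraicClosure ℚ

/-- The statement (SM) for the Hauptmodul charts of the level-`M` function field over `K₀`: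
for some `c0, c1 ∈ A₀` with distinct residues the special fibres of the two charts of the
coordinate `(h - c1) / (h - c0)` are Dedekind domains (for every `A₀`-algebra structure on the
function field compatible with the `K₀`-algebra structure, and every uniformizer `τ`). -/
def cinstSMStmt (K₀ : Type*) [Field K₀] [Algebra ℚ K₀] (A₀ : ValuationSubring K₀) (M : ℕ)
    {a2 ℓ : ℕ} (H : HauptRec a2 ℓ) : Prop :=
  ∃ c0 c1 : A₀, IsLocalRing.residue A₀ c0 ≠ IsLocalRing.residue A₀ c1 ∧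
    ∀ t : ↥(laurentBaseChange K₀ (modularFunctionFieldFull M)),
      (t : LaurentSeries K₀) = cinstU H K₀ (c0 : K₀) (c1 : K₀) →
      ∀ [Algebra A₀ ↥(laurentBaseChange K₀ (modularFunctionFieldFull M))]
        [IsScalarTower A₀ K₀ ↥(laurentBaseChange K₀ (modularFunctionFieldFull M))]
        (τ : A₀), Irreducible τ →
        IsDedekindDomain (chtO A₀ {t} ⧸ Ideal.span {algebraMap A₀ (chtO A₀ {t}) τ}) ∧
        IsDedekindDomain (chtO A₀ {t⁻¹} ⧸ Ideal.span {algebraMap A₀ (chtO A₀ {t⁻¹}) τ})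

/-- **COREINST over a DVR of definition**: (SM) for the Hauptmodul charts implies the core
statement. -/
theorem cinst_core_of_SM {K₀ : Type*} [Field K₀] [Algebra ℚ K₀] (A₀ : ValuationSubring K₀)
    [IsDiscreteValuationRing A₀] {ℓ : ℕ} [Fact ℓ.Prime] (hA₀ : A₀.LiesOverPrime ℓ)
    (M : ℕ) [NeZero M] (hℓM : ¬ ℓ ∣ M) {a2 : ℕ} (H : HauptRec a2 ℓ) (ha2 : a2 ∣ M)
    (hSM : cinstSMStmt K₀ A₀ M H) (p : ℕ) (hp : 0 < p) (hpℓ : p.Coprime ℓ) :
    nrmCoreStmt K₀ A₀ M p := by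
  intro f0 _ hred hord
  obtain ⟨c0, c1, hc, hD⟩ := hSM
  let _ : Algebra A₀ ↥(laurentBaseChange K₀ (modularFunctionFieldFull M)) :=
    ((algebraMap K₀ ↥(laurentBaseChange K₀ (modularFunctionFieldFull M))).comp
      A₀.subtype).toAlgebra
  have : IsScalarTower A₀ K₀ ↥(laurentBaseChange K₀ (modularFunctionFieldFull M)) :=
    IsScalarTower.of_algebraMap_eq (fun _ => rfl)
  obtain ⟨τ, hτ⟩ := IsDiscreteValuationRing.exists_irreducible A₀
  obtain ⟨hD0, hD1⟩ := hD ⟨cinstU H K₀ (c0 : K₀) (c1 : K₀), cinstU_mem H K₀ ha2 _ _⟩ rfl τ hτ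
  exact cinst_of_chart A₀ hA₀ M hℓM H c0 c1 hc
    ⟨cinstU H K₀ (c0 : K₀) (c1 : K₀), cinstU_mem H K₀ ha2 _ _⟩ rfl τ hτ p hp hpℓ hD0 hD1 f0
    hred hord

/-- **COREINST**: the hypothesis `hcore` of `nrm_main`, from (SM) for the Hauptmodul charts over
all number fields containing a finite set. -/
theorem cinst_main (N' : ℕ) [NeZero N'] {ℓ : ℕ} [Fact ℓ.Prime] (hℓN' : ¬ ℓ ∣ N') {a2 : ℕ}
    (H : HauptRec a2 ℓ) (ha2 : a2 ∣ N') (A : ValuationSubring Qb) (hA : A.LiesOverPrime ℓ)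
    (p : ℕ) (hp : 0 < p) (hpℓ : p.Coprime ℓ)
    (hSM : ∃ T : Finset Qb, ∀ (K0 : IntermediateField ℚ Qb) [FiniteDimensional ℚ K0],
      (∀ c ∈ T, c ∈ K0) → cinstSMStmt ↥K0 (A.comap (algebraMap ↥K0 Qb)) N' H) :
    ∃ T : Finset Qb, ∀ (K0 : IntermediateField ℚ Qb) [FiniteDimensional ℚ K0],
      (∀ c ∈ T, c ∈ K0) → nrmCoreStmt ↥K0 (A.comap (algebraMap ↥K0 Qb)) N' p := by
  obtain ⟨T, hT⟩ := hSM
  refine ⟨T, fun K0 _ hK0 => ?_⟩
  obtain ⟨hdvr, -, hℓ⟩ := dvd_isDVR_comap ℓ (Fact.out : ℓ.Prime).ne_zero A hA K0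
  have := hdvr
  exact cinst_core_of_SM (A.comap (algebraMap ↥K0 Qb)) hℓ N' hℓN' H ha2 (hT K0 hK0) p hp hpℓ

end Fermat.Agent.S18
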