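import Mathlib
import Fermat.Agent.S18.CoreInstMain

/-!
# S18, work package COREINST, part 8: adapters between (SM-INST) and `cinst_main`

* `cinstSMChart K₀ A₀ M H c0 c1`: (SM) for ONE chart: the special fibre of the chart
  `chtO A₀ {t}`, `t = (h - c1) / (h - c0)`, is a Dedekind domain.
* `cinst_SM_of_elts`, `cinst_SM_of_charts`: constructors for `cinstSMStmt K₀ A₀ M H` from two
  elements `c0 ≠ c1` of `K₀` lying in `A₀` with `(c0 - c1)⁻¹ ∈ A₀` (two charts at once, resp. the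
  one-chart statement for `(c0, c1)` and for `(c1, c0)`).
* `cinstSMInst N' H A`: the `Qbar`-level shape of (SM-INST): base points `c0 ≠ c1` in `A` with
  `(c0 - c1)⁻¹ ∈ A`, contained in a finite set `T`, such that both one-chart statements hold over
  every number field containing `T`.
* `cinst_hSM_of_SMInst`: `cinstSMInst N' H A` gives the hypothesis `hSM` of `cinst_main`.
* `cinst_final_of_SM`, `cinst_final_of_SMInst`: the core statement over all large number fields,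
  for a prime `p ≠ ℓ`, in the binder shape used by the final glue.
-/

set_option autoImplicit false

noncomputable section

open ModularCurve AlgebraicCurve

namespace Fermat.Agent.S18

local notation "Qb" => AlgebraicClosure ℚ

/-- (SM) for one chart: for the chart coordinate `t = (h - c1) / (h - c0)` of the level-`M`
function field over `K₀` the special fibre of the chart `chtO A₀ {t}` is a Dedekind domain (for
every `A₀`-algebra structure on the function field compatible with the `K₀`-algebra structure,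
and every uniformizer `τ`). -/
def cinstSMChart (K₀ : Type*) [Field K₀] [Algebra ℚ K₀] (A₀ : ValuationSubring K₀) (M : ℕ)
    {a2 ℓ : ℕ} (H : HauptRec a2 ℓ) (c0 c1 : K₀) : Prop :=
  ∀ t : ↥(laurentBaseChange K₀ (modularFunctionFieldFull M)),
    (t : LaurentSeries K₀) = cinstU H K₀ c0 c1 →
    ∀ [Algebra A₀ ↥(laurentBaseChange K₀ (modularFunctionFieldFull M))]
      [IsScalarTower A₀ K₀ ↥(laurentBaseChange K₀ (modularFunctionFieldFull M))]
      (τ : A₀), Irreducible τ →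
      IsDedekindDomain (chtO A₀ {t} ⧸ Ideal.span {algebraMap A₀ (chtO A₀ {t}) τ})

/-- Constructor for `cinstSMStmt` from explicit base points `c0 ≠ c1` of the field lying in `A₀`
with `(c0 - c1)⁻¹ ∈ A₀`. -/
theorem cinst_SM_of_elts {K₀ : Type*} [Field K₀] [Algebra ℚ K₀] (A₀ : ValuationSubring K₀)
    (M : ℕ) {a2 ℓ : ℕ} (H : HauptRec a2 ℓ) (c0 c1 : K₀) (h0 : c0 ∈ A₀) (h1 : c1 ∈ A₀)
    (hne : c0 ≠ c1) (h01 : (c0 - c1)⁻¹ ∈ A₀)
    (hD : ∀ t : ↥(laurentBaseChange K₀ (modularFunctionFieldFull M)),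
      (t : LaurentSeries K₀) = cinstU H K₀ c0 c1 →
      ∀ [Algebra A₀ ↥(laurentBaseChange K₀ (modularFunctionFieldFull M))]
        [IsScalarTower A₀ K₀ ↥(laurentBaseChange K₀ (modularFunctionFieldFull M))]
        (τ : A₀), Irreducible τ →
        IsDedekindDomain (chtO A₀ {t} ⧸ Ideal.span {algebraMap A₀ (chtO A₀ {t}) τ}) ∧
        IsDedekindDomain (chtO A₀ {t⁻¹} ⧸ Ideal.span {algebraMap A₀ (chtO A₀ {t⁻¹}) τ})) :
    cinstSMStmt K₀ A₀ M H := by
  refine ⟨⟨c0, h0⟩, ⟨c1, h1⟩, ?_, hD⟩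
  intro h
  have hm : (⟨c0, h0⟩ - ⟨c1, h1⟩ : A₀) ∈ IsLocalRing.maximalIdeal A₀ := by
    rw [← IsLocalRing.residue_eq_zero_iff, map_sub, h, sub_self]
  refine hm (isUnit_iff_exists_inv.mpr ⟨⟨(c0 - c1)⁻¹, h01⟩, ?_⟩)
  exact Subtype.ext (mul_inv_cancel₀ (sub_ne_zero.mpr hne))

/-- Constructor for `cinstSMStmt` from the one-chart statements for `(c0, c1)` and `(c1, c0)`
(the second chart `t⁻¹ = (h - c0) / (h - c1)` is the first chart of the swapped pair). -/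
theorem cinst_SM_of_charts {K₀ : Type*} [Field K₀] [Algebra ℚ K₀] (A₀ : ValuationSubring K₀)
    (M : ℕ) {a2 ℓ : ℕ} (H : HauptRec a2 ℓ) (c0 c1 : K₀) (h0 : c0 ∈ A₀) (h1 : c1 ∈ A₀)
    (hne : c0 ≠ c1) (h01 : (c0 - c1)⁻¹ ∈ A₀)
    (hD0 : cinstSMChart K₀ A₀ M H c0 c1) (hD1 : cinstSMChart K₀ A₀ M H c1 c0) :
    cinstSMStmt K₀ A₀ M H := by
  refine cinst_SM_of_elts A₀ M H c0 c1 h0 h1 hne h01 ?_
  intro t ht _ _ τ hτ
  refine ⟨hD0 t ht τ hτ, hD1 t⁻¹ ?_ τ hτ⟩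
  rw [IntermediateField.coe_inv, ht, cinstU_inv]

/-- The `Qbar`-level shape of (SM-INST): base points `c0 ≠ c1` in `A` with `(c0 - c1)⁻¹ ∈ A`,
contained in a finite set `T`, such that the one-chart statements for `(c0, c1)` and `(c1, c0)`
hold over every number field containing `T`. -/
def cinstSMInst (N' : ℕ) {a2 ℓ : ℕ} (H : HauptRec a2 ℓ) (A : ValuationSubring Qb) : Prop :=
  ∃ (T : Finset Qb) (c0 c1 : Qb) (hT0 : c0 ∈ T) (hT1 : c1 ∈ T),
    c0 ∈ A ∧ c1 ∈ A ∧ c0 ≠ c1 ∧ (c0 - c1)⁻¹ ∈ A ∧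
    ∀ (K0 : IntermediateField ℚ Qb) [FiniteDimensional ℚ K0] (hT : ∀ c ∈ T, c ∈ K0),
      cinstSMChart ↥K0 (A.comap (algebraMap ↥K0 Qb)) N' H ⟨c0, hT c0 hT0⟩ ⟨c1, hT c1 hT1⟩ ∧
      cinstSMChart ↥K0 (A.comap (algebraMap ↥K0 Qb)) N' H ⟨c1, hT c1 hT1⟩ ⟨c0, hT c0 hT0⟩

/-- The hypothesis `hSM` of `cinst_main` from the `Qbar`-level shape of (SM-INST). -/
theorem cinst_hSM_of_SMInst (N' : ℕ) {a2 ℓ : ℕ} (H : HauptRec a2 ℓ) (A : ValuationSubring Qb)
    (h : cinstSMInst N' H A) :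
    ∃ T : Finset Qb, ∀ (K0 : IntermediateField ℚ Qb) [FiniteDimensional ℚ K0],
      (∀ c ∈ T, c ∈ K0) → cinstSMStmt ↥K0 (A.comap (algebraMap ↥K0 Qb)) N' H := by
  obtain ⟨T, c0, c1, hT0, hT1, h0, h1, hne, h01, hD⟩ := h
  refine ⟨T, fun K0 _ hT => ?_⟩
  refine cinst_SM_of_charts (A.comap (algebraMap ↥K0 Qb)) N' H ⟨c0, hT c0 hT0⟩ ⟨c1, hT c1 hT1⟩
    ?_ ?_ ?_ ?_ (hD K0 hT).1 (hD K0 hT).2
  · exact ValuationSubring.mem_comap.mpr h0
  · exact ValuationSubring.mem_comap.mpr h1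
  · intro h
    exact hne (congrArg Subtype.val h)
  · refine ValuationSubring.mem_comap.mpr ?_
    rw [map_inv₀, map_sub]
    exact h01

/-- **COREINST, final binder shape** (modulo (SM)): for a prime `p ≠ ℓ`, the hypothesis `hcore`
of `nrm_main'` from (SM) over all number fields containing a finite set. -/
theorem cinst_final_of_SM (N' : ℕ) [NeZero N'] {ℓ p a2 : ℕ} [Fact ℓ.Prime] (hp : p.Prime)
    (hpℓ : p ≠ ℓ) (hℓN' : ¬ ℓ ∣ N') (H : HauptRec a2 ℓ) (ha2 : a2 ∣ N')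
    (A : ValuationSubring Qb) (hA : A.LiesOverPrime ℓ)
    (hSM : ∃ T : Finset Qb, ∀ (K0 : IntermediateField ℚ Qb) [FiniteDimensional ℚ K0],
      (∀ c ∈ T, c ∈ K0) → cinstSMStmt ↥K0 (A.comap (algebraMap ↥K0 Qb)) N' H) :
    ∃ T : Finset Qb, ∀ (K0 : IntermediateField ℚ Qb) [FiniteDimensional ℚ K0],
      (∀ c ∈ T, c ∈ K0) → nrmCoreStmt ↥K0 (A.comap (algebraMap ↥K0 Qb)) N' p :=
  cinst_main N' hℓN' H ha2 A hA p hp.pos ((Nat.coprime_primes hp Fact.out).mpr hpℓ) hSM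

/-- **COREINST, final binder shape** from the `Qbar`-level shape of (SM-INST). -/
theorem cinst_final_of_SMInst (N' : ℕ) [NeZero N'] {ℓ p a2 : ℕ} [Fact ℓ.Prime] (hp : p.Prime)
    (hpℓ : p ≠ ℓ) (hℓN' : ¬ ℓ ∣ N') (H : HauptRec a2 ℓ) (ha2 : a2 ∣ N')
    (A : ValuationSubring Qb) (hA : A.LiesOverPrime ℓ) (hSM : cinstSMInst N' H A) :
    ∃ T : Finset Qb, ∀ (K0 : IntermediateField ℚ Qb) [FiniteDimensional ℚ K0],
      (∀ c ∈ T, c ∈ K0) → nrmCoreStmt ↥K0 (A.comap (algebraMap ↥K0 Qb)) N' p :=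
  cinst_final_of_SM N' hp hpℓ hℓN' H ha2 A hA (cinst_hSM_of_SMInst N' H A hSM)

end Fermat.Agent.S18
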