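import Mathlib
import Fermat.Agent.S28.PsiArith
import Fermat.Agent.S18.HauptRec

/-!
# S18: the level-4 instance of the abstract Hauptmodul record

`hp4Rec ℓ hℓ : HauptRec 4 ℓ` for every odd prime `ℓ`, with
`P = (X² + 256 X + 4096)³`, `Q = X⁴ (X + 16)`, `Qrad = X (X + 16)`,
`P3 = X² + 256 X + 4096`, `P2 = X³ - 480 X² - 24576 X - 262144`.
-/

set_option autoImplicit false

open ModularCurve Polynomial
open Fermat.Agent.S28

noncomputable section

namespace Fermat.Agent.S18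

theorem hp4_psi_four : psi 4 = 6 := by
  have h := psi_mul_of_dvd Nat.prime_two (by norm_num : 0 < 2) (dvd_refl 2)
  rw [psi_prime Nat.prime_two] at h
  exact h

/-- `X (X + 16)` is separable in characteristic `≠ 2`. -/
theorem hp4_Qrad_separable (K : Type*) [Field K] (h2 : (2 : K) ≠ 0) :
    (X * (X + 16) : K[X]).Separable := by
  have h256 : (256 : K) ≠ 0 := by
    rw [show (256 : K) = 2 ^ 8 by norm_num]
    exact pow_ne_zero 8 h2
  have e1 : C (256⁻¹ : K) * (256 : K[X]) = 1 := by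
    rw [← map_ofNat (C : K →+* K[X]) 256, ← C_mul, inv_mul_cancel₀ h256, C_1]
  have hd : derivative (X * (X + 16) : K[X]) = 2 * X + 16 := by
    rw [derivative_mul, derivative_X, derivative_add, derivative_X, derivative_ofNat]
    ring
  rw [separable_def, hd]
  exact ⟨-(4 * C (256⁻¹ : K)), C (256⁻¹ : K) * (2 * X + 16), by linear_combination e1⟩

theorem hp4_map_P (K : Type*) [Field K] :
    (((X ^ 2 + 256 * X + 4096) ^ 3 : ℤ[X])).map (Int.castRingHom K) = hp4Num K := by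
  rw [hp4Num]
  simp only [Polynomial.map_pow, Polynomial.map_add, Polynomial.map_mul, Polynomial.map_X,
    Polynomial.map_ofNat, map_ofNat]

theorem hp4_map_Q (K : Type*) [Field K] :
    ((X ^ 4 * (X + 16) : ℤ[X])).map (Int.castRingHom K) = hp4Den K := by
  rw [hp4Den]
  simp only [Polynomial.map_pow, Polynomial.map_add, Polynomial.map_mul, Polynomial.map_X,
    Polynomial.map_ofNat, map_ofNat]

theorem hp4_map_Qrad (K : Type*) [Field K] :
    ((X * (X + 16) : ℤ[X])).map (Int.castRingHom K) = X * (X + 16) := by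
  simp only [Polynomial.map_add, Polynomial.map_mul, Polynomial.map_X, Polynomial.map_ofNat]

/-- The level-4 Hauptmodul record, for every odd prime `ℓ`. -/
def hp4Rec (ℓ : ℕ) [Fact ℓ.Prime] (hℓ : ℓ ≠ 2) : HauptRec 4 ℓ where
  hZ := hp4HZ
  P := (X ^ 2 + 256 * X + 4096) ^ 3
  Q := X ^ 4 * (X + 16)
  Qrad := X * (X + 16)
  P3 := X ^ 2 + 256 * X + 4096
  P2 := X ^ 3 - 480 * X ^ 2 - 24576 * X - 262144
  pos := by norm_num
  not_dvd := fun h => hℓ (by
    have hp : ℓ.Prime := Fact.out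
    have h2 : ℓ ∣ 2 := hp.dvd_of_dvd_pow (show ℓ ∣ 2 ^ 2 by norm_num; exact h)
    exact (Nat.prime_dvd_prime_iff_eq hp Nat.prime_two).mp h2)
  lead := hp4HZ_lead
  mem_Ft := hp4H_mem_Ft
  rel := by
    simp only [map_pow, map_add, map_mul, aeval_X, map_ofNat]
    exact hp4Z_j1
  P_monic := by monicity!
  Q_monic := by monicity!
  natDegree_P := by
    rw [hp4_psi_four]
    compute_degree!
  natDegree_Q := by
    rw [hp4_psi_four]
    have h : (X ^ 4 * (X + 16) : ℤ[X]).natDegree = 5 := by compute_degree!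
    rw [h]
    norm_num
  coprime_rat := by
    rw [hp4_map_P, hp4_map_Q]
    exact hp4_isCoprime ℚ (by norm_num)
  coprime_mod := by
    rw [hp4_map_P, hp4_map_Q]
    exact hp4_isCoprime (ZMod ℓ) (hp4_two_ne_zero ℓ hℓ)
  Qrad_monic := by monicity!
  Qrad_dvd := ⟨X ^ 3, by ring⟩
  dvd_Qrad_pow := ⟨4, ⟨(X + 16) ^ 3, by ring⟩⟩
  Qrad_sep_rat := by
    rw [hp4_map_Qrad]
    exact hp4_Qrad_separable ℚ (by norm_num)
  Qrad_sep_mod := by
    rw [hp4_map_Qrad]
    exact hp4_Qrad_separable (ZMod ℓ) (hp4_two_ne_zero ℓ hℓ)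
  cube := rfl
  square := by ring

theorem hp4Rec_h (ℓ : ℕ) [Fact ℓ.Prime] (hℓ : ℓ ≠ 2) (R : Type*) [CommRing R] :
    (hp4Rec ℓ hℓ).h R = hp4H R := rfl

end Fermat.Agent.S18
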