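import Mathlib
import Fermat.Agent.S28.Defs

/-!
# S18, package HAUPT9 (coefficient part)

A small verified evaluator for truncated integral power series (lists of the first `N`
coefficients), and the three numerical facts about `E₄(q)`, `E₄(q³)`, `Δ(q)`, `Δ(q³)` needed for
the level 3 identities (Sturm bound checks at level 3, weights 12 and 24).
-/

set_option autoImplicit false

noncomputable section

namespace Fermat.Agent.S18

open PowerSeries ModularCurve Fermat.Agent.S28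

/-! ### The evaluator -/

/-- The first `N` coefficients of an integral power series. -/
def hp9_tr (N : ℕ) (p : PowerSeries ℤ) : List ℤ := (List.range N).map fun n => coeff n p

/-- truncated product of coefficient lists -/
def hp9_lmul (N : ℕ) (a b : List ℤ) : List ℤ :=
  (List.range N).map fun n =>
    ((List.range (n + 1)).map fun i => a.getD i 0 * b.getD (n - i) 0).sum

/-- truncated sum of coefficient lists -/
def hp9_ladd (N : ℕ) (a b : List ℤ) : List ℤ :=
  (List.range N).map fun n => a.getD n 0 + b.getD n 0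

/-- truncated difference of coefficient lists -/
def hp9_lsub (N : ℕ) (a b : List ℤ) : List ℤ :=
  (List.range N).map fun n => a.getD n 0 - b.getD n 0

/-- scalar multiple of a coefficient list -/
def hp9_lsmul (N : ℕ) (c : ℤ) (a : List ℤ) : List ℤ :=
  (List.range N).map fun n => c * a.getD n 0

/-- the substitution `q ↦ q^3` on coefficient lists -/
def hp9_lV3 (N : ℕ) (a : List ℤ) : List ℤ :=
  (List.range N).map fun n => if 3 ∣ n then a.getD (n / 3) 0 else 0

theorem hp9_tr_getD (N : ℕ) (p : PowerSeries ℤ) {i : ℕ} (hi : i < N) :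
    (hp9_tr N p).getD i 0 = coeff i p := by
  simp [hp9_tr, List.getD_eq_getElem?_getD, hi]

theorem hp9_tr_length (N : ℕ) (p : PowerSeries ℤ) : (hp9_tr N p).length = N := by
  simp [hp9_tr]

theorem hp9_coeff_of_tr {N : ℕ} {p : PowerSeries ℤ} (h : hp9_tr N p = List.replicate N 0)
    {n : ℕ} (hn : n < N) : coeff n p = 0 := by
  rw [← hp9_tr_getD N p hn, h]
  simp [List.getD_eq_getElem?_getD, hn]

theorem hp9_tr_mul (N : ℕ) (p q : PowerSeries ℤ) :
    hp9_tr N (p * q) = hp9_lmul N (hp9_tr N p) (hp9_tr N q) := by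
  unfold hp9_lmul
  refine List.map_congr_left fun n hn => ?_
  rw [List.mem_range] at hn
  rw [coeff_mul, Finset.Nat.sum_antidiagonal_eq_sum_range_succ_mk]
  have key : ∀ (f g : ℕ → ℤ) (m : ℕ), (∀ i, i < m → f i = g i) →
      ∑ i ∈ Finset.range m, f i = ((List.range m).map g).sum := by
    intro f g m hfg
    induction m with
    | zero => simp
    | succ m ih =>
      rw [Finset.sum_range_succ, List.range_succ, List.map_append, List.sum_append,
        ih fun i hi => hfg i (Nat.lt_succ_of_lt hi), hfg m (Nat.lt_succ_self m)]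
      simp
  refine key _ _ _ fun i hi => ?_
  rw [hp9_tr_getD N p (by omega), hp9_tr_getD N q (by omega)]

theorem hp9_tr_add (N : ℕ) (p q : PowerSeries ℤ) :
    hp9_tr N (p + q) = hp9_ladd N (hp9_tr N p) (hp9_tr N q) := by
  unfold hp9_ladd
  refine List.map_congr_left fun n hn => ?_
  rw [List.mem_range] at hn
  rw [map_add, hp9_tr_getD N p hn, hp9_tr_getD N q hn]

theorem hp9_tr_sub (N : ℕ) (p q : PowerSeries ℤ) :
    hp9_tr N (p - q) = hp9_lsub N (hp9_tr N p) (hp9_tr N q) := by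
  unfold hp9_lsub
  refine List.map_congr_left fun n hn => ?_
  rw [List.mem_range] at hn
  rw [map_sub, hp9_tr_getD N p hn, hp9_tr_getD N q hn]

theorem hp9_tr_smul (N : ℕ) (c : ℤ) (p : PowerSeries ℤ) :
    hp9_tr N (C c * p) = hp9_lsmul N c (hp9_tr N p) := by
  unfold hp9_lsmul
  refine List.map_congr_left fun n hn => ?_
  rw [List.mem_range] at hn
  rw [coeff_C_mul, hp9_tr_getD N p hn]

/-- the substitution `q ↦ q^3` on integral power series -/
def hp9_V3 (p : PowerSeries ℤ) : PowerSeries ℤ :=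
  PowerSeries.mk fun n => if 3 ∣ n then coeff (n / 3) p else 0

theorem hp9_tr_V3 (N : ℕ) (p : PowerSeries ℤ) :
    hp9_tr N (hp9_V3 p) = hp9_lV3 N (hp9_tr N p) := by
  unfold hp9_lV3
  refine List.map_congr_left fun n hn => ?_
  rw [List.mem_range] at hn
  rw [hp9_V3, coeff_mk, hp9_tr_getD N p (lt_of_le_of_lt (Nat.div_le_self n 3) hn)]

theorem hp9_tr_one (N : ℕ) :
    hp9_tr N 1 = (List.range N).map fun n => if n = 0 then (1 : ℤ) else 0 := by
  unfold hp9_tr
  refine List.map_congr_left fun n _ => ?_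
  rw [coeff_one]

theorem hp9_tr_X (N : ℕ) :
    hp9_tr N X = (List.range N).map fun n => if n = 1 then (1 : ℤ) else 0 := by
  unfold hp9_tr
  refine List.map_congr_left fun n _ => ?_
  rw [coeff_X]

/-! ### Base series -/

theorem hp9_tr_E4 :
    hp9_tr 9 eisenstein4 = [1, 240, 2160, 6720, 17520, 30240, 60480, 82560, 140400] := by
  unfold hp9_tr eisenstein4
  simp only [coeff_mk]
  decide

theorem hp9_etaProd_eq : etaProd = pentagonalSeries ℤ :=
  PowerSeries.WithPiTopology.tprod_one_sub_X_pow ℤ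

theorem hp9_not_pentagonal {n : ℕ} (h : ∀ k : ℤ, -3 ≤ k → k ≤ 3 → k * (3 * k - 1) ≠ 2 * (n : ℤ))
    (hn : n ≤ 8) : n ∉ Set.range pentagonal := by
  rintro ⟨k, hk⟩
  have h2 := two_mul_natCast_pentagonal k
  rw [hk] at h2
  have hn' : (n : ℤ) ≤ 8 := by exact_mod_cast hn
  have hk1 : k ≤ 3 := by nlinarith
  have hk2 : -3 ≤ k := by nlinarith
  exact h k hk2 hk1 h2.symm

theorem hp9_tr_eta : hp9_tr 9 etaProd = [1, -1, -1, 0, 0, 1, 0, 1, 0] := by
  rw [hp9_etaProd_eq]
  have h0 : coeff 0 (pentagonalSeries ℤ) = 1 := by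
    have := coeff_pentagonalSeries_pentagonal ℤ 0
    simpa [pentagonal_def] using this
  have h1 : coeff 1 (pentagonalSeries ℤ) = -1 := by
    have := coeff_pentagonalSeries_pentagonal ℤ 1
    simpa [pentagonal_def] using this
  have h2 : coeff 2 (pentagonalSeries ℤ) = -1 := by
    have := coeff_pentagonalSeries_pentagonal ℤ (-1)
    simpa [pentagonal_def] using this
  have h5 : coeff 5 (pentagonalSeries ℤ) = 1 := by
    have := coeff_pentagonalSeries_pentagonal ℤ 2
    simpa [pentagonal_def] using this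
  have h7 : coeff 7 (pentagonalSeries ℤ) = 1 := by
    have := coeff_pentagonalSeries_pentagonal ℤ (-2)
    simpa [pentagonal_def] using this
  have h3 : coeff 3 (pentagonalSeries ℤ) = 0 :=
    coeff_pentagonalSeries_eq_zero ℤ (hp9_not_pentagonal (by intro k hk1 hk2; interval_cases k <;> omega) (by norm_num))
  have h4 : coeff 4 (pentagonalSeries ℤ) = 0 :=
    coeff_pentagonalSeries_eq_zero ℤ (hp9_not_pentagonal (by intro k hk1 hk2; interval_cases k <;> omega) (by norm_num))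
  have h6 : coeff 6 (pentagonalSeries ℤ) = 0 :=
    coeff_pentagonalSeries_eq_zero ℤ (hp9_not_pentagonal (by intro k hk1 hk2; interval_cases k <;> omega) (by norm_num))
  have h8 : coeff 8 (pentagonalSeries ℤ) = 0 :=
    coeff_pentagonalSeries_eq_zero ℤ (hp9_not_pentagonal (by intro k hk1 hk2; interval_cases k <;> omega) (by norm_num))
  simp [hp9_tr, List.range_succ, h0, h1, h2, h3, h4, h5, h6, h7, h8]

theorem hp9_tr_eta2 : hp9_tr 9 (etaProd ^ 2) = [1, -2, -1, 2, 1, 2, -2, 0, -2] := by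
  rw [pow_two, hp9_tr_mul, hp9_tr_eta]
  decide

theorem hp9_tr_eta4 : hp9_tr 9 (etaProd ^ 4) = [1, -4, 2, 8, -5, -4, -10, 8, 9] := by
  rw [show etaProd ^ 4 = etaProd ^ 2 * etaProd ^ 2 by ring, hp9_tr_mul, hp9_tr_eta2]
  decide

theorem hp9_tr_eta8 : hp9_tr 9 (etaProd ^ 8) = [1, -8, 20, 0, -70, 64, 56, 0, -125] := by
  rw [show etaProd ^ 8 = etaProd ^ 4 * etaProd ^ 4 by ring, hp9_tr_mul, hp9_tr_eta4]
  decide

theorem hp9_tr_eta12 :
    hp9_tr 9 (etaProd ^ 12) = [1, -12, 54, -88, -99, 540, -418, -648, 594] := by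
  rw [show etaProd ^ 12 = etaProd ^ 8 * etaProd ^ 4 by ring, hp9_tr_mul, hp9_tr_eta8,
    hp9_tr_eta4]
  decide

theorem hp9_tr_eta24 :
    hp9_tr 9 (etaProd ^ 24) = [1, -24, 252, -1472, 4830, -6048, -16744, 84480, -113643] := by
  rw [show etaProd ^ 24 = etaProd ^ 12 * etaProd ^ 12 by ring, hp9_tr_mul, hp9_tr_eta12]
  decide

theorem hp9_tr_Dq : hp9_tr 9 DqZ = [0, 1, -24, 252, -1472, 4830, -6048, -16744, 84480] := by
  rw [DqZ, dedekindEtaUnit, hp9_tr_mul, hp9_tr_X, hp9_tr_eta24]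
  decide

theorem hp9_tr_E4V : hp9_tr 9 (hp9_V3 eisenstein4) = [1, 0, 0, 240, 0, 0, 2160, 0, 0] := by
  rw [hp9_tr_V3, hp9_tr_E4]
  decide

theorem hp9_tr_DqV : hp9_tr 9 (hp9_V3 DqZ) = [0, 0, 0, 1, 0, 0, -24, 0, 0] := by
  rw [hp9_tr_V3, hp9_tr_Dq]
  decide

/-! ### The level 3 combinations -/

/-- `81 E₄(q³) - E₄(q)` -/
def hp9_AZ : PowerSeries ℤ := C 81 * hp9_V3 eisenstein4 - eisenstein4

/-- `E₄(q) - E₄(q³)` -/
def hp9_BZ : PowerSeries ℤ := eisenstein4 - hp9_V3 eisenstein4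

/-- `A B² - 27·80·240² Δ(q³)`; this is `80·240² (η(q) η(q³))^12`. -/
def hp9_YZ : PowerSeries ℤ := hp9_AZ * hp9_BZ * hp9_BZ - C 124416000 * hp9_V3 DqZ

/-- the weight 12 relation -/
def hp9_XRZ : PowerSeries ℤ :=
  C 240 * (hp9_AZ * (hp9_AZ * hp9_BZ)) - C 2160 * (hp9_AZ * hp9_BZ * hp9_BZ)
    + C 268738560000 * hp9_V3 DqZ - C 368640000 * DqZ

/-- the weight 24 relation -/
def hp9_XSZ : PowerSeries ℤ := hp9_YZ * hp9_YZ - C 21233664000000 * (DqZ * hp9_V3 DqZ)

theorem hp9_tr_A :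
    hp9_tr 9 hp9_AZ = [80, -240, -2160, 12720, -17520, -30240, 114480, -82560, -140400] := by
  rw [hp9_AZ, hp9_tr_sub, hp9_tr_smul, hp9_tr_E4V, hp9_tr_E4]
  decide

theorem hp9_tr_B :
    hp9_tr 9 hp9_BZ = [0, 240, 2160, 6480, 17520, 30240, 58320, 82560, 140400] := by
  rw [hp9_BZ, hp9_tr_sub, hp9_tr_E4V, hp9_tr_E4]
  decide

theorem hp9_tr_AB :
    hp9_tr 9 (hp9_AZ * hp9_BZ)
      = [0, 19200, 115200, -518400, -1766400, 7488000, -3110400, -1228800, -25344000] := by
  rw [hp9_tr_mul, hp9_tr_A, hp9_tr_B]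
  decide

theorem hp9_tr_AAB :
    hp9_tr 9 (hp9_AZ * (hp9_AZ * hp9_BZ))
      = [0, 1536000, 4608000, -110592000, -21504000, 3271680000, -7423488000, -30197760000,
          158459904000] := by
  rw [hp9_tr_mul, hp9_tr_A, hp9_tr_AB]
  decide

theorem hp9_tr_ABB :
    hp9_tr 9 (hp9_AZ * hp9_BZ * hp9_BZ)
      = [0, 0, 4608000, 69120000, 248832000, -460800000, -2778624000, -497664000,
          3188736000] := by
  rw [hp9_tr_mul, hp9_tr_AB, hp9_tr_B]
  decide

theorem hp9_tr_Y :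
    hp9_tr 9 hp9_YZ
      = [0, 0, 4608000, -55296000, 248832000, -460800000, 207360000, -497664000,
          3188736000] := by
  rw [hp9_YZ, hp9_tr_sub, hp9_tr_smul, hp9_tr_ABB, hp9_tr_DqV]
  decide

theorem hp9_tr_XR : hp9_tr 9 hp9_XRZ = List.replicate 9 0 := by
  rw [hp9_XRZ, hp9_tr_sub, hp9_tr_add, hp9_tr_sub, hp9_tr_smul, hp9_tr_smul, hp9_tr_smul,
    hp9_tr_smul, hp9_tr_AAB, hp9_tr_ABB, hp9_tr_DqV, hp9_tr_Dq]
  decide

theorem hp9_tr_XS : hp9_tr 9 hp9_XSZ = List.replicate 9 0 := by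
  rw [hp9_XSZ, hp9_tr_sub, hp9_tr_smul, hp9_tr_mul, hp9_tr_mul, hp9_tr_Y, hp9_tr_DqV,
    hp9_tr_Dq]
  decide

/-- the weight 12 relation holds up to the Sturm bound -/
theorem hp9_coeff_XR {n : ℕ} (hn : n ≤ 8) : coeff n hp9_XRZ = 0 :=
  hp9_coeff_of_tr hp9_tr_XR (Nat.lt_succ_of_le hn)

/-- the weight 24 relation holds up to the Sturm bound -/
theorem hp9_coeff_XS {n : ℕ} (hn : n ≤ 8) : coeff n hp9_XSZ = 0 :=
  hp9_coeff_of_tr hp9_tr_XS (Nat.lt_succ_of_le hn)

/-- the coefficient fixing the sign of the square root -/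
theorem hp9_coeff_Y : coeff 2 hp9_YZ = 4608000 := by
  rw [← hp9_tr_getD 9 hp9_YZ (by norm_num : 2 < 9), hp9_tr_Y]
  rfl

end Fermat.Agent.S18
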