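import Mathlib
import Fermat.Agent.S28.Defs
import Fermat.Agent.S28.Forms
import Fermat.Agent.S28.SturmDegree
import Fermat.Agent.S28.Index
import Fermat.Agent.S28.UnitPoly
import Fermat.Agent.S18.Haupt9Coeff

/-!
# S18, package HAUPT9: the Hauptmodul of `X₀(9)` (for the branch `ℓ = 2`)

Over any commutative ring `R` (everything is the image of an integral Laurent series):

* `hp9_u R = q⁻¹ ∏ ((1 - q^n)/(1 - q^{3n}))^12`, with `u² Δ(q³) = Δ(q)`;
* `hp9_w R = u(q³)`;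
* `hp9_h R`, the Hauptmodul of level 9, with `h (u w - 243 u + 9 w + 729)
  = u² w + 18 u w + 27 w + 1458 u`.

Main results: `hp9_I1`, `hp9_I2` (level 3), `hp9_u_rel`, `hp9_w_rel`, `hp9_j1`, `hp9_j3`, `hp9_j9`
(level 9), `hp9_h_order`, `hp9_h_leadingCoeff`.
-/

set_option autoImplicit false

noncomputable section

namespace Fermat.Agent.S18

open ModularCurve Fermat.Agent.S28

/-! ### Monic Laurent series of a given order, over any ring -/

section Mon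

variable {R : Type*} [CommRing R]

/-- `x = q^n (1 + O(q))` -/
def hp9_Mon (x : LaurentSeries R) (n : ℤ) : Prop :=
  ∃ p : PowerSeries R, PowerSeries.constantCoeff p = 1 ∧
    x = HahnSeries.single n 1 * HahnSeries.ofPowerSeries ℤ R p

/-- `x = O(q^n)` -/
def hp9_Big (x : LaurentSeries R) (n : ℤ) : Prop :=
  ∃ p : PowerSeries R, x = HahnSeries.single n 1 * HahnSeries.ofPowerSeries ℤ R p

theorem hp9_single_mul_single (a b : ℤ) :
    (HahnSeries.single a (1 : R)) * HahnSeries.single b 1 = HahnSeries.single (a + b) 1 := by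
  rw [HahnSeries.single_mul_single, one_mul]

theorem hp9_single_natCast (k : ℕ) :
    (HahnSeries.single (k : ℤ) (1 : R)) = HahnSeries.ofPowerSeries ℤ R (PowerSeries.X ^ k) := by
  rw [HahnSeries.ofPowerSeries_X_pow]

theorem hp9_Mon.big {x : LaurentSeries R} {n : ℤ} (h : hp9_Mon x n) : hp9_Big x n := by
  obtain ⟨p, _, rfl⟩ := h
  exact ⟨p, rfl⟩

theorem hp9_Mon.congr {x : LaurentSeries R} {n m : ℤ} (h : hp9_Mon x n) (hnm : n = m) :
    hp9_Mon x m := hnm ▸ h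

theorem hp9_Big.mono {x : LaurentSeries R} {n m : ℤ} (h : hp9_Big x n) (hmn : m ≤ n) :
    hp9_Big x m := by
  obtain ⟨p, rfl⟩ := h
  obtain ⟨k, hk⟩ := Int.le.dest hmn
  refine ⟨PowerSeries.X ^ k * p, ?_⟩
  rw [map_mul, ← hp9_single_natCast, ← mul_assoc, hp9_single_mul_single, hk]

theorem hp9_Big.add {x y : LaurentSeries R} {n : ℤ} (hx : hp9_Big x n) (hy : hp9_Big y n) :
    hp9_Big (x + y) n := by
  obtain ⟨p, rfl⟩ := hx
  obtain ⟨r, rfl⟩ := hy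
  exact ⟨p + r, by rw [map_add, mul_add]⟩

theorem hp9_Big.mul {x y : LaurentSeries R} {n m : ℤ} (hx : hp9_Big x n) (hy : hp9_Big y m) :
    hp9_Big (x * y) (n + m) := by
  obtain ⟨p, rfl⟩ := hx
  obtain ⟨r, rfl⟩ := hy
  refine ⟨p * r, ?_⟩
  rw [map_mul, ← hp9_single_mul_single]
  ring

theorem hp9_Big.neg {x : LaurentSeries R} {n : ℤ} (hx : hp9_Big x n) : hp9_Big (-x) n := by
  obtain ⟨p, rfl⟩ := hx
  exact ⟨-p, by rw [map_neg, mul_neg]⟩

theorem hp9_Big.sub {x y : LaurentSeries R} {n : ℤ} (hx : hp9_Big x n) (hy : hp9_Big y n) :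
    hp9_Big (x - y) n := by
  rw [sub_eq_add_neg]
  exact hx.add hy.neg

theorem hp9_Big_natCast (c : ℕ) : hp9_Big ((c : LaurentSeries R)) 0 := by
  refine ⟨(c : PowerSeries R), ?_⟩
  rw [map_natCast, HahnSeries.single_zero_one, one_mul]

theorem hp9_Big_ofNat (c : ℕ) [c.AtLeastTwo] : hp9_Big ((OfNat.ofNat c : LaurentSeries R)) 0 :=
  hp9_Big_natCast c

theorem hp9_Big.natCast_mul {x : LaurentSeries R} {n : ℤ} (c : ℕ) (hx : hp9_Big x n) :
    hp9_Big ((c : LaurentSeries R) * x) n := by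
  have := (hp9_Big_natCast (R := R) c).mul hx
  rwa [zero_add] at this

theorem hp9_Big.ofNat_mul {x : LaurentSeries R} {n : ℤ} (c : ℕ) [c.AtLeastTwo]
    (hx : hp9_Big x n) : hp9_Big ((OfNat.ofNat c : LaurentSeries R) * x) n :=
  hx.natCast_mul c

theorem hp9_Mon.mul {x y : LaurentSeries R} {n m : ℤ} (hx : hp9_Mon x n) (hy : hp9_Mon y m) :
    hp9_Mon (x * y) (n + m) := by
  obtain ⟨p, hp, rfl⟩ := hx
  obtain ⟨r, hr, rfl⟩ := hy
  refine ⟨p * r, by rw [map_mul, hp, hr, one_mul], ?_⟩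
  rw [map_mul, ← hp9_single_mul_single]
  ring

theorem hp9_Mon_one : hp9_Mon (1 : LaurentSeries R) 0 :=
  ⟨1, map_one _, by
    rw [map_one (HahnSeries.ofPowerSeries ℤ R), HahnSeries.single_zero_one, one_mul]⟩

theorem hp9_Mon_single (n : ℤ) : hp9_Mon (HahnSeries.single n (1 : R)) n :=
  ⟨1, map_one _, by rw [map_one (HahnSeries.ofPowerSeries ℤ R), mul_one]⟩

theorem hp9_Mon_ofPowerSeries {p : PowerSeries R} (hp : PowerSeries.constantCoeff p = 1) :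
    hp9_Mon (HahnSeries.ofPowerSeries ℤ R p) 0 :=
  ⟨p, hp, by rw [HahnSeries.single_zero_one, one_mul]⟩

theorem hp9_Mon.pow {x : LaurentSeries R} {n : ℤ} (hx : hp9_Mon x n) (k : ℕ) :
    hp9_Mon (x ^ k) (k * n) := by
  induction k with
  | zero => simpa using hp9_Mon_one (R := R)
  | succ k ih =>
    rw [pow_succ]
    exact (ih.mul hx).congr (by push_cast; ring)

theorem hp9_Mon.add_big {x y : LaurentSeries R} {n m : ℤ} (hx : hp9_Mon x n) (hy : hp9_Big y m)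
    (hnm : n < m) : hp9_Mon (x + y) n := by
  obtain ⟨p, hp, rfl⟩ := hx
  obtain ⟨r, rfl⟩ := hy.mono (Int.add_one_le_of_lt hnm)
  refine ⟨p + PowerSeries.X * r, by rw [map_add, map_mul, PowerSeries.constantCoeff_X, zero_mul,
    add_zero, hp], ?_⟩
  rw [map_add, map_mul, HahnSeries.ofPowerSeries_X, ← hp9_single_mul_single]
  ring

theorem hp9_Mon.exists_inv {x : LaurentSeries R} {n : ℤ} (hx : hp9_Mon x n) :
    ∃ y : LaurentSeries R, hp9_Mon y (-n) ∧ x * y = 1 := by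
  obtain ⟨p, hp, rfl⟩ := hx
  refine ⟨HahnSeries.single (-n) 1 * HahnSeries.ofPowerSeries ℤ R (p.invOfUnit 1),
    ⟨p.invOfUnit 1, by rw [PowerSeries.constantCoeff_invOfUnit]; simp, rfl⟩, ?_⟩
  calc HahnSeries.single n 1 * HahnSeries.ofPowerSeries ℤ R p
        * (HahnSeries.single (-n) 1 * HahnSeries.ofPowerSeries ℤ R (p.invOfUnit 1))
      = (HahnSeries.single n (1 : R) * HahnSeries.single (-n) 1)
        * HahnSeries.ofPowerSeries ℤ R (p * p.invOfUnit 1) := by rw [map_mul]; ring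
    _ = 1 := by
      rw [hp9_single_mul_single, add_neg_cancel, PowerSeries.mul_invOfUnit p 1 (by rw [hp]; rfl),
        map_one (HahnSeries.ofPowerSeries ℤ R), HahnSeries.single_zero_one, one_mul]

theorem hp9_Mon.coeff_self {x : LaurentSeries R} {n : ℤ} (hx : hp9_Mon x n) : x.coeff n = 1 := by
  obtain ⟨p, hp, rfl⟩ := hx
  rw [HahnSeries.coeff_single_mul, one_mul, sub_self, show (0 : ℤ) = ((0 : ℕ) : ℤ) from rfl,
    HahnSeries.ofPowerSeries_apply_coeff, PowerSeries.coeff_zero_eq_constantCoeff_apply, hp]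

theorem hp9_Big.coeff_of_lt {x : LaurentSeries R} {n k : ℤ} (hx : hp9_Big x n) (hk : k < n) :
    x.coeff k = 0 := by
  obtain ⟨p, rfl⟩ := hx
  rw [HahnSeries.coeff_single_mul, one_mul]
  exact ofPowerSeries_coeff_of_neg _ (by omega)

theorem hp9_Mon.ne_zero [Nontrivial R] {x : LaurentSeries R} {n : ℤ} (hx : hp9_Mon x n) :
    x ≠ 0 := by
  intro h
  have := hx.coeff_self
  rw [h] at this
  simp at this

theorem hp9_Mon.order [Nontrivial R] {x : LaurentSeries R} {n : ℤ} (hx : hp9_Mon x n) :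
    x.order = n := by
  have hc : x.coeff n ≠ 0 := by rw [hx.coeff_self]; exact one_ne_zero
  refine le_antisymm (HahnSeries.order_le_of_coeff_ne_zero hc) ?_
  by_contra hlt
  rw [not_le] at hlt
  exact hx.ne_zero (HahnSeries.coeff_order_eq_zero.mp (hx.big.coeff_of_lt hlt))

theorem hp9_Mon.leadingCoeff [Nontrivial R] {x : LaurentSeries R} {n : ℤ} (hx : hp9_Mon x n) :
    x.leadingCoeff = 1 := by
  rw [HahnSeries.leadingCoeff_eq, hx.order, hx.coeff_self]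

theorem hp9_Mon.coeffMap {S : Type*} [CommRing S] (f : R →+* S) {x : LaurentSeries R} {n : ℤ}
    (hx : hp9_Mon x n) : hp9_Mon (coeffMap f x) n := by
  obtain ⟨p, hp, rfl⟩ := hx
  refine ⟨p.map f, ?_, ?_⟩
  · rw [← PowerSeries.coeff_zero_eq_constantCoeff_apply, PowerSeries.coeff_map,
      PowerSeries.coeff_zero_eq_constantCoeff_apply, hp, map_one]
  · rw [map_mul, coeffMap_single, map_one, coeffMap_ofPowerSeries]

end Mon

/-! ### The substitution `q ↦ q^d` on power series -/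

section VPS

variable (R : Type*) [CommRing R]

/-- the power series `p(q^d)` -/
def hp9_VPS (d : ℕ) (p : PowerSeries R) : PowerSeries R :=
  PowerSeries.mk fun n => if d ∣ n then PowerSeries.coeff (n / d) p else 0

theorem hp9_V_ofPowerSeries {d : ℕ} (hd : d ≠ 0) (p : PowerSeries R) :
    V R d (HahnSeries.ofPowerSeries ℤ R p) = HahnSeries.ofPowerSeries ℤ R (hp9_VPS R d p) := by
  have : NeZero d := ⟨hd⟩
  rw [V_eq_qExpand]
  ext m
  rcases lt_or_ge m 0 with hm | hm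
  · rw [ofPowerSeries_coeff_of_neg _ hm]
    by_cases hdm : (d : ℤ) ∣ m
    · obtain ⟨c, rfl⟩ := hdm
      rw [qExpand_coeff_mul]
      refine ofPowerSeries_coeff_of_neg _ ?_
      have hd0 : (0 : ℤ) < d := by exact_mod_cast Nat.pos_of_ne_zero hd
      by_contra hc
      push Not at hc
      exact absurd hm (not_lt.mpr (mul_nonneg hd0.le hc))
    · exact qExpand_coeff_of_not_dvd d _ hdm
  · lift m to ℕ using hm
    rw [HahnSeries.ofPowerSeries_apply_coeff, hp9_VPS, PowerSeries.coeff_mk]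
    split_ifs with hdm
    · obtain ⟨c, rfl⟩ := hdm
      rw [Nat.mul_div_cancel_left c (Nat.pos_of_ne_zero hd)]
      push_cast
      rw [qExpand_coeff_mul, HahnSeries.ofPowerSeries_apply_coeff]
    · refine qExpand_coeff_of_not_dvd d _ ?_
      intro h
      exact hdm (Int.natCast_dvd_natCast.mp h)

theorem hp9_constantCoeff_VPS (d : ℕ) (p : PowerSeries R) :
    PowerSeries.constantCoeff (hp9_VPS R d p) = PowerSeries.constantCoeff p := by
  rw [← PowerSeries.coeff_zero_eq_constantCoeff_apply, hp9_VPS, PowerSeries.coeff_mk,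
    if_pos (dvd_zero d), Nat.zero_div, PowerSeries.coeff_zero_eq_constantCoeff_apply]

variable {R}

theorem hp9_V_single {d : ℕ} (hd : d ≠ 0) (n : ℤ) :
    V R d (HahnSeries.single n 1) = HahnSeries.single ((d : ℤ) * n) 1 := by
  have : NeZero d := ⟨hd⟩
  rw [V_eq_qExpand, qExpand_single]

theorem hp9_Mon.V {x : LaurentSeries R} {n : ℤ} (hx : hp9_Mon x n) {d : ℕ} (hd : d ≠ 0) :
    hp9_Mon (V R d x) ((d : ℤ) * n) := by
  obtain ⟨p, hp, rfl⟩ := hx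
  refine ⟨hp9_VPS R d p, by rw [hp9_constantCoeff_VPS, hp], ?_⟩
  rw [map_mul, hp9_V_single hd, hp9_V_ofPowerSeries R hd]

end VPS

/-! ### The formal objects -/

section Formal

variable (R : Type*) [CommRing R]

/-- `∏ (1 - q^n)^12` -/
def hp9_eta : LaurentSeries R :=
  HahnSeries.ofPowerSeries ℤ R ((etaProd ^ 12).map (Int.castRingHom R))

/-- `∏ (1 - q^n)^(-12)` -/
def hp9_etaInv : LaurentSeries R :=
  HahnSeries.ofPowerSeries ℤ R (((etaProd ^ 12).invOfUnit 1).map (Int.castRingHom R))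

theorem hp9_constantCoeff_eta12 : PowerSeries.constantCoeff (etaProd ^ 12) = 1 := by
  rw [map_pow, constantCoeff_etaProd, one_pow]

theorem hp9_eta_mul_etaInv : hp9_eta R * hp9_etaInv R = 1 := by
  rw [hp9_eta, hp9_etaInv, ← map_mul, ← map_mul,
    PowerSeries.mul_invOfUnit _ 1 (by rw [hp9_constantCoeff_eta12]; rfl), map_one,
    map_one (HahnSeries.ofPowerSeries ℤ R)]

theorem hp9_Mon_eta : hp9_Mon (hp9_eta R) 0 := by
  refine hp9_Mon_ofPowerSeries ?_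
  rw [← PowerSeries.coeff_zero_eq_constantCoeff_apply, PowerSeries.coeff_map,
    PowerSeries.coeff_zero_eq_constantCoeff_apply, hp9_constantCoeff_eta12, map_one]

theorem hp9_Mon_etaInv : hp9_Mon (hp9_etaInv R) 0 := by
  refine hp9_Mon_ofPowerSeries ?_
  rw [← PowerSeries.coeff_zero_eq_constantCoeff_apply, PowerSeries.coeff_map,
    PowerSeries.coeff_zero_eq_constantCoeff_apply, PowerSeries.constantCoeff_invOfUnit]
  simp

theorem hp9_Dq_eq : Dq R = HahnSeries.single 1 1 * hp9_eta R ^ 2 := by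
  have h24 : (etaProd : PowerSeries ℤ) ^ 24 = (etaProd ^ 12) ^ 2 := by ring
  rw [Dq, DqZ, dedekindEtaUnit, hp9_eta, h24, map_mul, map_mul, PowerSeries.map_X,
    HahnSeries.ofPowerSeries_X, map_pow, map_pow]

theorem hp9_Dd_eq {d : ℕ} (hd : d ≠ 0) :
    Dd R d = HahnSeries.single (d : ℤ) 1 * V R d (hp9_eta R) ^ 2 := by
  rw [Dd, hp9_Dq_eq, map_mul, map_pow, hp9_V_single hd, mul_one]

/-- `u = q⁻¹ ∏ ((1 - q^n)/(1 - q^{3n}))^12`, the Hauptmodul of level 3 -/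
def hp9_u : LaurentSeries R := HahnSeries.single (-1) 1 * hp9_eta R * V R 3 (hp9_etaInv R)

/-- `s = q² ∏ ((1 - q^n)(1 - q^{3n}))^12` -/
def hp9_s : LaurentSeries R := HahnSeries.single 2 1 * hp9_eta R * V R 3 (hp9_eta R)

/-- `w = u(q³)` -/
def hp9_w : LaurentSeries R := V R 3 (hp9_u R)

theorem hp9_V_eta_mul_etaInv (d : ℕ) : V R d (hp9_eta R) * V R d (hp9_etaInv R) = 1 := by
  rw [← map_mul, hp9_eta_mul_etaInv, map_one]

theorem hp9_u_mul_s : hp9_u R * hp9_s R = Dd R 1 := by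
  have h1 := hp9_V_eta_mul_etaInv R 3
  have h2 : (HahnSeries.single (-1 : ℤ) (1 : R)) * HahnSeries.single (2 : ℤ) 1
      = HahnSeries.single (1 : ℤ) 1 := by
    rw [hp9_single_mul_single]; norm_num
  rw [Dd, V_one, hp9_Dq_eq, hp9_u, hp9_s, ← h2]
  linear_combination (HahnSeries.single (-1) (1 : R) * HahnSeries.single 2 1 * hp9_eta R ^ 2) * h1

theorem hp9_s_sq : hp9_s R ^ 2 = Dd R 1 * Dd R 3 := by
  have h2 : (HahnSeries.single (2 : ℤ) (1 : R)) ^ 2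
      = HahnSeries.single (1 : ℤ) 1 * HahnSeries.single ((3 : ℕ) : ℤ) 1 := by
    rw [pow_two, hp9_single_mul_single, hp9_single_mul_single]; norm_num
  rw [Dd, V_one, hp9_Dq_eq, hp9_Dd_eq R (by norm_num : 3 ≠ 0), hp9_s, mul_pow, mul_pow, h2]
  ring

theorem hp9_s_eq : hp9_s R = hp9_u R * Dd R 3 := by
  have h1 := hp9_V_eta_mul_etaInv R 3
  have h2 : (HahnSeries.single (-1 : ℤ) (1 : R)) * HahnSeries.single ((3 : ℕ) : ℤ) 1
      = HahnSeries.single (2 : ℤ) 1 := by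
    rw [hp9_single_mul_single]; norm_num
  rw [hp9_Dd_eq R (by norm_num : 3 ≠ 0), hp9_u, hp9_s, ← h2]
  linear_combination (-(HahnSeries.single (-1) (1 : R) * HahnSeries.single ((3 : ℕ) : ℤ) 1
    * hp9_eta R * V R 3 (hp9_eta R))) * h1

theorem hp9_u_sq : hp9_u R ^ 2 * Dd R 3 = Dd R 1 := by
  rw [pow_two, mul_assoc, ← hp9_s_eq, hp9_u_mul_s]

theorem hp9_w_sq : hp9_w R ^ 2 * Dd R 9 = Dd R 3 := by
  have h := congrArg (V R 3) (hp9_u_sq R)
  rw [map_mul, map_pow, Dd, Dd, V_V R (by norm_num) (by norm_num),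
    V_V R (by norm_num) (by norm_num)] at h
  exact h

theorem hp9_Mon_u : hp9_Mon (hp9_u R) (-1) := by
  have h := ((hp9_Mon_single (R := R) (-1)).mul (hp9_Mon_eta R)).mul
    ((hp9_Mon_etaInv R).V (d := 3) (by norm_num))
  exact h.congr (by norm_num)

theorem hp9_Mon_w : hp9_Mon (hp9_w R) (-3) := by
  have h := (hp9_Mon_u R).V (d := 3) (by norm_num)
  exact h.congr (by norm_num)

theorem hp9_Mon_s : hp9_Mon (hp9_s R) 2 := by
  have h := ((hp9_Mon_single (R := R) 2).mul (hp9_Mon_eta R)).mul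
    ((hp9_Mon_eta R).V (d := 3) (by norm_num))
  exact h.congr (by norm_num)

variable {R}

theorem hp9_coeffMap_eta {S : Type*} [CommRing S] (f : R →+* S) :
    coeffMap f (hp9_eta R) = hp9_eta S := by
  rw [hp9_eta, coeffMap_ofPowerSeries,
    ← RingHom.comp_apply (PowerSeries.map f) (PowerSeries.map (Int.castRingHom R)),
    ← PowerSeries.map_comp, RingHom.ext_int (f.comp (Int.castRingHom R)) (Int.castRingHom S)]
  rfl

theorem hp9_coeffMap_etaInv {S : Type*} [CommRing S] (f : R →+* S) :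
    coeffMap f (hp9_etaInv R) = hp9_etaInv S := by
  rw [hp9_etaInv, coeffMap_ofPowerSeries,
    ← RingHom.comp_apply (PowerSeries.map f) (PowerSeries.map (Int.castRingHom R)),
    ← PowerSeries.map_comp, RingHom.ext_int (f.comp (Int.castRingHom R)) (Int.castRingHom S)]
  rfl

theorem hp9_coeffMap_u {S : Type*} [CommRing S] (f : R →+* S) :
    coeffMap f (hp9_u R) = hp9_u S := by
  rw [hp9_u, map_mul, map_mul, coeffMap_single, map_one, coeffMap_V, hp9_coeffMap_eta,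
    hp9_coeffMap_etaInv, hp9_u]

theorem hp9_coeffMap_w {S : Type*} [CommRing S] (f : R →+* S) :
    coeffMap f (hp9_w R) = hp9_w S := by
  rw [hp9_w, coeffMap_V, hp9_coeffMap_u, hp9_w]

theorem hp9_coeffMap_s {S : Type*} [CommRing S] (f : R →+* S) :
    coeffMap f (hp9_s R) = hp9_s S := by
  rw [hp9_s, map_mul, map_mul, coeffMap_single, map_one, coeffMap_V, hp9_coeffMap_eta, hp9_s]

end Formal

/-! ### Level 3: the Sturm bound identities over `ℚ` -/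

section Level3Q

/-- integral power series as rational Laurent series -/
def hp9_L : PowerSeries ℤ →+* LaurentSeries ℚ :=
  (HahnSeries.ofPowerSeries ℤ ℚ).comp (PowerSeries.map (Int.castRingHom ℚ))

theorem hp9_L_apply (p : PowerSeries ℤ) :
    hp9_L p = HahnSeries.ofPowerSeries ℤ ℚ (p.map (Int.castRingHom ℚ)) := rfl

theorem hp9_L_coeff (p : PowerSeries ℤ) (n : ℕ) :
    (hp9_L p).coeff (n : ℤ) = ((PowerSeries.coeff n p : ℤ) : ℚ) := by
  rw [hp9_L_apply, HahnSeries.ofPowerSeries_apply_coeff, PowerSeries.coeff_map]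
  rfl

theorem hp9_L_E4 : hp9_L eisenstein4 = E4q ℚ := rfl

theorem hp9_L_Dq : hp9_L DqZ = Dd ℚ 1 := by
  rw [Dd, V_one]
  rfl

theorem hp9_L_V3 (p : PowerSeries ℤ) : hp9_L (hp9_V3 p) = V ℚ 3 (hp9_L p) := by
  rw [hp9_L_apply, hp9_L_apply, hp9_V_ofPowerSeries ℚ (by norm_num : 3 ≠ 0)]
  congr 1
  ext n
  rw [PowerSeries.coeff_map, hp9_V3, hp9_VPS, PowerSeries.coeff_mk, PowerSeries.coeff_mk]
  split_ifs
  · rw [PowerSeries.coeff_map]
  · simp

theorem hp9_L_DqV : hp9_L (hp9_V3 DqZ) = Dd ℚ 3 := by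
  rw [hp9_L_V3]
  rfl

theorem hp9_L_C (c : ℤ) : hp9_L (PowerSeries.C c) = HahnSeries.C (c : ℚ) := by
  rw [hp9_L_apply, PowerSeries.map_C, HahnSeries.ofPowerSeries_C]
  rfl

theorem hp9_qForms_sub {M : ℕ} [NeZero M] {k : ℤ} {g g' : LaurentSeries ℚ}
    (hg : g ∈ qForms M k) (hg' : g' ∈ qForms M k) : g - g' ∈ qForms M k := by
  have h : g - g' = g + HahnSeries.C (-1 : ℚ) * g' := by
    rw [map_neg, map_one, neg_one_mul, sub_eq_add_neg]
  rw [h]
  exact qForms_add hg (qForms_const_mul (-1) hg')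

theorem hp9_index_le : (CongruenceSubgroup.Gamma0 3).index ≤ 4 := by
  have h := index_Gamma0_le_psi 3 (by norm_num)
  rwa [psi_prime Nat.prime_three] at h

/-- the Sturm bound at level 3 -/
theorem hp9_sturm (k : ℕ) {g : LaurentSeries ℚ} (hg : g ∈ qForms 3 ((12 * k : ℕ) : ℤ))
    (h : ∀ n : ℕ, n ≤ 4 * k → g.coeff (n : ℤ) = 0) : g = 0 := by
  refine qForms_sturm hg fun n hn => h n ?_
  have h1 : (((12 * k : ℕ) : ℤ) * ((CongruenceSubgroup.Gamma0 3).index : ℤ)).toNat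
      = 12 * (k * (CongruenceSubgroup.Gamma0 3).index) := by
    rw [← Nat.cast_mul, Int.toNat_natCast]
    ring
  rw [h1, Nat.mul_div_cancel_left _ (by norm_num)] at hn
  have := hp9_index_le
  nlinarith

/-- `81 E₄(q³) - E₄(q)` -/
def hp9_A : LaurentSeries ℚ := HahnSeries.C (81 : ℚ) * V ℚ 3 (E4q ℚ) - E4q ℚ

/-- `E₄(q) - E₄(q³)` -/
def hp9_B : LaurentSeries ℚ := E4q ℚ - V ℚ 3 (E4q ℚ)

theorem hp9_E4_mem : E4q ℚ ∈ qForms 3 4 := by
  have h := E4_mem_qForms (M := 3) (d := 1) (one_dvd 3)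
  rwa [V_one] at h

theorem hp9_A_mem : hp9_A ∈ qForms 3 4 :=
  hp9_qForms_sub (qForms_const_mul 81 (E4_mem_qForms (dvd_refl 3))) hp9_E4_mem

theorem hp9_B_mem : hp9_B ∈ qForms 3 4 :=
  hp9_qForms_sub hp9_E4_mem (E4_mem_qForms (dvd_refl 3))

theorem hp9_L_A : hp9_L hp9_AZ = hp9_A := by
  rw [hp9_AZ, map_sub, map_mul, hp9_L_C, hp9_L_V3, hp9_L_E4, hp9_A]
  norm_num

theorem hp9_L_B : hp9_L hp9_BZ = hp9_B := by
  rw [hp9_BZ, map_sub, hp9_L_V3, hp9_L_E4, hp9_B]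

theorem hp9_ABB_mem : hp9_A * hp9_B * hp9_B ∈ qForms 3 12 :=
  sd_qForms_congr (by norm_num) (qForms_mul (qForms_mul hp9_A_mem hp9_B_mem) hp9_B_mem)

theorem hp9_AAB_mem : hp9_A * (hp9_A * hp9_B) ∈ qForms 3 12 :=
  sd_qForms_congr (by norm_num) (qForms_mul hp9_A_mem (qForms_mul hp9_A_mem hp9_B_mem))

/-- `A B² - 27·80·240² Δ(q³)` -/
def hp9_Y : LaurentSeries ℚ :=
  hp9_A * hp9_B * hp9_B - HahnSeries.C (124416000 : ℚ) * Dd ℚ 3

theorem hp9_Y_mem : hp9_Y ∈ qForms 3 12 :=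
  hp9_qForms_sub hp9_ABB_mem (qForms_const_mul _ (Delta_mem_qForms (dvd_refl 3)))

theorem hp9_L_Y : hp9_L hp9_YZ = hp9_Y := by
  rw [hp9_YZ, map_sub, map_mul, map_mul, map_mul, hp9_L_C, hp9_L_DqV, hp9_L_A, hp9_L_B, hp9_Y]
  norm_num

/-- the weight 12 relation -/
theorem hp9_XR :
    HahnSeries.C (240 : ℚ) * (hp9_A * (hp9_A * hp9_B))
      - HahnSeries.C (2160 : ℚ) * (hp9_A * hp9_B * hp9_B)
      + HahnSeries.C (268738560000 : ℚ) * Dd ℚ 3 - HahnSeries.C (368640000 : ℚ) * Dd ℚ 1 = 0 := by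
  have hL : hp9_L hp9_XRZ = HahnSeries.C (240 : ℚ) * (hp9_A * (hp9_A * hp9_B))
      - HahnSeries.C (2160 : ℚ) * (hp9_A * hp9_B * hp9_B)
      + HahnSeries.C (268738560000 : ℚ) * Dd ℚ 3 - HahnSeries.C (368640000 : ℚ) * Dd ℚ 1 := by
    rw [hp9_XRZ, map_sub, map_add, map_sub, map_mul, map_mul, map_mul, map_mul, map_mul,
      map_mul, map_mul, map_mul, hp9_L_C, hp9_L_C, hp9_L_C, hp9_L_C, hp9_L_DqV, hp9_L_Dq,
      hp9_L_A, hp9_L_B]
    norm_num
  rw [← hL]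
  refine hp9_sturm 1 ?_ fun n hn => ?_
  · rw [hL]
    refine sd_qForms_congr (by norm_num) (hp9_qForms_sub (qForms_add (hp9_qForms_sub
      (qForms_const_mul _ hp9_AAB_mem) (qForms_const_mul _ hp9_ABB_mem))
      (qForms_const_mul _ (Delta_mem_qForms (dvd_refl 3))))
      (qForms_const_mul _ (Delta_mem_qForms (one_dvd 3))))
  · rw [hp9_L_coeff, hp9_coeff_XR (by omega)]
    rfl

/-- the weight 24 relation -/
theorem hp9_XS :
    hp9_Y * hp9_Y - HahnSeries.C (21233664000000 : ℚ) * (Dd ℚ 1 * Dd ℚ 3) = 0 := by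
  have hL : hp9_L hp9_XSZ
      = hp9_Y * hp9_Y - HahnSeries.C (21233664000000 : ℚ) * (Dd ℚ 1 * Dd ℚ 3) := by
    rw [hp9_XSZ, map_sub, map_mul, map_mul, map_mul, hp9_L_C, hp9_L_DqV, hp9_L_Dq, hp9_L_Y]
    norm_num
  rw [← hL]
  refine hp9_sturm 2 ?_ fun n hn => ?_
  · rw [hL]
    refine sd_qForms_congr (by norm_num) (hp9_qForms_sub (qForms_mul hp9_Y_mem hp9_Y_mem)
      (qForms_const_mul _ (qForms_mul (Delta_mem_qForms (one_dvd 3))
        (Delta_mem_qForms (dvd_refl 3)))))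
  · rw [hp9_L_coeff, hp9_coeff_XS (by omega)]
    rfl

theorem hp9_charZero : CharZero (LaurentSeries ℚ) :=
  charZero_of_injective_algebraMap (algebraMap ℚ (LaurentSeries ℚ)).injective

theorem hp9_C_ofNat (c : ℕ) [c.AtLeastTwo] :
    HahnSeries.C (OfNat.ofNat c : ℚ) = (OfNat.ofNat c : LaurentSeries ℚ) :=
  map_ofNat HahnSeries.C c

theorem hp9_coeff_ofNat_mul (c : ℕ) [c.AtLeastTwo] (x : LaurentSeries ℚ) (n : ℤ) :
    ((OfNat.ofNat c : LaurentSeries ℚ) * x).coeff n = (OfNat.ofNat c : ℚ) * x.coeff n := by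
  rw [← hp9_C_ofNat, sd_coeff_C_mul]

/-- the square root: `A B² - 27·80·240² Δ(q³) = 80·240² (η(q) η(q³))^12` -/
theorem hp9_Y_eq : hp9_Y = 4608000 * hp9_s ℚ := by
  have h1 := hp9_XS
  rw [hp9_C_ofNat, ← hp9_s_sq] at h1
  have h2 : (hp9_Y - 4608000 * hp9_s ℚ) * (hp9_Y + 4608000 * hp9_s ℚ) = 0 := by
    linear_combination h1
  rcases mul_eq_zero.mp h2 with h | h
  · exact sub_eq_zero.mp h
  · exfalso
    have h3 := congrArg (fun x : LaurentSeries ℚ => x.coeff ((2 : ℕ) : ℤ)) h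
    simp only [HahnSeries.coeff_add, HahnSeries.coeff_zero] at h3
    rw [← hp9_L_Y, hp9_L_coeff, hp9_coeff_Y, hp9_coeff_ofNat_mul] at h3
    have h4 : (hp9_s ℚ).coeff ((2 : ℕ) : ℤ) = 1 := (hp9_Mon_s ℚ).coeff_self
    rw [h4] at h3
    norm_num at h3

/-- **Level 3.** `j(q) u³ = (u + 27)(u + 243)³` and `j(q³) u = (u + 27)(u + 3)³` over `ℚ`. -/
theorem hp9_level3_rat :
    jd ℚ 1 * hp9_u ℚ ^ 3 = (hp9_u ℚ + 27) * (hp9_u ℚ + 243) ^ 3 ∧
    jd ℚ 3 * hp9_u ℚ = (hp9_u ℚ + 27) * (hp9_u ℚ + 3) ^ 3 := by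
  have := hp9_charZero
  have hD1 : Dd ℚ 1 = hp9_u ℚ * hp9_s ℚ := (hp9_u_mul_s ℚ).symm
  have hD3 : hp9_s ℚ = hp9_u ℚ * Dd ℚ 3 := hp9_s_eq ℚ
  have hj1 : jd ℚ 1 * Dd ℚ 1 = E4q ℚ ^ 3 := by
    have := sd_jd_mul_Dd 1
    rwa [V_one] at this
  have hj3 : jd ℚ 3 * Dd ℚ 3 = V ℚ 3 (E4q ℚ) ^ 3 := sd_jd_mul_Dd 3
  have hY : hp9_A * hp9_B * hp9_B - 124416000 * Dd ℚ 3 = 4608000 * hp9_s ℚ := by
    rw [← hp9_Y_eq, hp9_Y, hp9_C_ofNat]
  have hXR : 240 * (hp9_A * (hp9_A * hp9_B)) - 2160 * (hp9_A * hp9_B * hp9_B)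
      + 268738560000 * Dd ℚ 3 - 368640000 * Dd ℚ 1 = 0 := by
    have := hp9_XR
    rwa [hp9_C_ofNat, hp9_C_ofNat, hp9_C_ofNat, hp9_C_ofNat] at this
  have hA : hp9_A = 81 * V ℚ 3 (E4q ℚ) - E4q ℚ := by rw [hp9_A, hp9_C_ofNat]
  have hB : hp9_B = E4q ℚ - V ℚ 3 (E4q ℚ) := rfl
  have hs0 : hp9_s ℚ ≠ 0 := (hp9_Mon_s ℚ).ne_zero
  have hu0 : hp9_u ℚ ≠ 0 := (hp9_Mon_u ℚ).ne_zero
  have hu27 : hp9_u ℚ + 27 ≠ 0 :=
    ((hp9_Mon_u ℚ).add_big (hp9_Big_ofNat 27) (by norm_num)).ne_zero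
  have hu243 : hp9_u ℚ + 243 ≠ 0 :=
    ((hp9_Mon_u ℚ).add_big (hp9_Big_ofNat 243) (by norm_num)).ne_zero
  have hD30 : Dd ℚ 3 ≠ 0 := sd_Dd_ne_zero (by norm_num)
  generalize hp9_u ℚ = u at *
  generalize hp9_s ℚ = s at *
  generalize Dd ℚ 1 = D1 at *
  generalize Dd ℚ 3 = D3 at *
  generalize jd ℚ 1 = j1 at *
  generalize jd ℚ 3 = j3 at *
  generalize E4q ℚ = E at *
  generalize V ℚ 3 E = E' at *
  generalize hp9_A = A at *
  generalize hp9_B = B at *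
  have h1 : 4608000 * s * (u + 27) = u * A * B ^ 2 := by
    linear_combination (-u) * hY + 124416000 * hD3
  have h2 : 1536000 * s * (u + 27) = A ^ 2 * B := by
    linear_combination (-1 / 240) * hXR - 9 * hY - 1536000 * hD1
  have h3 : A * B ≠ 0 := by
    intro h
    have h0 : 1536000 * s * (u + 27) = 0 := by
      rw [h2]
      linear_combination A * h
    have hc : (1536000 : LaurentSeries ℚ) ≠ 0 := by norm_num
    exact mul_ne_zero (mul_ne_zero hc hs0) hu27 h0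
  have h4 : 3 * A = u * B := by
    apply mul_left_cancel₀ h3
    linear_combination (-3) * h2 + h1
  have hE' : E' * (u + 243) = E * (u + 3) := by
    rw [hA, hB] at h4
    linear_combination h4
  have hBE : B * (u + 243) = 240 * E := by
    rw [hB]
    linear_combination (-1) * hE'
  have hAE : A * (u + 243) = 80 * u * E := by
    rw [hA]
    linear_combination 81 * hE'
  have h5 : s * (u + 27) * (u + 243) ^ 3 = u ^ 2 * E ^ 3 := by
    linear_combination (1 / 1536000) * ((u + 243) ^ 3 * h2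
      + (A * (u + 243) + 80 * u * E) * (B * (u + 243)) * hAE + (80 * u * E) ^ 2 * hBE)
  constructor
  · apply mul_left_cancel₀ hs0
    linear_combination u ^ 2 * hj1 - h5 - j1 * u ^ 2 * hD1
  · have hX : D3 * (u + 243) ^ 3 * u ≠ 0 :=
      mul_ne_zero (mul_ne_zero hD30 (pow_ne_zero 3 hu243)) hu0
    apply mul_left_cancel₀ hX
    linear_combination u ^ 2 * (u + 243) ^ 3 * hj3
      + u ^ 2 * ((E' * (u + 243)) ^ 2 + E' * (u + 243) * (E * (u + 3)) + (E * (u + 3)) ^ 2) * hE'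
      - (u + 3) ^ 3 * h5 + (u + 27) * (u + 243) ^ 3 * (u + 3) ^ 3 * hD3

end Level3Q

/-! ### Level 3 over any ring -/

section Level3

theorem hp9_coeffMap_injective {R S : Type*} [CommRing R] [CommRing S] (f : R →+* S)
    (hf : Function.Injective f) : Function.Injective (coeffMap f) := by
  intro x y h
  ext k
  apply hf
  have := congrArg (fun z : LaurentSeries S => z.coeff k) h
  simpa using this

variable (R : Type*) [CommRing R]

/-- **Level 3, first identity**: `j(q) u³ = (u + 27)(u + 243)³`. -/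
theorem hp9_I1 : jd R 1 * hp9_u R ^ 3 = (hp9_u R + 27) * (hp9_u R + 243) ^ 3 := by
  have hZ : jd ℤ 1 * hp9_u ℤ ^ 3 = (hp9_u ℤ + 27) * (hp9_u ℤ + 243) ^ 3 := by
    apply hp9_coeffMap_injective (Int.castRingHom ℚ) Int.cast_injective
    simp only [map_mul, map_pow, map_add, coeffMap_jd, hp9_coeffMap_u, map_ofNat]
    exact hp9_level3_rat.1
  have := congrArg (coeffMap (Int.castRingHom R)) hZ
  simpa only [map_mul, map_pow, map_add, coeffMap_jd, hp9_coeffMap_u, map_ofNat] using this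

/-- **Level 3, second identity**: `j(q³) u = (u + 27)(u + 3)³`. -/
theorem hp9_I2 : jd R 3 * hp9_u R = (hp9_u R + 27) * (hp9_u R + 3) ^ 3 := by
  have hZ : jd ℤ 3 * hp9_u ℤ = (hp9_u ℤ + 27) * (hp9_u ℤ + 3) ^ 3 := by
    apply hp9_coeffMap_injective (Int.castRingHom ℚ) Int.cast_injective
    simp only [map_mul, map_pow, map_add, coeffMap_jd, hp9_coeffMap_u, map_ofNat]
    exact hp9_level3_rat.2
  have := congrArg (coeffMap (Int.castRingHom R)) hZ
  simpa only [map_mul, map_pow, map_add, coeffMap_jd, hp9_coeffMap_u, map_ofNat] using this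

theorem hp9_V_jd {d e : ℕ} (hd : d ≠ 0) (he : e ≠ 0) : V R d (jd R e) = jd R (d * e) := by
  rw [jd, jd, V_V R hd he]

/-- `j(q³) w³ = (w + 27)(w + 243)³` -/
theorem hp9_I1w : jd R 3 * hp9_w R ^ 3 = (hp9_w R + 27) * (hp9_w R + 243) ^ 3 := by
  have := congrArg (V R 3) (hp9_I1 R)
  simpa only [map_mul, map_pow, map_add, map_ofNat, hp9_V_jd R (by norm_num : 3 ≠ 0)
    (by norm_num : 1 ≠ 0), hp9_w, Nat.mul_one] using this

/-- `j(q⁹) w = (w + 27)(w + 3)³` -/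
theorem hp9_I2w : jd R 9 * hp9_w R = (hp9_w R + 27) * (hp9_w R + 3) ^ 3 := by
  have := congrArg (V R 3) (hp9_I2 R)
  simpa only [map_mul, map_pow, map_add, map_ofNat, hp9_V_jd R (by norm_num : 3 ≠ 0)
    (by norm_num : 3 ≠ 0), hp9_w, show 3 * 3 = 9 from rfl] using this

end Level3

/-! ### Level 9 -/

section Level9

theorem hp9_Mon.sub_big {R : Type*} [CommRing R] {x y : LaurentSeries R} {n m : ℤ}
    (hx : hp9_Mon x n) (hy : hp9_Big y m) (hnm : n < m) : hp9_Mon (x - y) n := by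
  rw [sub_eq_add_neg]
  exact hx.add_big hy.neg hnm

/-- pure algebra: the curve `X₀(9)` in the coordinates `(u, w)` and its parametrisation -/
theorem hp9_alg {R : Type*} [CommRing R] (u w : R)
    (hG : u ^ 3 * w ^ 2 + 36 * u ^ 2 * w ^ 2 + 729 * u ^ 2 * w + 270 * u * w ^ 2 + 26244 * u * w
      + 531441 * u - w ^ 3 = 0) :
    w * (u * w - 243 * u + 9 * w + 729) ^ 3
      = (u ^ 2 * w + 18 * u * w + 27 * w + 1458 * u)
        * ((u ^ 2 * w + 18 * u * w + 27 * w + 1458 * u) ^ 2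
          + 9 * (u ^ 2 * w + 18 * u * w + 27 * w + 1458 * u) * (u * w - 243 * u + 9 * w + 729)
          + 27 * (u * w - 243 * u + 9 * w + 729) ^ 2) ∧
    u * (u * w - 243 * u + 9 * w + 729)
        * ((u ^ 2 * w + 18 * u * w + 27 * w + 1458 * u) ^ 2
          + 9 * (u ^ 2 * w + 18 * u * w + 27 * w + 1458 * u) * (u * w - 243 * u + 9 * w + 729)
          + 27 * (u * w - 243 * u + 9 * w + 729) ^ 2)
      = (u ^ 2 * w + 18 * u * w + 27 * w + 1458 * u) ^ 3 := by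
  constructor
  · linear_combination
      (-(u ^ 3 * w) - 27 * u ^ 2 * w - 1458 * u ^ 2 - 243 * u * w - 729 * w - 39366) * hG
  · linear_combination (-243 * u ^ 3 - 5103 * u ^ 2 - 6561 * u + 19683) * hG

variable (R : Type*) [CommRing R]

/-- numerator of the level 9 Hauptmodul -/
def hp9_N : LaurentSeries R :=
  hp9_u R ^ 2 * hp9_w R + 18 * hp9_u R * hp9_w R + 27 * hp9_w R + 1458 * hp9_u R

/-- denominator of the level 9 Hauptmodul -/
def hp9_D : LaurentSeries R := hp9_u R * hp9_w R - 243 * hp9_u R + 9 * hp9_w R + 729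

theorem hp9_Mon_N : hp9_Mon (hp9_N R) (-5) := by
  have hu := hp9_Mon_u R
  have hw := hp9_Mon_w R
  have h1 : hp9_Mon (hp9_u R ^ 2 * hp9_w R) (-5) := ((hu.pow 2).mul hw).congr (by norm_num)
  have h2 : hp9_Big (18 * hp9_u R * hp9_w R) (-4) :=
    ((hu.big.ofNat_mul 18).mul hw.big).mono (by norm_num)
  have h3 : hp9_Big (27 * hp9_w R) (-4) := (hw.big.ofNat_mul 27).mono (by norm_num)
  have h4 : hp9_Big (1458 * hp9_u R) (-4) := (hu.big.ofNat_mul 1458).mono (by norm_num)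
  exact ((h1.add_big h2 (by norm_num)).add_big h3 (by norm_num)).add_big h4 (by norm_num)

theorem hp9_Mon_D : hp9_Mon (hp9_D R) (-4) := by
  have hu := hp9_Mon_u R
  have hw := hp9_Mon_w R
  have h1 : hp9_Mon (hp9_u R * hp9_w R) (-4) := (hu.mul hw).congr (by norm_num)
  have h2 : hp9_Big (243 * hp9_u R) (-3) := (hu.big.ofNat_mul 243).mono (by norm_num)
  have h3 : hp9_Big (9 * hp9_w R) (-3) := hw.big.ofNat_mul 9
  have h4 : hp9_Big (729 : LaurentSeries R) (-3) := (hp9_Big_ofNat 729).mono (by norm_num)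
  exact ((h1.sub_big h2 (by norm_num)).add_big h3 (by norm_num)).add_big h4 (by norm_num)

variable {R} in
theorem hp9_coeffMap_N {S : Type*} [CommRing S] (f : R →+* S) :
    coeffMap f (hp9_N R) = hp9_N S := by
  simp only [hp9_N, map_add, map_mul, map_pow, map_ofNat, hp9_coeffMap_u, hp9_coeffMap_w]

variable {R} in
theorem hp9_coeffMap_D {S : Type*} [CommRing S] (f : R →+* S) :
    coeffMap f (hp9_D R) = hp9_D S := by
  simp only [hp9_D, map_add, map_sub, map_mul, map_ofNat, hp9_coeffMap_u, hp9_coeffMap_w]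

/-- the Hauptmodul of level 9 as an integral Laurent series -/
def hp9_hZ : LaurentSeries ℤ := hp9_N ℤ * Ring.inverse (hp9_D ℤ)

/-- the Hauptmodul of level 9 over any ring -/
def hp9_h : LaurentSeries R := coeffMap (Int.castRingHom R) hp9_hZ

theorem hp9_isUnit_D : IsUnit (hp9_D ℤ) := by
  obtain ⟨y, _, hy⟩ := (hp9_Mon_D ℤ).exists_inv
  exact IsUnit.of_mul_eq_one y hy

theorem hp9_hZ_mul_D : hp9_hZ * hp9_D ℤ = hp9_N ℤ := by
  rw [hp9_hZ, mul_assoc, Ring.inverse_mul_cancel _ hp9_isUnit_D, mul_one]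

theorem hp9_Mon_hZ : hp9_Mon hp9_hZ (-1) := by
  obtain ⟨y, hy1, hy⟩ := (hp9_Mon_D ℤ).exists_inv
  have hinv : Ring.inverse (hp9_D ℤ) = y := by
    calc Ring.inverse (hp9_D ℤ) = Ring.inverse (hp9_D ℤ) * (hp9_D ℤ * y) := by rw [hy, mul_one]
      _ = y := by rw [← mul_assoc, Ring.inverse_mul_cancel _ hp9_isUnit_D, one_mul]
  rw [hp9_hZ, hinv]
  exact ((hp9_Mon_N ℤ).mul hy1).congr (by norm_num)

theorem hp9_h_int : hp9_h ℤ = hp9_hZ := by
  rw [hp9_h, coeffMap_congr (show Int.castRingHom ℤ = RingHom.id ℤ from RingHom.ext_int _ _),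
    coeffMap_id]

variable {R} in
theorem hp9_coeffMap_h {S : Type*} [CommRing S] (f : R →+* S) :
    coeffMap f (hp9_h R) = hp9_h S := by
  rw [hp9_h, coeffMap_coeffMap, hp9_h,
    coeffMap_congr (RingHom.ext_int (f.comp (Int.castRingHom R)) (Int.castRingHom S))]

/-- `h · (u w - 243 u + 9 w + 729) = u² w + 18 u w + 27 w + 1458 u` -/
theorem hp9_h_mul_D : hp9_h R * hp9_D R = hp9_N R := by
  have := congrArg (coeffMap (Int.castRingHom R)) hp9_hZ_mul_D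
  rwa [map_mul, hp9_coeffMap_D, hp9_coeffMap_N] at this

/-- `h = q⁻¹ + O(1)` -/
theorem hp9_Mon_h : hp9_Mon (hp9_h R) (-1) := hp9_Mon_hZ.coeffMap _

theorem hp9_h_order [Nontrivial R] : (hp9_h R).order = -1 := (hp9_Mon_h R).order

theorem hp9_h_leadingCoeff [Nontrivial R] : (hp9_h R).leadingCoeff = 1 :=
  (hp9_Mon_h R).leadingCoeff

theorem hp9_h_coeff_neg_one : (hp9_h R).coeff (-1) = 1 := (hp9_Mon_h R).coeff_self

theorem hp9_h_coeff_of_lt {k : ℤ} (hk : k < -1) : (hp9_h R).coeff k = 0 :=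
  (hp9_Mon_h R).big.coeff_of_lt hk

/-- the parametrisation of `(u, w)` by `h`, over `ℤ` -/
theorem hp9_level9_int :
    hp9_u ℤ * (hp9_hZ ^ 2 + 9 * hp9_hZ + 27) = hp9_hZ ^ 3 ∧
    hp9_w ℤ = hp9_hZ * (hp9_hZ ^ 2 + 9 * hp9_hZ + 27) ∧
    hp9_u ℤ * hp9_w ℤ = hp9_hZ ^ 4 := by
  have hI2 := hp9_I2 ℤ
  have hI1w := hp9_I1w ℤ
  have hne : hp9_u ℤ * hp9_w ℤ - 729 ≠ 0 := by
    have h1 : hp9_Mon (hp9_u ℤ * hp9_w ℤ) (-4) :=
      ((hp9_Mon_u ℤ).mul (hp9_Mon_w ℤ)).congr (by norm_num)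
    exact (h1.sub_big (hp9_Big_ofNat 729) (by norm_num)).ne_zero
  have hD0 : hp9_D ℤ ≠ 0 := (hp9_Mon_D ℤ).ne_zero
  have hc0 : hp9_hZ ^ 2 + 9 * hp9_hZ + 27 ≠ 0 := by
    have h1 : hp9_Mon (hp9_hZ ^ 2) (-2) := (hp9_Mon_hZ.pow 2).congr (by norm_num)
    have h2 : hp9_Big (9 * hp9_hZ) (-1) := hp9_Mon_hZ.big.ofNat_mul 9
    have h3 : hp9_Big (27 : LaurentSeries ℤ) (-1) := (hp9_Big_ofNat 27).mono (by norm_num)
    exact ((h1.add_big h2 (by norm_num)).add_big h3 (by norm_num)).ne_zero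
  have hND := hp9_hZ_mul_D
  have hNdef : hp9_N ℤ
      = hp9_u ℤ ^ 2 * hp9_w ℤ + 18 * hp9_u ℤ * hp9_w ℤ + 27 * hp9_w ℤ + 1458 * hp9_u ℤ := rfl
  have hDdef : hp9_D ℤ = hp9_u ℤ * hp9_w ℤ - 243 * hp9_u ℤ + 9 * hp9_w ℤ + 729 := rfl
  generalize hp9_u ℤ = u at *
  generalize hp9_w ℤ = w at *
  generalize jd ℤ 3 = j3 at *
  generalize hp9_hZ = h at *
  have hR : (u + 27) * (u + 3) ^ 3 * w ^ 3 = u * ((w + 27) * (w + 243) ^ 3) := by
    linear_combination (-(w ^ 3)) * hI2 + u * hI1w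
  have hG : u ^ 3 * w ^ 2 + 36 * u ^ 2 * w ^ 2 + 729 * u ^ 2 * w + 270 * u * w ^ 2
      + 26244 * u * w + 531441 * u - w ^ 3 = 0 := by
    apply mul_left_cancel₀ hne
    linear_combination hR
  obtain ⟨ha1, ha2⟩ := hp9_alg u w hG
  rw [← hNdef, ← hDdef] at ha1 ha2
  generalize hp9_N ℤ = N at *
  generalize hp9_D ℤ = D at *
  subst hND
  have hw : w = h * (h ^ 2 + 9 * h + 27) := by
    apply mul_left_cancel₀ (pow_ne_zero 3 hD0)
    linear_combination ha1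
  have hu : u * (h ^ 2 + 9 * h + 27) = h ^ 3 := by
    apply mul_left_cancel₀ (pow_ne_zero 3 hD0)
    linear_combination ha2
  refine ⟨hu, hw, ?_⟩
  apply mul_right_cancel₀ hc0
  linear_combination w * hu + h ^ 3 * hw

/-- **Level 9**: `u (h² + 9h + 27) = h³`. -/
theorem hp9_u_rel : hp9_u R * (hp9_h R ^ 2 + 9 * hp9_h R + 27) = hp9_h R ^ 3 := by
  have := congrArg (coeffMap (Int.castRingHom R)) hp9_level9_int.1
  simpa only [map_mul, map_pow, map_add, map_ofNat, hp9_coeffMap_u, ← hp9_h_int,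
    hp9_coeffMap_h] using this

/-- **Level 9**: `w = h (h² + 9h + 27)`. -/
theorem hp9_w_rel : hp9_w R = hp9_h R * (hp9_h R ^ 2 + 9 * hp9_h R + 27) := by
  have := congrArg (coeffMap (Int.castRingHom R)) hp9_level9_int.2.1
  simpa only [map_mul, map_pow, map_add, map_ofNat, hp9_coeffMap_w, ← hp9_h_int,
    hp9_coeffMap_h] using this

/-- **Level 9**: `u w = h⁴`. -/
theorem hp9_u_mul_w : hp9_u R * hp9_w R = hp9_h R ^ 4 := by
  have := congrArg (coeffMap (Int.castRingHom R)) hp9_level9_int.2.2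
  simpa only [map_mul, map_pow, hp9_coeffMap_u, hp9_coeffMap_w, ← hp9_h_int,
    hp9_coeffMap_h] using this

/-- `h⁸ Δ(q⁹) = Δ(q)`: the Hauptmodul is a modular unit. -/
theorem hp9_h_pow_eight : hp9_h R ^ 8 * Dd R 9 = Dd R 1 := by
  have h1 := hp9_u_mul_w R
  have h2 := hp9_u_sq R
  have h3 := hp9_w_sq R
  linear_combination (-(hp9_h R ^ 4 + hp9_u R * hp9_w R) * Dd R 9) * h1 + hp9_u R ^ 2 * h3 + h2

/-- **`j(q)` in terms of the Hauptmodul of level 9.** -/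
theorem hp9_j1 :
    jd R 1 * (hp9_h R ^ 9 * (hp9_h R ^ 2 + 9 * hp9_h R + 27))
      = (hp9_h R + 9) ^ 3 * (hp9_h R ^ 3 + 243 * hp9_h R ^ 2 + 2187 * hp9_h R + 6561) ^ 3 := by
  have hI := hp9_I1 R
  have hu := hp9_u_rel R
  generalize hp9_h R = h at *
  generalize hp9_u R = u at *
  have e : jd R 1 * (u * (h ^ 2 + 9 * h + 27)) ^ 3 * (h ^ 2 + 9 * h + 27)
      = (u * (h ^ 2 + 9 * h + 27) + 27 * (h ^ 2 + 9 * h + 27))
        * (u * (h ^ 2 + 9 * h + 27) + 243 * (h ^ 2 + 9 * h + 27)) ^ 3 := by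
    linear_combination (h ^ 2 + 9 * h + 27) ^ 4 * hI
  rw [hu] at e
  linear_combination e

/-- **`j(q³)` in terms of the Hauptmodul of level 9.** -/
theorem hp9_j3 :
    jd R 3 * (hp9_h R ^ 3 * (hp9_h R ^ 2 + 9 * hp9_h R + 27) ^ 3)
      = (hp9_h R + 9) ^ 3 * (hp9_h R + 3) ^ 3 * (hp9_h R ^ 2 + 27) ^ 3 := by
  have hI := hp9_I2 R
  have hu := hp9_u_rel R
  generalize hp9_h R = h at *
  generalize hp9_u R = u at *
  have e : jd R 3 * (u * (h ^ 2 + 9 * h + 27)) * (h ^ 2 + 9 * h + 27) ^ 3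
      = (u * (h ^ 2 + 9 * h + 27) + 27 * (h ^ 2 + 9 * h + 27))
        * (u * (h ^ 2 + 9 * h + 27) + 3 * (h ^ 2 + 9 * h + 27)) ^ 3 := by
    linear_combination (h ^ 2 + 9 * h + 27) ^ 4 * hI
  rw [hu] at e
  linear_combination e

/-- **`j(q⁹)` in terms of the Hauptmodul of level 9.** -/
theorem hp9_j9 :
    jd R 9 * (hp9_h R * (hp9_h R ^ 2 + 9 * hp9_h R + 27))
      = (hp9_h R + 3) ^ 3 * (hp9_h R ^ 3 + 9 * hp9_h R ^ 2 + 27 * hp9_h R + 3) ^ 3 := by
  have hI := hp9_I2w R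
  rw [hp9_w_rel] at hI
  linear_combination hI

end Level9

/-! ### Leading terms, units -/

section Units

variable (R : Type*) [CommRing R]

theorem hp9_Mon.isUnit {R : Type*} [CommRing R] {x : LaurentSeries R} {n : ℤ}
    (hx : hp9_Mon x n) : IsUnit x := by
  obtain ⟨y, _, hy⟩ := hx.exists_inv
  exact IsUnit.of_mul_eq_one y hy

theorem hp9_lead_map {x : LaurentSeries ℤ} {n : ℤ} (hx : hp9_Mon x n) :
    ∃ p : PowerSeries ℤ, PowerSeries.constantCoeff p = 1 ∧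
      coeffMap (Int.castRingHom R) x = HahnSeries.single n (1 : R) *
        HahnSeries.ofPowerSeries ℤ R (p.map (Int.castRingHom R)) := by
  obtain ⟨p, hp, rfl⟩ := hx
  exact ⟨p, hp, by rw [map_mul, coeffMap_single, coeffMap_ofPowerSeries, map_one]⟩

/-- `h = q⁻¹ · (1 + ...)` with integral coefficients. -/
theorem hp9_h_lead :
    ∃ p : PowerSeries ℤ, PowerSeries.constantCoeff p = 1 ∧
      hp9_h R = HahnSeries.single (-1) (1 : R) *
        HahnSeries.ofPowerSeries ℤ R (p.map (Int.castRingHom R)) :=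
  hp9_lead_map R hp9_Mon_hZ

/-- `u = q⁻¹ · (1 + ...)` with integral coefficients. -/
theorem hp9_u_lead :
    ∃ p : PowerSeries ℤ, PowerSeries.constantCoeff p = 1 ∧
      hp9_u R = HahnSeries.single (-1) (1 : R) *
        HahnSeries.ofPowerSeries ℤ R (p.map (Int.castRingHom R)) := by
  have h := hp9_lead_map R (hp9_Mon_u ℤ)
  rwa [hp9_coeffMap_u] at h

/-- `w = q⁻³ · (1 + ...)` with integral coefficients. -/
theorem hp9_w_lead :
    ∃ p : PowerSeries ℤ, PowerSeries.constantCoeff p = 1 ∧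
      hp9_w R = HahnSeries.single (-3) (1 : R) *
        HahnSeries.ofPowerSeries ℤ R (p.map (Int.castRingHom R)) := by
  have h := hp9_lead_map R (hp9_Mon_w ℤ)
  rwa [hp9_coeffMap_w] at h

/-- the cuspidal factor `h² + 9 h + 27` is monic of order `-2` -/
theorem hp9_Mon_c : hp9_Mon (hp9_h R ^ 2 + 9 * hp9_h R + 27) (-2) := by
  have h1 : hp9_Mon (hp9_h R ^ 2) (-2) := ((hp9_Mon_h R).pow 2).congr (by norm_num)
  have h2 : hp9_Big (9 * hp9_h R) (-1) := (hp9_Mon_h R).big.ofNat_mul 9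
  have h3 : hp9_Big (27 : LaurentSeries R) (-1) := (hp9_Big_ofNat 27).mono (by norm_num)
  exact (h1.add_big h2 (by norm_num)).add_big h3 (by norm_num)

theorem hp9_h_isUnit : IsUnit (hp9_h R) := (hp9_Mon_h R).isUnit

theorem hp9_u_isUnit : IsUnit (hp9_u R) := (hp9_Mon_u R).isUnit

theorem hp9_w_isUnit : IsUnit (hp9_w R) := (hp9_Mon_w R).isUnit

theorem hp9_c_isUnit : IsUnit (hp9_h R ^ 2 + 9 * hp9_h R + 27) := (hp9_Mon_c R).isUnit

theorem hp9_D_isUnit : IsUnit (hp9_D R) := (hp9_Mon_D R).isUnit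

theorem hp9_h_ne_zero [Nontrivial R] : hp9_h R ≠ 0 := (hp9_Mon_h R).ne_zero

theorem hp9_u_ne_zero [Nontrivial R] : hp9_u R ≠ 0 := (hp9_Mon_u R).ne_zero

theorem hp9_w_ne_zero [Nontrivial R] : hp9_w R ≠ 0 := (hp9_Mon_w R).ne_zero

theorem hp9_c_ne_zero [Nontrivial R] : hp9_h R ^ 2 + 9 * hp9_h R + 27 ≠ 0 :=
  (hp9_Mon_c R).ne_zero

theorem hp9_D_ne_zero [Nontrivial R] : hp9_D R ≠ 0 := (hp9_Mon_D R).ne_zero

/-- `h + c` is monic of order `-1` for every numeral `c` (e.g. `h + 3`, `h + 9`). -/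
theorem hp9_Mon_h_add (c : ℕ) [c.AtLeastTwo] :
    hp9_Mon (hp9_h R + (OfNat.ofNat c : LaurentSeries R)) (-1) :=
  (hp9_Mon_h R).add_big (hp9_Big_ofNat c) (by norm_num)

theorem hp9_Mon_jd {d : ℕ} (hd : d ≠ 0) : hp9_Mon (jd R d) (-(d : ℤ)) := by
  have h1 : hp9_Mon (jqModC R) (-1) := by
    refine ⟨jNum.map (Int.castRingHom R), ?_, rfl⟩
    rw [← PowerSeries.coeff_zero_eq_constantCoeff_apply, PowerSeries.coeff_map,
      PowerSeries.coeff_zero_eq_constantCoeff_apply, constantCoeff_jNum, map_one]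
  exact (h1.V hd).congr (by ring)

end Units

/-! ### Over a field -/

section Field

variable (K : Type*) [Field K]

theorem hp9_h_eq_div : hp9_h K = hp9_N K / hp9_D K :=
  eq_div_of_mul_eq (hp9_D_ne_zero K) (hp9_h_mul_D K)

theorem hp9_u_eq_div_h :
    hp9_u K = hp9_h K ^ 3 / (hp9_h K ^ 2 + 9 * hp9_h K + 27) :=
  eq_div_of_mul_eq (hp9_c_ne_zero K) (hp9_u_rel K)

theorem hp9_u_sq_eq_div : hp9_u K ^ 2 = Dd K 1 / Dd K 3 :=
  eq_div_of_mul_eq (Dd_ne_zero K (by norm_num)) (hp9_u_sq K)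

theorem hp9_w_sq_eq_div : hp9_w K ^ 2 = Dd K 3 / Dd K 9 :=
  eq_div_of_mul_eq (Dd_ne_zero K (by norm_num)) (hp9_w_sq K)

theorem hp9_jd_one_eq :
    jd K 1 = (hp9_h K + 9) ^ 3 * (hp9_h K ^ 3 + 243 * hp9_h K ^ 2 + 2187 * hp9_h K + 6561) ^ 3
      / (hp9_h K ^ 9 * (hp9_h K ^ 2 + 9 * hp9_h K + 27)) :=
  eq_div_of_mul_eq (mul_ne_zero (pow_ne_zero 9 (hp9_h_ne_zero K)) (hp9_c_ne_zero K)) (hp9_j1 K)

theorem hp9_jd_three_eq :
    jd K 3 = (hp9_h K + 9) ^ 3 * (hp9_h K + 3) ^ 3 * (hp9_h K ^ 2 + 27) ^ 3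
      / (hp9_h K ^ 3 * (hp9_h K ^ 2 + 9 * hp9_h K + 27) ^ 3) :=
  eq_div_of_mul_eq (mul_ne_zero (pow_ne_zero 3 (hp9_h_ne_zero K))
    (pow_ne_zero 3 (hp9_c_ne_zero K))) (hp9_j3 K)

theorem hp9_jd_nine_eq :
    jd K 9 = (hp9_h K + 3) ^ 3 * (hp9_h K ^ 3 + 9 * hp9_h K ^ 2 + 27 * hp9_h K + 3) ^ 3
      / (hp9_h K * (hp9_h K ^ 2 + 9 * hp9_h K + 27)) :=
  eq_div_of_mul_eq (mul_ne_zero (hp9_h_ne_zero K) (hp9_c_ne_zero K)) (hp9_j9 K)

/-- `u` is a rational function of `j(q)` and `u² = Δ(q)/Δ(q³)`. -/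
theorem hp9_u_eq_rat :
    hp9_u K = (hp9_u K ^ 4 + 196830 * hp9_u K ^ 2 + 387420489)
      / (jd K 1 * hp9_u K ^ 2 - 756 * hp9_u K ^ 2 - 19131876) := by
  have hden : jd K 1 * hp9_u K ^ 2 - 756 * hp9_u K ^ 2 - 19131876 ≠ 0 := by
    have h1 : hp9_Mon (jd K 1 * hp9_u K ^ 2) (-3) :=
      ((hp9_Mon_jd K (by norm_num : 1 ≠ 0)).mul ((hp9_Mon_u K).pow 2)).congr (by norm_num)
    have h2 : hp9_Big (756 * hp9_u K ^ 2) (-2) :=
      (((hp9_Mon_u K).pow 2).big.ofNat_mul 756).mono (by norm_num)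
    have h3 : hp9_Big (19131876 : LaurentSeries K) (-2) :=
      (hp9_Big_ofNat 19131876).mono (by norm_num)
    exact ((h1.sub_big h2 (by norm_num)).sub_big h3 (by norm_num)).ne_zero
  refine eq_div_of_mul_eq hden ?_
  linear_combination hp9_I1 K

/-- `w` is a rational function of `j(q³)` and `w² = Δ(q³)/Δ(q⁹)`. -/
theorem hp9_w_eq_rat :
    hp9_w K = (hp9_w K ^ 4 + 196830 * hp9_w K ^ 2 + 387420489)
      / (jd K 3 * hp9_w K ^ 2 - 756 * hp9_w K ^ 2 - 19131876) := by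
  have hden : jd K 3 * hp9_w K ^ 2 - 756 * hp9_w K ^ 2 - 19131876 ≠ 0 := by
    have h1 : hp9_Mon (jd K 3 * hp9_w K ^ 2) (-9) :=
      ((hp9_Mon_jd K (by norm_num : 3 ≠ 0)).mul ((hp9_Mon_w K).pow 2)).congr (by norm_num)
    have h2 : hp9_Big (756 * hp9_w K ^ 2) (-6) :=
      (((hp9_Mon_w K).pow 2).big.ofNat_mul 756).mono (by norm_num)
    have h3 : hp9_Big (19131876 : LaurentSeries K) (-6) :=
      (hp9_Big_ofNat 19131876).mono (by norm_num)
    exact ((h1.sub_big h2 (by norm_num)).sub_big h3 (by norm_num)).ne_zero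
  refine eq_div_of_mul_eq hden ?_
  linear_combination hp9_I1w K

end Field

/-! ### `Ft 9 = ℚ(h)` -/

section FtNine

theorem hp9_u_mem_Ft : hp9_u ℚ ∈ Ft 9 := by
  have h2 : hp9_u ℚ ^ 2 ∈ Ft 9 := by
    rw [hp9_u_sq_eq_div]
    exact Dd_div_mem_Ft (one_dvd 9) (by norm_num)
  have hj : jd ℚ 1 ∈ Ft 9 := jd_mem_Ft (one_dvd 9)
  have h4 : hp9_u ℚ ^ 4 ∈ Ft 9 := by
    rw [show hp9_u ℚ ^ 4 = hp9_u ℚ ^ 2 * hp9_u ℚ ^ 2 by ring]
    exact (Ft 9).mul_mem h2 h2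
  rw [hp9_u_eq_rat]
  exact (Ft 9).div_mem
    ((Ft 9).add_mem ((Ft 9).add_mem h4 ((Ft 9).mul_mem (ofNat_mem (Ft 9) 196830) h2))
      (ofNat_mem (Ft 9) 387420489))
    ((Ft 9).sub_mem ((Ft 9).sub_mem ((Ft 9).mul_mem hj h2)
      ((Ft 9).mul_mem (ofNat_mem (Ft 9) 756) h2)) (ofNat_mem (Ft 9) 19131876))

theorem hp9_w_mem_Ft : hp9_w ℚ ∈ Ft 9 := by
  have h2 : hp9_w ℚ ^ 2 ∈ Ft 9 := by
    rw [hp9_w_sq_eq_div]
    exact Dd_div_mem_Ft (by norm_num) dvd_rfl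
  have hj : jd ℚ 3 ∈ Ft 9 := jd_mem_Ft (by norm_num)
  have h4 : hp9_w ℚ ^ 4 ∈ Ft 9 := by
    rw [show hp9_w ℚ ^ 4 = hp9_w ℚ ^ 2 * hp9_w ℚ ^ 2 by ring]
    exact (Ft 9).mul_mem h2 h2
  rw [hp9_w_eq_rat]
  exact (Ft 9).div_mem
    ((Ft 9).add_mem ((Ft 9).add_mem h4 ((Ft 9).mul_mem (ofNat_mem (Ft 9) 196830) h2))
      (ofNat_mem (Ft 9) 387420489))
    ((Ft 9).sub_mem ((Ft 9).sub_mem ((Ft 9).mul_mem hj h2)
      ((Ft 9).mul_mem (ofNat_mem (Ft 9) 756) h2)) (ofNat_mem (Ft 9) 19131876))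

theorem hp9_h_mem_Ft : hp9_h ℚ ∈ Ft 9 := by
  have hu := hp9_u_mem_Ft
  have hw := hp9_w_mem_Ft
  rw [hp9_h_eq_div, hp9_N, hp9_D]
  exact (Ft 9).div_mem
    ((Ft 9).add_mem ((Ft 9).add_mem ((Ft 9).add_mem ((Ft 9).mul_mem ((Ft 9).pow_mem hu 2) hw)
      ((Ft 9).mul_mem ((Ft 9).mul_mem (ofNat_mem (Ft 9) 18) hu) hw))
      ((Ft 9).mul_mem (ofNat_mem (Ft 9) 27) hw)) ((Ft 9).mul_mem (ofNat_mem (Ft 9) 1458) hu))
    ((Ft 9).add_mem ((Ft 9).add_mem ((Ft 9).sub_mem ((Ft 9).mul_mem hu hw)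
      ((Ft 9).mul_mem (ofNat_mem (Ft 9) 243) hu)) ((Ft 9).mul_mem (ofNat_mem (Ft 9) 9) hw))
      (ofNat_mem (Ft 9) 729))

/-- **The function field of level 9 is `ℚ(h)`.** -/
theorem hp9_Ft_nine : Ft 9 = IntermediateField.adjoin ℚ {hp9_h ℚ} := by
  set S := IntermediateField.adjoin ℚ {hp9_h ℚ} with hS
  have hh : hp9_h ℚ ∈ S := IntermediateField.mem_adjoin_simple_self ℚ _
  have hc : hp9_h ℚ ^ 2 + 9 * hp9_h ℚ + 27 ∈ S :=
    S.add_mem (S.add_mem (S.pow_mem hh 2) (S.mul_mem (ofNat_mem S 9) hh)) (ofNat_mem S 27)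
  have hu : hp9_u ℚ ∈ S := by
    rw [hp9_u_eq_div_h]
    exact S.div_mem (S.pow_mem hh 3) hc
  have hw : hp9_w ℚ ∈ S := by
    rw [hp9_w_rel]
    exact S.mul_mem hh hc
  have hD9 : Dd ℚ 9 ≠ 0 := Dd_ne_zero ℚ (by norm_num)
  have hD3 : Dd ℚ 3 ≠ 0 := Dd_ne_zero ℚ (by norm_num)
  have hdiv : ∀ d, d ∣ 9 → d = 1 ∨ d = 3 ∨ d = 9 := by
    intro d hd
    have hd' : d ∈ Nat.divisors 9 := Nat.mem_divisors.mpr ⟨hd, by norm_num⟩
    rw [show Nat.divisors 9 = {1, 3, 9} by decide] at hd'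
    simpa only [Finset.mem_insert, Finset.mem_singleton] using hd'
  have hr : ∀ d, d ∣ 9 → Dd ℚ d / Dd ℚ 9 ∈ S := by
    intro d hd
    rcases hdiv d hd with rfl | rfl | rfl
    · have : Dd ℚ 1 / Dd ℚ 9 = hp9_u ℚ ^ 2 * hp9_w ℚ ^ 2 := by
        rw [hp9_u_sq_eq_div, hp9_w_sq_eq_div]
        field_simp
      rw [this]
      exact S.mul_mem (S.pow_mem hu 2) (S.pow_mem hw 2)
    · rw [← hp9_w_sq_eq_div]
      exact S.pow_mem hw 2
    · rw [div_self hD9]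
      exact S.one_mem
  apply le_antisymm
  · rw [Ft, IntermediateField.adjoin_le_iff]
    rintro x (⟨d, hd, rfl⟩ | ⟨d, e, hd, he, rfl⟩)
    · have h9 : hp9_h ℚ + 9 ∈ S := S.add_mem hh (ofNat_mem S 9)
      have h3 : hp9_h ℚ + 3 ∈ S := S.add_mem hh (ofNat_mem S 3)
      have h27 : hp9_h ℚ ^ 2 + 27 ∈ S := S.add_mem (S.pow_mem hh 2) (ofNat_mem S 27)
      have hp1 : hp9_h ℚ ^ 3 + 243 * hp9_h ℚ ^ 2 + 2187 * hp9_h ℚ + 6561 ∈ S :=
        S.add_mem (S.add_mem (S.add_mem (S.pow_mem hh 3)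
          (S.mul_mem (ofNat_mem S 243) (S.pow_mem hh 2))) (S.mul_mem (ofNat_mem S 2187) hh))
          (ofNat_mem S 6561)
      have hp9 : hp9_h ℚ ^ 3 + 9 * hp9_h ℚ ^ 2 + 27 * hp9_h ℚ + 3 ∈ S :=
        S.add_mem (S.add_mem (S.add_mem (S.pow_mem hh 3)
          (S.mul_mem (ofNat_mem S 9) (S.pow_mem hh 2))) (S.mul_mem (ofNat_mem S 27) hh))
          (ofNat_mem S 3)
      rcases hdiv d hd with rfl | rfl | rfl
      · rw [SetLike.mem_coe, hp9_jd_one_eq]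
        exact S.div_mem (S.mul_mem (S.pow_mem h9 3) (S.pow_mem hp1 3))
          (S.mul_mem (S.pow_mem hh 9) hc)
      · rw [SetLike.mem_coe, hp9_jd_three_eq]
        exact S.div_mem (S.mul_mem (S.mul_mem (S.pow_mem h9 3) (S.pow_mem h3 3))
          (S.pow_mem h27 3)) (S.mul_mem (S.pow_mem hh 3) (S.pow_mem hc 3))
      · rw [SetLike.mem_coe, hp9_jd_nine_eq]
        exact S.div_mem (S.mul_mem (S.pow_mem h3 3) (S.pow_mem hp9 3)) (S.mul_mem hh hc)
    · rw [SetLike.mem_coe, ← div_div_div_cancel_right₀ hD9 (Dd ℚ d) (Dd ℚ e)]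
      exact S.div_mem (hr d hd) (hr e he)
  · rw [hS, IntermediateField.adjoin_simple_le_iff]
    exact hp9_h_mem_Ft

end FtNine

end Fermat.Agent.S18
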