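import Mathlib
import Fermat.Agent.S28.PsiArith
import Fermat.Agent.S18.HauptRec
import Fermat.Agent.S18.Haupt4Rec
import Fermat.Agent.S18.Haupt9

/-!
# S18: the level-9 instance of the abstract Hauptmodul record (for `ℓ = 2`)

`hp9Rec : HauptRec 9 2`, with
`P = (X + 9)³ (X³ + 243 X² + 2187 X + 6561)³`, `Q = X⁹ (X² + 9 X + 27)`,
`Qrad = X (X² + 9 X + 27)`, `P3 = X⁴ + 252 X³ + 4374 X² + 26244 X + 59049`,
`P2 = X⁶ - 486 X⁵ - 24057 X⁴ - 367416 X³ - 2657205 X² - 9565938 X - 14348907`.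
-/

set_option autoImplicit false

open ModularCurve Fermat.Agent.S28 Polynomial

noncomputable section

namespace Fermat.Agent.S18

/-- the cubic factor of the numerator of `j` at level 9 -/
def hp9r_C : Polynomial ℤ := X ^ 3 + 243 * X ^ 2 + 2187 * X + 6561

/-- numerator of `j` in terms of the Hauptmodul of level 9 -/
def hp9r_P : Polynomial ℤ := (X + 9) ^ 3 * hp9r_C ^ 3

/-- the quadratic cuspidal factor -/
def hp9r_c : Polynomial ℤ := X ^ 2 + 9 * X + 27

/-- denominator of `j` in terms of the Hauptmodul of level 9 -/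
def hp9r_Q : Polynomial ℤ := X ^ 9 * hp9r_c

theorem hp9r_C_monic : hp9r_C.Monic := by
  unfold hp9r_C
  monicity!

theorem hp9r_c_monic : hp9r_c.Monic := by
  unfold hp9r_c
  monicity!

theorem hp9r_X9_monic : (X + 9 : Polynomial ℤ).Monic := by
  monicity!

theorem hp9r_C_natDegree : hp9r_C.natDegree = 3 := by
  unfold hp9r_C
  compute_degree!

theorem hp9r_c_natDegree : hp9r_c.natDegree = 2 := by
  unfold hp9r_c
  compute_degree!

theorem hp9r_X9_natDegree : (X + 9 : Polynomial ℤ).natDegree = 1 := by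
  compute_degree!

theorem hp9r_P_monic : hp9r_P.Monic := (hp9r_X9_monic.pow 3).mul (hp9r_C_monic.pow 3)

theorem hp9r_Q_monic : hp9r_Q.Monic := (monic_X_pow 9).mul hp9r_c_monic

theorem hp9r_P_natDegree : hp9r_P.natDegree = 12 := by
  rw [hp9r_P, (hp9r_X9_monic.pow 3).natDegree_mul (hp9r_C_monic.pow 3),
    hp9r_X9_monic.natDegree_pow, hp9r_C_monic.natDegree_pow, hp9r_X9_natDegree,
    hp9r_C_natDegree]

theorem hp9r_Q_natDegree : hp9r_Q.natDegree = 11 := by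
  rw [hp9r_Q, (monic_X_pow 9).natDegree_mul hp9r_c_monic, natDegree_X_pow, hp9r_c_natDegree]

theorem hp9r_psi : psi 9 = 12 := by
  have h := psi_mul_of_dvd Nat.prime_three (by norm_num : 0 < 3) (dvd_refl 3)
  rw [psi_prime Nat.prime_three] at h
  exact h

/-- radical of the denominator: its roots are the finite cusp values -/
def hp9r_Qrad : Polynomial ℤ := X * hp9r_c

/-- `P = P3 ^ 3` -/
def hp9r_P3 : Polynomial ℤ := X ^ 4 + 252 * X ^ 3 + 4374 * X ^ 2 + 26244 * X + 59049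

/-- `P - 1728 Q = P2 ^ 2` -/
def hp9r_P2 : Polynomial ℤ :=
  X ^ 6 - 486 * X ^ 5 - 24057 * X ^ 4 - 367416 * X ^ 3 - 2657205 * X ^ 2 - 9565938 * X - 14348907

theorem hp9r_cube : hp9r_P = hp9r_P3 ^ 3 := by
  unfold hp9r_P hp9r_P3 hp9r_C
  ring

theorem hp9r_square : hp9r_P - 1728 * hp9r_Q = hp9r_P2 ^ 2 := by
  unfold hp9r_P hp9r_Q hp9r_P2 hp9r_C hp9r_c
  ring

theorem hp9r_rel : jd ℤ 1 * Polynomial.aeval hp9_hZ hp9r_Q = Polynomial.aeval hp9_hZ hp9r_P := by
  have h := hp9_j1 ℤ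
  rw [hp9_h_int] at h
  simp only [hp9r_Q, hp9r_P, hp9r_C, hp9r_c, map_mul, map_pow, map_add, aeval_X, map_ofNat]
  linear_combination h

theorem hp9r_Qrad_monic : hp9r_Qrad.Monic := monic_X.mul hp9r_c_monic

theorem hp9r_Qrad_dvd : hp9r_Qrad ∣ hp9r_Q :=
  ⟨X ^ 8, by unfold hp9r_Qrad hp9r_Q; ring⟩

theorem hp9r_dvd_Qrad_pow : ∃ n : ℕ, hp9r_Q ∣ hp9r_Qrad ^ n :=
  ⟨9, hp9r_c ^ 8, by unfold hp9r_Qrad hp9r_Q; ring⟩

section Rat

theorem hp9r_map_c_rat :
    hp9r_c.map (Int.castRingHom ℚ) = (X ^ 2 + 9 * X + 27 : Polynomial ℚ) := by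
  simp [hp9r_c]

theorem hp9r_map_C_rat :
    hp9r_C.map (Int.castRingHom ℚ) = (X ^ 3 + 243 * X ^ 2 + 2187 * X + 6561 : Polynomial ℚ) := by
  simp [hp9r_C]

theorem hp9r_coprime_rat :
    IsCoprime (hp9r_P.map (Int.castRingHom ℚ)) (hp9r_Q.map (Int.castRingHom ℚ)) := by
  have e1 : (hp9r_P.map (Int.castRingHom ℚ))
      = (X + 9 : Polynomial ℚ) ^ 3 * (X ^ 3 + 243 * X ^ 2 + 2187 * X + 6561) ^ 3 := by
    rw [hp9r_P, Polynomial.map_mul, Polynomial.map_pow, Polynomial.map_pow, hp9r_map_C_rat]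
    simp
  have e2 : (hp9r_Q.map (Int.castRingHom ℚ))
      = (X : Polynomial ℚ) ^ 9 * (X ^ 2 + 9 * X + 27) := by
    rw [hp9r_Q, Polynomial.map_mul, Polynomial.map_pow, hp9r_map_c_rat]
    simp
  rw [e1, e2]
  have h1 : IsCoprime (X + 9 : Polynomial ℚ) X :=
    ⟨C (1 / 9), -C (1 / 9), by
      have : (C (1 / 9 : ℚ) : Polynomial ℚ) * 9 = 1 := by
        rw [show (9 : Polynomial ℚ) = C 9 from rfl, ← C_mul]; norm_num
      linear_combination this⟩
  have h2 : IsCoprime (X + 9 : Polynomial ℚ) (X ^ 2 + 9 * X + 27) :=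
    ⟨-C (1 / 27) * X, C (1 / 27), by
      have : (C (1 / 27 : ℚ) : Polynomial ℚ) * 27 = 1 := by
        rw [show (27 : Polynomial ℚ) = C 27 from rfl, ← C_mul]; norm_num
      linear_combination this⟩
  have h3 : IsCoprime (X ^ 3 + 243 * X ^ 2 + 2187 * X + 6561 : Polynomial ℚ) X :=
    ⟨C (1 / 6561), -C (1 / 6561) * (X ^ 2 + 243 * X + 2187), by
      have : (C (1 / 6561 : ℚ) : Polynomial ℚ) * 6561 = 1 := by
        rw [show (6561 : Polynomial ℚ) = C 6561 from rfl, ← C_mul]; norm_num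
      linear_combination this⟩
  have h4 : IsCoprime (X ^ 3 + 243 * X ^ 2 + 2187 * X + 6561 : Polynomial ℚ)
      (X ^ 2 + 9 * X + 27) :=
    ⟨-C (1 / 729) * (2 * X + 9), C (1 / 729) * (108 + (2 * X + 9) * (X + 234)), by
      have : (C (1 / 729 : ℚ) : Polynomial ℚ) * 729 = 1 := by
        rw [show (729 : Polynomial ℚ) = C 729 from rfl, ← C_mul]; norm_num
      linear_combination this⟩
  exact IsCoprime.mul_left ((h1.pow_right (n := 9)).mul_right h2).pow_left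
    ((h3.pow_right (n := 9)).mul_right h4).pow_left

theorem hp9r_Qrad_sep_rat : (hp9r_Qrad.map (Int.castRingHom ℚ)).Separable := by
  have e : hp9r_Qrad.map (Int.castRingHom ℚ) = (X ^ 3 + 9 * X ^ 2 + 27 * X : Polynomial ℚ) := by
    rw [hp9r_Qrad, Polynomial.map_mul, hp9r_map_c_rat]
    simp
    ring
  rw [e, Polynomial.separable_def]
  have hd : derivative (X ^ 3 + 9 * X ^ 2 + 27 * X : Polynomial ℚ) = 3 * X ^ 2 + 18 * X + 27 := by
    simp only [derivative_add, derivative_mul, derivative_X_pow, derivative_X, derivative_ofNat]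
    norm_num
    rw [show (C 3 : Polynomial ℚ) = 3 from map_ofNat C 3,
      show (C 2 : Polynomial ℚ) = 2 from map_ofNat C 2]
    ring
  rw [hd]
  refine ⟨-(C (1 / 81) * 3), C (1 / 81) * (X + 3), ?_⟩
  have h81 : (C (1 / 81 : ℚ) : Polynomial ℚ) * 81 = 1 := by
    rw [show (81 : Polynomial ℚ) = C 81 from rfl, ← C_mul]; norm_num
  linear_combination h81

end Rat

section Mod2

theorem hp9r_two : (2 : Polynomial (ZMod 2)) = 0 := by
  rw [← map_ofNat (C : ZMod 2 →+* Polynomial (ZMod 2)) 2, show (2 : ZMod 2) = 0 by decide, C_0]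

theorem hp9r_map_c_mod :
    hp9r_c.map (Int.castRingHom (ZMod 2)) = (X ^ 2 + 9 * X + 27 : Polynomial (ZMod 2)) := by
  simp only [hp9r_c, Polynomial.map_mul, Polynomial.map_pow, Polynomial.map_add, Polynomial.map_X,
    Polynomial.map_ofNat]

theorem hp9r_map_C_mod :
    hp9r_C.map (Int.castRingHom (ZMod 2))
      = (X ^ 3 + 243 * X ^ 2 + 2187 * X + 6561 : Polynomial (ZMod 2)) := by
  simp only [hp9r_C, Polynomial.map_mul, Polynomial.map_pow, Polynomial.map_add, Polynomial.map_X,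
    Polynomial.map_ofNat]

theorem hp9r_coprime_mod :
    IsCoprime (hp9r_P.map (Int.castRingHom (ZMod 2))) (hp9r_Q.map (Int.castRingHom (ZMod 2))) := by
  have e1 : (hp9r_P.map (Int.castRingHom (ZMod 2)))
      = (X + 9 : Polynomial (ZMod 2)) ^ 3 * (X ^ 3 + 243 * X ^ 2 + 2187 * X + 6561) ^ 3 := by
    rw [hp9r_P, Polynomial.map_mul, Polynomial.map_pow, Polynomial.map_pow, hp9r_map_C_mod]
    simp only [Polynomial.map_add, Polynomial.map_X, Polynomial.map_ofNat]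
  have e2 : (hp9r_Q.map (Int.castRingHom (ZMod 2)))
      = (X : Polynomial (ZMod 2)) ^ 9 * (X ^ 2 + 9 * X + 27) := by
    rw [hp9r_Q, Polynomial.map_mul, Polynomial.map_pow, hp9r_map_c_mod, Polynomial.map_X]
  rw [e1, e2]
  have h2 := hp9r_two
  have h1 : IsCoprime (X + 9 : Polynomial (ZMod 2)) X :=
    ⟨1, 1, by linear_combination (X + 4) * h2⟩
  have h2' : IsCoprime (X + 9 : Polynomial (ZMod 2)) (X ^ 2 + 9 * X + 27) :=
    ⟨X, 1, by linear_combination (X ^ 2 + 9 * X + 13) * h2⟩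
  have h3 : IsCoprime (X ^ 3 + 243 * X ^ 2 + 2187 * X + 6561 : Polynomial (ZMod 2)) X :=
    ⟨1, X ^ 2 + X + 1, by linear_combination (X ^ 3 + 122 * X ^ 2 + 1094 * X + 3280) * h2⟩
  have h4 : IsCoprime (X ^ 3 + 243 * X ^ 2 + 2187 * X + 6561 : Polynomial (ZMod 2))
      (X ^ 2 + 9 * X + 27) :=
    ⟨1, X, by linear_combination (X ^ 3 + 126 * X ^ 2 + 1107 * X + 3280) * h2⟩
  exact IsCoprime.mul_left ((h1.pow_right (n := 9)).mul_right h2').pow_left
    ((h3.pow_right (n := 9)).mul_right h4).pow_left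

theorem hp9r_Qrad_sep_mod : (hp9r_Qrad.map (Int.castRingHom (ZMod 2))).Separable := by
  have e : hp9r_Qrad.map (Int.castRingHom (ZMod 2))
      = (X ^ 3 + 9 * X ^ 2 + 27 * X : Polynomial (ZMod 2)) := by
    rw [hp9r_Qrad, Polynomial.map_mul, hp9r_map_c_mod, Polynomial.map_X]
    ring
  rw [e, Polynomial.separable_def]
  have hd : derivative (X ^ 3 + 9 * X ^ 2 + 27 * X : Polynomial (ZMod 2))
      = 3 * X ^ 2 + 18 * X + 27 := by
    simp only [derivative_add, derivative_mul, derivative_X_pow, derivative_X, derivative_ofNat]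
    norm_num
    rw [show (C 3 : Polynomial (ZMod 2)) = 3 from map_ofNat C 3,
      show (C 2 : Polynomial (ZMod 2)) = 2 from map_ofNat C 2]
    ring
  rw [hd]
  exact ⟨-3, X + 3, by linear_combination 40 * hp9r_two⟩

end Mod2

/-- **The Hauptmodul record of level 9, for `ℓ = 2`.** -/
def hp9Rec : HauptRec 9 2 where
  hZ := hp9_hZ
  P := hp9r_P
  Q := hp9r_Q
  Qrad := hp9r_Qrad
  P3 := hp9r_P3
  P2 := hp9r_P2
  pos := by norm_num
  not_dvd := by norm_num
  lead := hp9_Mon_hZ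
  mem_Ft := hp9_h_mem_Ft
  rel := hp9r_rel
  P_monic := hp9r_P_monic
  Q_monic := hp9r_Q_monic
  natDegree_P := by rw [hp9r_P_natDegree, hp9r_psi]
  natDegree_Q := by rw [hp9r_Q_natDegree, hp9r_psi]; norm_num
  coprime_rat := hp9r_coprime_rat
  coprime_mod := hp9r_coprime_mod
  Qrad_monic := hp9r_Qrad_monic
  Qrad_dvd := hp9r_Qrad_dvd
  dvd_Qrad_pow := hp9r_dvd_Qrad_pow
  Qrad_sep_rat := hp9r_Qrad_sep_rat
  Qrad_sep_mod := hp9r_Qrad_sep_mod
  cube := hp9r_cube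
  square := hp9r_square

theorem hp9Rec_h (R : Type*) [CommRing R] : hp9Rec.h R = hp9_h R := rfl

/-- **Selection.** For every prime `ℓ` there is a Hauptmodul record of level `4` or `9`
(level `9` for `ℓ = 2`, level `4` for `ℓ` odd); its level is prime to `ℓ` by `HauptRec.not_dvd`. -/
theorem hp9_exists_hauptRec (ℓ : ℕ) [Fact ℓ.Prime] :
    ∃ a2 : ℕ, (a2 = 4 ∨ a2 = 9) ∧ Nonempty (HauptRec a2 ℓ) := by
  by_cases h : ℓ = 2
  · subst h
    exact ⟨9, Or.inr rfl, ⟨hp9Rec⟩⟩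
  · exact ⟨4, Or.inl rfl, ⟨hp4Rec ℓ h⟩⟩

end Fermat.Agent.S18
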