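import Mathlib
import Fermat.Prelude.Def_ModularCurve_ReductionModL
import Fermat.Agent.S24.SumFormulaA4
import Fermat.Agent.S24.Differential
import Fermat.Agent.S24.Degree
import Fermat.Agent.S18.GaussRing

/-!
# S18, package IFACE-A: the normal form of a torsion class with trivial reduction

`K = ℚ̄`, `F = modularFunctionFieldBar N`, `A : ValuationSubring ℚ̄`,
`k = IsLocalRing.ResidueField A`, `Fk = modularFunctionFieldFullC k N`.

Main result `ifn_normal_form`: if `m • [D] = 0` in `Pic⁰` and the reduction of `[D]` is `0`, then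
`m D = div Y` where `Y ∈ F` is a Gauss unit whose residue is the `m`-th power of the residue of a
Gauss unit `g' ∈ F`.

All names are prefixed `ifn`.
-/

set_option autoImplicit false
set_option synthInstance.maxHeartbeats 400000
set_option linter.unusedSectionVars false

noncomputable section

open ModularCurve AlgebraicCurve IntermediateField

namespace Fermat.Agent.S18

/-! ### Characteristic zero: principal divisors exist and have degree zero -/

section CharZero

variable (N : ℕ) [NeZero N]

theorem ifn_degree_eq_finsum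
    (W : Divisor (AlgebraicClosure ℚ) (modularFunctionFieldBar N)) :
    Divisor.degree W = ∑ᶠ v, W v := by
  classical
  have hfd := Fermat.Agent.S24.finiteDimensional_jBar' N
  rw [finsum_eq_sum_of_support_subset (s := W.support) _ (by intro v hv; simpa using hv)]
  show (Finsupp.liftAddHom fun v : Place (AlgebraicClosure ℚ) (modularFunctionFieldBar N) =>
    AddMonoidHom.mulRight ((v.deg : ℕ) : ℤ)) W = _
  rw [Finsupp.liftAddHom_apply, Finsupp.sum]
  refine Finset.sum_congr rfl fun v _ => ?_
  simp [Fermat.Agent.S24.place_deg_eq_one v (Fermat.Agent.S24.jBar N)]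

/-- Every nonzero function has a divisor, of degree zero. -/
theorem ifn_exists_divisor (f : modularFunctionFieldBar N) (hf : f ≠ 0) :
    ∃ E : Divisor (AlgebraicClosure ℚ) (modularFunctionFieldBar N),
      (∀ P, E P = P.ord f) ∧ Divisor.degree E = 0 := by
  classical
  have hx := Fermat.Agent.S24.transcendental_jBar' N
  have hfd := Fermat.Agent.S24.finiteDimensional_jBar' N
  have hfin := Fermat.Agent.S24.ord_support_finite (Fermat.Agent.S24.jBar N) hx f hf
  refine ⟨Finsupp.ofSupportFinite (fun P => P.ord f) hfin, fun P => rfl, ?_⟩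
  rw [ifn_degree_eq_finsum]
  exact Fermat.Agent.S24.finsum_ord_eq_zero (Fermat.Agent.S24.jBar N) hx f hf

/-- Principal divisors have degree zero. -/
theorem ifn_degree_principal
    (E : Divisor (AlgebraicClosure ℚ) (modularFunctionFieldBar N))
    (f : modularFunctionFieldBar N) (hf : f ≠ 0) (hE : ∀ P, E P = P.ord f) :
    Divisor.degree E = 0 := by
  obtain ⟨E', hE', hdeg⟩ := ifn_exists_divisor N f hf
  have : E = E' := by
    ext P
    rw [hE, hE']
  rw [this, hdeg]

/-- The function field has a place. -/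
theorem ifn_exists_place :
    Nonempty (Place (AlgebraicClosure ℚ) (modularFunctionFieldBar N)) := by
  have hx := Fermat.Agent.S24.transcendental_jBar' N
  have hfd := Fermat.Agent.S24.finiteDimensional_jBar' N
  have h := Fermat.Agent.S24.finsum_ord_zeroPlaces (Fermat.Agent.S24.jBar N) hx
  by_contra hne
  rw [not_nonempty_iff] at hne
  have h0 : ∑ᶠ (P : Place (AlgebraicClosure ℚ) (modularFunctionFieldBar N))
      (_ : P ∈ Fermat.Agent.S24.zeroPlaces (AlgebraicClosure ℚ) (Fermat.Agent.S24.jBar N)),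
      P.ord (Fermat.Agent.S24.jBar N) = 0 := by
    apply finsum_eq_zero_of_forall_eq_zero
    intro P
    exact (hne.false P).elim
  rw [h0] at h
  have hpos : 0 < Module.finrank (AlgebraicClosure ℚ)⟮Fermat.Agent.S24.jBar N⟯
      (modularFunctionFieldBar N) := Module.finrank_pos
  omega

end CharZero

/-! ### Integral series and lifting of the residue field -/

section Lift

variable (N : ℕ) [NeZero N] (A : ValuationSubring (AlgebraicClosure ℚ))

/-- A series with coefficients in `A` which lies in the function field of level `N` and whose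
reduction lies in the function field of level `N` over the residue field. -/
def ifnInt (a : LaurentSeries A) : Prop :=
  coeffMap A.subtype a ∈ modularFunctionFieldBar N ∧
    coeffMap (IsLocalRing.residue A) a ∈
      modularFunctionFieldFullC (IsLocalRing.ResidueField A) N

theorem ifnInt_zero : ifnInt N A 0 := by
  refine ⟨?_, ?_⟩
  · rw [map_zero]; exact zero_mem _
  · rw [map_zero]; exact zero_mem _

theorem ifnInt_one : ifnInt N A 1 := by
  refine ⟨?_, ?_⟩
  · rw [map_one]; exact one_mem _
  · rw [map_one]; exact one_mem _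

variable {N A} in
theorem ifnInt_mul {a b : LaurentSeries A} (ha : ifnInt N A a) (hb : ifnInt N A b) :
    ifnInt N A (a * b) := by
  refine ⟨?_, ?_⟩
  · rw [map_mul]; exact mul_mem ha.1 hb.1
  · rw [map_mul]; exact mul_mem ha.2 hb.2

variable {N A} in
theorem ifnInt_add {a b : LaurentSeries A} (ha : ifnInt N A a) (hb : ifnInt N A b) :
    ifnInt N A (a + b) := by
  refine ⟨?_, ?_⟩
  · rw [map_add]; exact add_mem ha.1 hb.1
  · rw [map_add]; exact add_mem ha.2 hb.2

theorem ifnInt_const (c : A) : ifnInt N A (HahnSeries.single 0 c) := by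
  refine ⟨?_, ?_⟩
  · rw [coeffMap_single, ← algebraMap_laurentSeries_eq_single]
    exact (modularFunctionFieldBar N).algebraMap_mem _
  · rw [coeffMap_single, ← algebraMap_laurentSeries_eq_single]
    exact (modularFunctionFieldFullC (IsLocalRing.ResidueField A) N).algebraMap_mem _

theorem ifnInt_gen {d : ℕ} [NeZero d] (hd : d ∣ N) : ifnInt N A (qExpand A d (jqModC A)) := by
  refine ⟨?_, ?_⟩
  · rw [coeffMap_qExpand, coeffMap_jqModC]
    have h1 : qExpand (AlgebraicClosure ℚ) d (jqModC (AlgebraicClosure ℚ)) =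
        coeffEmb (AlgebraicClosure ℚ) (qExpand ℚ d jq) := by
      rw [coeffEmb, coeffMap_qExpand, ← jqModC_rat, coeffMap_jqModC]
    rw [h1]
    exact coeffEmb_mem_laurentBaseChange _ (jqd_mem_full N hd)
  · rw [coeffMap_qExpand, coeffMap_jqModC]
    exact jqModCd_mem_full _ N hd

/-- Every element of the function field over the residue field is a quotient of reductions of
integral series of the function field. -/
theorem ifn_exists_quot (x : LaurentSeries (IsLocalRing.ResidueField A))
    (hx : x ∈ modularFunctionFieldFullC (IsLocalRing.ResidueField A) N) :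
    ∃ a b : LaurentSeries A, ifnInt N A a ∧ ifnInt N A b ∧
      coeffMap (IsLocalRing.residue A) b ≠ 0 ∧
      x * coeffMap (IsLocalRing.residue A) b = coeffMap (IsLocalRing.residue A) a := by
  unfold modularFunctionFieldFullC at hx
  induction hx using IntermediateField.adjoin_induction with
  | mem x hx =>
    obtain ⟨d, hd0, hd, rfl⟩ := hx
    refine ⟨qExpand A d (jqModC A), 1, ifnInt_gen N A hd, ifnInt_one N A, by simp, ?_⟩
    rw [map_one, mul_one, coeffMap_qExpand, coeffMap_jqModC]
  | algebraMap c =>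
    obtain ⟨c, rfl⟩ := IsLocalRing.residue_surjective c
    refine ⟨HahnSeries.single 0 c, 1, ifnInt_const N A c, ifnInt_one N A, by simp, ?_⟩
    rw [map_one, mul_one, coeffMap_single, algebraMap_laurentSeries_eq_single]
  | add x y _ _ hx hy =>
    obtain ⟨a, b, ha, hb, hb0, h⟩ := hx
    obtain ⟨a', b', ha', hb', hb0', h'⟩ := hy
    refine ⟨a * b' + a' * b, b * b', ifnInt_add (ifnInt_mul ha hb') (ifnInt_mul ha' hb),
      ifnInt_mul hb hb', ?_, ?_⟩
    · rw [map_mul]; exact mul_ne_zero hb0 hb0'
    · rw [map_mul, map_add, map_mul, map_mul, ← h, ← h']; ring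
  | inv x _ hx =>
    obtain ⟨a, b, ha, hb, hb0, h⟩ := hx
    by_cases ha0 : coeffMap (IsLocalRing.residue A) a = 0
    · have hx0 : x = 0 := by
        rw [ha0] at h
        exact (mul_eq_zero.mp h).resolve_right hb0
      refine ⟨0, 1, ifnInt_zero N A, ifnInt_one N A, by simp, ?_⟩
      rw [hx0, inv_zero, zero_mul, map_zero]
    · have hx0 : x ≠ 0 := by
        rintro rfl
        rw [zero_mul] at h
        exact ha0 h.symm
      refine ⟨b, a, hb, ha, ha0, ?_⟩
      rw [← h, ← mul_assoc, inv_mul_cancel₀ hx0, one_mul]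
  | mul x y _ _ hx hy =>
    obtain ⟨a, b, ha, hb, hb0, h⟩ := hx
    obtain ⟨a', b', ha', hb', hb0', h'⟩ := hy
    refine ⟨a * a', b * b', ifnInt_mul ha ha', ifnInt_mul hb hb', ?_, ?_⟩
    · rw [map_mul]; exact mul_ne_zero hb0 hb0'
    · rw [map_mul, map_mul, ← h, ← h']; ring

/-- Every element of the function field over the residue field is the residue of an element of
the function field lying in the Gauss ring. -/
theorem ifn_exists_lift (x : LaurentSeries (IsLocalRing.ResidueField A))
    (hx : x ∈ modularFunctionFieldFullC (IsLocalRing.ResidueField A) N) :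
    ∃ (y : modularFunctionFieldBar N)
      (hy : (y : LaurentSeries (AlgebraicClosure ℚ)) ∈ grV A), grRho A ⟨_, hy⟩ = x := by
  obtain ⟨a, b, ha, hb, hb0, h⟩ := ifn_exists_quot N A x hx
  have hbQ : coeffMap A.subtype b ≠ 0 := fun hq => hb0 (by
    have : b = 0 := gr_inc_injective A (by rw [hq, map_zero])
    rw [this, map_zero])
  have hmem : coeffMap A.subtype a / coeffMap A.subtype b ∈ grV A :=
    ⟨a, b, hb0, div_mul_cancel₀ _ hbQ⟩
  refine ⟨⟨coeffMap A.subtype a / coeffMap A.subtype b, div_mem ha.1 hb.1⟩, hmem, ?_⟩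
  have hspec := grRho_spec A ⟨_, hmem⟩ a b hb0 (div_mul_cancel₀ _ hbQ)
  rw [← h] at hspec
  exact mul_right_cancel₀ hb0 hspec

end Lift

/-! ### Reduction of divisors of functions -/

section Red

variable {N : ℕ} [NeZero N] {A : ValuationSubring (AlgebraicClosure ℚ)}
variable {r : Place (AlgebraicClosure ℚ) (modularFunctionFieldBar N) →
  Place (IsLocalRing.ResidueField A) (modularFunctionFieldFullC (IsLocalRing.ResidueField A) N)}

theorem ifn_coeffMap_ne_zero {a : LaurentSeries A}
    (ha : coeffMap (IsLocalRing.residue A) a ≠ 0) : coeffMap A.subtype a ≠ 0 := fun hq => ha (by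
  have : a = 0 := gr_inc_injective A (by rw [hq, map_zero])
  rw [this, map_zero])

/-- The divisor of an integral series reduces to the divisor of its reduction. -/
theorem ifn_red_int (hr : IsPlaceReductionModL A N r) {a : LaurentSeries A} (ha : ifnInt N A a)
    (ha0 : coeffMap (IsLocalRing.residue A) a ≠ 0) :
    ∃ E : Divisor (AlgebraicClosure ℚ) (modularFunctionFieldBar N),
      Divisor.degree E = 0 ∧
      (∀ P, E P = P.ord (⟨coeffMap A.subtype a, ha.1⟩ : modularFunctionFieldBar N)) ∧
      ∀ Q, Finsupp.mapDomain r E Q =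
        Q.ord (⟨coeffMap (IsLocalRing.residue A) a, ha.2⟩ :
          modularFunctionFieldFullC (IsLocalRing.ResidueField A) N) := by
  have hne : (⟨coeffMap A.subtype a, ha.1⟩ : modularFunctionFieldBar N) ≠ 0 := fun h0 =>
    ifn_coeffMap_ne_zero ha0 (congrArg Subtype.val h0)
  obtain ⟨E, hE, hdeg⟩ := ifn_exists_divisor N _ hne
  exact ⟨E, hdeg, hE, hr.2 a ha.1 ha.2 ha0 E hE⟩

/-- The divisor of a nonzero function over the residue field is the reduction of a divisor of
degree zero. -/
theorem ifn_div_red (hr : IsPlaceReductionModL A N r)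
    (x : modularFunctionFieldFullC (IsLocalRing.ResidueField A) N) (hx : x ≠ 0) :
    ∃ E : Divisor (AlgebraicClosure ℚ) (modularFunctionFieldBar N),
      Divisor.degree E = 0 ∧ ∀ Q, Finsupp.mapDomain r E Q = Q.ord x := by
  obtain ⟨a, b, ha, hb, hb0, h⟩ := ifn_exists_quot N A (x : LaurentSeries _) x.2
  have ha0 : coeffMap (IsLocalRing.residue A) a ≠ 0 := by
    rw [← h]
    exact mul_ne_zero (fun h0 => hx (Subtype.ext h0)) hb0
  obtain ⟨Ea, hdega, -, hEa⟩ := ifn_red_int hr ha ha0
  obtain ⟨Eb, hdegb, -, hEb⟩ := ifn_red_int hr hb hb0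
  refine ⟨Ea - Eb, by rw [map_sub, hdega, hdegb, sub_zero], fun Q => ?_⟩
  have hb0' : (⟨coeffMap (IsLocalRing.residue A) b, hb.2⟩ :
      modularFunctionFieldFullC (IsLocalRing.ResidueField A) N) ≠ 0 := fun h0 =>
    hb0 (congrArg Subtype.val h0)
  have hxab : x * (⟨coeffMap (IsLocalRing.residue A) b, hb.2⟩ :
      modularFunctionFieldFullC (IsLocalRing.ResidueField A) N) =
      ⟨coeffMap (IsLocalRing.residue A) a, ha.2⟩ := Subtype.ext h
  rw [Finsupp.mapDomain_sub, Finsupp.sub_apply, hEa, hEb, ← hxab, Q.ord_mul hx hb0']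
  ring

/-- Degree of an effective divisor which is positive somewhere is positive. -/
theorem ifn_degree_pos {K F : Type*} [Field K] [Field F] [Algebra K F] (E : Divisor K F)
    (hE : ∀ Q, 0 ≤ E Q) (Q₀ : Place K F) (h0 : 0 < E Q₀) (hdeg : Q₀.deg = 1) :
    0 < Divisor.degree E := by
  classical
  show 0 < (Finsupp.liftAddHom fun v : Place K F => AddMonoidHom.mulRight ((v.deg : ℕ) : ℤ)) E
  rw [Finsupp.liftAddHom_apply, Finsupp.sum]
  have hmem : Q₀ ∈ E.support := by
    rw [Finsupp.mem_support_iff]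
    exact ne_of_gt h0
  have hle := Finset.single_le_sum (f := fun Q : Place K F =>
    (AddMonoidHom.mulRight ((Q.deg : ℕ) : ℤ)) (E Q)) (s := E.support)
    (fun Q _ => by
      show 0 ≤ E Q * ((Q.deg : ℕ) : ℤ)
      exact mul_nonneg (hE Q) (Int.natCast_nonneg _)) hmem
  have h1 : (AddMonoidHom.mulRight ((Q₀.deg : ℕ) : ℤ)) (E Q₀) = E Q₀ := by
    show E Q₀ * ((Q₀.deg : ℕ) : ℤ) = E Q₀
    rw [hdeg]; simp
  rw [h1] at hle
  exact lt_of_lt_of_le h0 hle

/-- Abstract form: on a function field in which every nonzero function has a divisor of degree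
zero and which has a place of degree one, a function with trivial divisor is constant. -/
theorem ifn_const_abs {K F : Type*} [Field K] [Field F] [Algebra K F]
    (Q₀ : Place K F) (hdeg0 : Q₀.deg = 1) (u : F) (hu : ∀ Q : Place K F, Q.ord u = 0)
    (hdiv : ∀ w : F, w ≠ 0 → ∃ E : Divisor K F, Divisor.degree E = 0 ∧ ∀ Q, E Q = Q.ord w) :
    ∃ c : K, u = algebraMap K F c := by
  have huQ : ∀ Q : Place K F, u ∈ Q.toValuationSubring :=
    fun Q => (Fermat.Agent.S24.sf_ord_nonneg_iff Q u).mp (by rw [hu Q])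
  have hres : ∀ w : Q₀.ResidueField, ∃ c : K, c • (1 : Q₀.ResidueField) = w :=
    (finrank_eq_one_iff_of_nonzero' (1 : Q₀.ResidueField) one_ne_zero).mp hdeg0
  obtain ⟨c, hc⟩ := hres (IsLocalRing.residue _ ⟨u, huQ Q₀⟩)
  refine ⟨c, ?_⟩
  by_contra hne
  set w : F := u - algebraMap K F c with hw
  have hw0 : w ≠ 0 := fun h0 => hne (sub_eq_zero.mp h0)
  have hwQ : ∀ Q : Place K F, w ∈ Q.toValuationSubring :=
    fun Q => sub_mem (huQ Q) (Q.algebraMap_mem' c)
  have hwmax : (⟨w, hwQ Q₀⟩ : Q₀.toValuationSubring) ∈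
      IsLocalRing.maximalIdeal Q₀.toValuationSubring := by
    rw [← IsLocalRing.residue_eq_zero_iff]
    have h1 : (⟨w, hwQ Q₀⟩ : Q₀.toValuationSubring) =
        ⟨u, huQ Q₀⟩ - algebraMap K Q₀.toValuationSubring c :=
      Subtype.ext rfl
    rw [h1, map_sub, ← hc, Algebra.smul_def, mul_one]
    exact sub_eq_zero.mpr rfl
  have hpos : 0 < Q₀.ord w := by
    rcases (Fermat.Agent.S24.sf_mem_maximalIdeal_iff_ord Q₀ ⟨w, hwQ Q₀⟩).mp hwmax with h0 | h0
    · exact absurd (congrArg Subtype.val h0) hw0
    · exact h0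
  obtain ⟨E, hdegE, hE⟩ := hdiv w hw0
  have hpos' := ifn_degree_pos E
    (fun Q => by rw [hE Q]; exact (Fermat.Agent.S24.sf_ord_nonneg_iff Q w).mpr (hwQ Q))
    Q₀ (by rw [hE]; exact hpos) hdeg0
  omega

/-- A function over the residue field with trivial divisor is constant. -/
theorem ifn_const_of_ord_zero (hr : IsPlaceReductionModL A N r)
    (u : modularFunctionFieldFullC (IsLocalRing.ResidueField A) N)
    (hu : ∀ Q : Place (IsLocalRing.ResidueField A)
      (modularFunctionFieldFullC (IsLocalRing.ResidueField A) N), Q.ord u = 0) :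
    ∃ c : IsLocalRing.ResidueField A,
      u = algebraMap (IsLocalRing.ResidueField A)
        (modularFunctionFieldFullC (IsLocalRing.ResidueField A) N) c := by
  obtain ⟨P₀⟩ := ifn_exists_place N
  have hfd := Fermat.Agent.S24.finiteDimensional_jBar' N
  have hdeg0 : (r P₀).deg = 1 := by
    rw [hr.1 P₀]
    exact Fermat.Agent.S24.place_deg_eq_one P₀ (Fermat.Agent.S24.jBar N)
  refine ifn_const_abs (r P₀) hdeg0 u hu fun w hw0 => ?_
  obtain ⟨E, hdegE, hE⟩ := ifn_div_red hr w hw0
  exact ⟨Finsupp.mapDomain r E, by rw [degree_mapDomain_of_deg_eq hr.1, hdegE], hE⟩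

/-- The "good" divisors: divisors of Gauss units of the function field whose reduction is the
divisor of the residue. -/
def ifnGood (A : ValuationSubring (AlgebraicClosure ℚ))
    (r : Place (AlgebraicClosure ℚ) (modularFunctionFieldBar N) →
      Place (IsLocalRing.ResidueField A)
        (modularFunctionFieldFullC (IsLocalRing.ResidueField A) N))
    (E : Divisor (AlgebraicClosure ℚ) (modularFunctionFieldBar N)) : Prop :=
  ∃ (y : modularFunctionFieldBar N)
    (yb : modularFunctionFieldFullC (IsLocalRing.ResidueField A) N),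
    y ≠ 0 ∧ yb ≠ 0 ∧
    (∃ hy : (y : LaurentSeries (AlgebraicClosure ℚ)) ∈ grV A,
      grRho A ⟨_, hy⟩ = (yb : LaurentSeries (IsLocalRing.ResidueField A))) ∧
    (∀ P, E P = P.ord y) ∧ ∀ Q, Finsupp.mapDomain r E Q = Q.ord yb

theorem ifnGood_of_mem (hr : IsPlaceReductionModL A N r)
    {E : Divisor (AlgebraicClosure ℚ) (modularFunctionFieldBar N)}
    (hE : E ∈ integralPrincipalDivisors A (IsLocalRing.residue A) N) : ifnGood A r E := by
  obtain ⟨y, hy, hyk, hne, hEy⟩ := hE
  refine ⟨⟨coeffMap A.subtype y, hy⟩, ⟨coeffMap (IsLocalRing.residue A) y, hyk⟩, ?_, ?_,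
    ⟨gr_coeffMap_mem A y, grRho_coeffMap A y⟩, hEy, hr.2 y hy hyk hne E hEy⟩
  · exact fun h0 => ifn_coeffMap_ne_zero hne (congrArg Subtype.val h0)
  · exact fun h0 => hne (congrArg Subtype.val h0)

theorem ifnGood_zero : ifnGood A r 0 := by
  refine ⟨1, 1, one_ne_zero, one_ne_zero, ⟨(grV A).one_mem, ?_⟩, fun P => by simp, fun Q => by simp⟩
  exact map_one (grRho A)

theorem ifnGood_add {E E' : Divisor (AlgebraicClosure ℚ) (modularFunctionFieldBar N)}
    (h : ifnGood A r E) (h' : ifnGood A r E') : ifnGood A r (E + E') := by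
  obtain ⟨y, yb, hy0, hyb0, ⟨hy, hyr⟩, hE, hrE⟩ := h
  obtain ⟨y', yb', hy0', hyb0', ⟨hy', hyr'⟩, hE', hrE'⟩ := h'
  refine ⟨y * y', yb * yb', mul_ne_zero hy0 hy0', mul_ne_zero hyb0 hyb0',
    ⟨(grV A).mul_mem hy hy', ?_⟩, fun P => ?_, fun Q => ?_⟩
  · have : (⟨((y * y' : modularFunctionFieldBar N) : LaurentSeries (AlgebraicClosure ℚ)),
        (grV A).mul_mem hy hy'⟩ : grV A) = ⟨_, hy⟩ * ⟨_, hy'⟩ := rfl
    rw [this, map_mul, hyr, hyr']
    rfl
  · rw [Finsupp.add_apply, hE, hE', P.ord_mul hy0 hy0']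
  · rw [Finsupp.mapDomain_add, Finsupp.add_apply, hrE, hrE', Q.ord_mul hyb0 hyb0']

theorem ifnGood_neg {E : Divisor (AlgebraicClosure ℚ) (modularFunctionFieldBar N)}
    (h : ifnGood A r E) : ifnGood A r (-E) := by
  obtain ⟨y, yb, hy0, hyb0, ⟨hy, hyr⟩, hE, hrE⟩ := h
  have hne : grRho A ⟨_, hy⟩ ≠ 0 := by
    rw [hyr]
    exact fun h0 => hyb0 (Subtype.ext h0)
  refine ⟨y⁻¹, yb⁻¹, inv_ne_zero hy0, inv_ne_zero hyb0,
    ⟨gr_inv_mem A ⟨_, hy⟩ hne, ?_⟩, fun P => ?_, fun Q => ?_⟩
  · have := grRho_inv A ⟨_, hy⟩ hne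
    rw [hyr] at this
    exact this
  · rw [Finsupp.neg_apply, hE, P.ord_inv]
  · have : Finsupp.mapDomain r (-E) = -Finsupp.mapDomain r E := by
      rw [← Finsupp.mapDomain.addMonoidHom_apply, map_neg, Finsupp.mapDomain.addMonoidHom_apply]
    rw [this, Finsupp.neg_apply, hrE, Q.ord_inv]

/-- Every principal divisor is good. -/
theorem ifnGood_of_principal (hr : IsPlaceReductionModL A N r)
    (hgen : PrincipalGeneratedByIntegral A (IsLocalRing.residue A) N)
    {E : Divisor (AlgebraicClosure ℚ) (modularFunctionFieldBar N)}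
    (hE : E ∈ Divisor.principal (K := AlgebraicClosure ℚ) (F := modularFunctionFieldBar N)) :
    ifnGood A r E := by
  have hE' := hgen hE
  clear hE
  induction hE' using AddSubgroup.closure_induction with
  | mem E hE => exact ifnGood_of_mem hr hE
  | zero => exact ifnGood_zero
  | add E E' _ _ hE hE' => exact ifnGood_add hE hE'
  | neg E _ hE => exact ifnGood_neg hE

end Red

/-! ### The normal form -/

section Main

/-- Every element of the residue field of a valuation ring of `ℚ̄` is an `m`-th power. -/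
theorem ifn_exists_pow_eq (A : ValuationSubring (AlgebraicClosure ℚ))
    (c : IsLocalRing.ResidueField A) {m : ℕ} (hm : 0 < m) :
    ∃ z : IsLocalRing.ResidueField A, z ^ m = c := by
  obtain ⟨c, rfl⟩ := IsLocalRing.residue_surjective c
  obtain ⟨x, hx⟩ := IsAlgClosed.exists_pow_nat_eq (c : AlgebraicClosure ℚ) hm
  have hxA : x ∈ A := by
    rw [← A.valuation_le_one_iff]
    have h1 : A.valuation (x ^ m) ≤ 1 := by
      rw [hx]
      exact (A.valuation_le_one_iff _).mpr c.2
    rw [map_pow] at h1
    exact (pow_le_one_iff hm.ne').mp h1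
  refine ⟨IsLocalRing.residue A ⟨x, hxA⟩, ?_⟩
  rw [← map_pow]
  congr 1
  exact Subtype.ext hx

/-- **Normal form.** If `m • [D] = 0` and the reduction of `[D]` vanishes, then `m D = div Y` for a
Gauss unit `Y` of the function field whose residue is the `m`-th power of the residue of a Gauss
unit `g'` of the function field. -/
theorem ifn_normal_form (N : ℕ) [NeZero N] (A : ValuationSubring (AlgebraicClosure ℚ))
    (h : ReductionInputsModL A N) (m : ℕ) (hm : 0 < m)
    (D : Divisor.degZero (K := AlgebraicClosure ℚ) (F := modularFunctionFieldBar N))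
    (hmD : m • Pic0.mk D = 0) (hred : reductionModL A N (Pic0.mk D) = 0) :
    ∃ Y g' : modularFunctionFieldBar N, Y ≠ 0 ∧ g' ≠ 0 ∧
      (∀ P : Place (AlgebraicClosure ℚ) (modularFunctionFieldBar N),
        P.ord Y = m * (D : Divisor (AlgebraicClosure ℚ) (modularFunctionFieldBar N)) P) ∧
      ∃ (hY : (Y : LaurentSeries (AlgebraicClosure ℚ)) ∈ grV A)
        (hg : (g' : LaurentSeries (AlgebraicClosure ℚ)) ∈ grV A),
        grRho A ⟨_, hg⟩ ≠ 0 ∧ grRho A ⟨_, hY⟩ = grRho A ⟨_, hg⟩ ^ m := by
  have hr : IsPlaceReductionModL A N (placeReductionModL h) :=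
    isPlaceReductionModL_placeReductionModL h
  have hgen : PrincipalGeneratedByIntegral A (IsLocalRing.residue A) N := h.choose_spec.2
  -- (i) `m • D` is principal, hence good
  have h1 : m • (D : Divisor (AlgebraicClosure ℚ) (modularFunctionFieldBar N)) ∈
      Divisor.principal (K := AlgebraicClosure ℚ) (F := modularFunctionFieldBar N) := by
    have h2 : Pic0.mk (m • D) = 0 := hmD
    have h3 := (QuotientAddGroup.eq_zero_iff _).mp h2
    rw [AddSubgroup.mem_addSubgroupOf] at h3
    simpa using h3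
  obtain ⟨Y, Yb, hY0, hYb0, ⟨hY, hYr⟩, hYE, hYrE⟩ := ifnGood_of_principal hr hgen h1
  -- (ii) the reduction of `D` is principal
  have h4 : Finsupp.mapDomain (placeReductionModL h)
      (D : Divisor (AlgebraicClosure ℚ) (modularFunctionFieldBar N)) ∈
      Divisor.principal (K := IsLocalRing.ResidueField A)
        (F := modularFunctionFieldFullC (IsLocalRing.ResidueField A) N) := by
    rw [reductionModL_mk h D] at hred
    have h5 := (QuotientAddGroup.eq_zero_iff _).mp hred
    rw [AddSubgroup.mem_addSubgroupOf] at h5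
    exact h5
  obtain ⟨gb, hgb0, hgb⟩ := h4
  -- (iii) `Yb / gb ^ m` has trivial divisor, hence is constant
  have hu : ∀ Q : Place (IsLocalRing.ResidueField A)
      (modularFunctionFieldFullC (IsLocalRing.ResidueField A) N), Q.ord (Yb / gb ^ m) = 0 := by
    intro Q
    rw [Fermat.Agent.S24.sf_ord_div Q hYb0 (pow_ne_zero m hgb0), Fermat.Agent.S24.sf_ord_pow,
      ← hYrE, Finsupp.mapDomain_smul, Finsupp.smul_apply, hgb Q]
    simp
  obtain ⟨c, hc⟩ := ifn_const_of_ord_zero hr _ hu
  obtain ⟨c1, hc1⟩ := ifn_exists_pow_eq A c hm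
  have hYb : Yb = (algebraMap (IsLocalRing.ResidueField A)
      (modularFunctionFieldFullC (IsLocalRing.ResidueField A) N) c1 * gb) ^ m := by
    rw [mul_pow, ← map_pow, hc1, ← hc, div_mul_cancel₀ _ (pow_ne_zero m hgb0)]
  have hg1 : algebraMap (IsLocalRing.ResidueField A)
      (modularFunctionFieldFullC (IsLocalRing.ResidueField A) N) c1 * gb ≠ 0 := by
    intro h0
    rw [h0, zero_pow hm.ne'] at hYb
    exact hYb0 hYb
  obtain ⟨g', hg', hg'r⟩ := ifn_exists_lift N A
    ((algebraMap (IsLocalRing.ResidueField A)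
      (modularFunctionFieldFullC (IsLocalRing.ResidueField A) N) c1 * gb :
        modularFunctionFieldFullC (IsLocalRing.ResidueField A) N) :
      LaurentSeries (IsLocalRing.ResidueField A)) (SetLike.coe_mem _)
  have hne : grRho A ⟨_, hg'⟩ ≠ 0 := by
    rw [hg'r]
    exact fun h0 => hg1 (Subtype.ext h0)
  refine ⟨Y, g', hY0, ?_, fun P => ?_, hY, hg', hne, ?_⟩
  · rintro rfl
    apply hne
    have : (⟨((0 : modularFunctionFieldBar N) : LaurentSeries (AlgebraicClosure ℚ)), hg'⟩ :
        grV A) = 0 := rfl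
    rw [this, map_zero]
  · rw [← hYE, Finsupp.smul_apply, nsmul_eq_mul]
  · rw [hYr, hg'r, hYb]
    rfl

end Main

end Fermat.Agent.S18
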