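import Mathlib
import Fermat.Prelude.Def_AlgebraicCurve_DivisorClassGroup
import Fermat.Agent.S24.SumFormulaBase

/-!
# S18 interface helpers

* `ifr_residue_isAlgClosed`: the residue field of a valuation subring of an algebraically closed
  field is algebraically closed.
* `ifr_conclude`: if `p • D = div Y` and `Y = c * g ^ p` with `c` a constant, then the class of
  `D` in `Pic0` vanishes.
* `ifr_prime_order`: a nonzero torsion element has a multiple of prime order.
-/

namespace Fermat.Agent.S18

open AlgebraicCurve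

/-- The residue field of a valuation subring of an algebraically closed field is algebraically
closed. -/
theorem ifr_residue_isAlgClosed {K : Type*} [Field K] [IsAlgClosed K] (A : ValuationSubring K) :
    IsAlgClosed (IsLocalRing.ResidueField A) := by
  apply IsAlgClosed.of_exists_root
  intro p hpm hpirr
  have hsurj : Function.Surjective (IsLocalRing.residue A) := IsLocalRing.residue_surjective
  have hlift : p ∈ Polynomial.lifts (IsLocalRing.residue A) :=
    (Polynomial.mem_lifts p).mpr (Polynomial.map_surjective _ hsurj p)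
  obtain ⟨P, hPmap, hPdeg, hPm⟩ := Polynomial.lifts_and_degree_eq_and_monic hlift hpm
  have hinj : Function.Injective A.subtype := Subtype.val_injective
  have hdeg : (P.map A.subtype).degree ≠ 0 := by
    rw [Polynomial.degree_map_eq_of_injective hinj, hPdeg]
    exact Polynomial.degree_ne_of_natDegree_ne
      (Polynomial.natDegree_pos_iff_degree_pos.mpr
        (Polynomial.degree_pos_of_irreducible hpirr)).ne'
  obtain ⟨x, hx⟩ := IsAlgClosed.exists_root (P.map A.subtype) hdeg
  have hint : IsIntegral A x := by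
    refine ⟨P, hPm, ?_⟩
    rw [Polynomial.eval₂_eq_eval_map]
    exact hx
  obtain ⟨y, rfl⟩ := IsIntegrallyClosed.algebraMap_eq_of_integral hint
  have hy : P.eval y = 0 := by
    have h1 : (P.map A.subtype).eval (A.subtype y) = A.subtype (P.eval y) :=
      Polynomial.eval_map_apply A.subtype y
    have h2 : A.subtype (P.eval y) = 0 := by rw [← h1]; exact hx
    exact hinj (by rw [h2, map_zero])
  refine ⟨IsLocalRing.residue A y, ?_⟩
  rw [← hPmap, Polynomial.eval_map_apply, hy, map_zero]

/-- If `p • D` is the divisor of `Y` and `Y` is a constant times a `p`-th power, then `D` is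
principal, so its class in `Pic0` is zero. -/
theorem ifr_conclude {K F : Type*} [Field K] [Field F] [Algebra K F]
    (D : Divisor.degZero (K := K) (F := F)) (p : ℕ) (hp : p ≠ 0) (Y g : F) (hY : Y ≠ 0)
    (hord : ∀ P : Place K F, P.ord Y = p * (D : Divisor K F) P)
    (c : K) (hYg : Y = algebraMap K F c * g ^ p) : Pic0.mk D = 0 := by
  have hc : algebraMap K F c ≠ 0 := by
    intro h0
    exact hY (by rw [hYg, h0, zero_mul])
  have hg : g ≠ 0 := by
    intro h0
    exact hY (by rw [hYg, h0, zero_pow hp, mul_zero])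
  have hD : ∀ P : Place K F, (D : Divisor K F) P = P.ord g := by
    intro P
    have h1 : P.ord Y = (p : ℤ) * P.ord g := by
      rw [hYg, P.ord_mul hc (pow_ne_zero p hg), Fermat.Agent.S24.sf_ord_algebraMap, zero_add,
        ← zpow_natCast, P.ord_zpow]
    have h2 : (p : ℤ) * (D : Divisor K F) P = (p : ℤ) * P.ord g := by rw [← hord P, h1]
    exact mul_left_cancel₀ (by exact_mod_cast hp) h2
  have hprin : (D : Divisor K F) ∈ Divisor.principal (K := K) (F := F) := ⟨g, hg, hD⟩
  exact (QuotientAddGroup.eq_zero_iff D).mpr (AddSubgroup.mem_addSubgroupOf.mpr hprin)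

/-- A nonzero element killed by `m ≠ 0` has a multiple of prime order `p ∣ m`. -/
theorem ifr_prime_order {G : Type*} [AddCommGroup G] (m : ℕ) (hm : m ≠ 0) (z : G) (hz : z ≠ 0)
    (hmz : m • z = 0) :
    ∃ p : ℕ, p.Prime ∧ p ∣ m ∧ ∃ k : ℕ, k • z ≠ 0 ∧ p • (k • z) = 0 := by
  have hdvd : addOrderOf z ∣ m := addOrderOf_dvd_of_nsmul_eq_zero hmz
  have hn0 : addOrderOf z ≠ 0 := fun h0 => hm (by simpa [h0] using hdvd)
  have hn1 : addOrderOf z ≠ 1 := fun h1 => hz (AddMonoid.addOrderOf_eq_one_iff.mp h1)
  have hpp : (addOrderOf z).minFac.Prime := Nat.minFac_prime hn1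
  have hpn : (addOrderOf z).minFac ∣ addOrderOf z := Nat.minFac_dvd _
  refine ⟨(addOrderOf z).minFac, hpp, hpn.trans hdvd, addOrderOf z / (addOrderOf z).minFac, ?_, ?_⟩
  · intro h0
    have h1 : addOrderOf z ∣ addOrderOf z / (addOrderOf z).minFac :=
      addOrderOf_dvd_of_nsmul_eq_zero h0
    have hpos : 0 < addOrderOf z / (addOrderOf z).minFac :=
      Nat.div_pos (Nat.le_of_dvd (Nat.pos_of_ne_zero hn0) hpn) hpp.pos
    have h2 := Nat.le_of_dvd hpos h1
    have h3 : addOrderOf z / (addOrderOf z).minFac < addOrderOf z :=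
      Nat.div_lt_self (Nat.pos_of_ne_zero hn0) hpp.one_lt
    omega
  · rw [← mul_nsmul', Nat.mul_div_cancel' hpn]
    exact addOrderOf_nsmul_eq_zero z

end Fermat.Agent.S18
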