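import Mathlib

/-!
# S18, interface step: Kummer descent along an integral valuation ring extension

`F ⊆ F'` fields, `O'` a valuation subring of `F'` which is integral over `O' ∩ F`
(so `O'` is the only valuation ring of `F'` above `O' ∩ F`), `p` a prime which is a unit of `O'`,
`ζ ∈ F` a primitive `p`-th root of unity.  If `Y ∈ F` is a `p`-th power `g ^ p` in `F'` and
`Y ≡ g' ^ p` modulo the maximal ideal for some `g' ∈ F`, then already `g ∈ F`.

Main statement: `kum_descent`.  Mathlib only.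
-/

set_option autoImplicit false

open Polynomial

namespace Fermat.Agent.S18

section KummerDescent

variable {F' : Type*} [Field F']

/-- A field with a nontrivial `p`-th root of unity does not have characteristic `p`. -/
theorem kum_natCast_ne_zero {p : ℕ} (hp : p.Prime) {ζ : F'} (hζp : ζ ^ p = 1) (hζ1 : ζ ≠ 1) :
    (p : F') ≠ 0 := by
  intro h0
  have : Fact p.Prime := ⟨hp⟩
  have hchar : ringChar F' = p := by
    have hdvd : ringChar F' ∣ p := (ringChar.spec F' p).mp h0
    rcases (Nat.dvd_prime hp).mp hdvd with h | h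
    · exact absurd h CharP.ringChar_ne_one
    · exact h
  have : CharP F' p := ringChar.of_eq hchar
  have h1 : (ζ - 1) ^ p = 0 := by rw [sub_pow_char, hζp, one_pow, sub_self]
  exact hζ1 (sub_eq_zero.mp ((pow_eq_zero_iff hp.ne_zero).mp h1))

/-- `p` is a unit of the valuation ring, in valuation form. -/
theorem kum_val_natCast_eq_one (O' : ValuationSubring F') {p : ℕ} (hpF : (p : F') ≠ 0)
    (hpO : ((p : F'))⁻¹ ∈ O') : O'.valuation (p : F') = 1 := by
  have h1 : O'.valuation (p : F') ≤ 1 := (O'.valuation_le_one_iff _).mpr (natCast_mem O' p)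
  have h2 : O'.valuation ((p : F'))⁻¹ ≤ 1 := (O'.valuation_le_one_iff _).mpr hpO
  rw [map_inv₀] at h2
  have hp0 : O'.valuation (p : F') ≠ 0 := (Valuation.ne_zero_iff _).mpr hpF
  have h3 : 1 ≤ O'.valuation (p : F') := by
    rwa [inv_le_one₀ (zero_lt_iff.mpr hp0)] at h2
  exact le_antisymm h1 h3

/-- If `u ≡ 1` then `u ^ i ≡ 1`. -/
theorem kum_val_pow_sub_one_lt (O' : ValuationSubring F') {u : F'}
    (hu : O'.valuation (u - 1) < 1) (i : ℕ) : O'.valuation (u ^ i - 1) < 1 := by
  have hu1 : O'.valuation u = 1 := by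
    have := Valuation.map_one_add_of_lt (v := O'.valuation) hu
    rwa [add_sub_cancel] at this
  rw [← geom_sum_mul u i, map_mul]
  have hs : O'.valuation (∑ j ∈ Finset.range i, u ^ j) ≤ 1 := by
    apply Valuation.map_sum_le
    intro j _
    rw [map_pow, hu1, one_pow]
  calc O'.valuation (∑ j ∈ Finset.range i, u ^ j) * O'.valuation (u - 1)
      ≤ 1 * O'.valuation (u - 1) := mul_le_mul_left hs _
    _ < 1 := by rwa [one_mul]

/-- The geometric sum `1 + u + ⋯ + u^(p-1)` is a unit when `u ≡ 1` and `p` is a unit. -/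
theorem kum_val_geom_sum (O' : ValuationSubring F') {p : ℕ} (hpF : (p : F') ≠ 0)
    (hpO : ((p : F'))⁻¹ ∈ O') {u : F'} (hu : O'.valuation (u - 1) < 1) :
    O'.valuation (∑ j ∈ Finset.range p, u ^ j) = 1 := by
  have hp1 := kum_val_natCast_eq_one O' hpF hpO
  have hdecomp : (∑ j ∈ Finset.range p, u ^ j) = (p : F') + ∑ j ∈ Finset.range p, (u ^ j - 1) := by
    rw [Finset.sum_sub_distrib]
    simp
  have hsmall : O'.valuation (∑ j ∈ Finset.range p, (u ^ j - 1)) < 1 := by
    apply Valuation.map_sum_lt _ (by simp)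
    intro j _
    exact kum_val_pow_sub_one_lt O' hu j
  have hadd := Valuation.map_add_eq_of_lt_left (v := O'.valuation) (x := (p : F'))
    (y := ∑ j ∈ Finset.range p, (u ^ j - 1)) (by rw [hp1]; exact hsmall)
  rw [hdecomp, hadd, hp1]

/-- Core of the descent: `u ^ p ∈ F`, `u ≡ 1` modulo the maximal ideal of `O'`, and `O'` integral
over `O' ∩ F`, imply `u ∈ F`. -/
theorem kum_core (F : Subfield F') (O' : ValuationSubring F')
    (hint : ∀ x ∈ O', ∃ P : Polynomial F, P.Monic ∧ (∀ i, ((P.coeff i : F) : F') ∈ O') ∧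
      Polynomial.aeval x P = 0)
    {p : ℕ} (hp : p.Prime) (hpO : ((p : F'))⁻¹ ∈ O')
    {ζ : F'} (hζF : ζ ∈ F) (hζp : ζ ^ p = 1) (hζ1 : ζ ≠ 1)
    {u : F'} (hup : u ^ p ∈ F) (hu : u - 1 ∈ O'.nonunits) : u ∈ F := by
  classical
  by_contra huF
  have hp0 : p ≠ 0 := hp.ne_zero
  have : NeZero p := ⟨hp0⟩
  have : Fact p.Prime := ⟨hp⟩
  have hpF : (p : F') ≠ 0 := kum_natCast_ne_zero hp hζp hζ1
  rw [ValuationSubring.mem_nonunits_iff] at hu
  have hu1 : O'.valuation u = 1 := by
    have := Valuation.map_one_add_of_lt (v := O'.valuation) hu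
    rwa [add_sub_cancel] at this
  have hζprim : IsPrimitiveRoot ζ p := by
    have := IsPrimitiveRoot.orderOf ζ
    rwa [orderOf_eq_prime hζp hζ1] at this
  -- p-th roots of `u ^ p` in `F` would put `u` in `F`
  have hroot : ∀ b : F', b ∈ F → b ^ p = u ^ p → False := by
    intro b hbF hb
    by_cases hb0 : b = 0
    · rw [hb0, zero_pow hp0] at hb
      have : u = 0 := by
        by_contra h
        exact pow_ne_zero p h hb.symm
      exact huF (this ▸ F.zero_mem)
    · have h1 : (u / b) ^ p = 1 := by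
        rw [div_pow, hb, div_self]
        rw [← hb]
        exact pow_ne_zero p hb0
      obtain ⟨i, -, hi⟩ := hζprim.eq_pow_of_pow_eq_one h1
      have : u = ζ ^ i * b := by
        rw [hi]
        field_simp
      exact huF (this ▸ F.mul_mem (F.pow_mem hζF i) hbF)
  -- the elements `Y = u ^ p` and `c = u ^ p - 1` of `F`
  set Y : F := ⟨u ^ p, hup⟩ with hY
  have hirr : Irreducible (X ^ p - C Y : F[X]) := by
    apply X_pow_sub_C_irreducible_of_prime hp
    intro b hb
    apply hroot (b : F') b.2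
    have := congrArg (Subtype.val) hb
    simpa [hY] using this
  have hminu : minpoly F u = X ^ p - C Y := by
    refine (minpoly.eq_of_irreducible_of_monic hirr ?_ (monic_X_pow_sub_C Y hp0)).symm
    simp [hY, Algebra.algebraMap_ofSubsemiring_apply]
  have hc_mem : u ^ p - 1 ∈ F := F.sub_mem hup F.one_mem
  set cF : F := ⟨u ^ p - 1, hc_mem⟩ with hcF
  have hc0 : u ^ p - 1 ≠ 0 := by
    intro h
    apply hroot 1 F.one_mem
    rw [one_pow]
    exact (sub_eq_zero.mp h).symm
  have hcF0 : cF ≠ 0 := by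
    intro h
    exact hc0 (congrArg Subtype.val h)
  -- the unit `s = 1 + u + ⋯ + u^(p-1)` and `w = s⁻¹`
  set s : F' := ∑ j ∈ Finset.range p, u ^ j with hs
  have hsv : O'.valuation s = 1 := kum_val_geom_sum O' hpF hpO hu
  have hs0 : s ≠ 0 := by
    intro h
    rw [h, map_zero] at hsv
    exact zero_ne_one hsv
  have hsmul : s * (u - 1) = u ^ p - 1 := geom_sum_mul u p
  set w : F' := s⁻¹ with hw
  have hwO : w ∈ O' := by
    rw [← O'.valuation_le_one_iff, hw, map_inv₀, hsv, inv_one]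
  have hcv : O'.valuation (u ^ p - 1) < 1 := by
    rw [← hsmul, map_mul, hsv, one_mul]
    exact hu
  have hcw : (cF : F') * w = u - 1 := by
    show (u ^ p - 1) * s⁻¹ = u - 1
    rw [← hsmul]
    field_simp
  have huw : u = (cF : F') * w + 1 := by
    rw [hcw]
    ring
  have hwu : w = (cF : F')⁻¹ * (u - 1) := by
    have hc' : (cF : F') ≠ 0 := hc0
    rw [← hcw]
    field_simp
  -- the monic polynomial `Gm = (X + c⁻¹)^p - Y / c^p` kills `w`
  set Gm : F[X] := (X ^ p - C (Y * (cF ^ p)⁻¹)).comp (X + C cF⁻¹) with hGm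
  have hGm_monic : Gm.Monic := (monic_X_pow_sub_C _ hp0).comp_X_add_C _
  have hGm_deg : Gm.natDegree = p := by
    rw [hGm, natDegree_comp, natDegree_X_pow_sub_C, natDegree_X_add_C, mul_one]
  have hGm_w : Polynomial.aeval w Gm = 0 := by
    rw [hGm, aeval_comp]
    simp only [map_add, aeval_X, aeval_C, map_sub, map_pow]
    have h1 : algebraMap F F' cF⁻¹ = (cF : F')⁻¹ := by
      rw [map_inv₀]; rfl
    have h2 : algebraMap F F' (Y * (cF ^ p)⁻¹) = u ^ p * ((cF : F') ^ p)⁻¹ := by
      rw [map_mul, map_inv₀, map_pow]; rfl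
    rw [h1, h2]
    have hc' : (cF : F') ≠ 0 := hc0
    have h3 : w + (cF : F')⁻¹ = u * (cF : F')⁻¹ := by
      rw [huw]
      field_simp
    rw [h3, mul_pow, inv_pow, sub_self]
  have hw_int : IsIntegral F w := ⟨Gm, hGm_monic, by rwa [← Polynomial.aeval_def]⟩
  have hdvd : minpoly F w ∣ Gm := minpoly.dvd F w hGm_w
  -- degree of the minimal polynomial of `w` is at least `p`
  have hdeg : p ≤ (minpoly F w).natDegree := by
    set Q : F[X] := (minpoly F w).comp (C cF⁻¹ * X - C cF⁻¹) with hQ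
    have hlin : (C cF⁻¹ * X - C cF⁻¹ : F[X]).natDegree = 1 := by
      rw [natDegree_sub_C, natDegree_C_mul_X _ (inv_ne_zero hcF0)]
    have hQdeg : Q.natDegree = (minpoly F w).natDegree := by
      rw [hQ, natDegree_comp, hlin, mul_one]
    have hQu : Polynomial.aeval u Q = 0 := by
      rw [hQ, aeval_comp]
      simp only [map_sub, map_mul, aeval_C, aeval_X]
      have h1 : algebraMap F F' cF⁻¹ = (cF : F')⁻¹ := by
        rw [map_inv₀]; rfl
      rw [h1, ← mul_sub_one, ← hwu]
      exact minpoly.aeval F w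
    have hQ0 : Q ≠ 0 := by
      intro h
      have h1 : Q.natDegree = 0 := by rw [h, natDegree_zero]
      rw [hQdeg] at h1
      exact (minpoly.natDegree_pos hw_int).ne' h1
    have h2 := natDegree_le_of_dvd (minpoly.dvd F u hQu) hQ0
    rw [hminu, natDegree_X_pow_sub_C, hQdeg] at h2
    exact h2
  have hmw : Gm = minpoly F w :=
    eq_of_monic_of_dvd_of_natDegree_le (minpoly.monic hw_int) hGm_monic hdvd (hGm_deg ▸ hdeg)
  -- constant coefficient of `Gm`
  have hcoeff0 : Gm.coeff 0 = -(cF ^ (p - 1))⁻¹ := by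
    rw [coeff_zero_eq_eval_zero, hGm, eval_comp]
    simp only [eval_add, eval_X, eval_C, zero_add, eval_sub, eval_pow]
    have hY1 : Y = cF + 1 := by
      apply Subtype.ext
      show u ^ p = (u ^ p - 1) + 1
      ring
    obtain ⟨n, hn⟩ : ∃ n, p = n + 1 := ⟨p - 1, (Nat.succ_pred_eq_of_pos hp.pos).symm⟩
    rw [hY1, hn, Nat.add_sub_cancel, inv_pow]
    field_simp
    ring
  -- Gauss lemma over the valuation ring `O' ∩ F`
  obtain ⟨P, hPmonic, hPcoeff, hPw⟩ := hint w hwO
  set Oc : ValuationSubring F := O'.comap F.subtype with hOc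
  have hPsub : (↑P.coeffs : Set F) ⊆ Oc.toSubring := by
    intro a ha
    rw [Finset.mem_coe, mem_coeffs_iff] at ha
    obtain ⟨n, -, rfl⟩ := ha
    exact hPcoeff n
  set P0 : Oc.toSubring[X] := P.toSubring Oc.toSubring hPsub with hP0
  have hP0monic : P0.Monic := (monic_toSubring P Oc.toSubring hPsub).mpr hPmonic
  have hP0map : P0.map (algebraMap Oc F) = P := map_toSubring P Oc.toSubring hPsub
  have hdvdP : minpoly F w ∣ P0.map (algebraMap Oc F) := by
    rw [hP0map]
    exact minpoly.dvd F w hPw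
  obtain ⟨g', hg'⟩ := IsIntegrallyClosed.eq_map_mul_C_of_dvd (R := Oc) F hP0monic hdvdP
  rw [(minpoly.monic hw_int).leadingCoeff, C_1, mul_one] at hg'
  have hmem : (((minpoly F w).coeff 0 : F) : F') ∈ O' := by
    rw [← hg', coeff_map]
    exact (g'.coeff 0).2
  rw [← hmw, hcoeff0] at hmem
  -- contradiction: `c ^ (p-1)` is a nonunit with inverse in `O'`
  have hval : O'.valuation (((-(cF ^ (p - 1))⁻¹ : F) : F')) ≤ 1 := (O'.valuation_le_one_iff _).mpr hmem
  have hcast : (((-(cF ^ (p - 1))⁻¹ : F) : F')) = -((u ^ p - 1) ^ (p - 1))⁻¹ := by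
    push_cast
    rfl
  rw [hcast, Valuation.map_neg, map_inv₀, map_pow] at hval
  have hcv0 : O'.valuation (u ^ p - 1) ≠ 0 := (Valuation.ne_zero_iff _).mpr hc0
  have hpow_lt : O'.valuation (u ^ p - 1) ^ (p - 1) < 1 :=
    pow_lt_one₀ zero_le hcv (Nat.sub_ne_zero_of_lt hp.one_lt)
  have hpow_pos : 0 < O'.valuation (u ^ p - 1) ^ (p - 1) := zero_lt_iff.mpr (pow_ne_zero _ hcv0)
  rw [inv_le_one₀ hpow_pos] at hval
  exact absurd hpow_lt (not_lt.mpr hval)

/-- **Kummer descent.**  `F ⊆ F'` fields, `O'` a valuation subring of `F'` integral over `O' ∩ F`,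
`p` a prime that is a unit of `O'`, `ζ ∈ F` a nontrivial `p`-th root of unity.  If `g ^ p ∈ F` and
`g ^ p ≡ g' ^ p` modulo the maximal ideal of `O'` for some nonzero `g' ∈ F`, then `g ∈ F`. -/
theorem kum_descent (F : Subfield F') (O' : ValuationSubring F')
    (hint : ∀ x ∈ O', ∃ P : Polynomial F, P.Monic ∧ (∀ i, ((P.coeff i : F) : F') ∈ O') ∧
      Polynomial.aeval x P = 0)
    {p : ℕ} (hp : p.Prime) (hpO : ((p : F'))⁻¹ ∈ O')
    {ζ : F'} (hζF : ζ ∈ F) (hζp : ζ ^ p = 1) (hζ1 : ζ ≠ 1)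
    {g g' : F'} (hgp : g ^ p ∈ F) (hg'F : g' ∈ F) (hg'0 : g' ≠ 0)
    (hred : g ^ p / g' ^ p - 1 ∈ O'.nonunits) : g ∈ F := by
  classical
  have hp0 : p ≠ 0 := hp.ne_zero
  have : NeZero p := ⟨hp0⟩
  have : Fact p.Prime := ⟨hp⟩
  have hζprim : IsPrimitiveRoot ζ p := by
    have := IsPrimitiveRoot.orderOf ζ
    rwa [orderOf_eq_prime hζp hζ1] at this
  set u₀ : F' := g / g' with hu₀
  have hu₀p : u₀ ^ p = g ^ p / g' ^ p := div_pow g g' p
  rw [← hu₀p, ValuationSubring.mem_nonunits_iff] at hred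
  -- `∏ (u₀ - ζ^i) = u₀^p - 1`
  have hprod : ∏ i ∈ Finset.range p, (u₀ - ζ ^ i) = u₀ ^ p - 1 := by
    have h := X_pow_sub_one_eq_prod hp.pos hζprim
    have h2 := congrArg (Polynomial.eval u₀) h
    rw [eval_sub, eval_pow, eval_X, eval_one, eval_prod] at h2
    rw [h2]
    have himg : nthRootsFinset p (1 : F') = (Finset.range p).image (fun i => ζ ^ i) := by
      ext x
      rw [mem_nthRootsFinset hp.pos, Finset.mem_image]
      constructor
      · intro hx
        obtain ⟨i, hi, rfl⟩ := hζprim.eq_pow_of_pow_eq_one hx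
        exact ⟨i, Finset.mem_range.mpr hi, rfl⟩
      · rintro ⟨i, -, rfl⟩
        rw [← pow_mul, mul_comm, pow_mul, hζp, one_pow]
    rw [himg, Finset.prod_image]
    · simp
    · intro i hi j hj hij
      exact hζprim.pow_inj (Finset.mem_range.mp hi) (Finset.mem_range.mp hj) hij
  -- some factor is a nonunit
  have hex : ∃ i ∈ Finset.range p, O'.valuation (u₀ - ζ ^ i) < 1 := by
    by_contra hne
    push Not at hne
    have h1 : 1 ≤ O'.valuation (∏ i ∈ Finset.range p, (u₀ - ζ ^ i)) := by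
      rw [map_prod]
      exact Finset.one_le_prod' hne
    rw [hprod] at h1
    exact absurd hred (not_lt.mpr h1)
  obtain ⟨i, -, hi⟩ := hex
  have hζ0 : ζ ≠ 0 := hζprim.ne_zero hp0
  have hζv : O'.valuation ζ = 1 := by
    have h1 : O'.valuation ζ ^ p = 1 := by rw [← map_pow, hζp, map_one]
    exact (pow_eq_one_iff_of_nonneg zero_le hp0).mp h1
  set u : F' := (ζ ^ i)⁻¹ * u₀ with hu
  have hu1 : u - 1 ∈ O'.nonunits := by
    rw [ValuationSubring.mem_nonunits_iff]
    have : u - 1 = (ζ ^ i)⁻¹ * (u₀ - ζ ^ i) := by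
      rw [hu]
      field_simp
    rw [this, map_mul, map_inv₀, map_pow, hζv, one_pow, inv_one, one_mul]
    exact hi
  have hupow : u ^ p = g ^ p / g' ^ p := by
    rw [hu, mul_pow, inv_pow, ← pow_mul, mul_comm i p, pow_mul, hζp, one_pow, inv_one, one_mul,
      hu₀p]
  have hupF : u ^ p ∈ F := by
    rw [hupow]
    exact F.div_mem hgp (F.pow_mem hg'F p)
  have huF : u ∈ F := kum_core F O' hint hp hpO hζF hζp hζ1 hupF hu1
  have hg : g = ζ ^ i * u * g' := by
    rw [hu, hu₀]
    field_simp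
  rw [hg]
  exact F.mul_mem (F.mul_mem (F.pow_mem hζF i) huF) hg'F

end KummerDescent

end Fermat.Agent.S18
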