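import Mathlib
import Fermat.Agent.S18.Normalize
import Fermat.Agent.S18.GaussMain
import Fermat.Agent.S18.KummerDescent
import Fermat.Agent.S18.CoreInstHord

/-!
# S18, package NORMALIZE (part 2): the Kummer descent from level `N'` to level `N`

`nrm_desc`: if `g` lies in the function field of level `N'` over `ℚ̄`, `g ^ p` lies in the function
field of level `N ∣ N'`, and `g ^ p / g' ^ p` has Gauss residue `1` for some nonzero `g'` of level
`N`, then `g` has level `N` (`p ≠ ℓ` prime, `ℓ ∤ N'`).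

`nrm_main'`: the package NORMALIZE with this hypothesis discharged.
-/

set_option autoImplicit false

open ModularCurve AlgebraicCurve
open scoped IntermediateField

namespace Fermat.Agent.S18

local notation "Qb" => AlgebraicClosure ℚ

theorem nrm_desc (N N' : ℕ) [NeZero N] [NeZero N'] (hNN' : N ∣ N') {ℓ p : ℕ} [Fact ℓ.Prime]
    (hp : p.Prime) (hpℓ : p ≠ ℓ) (A : ValuationSubring Qb) (hA : A.LiesOverPrime ℓ)
    (hℓN' : ¬ ℓ ∣ N')
    (g : LaurentSeries Qb) (hg : g ∈ modularFunctionFieldBar N')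
    (hgp : g ^ p ∈ modularFunctionFieldBar N)
    (hex : ∃ g' ∈ modularFunctionFieldBar N, g' ≠ 0 ∧
      ∃ h : g ^ p / g' ^ p - 1 ∈ grV A, grRho A ⟨_, h⟩ = 0) :
    g ∈ modularFunctionFieldBar N := by
  classical
  obtain ⟨g', hg'N, hg'0, h, hρ⟩ := hex
  -- the subfield of level `N` inside the field of level `N'`
  let F : Subfield ↥(modularFunctionFieldBar N') :=
    (modularFunctionFieldBar N).toSubfield.comap (modularFunctionFieldBar N').val.toRingHom
  have hFmem : ∀ x : ↥(modularFunctionFieldBar N'),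
      x ∈ F ↔ (x : LaurentSeries Qb) ∈ modularFunctionFieldBar N := fun x => Iff.rfl
  -- integrality of the Gauss valuation ring over its trace on `F`
  have hint : ∀ x ∈ grO A hA N' hℓN', ∃ P : Polynomial F, P.Monic ∧
      (∀ i, ((P.coeff i : F) : ↥(modularFunctionFieldBar N')) ∈ grO A hA N' hℓN') ∧
      Polynomial.aeval x P = 0 := by
    intro x hx
    obtain ⟨P, hPm, hPc, hPx⟩ := gr_monic_j A hA N' hℓN' x hx
    have hle : ∀ a : ↥(modularFunctionFieldBar N'), a ∈ Qb⟮grJ Qb N'⟯ → a ∈ F := by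
      intro a ha
      exact gr_adjoin_le_base N (gr_coe_mem_adjoin N' a ha)
    let ι : ↥(Qb⟮grJ Qb N'⟯) →+* F :=
      { toFun := fun a => ⟨(a : ↥(modularFunctionFieldBar N')), hle a a.2⟩
        map_one' := rfl
        map_mul' := fun _ _ => rfl
        map_zero' := rfl
        map_add' := fun _ _ => rfl }
    refine ⟨P.map ι, hPm.map ι, fun i => ?_, ?_⟩
    · rw [Polynomial.coeff_map]
      exact hPc i
    · rw [Polynomial.aeval_def, Polynomial.eval₂_map]
      exact hPx
  -- `p` is a unit of the Gauss valuation ring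
  have hpO : ((p : ↥(modularFunctionFieldBar N')))⁻¹ ∈ grO A hA N' hℓN' := by
    have hcop : p.Coprime ℓ := (Nat.coprime_primes hp (Fact.out : ℓ.Prime)).mpr hpℓ
    have hu : IsUnit ((p : ℕ) : A) := cinst_isUnit_natCast A ℓ hA p hcop
    obtain ⟨c, hc⟩ := hu.exists_right_inv
    have hc' : (p : Qb) * (c : Qb) = 1 := by exact_mod_cast congrArg Subtype.val hc
    have hcinv : ((p : Qb))⁻¹ = (c : Qb) := inv_eq_of_mul_eq_one_right hc'
    rw [mem_grO_iff]
    have h1 : ((((p : ↥(modularFunctionFieldBar N')))⁻¹ : ↥(modularFunctionFieldBar N')) :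
        LaurentSeries Qb) = algebraMap Qb (LaurentSeries Qb) (c : Qb) := by
      rw [← hcinv, map_inv₀, map_natCast]
      rfl
    rw [h1]
    exact gr_algebraMap_mem A c
  -- a primitive `p`-th root of unity
  have : NeZero (p : ℚ) := ⟨by exact_mod_cast hp.ne_zero⟩
  obtain ⟨ζ, hζ⟩ := HasEnoughRootsOfUnity.exists_primitiveRoot Qb p
  have hζp : ζ ^ p = 1 := hζ.pow_eq_one
  have hζ1 : ζ ≠ 1 := hζ.ne_one hp.one_lt
  set ζ' : ↥(modularFunctionFieldBar N') := algebraMap Qb ↥(modularFunctionFieldBar N') ζ with hζ'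
  have hζF : ζ' ∈ F := by
    rw [hFmem]
    exact (modularFunctionFieldBar N).algebraMap_mem ζ
  have hζ'p : ζ' ^ p = 1 := by rw [hζ', ← map_pow, hζp, map_one]
  have hζ'1 : ζ' ≠ 1 := by
    intro h1
    apply hζ1
    have h2 : algebraMap Qb ↥(modularFunctionFieldBar N') ζ =
        algebraMap Qb ↥(modularFunctionFieldBar N') 1 := by rw [map_one]; exact h1
    exact (algebraMap Qb ↥(modularFunctionFieldBar N')).injective h2
  -- apply the descent lemma
  have hg'N' : g' ∈ modularFunctionFieldBar N' := nrm_bar_le hNN' hg'N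
  have key := kum_descent F (grO A hA N' hℓN') hint hp hpO hζF hζ'p hζ'1
    (g := ⟨g, hg⟩) (g' := ⟨g', hg'N'⟩) hgp hg'N
    (fun h0 => hg'0 (congrArg Subtype.val h0))
    ((gr_mem_nonunits_iff A hA N' hℓN' _).mpr ⟨h, hρ⟩)
  exact key

/-- NORMALIZE: from the normal form of the interface at level `N` over `ℚ̄` to a `p`-th power,
given the core statement at the auxiliary level `N'` (prime to `ℓ`) over all sufficiently large
number fields. -/
theorem nrm_main' (N N' : ℕ) [NeZero N] [NeZero N'] (hNN' : N ∣ N') {ℓ p : ℕ} [Fact ℓ.Prime]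
    (hp : p.Prime) (hpℓ : p ≠ ℓ) (A : ValuationSubring Qb) (hA : A.LiesOverPrime ℓ)
    (hℓN' : ¬ ℓ ∣ N')
    (hcore : ∃ T : Finset Qb, ∀ (K0 : IntermediateField ℚ Qb) [FiniteDimensional ℚ K0],
      (∀ c ∈ T, c ∈ K0) → nrmCoreStmt ↥K0 (A.comap (algebraMap ↥K0 Qb)) N' p)
    (Y g' : ↥(modularFunctionFieldBar N)) (hY0 : Y ≠ 0) (hg0 : g' ≠ 0)
    (hord : ∀ P : Place Qb ↥(modularFunctionFieldBar N), (p : ℤ) ∣ P.ord Y)
    (hY : (Y : LaurentSeries Qb) ∈ grV A) (hg : (g' : LaurentSeries Qb) ∈ grV A)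
    (hgne : grRho A ⟨_, hg⟩ ≠ 0) (hYg : grRho A ⟨_, hY⟩ = grRho A ⟨_, hg⟩ ^ p) :
    ∃ g : ↥(modularFunctionFieldBar N), Y = g ^ p :=
  nrm_main N N' hNN' (Fact.out : ℓ.Prime).ne_zero hp A hA hcore
    (fun g hgN' hgp hex => nrm_desc N N' hNN' hp hpℓ A hA hℓN' g hgN' hgp hex)
    Y g' hY0 hg0 hord hY hg hgne hYg

end Fermat.Agent.S18
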