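import Mathlib
import Fermat.Agent.S18.GaussMain

/-!
# S18, package GAUSSRING (part 6): orthonormal bases over `K(t)` for a general coordinate `t`

Setting of `GaussMain`.  Let `t ∈ F` lie in the Gauss valuation ring `grO`, with residue
transcendental over `k`, and assume `j ∈ K(t)`.  Then the residue degree over `k(t̄)` equals
`[F : K(t)]`, and there is an orthonormal basis over `K(t)`:

* `grResField A B`: the residue field `grRho (grV A ∩ B)` of an intermediate field `B ⊆ K((q))`;
* `gtw_exists_basis` (series level), `gr_hind_t` (field level, shape `hind` of `ValExt`).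

Helper names are prefixed `gtw_`.
-/

set_option autoImplicit false

noncomputable section

open ModularCurve Polynomial
open scoped IntermediateField

namespace Fermat.Agent.S18

open Fermat.Agent.S28

/-! ### Linear algebra helpers for `IntermediateField.relrank` -/

section LinAlg

variable {k E : Type*} [Field k] [Field E] [Algebra k E] {a b : IntermediateField k E}

theorem gtw_card_le (h : a ≤ b) {n : ℕ} (hn : IntermediateField.relrank a b ≤ (n : Cardinal))
    {ι : Type*} [Fintype ι] (y : ι → E) (hyb : ∀ i, y i ∈ b) (hli : LinearIndependent a y) :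
    Fintype.card ι ≤ n := by
  rw [IntermediateField.relrank_eq_rank_of_le h] at hn
  have hfin : Module.Finite a (IntermediateField.extendScalars h) :=
    Module.rank_lt_aleph0_iff.mp (hn.trans_lt (Cardinal.natCast_lt_aleph0))
  have hli' : LinearIndependent a
      (fun i => (⟨y i, hyb i⟩ : IntermediateField.extendScalars h)) :=
    LinearIndependent.of_comp (IntermediateField.extendScalars h).val.toLinearMap hli
  exact hli'.fintype_card_le_finrank.trans (Module.finrank_le_of_rank_le hn)

theorem gtw_relrank_le (h : a ≤ b) (n : ℕ)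
    (H : ∀ s : Finset (IntermediateField.extendScalars h),
      LinearIndependent a (fun i : s => ((i : IntermediateField.extendScalars h) : E)) →
        s.card ≤ n) :
    IntermediateField.relrank a b ≤ (n : Cardinal) := by
  rw [IntermediateField.relrank_eq_rank_of_le h]
  refine rank_le fun s hs => H s ?_
  exact hs.map' (IntermediateField.extendScalars h).val.toLinearMap
    (LinearMap.ker_eq_bot.mpr (IntermediateField.extendScalars h).val.injective)

theorem gtw_exists_family (h : a ≤ b) (n : ℕ)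
    (hn : (n : Cardinal) ≤ IntermediateField.relrank a b) :
    ∃ y : Fin n → E, (∀ i, y i ∈ b) ∧ LinearIndependent a y := by
  rw [IntermediateField.relrank_eq_rank_of_le h] at hn
  obtain ⟨s, hs, hli⟩ := le_rank_iff_exists_linearIndependent_finset.mp hn
  let e : Fin n ≃ ↥(s : Set (IntermediateField.extendScalars h)) := (s.equivFinOfCardEq hs).symm
  have h1 : LinearIndependent a (fun i : Fin n => ((e i : IntermediateField.extendScalars h))) :=
    hli.comp e e.injective
  refine ⟨fun i => (((e i : IntermediateField.extendScalars h)) : E), fun i => (e i).1.2, ?_⟩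
  exact h1.map' (IntermediateField.extendScalars h).val.toLinearMap
    (LinearMap.ker_eq_bot.mpr (IntermediateField.extendScalars h).val.injective)

theorem gtw_le_relrank (h : a ≤ b) {n : ℕ} (y : Fin n → E) (hyb : ∀ i, y i ∈ b)
    (hli : LinearIndependent a y) : (n : Cardinal) ≤ IntermediateField.relrank a b := by
  rw [IntermediateField.relrank_eq_rank_of_le h]
  have hli' : LinearIndependent a
      (fun i => (⟨y i, hyb i⟩ : IntermediateField.extendScalars h)) :=
    LinearIndependent.of_comp (IntermediateField.extendScalars h).val.toLinearMap hli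
  simpa using hli'.cardinal_lift_le_rank

theorem gtw_relrank_ne_zero (h : a ≤ b) : IntermediateField.relrank a b ≠ 0 := by
  rw [IntermediateField.relrank_eq_rank_of_le h]
  exact rank_pos.ne'

end LinAlg

/-! ### Polynomial-form independence versus linear independence over `k(τ)` -/

section PolyForm

variable {k E : Type*} [Field k] [Field E] [Algebra k E] {ι : Type*}

/-- linear independence over `k(τ)` gives the polynomial form (for `τ` transcendental) -/
theorem gtw_poly_of_linearIndependent (τ : E) (hτ : Transcendental k τ) [Fintype ι] (y : ι → E)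
    (hli : LinearIndependent k⟮τ⟯ y) (g : ι → k[X])
    (h : ∑ i, aeval τ (g i) * y i = 0) : ∀ i, g i = 0 := by
  have hmem : ∀ i, aeval τ (g i) ∈ k⟮τ⟯ := fun i => by
    rw [IntermediateField.mem_adjoin_simple_iff]
    exact ⟨g i, 1, by simp⟩
  have h1 : ∑ i, (⟨aeval τ (g i), hmem i⟩ : k⟮τ⟯) • y i = 0 := by
    rw [← h]
    exact Finset.sum_congr rfl fun i _ => Algebra.smul_def _ _
  intro i
  have h2 := Fintype.linearIndependent_iff.mp hli _ h1 i
  have h3 : aeval τ (g i) = 0 := congrArg Subtype.val h2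
  exact transcendental_iff.mp hτ _ h3

/-- the polynomial form gives linear independence over `k(τ)` -/
theorem gtw_linearIndependent_of_poly (τ : E) (hτ : Transcendental k τ) [Fintype ι] (y : ι → E)
    (hy : ∀ g : ι → k[X], ∑ i, aeval τ (g i) * y i = 0 → ∀ i, g i = 0) :
    LinearIndependent k⟮τ⟯ y := by
  classical
  rw [Fintype.linearIndependent_iff]
  intro c hc i
  have hfr : ∀ j, ∃ r q : k[X], q ≠ 0 ∧ (c j : E) * aeval τ q = aeval τ r := by
    intro j
    obtain ⟨r, q, hrq⟩ := (IntermediateField.mem_adjoin_simple_iff k (c j : E)).mp (c j).2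
    by_cases hq : q = 0
    · refine ⟨0, 1, one_ne_zero, ?_⟩
      rw [hrq, hq, map_zero, div_zero, zero_mul]
    · have hq' : aeval τ q ≠ 0 := fun h0 => hq (transcendental_iff.mp hτ _ h0)
      exact ⟨r, q, hq, by rw [hrq, div_mul_cancel₀ _ hq']⟩
  choose r q hq hrq using hfr
  have hQ : aeval τ (∏ j, q j) ≠ 0 := fun h0 =>
    (Finset.prod_ne_zero_iff.mpr fun j _ => hq j) (transcendental_iff.mp hτ _ h0)
  have hD : ∀ j, (c j : E) * aeval τ (∏ j', q j') =
      aeval τ (r j * ∏ j' ∈ Finset.univ.erase j, q j') := by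
    intro j
    rw [← Finset.mul_prod_erase Finset.univ _ (Finset.mem_univ j), map_mul, ← mul_assoc, hrq j,
      map_mul]
  have hrel : ∑ j, aeval τ (r j * ∏ j' ∈ Finset.univ.erase j, q j') * y j = 0 := by
    have : ∑ j, aeval τ (r j * ∏ j' ∈ Finset.univ.erase j, q j') * y j =
        aeval τ (∏ j', q j') * ∑ j, c j • y j := by
      rw [Finset.mul_sum]
      refine Finset.sum_congr rfl fun j _ => ?_
      rw [← hD j, Algebra.smul_def]
      show _ = aeval τ (∏ j', q j') * ((c j : E) * y j)
      ring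
    rw [this, hc, mul_zero]
  have h0 := hy _ hrel i
  have h1 := hD i
  rw [h0, map_zero] at h1
  rcases mul_eq_zero.mp h1 with h2 | h2
  · exact Subtype.ext h2
  · exact absurd h2 hQ

end PolyForm

/-! ### Cardinal arithmetic for the tower -/

theorem gtw_count {a b α β : Cardinal} {N : ℕ} (hab : a * b ≤ (N : Cardinal))
    (ha0 : a ≠ 0) (hb0 : b ≠ 0)
    (hα : ∀ a₀ : ℕ, a = a₀ → α ≤ a₀) (hβ : ∀ b₀ : ℕ, b = b₀ → β ≤ b₀)
    (hαβ : (N : Cardinal) ≤ α * β) :
    ∃ n : ℕ, b = n ∧ (n : Cardinal) ≤ β := by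
  have ha : a < Cardinal.aleph0 :=
    lt_of_le_of_lt (Cardinal.le_mul_right hb0) (hab.trans_lt (Cardinal.natCast_lt_aleph0))
  have hb : b < Cardinal.aleph0 :=
    lt_of_le_of_lt (Cardinal.le_mul_left ha0) (hab.trans_lt (Cardinal.natCast_lt_aleph0))
  obtain ⟨a₀, rfl⟩ := Cardinal.lt_aleph0.mp ha
  obtain ⟨b₀, rfl⟩ := Cardinal.lt_aleph0.mp hb
  have hα' := hα a₀ rfl
  have hβ' := hβ b₀ rfl
  obtain ⟨α₀, rfl⟩ := Cardinal.lt_aleph0.mp (hα'.trans_lt (Cardinal.natCast_lt_aleph0))
  obtain ⟨β₀, rfl⟩ := Cardinal.lt_aleph0.mp (hβ'.trans_lt (Cardinal.natCast_lt_aleph0))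
  refine ⟨b₀, rfl, ?_⟩
  have h1 : a₀ * b₀ ≤ N := by exact_mod_cast hab
  have h2 : N ≤ α₀ * β₀ := by exact_mod_cast hαβ
  have h3 : α₀ ≤ a₀ := by exact_mod_cast hα'
  have ha0' : 0 < a₀ := by
    rcases Nat.eq_zero_or_pos a₀ with h | h
    · exact absurd (by rw [h]; simp) ha0
    · exact h
  have h5 : a₀ * b₀ ≤ a₀ * β₀ := h1.trans (h2.trans (Nat.mul_le_mul_right _ h3))
  have h6 : b₀ ≤ β₀ := Nat.le_of_mul_le_mul_left h5 ha0'
  exact_mod_cast h6

/-! ### Residue fields of intermediate fields -/

section ResField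

variable {K : Type*} [Field K] (A : ValuationSubring K)

/-- The residue field `grRho (grV A ∩ B)` of an intermediate field `B ⊆ K((q))`. -/
def grResField (B : IntermediateField K (LaurentSeries K)) :
    IntermediateField (IsLocalRing.ResidueField A)
      (LaurentSeries (IsLocalRing.ResidueField A)) where
  carrier := {y | ∃ x : grV A, (x : LaurentSeries K) ∈ B ∧ grRho A x = y}
  mul_mem' := by
    rintro _ _ ⟨x, hx, rfl⟩ ⟨y, hy, rfl⟩
    exact ⟨x * y, B.mul_mem hx hy, map_mul _ _ _⟩
  one_mem' := ⟨1, B.one_mem, map_one _⟩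
  add_mem' := by
    rintro _ _ ⟨x, hx, rfl⟩ ⟨y, hy, rfl⟩
    exact ⟨x + y, B.add_mem hx hy, map_add _ _ _⟩
  zero_mem' := ⟨0, B.zero_mem, map_zero _⟩
  algebraMap_mem' := fun c => by
    obtain ⟨c', rfl⟩ := IsLocalRing.residue_surjective c
    exact ⟨⟨algebraMap K (LaurentSeries K) (c' : K), gr_algebraMap_mem A c'⟩,
      B.algebraMap_mem _, grRho_algebraMap A c'⟩
  inv_mem' := by
    rintro _ ⟨x, hx, rfl⟩
    by_cases h0 : grRho A x = 0
    · rw [h0, inv_zero]
      exact ⟨0, B.zero_mem, map_zero _⟩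
    · exact ⟨⟨_, gr_inv_mem A x h0⟩, B.inv_mem hx, grRho_inv A x h0⟩

theorem mem_grResField {B : IntermediateField K (LaurentSeries K)}
    {y : LaurentSeries (IsLocalRing.ResidueField A)} :
    y ∈ grResField A B ↔ ∃ x : grV A, (x : LaurentSeries K) ∈ B ∧ grRho A x = y := Iff.rfl

theorem grResField_mono {B C : IntermediateField K (LaurentSeries K)} (h : B ≤ C) :
    grResField A B ≤ grResField A C := by
  rintro _ ⟨x, hx, rfl⟩
  exact ⟨x, h hx, rfl⟩

/-- The residue field of `K(τ)` is `k(ρ τ)`. -/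
theorem grResField_adjoin (τ : grV A)
    (hτ : Transcendental (IsLocalRing.ResidueField A) (grRho A τ)) :
    grResField A K⟮(τ : LaurentSeries K)⟯ = (IsLocalRing.ResidueField A)⟮grRho A τ⟯ := by
  apply le_antisymm
  · rintro _ ⟨x, hx, rfl⟩
    obtain ⟨P, Q, hQ, -, hρ⟩ := gab_mem_adjoin (gr_gabHyp A) τ hτ x hx
    have hQ0 : aeval (grRho A τ) (Q.map (IsLocalRing.residue A)) ≠ 0 := fun h0 =>
      hQ (transcendental_iff.mp hτ _ h0)
    rw [IntermediateField.mem_adjoin_simple_iff]
    exact ⟨P.map (IsLocalRing.residue A), Q.map (IsLocalRing.residue A),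
      by rw [← hρ, mul_div_cancel_right₀ _ hQ0]⟩
  · exact IntermediateField.adjoin_simple_le_iff.mpr
      ⟨τ, IntermediateField.mem_adjoin_simple_self K _, rfl⟩

/-- The fundamental inequality: the residue degree over `k(ρ τ)` is at most the degree over
`K(τ)`. -/
theorem gtw_fundIneq (τ : grV A)
    (hτ : Transcendental (IsLocalRing.ResidueField A) (grRho A τ))
    (C : IntermediateField K (LaurentSeries K)) (hτC : (τ : LaurentSeries K) ∈ C) (n : ℕ)
    (hn : IntermediateField.relrank K⟮(τ : LaurentSeries K)⟯ C ≤ (n : Cardinal)) :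
    IntermediateField.relrank (IsLocalRing.ResidueField A)⟮grRho A τ⟯ (grResField A C) ≤
      (n : Cardinal) := by
  classical
  have h : (IsLocalRing.ResidueField A)⟮grRho A τ⟯ ≤ grResField A C :=
    IntermediateField.adjoin_simple_le_iff.mpr ⟨τ, hτC, rfl⟩
  refine gtw_relrank_le h n fun s hs => ?_
  have hlift : ∀ i : s, ∃ x : grV A, (x : LaurentSeries K) ∈ C ∧
      grRho A x = ((i : IntermediateField.extendScalars h) :
        LaurentSeries (IsLocalRing.ResidueField A)) := fun i => (i : IntermediateField.extendScalars h).2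
  choose x hxC hxρ using hlift
  have hli' : LinearIndependent (IsLocalRing.ResidueField A)⟮grRho A τ⟯
      (fun i : s => grRho A (x i)) := by
    simpa only [hxρ] using hs
  have hpoly := gtw_poly_of_linearIndependent (grRho A τ) hτ (fun i : s => grRho A (x i)) hli'
  have hli : LinearIndependent K⟮(τ : LaurentSeries K)⟯ (fun i : s => (x i : LaurentSeries K)) := by
    rw [Fintype.linearIndependent_iff]
    intro c hc i
    have h0 := gab_linearIndep (gr_gabHyp A) τ hτ x Finset.univ (fun g hg i _ => hpoly g hg i)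
      (fun i => (c i : LaurentSeries K)) (fun i _ => (c i).2) (by
        rw [← hc]
        exact Finset.sum_congr rfl fun j _ => (Algebra.smul_def (c j) (x j : LaurentSeries K)).symm)
      i (Finset.mem_univ i)
    exact Subtype.ext h0
  have hcard := gtw_card_le (IntermediateField.adjoin_simple_le_iff.mpr hτC) hn
    (fun i : s => (x i : LaurentSeries K)) hxC hli
  rwa [Fintype.card_coe] at hcard

end ResField

/-! ### The tower argument -/

section Tower

variable {K : Type*} [Field K] [Algebra ℚ K] (A : ValuationSubring K) {ℓ : ℕ} [Fact ℓ.Prime]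
  (hA : A.LiesOverPrime ℓ) (M : ℕ) [NeZero M] (hℓM : ¬ ℓ ∣ M)

include hA hℓM in
/-- The residue degree of `F` over `k(j)` is at least `ψ(M)`. -/
theorem gtw_le_relrank_j :
    (psi M : Cardinal) ≤ IntermediateField.relrank
      (IsLocalRing.ResidueField A)⟮grRho A (grTau A)⟯
      (grResField A (laurentBaseChange K (modularFunctionFieldFull M))) := by
  obtain ⟨Y, hYF, hY⟩ := gr_exists_family A hA M hℓM
  have hli := gtw_linearIndependent_of_poly (grRho A (grTau A)) (gr_transcendental_tau A)
    (fun i => grRho A (Y i)) hY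
  refine gtw_le_relrank ?_ (fun i => grRho A (Y i)) (fun i => ⟨Y i, hYF i, rfl⟩) hli
  exact IntermediateField.adjoin_simple_le_iff.mpr ⟨grTau A, gr_jqModC_mem_base M, rfl⟩

include hA hℓM in
/-- Series level: for `τ ∈ grV A ∩ F` with residue transcendental over `k` and `j ∈ K(τ)` there
is a family of `n = [F : K(τ)]` elements of `grV A ∩ F`, residually independent over `k[ρ τ]`,
spanning `F` over `K(τ)`. -/
theorem gtw_exists_basis (τ : grV A)
    (hτF : (τ : LaurentSeries K) ∈ laurentBaseChange K (modularFunctionFieldFull M))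
    (hτ : Transcendental (IsLocalRing.ResidueField A) (grRho A τ))
    (hj : jqModC K ∈ K⟮(τ : LaurentSeries K)⟯) :
    ∃ (n : ℕ) (Y : Fin n → grV A),
      (∀ i, (Y i : LaurentSeries K) ∈ laurentBaseChange K (modularFunctionFieldFull M)) ∧
      (∀ g : Fin n → (IsLocalRing.ResidueField A)[X],
        ∑ i, aeval (grRho A τ) (g i) * grRho A (Y i) = 0 → ∀ i, g i = 0) ∧
      ∀ x ∈ laurentBaseChange K (modularFunctionFieldFull M),
        ∃ a : Fin n → LaurentSeries K, (∀ i, a i ∈ K⟮(τ : LaurentSeries K)⟯) ∧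
          x = ∑ i, a i * (Y i : LaurentSeries K) := by
  have hJT : K⟮jqModC K⟯ ≤ K⟮(τ : LaurentSeries K)⟯ :=
    IntermediateField.adjoin_simple_le_iff.mpr hj
  have hTF : K⟮(τ : LaurentSeries K)⟯ ≤ laurentBaseChange K (modularFunctionFieldFull M) :=
    IntermediateField.adjoin_simple_le_iff.mpr hτF
  have hmul := IntermediateField.relrank_mul_relrank hJT hTF
  have hN := gr_relrank_le (K := K) M
  -- residue side
  have hresT := grResField_adjoin A τ hτ
  have hJkT : (IsLocalRing.ResidueField A)⟮grRho A (grTau A)⟯ ≤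
      (IsLocalRing.ResidueField A)⟮grRho A τ⟯ := by
    rw [← hresT]
    exact IntermediateField.adjoin_simple_le_iff.mpr ⟨grTau A, hj, rfl⟩
  have hTkκ : (IsLocalRing.ResidueField A)⟮grRho A τ⟯ ≤
      grResField A (laurentBaseChange K (modularFunctionFieldFull M)) :=
    IntermediateField.adjoin_simple_le_iff.mpr ⟨τ, hτF, rfl⟩
  have hmul' := IntermediateField.relrank_mul_relrank hJkT hTkκ
  have hlow := gtw_le_relrank_j A hA M hℓM
  obtain ⟨n, hn, hnβ⟩ := gtw_count (N := psi M)
    (a := IntermediateField.relrank K⟮jqModC K⟯ K⟮(τ : LaurentSeries K)⟯)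
    (b := IntermediateField.relrank K⟮(τ : LaurentSeries K)⟯
      (laurentBaseChange K (modularFunctionFieldFull M)))
    (α := IntermediateField.relrank (IsLocalRing.ResidueField A)⟮grRho A (grTau A)⟯
      (IsLocalRing.ResidueField A)⟮grRho A τ⟯)
    (β := IntermediateField.relrank (IsLocalRing.ResidueField A)⟮grRho A τ⟯
      (grResField A (laurentBaseChange K (modularFunctionFieldFull M))))
    (by rw [hmul]; exact hN) (gtw_relrank_ne_zero hJT) (gtw_relrank_ne_zero hTF)
    (fun a₀ ha₀ => by
      have := gtw_fundIneq A (grTau A) (gr_transcendental_tau A) K⟮(τ : LaurentSeries K)⟯ hj a₀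
        (le_of_eq ha₀)
      rwa [hresT] at this)
    (fun b₀ hb₀ => gtw_fundIneq A τ hτ _ hτF b₀ (le_of_eq hb₀))
    (by rw [hmul']; exact hlow)
  obtain ⟨ybar, hyκ, hyli⟩ := gtw_exists_family hTkκ n hnβ
  have hlift : ∀ i, ∃ x : grV A,
      (x : LaurentSeries K) ∈ laurentBaseChange K (modularFunctionFieldFull M) ∧
        grRho A x = ybar i := fun i => hyκ i
  choose Y hYF hYρ using hlift
  have hpoly : ∀ g : Fin n → (IsLocalRing.ResidueField A)[X],
      ∑ i, aeval (grRho A τ) (g i) * grRho A (Y i) = 0 → ∀ i, g i = 0 := by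
    intro g hg
    refine gtw_poly_of_linearIndependent (grRho A τ) hτ ybar hyli g ?_
    rw [← hg]
    exact Finset.sum_congr rfl fun i _ => by rw [hYρ i]
  refine ⟨n, Y, hYF, hpoly, fun x hx => ?_⟩
  refine gr_span_aux hTF (fun i => (Y i : LaurentSeries K)) hYF ?_ (le_of_eq hn) x hx
  intro a ha h0 i
  exact gab_linearIndep (gr_gabHyp A) τ hτ Y Finset.univ (fun g hg i _ => hpoly g hg i) a
    (fun i _ => ha i) h0 i (Finset.mem_univ i)

omit [NeZero M] in
theorem gtw_map_adjoin (t : ↥(laurentBaseChange K (modularFunctionFieldFull M))) :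
    (K⟮t⟯).map (laurentBaseChange K (modularFunctionFieldFull M)).val =
      K⟮(t : LaurentSeries K)⟯ := by
  rw [IntermediateField.adjoin_map, Set.image_singleton]
  rfl

/-- Field level: the orthonormal basis over `K(t)` for a coordinate `t` of the Gauss valuation
ring with transcendental residue and `j ∈ K(t)`: `n = [F : K(t)]` elements of `grO` spanning `F`
over `K(t)`, satisfying `hind` of `ValExt` for `L := K(t)`, with residues independent over
`k[t̄]`. -/
theorem gr_hind_t (t : ↥(laurentBaseChange K (modularFunctionFieldFull M)))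
    (ht : t ∈ grO A hA M hℓM)
    (htr : Transcendental (IsLocalRing.ResidueField A) (grRes A hA M hℓM ⟨t, ht⟩))
    (hj : grJ K M ∈ K⟮t⟯) :
    ∃ (n : ℕ) (b : Fin n → ↥(laurentBaseChange K (modularFunctionFieldFull M)))
      (hb : ∀ i, b i ∈ grO A hA M hℓM),
      Module.finrank ↥K⟮t⟯ ↥(laurentBaseChange K (modularFunctionFieldFull M)) = n ∧
      FiniteDimensional ↥K⟮t⟯ ↥(laurentBaseChange K (modularFunctionFieldFull M)) ∧
      (∀ x : ↥(laurentBaseChange K (modularFunctionFieldFull M)),
        ∃ a : Fin n → ↥K⟮t⟯,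
          x = ∑ i, algebraMap ↥K⟮t⟯
            ↥(laurentBaseChange K (modularFunctionFieldFull M)) (a i) * b i) ∧
      (∀ a : Fin n → ↥K⟮t⟯,
        (∀ i, algebraMap ↥K⟮t⟯ ↥(laurentBaseChange K (modularFunctionFieldFull M)) (a i) ∈
          grO A hA M hℓM) →
        ∑ i, algebraMap ↥K⟮t⟯ ↥(laurentBaseChange K (modularFunctionFieldFull M)) (a i) *
          b i ∈ (grO A hA M hℓM).nonunits →
        ∀ i, algebraMap ↥K⟮t⟯ ↥(laurentBaseChange K (modularFunctionFieldFull M)) (a i) ∈
          (grO A hA M hℓM).nonunits) ∧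
      (∀ g : Fin n → (IsLocalRing.ResidueField A)[X],
        ∑ i, aeval (grRes A hA M hℓM ⟨t, ht⟩) (g i) *
          grRes A hA M hℓM ⟨b i, hb i⟩ = 0 → ∀ i, g i = 0) := by
  set τ : grV A := ⟨(t : LaurentSeries K), ht⟩ with hτdef
  have hτρ : grRho A τ = grRes A hA M hℓM ⟨t, ht⟩ := rfl
  have hτ : Transcendental (IsLocalRing.ResidueField A) (grRho A τ) := htr
  have hmap := gtw_map_adjoin M t
  have hj' : jqModC K ∈ K⟮(τ : LaurentSeries K)⟯ := by
    show jqModC K ∈ K⟮(t : LaurentSeries K)⟯
    rw [← hmap]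
    exact ⟨grJ K M, hj, rfl⟩
  obtain ⟨n, Y, hYF, hY, hspan⟩ := gtw_exists_basis A hA M hℓM τ t.2 hτ hj'
  have hcoe_mem : ∀ a : ↥(laurentBaseChange K (modularFunctionFieldFull M)), a ∈ K⟮t⟯ →
      (a : LaurentSeries K) ∈ K⟮(τ : LaurentSeries K)⟯ := by
    intro a ha
    show (a : LaurentSeries K) ∈ K⟮(t : LaurentSeries K)⟯
    rw [← hmap]
    exact ⟨a, ha, rfl⟩
  have hex_mem : ∀ a' : LaurentSeries K, a' ∈ K⟮(τ : LaurentSeries K)⟯ →
      ∃ a : ↥(laurentBaseChange K (modularFunctionFieldFull M)),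
        a ∈ K⟮t⟯ ∧ (a : LaurentSeries K) = a' := by
    intro a' ha'
    have ha'' : a' ∈ (K⟮t⟯).map (laurentBaseChange K (modularFunctionFieldFull M)).val := by
      rw [hmap]
      exact ha'
    obtain ⟨a, ha, rfl⟩ := ha''
    exact ⟨a, ha, rfl⟩
  -- the three main properties
  have hsp : ∀ x : ↥(laurentBaseChange K (modularFunctionFieldFull M)),
      ∃ a : Fin n → ↥K⟮t⟯,
        x = ∑ i, algebraMap ↥K⟮t⟯ ↥(laurentBaseChange K (modularFunctionFieldFull M)) (a i) *
          (⟨(Y i : LaurentSeries K), hYF i⟩ :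
            ↥(laurentBaseChange K (modularFunctionFieldFull M))) := by
    intro x
    obtain ⟨a', ha', hx⟩ := hspan (x : LaurentSeries K) x.2
    have hex := fun i => hex_mem (a' i) (ha' i)
    choose a₀ ha₀ ha₀' using hex
    refine ⟨fun i => ⟨a₀ i, ha₀ i⟩, Subtype.ext ?_⟩
    rw [hx, gr_coe_sum]
    refine Finset.sum_congr rfl fun i _ => ?_
    rw [← ha₀' i]
    rfl
  have hind : ∀ a : Fin n → ↥K⟮t⟯,
      (∀ i, algebraMap ↥K⟮t⟯ ↥(laurentBaseChange K (modularFunctionFieldFull M)) (a i) ∈
        grO A hA M hℓM) →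
      ∑ i, algebraMap ↥K⟮t⟯ ↥(laurentBaseChange K (modularFunctionFieldFull M)) (a i) *
        (⟨(Y i : LaurentSeries K), hYF i⟩ :
          ↥(laurentBaseChange K (modularFunctionFieldFull M))) ∈ (grO A hA M hℓM).nonunits →
      ∀ i, algebraMap ↥K⟮t⟯ ↥(laurentBaseChange K (modularFunctionFieldFull M)) (a i) ∈
        (grO A hA M hℓM).nonunits := by
    intro a ha hsum i
    rw [gr_mem_nonunits_iff] at hsum
    obtain ⟨hmem, hρ⟩ := hsum
    have hcoe : ((∑ i, algebraMap ↥K⟮t⟯
        ↥(laurentBaseChange K (modularFunctionFieldFull M)) (a i) *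
          (⟨(Y i : LaurentSeries K), hYF i⟩ : ↥(laurentBaseChange K (modularFunctionFieldFull M))) :
        ↥(laurentBaseChange K (modularFunctionFieldFull M))) : LaurentSeries K) =
        ∑ i, (((a i : ↥(laurentBaseChange K (modularFunctionFieldFull M))) : LaurentSeries K)) *
          (Y i : LaurentSeries K) := by
      rw [gr_coe_sum]
      rfl
    have hmem' : ∑ i, (((a i : ↥(laurentBaseChange K (modularFunctionFieldFull M))) :
        LaurentSeries K)) * (Y i : LaurentSeries K) ∈ grV A := hcoe ▸ hmem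
    have hρ' : grRho A ⟨_, hmem'⟩ = 0 := by
      rw [← hρ]
      congr 1
      exact Subtype.ext hcoe.symm
    have key := gab_orthonormal_rho (gr_gabHyp A) τ hτ Y
      Finset.univ (fun g hg i _ => hY g hg i)
      (fun i => (((a i : ↥(laurentBaseChange K (modularFunctionFieldFull M))) : LaurentSeries K)))
      (fun i _ => hcoe_mem _ (a i).2) hmem' hρ' i (Finset.mem_univ i) (ha i)
    rw [gr_mem_nonunits_iff]
    exact ⟨ha i, key⟩
  have hli := valext_linearIndependent (grO A hA M hℓM)
    (fun i => (⟨(Y i : LaurentSeries K), hYF i⟩ :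
      ↥(laurentBaseChange K (modularFunctionFieldFull M)))) hind
  have htop : ⊤ ≤ Submodule.span ↥K⟮t⟯ (Set.range (fun i =>
      (⟨(Y i : LaurentSeries K), hYF i⟩ :
        ↥(laurentBaseChange K (modularFunctionFieldFull M))))) := by
    intro x _
    obtain ⟨a, ha⟩ := hsp x
    rw [Submodule.mem_span_range_iff_exists_fun]
    refine ⟨a, ?_⟩
    rw [ha]
    exact Finset.sum_congr rfl fun i _ => Algebra.smul_def _ _
  have hfin := Module.finrank_eq_card_basis (Module.Basis.mk hli htop)
  rw [Fintype.card_fin] at hfin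
  refine ⟨n, fun i => ⟨(Y i : LaurentSeries K), hYF i⟩, fun i => (Y i).2, hfin,
    Module.Finite.of_basis (Module.Basis.mk hli htop), hsp, hind, ?_⟩
  intro g hg i
  exact hY g hg i

/-- Uniqueness of the Gauss valuation ring as an extension of its trace on `K(t)`, for any
coordinate `t` with `j ∈ K(t)` (no hypothesis on the residue of `t`). -/
theorem gr_unique_t (t : ↥(laurentBaseChange K (modularFunctionFieldFull M)))
    (hj : grJ K M ∈ K⟮t⟯)
    (O' : ValuationSubring ↥(laurentBaseChange K (modularFunctionFieldFull M)))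
    (hO' : ∀ y : ↥K⟮t⟯,
      algebraMap ↥K⟮t⟯ ↥(laurentBaseChange K (modularFunctionFieldFull M)) y ∈ O' ↔
        algebraMap ↥K⟮t⟯ ↥(laurentBaseChange K (modularFunctionFieldFull M)) y ∈
          grO A hA M hℓM) :
    O' = grO A hA M hℓM := by
  refine gr_unique_j A hA M hℓM O' fun y => ?_
  have hle : K⟮grJ K M⟯ ≤ K⟮t⟯ := IntermediateField.adjoin_simple_le_iff.mpr hj
  exact hO' ⟨(y : ↥(laurentBaseChange K (modularFunctionFieldFull M))), hle y.2⟩

end Tower

end Fermat.Agent.S18
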