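import Mathlib
import Fermat.Agent.S18.GaussTower
import Fermat.Agent.S18.CoreInstChart

/-!
# S18, package GAUSSRING (part 8): the Gauss valuation ring and the chart coordinate

Setting of `GaussMain` (arbitrary `(K, A)`, level `M`, `ℓ ∤ M`) together with a Hauptmodul record
`H : HauptRec a2 ℓ` and the chart coordinate `t = (h - c1) / (h - c0)` (`cinstU H K c0 c1`) for
`c0, c1 ∈ A` with `c0 - c1` a unit of `A`:

* `gch_mem`, `gch_inv_mem`: `t`, `t⁻¹` lie in the Gauss valuation ring;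
* `gch_grRes`, `gch_transcendental`: the residue of `t` is the chart coordinate over the residue
  field, and it is transcendental;
* `gch_grJ_mem`: `j ∈ K(t)`;
* `gch_finrank`: `[F : K(t)] = ψ(M) / ψ(a2)`;
* `gch_hind`: the orthonormal basis over `K(t)` of `GaussTower`, indexed by `Fin (ψ(M) / ψ(a2))`;
* `gch_unique`: uniqueness of the Gauss valuation ring over its trace on `K(t)`;
* `gch_coeff_mem`: the coordinates of an element of the Gauss valuation ring lie in it;
* `gch_residue_span`: the residues of `ψ(M) / ψ(a2)` elements span the residue field over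
  `k(t̄)`, elementwise.

Names are prefixed `gch_`.
-/

set_option autoImplicit false

noncomputable section

open ModularCurve Polynomial
open scoped IntermediateField

namespace Fermat.Agent.S18

open Fermat.Agent.S28

section Chart

variable {K : Type*} [Field K] (A : ValuationSubring K)

/-- If `c0 - c1` is a unit of `A` then the residues of `c0` and `c1` differ. -/
theorem gch_residue_ne {c0 c1 : K} (hc0 : c0 ∈ A) (hc1 : c1 ∈ A) (hc : c0 ≠ c1)
    (h01 : (c0 - c1)⁻¹ ∈ A) :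
    IsLocalRing.residue A ⟨c0, hc0⟩ ≠ IsLocalRing.residue A ⟨c1, hc1⟩ := by
  intro h
  have h1 : IsLocalRing.residue A ((⟨c0, hc0⟩ : A) - ⟨c1, hc1⟩) = 0 := by
    rw [map_sub, h, sub_self]
  rw [IsLocalRing.residue_eq_zero_iff, IsLocalRing.mem_maximalIdeal, mem_nonunits_iff] at h1
  apply h1
  refine isUnit_iff_exists_inv.mpr ⟨⟨(c0 - c1)⁻¹, h01⟩, Subtype.ext ?_⟩
  show (c0 - c1) * (c0 - c1)⁻¹ = 1
  exact mul_inv_cancel₀ (sub_ne_zero.mpr hc)

variable [Algebra ℚ K] {ℓ : ℕ} [Fact ℓ.Prime]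
  (hA : A.LiesOverPrime ℓ) (M : ℕ) [NeZero M] (hℓM : ¬ ℓ ∣ M) {a2 : ℕ} (H : HauptRec a2 ℓ)

/-- The chart coordinate lies in the Gauss valuation ring. -/
theorem gch_mem {c0 c1 : K} (hc0 : c0 ∈ A) (hc1 : c1 ∈ A)
    (t : ↥(laurentBaseChange K (modularFunctionFieldFull M)))
    (ht : (t : LaurentSeries K) = cinstU H K c0 c1) : t ∈ grO A hA M hℓM := by
  rw [mem_grO_iff, ht]
  exact cinstU_mem_grV H A ⟨c0, hc0⟩ ⟨c1, hc1⟩

/-- The inverse of the chart coordinate lies in the Gauss valuation ring. -/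
theorem gch_inv_mem {c0 c1 : K} (hc0 : c0 ∈ A) (hc1 : c1 ∈ A)
    (t : ↥(laurentBaseChange K (modularFunctionFieldFull M)))
    (ht : (t : LaurentSeries K) = cinstU H K c0 c1) : t⁻¹ ∈ grO A hA M hℓM := by
  rw [mem_grO_iff]
  show (t : LaurentSeries K)⁻¹ ∈ grV A
  rw [ht]
  exact cinstU_inv_mem_grV H A ⟨c0, hc0⟩ ⟨c1, hc1⟩

/-- The residue of the chart coordinate is the chart coordinate over the residue field. -/
theorem gch_grRes {c0 c1 : K} (hc0 : c0 ∈ A) (hc1 : c1 ∈ A)
    (t : ↥(laurentBaseChange K (modularFunctionFieldFull M)))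
    (ht : (t : LaurentSeries K) = cinstU H K c0 c1) (htV : t ∈ grO A hA M hℓM) :
    grRes A hA M hℓM ⟨t, htV⟩ =
      cinstU H (IsLocalRing.ResidueField A) (IsLocalRing.residue A ⟨c0, hc0⟩)
        (IsLocalRing.residue A ⟨c1, hc1⟩) := by
  rw [← cinstU_grRho H A ⟨c0, hc0⟩ ⟨c1, hc1⟩]
  show grRho A ⟨(t : LaurentSeries K), htV⟩ = _
  congr 1
  exact Subtype.ext ht

/-- The residue of the chart coordinate is transcendental over the residue field. -/
theorem gch_transcendental {c0 c1 : K} (hc0 : c0 ∈ A) (hc1 : c1 ∈ A) (hc : c0 ≠ c1)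
    (h01 : (c0 - c1)⁻¹ ∈ A)
    (t : ↥(laurentBaseChange K (modularFunctionFieldFull M)))
    (ht : (t : LaurentSeries K) = cinstU H K c0 c1) (htV : t ∈ grO A hA M hℓM) :
    Transcendental (IsLocalRing.ResidueField A) (grRes A hA M hℓM ⟨t, htV⟩) := by
  rw [gch_grRes A hA M hℓM H hc0 hc1 t ht htV]
  exact cinstU_transcendental H _ _ _ (gch_residue_ne A hc0 hc1 hc h01)

omit [NeZero M] [Fact ℓ.Prime] in
/-- `j ∈ K(t)` for the chart coordinate `t`. -/
theorem gch_grJ_mem {c0 c1 : K} (hc : c0 ≠ c1)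
    (t : ↥(laurentBaseChange K (modularFunctionFieldFull M)))
    (ht : (t : LaurentSeries K) = cinstU H K c0 c1) : grJ K M ∈ K⟮t⟯ := by
  have : CharZero K := algebraRat.charZero K
  have h1 : jd K 1 ∈ K⟮cinstU H K c0 c1⟯ :=
    cinstU_jd_mem H K c0 c1 hc (H.coprime_of_charZero K)
  rw [jd_one, ← ht, ← gtw_map_adjoin M t] at h1
  obtain ⟨a, ha, hae⟩ := h1
  have e : a = grJ K M := Subtype.ext hae
  rw [← e]
  exact ha

include A hA hℓM in
/-- `[F : K(t)] = ψ(M) / ψ(a2)` for the chart coordinate `t`. -/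
theorem gch_finrank {c0 c1 : K} (hc : c0 ≠ c1)
    (t : ↥(laurentBaseChange K (modularFunctionFieldFull M)))
    (ht : (t : LaurentSeries K) = cinstU H K c0 c1) :
    Module.finrank ↥K⟮t⟯ ↥(laurentBaseChange K (modularFunctionFieldFull M)) =
      psi M / psi a2 := by
  have : CharZero K := algebraRat.charZero K
  have hle : K⟮grJ K M⟯ ≤ K⟮t⟯ :=
    IntermediateField.adjoin_simple_le_iff.mpr (gch_grJ_mem M H hc t ht)
  have h1 := IntermediateField.relfinrank_mul_finrank_top hle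
  have h2 := IntermediateField.relfinrank_map_map K⟮grJ K M⟯ K⟮t⟯
    (laurentBaseChange K (modularFunctionFieldFull M)).val
  rw [gr_map_adjoin_grJ, gtw_map_adjoin, ht, cinstU_adjoin H K c0 c1 hc, ← jd_one,
    H.relfinrank_of_coprime K (H.coprime_of_charZero K)] at h2
  rw [← h2, (gr_finrank_j A hA M hℓM).1] at h1
  exact (Nat.div_eq_of_eq_mul_right H.psi_pos h1.symm).symm

/-- The orthonormal basis over `K(t)` for the chart coordinate `t`: `ψ(M) / ψ(a2)` elements of
the Gauss valuation ring spanning `F` over `K(t)`, satisfying `hind` of `ValExt` for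
`L := K(t)`, with residues independent over `k[t̄]`. -/
theorem gch_hind {c0 c1 : K} (hc0 : c0 ∈ A) (hc1 : c1 ∈ A) (hc : c0 ≠ c1)
    (h01 : (c0 - c1)⁻¹ ∈ A)
    (t : ↥(laurentBaseChange K (modularFunctionFieldFull M)))
    (ht : (t : LaurentSeries K) = cinstU H K c0 c1) (htV : t ∈ grO A hA M hℓM) :
    ∃ (b : Fin (psi M / psi a2) → ↥(laurentBaseChange K (modularFunctionFieldFull M)))
      (hb : ∀ i, b i ∈ grO A hA M hℓM),
      FiniteDimensional ↥K⟮t⟯ ↥(laurentBaseChange K (modularFunctionFieldFull M)) ∧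
      (∀ x : ↥(laurentBaseChange K (modularFunctionFieldFull M)),
        ∃ a : Fin (psi M / psi a2) → ↥K⟮t⟯,
          x = ∑ i, algebraMap ↥K⟮t⟯
            ↥(laurentBaseChange K (modularFunctionFieldFull M)) (a i) * b i) ∧
      (∀ a : Fin (psi M / psi a2) → ↥K⟮t⟯,
        (∀ i, algebraMap ↥K⟮t⟯ ↥(laurentBaseChange K (modularFunctionFieldFull M)) (a i) ∈
          grO A hA M hℓM) →
        ∑ i, algebraMap ↥K⟮t⟯ ↥(laurentBaseChange K (modularFunctionFieldFull M)) (a i) *
          b i ∈ (grO A hA M hℓM).nonunits →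
        ∀ i, algebraMap ↥K⟮t⟯ ↥(laurentBaseChange K (modularFunctionFieldFull M)) (a i) ∈
          (grO A hA M hℓM).nonunits) ∧
      (∀ g : Fin (psi M / psi a2) → (IsLocalRing.ResidueField A)[X],
        ∑ i, aeval (grRes A hA M hℓM ⟨t, htV⟩) (g i) *
          grRes A hA M hℓM ⟨b i, hb i⟩ = 0 → ∀ i, g i = 0) := by
  obtain ⟨n, b, hb, hn, hfd, hspan, hind, hpoly⟩ := gr_hind_t A hA M hℓM t htV
    (gch_transcendental A hA M hℓM H hc0 hc1 hc h01 t ht htV) (gch_grJ_mem M H hc t ht)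
  have hn' : n = psi M / psi a2 := hn.symm.trans (gch_finrank A hA M hℓM H hc t ht)
  subst hn'
  exact ⟨b, hb, hfd, hspan, hind, hpoly⟩

/-- Uniqueness of the Gauss valuation ring over its trace on `K(t)`, `t` the chart coordinate. -/
theorem gch_unique {c0 c1 : K} (hc : c0 ≠ c1)
    (t : ↥(laurentBaseChange K (modularFunctionFieldFull M)))
    (ht : (t : LaurentSeries K) = cinstU H K c0 c1)
    (O' : ValuationSubring ↥(laurentBaseChange K (modularFunctionFieldFull M)))
    (hO' : ∀ y : ↥K⟮t⟯,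
      algebraMap ↥K⟮t⟯ ↥(laurentBaseChange K (modularFunctionFieldFull M)) y ∈ O' ↔
        algebraMap ↥K⟮t⟯ ↥(laurentBaseChange K (modularFunctionFieldFull M)) y ∈
          grO A hA M hℓM) :
    O' = grO A hA M hℓM :=
  gr_unique_t A hA M hℓM t (gch_grJ_mem M H hc t ht) O' hO'

/-- The residue of an element of `K(t) ∩ grO` is a fraction of polynomials in the residue of
`t` (for any `t` of the Gauss valuation ring with transcendental residue). -/
theorem gch_frac (t : ↥(laurentBaseChange K (modularFunctionFieldFull M)))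
    (htV : t ∈ grO A hA M hℓM)
    (htr : Transcendental (IsLocalRing.ResidueField A) (grRes A hA M hℓM ⟨t, htV⟩))
    (a : ↥K⟮t⟯)
    (haO : algebraMap ↥K⟮t⟯ ↥(laurentBaseChange K (modularFunctionFieldFull M)) a ∈
      grO A hA M hℓM) :
    ∃ P Q : (IsLocalRing.ResidueField A)[X], Q ≠ 0 ∧
      grRes A hA M hℓM ⟨_, haO⟩ * aeval (grRes A hA M hℓM ⟨t, htV⟩) Q =
        aeval (grRes A hA M hℓM ⟨t, htV⟩) P := by
  have hmem : ((algebraMap ↥K⟮t⟯ ↥(laurentBaseChange K (modularFunctionFieldFull M)) a :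
      ↥(laurentBaseChange K (modularFunctionFieldFull M))) : LaurentSeries K) ∈
      K⟮(t : LaurentSeries K)⟯ := by
    rw [← gtw_map_adjoin M t]
    exact ⟨a, a.2, rfl⟩
  obtain ⟨P, Q, hQ, -, hρ⟩ := gab_mem_adjoin (gr_gabHyp A) ⟨(t : LaurentSeries K), htV⟩ htr
    ⟨_, haO⟩ hmem
  exact ⟨P.map (IsLocalRing.residue A), Q.map (IsLocalRing.residue A), hQ, hρ⟩

/-- Under `hind`, the coordinates of an element of a valuation ring lie in it. -/
theorem gch_coeff_mem {L F : Type*} [Field L] [Field F] [Algebra L F] (O : ValuationSubring F)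
    {n : ℕ} (b : Fin n → F)
    (hind : ∀ a : Fin n → L, (∀ i, algebraMap L F (a i) ∈ O) →
      ∑ i, algebraMap L F (a i) * b i ∈ O.nonunits → ∀ i, algebraMap L F (a i) ∈ O.nonunits)
    (a : Fin n → L) (hx : ∑ i, algebraMap L F (a i) * b i ∈ O) (i : Fin n) :
    algebraMap L F (a i) ∈ O :=
  (ValuationSubring.valuation_le_one_iff _ _).mp
    ((valext_le_sum O b hind a i).trans ((ValuationSubring.valuation_le_one_iff _ _).mpr hx))

/-- A ring hom on a valuation ring applied to a sum of products. -/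
theorem gch_map_sum {F R : Type*} [Field F] [CommRing R] (O : ValuationSubring F)
    (ρ : ↥O →+* R) {n : ℕ} (u v : Fin n → F) (hu : ∀ i, u i ∈ O) (hv : ∀ i, v i ∈ O) (x : ↥O)
    (hx : (x : F) = ∑ i, u i * v i) :
    ρ x = ∑ i, ρ ⟨u i, hu i⟩ * ρ ⟨v i, hv i⟩ := by
  have e : x = ∑ i, (⟨u i, hu i⟩ : ↥O) * ⟨v i, hv i⟩ := by
    apply Subtype.ext
    rw [hx]
    exact (map_sum O.subtype (fun i => (⟨u i, hu i⟩ : ↥O) * ⟨v i, hv i⟩) Finset.univ).symm
  rw [e, map_sum]
  exact Finset.sum_congr rfl fun i _ => map_mul ρ _ _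

/-- Clearing denominators in a combination with fraction coefficients. -/
theorem gch_clear {k S : Type*} [Field k] [CommRing S] [Algebra k S] (τ : S) {n : ℕ}
    (P Q : Fin n → k[X]) (α β : Fin n → S) (hPQ : ∀ i, α i * aeval τ (Q i) = aeval τ (P i)) :
    aeval τ (∏ j, Q j) * ∑ i, α i * β i =
      ∑ i, aeval τ (P i * ∏ j ∈ Finset.univ.erase i, Q j) * β i := by
  classical
  rw [Finset.mul_sum]
  refine Finset.sum_congr rfl fun i _ => ?_
  rw [← Finset.mul_prod_erase Finset.univ Q (Finset.mem_univ i), map_mul, map_mul, ← hPQ i]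
  ring

/-- Residue-degree bound, elementwise: for any coordinate `t` of the Gauss valuation ring with
transcendental residue and any family `b` of elements of the Gauss valuation ring spanning `F`
over `K(t)` and satisfying `hind`, the residues of the `b i` span the residue field over
`k(t̄)`. -/
theorem gch_residue_span_aux (t : ↥(laurentBaseChange K (modularFunctionFieldFull M)))
    (htV : t ∈ grO A hA M hℓM)
    (htr : Transcendental (IsLocalRing.ResidueField A) (grRes A hA M hℓM ⟨t, htV⟩))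
    {n : ℕ} (b : Fin n → ↥(laurentBaseChange K (modularFunctionFieldFull M)))
    (hb : ∀ i, b i ∈ grO A hA M hℓM)
    (hspan : ∀ x : ↥(laurentBaseChange K (modularFunctionFieldFull M)),
      ∃ a : Fin n → ↥K⟮t⟯,
        x = ∑ i, algebraMap ↥K⟮t⟯
          ↥(laurentBaseChange K (modularFunctionFieldFull M)) (a i) * b i)
    (hind : ∀ a : Fin n → ↥K⟮t⟯,
      (∀ i, algebraMap ↥K⟮t⟯ ↥(laurentBaseChange K (modularFunctionFieldFull M)) (a i) ∈
        grO A hA M hℓM) →
      ∑ i, algebraMap ↥K⟮t⟯ ↥(laurentBaseChange K (modularFunctionFieldFull M)) (a i) *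
        b i ∈ (grO A hA M hℓM).nonunits →
      ∀ i, algebraMap ↥K⟮t⟯ ↥(laurentBaseChange K (modularFunctionFieldFull M)) (a i) ∈
        (grO A hA M hℓM).nonunits)
    (x : ↥(grO A hA M hℓM)) :
    ∃ (p : Fin n → (IsLocalRing.ResidueField A)[X]) (q : (IsLocalRing.ResidueField A)[X]),
      q ≠ 0 ∧ aeval (grRes A hA M hℓM ⟨t, htV⟩) q * grRes A hA M hℓM x =
        ∑ i, aeval (grRes A hA M hℓM ⟨t, htV⟩) (p i) * grRes A hA M hℓM ⟨b i, hb i⟩ := by
  classical
  obtain ⟨a, ha⟩ := hspan (x : ↥(laurentBaseChange K (modularFunctionFieldFull M)))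
  have haO : ∀ i, algebraMap ↥K⟮t⟯ ↥(laurentBaseChange K (modularFunctionFieldFull M)) (a i) ∈
      grO A hA M hℓM := fun i =>
    gch_coeff_mem (grO A hA M hℓM) b hind a (ha ▸ x.2) i
  have hfrac := fun i => gch_frac A hA M hℓM t htV htr (a i) (haO i)
  choose P Q hQ hPQ using hfrac
  have hx := gch_map_sum (grO A hA M hℓM) (grRes A hA M hℓM) _ b haO hb x ha
  refine ⟨fun i => P i * ∏ j ∈ Finset.univ.erase i, Q j, ∏ j, Q j,
    Finset.prod_ne_zero_iff.mpr fun j _ => hQ j, ?_⟩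
  rw [hx]
  exact gch_clear (grRes A hA M hℓM ⟨t, htV⟩) P Q _ _ hPQ

/-- Residue-degree bound for the chart coordinate, elementwise: the residues of
`ψ(M) / ψ(a2)` elements of the Gauss valuation ring span the residue field over `k(t̄)`. -/
theorem gch_residue_span {c0 c1 : K} (hc0 : c0 ∈ A) (hc1 : c1 ∈ A) (hc : c0 ≠ c1)
    (h01 : (c0 - c1)⁻¹ ∈ A)
    (t : ↥(laurentBaseChange K (modularFunctionFieldFull M)))
    (ht : (t : LaurentSeries K) = cinstU H K c0 c1) (htV : t ∈ grO A hA M hℓM) :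
    ∃ c : Fin (psi M / psi a2) → ↥(grO A hA M hℓM), ∀ x : ↥(grO A hA M hℓM),
      ∃ (p : Fin (psi M / psi a2) → (IsLocalRing.ResidueField A)[X])
        (q : (IsLocalRing.ResidueField A)[X]),
        q ≠ 0 ∧ aeval (grRes A hA M hℓM ⟨t, htV⟩) q * grRes A hA M hℓM x =
          ∑ i, aeval (grRes A hA M hℓM ⟨t, htV⟩) (p i) * grRes A hA M hℓM (c i) := by
  obtain ⟨b, hb, -, hspan, hind, -⟩ := gch_hind A hA M hℓM H hc0 hc1 hc h01 t ht htV
  exact ⟨fun i => ⟨b i, hb i⟩, fun x => gch_residue_span_aux A hA M hℓM t htV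
    (gch_transcendental A hA M hℓM H hc0 hc1 hc h01 t ht htV) b hb hspan hind x⟩

end Chart

end Fermat.Agent.S18
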