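import Mathlib

/-!
# S18, package DISC: discriminant criterion for integral closedness over a PID

Pure commutative algebra (Mathlib only).  Let `R` be a PID with fraction field `K`, `L / K` a
finite separable extension, `b` a `K`-basis of `L` made of elements integral over `R`.

* `dscb_pow_dvd_discr`: local bound.  If `S` is a domain, free of finite rank `d` over `R`, and at
  most `n` maximal ideals of `S` contain the prime `p`, all of residue degree one, then
  `p ^ (d - n)` divides the discriminant of any `R`-basis of `S`.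
* `dscb_exists_index`: index formula `disc b = δ ^ 2 * disc (integral closure)`.
* `dscb_integral_mem_span`: if at every prime `p` with `p ^ 2 ∣ disc b` one has
  `v_p (disc b) ≤ d - #{places of L above p} + 1`, then the `R`-span of `b` is the whole
  integral closure of `R` in `L`.
* `dscb_residue_degree_one`, `dscb_hloc_of_kernels`: ways to check the local hypotheses.
-/

namespace Fermat.Agent.S18

open Module Matrix Polynomial
open scoped nonZeroDivisors

/-- If `z ^ m ∈ p S` then `p ∣ trace z` (`S` finite free over `R`, `p` prime). -/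
theorem dscb_trace_dvd {R S ι : Type*} [CommRing R] [CommRing S] [Algebra R S] [Fintype ι]
    [DecidableEq ι] (b : Basis ι R S) {p : R} (hp : Prime p) {z w : S} {m : ℕ}
    (h : z ^ m = algebraMap R S p * w) : p ∣ Algebra.trace R S z := by
  have hprime : (Ideal.span {p}).IsPrime := (Ideal.span_singleton_prime hp.ne_zero).2 hp
  let f : R →+* R ⧸ Ideal.span {p} := Ideal.Quotient.mk _
  have hnil : IsNilpotent ((Algebra.leftMulMatrix b z).map f) := by
    refine ⟨m, ?_⟩
    have h1 : ((Algebra.leftMulMatrix b z).map f) ^ m = ((Algebra.leftMulMatrix b z) ^ m).map f := by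
      rw [← RingHom.mapMatrix_apply, ← RingHom.mapMatrix_apply, map_pow]
    rw [h1, ← map_pow, h, map_mul]
    have h2 : Algebra.leftMulMatrix b (algebraMap R S p) = algebraMap R (Matrix ι ι R) p :=
      (Algebra.leftMulMatrix b).commutes p
    rw [h2]
    ext i j
    simp only [Matrix.map_apply, Matrix.zero_apply]
    rw [Algebra.algebraMap_eq_smul_one, Matrix.smul_mul, Matrix.one_mul, Matrix.smul_apply,
      smul_eq_mul, map_mul]
    have : f p = 0 := Ideal.Quotient.eq_zero_iff_mem.2 (Ideal.mem_span_singleton_self p)
    rw [this, zero_mul]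
  have htr := (Matrix.isNilpotent_trace_of_isNilpotent hnil).eq_zero
  rw [Algebra.trace_eq_matrix_trace b]
  have h3 : ((Algebra.leftMulMatrix b z).map f).trace = f (Algebra.leftMulMatrix b z).trace := by
    simp [Matrix.trace, Matrix.diag]
  rw [h3] at htr
  exact Ideal.mem_span_singleton.1 (Ideal.Quotient.eq_zero_iff_mem.1 htr)

/-- A determinant with `s.card` rows divisible by `p` is divisible by `p ^ s.card`. -/
theorem dscb_pow_dvd_det {R ι : Type*} [CommRing R] [Fintype ι] [DecidableEq ι]
    (T : Matrix ι ι R) (p : R) (s : Finset ι) (h : ∀ i ∈ s, ∀ j, p ∣ T i j) :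
    p ^ s.card ∣ T.det := by
  classical
  choose! T' hT' using h
  let T'' : Matrix ι ι R := Matrix.of fun i j => if i ∈ s then T' i j else T i j
  have hT : T = Matrix.of fun i j => (fun i => if i ∈ s then p else 1) i * T'' i j := by
    ext i j
    by_cases hi : i ∈ s
    · simp [T'', hi, hT' i hi j]
    · simp [T'', hi]
  rw [hT, Matrix.det_mul_column]
  have : (∏ i, if i ∈ s then p else 1) = p ^ s.card := by
    rw [Finset.prod_ite_mem, Finset.univ_inter, Finset.prod_const]
  rw [this]
  exact Dvd.intro _ rfl

/-- Every prime of `S` containing `p` is maximal (`S` integral over the PID `R`). -/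
theorem dscb_isMaximal_of_mem {R S : Type*} [CommRing R] [IsDomain R] [IsPrincipalIdealRing R]
    [CommRing S] [Algebra R S] [Algebra.IsIntegral R S] {p : R} (hp : Prime p)
    (J : Ideal S) [hJ : J.IsPrime] (hpJ : algebraMap R S p ∈ J) : J.IsMaximal := by
  have hc : (J.comap (algebraMap R S)).IsPrime := Ideal.comap_isPrime _ J
  have hne : J.comap (algebraMap R S) ≠ ⊥ := by
    intro h0
    have : p ∈ J.comap (algebraMap R S) := hpJ
    rw [h0] at this
    exact hp.ne_zero this
  have hmax : (J.comap (algebraMap R S)).IsMaximal := hc.isMaximal hne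
  exact Ideal.isMaximal_of_isIntegral_of_isMaximal_comap J hmax

/-- The local discriminant bound: if at most `n` maximal ideals of `S` contain `p`, all of
residue degree one, then `p ^ (rank - n)` divides the discriminant. -/
theorem dscb_pow_dvd_discr {R S ι : Type*} [CommRing R] [IsDomain R] [IsPrincipalIdealRing R]
    [CommRing S] [IsDomain S] [Algebra R S] [Fintype ι] [DecidableEq ι] (b : Basis ι R S)
    (p : R) (hp : Prime p) (n : ℕ)
    (hcount : ∀ s : Finset (Ideal S),
      (∀ Q ∈ s, Q.IsMaximal ∧ algebraMap R S p ∈ Q) → s.card ≤ n)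
    (hdeg : ∀ Q : Ideal S, Q.IsMaximal → algebraMap R S p ∈ Q →
      ∀ x : S, ∃ r : R, x - algebraMap R S r ∈ Q) :
    p ^ (Fintype.card ι - n) ∣ Algebra.discr R b := by
  classical
  have hfin : Module.Finite R S := Module.Finite.of_basis b
  have hint : Algebra.IsIntegral R S := Algebra.IsIntegral.of_finite R S
  have hfree : Module.Free R S := Module.Free.of_basis b
  have hinj : Function.Injective (algebraMap R S) := FaithfulSMul.algebraMap_injective R S
  -- the finite set of maximal ideals above `p`
  have hQfin : {Q : Ideal S | Q.IsMaximal ∧ algebraMap R S p ∈ Q}.Finite := by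
    by_contra hinf
    obtain ⟨s, hs, hcard⟩ := Set.Infinite.exists_subset_card_eq hinf (n + 1)
    have := hcount s (fun Q hQ => hs hQ)
    omega
  set s₀ : Finset (Ideal S) := hQfin.toFinset with hs₀def
  have hs₀mem : ∀ Q, Q ∈ s₀ ↔ Q.IsMaximal ∧ algebraMap R S p ∈ Q := fun Q => by
    rw [hs₀def, Set.Finite.mem_toFinset]; rfl
  have hs₀ : s₀.card ≤ n := hcount s₀ (fun Q hQ => (hs₀mem Q).1 hQ)
  -- the radical of `p S`
  set N : Ideal S := (Ideal.span {algebraMap R S p}).radical with hNdef
  have hpN : algebraMap R S p ∈ N := Ideal.le_radical (Ideal.mem_span_singleton_self _)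
  have hN0 : N ≠ ⊥ := by
    intro h0
    rw [h0, Ideal.mem_bot] at hpN
    exact hp.ne_zero (hinj (by rw [hpN, map_zero]))
  obtain ⟨b', a, ab', hab'⟩ := Ideal.exists_smith_normal_form b N hN0
  -- coordinates of elements of `N`
  have hrepr : ∀ (y : N) (i : ι), b'.repr (y : S) i = ab'.repr y i * a i := by
    intro y i
    have h1 : (y : S) = ∑ j, (ab'.repr y j * a j) • b' j := by
      have h2 := congrArg (Subtype.val) (ab'.sum_repr y)
      rw [← h2, Submodule.coe_sum]
      refine Finset.sum_congr rfl fun j _ => ?_
      rw [Submodule.coe_smul_of_tower, hab', mul_smul]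
    have h3 := congrFun (Basis.repr_sum_self b' (fun j => ab'.repr y j * a j)) i
    rw [← h1] at h3
    exact h3
  have ha : ∀ i, a i ∣ p := by
    intro i
    have hx : algebraMap R S p * b' i ∈ N := N.mul_mem_right _ hpN
    have h1 := hrepr ⟨_, hx⟩ i
    have hL : b'.repr (algebraMap R S p * b' i) i = p := by
      rw [← Algebra.smul_def, map_smul, Finsupp.smul_apply, Basis.repr_self,
        Finsupp.single_eq_same, smul_eq_mul, mul_one]
    simp only at h1
    rw [hL] at h1
    exact ⟨_, by rw [h1, mul_comm]⟩
  -- the intersection of the maximal ideals above `p` lies in `N`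
  have hinter : ∀ x : S, (∀ Q ∈ s₀, x ∈ Q) → x ∈ N := by
    intro x hx
    rw [hNdef, Ideal.radical_eq_sInf, Ideal.mem_sInf]
    rintro J ⟨hJ1, hJ2⟩
    have hpJ : algebraMap R S p ∈ J := hJ1 (Ideal.mem_span_singleton_self _)
    exact hx J ((hs₀mem J).2 ⟨dscb_isMaximal_of_mem hp J hpJ, hpJ⟩)
  -- the unit coefficients give elements of `N`
  have hunit : ∀ i, IsUnit (a i) → b' i ∈ N := by
    intro i hi
    obtain ⟨u, hu⟩ := hi
    have h1 : a i • b' i ∈ N := by rw [← hab']; exact (ab' i).2
    have h2 : b' i = algebraMap R S (↑u⁻¹ : R) * (a i • b' i) := by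
      rw [← Algebra.smul_def, smul_smul, ← hu, Units.inv_mul, one_smul]
    rw [h2]
    exact N.mul_mem_left _ h1
  have hnonunit : ∀ i, ¬ IsUnit (a i) → p ∣ a i := by
    intro i hi
    rcases (hp.irreducible.dvd_iff.1 (ha i)) with h | h
    · exact absurd h hi
    · exact h.dvd
  -- the rows of the trace matrix of `b'` at unit coefficients are divisible by `p`
  have hrows : ∀ i ∈ Finset.univ.filter (fun i => IsUnit (a i)), ∀ j,
      p ∣ Algebra.traceMatrix R b' i j := by
    intro i hi j
    rw [Finset.mem_filter] at hi
    have h1 : b' i * b' j ∈ N := N.mul_mem_right _ (hunit i hi.2)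
    obtain ⟨m, hm⟩ := h1
    obtain ⟨w, hw⟩ := Ideal.mem_span_singleton.1 hm
    rw [Algebra.traceMatrix_apply, Algebra.traceForm_apply]
    exact dscb_trace_dvd b' hp hw
  -- counting the non-unit coefficients
  have hmaxp : (Ideal.span {p}).IsMaximal :=
    PrincipalIdealRing.isMaximal_of_irreducible hp.irreducible
  let _ : Field (R ⧸ Ideal.span {p}) := Ideal.Quotient.field _
  have hcompl : (Finset.univ.filter (fun i => ¬ IsUnit (a i))).card ≤ s₀.card := by
    set Ip : Finset ι := Finset.univ.filter (fun i => ¬ IsUnit (a i)) with hIp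
    have hchoose : ∀ (i : ι) (Q : s₀), ∃ r : R, b' i - algebraMap R S r ∈ (Q : Ideal S) := by
      intro i Q
      have hQ := (hs₀mem Q).1 Q.2
      exact hdeg Q hQ.1 hQ.2 (b' i)
    choose r hr using hchoose
    let v : Ip → (s₀ → R ⧸ Ideal.span {p}) := fun i Q => Ideal.Quotient.mk _ (r i Q)
    have hli : LinearIndependent (R ⧸ Ideal.span {p}) v := by
      rw [Fintype.linearIndependent_iff]
      intro g hg i
      choose c hc using fun i : Ip => Ideal.Quotient.mk_surjective (g i)
      let c' : ι → R := fun j => if h : j ∈ Ip then c ⟨j, h⟩ else 0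
      let x : S := ∑ j, c' j • b' j
      have hxQ : ∀ Q ∈ s₀, x ∈ Q := by
        intro Q hQ
        have hQ' := (hs₀mem Q).1 hQ
        have h1 : ∑ j, c' j * r j ⟨Q, hQ⟩ ∈ Ideal.span {p} := by
          rw [← Ideal.Quotient.eq_zero_iff_mem, map_sum]
          have h2 := congrFun hg ⟨Q, hQ⟩
          simp only [Finset.sum_apply, Pi.smul_apply, smul_eq_mul, Pi.zero_apply] at h2
          rw [← h2]
          rw [← Finset.sum_subset (Finset.subset_univ Ip)]
          · rw [← Finset.sum_coe_sort Ip]
            refine Finset.sum_congr rfl fun j _ => ?_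
            simp only [c', v, map_mul]
            rw [dif_pos j.2, hc]
          · intro j _ hj
            simp only [c']
            rw [dif_neg hj, zero_mul, map_zero]
        obtain ⟨t, ht⟩ := Ideal.mem_span_singleton.1 h1
        have h3 : x = ∑ j, c' j • (b' j - algebraMap R S (r j ⟨Q, hQ⟩)) +
            algebraMap R S p * algebraMap R S t := by
          rw [← map_mul, ← ht, map_sum]
          simp only [x, map_mul, Algebra.smul_def, mul_sub]
          rw [Finset.sum_sub_distrib, sub_add_cancel]
        rw [h3]
        refine Q.add_mem (Q.sum_mem fun j _ => ?_) (Q.mul_mem_right _ hQ'.2)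
        rw [Algebra.smul_def]
        exact Q.mul_mem_left _ (hr j ⟨Q, hQ⟩)
      have hxN : x ∈ N := hinter x hxQ
      have h4 := hrepr ⟨x, hxN⟩ i
      have h5 : b'.repr x i = c i := by
        have := congrFun (Basis.repr_sum_self b' c') i
        simp only [x]
        rw [this]
        simp only [c']
        rw [dif_pos i.2]
      simp only at h4
      rw [h5] at h4
      have h6 : p ∣ c i := by
        have hi' : ¬ IsUnit (a i) := (Finset.mem_filter.1 i.2).2
        exact Dvd.dvd.trans (hnonunit i hi') ⟨_, by rw [h4, mul_comm]⟩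
      rw [← hc i, Ideal.Quotient.eq_zero_iff_mem, Ideal.mem_span_singleton]
      exact h6
    have h7 := hli.fintype_card_le_finrank
    rw [Module.finrank_fintype_fun_eq_card, Fintype.card_coe, Fintype.card_coe] at h7
    exact h7
  -- conclusion
  have hcard : Fintype.card ι - n ≤ (Finset.univ.filter (fun i => IsUnit (a i))).card := by
    have h1 := Finset.card_filter_add_card_filter_not (s := (Finset.univ : Finset ι))
      (fun i => IsUnit (a i))
    rw [Finset.card_univ] at h1
    omega
  have hdvd' : p ^ (Fintype.card ι - n) ∣ Algebra.discr R b' := by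
    rw [Algebra.discr_def]
    exact (pow_dvd_pow p hcard).trans (dscb_pow_dvd_det _ p _ hrows)
  have hbb' : Algebra.discr R b = (b'.toMatrix b).det ^ 2 * Algebra.discr R b' := by
    rw [← Algebra.discr_of_matrix_vecMul, Basis.toMatrix_map_vecMul]
  rw [hbb']
  exact hdvd'.mul_left _

/-- The index formula: there is an `R`-basis `bC` of the integral closure and `δ : R` (the
determinant of the transition matrix) with `disc b = δ ^ 2 * disc bC`; if `δ` is a unit, the
lattice spanned by `b` is the whole integral closure. -/
theorem dscb_exists_index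
    {R K L ι : Type*} [CommRing R] [IsDomain R] [IsPrincipalIdealRing R]
    [Field K] [Field L] [Algebra R K] [IsFractionRing R K] [Algebra K L] [Algebra R L]
    [IsScalarTower R K L] [FiniteDimensional K L] [Algebra.IsSeparable K L]
    [Fintype ι] [DecidableEq ι] (b : Module.Basis ι K L)
    (hint : ∀ i, IsIntegral R (b i))
    (D : R) (hD : algebraMap R K D = Algebra.discr K b) :
    ∃ (bC : Basis ι R (integralClosure R L)) (δ : R),
      D = δ ^ 2 * Algebra.discr R bC ∧ δ ≠ 0 ∧
      (IsUnit δ → ∀ x : L, IsIntegral R x → x ∈ Submodule.span R (Set.range b)) := by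
  classical
  have htf : IsTorsionFree R L := .trans_faithfulSMul R K L
  have hfree : Module.Free R (integralClosure R L) :=
    IsIntegralClosure.module_free R K L (integralClosure R L)
  have hfin : Module.Finite R (integralClosure R L) :=
    IsIntegralClosure.finite R K L (integralClosure R L)
  have hrank : Module.finrank R (integralClosure R L) = Module.finrank K L :=
    IsIntegralClosure.rank R K L (integralClosure R L)
  have hlocz : IsLocalization (Algebra.algebraMapSubmonoid (integralClosure R L) R⁰) L :=
    IsIntegralClosure.isLocalization R K L (integralClosure R L)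
  have hcard : Fintype.card (Module.Free.ChooseBasisIndex R (integralClosure R L)) =
      Fintype.card ι := by
    rw [← Module.finrank_eq_card_chooseBasisIndex, hrank, Module.finrank_eq_card_basis b]
  let bC : Basis ι R (integralClosure R L) :=
    (Module.Free.chooseBasis R (integralClosure R L)).reindex (Fintype.equivOfCardEq hcard)
  let bL : Basis ι K L := bC.localizationLocalization K R⁰ L
  have hbL : ∀ i, bL i = (bC i : L) := fun i =>
    Basis.localizationLocalization_apply K R⁰ L bC i
  let P : Matrix ι ι R := fun i j => bC.repr ⟨b i, hint i⟩ j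
  have hbP : ∀ i, b i = ∑ j, P i j • (bC j : L) := by
    intro i
    have h1 := congrArg (Subtype.val) (bC.sum_repr ⟨b i, hint i⟩)
    simp only at h1
    rw [← h1]
    simp only [P]
    rw [AddSubmonoidClass.coe_finsetSum]
    rfl
  have hb : (b : ι → L) = ((P.map (algebraMap R K)).map (algebraMap K L)) *ᵥ bL := by
    funext i
    rw [hbP i]
    simp only [Matrix.mulVec, dotProduct, Matrix.map_apply, hbL]
    refine Finset.sum_congr rfl fun j _ => ?_
    rw [← IsScalarTower.algebraMap_apply, Algebra.smul_def]
  have hdisc : D = P.det ^ 2 * Algebra.discr R bC := by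
    apply IsFractionRing.injective R K
    rw [hD, hb, Algebra.discr_of_matrix_mulVec, map_mul, map_pow, RingHom.map_det,
      ← Algebra.discr_localizationLocalization R R⁰ L bC]
    rfl
  have hD0 : D ≠ 0 := by
    intro h0
    rw [h0, map_zero] at hD
    exact Algebra.discr_not_zero_of_basis K b hD.symm
  have hP0 : P.det ≠ 0 := by
    intro h0
    rw [h0] at hdisc
    simp at hdisc
    exact hD0 hdisc
  -- `P` is invertible over `R`, hence the basis of the integral closure lies in the span
  refine ⟨bC, P.det, hdisc, hP0, fun hunit => ?_⟩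
  have hPinv : P⁻¹ * P = 1 := Matrix.nonsing_inv_mul P hunit
  have hbC : ∀ j, (bC j : L) ∈ Submodule.span R (Set.range b) := by
    intro j
    have h1 : (bC j : L) = ∑ i, (P⁻¹) j i • b i := by
      have h2 : ∑ i, (P⁻¹) j i • b i = ∑ l, (P⁻¹ * P) j l • (bC l : L) := by
        simp only [Matrix.mul_apply, Finset.sum_smul]
        rw [Finset.sum_comm]
        refine Finset.sum_congr rfl fun i _ => ?_
        rw [hbP i, Finset.smul_sum]
        refine Finset.sum_congr rfl fun l _ => ?_
        rw [smul_smul]
      rw [h2, hPinv]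
      simp [Matrix.one_apply]
    rw [h1]
    exact Submodule.sum_mem _ fun i _ =>
      Submodule.smul_mem _ _ (Submodule.subset_span (Set.mem_range_self i))
  intro x hx
  have h1 := congrArg (Subtype.val) (bC.sum_repr ⟨x, hx⟩)
  simp only at h1
  rw [← h1, AddSubmonoidClass.coe_finsetSum]
  exact Submodule.sum_mem _ fun j _ => Submodule.smul_mem _ _ (hbC j)


/-- The discriminant criterion: the lattice spanned by an integral basis `b` is the whole integral
closure as soon as the discriminant of `b` is small enough at every prime. -/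
theorem dscb_integral_mem_span
    {R K L ι : Type*} [CommRing R] [IsDomain R] [IsPrincipalIdealRing R]
    [Field K] [Field L] [Algebra R K] [IsFractionRing R K] [Algebra K L] [Algebra R L]
    [IsScalarTower R K L] [FiniteDimensional K L] [Algebra.IsSeparable K L]
    [Fintype ι] [DecidableEq ι] (b : Module.Basis ι K L)
    (hint : ∀ i, IsIntegral R (b i))
    (D : R) (hD : algebraMap R K D = Algebra.discr K b)
    (hloc : ∀ p : R, Prime p → p ^ 2 ∣ D → ∃ n : ℕ,
        (∀ s : Finset (Ideal (integralClosure R L)),
          (∀ Q ∈ s, Q.IsMaximal ∧ algebraMap R (integralClosure R L) p ∈ Q) → s.card ≤ n) ∧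
        (∀ Q : Ideal (integralClosure R L), Q.IsMaximal →
          algebraMap R (integralClosure R L) p ∈ Q →
          ∀ x : integralClosure R L, ∃ r : R, x - algebraMap R (integralClosure R L) r ∈ Q) ∧
        ¬ p ^ (Fintype.card ι - n + 2) ∣ D) :
    ∀ x : L, IsIntegral R x → x ∈ Submodule.span R (Set.range b) := by
  classical
  obtain ⟨bC, δ, hdisc, hδ0, hconcl⟩ := dscb_exists_index b hint D hD
  refine hconcl ?_
  by_contra hnu
  obtain ⟨p, hpirr, hpdvd⟩ := WfDvdMonoid.exists_irreducible_factor hnu hδ0
  have hp : Prime p := hpirr.prime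
  have hp2 : p ^ 2 ∣ D := by
    rw [hdisc]
    exact (pow_dvd_pow_of_dvd hpdvd 2).mul_right _
  obtain ⟨n, hcount, hdeg, hndvd⟩ := hloc p hp hp2
  apply hndvd
  have h1 := dscb_pow_dvd_discr bC p hp n hcount hdeg
  rw [hdisc, pow_add, mul_comm (δ ^ 2)]
  exact mul_dvd_mul h1 (pow_dvd_pow_of_dvd hpdvd 2)

/-- Special case: a discriminant without square prime factors (for instance a unit). -/
theorem dscb_integral_mem_span_of_squarefree
    {R K L ι : Type*} [CommRing R] [IsDomain R] [IsPrincipalIdealRing R]
    [Field K] [Field L] [Algebra R K] [IsFractionRing R K] [Algebra K L] [Algebra R L]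
    [IsScalarTower R K L] [FiniteDimensional K L] [Algebra.IsSeparable K L]
    [Fintype ι] [DecidableEq ι] (b : Module.Basis ι K L)
    (hint : ∀ i, IsIntegral R (b i))
    (D : R) (hD : algebraMap R K D = Algebra.discr K b)
    (hsq : ∀ p : R, Prime p → ¬ p ^ 2 ∣ D) :
    ∀ x : L, IsIntegral R x → x ∈ Submodule.span R (Set.range b) :=
  dscb_integral_mem_span b hint D hD fun p hp hp2 => absurd hp2 (hsq p hp)

/-- Residue degree one over an algebraically closed residue field: if `ψ : R → k` is onto an
algebraically closed field and `Q` is a prime of the integral extension `S` containing the image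
of `ker ψ`, then `R → S / Q` is onto. -/
theorem dscb_residue_degree_one {R S k : Type*} [CommRing R] [CommRing S] [Algebra R S]
    [Algebra.IsIntegral R S] [Field k] [IsAlgClosed k] (ψ : R →+* k)
    (hψ : Function.Surjective ψ) (Q : Ideal S) [hQ : Q.IsPrime]
    (hker : ∀ r : R, ψ r = 0 → algebraMap R S r ∈ Q) (x : S) :
    ∃ r : R, x - algebraMap R S r ∈ Q := by
  classical
  obtain ⟨f, hfm, hfx⟩ := Algebra.IsIntegral.isIntegral (R := R) x
  have hsplit : (f.map ψ).Splits := IsAlgClosed.splits (f.map ψ)
  have hprod := hsplit.eq_prod_roots_of_monic (hfm.map ψ)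
  obtain ⟨m, hm⟩ := Multiset.map_surjective_of_surjective hψ (f.map ψ).roots
  set h : R[X] := (m.map (fun r => X - C r)).prod with hh
  have hmap : h.map ψ = f.map ψ := by
    rw [hprod, hh, Polynomial.map_multiset_prod, Multiset.map_map, ← hm, Multiset.map_map]
    congr 1
    refine Multiset.map_congr rfl fun r _ => ?_
    simp
  have hcoeff : ∀ n, algebraMap R S ((f - h).coeff n) ∈ Q := by
    intro n
    apply hker
    have h1 : ((f - h).map ψ).coeff n = 0 := by
      rw [Polynomial.map_sub, hmap, sub_self, coeff_zero]
    rwa [coeff_map] at h1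
  have h2 : aeval x (f - h) ∈ Q := by
    rw [aeval_eq_sum_range]
    refine Q.sum_mem fun n _ => ?_
    rw [Algebra.smul_def]
    exact Q.mul_mem_right _ (hcoeff n)
  have h3 : aeval x h ∈ Q := by
    have h4 : aeval x h = -(aeval x (f - h)) := by
      have h5 : aeval x f = 0 := by rw [aeval_def]; exact hfx
      rw [map_sub, h5]
      simp
    rw [h4]
    exact Q.neg_mem h2
  rw [hh, map_multiset_prod, Multiset.map_map] at h3
  obtain ⟨y, hy, hyQ⟩ := (hQ.multiset_prod_mem_iff_exists_mem _).1 h3
  obtain ⟨r, _, rfl⟩ := Multiset.mem_map.1 hy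
  refine ⟨r, ?_⟩
  simpa using hyQ

/-- From "every maximal ideal above `p` is the kernel of one of finitely many ring homomorphisms
`φ x : S → k`" to the two hypotheses of `dscb_integral_mem_span` at `p`. -/
theorem dscb_hloc_of_kernels {R S k X Y : Type*} [CommRing R] [CommRing S] [Algebra R S]
    [Field k] [Fintype Y] (p : R) (φ : X → (S →+* k)) (c : X → Y)
    (hc : ∀ x x', c x = c x' → RingHom.ker (φ x) = RingHom.ker (φ x'))
    (hker : ∀ Q : Ideal S, Q.IsMaximal → algebraMap R S p ∈ Q → ∃ x, Q = RingHom.ker (φ x))
    (hsurj : ∀ x (z : S), ∃ r : R, φ x (algebraMap R S r) = φ x z) :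
    (∀ s : Finset (Ideal S),
      (∀ Q ∈ s, Q.IsMaximal ∧ algebraMap R S p ∈ Q) → s.card ≤ Fintype.card Y) ∧
    (∀ Q : Ideal S, Q.IsMaximal → algebraMap R S p ∈ Q →
      ∀ z : S, ∃ r : R, z - algebraMap R S r ∈ Q) := by
  classical
  refine ⟨fun s hs => ?_, fun Q hQ hpQ z => ?_⟩
  · have hex : ∀ Q : s, ∃ x, (Q : Ideal S) = RingHom.ker (φ x) := fun Q =>
      hker Q (hs Q Q.2).1 (hs Q Q.2).2
    choose x hx using hex
    have hinj : Function.Injective (fun Q : s => c (x Q)) := by
      intro Q Q' h
      apply Subtype.ext
      rw [hx Q, hx Q']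
      exact hc _ _ h
    have := Fintype.card_le_of_injective _ hinj
    rwa [Fintype.card_coe] at this
  · obtain ⟨x, rfl⟩ := hker Q hQ hpQ
    obtain ⟨r, hr⟩ := hsurj x z
    exact ⟨r, by rw [RingHom.mem_ker, map_sub, hr, sub_self]⟩

end Fermat.Agent.S18
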