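import Mathlib
import Fermat.Agent.S18.DiscBound

/-!
# S18, package SM (abstract core): the special fibre of a normal model is normal

Abstract setting.  `R` is a noetherian integrally closed domain (think `A0[X]`, `A0` a DVR),
`π : R` a prime element, `red : R → Rb` a surjection onto a PID with kernel `(π)` (think
`k0[X]`).  `F` is a finite separable extension of `Kt = Frac R`, `O = integralClosure R F`, and
`ρ : O → κ` is a ring homomorphism into a field `κ` (finite separable over `Kb = Frac Rb`,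
of degree at most `[F : Kt]`), semilinear over `red`, with kernel `π O`.

* `smc_discr`: if `β` is a `Kt`-basis of `F` made of integral elements which spans `O` up to
  powers of `π`, with discriminant `π ^ e * P`, then `ρ O` is a free `Rb`-lattice in `κ` with a
  basis whose discriminant is `unit * red P`.
* `smc_main`: if moreover `red P = unit * ∏ p_i ^ δ_i` and the number of maximal ideals of the
  integral closure of `Rb` in `κ` above the `p_i` is at most `∑ (d - δ_i)` (all of residue
  degree one), then `ρ O` is the whole integral closure of `Rb` in `κ`.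
-/

set_option autoImplicit false
set_option linter.unusedSectionVars false

namespace Fermat.Agent.S18

open Module Matrix

section SMCore

variable {R : Type*} [CommRing R] [IsDomain R]
  {Rb : Type*} [CommRing Rb] [IsDomain Rb]
  {F : Type*} [Field F] [Algebra R F]
  {κ : Type*} [Field κ] [Algebra Rb κ]

/-- `ρ` is semilinear: `ρ (r • x) = red r • ρ x`. -/
theorem smc_rho_smul (red : R →+* Rb) (ρ : integralClosure R F →+* κ)
    (hρ : ∀ r : R, ρ (algebraMap R (integralClosure R F) r) = algebraMap Rb κ (red r))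
    (r : R) (x : integralClosure R F) : ρ (r • x) = red r • ρ x := by
  rw [Algebra.smul_def, map_mul, hρ, ← Algebra.smul_def]

/-- `ρ` of an `R`-linear combination. -/
theorem smc_rho_sum (red : R →+* Rb) (ρ : integralClosure R F →+* κ)
    (hρ : ∀ r : R, ρ (algebraMap R (integralClosure R F) r) = algebraMap Rb κ (red r))
    {ι : Type*} (s : Finset ι) (c : ι → R) (b : ι → integralClosure R F) :
    ρ (∑ i ∈ s, c i • b i) = ∑ i ∈ s, red (c i) • ρ (b i) := by
  rw [map_sum]
  exact Finset.sum_congr rfl fun i _ => smc_rho_smul red ρ hρ _ _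

/-- The image of `ρ`, as an `Rb`-submodule of `κ`. -/
def smcImage (red : R →+* Rb) (hred : Function.Surjective red)
    (ρ : integralClosure R F →+* κ)
    (hρ : ∀ r : R, ρ (algebraMap R (integralClosure R F) r) = algebraMap Rb κ (red r)) :
    Submodule Rb κ where
  carrier := Set.range ρ
  add_mem' := by
    rintro _ _ ⟨x, rfl⟩ ⟨y, rfl⟩
    exact ⟨x + y, map_add ρ x y⟩
  zero_mem' := ⟨0, map_zero ρ⟩
  smul_mem' := by
    rintro c _ ⟨x, rfl⟩
    obtain ⟨r, rfl⟩ := hred c
    exact ⟨r • x, smc_rho_smul red ρ hρ r x⟩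

theorem smc_mem_image (red : R →+* Rb) (hred : Function.Surjective red)
    (ρ : integralClosure R F →+* κ)
    (hρ : ∀ r : R, ρ (algebraMap R (integralClosure R F) r) = algebraMap Rb κ (red r)) (z : κ) :
    z ∈ smcImage red hred ρ hρ ↔ ∃ x, ρ x = z := Iff.rfl

/-- Finite generation of the image lattice. -/
theorem smc_image_fg {Kt : Type*} [Field Kt] [Algebra R Kt] [IsFractionRing R Kt]
    [Algebra Kt F] [IsScalarTower R Kt F] [FiniteDimensional Kt F] [Algebra.IsSeparable Kt F]
    [IsNoetherianRing R] [IsIntegrallyClosed R]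
    (red : R →+* Rb) (hred : Function.Surjective red)
    (ρ : integralClosure R F →+* κ)
    (hρ : ∀ r : R, ρ (algebraMap R (integralClosure R F) r) = algebraMap Rb κ (red r)) :
    (smcImage red hred ρ hρ).FG := by
  classical
  have hfin : Module.Finite R (integralClosure R F) :=
    IsIntegralClosure.finite R Kt F (integralClosure R F)
  obtain ⟨S, hS⟩ := hfin.fg_top
  refine ⟨S.image ρ, ?_⟩
  apply le_antisymm
  · rw [Submodule.span_le]
    intro z hz
    simp only [Finset.coe_image, Set.mem_image] at hz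
    obtain ⟨x, _, rfl⟩ := hz
    exact ⟨x, rfl⟩
  · rintro _ ⟨x, rfl⟩
    have hx : x ∈ Submodule.span R (S : Set (integralClosure R F)) := by
      rw [hS]; exact Submodule.mem_top
    induction hx using Submodule.span_induction with
    | mem x hx =>
      exact Submodule.subset_span (by
        simp only [Finset.coe_image, Set.mem_image]
        exact ⟨x, hx, rfl⟩)
    | zero => rw [map_zero]; exact Submodule.zero_mem _
    | add x y _ _ hx hy => rw [map_add]; exact Submodule.add_mem _ hx hy
    | smul r x _ hx =>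
      rw [smc_rho_smul red ρ hρ]
      exact Submodule.smul_mem _ _ hx

/-- Step 1: a finite family of elements of `O` whose images are `Rb`-independent and span the
image of `ρ`. -/
theorem smc_exists_lift {Kt : Type*} [Field Kt] [Algebra R Kt] [IsFractionRing R Kt]
    [Algebra Kt F] [IsScalarTower R Kt F] [FiniteDimensional Kt F] [Algebra.IsSeparable Kt F]
    [IsNoetherianRing R] [IsIntegrallyClosed R] [IsPrincipalIdealRing Rb]
    [FaithfulSMul Rb κ]
    (red : R →+* Rb) (hred : Function.Surjective red)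
    (ρ : integralClosure R F →+* κ)
    (hρ : ∀ r : R, ρ (algebraMap R (integralClosure R F) r) = algebraMap Rb κ (red r)) :
    ∃ (n : ℕ) (b : Fin n → integralClosure R F),
      LinearIndependent Rb (fun i => ρ (b i)) ∧
      ∀ x : integralClosure R F, ρ x ∈ Submodule.span Rb (Set.range fun i => ρ (b i)) := by
  classical
  set C := smcImage red hred ρ hρ with hC
  have hfin : Module.Finite Rb C := Module.Finite.iff_fg.mpr (smc_image_fg (Kt := Kt) red hred ρ hρ)
  have htf : Module.IsTorsionFree Rb κ := inferInstance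
  have htfC : Module.IsTorsionFree Rb C := inferInstance
  have hfree : Module.Free Rb C := Module.free_of_finite_type_torsion_free'
  let bb := Module.finBasis Rb C
  have hex : ∀ i, ∃ x : integralClosure R F, ρ x = (bb i : κ) := fun i => (bb i).2
  choose b hb using hex
  refine ⟨_, b, ?_, ?_⟩
  · have h1 : LinearIndependent Rb (fun i => ((bb i : C) : κ)) :=
      bb.linearIndependent.map' C.subtype (Submodule.ker_subtype C)
    have h2 : (fun i => ρ (b i)) = fun i => ((bb i : C) : κ) := funext hb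
    rw [h2]; exact h1
  · intro x
    have hx : (⟨ρ x, ⟨x, rfl⟩⟩ : C) ∈ Submodule.span Rb (Set.range bb) := by
      rw [bb.span_eq]; exact Submodule.mem_top
    have h2 : (fun i => ρ (b i)) = fun i => C.subtype (bb i) := funext hb
    rw [h2]
    have h3 : Set.range (fun i => C.subtype (bb i)) = C.subtype '' Set.range bb := by
      rw [← Set.range_comp]; rfl
    rw [h3, ← Submodule.map_span]
    exact ⟨_, hx, rfl⟩

/-- Step 2 (Nakayama): there is `a ≡ 1 mod π` with `a • O ⊆ ∑ R b_i`. -/
theorem smc_nakayama {Kt : Type*} [Field Kt] [Algebra R Kt] [IsFractionRing R Kt]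
    [Algebra Kt F] [IsScalarTower R Kt F] [FiniteDimensional Kt F] [Algebra.IsSeparable Kt F]
    [IsNoetherianRing R] [IsIntegrallyClosed R]
    (red : R →+* Rb) (hred : Function.Surjective red) (π : R)
    (hker : ∀ r : R, red r = 0 ↔ π ∣ r)
    (ρ : integralClosure R F →+* κ)
    (hρ : ∀ r : R, ρ (algebraMap R (integralClosure R F) r) = algebraMap Rb κ (red r))
    (hρker : ∀ x : integralClosure R F, ρ x = 0 → ∃ y : integralClosure R F, x = π • y)
    {ι : Type*} [Fintype ι] (b : ι → integralClosure R F)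
    (hb : ∀ x : integralClosure R F, ρ x ∈ Submodule.span Rb (Set.range fun i => ρ (b i))) :
    ∃ a : R, red a = 1 ∧ ∀ x : integralClosure R F, a • x ∈ Submodule.span R (Set.range b) := by
  classical
  have hfin : Module.Finite R (integralClosure R F) :=
    IsIntegralClosure.finite R Kt F (integralClosure R F)
  set N : Submodule R (integralClosure R F) := Submodule.span R (Set.range b) with hN
  have hfinQ : Module.Finite R (integralClosure R F ⧸ N) := inferInstance
  have hle : (⊤ : Submodule R (integralClosure R F ⧸ N)) ≤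
      Ideal.span {π} • (⊤ : Submodule R (integralClosure R F ⧸ N)) := by
    intro m _
    obtain ⟨x, rfl⟩ := Submodule.Quotient.mk_surjective N m
    obtain ⟨c, hc⟩ := (Submodule.mem_span_range_iff_exists_fun Rb).1 (hb x)
    choose r hr using fun i => hred (c i)
    have h0 : ρ (x - ∑ i, r i • b i) = 0 := by
      rw [map_sub, smc_rho_sum red ρ hρ, ← hc, sub_eq_zero]
      exact Finset.sum_congr rfl fun i _ => by rw [hr i]
    obtain ⟨y, hy⟩ := hρker _ h0
    have h1 : (Submodule.Quotient.mk x : integralClosure R F ⧸ N) =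
        π • Submodule.Quotient.mk y := by
      rw [← Submodule.Quotient.mk_smul, ← hy, Submodule.Quotient.mk_sub, eq_comm, sub_eq_self,
        Submodule.Quotient.mk_eq_zero]
      exact Submodule.sum_mem _ fun i _ =>
        Submodule.smul_mem _ _ (Submodule.subset_span (Set.mem_range_self i))
    rw [h1]
    exact Submodule.smul_mem_smul (Ideal.mem_span_singleton_self π) Submodule.mem_top
  obtain ⟨a, ha1, ha⟩ := Submodule.exists_sub_one_mem_and_smul_eq_zero_of_fg_of_le_smul
    (Ideal.span {π}) ⊤ (Module.finite_def.mp hfinQ) hle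
  refine ⟨a, ?_, fun x => ?_⟩
  · have h2 : red (a - 1) = 0 := (hker _).2 (Ideal.mem_span_singleton.1 ha1)
    rw [map_sub, map_one, sub_eq_zero] at h2
    exact h2
  · have h3 := ha (Submodule.Quotient.mk x) Submodule.mem_top
    rw [← Submodule.Quotient.mk_smul, Submodule.Quotient.mk_eq_zero] at h3
    exact h3

/-- Step 3a: the lifted family spans `F` over `Kt`. -/
theorem smc_span {Kt : Type*} [Field Kt] [Algebra R Kt] [IsFractionRing R Kt]
    [Algebra Kt F] [IsScalarTower R Kt F] [FiniteDimensional Kt F] [Algebra.IsSeparable Kt F]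
    [IsNoetherianRing R] [IsIntegrallyClosed R]
    {ι : Type*} [Fintype ι] (b : ι → integralClosure R F) (a : R) (ha0 : a ≠ 0)
    (ha : ∀ x : integralClosure R F, a • x ∈ Submodule.span R (Set.range b)) :
    ⊤ ≤ Submodule.span Kt (Set.range fun i => (b i : F)) := by
  classical
  intro y _
  have hloc : IsLocalization (Algebra.algebraMapSubmonoid (integralClosure R F)
      (nonZeroDivisors R)) F :=
    IsIntegralClosure.isLocalization R Kt F (integralClosure R F)
  obtain ⟨⟨x, s⟩, hxs⟩ := IsLocalization.surj (Algebra.algebraMapSubmonoid (integralClosure R F)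
      (nonZeroDivisors R)) y
  obtain ⟨r, hr, hrs⟩ := s.2
  obtain ⟨c, hc⟩ := (Submodule.mem_span_range_iff_exists_fun R).1 (ha x)
  have hr0 : r ≠ 0 := nonZeroDivisors.ne_zero hr
  have h1 : (algebraMap R F (a * r)) * y = ∑ i, algebraMap R F (c i) * (b i : F) := by
    have h2 : ((a • x : integralClosure R F) : F) = ∑ i, algebraMap R F (c i) * (b i : F) := by
      rw [← hc, AddSubmonoidClass.coe_finsetSum]
      refine Finset.sum_congr rfl fun i _ => ?_
      rw [Algebra.smul_def]; rfl
    rw [← h2]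
    have h3 : y * algebraMap R F r = (x : F) := by
      have h4 : ((s : integralClosure R F) : F) = algebraMap R F r := by
        rw [← hrs]; rfl
      rw [← h4]; exact hxs
    rw [map_mul, mul_assoc, mul_comm _ y, h3, Algebra.smul_def]
    rfl
  have har : algebraMap R F (a * r) ≠ 0 := by
    rw [IsScalarTower.algebraMap_apply R Kt F]
    have hinj : Function.Injective (algebraMap R Kt) := IsFractionRing.injective R Kt
    exact (map_ne_zero (algebraMap Kt F)).2
      ((map_ne_zero_iff _ hinj).2 (mul_ne_zero ha0 hr0))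
  have h5 : y = ∑ i, ((algebraMap R Kt (a * r))⁻¹ * algebraMap R Kt (c i)) • (b i : F) := by
    have h6 : ∀ i, ((algebraMap R Kt (a * r))⁻¹ * algebraMap R Kt (c i)) • (b i : F) =
        (algebraMap R F (a * r))⁻¹ * (algebraMap R F (c i) * (b i : F)) := by
      intro i
      rw [Algebra.smul_def, map_mul, map_inv₀, ← IsScalarTower.algebraMap_apply,
        ← IsScalarTower.algebraMap_apply, mul_assoc]
    rw [Finset.sum_congr rfl fun i _ => h6 i, ← Finset.mul_sum, ← h1, ← mul_assoc,
      inv_mul_cancel₀ har, one_mul]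
  rw [h5]
  exact Submodule.sum_mem _ fun i _ =>
    Submodule.smul_mem _ _ (Submodule.subset_span (Set.mem_range_self i))

/-- Step 4: traces commute with reduction. -/
theorem smc_trace {Kt : Type*} [Field Kt] [Algebra R Kt] [IsFractionRing R Kt]
    [Algebra Kt F] [IsScalarTower R Kt F]
    {Kb : Type*} [Field Kb] [Algebra Rb Kb] [Algebra Kb κ] [IsScalarTower Rb Kb κ]
    (red : R →+* Rb) (ρ : integralClosure R F →+* κ)
    (hρ : ∀ r : R, ρ (algebraMap R (integralClosure R F) r) = algebraMap Rb κ (red r))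
    {ι : Type*} [Fintype ι] [DecidableEq ι] (b : ι → integralClosure R F)
    (BF : Basis ι Kt F) (hBF : ∀ i, BF i = (b i : F))
    (Bκ : Basis ι Kb κ) (hBκ : ∀ i, Bκ i = ρ (b i))
    (a : R) (ha1 : red a = 1)
    (ha : ∀ x : integralClosure R F, a • x ∈ Submodule.span R (Set.range b))
    (x : integralClosure R F) (T : R) (hT : algebraMap R Kt T = Algebra.trace Kt F (x : F)) :
    Algebra.trace Kb κ (ρ x) = algebraMap Rb Kb (red T) := by
  classical
  have hm : ∀ k, ∃ c : ι → R, ∑ l, c l • b l = a • (x * b k) := fun k =>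
    (Submodule.mem_span_range_iff_exists_fun R).1 (ha _)
  choose m hm using hm
  have hinj : Function.Injective (algebraMap R Kt) := IsFractionRing.injective R Kt
  -- over `Kt`
  have h1 : ∀ k, ((a • x : integralClosure R F) : F) * BF k =
      ∑ l, algebraMap R Kt (m k l) • BF l := by
    intro k
    have h := congrArg (fun z : integralClosure R F => (z : F)) (hm k)
    simp only [AddSubmonoidClass.coe_finsetSum] at h
    rw [hBF k]
    have h' : ((a • (x * b k) : integralClosure R F) : F) =
        ((a • x : integralClosure R F) : F) * (b k : F) := by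
      rw [← smul_mul_assoc]; rfl
    rw [← h', ← h]
    refine Finset.sum_congr rfl fun l _ => ?_
    rw [hBF l, algebraMap_smul]; rfl
  have h2 : Algebra.trace Kt F ((a • x : integralClosure R F) : F) =
      ∑ k, algebraMap R Kt (m k k) := by
    rw [Algebra.trace_eq_matrix_trace BF, Matrix.trace]
    refine Finset.sum_congr rfl fun k _ => ?_
    rw [Matrix.diag_apply, Algebra.leftMulMatrix_eq_repr_mul, h1 k, Basis.repr_sum_self]
  have h3 : ((a • x : integralClosure R F) : F) = algebraMap R Kt a • (x : F) := by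
    rw [algebraMap_smul]; rfl
  have h4 : a * T = ∑ k, m k k := by
    apply hinj
    rw [map_mul, map_sum, ← h2, h3, map_smul, smul_eq_mul, hT]
  -- over `Kb`
  have h5 : ∀ k, ρ x * Bκ k = ∑ l, algebraMap Rb Kb (red (m k l)) • Bκ l := by
    intro k
    have h := congrArg ρ (hm k)
    rw [smc_rho_sum red ρ hρ, smc_rho_smul red ρ hρ, ha1, one_smul, map_mul] at h
    rw [hBκ k, ← h]
    refine Finset.sum_congr rfl fun l _ => ?_
    rw [hBκ l, algebraMap_smul]
  rw [Algebra.trace_eq_matrix_trace Bκ, Matrix.trace]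
  have h6 : ∀ k, Matrix.diag (Algebra.leftMulMatrix Bκ (ρ x)) k =
      algebraMap Rb Kb (red (m k k)) := by
    intro k
    rw [Matrix.diag_apply, Algebra.leftMulMatrix_eq_repr_mul, h5 k, Basis.repr_sum_self]
  rw [Finset.sum_congr rfl fun k _ => h6 k, ← map_sum, ← map_sum, ← h4, map_mul, ha1, one_mul]

/-- Step 4': the discriminant of the lifted basis reduces to the discriminant of its image. -/
theorem smc_discr_red {Kt : Type*} [Field Kt] [Algebra R Kt] [IsFractionRing R Kt]
    [Algebra Kt F] [IsScalarTower R Kt F] [FiniteDimensional Kt F] [IsIntegrallyClosed R]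
    {Kb : Type*} [Field Kb] [Algebra Rb Kb] [Algebra Kb κ] [IsScalarTower Rb Kb κ]
    (red : R →+* Rb) (ρ : integralClosure R F →+* κ)
    (hρ : ∀ r : R, ρ (algebraMap R (integralClosure R F) r) = algebraMap Rb κ (red r))
    {ι : Type*} [Fintype ι] [DecidableEq ι] (b : ι → integralClosure R F)
    (BF : Basis ι Kt F) (hBF : ∀ i, BF i = (b i : F))
    (Bκ : Basis ι Kb κ) (hBκ : ∀ i, Bκ i = ρ (b i))
    (a : R) (ha1 : red a = 1)
    (ha : ∀ x : integralClosure R F, a • x ∈ Submodule.span R (Set.range b)) :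
    ∃ Δ : R, algebraMap R Kt Δ = Algebra.discr Kt BF ∧
      algebraMap Rb Kb (red Δ) = Algebra.discr Kb Bκ := by
  classical
  have hex : ∀ i j, ∃ T : R, algebraMap R Kt T = Algebra.trace Kt F ((b i * b j : integralClosure R F) : F) := by
    intro i j
    exact IsIntegrallyClosed.isIntegral_iff.1 (Algebra.isIntegral_trace (b i * b j).2)
  choose T hT using hex
  refine ⟨(Matrix.of T).det, ?_, ?_⟩
  · rw [Algebra.discr_def, RingHom.map_det]
    congr 1
    ext i j
    rw [RingHom.mapMatrix_apply, Matrix.map_apply, Matrix.of_apply, hT i j,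
      Algebra.traceMatrix_apply, Algebra.traceForm_apply, hBF i, hBF j]
    rfl
  · rw [Algebra.discr_def, RingHom.map_det, RingHom.map_det]
    congr 1
    ext i j
    rw [RingHom.mapMatrix_apply, RingHom.mapMatrix_apply, Matrix.map_apply, Matrix.map_apply,
      Matrix.of_apply, Algebra.traceMatrix_apply, Algebra.traceForm_apply, hBκ i, hBκ j,
      ← map_mul]
    exact (smc_trace red ρ hρ b BF hBF Bκ hBκ a ha1 ha (b i * b j) (T i j) (hT i j)).symm

/-- Uniqueness of the `π`-adic decomposition. -/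
theorem smc_pow_mul_cancel {π x y : R} (hπ : Prime π) {i j : ℕ} (h : π ^ i * x = π ^ j * y)
    (hx : ¬ π ∣ x) (hy : ¬ π ∣ y) : i = j ∧ x = y := by
  have hπ0 : π ≠ 0 := hπ.ne_zero
  rcases lt_trichotomy i j with hij | hij | hij
  · exfalso
    obtain ⟨k, rfl⟩ := Nat.exists_eq_add_of_lt hij
    have h1 : π ^ i * x = π ^ i * (π ^ (k + 1) * y) := by rw [h]; ring
    have h2 := mul_left_cancel₀ (pow_ne_zero i hπ0) h1
    exact hx ⟨π ^ k * y, by rw [h2]; ring⟩
  · subst hij
    exact ⟨rfl, mul_left_cancel₀ (pow_ne_zero i hπ0) h⟩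
  · exfalso
    obtain ⟨k, rfl⟩ := Nat.exists_eq_add_of_lt hij
    have h1 : π ^ j * y = π ^ j * (π ^ (k + 1) * x) := by rw [← h]; ring
    have h2 := mul_left_cancel₀ (pow_ne_zero j hπ0) h1
    exact hy ⟨π ^ k * x, by rw [h2]; ring⟩

/-- Step 5: comparison with a basis `β` of the generic fibre. -/
theorem smc_compare {Kt : Type*} [Field Kt] [Algebra R Kt] [IsFractionRing R Kt]
    [Algebra Kt F] [IsScalarTower R Kt F] [IsNoetherianRing R]
    (red : R →+* Rb) (π : R) (hπ : Prime π) (hker : ∀ r : R, red r = 0 ↔ π ∣ r)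
    {ι : Type*} [Fintype ι] [DecidableEq ι] (b : ι → integralClosure R F)
    (BF : Basis ι Kt F) (hBF : ∀ i, BF i = (b i : F))
    (β : Basis ι Kt F) (hβint : ∀ i, IsIntegral R (β i))
    (hβspan : ∀ x : F, IsIntegral R x →
      ∃ n : ℕ, π ^ n • x ∈ Submodule.span R (Set.range β))
    (a : R) (ha1 : red a = 1)
    (ha : ∀ x : integralClosure R F, a • x ∈ Submodule.span R (Set.range b))
    (Δ : R) (hΔ : algebraMap R Kt Δ = Algebra.discr Kt BF) (hΔ0 : red Δ ≠ 0)
    (e : ℕ) (P : R) (hP : algebraMap R Kt (π ^ e * P) = Algebra.discr Kt β)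
    (hP0 : red P ≠ 0) :
    ∃ g0 : R, IsUnit (red g0) ∧ Δ = g0 ^ 2 * P := by
  classical
  have hinj : Function.Injective (algebraMap R Kt) := IsFractionRing.injective R Kt
  have hπ0 : π ≠ 0 := hπ.ne_zero
  have hndvd : ∀ r : R, red r ≠ 0 → ¬ π ∣ r := fun r hr h => hr ((hker r).2 h)
  have ha0 : ¬ π ∣ a := hndvd a (by rw [ha1]; exact one_ne_zero)
  -- (i) the matrix `M`
  have hnk : ∀ k, ∃ n : ℕ, π ^ n • (b k : F) ∈ Submodule.span R (Set.range β) :=
    fun k => hβspan _ (b k).2
  choose nk hnk using hnk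
  set n : ℕ := ∑ k, nk k with hn
  have hnk' : ∀ k, π ^ n • (b k : F) ∈ Submodule.span R (Set.range β) := by
    intro k
    have hle : nk k ≤ n := Finset.single_le_sum (fun i _ => Nat.zero_le (nk i)) (Finset.mem_univ k)
    have h1 : π ^ n = π ^ (n - nk k) * π ^ nk k := by rw [← pow_add, Nat.sub_add_cancel hle]
    rw [h1, mul_smul]
    exact Submodule.smul_mem _ _ (hnk k)
  have hM : ∀ k, ∃ c : ι → R, ∑ j, c j • β j = π ^ n • (b k : F) := fun k =>
    (Submodule.mem_span_range_iff_exists_fun R).1 (hnk' k)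
  choose M hM using hM
  -- (ii) the matrix `N`
  have hN : ∀ j, ∃ c : ι → R, ∑ k, c k • b k = a • (⟨β j, hβint j⟩ : integralClosure R F) :=
    fun j => (Submodule.mem_span_range_iff_exists_fun R).1 (ha _)
  choose N hN using hN
  have hN' : ∀ j, ∑ k, N j k • (b k : F) = a • β j := by
    intro j
    have h := congrArg (fun z : integralClosure R F => (z : F)) (hN j)
    simp only [AddSubmonoidClass.coe_finsetSum] at h
    exact h
  -- (iii) `N * M = (π ^ n * a) • 1`
  have hβli : LinearIndependent R β :=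
    (LinearIndependent.iff_fractionRing R Kt).2 β.linearIndependent
  have hNM : ∀ j l, ∑ k, N j k * M k l = if j = l then π ^ n * a else 0 := by
    intro j
    have h1 : ∑ l, (∑ k, N j k * M k l) • β l = (π ^ n * a) • β j := by
      rw [mul_smul, ← hN' j, Finset.smul_sum]
      have h2 : ∀ k, π ^ n • N j k • (b k : F) = ∑ l, (N j k * M k l) • β l := by
        intro k
        rw [smul_comm, ← hM k, Finset.smul_sum]
        exact Finset.sum_congr rfl fun l _ => by rw [mul_smul]
      rw [Finset.sum_congr rfl fun k _ => h2 k, Finset.sum_comm]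
      exact Finset.sum_congr rfl fun l _ => by rw [Finset.sum_smul]
    have h3 : ∑ l, ((∑ k, N j k * M k l) - if j = l then π ^ n * a else 0) • β l = 0 := by
      simp only [sub_smul, Finset.sum_sub_distrib]
      rw [h1, sub_eq_zero]
      simp [Finset.sum_ite_eq]
    intro l
    have h4 := Fintype.linearIndependent_iff.1 hβli _ h3 l
    exact sub_eq_zero.1 h4
  have hdet : (Matrix.of N).det * (Matrix.of M).det = (π ^ n * a) ^ Fintype.card ι := by
    rw [← Matrix.det_mul]
    have h5 : Matrix.of N * Matrix.of M = (π ^ n * a) • (1 : Matrix ι ι R) := by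
      ext j l
      rw [Matrix.mul_apply, Matrix.smul_apply, Matrix.one_apply, smul_eq_mul, mul_ite, mul_one,
        mul_zero]
      exact hNM j l
    rw [h5, Matrix.det_smul, Matrix.det_one, mul_one]
  -- (iv) discriminants
  have hf1 : (fun k => π ^ n • BF k) =
      β ᵥ* (((Matrix.of M).transpose.map (algebraMap R Kt)).map (algebraMap Kt F)) := by
    funext k
    rw [hBF k, ← hM k]
    simp only [Matrix.vecMul, dotProduct, Matrix.map_apply, Matrix.transpose_apply,
      Matrix.of_apply]
    refine Finset.sum_congr rfl fun j _ => ?_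
    rw [← IsScalarTower.algebraMap_apply, Algebra.smul_def, mul_comm]
  have hf2 : (fun k => π ^ n • BF k) =
      BF ᵥ* ((algebraMap R Kt (π ^ n) • (1 : Matrix ι ι Kt)).map (algebraMap Kt F)) := by
    funext k
    simp only [Matrix.vecMul, dotProduct, Matrix.map_apply, Matrix.smul_apply, Matrix.one_apply,
      smul_eq_mul, mul_ite, mul_one, mul_zero]
    simp only [apply_ite (algebraMap Kt F), map_zero, mul_ite, mul_zero, Finset.sum_ite_eq',
      Finset.mem_univ, if_true]
    rw [← IsScalarTower.algebraMap_apply, Algebra.smul_def, mul_comm]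
  have hd1 := Algebra.discr_of_matrix_vecMul (A := Kt) β
    ((Matrix.of M).transpose.map (algebraMap R Kt))
  have hd2 := Algebra.discr_of_matrix_vecMul (A := Kt) BF
    (algebraMap R Kt (π ^ n) • (1 : Matrix ι ι Kt))
  rw [← hf1] at hd1
  rw [← hf2, hd1] at hd2
  have h6 : ((Matrix.of M).transpose.map (algebraMap R Kt)).det =
      algebraMap R Kt (Matrix.of M).det := by
    rw [← Matrix.det_transpose (Matrix.of M), RingHom.map_det]
    rfl
  have hkey : (π ^ (n * Fintype.card ι)) ^ 2 * Δ = (Matrix.of M).det ^ 2 * (π ^ e * P) := by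
    apply hinj
    rw [← hΔ, ← hP, h6, Matrix.det_smul, Matrix.det_one, mul_one, ← map_pow, ← map_pow,
      ← map_pow, ← map_mul, ← map_mul] at hd2
    rw [hd2, pow_mul]
  -- (v) algebra in `R`
  have hdetM0 : (Matrix.of M).det ≠ 0 := by
    intro h0
    rw [h0, mul_zero] at hdet
    exact pow_ne_zero _ (mul_ne_zero (pow_ne_zero n hπ0) (fun h => ha0 (by rw [h]; exact dvd_zero π))) hdet.symm
  have hdetN0 : (Matrix.of N).det ≠ 0 := by
    intro h0
    rw [h0, zero_mul] at hdet
    exact pow_ne_zero _ (mul_ne_zero (pow_ne_zero n hπ0) (fun h => ha0 (by rw [h]; exact dvd_zero π))) hdet.symm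
  obtain ⟨m, g0, hg0, hg⟩ := WfDvdMonoid.max_power_factor hdetM0 hπ.irreducible
  obtain ⟨m', g0', hg0', hg'⟩ := WfDvdMonoid.max_power_factor hdetN0 hπ.irreducible
  have h7 : π ^ (m' + m) * (g0' * g0) = π ^ (n * Fintype.card ι) * a ^ Fintype.card ι := by
    rw [pow_add, pow_mul, ← mul_pow, ← hdet, hg, hg']; ring
  have h8 : ¬ π ∣ g0' * g0 := fun h => (hπ.dvd_or_dvd h).elim hg0' hg0
  have h9 : ¬ π ∣ a ^ Fintype.card ι := fun h => ha0 (hπ.dvd_of_dvd_pow h)
  obtain ⟨_, h10⟩ := smc_pow_mul_cancel hπ h7 h8 h9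
  have hunit : IsUnit (red g0) := by
    have h11 : red g0' * red g0 = 1 := by
      rw [← map_mul, h10, map_pow, ha1, one_pow]
    exact IsUnit.of_mul_eq_one _ (by rw [mul_comm]; exact h11)
  refine ⟨g0, hunit, ?_⟩
  have h12 : π ^ (2 * (n * Fintype.card ι)) * Δ = π ^ (2 * m + e) * (g0 ^ 2 * P) := by
    have h15 : π ^ (2 * (n * Fintype.card ι)) = (π ^ (n * Fintype.card ι)) ^ 2 := by
      rw [← pow_mul, mul_comm]
    rw [h15, hkey, hg]; ring
  have h13 : ¬ π ∣ Δ := hndvd Δ hΔ0
  have h14 : ¬ π ∣ g0 ^ 2 * P := by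
    apply hndvd
    rw [map_mul, map_pow]
    exact mul_ne_zero (pow_ne_zero 2 hunit.ne_zero) hP0
  exact (smc_pow_mul_cancel hπ h12 h13 h14).2

/-- Images of integral elements are integral. -/
theorem smc_isIntegral_rho (red : R →+* Rb) (ρ : integralClosure R F →+* κ)
    (hρ : ∀ r : R, ρ (algebraMap R (integralClosure R F) r) = algebraMap Rb κ (red r))
    (y : integralClosure R F) : IsIntegral Rb (ρ y) := by
  obtain ⟨p, hpm, hp0⟩ := integralClosure.isIntegral y
  refine ⟨p.map red, hpm.map red, ?_⟩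
  rw [Polynomial.eval₂_map]
  have h1 : (algebraMap Rb κ).comp red = ρ.comp (algebraMap R (integralClosure R F)) := by
    ext r; exact (hρ r).symm
  rw [h1, ← Polynomial.hom_eval₂, hp0, map_zero]

/-- **SM, discriminant reduction.** The image of `ρ` is a free `Rb`-lattice with a basis whose
discriminant is `unit * red P`, where `π ^ e * P` is the discriminant of a basis `β` of the
generic fibre. -/
theorem smc_discr {Kt : Type*} [Field Kt] [Algebra R Kt] [IsFractionRing R Kt]
    [Algebra Kt F] [IsScalarTower R Kt F] [FiniteDimensional Kt F] [Algebra.IsSeparable Kt F]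
    [IsNoetherianRing R] [IsIntegrallyClosed R] [IsPrincipalIdealRing Rb]
    {Kb : Type*} [Field Kb] [Algebra Rb Kb] [IsFractionRing Rb Kb] [Algebra Kb κ]
    [IsScalarTower Rb Kb κ] [FiniteDimensional Kb κ] [Algebra.IsSeparable Kb κ]
    (red : R →+* Rb) (hred : Function.Surjective red) (π : R) (hπ : Prime π)
    (hker : ∀ r : R, red r = 0 ↔ π ∣ r)
    (ρ : integralClosure R F →+* κ)
    (hρ : ∀ r : R, ρ (algebraMap R (integralClosure R F) r) = algebraMap Rb κ (red r))
    (hρker : ∀ x : integralClosure R F, ρ x = 0 → ∃ y : integralClosure R F, x = π • y)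
    (hdeg : Module.finrank Kb κ ≤ Module.finrank Kt F)
    {ι : Type*} [Fintype ι] [DecidableEq ι]
    (β : Basis ι Kt F) (hβint : ∀ i, IsIntegral R (β i))
    (hβspan : ∀ x : F, IsIntegral R x →
      ∃ n : ℕ, π ^ n • x ∈ Submodule.span R (Set.range β))
    (e : ℕ) (P : R) (hP : algebraMap R Kt (π ^ e * P) = Algebra.discr Kt β)
    (hP0 : red P ≠ 0) :
    ∃ (Bκ : Basis ι Kb κ) (u : Rb), IsUnit u ∧
      (∀ i, ∃ y : integralClosure R F, ρ y = Bκ i) ∧
      (∀ y : integralClosure R F, ρ y ∈ Submodule.span Rb (Set.range Bκ)) ∧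
      Algebra.discr Kb Bκ = algebraMap Rb Kb (u * red P) := by
  classical
  have hinjκ : Function.Injective (algebraMap Rb κ) := by
    rw [IsScalarTower.algebraMap_eq Rb Kb κ]
    exact (algebraMap Kb κ).injective.comp (IsFractionRing.injective Rb Kb)
  have hfs : FaithfulSMul Rb κ := (faithfulSMul_iff_algebraMap_injective Rb κ).2 hinjκ
  obtain ⟨n, b0, hli0, hsp0⟩ := smc_exists_lift (Kt := Kt) red hred ρ hρ
  obtain ⟨a, ha1, ha⟩ := smc_nakayama (Kt := Kt) red hred π hker ρ hρ hρker b0 hsp0
  have ha0 : a ≠ 0 := by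
    intro h0
    rw [h0, map_zero] at ha1
    exact zero_ne_one ha1
  have hspF := smc_span (Kt := Kt) b0 a ha0 ha
  have hliK : LinearIndependent Kb (fun i => ρ (b0 i)) :=
    (LinearIndependent.iff_fractionRing Rb Kb).1 hli0
  have hc1 : n ≤ Module.finrank Kb κ := by
    simpa using hliK.fintype_card_le_finrank
  have hc2 : Module.finrank Kt F ≤ n := by
    have h1 := finrank_range_le_card (R := Kt) (fun i => (b0 i : F))
    rw [Set.finrank, top_unique hspF, finrank_top] at h1
    simpa using h1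
  have hn : n = Module.finrank Kt F := le_antisymm (hc1.trans hdeg) hc2
  have hn' : n = Module.finrank Kb κ := le_antisymm hc1 (hdeg.trans hc2)
  have hcard : Fintype.card ι = n := by
    rw [hn]; exact (Module.finrank_eq_card_basis β).symm
  let eq : ι ≃ Fin n := Fintype.equivFinOfCardEq hcard
  set b : ι → integralClosure R F := fun i => b0 (eq i) with hb
  have hrange : Set.range b = Set.range b0 := by
    ext z; constructor
    · rintro ⟨i, rfl⟩; exact ⟨eq i, rfl⟩
    · rintro ⟨j, rfl⟩; exact ⟨eq.symm j, by simp [hb]⟩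
  have hrangeF : (Set.range fun i => (b i : F)) = Set.range fun i => (b0 i : F) := by
    ext z; constructor
    · rintro ⟨i, rfl⟩; exact ⟨eq i, rfl⟩
    · rintro ⟨j, rfl⟩; exact ⟨eq.symm j, by simp [hb]⟩
  have hrangeκ : (Set.range fun i => ρ (b i)) = Set.range fun i => ρ (b0 i) := by
    ext z; constructor
    · rintro ⟨i, rfl⟩; exact ⟨eq i, rfl⟩
    · rintro ⟨j, rfl⟩; exact ⟨eq.symm j, by simp [hb]⟩
  let BF : Basis ι Kt F := basisOfTopLeSpanOfCardEqFinrank (fun i => (b i : F))
    (by rw [hrangeF]; exact hspF) (by rw [hcard, hn])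
  have hBF : ∀ i, BF i = (b i : F) := fun i => by
    simp only [BF, coe_basisOfTopLeSpanOfCardEqFinrank]
  let Bκ : Basis ι Kb κ := basisOfLinearIndependentOfCardEqFinrank' (fun i => ρ (b i))
    (hliK.comp eq eq.injective) (by rw [hcard, hn'])
  have hBκ : ∀ i, Bκ i = ρ (b i) := fun i => by
    simp only [Bκ, coe_basisOfLinearIndependentOfCardEqFinrank']
  have ha' : ∀ x : integralClosure R F, a • x ∈ Submodule.span R (Set.range b) := by
    rw [hrange]; exact ha
  obtain ⟨Δ, hΔ, hΔκ⟩ := smc_discr_red red ρ hρ b BF hBF Bκ hBκ a ha1 ha'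
  have hΔ0 : red Δ ≠ 0 := by
    intro h0
    rw [h0, map_zero] at hΔκ
    exact Algebra.discr_not_zero_of_basis Kb Bκ hΔκ.symm
  obtain ⟨g0, hg0, hΔeq⟩ := smc_compare red π hπ hker b BF hBF β hβint hβspan a ha1 ha' Δ hΔ
    hΔ0 e P hP hP0
  have hBκrange : Set.range Bκ = Set.range fun i => ρ (b0 i) := by
    rw [← hrangeκ]; congr 1; funext i; exact hBκ i
  refine ⟨Bκ, red g0 ^ 2, hg0.pow 2, fun i => ⟨b i, (hBκ i).symm⟩, fun y => ?_, ?_⟩
  · rw [hBκrange]; exact hsp0 y
  · rw [← hΔκ, hΔeq, map_mul, map_pow]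

/-- **SM, abstract main theorem.** If the discriminant of the generic fibre is
`π ^ e * P` with `red P = unit * ∏ p_i ^ δ_i` (pairwise non-associated primes `p_i` of `Rb`),
and the total number of maximal ideals of the integral closure of `Rb` in `κ` above the `p_i`
is at most `∑ (d - δ_i)` (all of residue degree one), then the image of `ρ` is the whole
integral closure of `Rb` in `κ`. -/
theorem smc_main {Kt : Type*} [Field Kt] [Algebra R Kt] [IsFractionRing R Kt]
    [Algebra Kt F] [IsScalarTower R Kt F] [FiniteDimensional Kt F] [Algebra.IsSeparable Kt F]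
    [IsNoetherianRing R] [IsIntegrallyClosed R] [IsPrincipalIdealRing Rb]
    {Kb : Type*} [Field Kb] [Algebra Rb Kb] [IsFractionRing Rb Kb] [Algebra Kb κ]
    [IsScalarTower Rb Kb κ] [FiniteDimensional Kb κ] [Algebra.IsSeparable Kb κ]
    (red : R →+* Rb) (hred : Function.Surjective red) (π : R) (hπ : Prime π)
    (hker : ∀ r : R, red r = 0 ↔ π ∣ r)
    (ρ : integralClosure R F →+* κ)
    (hρ : ∀ r : R, ρ (algebraMap R (integralClosure R F) r) = algebraMap Rb κ (red r))
    (hρker : ∀ x : integralClosure R F, ρ x = 0 → ∃ y : integralClosure R F, x = π • y)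
    (hdeg : Module.finrank Kb κ ≤ Module.finrank Kt F)
    {ι : Type*} [Fintype ι] [DecidableEq ι]
    (β : Basis ι Kt F) (hβint : ∀ i, IsIntegral R (β i))
    (hβspan : ∀ x : F, IsIntegral R x →
      ∃ n : ℕ, π ^ n • x ∈ Submodule.span R (Set.range β))
    (e : ℕ) (P : R) (hP : algebraMap R Kt (π ^ e * P) = Algebra.discr Kt β)
    {σ : Type*} (S : Finset σ) (pb : σ → Rb) (δ : σ → ℕ)
    (hpb : ∀ i ∈ S, Prime (pb i))
    (hpb_ne : ∀ i ∈ S, ∀ j ∈ S, i ≠ j → ¬ Associated (pb i) (pb j))
    (u0 : Rb) (hu0 : IsUnit u0) (hredP : red P = u0 * ∏ i ∈ S, pb i ^ δ i)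
    (hcount : ∀ s : Finset (Ideal (integralClosure Rb κ)),
      (∀ Q ∈ s, Q.IsMaximal ∧ ∃ i ∈ S, algebraMap Rb (integralClosure Rb κ) (pb i) ∈ Q) →
        s.card + ∑ i ∈ S, δ i ≤ S.card * Module.finrank Kt F)
    (hdeg1 : ∀ Q : Ideal (integralClosure Rb κ), Q.IsMaximal →
      (∃ i ∈ S, algebraMap Rb (integralClosure Rb κ) (pb i) ∈ Q) →
        ∀ x : integralClosure Rb κ, ∃ r : Rb,
          x - algebraMap Rb (integralClosure Rb κ) r ∈ Q) :
    ∀ x : κ, IsIntegral Rb x → ∃ y : integralClosure R F, ρ y = x := by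
  classical
  have hprod0 : ∏ i ∈ S, pb i ^ δ i ≠ 0 :=
    Finset.prod_ne_zero_iff.2 fun i hi => pow_ne_zero _ (hpb i hi).ne_zero
  have hP0 : red P ≠ 0 := by
    rw [hredP]; exact mul_ne_zero hu0.ne_zero hprod0
  obtain ⟨Bκ, u, hu, hBlift, hBspan, hdisc⟩ := smc_discr (Kt := Kt) (Kb := Kb) red hred π hπ hker ρ
    hρ hρker hdeg β hβint hβspan e P hP hP0
  set d : ℕ := Module.finrank Kt F with hd
  have hcardι : Fintype.card ι = d := (Module.finrank_eq_card_basis β).symm
  set D : Rb := u * red P with hDdef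
  have hD : algebraMap Rb Kb D = Algebra.discr Kb Bκ := hdisc.symm
  have hint : ∀ i, IsIntegral Rb (Bκ i) := by
    intro i
    obtain ⟨y, hy⟩ := hBlift i
    rw [← hy]; exact smc_isIntegral_rho red ρ hρ y
  obtain ⟨bC, δ', hdisc', hδ0, hconcl⟩ := dscb_exists_index Bκ hint D hD
  suffices hunit : IsUnit δ' by
    intro x hx
    obtain ⟨c, hc⟩ := (Submodule.mem_span_range_iff_exists_fun Rb).1 (hconcl hunit x hx)
    choose y hy using hBlift
    choose r hr using fun i => hred (c i)
    refine ⟨∑ i, r i • y i, ?_⟩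
    rw [smc_rho_sum red ρ hρ, ← hc]
    exact Finset.sum_congr rfl fun i _ => by rw [hr i, hy i]
  by_contra hnu
  obtain ⟨q, hqirr, hqdvd⟩ := WfDvdMonoid.exists_irreducible_factor hnu hδ0
  have hq : Prime q := hqirr.prime
  have hDeq : D = (u * u0) * ∏ i ∈ S, pb i ^ δ i := by
    rw [hDdef, hredP]; ring
  have huu0 : IsUnit (u * u0) := hu.mul hu0
  have hqD : q ∣ D := by
    rw [hdisc']
    exact (hqdvd.trans (dvd_pow_self δ' two_ne_zero)).mul_right _
  obtain ⟨i0, hi0, hqi0⟩ : ∃ i0 ∈ S, q ∣ pb i0 := by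
    rw [hDeq] at hqD
    rcases hq.dvd_or_dvd hqD with h | h
    · exact absurd (isUnit_of_dvd_unit h huu0) hq.not_isUnit
    · obtain ⟨i, hi, hqi⟩ := hq.exists_mem_finset_dvd h
      exact ⟨i, hi, hq.dvd_of_dvd_pow hqi⟩
  have hassoc : Associated q (pb i0) := hq.associated_of_dvd (hpb i0 hi0) hqi0
  have hp0dvd : pb i0 ∣ δ' := hassoc.symm.dvd.trans hqdvd
  -- the finite sets of maximal ideals above the `p_i`
  have hfin : ∀ i ∈ S, {Q : Ideal (integralClosure Rb κ) |
      Q.IsMaximal ∧ algebraMap Rb (integralClosure Rb κ) (pb i) ∈ Q}.Finite := by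
    intro i hi
    by_contra hinf
    obtain ⟨t, ht, hcard⟩ := Set.Infinite.exists_subset_card_eq hinf (S.card * d + 1)
    have := hcount t (fun Q hQ => ⟨(ht hQ).1, i, hi, (ht hQ).2⟩)
    omega
  let s : σ → Finset (Ideal (integralClosure Rb κ)) := fun i =>
    if h : i ∈ S then (hfin i h).toFinset else ∅
  have hmem : ∀ i ∈ S, ∀ Q, Q ∈ s i ↔
      Q.IsMaximal ∧ algebraMap Rb (integralClosure Rb κ) (pb i) ∈ Q := by
    intro i hi Q
    simp only [s, dif_pos hi, Set.Finite.mem_toFinset]
    rfl
  have hlow : ∀ i ∈ S, pb i ^ (Fintype.card ι - (s i).card) ∣ Algebra.discr Rb bC := fun i hi =>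
    dscb_pow_dvd_discr bC (pb i) (hpb i hi) (s i).card
      (fun t ht => Finset.card_le_card fun Q hQ => (hmem i hi Q).2 (ht Q hQ))
      (fun Q hQmax hQp x => hdeg1 Q hQmax ⟨i, hi, hQp⟩ x)
  let ex : σ → ℕ := fun i => (Fintype.card ι - (s i).card) + if i = i0 then 2 else 0
  have hex : ∀ i ∈ S, pb i ^ ex i ∣ D := by
    intro i hi
    rw [hdisc']
    by_cases hii : i = i0
    · simp only [ex, if_pos hii, pow_add]
      rw [mul_comm]
      exact mul_dvd_mul (pow_dvd_pow_of_dvd (hii ▸ hp0dvd) 2) (hlow i hi)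
    · simp only [ex, if_neg hii, add_zero]
      exact (hlow i hi).mul_left _
  have hexle : ∀ i ∈ S, ex i ≤ δ i := by
    intro i hi
    by_contra hlt
    rw [not_le] at hlt
    have h1 : pb i ^ (δ i + 1) ∣ D := (pow_dvd_pow _ hlt).trans (hex i hi)
    rw [hDeq, ← Finset.mul_prod_erase S _ hi, pow_succ] at h1
    have h2 : pb i ^ δ i * pb i ∣ pb i ^ δ i * ((u * u0) * ∏ j ∈ S.erase i, pb j ^ δ j) := by
      have h3 : u * u0 * (pb i ^ δ i * ∏ j ∈ S.erase i, pb j ^ δ j) =
          pb i ^ δ i * ((u * u0) * ∏ j ∈ S.erase i, pb j ^ δ j) := by ring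
      rw [← h3]; exact h1
    have h4 : pb i ∣ (u * u0) * ∏ j ∈ S.erase i, pb j ^ δ j :=
      (mul_dvd_mul_iff_left (pow_ne_zero _ (hpb i hi).ne_zero)).1 h2
    rcases (hpb i hi).dvd_or_dvd h4 with h | h
    · exact (hpb i hi).not_isUnit (isUnit_of_dvd_unit h huu0)
    · obtain ⟨j, hj, hij⟩ := (hpb i hi).exists_mem_finset_dvd h
      have hjS : j ∈ S := Finset.mem_of_mem_erase hj
      have hji : j ≠ i := Finset.ne_of_mem_erase hj
      exact hpb_ne i hi j hjS (Ne.symm hji)
        ((hpb i hi).associated_of_dvd (hpb j hjS) ((hpb i hi).dvd_of_dvd_pow hij))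
  have hsum1 : ∑ i ∈ S, ex i ≤ ∑ i ∈ S, δ i := Finset.sum_le_sum hexle
  have hsum2 : ∑ i ∈ S, ex i = ∑ i ∈ S, (Fintype.card ι - (s i).card) + 2 := by
    simp only [ex, Finset.sum_add_distrib, Finset.sum_ite_eq', hi0, if_true]
  have hdisj : (S : Set σ).PairwiseDisjoint s := by
    intro i hi j hj hij
    rw [Function.onFun, Finset.disjoint_left]
    intro Q hQi hQj
    have hi' : i ∈ S := hi
    have hj' : j ∈ S := hj
    obtain ⟨hQmax, hQpi⟩ := (hmem i hi' Q).1 hQi
    obtain ⟨_, hQpj⟩ := (hmem j hj' Q).1 hQj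
    have hcop : IsCoprime (pb i) (pb j) := by
      rw [(hpb i hi').irreducible.coprime_iff_not_dvd]
      intro hdvd
      exact hpb_ne i hi' j hj' hij ((hpb i hi').associated_of_dvd (hpb j hj') hdvd)
    obtain ⟨x, y, hxy⟩ := hcop
    apply hQmax.ne_top
    rw [Ideal.eq_top_iff_one, ← map_one (algebraMap Rb (integralClosure Rb κ)), ← hxy, map_add,
      map_mul, map_mul]
    exact Q.add_mem (Q.mul_mem_left _ hQpi) (Q.mul_mem_left _ hQpj)
  have hcardU : (S.biUnion s).card = ∑ i ∈ S, (s i).card := Finset.card_biUnion hdisj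
  have hc := hcount (S.biUnion s) (fun Q hQ => by
    obtain ⟨i, hi, hQi⟩ := Finset.mem_biUnion.1 hQ
    exact ⟨((hmem i hi Q).1 hQi).1, i, hi, ((hmem i hi Q).1 hQi).2⟩)
  have h3 : S.card * d ≤ ∑ i ∈ S, (Fintype.card ι - (s i).card) + ∑ i ∈ S, (s i).card := by
    rw [← Finset.sum_add_distrib, ← smul_eq_mul, ← Finset.sum_const]
    exact Finset.sum_le_sum fun i _ => by rw [hcardι]; omega
  omega

/-- Consequence of surjectivity onto the integral closure: `O / π O` is isomorphic to the integral
closure of `Rb` in `κ`. -/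
theorem smc_exists_equiv (red : R →+* Rb) (π : R) (hker : ∀ r : R, red r = 0 ↔ π ∣ r)
    (ρ : integralClosure R F →+* κ)
    (hρ : ∀ r : R, ρ (algebraMap R (integralClosure R F) r) = algebraMap Rb κ (red r))
    (hρker : ∀ x : integralClosure R F, ρ x = 0 → ∃ y : integralClosure R F, x = π • y)
    (hsurj : ∀ x : κ, IsIntegral Rb x → ∃ y : integralClosure R F, ρ y = x) :
    ∃ φ : (integralClosure R F ⧸ Ideal.span {algebraMap R (integralClosure R F) π}) ≃+*
        integralClosure Rb κ,
      ∀ x : integralClosure R F, (φ (Ideal.Quotient.mk _ x) : κ) = ρ x := by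
  classical
  let ρ' : integralClosure R F →+* integralClosure Rb κ :=
    ρ.codRestrict (integralClosure Rb κ).toSubring fun y => smc_isIntegral_rho red ρ hρ y
  have hρ' : ∀ y, (ρ' y : κ) = ρ y := fun y => rfl
  have hsurj' : Function.Surjective ρ' := by
    rintro ⟨x, hx⟩
    obtain ⟨y, hy⟩ := hsurj x hx
    exact ⟨y, Subtype.ext hy⟩
  have hkerρ' : RingHom.ker ρ' = Ideal.span {algebraMap R (integralClosure R F) π} := by
    ext x
    rw [RingHom.mem_ker, Ideal.mem_span_singleton]
    constructor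
    · intro h
      have h0 : ρ x = 0 := by rw [← hρ' x, h]; rfl
      obtain ⟨y, hy⟩ := hρker x h0
      exact ⟨y, by rw [hy, Algebra.smul_def]⟩
    · rintro ⟨y, rfl⟩
      apply Subtype.ext
      rw [hρ', map_mul, hρ, (hker π).2 dvd_rfl, map_zero, zero_mul]
      rfl
  refine ⟨(Ideal.quotEquivOfEq hkerρ'.symm).trans
    (RingHom.quotientKerEquivOfSurjective hsurj'), fun x => ?_⟩
  rfl

/-- `O / π O` is a Dedekind domain as soon as `ρ` is onto the integral closure. -/
theorem smc_isDedekindDomain {Kb : Type*} [Field Kb] [Algebra Rb Kb] [IsFractionRing Rb Kb]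
    [Algebra Kb κ] [IsScalarTower Rb Kb κ] [FiniteDimensional Kb κ] [Algebra.IsSeparable Kb κ]
    [IsPrincipalIdealRing Rb]
    (red : R →+* Rb) (π : R) (hker : ∀ r : R, red r = 0 ↔ π ∣ r)
    (ρ : integralClosure R F →+* κ)
    (hρ : ∀ r : R, ρ (algebraMap R (integralClosure R F) r) = algebraMap Rb κ (red r))
    (hρker : ∀ x : integralClosure R F, ρ x = 0 → ∃ y : integralClosure R F, x = π • y)
    (hsurj : ∀ x : κ, IsIntegral Rb x → ∃ y : integralClosure R F, ρ y = x) :
    IsDedekindDomain
      (integralClosure R F ⧸ Ideal.span {algebraMap R (integralClosure R F) π}) := by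
  obtain ⟨φ, -⟩ := smc_exists_equiv red π hker ρ hρ hρker hsurj
  have hD : IsDedekindDomain (integralClosure Rb κ) := integralClosure.isDedekindDomain Rb Kb κ
  have hdom : IsDomain
      (integralClosure R F ⧸ Ideal.span {algebraMap R (integralClosure R F) π}) :=
    φ.toMulEquiv.isDomain (integralClosure Rb κ)
  have hn : IsNoetherianRing
      (integralClosure R F ⧸ Ideal.span {algebraMap R (integralClosure R F) π}) :=
    isNoetherianRing_of_ringEquiv (integralClosure Rb κ) φ.symm
  have hdim : Ring.DimensionLEOne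
      (integralClosure R F ⧸ Ideal.span {algebraMap R (integralClosure R F) π}) :=
    Ring.DimensionLEOne.of_ringEquiv φ
  have hic : IsIntegrallyClosed
      (integralClosure R F ⧸ Ideal.span {algebraMap R (integralClosure R F) π}) :=
    IsIntegrallyClosed.of_equiv φ.symm
  exact { hdom, hn, hdim, hic with }

end SMCore

end Fermat.Agent.S18
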