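import Mathlib

/-!
# S18, package SM (descent): from an algebraically closed residue field to a small one

Abstract linear-disjointness argument in the special fibre.  `Rb0 → Rb` is an injective integral
ring homomorphism of domains (think `k0[X] → k[X]`, `k / k0` algebraic), `Rb0` integrally closed;
`κ0 → κ` a compatible homomorphism of fields (think: the residue fields of the Gauss valuations
over a DVR of definition and over the big valuation ring).

`smdsc_main`: if a finite family `b0` in `κ0` maps to an `Rb`-independent family spanning the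
integral closure of `Rb` in `κ`, and `[κ0 : Frac Rb0] ≤ card`, then `b0` spans the integral
closure of `Rb0` in `κ0` over `Rb0`.
-/

set_option autoImplicit false

namespace Fermat.Agent.S18

open Module Polynomial

/-- If `φ s * c = φ r` with `c` integral over `Rb0` via `φ` (injective) and `Rb0` integrally
closed, then `s ∣ r`. -/
theorem smdsc_dvd {Rb0 Rb Kb0 : Type*} [CommRing Rb0] [IsDomain Rb0] [IsIntegrallyClosed Rb0]
    [CommRing Rb] [Field Kb0] [Algebra Rb0 Kb0] [IsFractionRing Rb0 Kb0]
    (φ : Rb0 →+* Rb) (hφinj : Function.Injective φ) {s r : Rb0} (hs : s ≠ 0) {c : Rb}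
    (hc : φ.IsIntegralElem c) (h : φ s * c = φ r) : ∃ q : Rb0, r = q * s := by
  obtain ⟨p, hpm, hp0⟩ := hc
  have hinj : Function.Injective (algebraMap Rb0 Kb0) := IsFractionRing.injective Rb0 Kb0
  have hs' : algebraMap Rb0 Kb0 s ≠ 0 := (map_ne_zero_iff _ hinj).2 hs
  -- `r` is a root of `scaleRoots p s`
  have h1 : eval r (scaleRoots p s) = 0 := by
    apply hφinj
    rw [map_zero, ← eval₂_hom, ← h, scaleRoots_eval₂_mul, hp0, mul_zero]
  set z : Kb0 := algebraMap Rb0 Kb0 r / algebraMap Rb0 Kb0 s with hz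
  have h2 : algebraMap Rb0 Kb0 s * z = algebraMap Rb0 Kb0 r := by
    rw [hz, mul_div_cancel₀ _ hs']
  have h3 : eval₂ (algebraMap Rb0 Kb0) z p = 0 := by
    have h4 := scaleRoots_eval₂_mul (p := p) (algebraMap Rb0 Kb0) z s
    rw [h2, eval₂_hom, h1, map_zero] at h4
    rcases mul_eq_zero.1 h4.symm with h5 | h5
    · exact absurd h5 (pow_ne_zero _ hs')
    · exact h5
  have hzint : IsIntegral Rb0 z := ⟨p, hpm, h3⟩
  obtain ⟨q, hq⟩ := IsIntegrallyClosed.isIntegral_iff.1 hzint
  refine ⟨q, hinj ?_⟩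
  rw [map_mul, hq, mul_comm, h2]

/-- **Descent of the integral basis.** -/
theorem smdsc_main {Rb0 Rb Kb0 κ0 κ ι : Type*} [CommRing Rb0] [IsDomain Rb0]
    [IsIntegrallyClosed Rb0] [CommRing Rb] [IsDomain Rb]
    [Field Kb0] [Algebra Rb0 Kb0] [IsFractionRing Rb0 Kb0]
    [Field κ0] [Algebra Rb0 κ0] [Algebra Kb0 κ0] [IsScalarTower Rb0 Kb0 κ0]
    [FiniteDimensional Kb0 κ0]
    [Field κ] [Algebra Rb κ]
    (φ : Rb0 →+* Rb) (hφinj : Function.Injective φ) (hφint : φ.IsIntegral)
    (j : κ0 →+* κ) (hj : ∀ r : Rb0, j (algebraMap Rb0 κ0 r) = algebraMap Rb κ (φ r))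
    [Fintype ι] (b0 : ι → κ0)
    (hli : LinearIndependent Rb (fun i => j (b0 i)))
    (hspan : ∀ y : κ, IsIntegral Rb y → y ∈ Submodule.span Rb (Set.range fun i => j (b0 i)))
    (hcard : Module.finrank Kb0 κ0 ≤ Fintype.card ι) :
    ∀ x : κ0, IsIntegral Rb0 x → x ∈ Submodule.span Rb0 (Set.range b0) := by
  classical
  have hjsmul : ∀ (r : Rb0) (y : κ0), j (r • y) = φ r • j y := by
    intro r y
    rw [Algebra.smul_def, map_mul, hj, ← Algebra.smul_def]
  -- independence over `Rb0`, hence over `Kb0`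
  have hli0 : LinearIndependent Rb0 b0 := by
    rw [Fintype.linearIndependent_iff]
    intro g hg i
    have h1 : ∑ i, φ (g i) • j (b0 i) = 0 := by
      have h2 := congrArg j hg
      rw [map_sum, map_zero] at h2
      rw [← h2]
      exact Finset.sum_congr rfl fun i _ => (hjsmul _ _).symm
    have h3 := Fintype.linearIndependent_iff.1 hli (fun i => φ (g i)) h1 i
    exact hφinj (by rw [h3, map_zero])
  have hliK : LinearIndependent Kb0 b0 := (LinearIndependent.iff_fractionRing Rb0 Kb0).1 hli0
  have hcard' : Fintype.card ι = Module.finrank Kb0 κ0 :=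
    le_antisymm hliK.fintype_card_le_finrank hcard
  let B : Basis ι Kb0 κ0 := basisOfLinearIndependentOfCardEqFinrank' b0 hliK hcard'
  have hB : ∀ i, B i = b0 i := fun i => by
    simp only [B, coe_basisOfLinearIndependentOfCardEqFinrank']
  intro x hx
  -- clear denominators
  obtain ⟨s, hs⟩ := IsLocalization.exist_integer_multiples_of_finite (nonZeroDivisors Rb0)
    (fun i => B.repr x i)
  choose r hr using hs
  have hs0 : (s : Rb0) ≠ 0 := nonZeroDivisors.ne_zero s.2
  have hsx : (s : Rb0) • x = ∑ i, r i • b0 i := by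
    conv_lhs => rw [← B.sum_repr x]
    rw [Finset.smul_sum]
    refine Finset.sum_congr rfl fun i _ => ?_
    rw [hB i, ← algebraMap_smul Kb0 (r i) (b0 i), hr i, smul_assoc]
  -- the image of `x` is integral over `Rb`
  have hjx : IsIntegral Rb (j x) := by
    obtain ⟨p, hpm, hp0⟩ := hx
    refine ⟨p.map φ, hpm.map φ, ?_⟩
    rw [eval₂_map]
    have h1 : (algebraMap Rb κ).comp φ = j.comp (algebraMap Rb0 κ0) := by
      ext t; exact (hj t).symm
    rw [h1, ← hom_eval₂, hp0, map_zero]
  obtain ⟨c, hc⟩ := (Submodule.mem_span_range_iff_exists_fun Rb).1 (hspan _ hjx)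
  -- compare coefficients
  have hcoef : ∀ i, φ s * c i = φ (r i) := by
    have h1 : ∑ i, (φ s * c i - φ (r i)) • j (b0 i) = 0 := by
      simp only [sub_smul, Finset.sum_sub_distrib, mul_smul]
      rw [← Finset.smul_sum, hc, ← hjsmul, hsx, map_sum, sub_eq_zero]
      exact Finset.sum_congr rfl fun i _ => hjsmul _ _
    intro i
    exact sub_eq_zero.1 (Fintype.linearIndependent_iff.1 hli _ h1 i)
  have hq : ∀ i, ∃ q : Rb0, r i = q * s := fun i =>
    smdsc_dvd (Kb0 := Kb0) φ hφinj hs0 (hφint (c i)) (hcoef i)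
  choose q hq using hq
  have hx' : x = ∑ i, q i • b0 i := by
    have h1 : (s : Rb0) • x = (s : Rb0) • ∑ i, q i • b0 i := by
      rw [hsx, Finset.smul_sum]
      refine Finset.sum_congr rfl fun i _ => ?_
      rw [hq i, mul_comm, mul_smul]
    have hinj0 : Function.Injective (algebraMap Rb0 κ0) := by
      rw [IsScalarTower.algebraMap_eq Rb0 Kb0 κ0]
      exact (algebraMap Kb0 κ0).injective.comp (IsFractionRing.injective Rb0 Kb0)
    have hs1 : algebraMap Rb0 κ0 (s : Rb0) ≠ 0 := (map_ne_zero_iff _ hinj0).2 hs0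
    rw [Algebra.smul_def, Algebra.smul_def] at h1
    exact mul_left_cancel₀ hs1 h1
  rw [hx']
  exact Submodule.sum_mem _ fun i _ =>
    Submodule.smul_mem _ _ (Submodule.subset_span (Set.mem_range_self i))

end Fermat.Agent.S18
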