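import Mathlib
import Fermat.Agent.S18.SMCore
import Fermat.Agent.S18.SMDesc
import Fermat.Agent.S18.ValExt

/-!
# S18, package SM-INST (abstract part): the special fibre of a chart over a DVR of definition

`A0` is a domain with a prime element `τ` and residue field `k0` (think: a discrete valuation ring
of definition), `F0` a field with an `A0[X]`-algebra structure (`X ↦ t0`, the chart coordinate),
`O = integralClosure A0[X] F0` the chart ring.  The special fibre `O / τ O` is compared with the
integral closure of `k0[X]` in the residue field `κ0` of a valuation subring `V0 ⊇ O` of `F0`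
(the Gauss valuation ring).  The input is an integral basis over a bigger residue field `k`
(algebraically closed in the application, where it is produced by the discriminant argument of
`SMAbs`), descended by `SMDesc`.

* `sminst_map_isIntegral`: `k0[X] → k[X]` is integral if `k0 → k` is;
* `sminst_desc`: the descent of `SMDesc`, with the spanning hypothesis only on the image of `κ0`;
* `sminst_dedekind_of_basis`: the statement for `integralClosure A0[X] F0 →+* κ0`;
* `sminst_dedekind_of_valuation`: the elementwise form for a valuation subring, with no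
  instance arguments on the residue fields.
-/

set_option autoImplicit false
set_option linter.style.haveILetI false

namespace Fermat.Agent.S18

open Module Polynomial

/-- `k0[X] → k[X]` is integral when `k0 → k` is. -/
theorem sminst_map_isIntegral {k0 k : Type*} [CommRing k0] [CommRing k] (φ : k0 →+* k)
    (hφ : φ.IsIntegral) : (Polynomial.mapRingHom φ).IsIntegral := by
  intro p
  induction p using Polynomial.induction_on with
  | C a =>
    obtain ⟨q, hq, hq0⟩ := hφ a
    refine ⟨q.map C, hq.map C, ?_⟩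
    rw [eval₂_map]
    have h : (Polynomial.mapRingHom φ).comp C = (C : k →+* k[X]).comp φ := by
      ext x
      simp
    rw [h, ← hom_eval₂, hq0, map_zero]
  | add p q hp hq => exact RingHom.IsIntegralElem.add _ hp hq
  | monomial n a h =>
    rw [pow_succ, ← mul_assoc]
    refine RingHom.IsIntegralElem.mul _ h ?_
    have hX := RingHom.isIntegralElem_map (Polynomial.mapRingHom φ) (x := (X : k0[X]))
    rwa [coe_mapRingHom, map_X] at hX

/-- **Descent of the integral basis** (variant of `smdsc_main` with the spanning hypothesis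
restricted to the image of `κ0`). -/
theorem sminst_desc {Rb0 Rb Kb0 κ0 κ ι : Type*} [CommRing Rb0] [IsDomain Rb0]
    [IsIntegrallyClosed Rb0] [CommRing Rb] [IsDomain Rb]
    [Field Kb0] [Algebra Rb0 Kb0] [IsFractionRing Rb0 Kb0]
    [Field κ0] [Algebra Rb0 κ0] [Algebra Kb0 κ0] [IsScalarTower Rb0 Kb0 κ0]
    [FiniteDimensional Kb0 κ0]
    [Field κ] [Algebra Rb κ]
    (φ : Rb0 →+* Rb) (hφinj : Function.Injective φ) (hφint : φ.IsIntegral)
    (j : κ0 →+* κ) (hj : ∀ r : Rb0, j (algebraMap Rb0 κ0 r) = algebraMap Rb κ (φ r))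
    [Fintype ι] (b0 : ι → κ0)
    (hli : LinearIndependent Rb (fun i => j (b0 i)))
    (hspan : ∀ x : κ0, IsIntegral Rb (j x) →
      j x ∈ Submodule.span Rb (Set.range fun i => j (b0 i)))
    (hcard : Module.finrank Kb0 κ0 ≤ Fintype.card ι) :
    ∀ x : κ0, IsIntegral Rb0 x → x ∈ Submodule.span Rb0 (Set.range b0) := by
  classical
  have hjsmul : ∀ (r : Rb0) (y : κ0), j (r • y) = φ r • j y := by
    intro r y
    rw [Algebra.smul_def, map_mul, hj, ← Algebra.smul_def]
  have hli0 : LinearIndependent Rb0 b0 := by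
    rw [Fintype.linearIndependent_iff]
    intro g hg i
    have h1 : ∑ i, φ (g i) • j (b0 i) = 0 := by
      have h2 := congrArg j hg
      rw [map_sum, map_zero] at h2
      rw [← h2]
      exact Finset.sum_congr rfl fun i _ => (hjsmul _ _).symm
    have h3 := Fintype.linearIndependent_iff.1 hli (fun i => φ (g i)) h1 i
    exact hφinj (by rw [h3, map_zero])
  have hliK : LinearIndependent Kb0 b0 := (LinearIndependent.iff_fractionRing Rb0 Kb0).1 hli0
  have hcard' : Fintype.card ι = Module.finrank Kb0 κ0 :=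
    le_antisymm hliK.fintype_card_le_finrank hcard
  let B : Basis ι Kb0 κ0 := basisOfLinearIndependentOfCardEqFinrank' b0 hliK hcard'
  have hB : ∀ i, B i = b0 i := fun i => by
    simp only [B, coe_basisOfLinearIndependentOfCardEqFinrank']
  intro x hx
  obtain ⟨s, hs⟩ := IsLocalization.exist_integer_multiples_of_finite (nonZeroDivisors Rb0)
    (fun i => B.repr x i)
  choose r hr using hs
  have hs0 : (s : Rb0) ≠ 0 := nonZeroDivisors.ne_zero s.2
  have hsx : (s : Rb0) • x = ∑ i, r i • b0 i := by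
    conv_lhs => rw [← B.sum_repr x]
    rw [Finset.smul_sum]
    refine Finset.sum_congr rfl fun i _ => ?_
    rw [hB i, ← algebraMap_smul Kb0 (r i) (b0 i), hr i, smul_assoc]
  have hjx : IsIntegral Rb (j x) := by
    obtain ⟨p, hpm, hp0⟩ := hx
    refine ⟨p.map φ, hpm.map φ, ?_⟩
    rw [eval₂_map]
    have h1 : (algebraMap Rb κ).comp φ = j.comp (algebraMap Rb0 κ0) := by
      ext t; exact (hj t).symm
    rw [h1, ← hom_eval₂, hp0, map_zero]
  obtain ⟨c, hc⟩ := (Submodule.mem_span_range_iff_exists_fun Rb).1 (hspan x hjx)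
  have hcoef : ∀ i, φ s * c i = φ (r i) := by
    have h1 : ∑ i, (φ s * c i - φ (r i)) • j (b0 i) = 0 := by
      simp only [sub_smul, Finset.sum_sub_distrib, mul_smul]
      rw [← Finset.smul_sum, hc, ← hjsmul, hsx, map_sum, sub_eq_zero]
      exact Finset.sum_congr rfl fun i _ => hjsmul _ _
    intro i
    exact sub_eq_zero.1 (Fintype.linearIndependent_iff.1 hli _ h1 i)
  have hq : ∀ i, ∃ q : Rb0, r i = q * s := fun i =>
    smdsc_dvd (Kb0 := Kb0) φ hφinj hs0 (hφint (c i)) (hcoef i)
  choose q hq using hq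
  have hx' : x = ∑ i, q i • b0 i := by
    have h1 : (s : Rb0) • x = (s : Rb0) • ∑ i, q i • b0 i := by
      rw [hsx, Finset.smul_sum]
      refine Finset.sum_congr rfl fun i _ => ?_
      rw [hq i, mul_comm, mul_smul]
    have hinj0 : Function.Injective (algebraMap Rb0 κ0) := by
      rw [IsScalarTower.algebraMap_eq Rb0 Kb0 κ0]
      exact (algebraMap Kb0 κ0).injective.comp (IsFractionRing.injective Rb0 Kb0)
    have hs1 : algebraMap Rb0 κ0 (s : Rb0) ≠ 0 := (map_ne_zero_iff _ hinj0).2 hs0
    rw [Algebra.smul_def, Algebra.smul_def] at h1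
    exact mul_left_cancel₀ hs1 h1
  rw [hx']
  exact Submodule.sum_mem _ fun i _ =>
    Submodule.smul_mem _ _ (Submodule.subset_span (Set.mem_range_self i))

section Basis

variable {A0 : Type*} [CommRing A0] [IsDomain A0]
  {k0 : Type*} [Field k0]
  {F0 : Type*} [Field F0] [Algebra A0[X] F0]

omit [IsDomain A0] in
/-- reduction of polynomials has kernel `(C τ)` -/
theorem sminst_map_eq_zero_iff (res0 : A0 →+* k0) (τ : A0) (hτ : ∀ a : A0, res0 a = 0 ↔ τ ∣ a)
    (r : A0[X]) : Polynomial.mapRingHom res0 r = 0 ↔ C τ ∣ r := by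
  rw [coe_mapRingHom, Polynomial.C_dvd_iff_dvd_coeff, Polynomial.ext_iff]
  refine forall_congr' fun n => ?_
  rw [coeff_map, coeff_zero, hτ]

/-- **The special fibre of the chart ring is a Dedekind domain** (form with a ring homomorphism
on the integral closure).  `ρ0 : O → κ0` is semilinear over the reduction `A0[X] → k0[X]`, with
kernel `τ O`; `b0` is a finite family in `O` whose residues, pushed to a bigger residue field
`κ ⊇ κ0` over `k[X] ⊇ k0[X]`, are `k[X]`-independent and span the `k[X]`-integral elements coming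
from `κ0`; the number of elements of `b0` is at least `[κ0 : Frac k0[X]]`. -/
theorem sminst_dedekind_of_basis
    (res0 : A0 →+* k0) (hres0 : Function.Surjective res0)
    (τ : A0) (hτ : ∀ a : A0, res0 a = 0 ↔ τ ∣ a)
    {κ0 : Type*} [Field κ0] [Algebra k0[X] κ0]
    {Kb0 : Type*} [Field Kb0] [Algebra k0[X] Kb0] [IsFractionRing k0[X] Kb0] [Algebra Kb0 κ0]
    [IsScalarTower k0[X] Kb0 κ0] [FiniteDimensional Kb0 κ0]
    (ρ0 : integralClosure A0[X] F0 →+* κ0)
    (hρ0 : ∀ r : A0[X], ρ0 (algebraMap A0[X] (integralClosure A0[X] F0) r) =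
      algebraMap k0[X] κ0 (r.map res0))
    (hρ0ker : ∀ x : integralClosure A0[X] F0, ρ0 x = 0 →
      ∃ y : integralClosure A0[X] F0, x = (C τ : A0[X]) • y)
    {k : Type*} [Field k] (φ : k0 →+* k) (hφ : φ.IsIntegral)
    {κ : Type*} [Field κ] [Algebra k[X] κ]
    (j : κ0 →+* κ) (hj : ∀ r : k0[X], j (algebraMap k0[X] κ0 r) = algebraMap k[X] κ (r.map φ))
    {ι : Type*} [Fintype ι] (b0 : ι → integralClosure A0[X] F0)
    (hli : LinearIndependent k[X] (fun i => j (ρ0 (b0 i))))
    (hspan : ∀ x : κ0, IsIntegral k[X] (j x) →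
      j x ∈ Submodule.span k[X] (Set.range fun i => j (ρ0 (b0 i))))
    (hcard : Module.finrank Kb0 κ0 ≤ Fintype.card ι) :
    IsDedekindDomain (integralClosure A0[X] F0 ⧸
      Ideal.span {algebraMap A0[X] (integralClosure A0[X] F0) (C τ)}) := by
  classical
  have hφ' : (Polynomial.mapRingHom φ).IsIntegral := sminst_map_isIntegral φ hφ
  have hφinj : Function.Injective (Polynomial.mapRingHom φ) :=
    Polynomial.map_injective φ φ.injective
  have hdesc : ∀ x : κ0, IsIntegral k0[X] x →
      x ∈ Submodule.span k0[X] (Set.range fun i => ρ0 (b0 i)) :=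
    sminst_desc (Kb0 := Kb0) (Polynomial.mapRingHom φ) hφinj hφ' j hj (fun i => ρ0 (b0 i))
      hli hspan hcard
  have hred : Function.Surjective (Polynomial.mapRingHom res0) :=
    Polynomial.map_surjective res0 hres0
  have hρ0' : ∀ r : A0[X], ρ0 (algebraMap A0[X] (integralClosure A0[X] F0) r) =
      algebraMap k0[X] κ0 (Polynomial.mapRingHom res0 r) := hρ0
  have hsurj : ∀ x : κ0, IsIntegral k0[X] x → ∃ y : integralClosure A0[X] F0, ρ0 y = x := by
    intro x hx
    obtain ⟨c, hc⟩ := (Submodule.mem_span_range_iff_exists_fun k0[X]).1 (hdesc x hx)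
    choose r hr using fun i => hred (c i)
    refine ⟨∑ i, r i • b0 i, ?_⟩
    rw [smc_rho_sum (Polynomial.mapRingHom res0) ρ0 hρ0', ← hc]
    exact Finset.sum_congr rfl fun i _ => by rw [hr i]
  obtain ⟨e, -⟩ := smc_exists_equiv (Polynomial.mapRingHom res0) (C τ)
    (sminst_map_eq_zero_iff res0 τ hτ) ρ0 hρ0' hρ0ker hsurj
  -- the integral closure of `k0[X]` in `κ0` is a Dedekind domain
  have hle : Subalgebra.toSubmodule (integralClosure k0[X] κ0) ≤
      Submodule.span k0[X] (Set.range fun i => ρ0 (b0 i)) := fun x hx => hdesc x hx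
  have hN : IsNoetherian k0[X] (Submodule.span k0[X] (Set.range fun i => ρ0 (b0 i))) :=
    isNoetherian_span_of_finite k0[X] (Set.finite_range _)
  have hN' : IsNoetherian k0[X] (Subalgebra.toSubmodule (integralClosure k0[X] κ0)) :=
    isNoetherian_of_le hle
  have hN'' : IsNoetherian k0[X] (integralClosure k0[X] κ0) := hN'
  have hNR : IsNoetherianRing (integralClosure k0[X] κ0) := isNoetherian_of_tower k0[X] hN''
  have hdim : Ring.DimensionLEOne (integralClosure k0[X] κ0) :=
    Ring.DimensionLEOne.integralClosure k0[X] κ0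
  have hic : IsIntegrallyClosed (integralClosure k0[X] κ0) :=
    integralClosure.isIntegrallyClosedOfFiniteExtension Kb0
  have hD : IsDedekindDomain (integralClosure k0[X] κ0) := { hNR, hdim, hic with }
  have hdom : IsDomain (integralClosure A0[X] F0 ⧸
      Ideal.span {algebraMap A0[X] (integralClosure A0[X] F0) (C τ)}) :=
    e.toMulEquiv.isDomain (integralClosure k0[X] κ0)
  have hn : IsNoetherianRing (integralClosure A0[X] F0 ⧸
      Ideal.span {algebraMap A0[X] (integralClosure A0[X] F0) (C τ)}) :=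
    isNoetherianRing_of_ringEquiv (integralClosure k0[X] κ0) e.symm
  have hdim' : Ring.DimensionLEOne (integralClosure A0[X] F0 ⧸
      Ideal.span {algebraMap A0[X] (integralClosure A0[X] F0) (C τ)}) :=
    Ring.DimensionLEOne.of_ringEquiv e
  have hic' : IsIntegrallyClosed (integralClosure A0[X] F0 ⧸
      Ideal.span {algebraMap A0[X] (integralClosure A0[X] F0) (C τ)}) :=
    IsIntegrallyClosed.of_equiv e.symm
  exact { hdom, hn, hdim', hic' with }

/-- **The special fibre of the chart ring is a Dedekind domain** (elementwise form for a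
valuation subring; no instance arguments on the residue fields).

* `V0` is a valuation subring of `F0` containing the image of `A0[X]`, `ρV : V0 → κ0` a
  surjective ring homomorphism whose kernel consists of non-units, `f0 : k0[X] → κ0` the
  (injective) reduction of the polynomial ring;
* `hgen`: the non-units of `V0` are the multiples of `τ` (`e = 1`);
* `h5`: if `x` is integral over `A0[X]` and `x = τ y` with `y ∈ V0`, then `y` is integral;
* `hfin`: `κ0` is spanned over `k0(t̄)` by `d` elements;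
* `b0`: a family of `d` elements of the chart ring whose residues, pushed into `κ` by `j`, are
  independent over `k[X]` (acting through `f`) and span the elements `j (ρV x)` integral
  over `k[X]`. -/
theorem sminst_dedekind_of_valuation
    (res0 : A0 →+* k0) (hres0 : Function.Surjective res0)
    (τ : A0) (hτ : ∀ a : A0, res0 a = 0 ↔ τ ∣ a)
    (V0 : ValuationSubring F0) (hAV : ∀ p : A0[X], algebraMap A0[X] F0 p ∈ V0)
    {κ0 : Type*} [Field κ0] (ρV : V0 →+* κ0) (hρVsurj : Function.Surjective ρV)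
    (hρV : ∀ x : V0, ρV x = 0 → (x : F0) ∈ V0.nonunits)
    (f0 : k0[X] →+* κ0)
    (hf0 : ∀ p : A0[X], ρV ⟨algebraMap A0[X] F0 p, hAV p⟩ = f0 (p.map res0))
    (hf0inj : Function.Injective f0)
    (hgen : ∀ x ∈ V0.nonunits, ∃ y ∈ V0, x = algebraMap A0[X] F0 (C τ) * y)
    (h5 : ∀ x y : F0, IsIntegral A0[X] x → y ∈ V0 → x = algebraMap A0[X] F0 (C τ) * y →
      IsIntegral A0[X] y)
    (d : ℕ)
    (hfin : ∃ c : Fin d → κ0, ∀ x : κ0, ∃ (p : Fin d → k0[X]) (q : k0[X]), q ≠ 0 ∧
      f0 q * x = ∑ i, f0 (p i) * c i)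
    {k : Type*} [Field k] (φ : k0 →+* k) (hφ : φ.IsIntegral)
    {κ : Type*} [Field κ] (f : k[X] →+* κ) (j : κ0 →+* κ)
    (hj : ∀ r : k0[X], j (f0 r) = f (r.map φ))
    (b0 : Fin d → F0) (hb0 : ∀ i, IsIntegral A0[X] (b0 i)) (hb0V : ∀ i, b0 i ∈ V0)
    (hli : ∀ g : Fin d → k[X], ∑ i, f (g i) * j (ρV ⟨b0 i, hb0V i⟩) = 0 → ∀ i, g i = 0)
    (hspan : ∀ x : V0, f.IsIntegralElem (j (ρV x)) →
      ∃ g : Fin d → k[X], j (ρV x) = ∑ i, f (g i) * j (ρV ⟨b0 i, hb0V i⟩)) :
    IsDedekindDomain (integralClosure A0[X] F0 ⧸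
      Ideal.span {algebraMap A0[X] (integralClosure A0[X] F0) (C τ)}) := by
  classical
  have hOV : ∀ x : F0, IsIntegral A0[X] x → x ∈ V0 := fun x hx =>
    valext_mem_of_isIntegral V0 hAV x hx
  -- the residue map on the chart ring
  let incl : integralClosure A0[X] F0 →+* V0 :=
    { toFun := fun x => ⟨x.1, hOV x.1 x.2⟩
      map_one' := rfl
      map_mul' := fun _ _ => rfl
      map_zero' := rfl
      map_add' := fun _ _ => rfl }
  let ρ0 : integralClosure A0[X] F0 →+* κ0 := ρV.comp incl
  have hρ0_apply : ∀ x : integralClosure A0[X] F0, ρ0 x = ρV ⟨x.1, hOV x.1 x.2⟩ := fun _ => rfl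
  -- algebra structures
  letI : Algebra k0[X] κ0 := f0.toAlgebra
  letI : Algebra (FractionRing k0[X]) κ0 :=
    (IsFractionRing.lift (K := FractionRing k0[X]) (g := f0) hf0inj).toAlgebra
  haveI : IsScalarTower k0[X] (FractionRing k0[X]) κ0 :=
    IsScalarTower.of_algebraMap_eq fun x =>
      (IsFractionRing.lift_algebraMap (K := FractionRing k0[X]) (g := f0) hf0inj x).symm
  letI : Algebra k[X] κ := f.toAlgebra
  have hf0alg : ∀ r : k0[X], algebraMap k0[X] κ0 r = f0 r := fun _ => rfl
  have hfalg : ∀ r : k[X], algebraMap k[X] κ r = f r := fun _ => rfl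
  -- finiteness of the residue field over `k0(t̄)`
  obtain ⟨c, hc⟩ := hfin
  have htop : Submodule.span (FractionRing k0[X]) (Set.range c) = ⊤ := by
    rw [eq_top_iff]
    intro x _
    obtain ⟨p, q, hq, hx⟩ := hc x
    have hq' : f0 q ≠ 0 := (map_ne_zero_iff f0 hf0inj).2 hq
    have hqK : algebraMap k0[X] (FractionRing k0[X]) q ≠ 0 :=
      (map_ne_zero_iff _ (IsFractionRing.injective k0[X] (FractionRing k0[X]))).2 hq
    rw [Submodule.mem_span_range_iff_exists_fun]
    refine ⟨fun i => algebraMap k0[X] (FractionRing k0[X]) (p i) /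
      algebraMap k0[X] (FractionRing k0[X]) q, ?_⟩
    have hsm : ∀ i, (algebraMap k0[X] (FractionRing k0[X]) (p i) /
        algebraMap k0[X] (FractionRing k0[X]) q) • c i = (f0 q)⁻¹ * (f0 (p i) * c i) := by
      intro i
      rw [Algebra.smul_def, map_div₀, ← IsScalarTower.algebraMap_apply,
        ← IsScalarTower.algebraMap_apply, hf0alg, hf0alg]
      field_simp
    rw [Finset.sum_congr rfl fun i _ => hsm i, ← Finset.mul_sum, ← hx, ← mul_assoc,
      inv_mul_cancel₀ hq', one_mul]
  haveI : FiniteDimensional (FractionRing k0[X]) κ0 :=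
    Module.finite_def.2 (htop ▸ Submodule.fg_span (Set.finite_range c))
  have hcard : Module.finrank (FractionRing k0[X]) κ0 ≤ Fintype.card (Fin d) := by
    rw [← finrank_top (FractionRing k0[X]) κ0, ← htop]
    exact finrank_range_le_card c
  refine sminst_dedekind_of_basis (Kb0 := FractionRing k0[X]) res0 hres0 τ hτ ρ0 ?_ ?_ φ hφ j ?_
    (fun i => (⟨b0 i, hb0 i⟩ : integralClosure A0[X] F0)) ?_ ?_ hcard
  · intro r
    rw [hρ0_apply, hf0alg]
    exact hf0 r
  · intro x hx
    rw [hρ0_apply] at hx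
    obtain ⟨y, hyV, hxy⟩ := hgen _ (hρV _ hx)
    refine ⟨⟨y, h5 x.1 y x.2 hyV hxy⟩, Subtype.ext ?_⟩
    show (x : F0) = (C τ : A0[X]) • y
    rw [Algebra.smul_def, hxy]
  · intro r
    rw [hf0alg, hfalg]
    exact hj r
  · rw [Fintype.linearIndependent_iff]
    intro g hg i
    refine hli g ?_ i
    rw [← hg]
    exact Finset.sum_congr rfl fun i _ => by rw [Algebra.smul_def, hfalg]; rfl
  · intro x hx
    obtain ⟨v, rfl⟩ := hρVsurj x
    obtain ⟨g, hg⟩ := hspan v hx
    rw [Submodule.mem_span_range_iff_exists_fun]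
    refine ⟨g, ?_⟩
    rw [hg]
    exact Finset.sum_congr rfl fun i _ => by rw [Algebra.smul_def, hfalg]; rfl

/-- Variant of `sminst_dedekind_of_valuation`: the kernel hypothesis in one piece (`hker`: an
integral non-unit is `τ` times an integral element) and the degree bound in the form "every
`k0[X]`-independent finite family of `κ0` has at most `d` elements". -/
theorem sminst_dedekind_of_valuation'
    (res0 : A0 →+* k0) (hres0 : Function.Surjective res0)
    (τ : A0) (hτ : ∀ a : A0, res0 a = 0 ↔ τ ∣ a)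
    (V0 : ValuationSubring F0) (hAV : ∀ p : A0[X], algebraMap A0[X] F0 p ∈ V0)
    {κ0 : Type*} [Field κ0] (ρV : V0 →+* κ0) (hρVsurj : Function.Surjective ρV)
    (hρV : ∀ x : V0, ρV x = 0 → (x : F0) ∈ V0.nonunits)
    (f0 : k0[X] →+* κ0)
    (hf0 : ∀ p : A0[X], ρV ⟨algebraMap A0[X] F0 p, hAV p⟩ = f0 (p.map res0))
    (hf0inj : Function.Injective f0)
    (hker : ∀ x : F0, IsIntegral A0[X] x → x ∈ V0.nonunits →
      ∃ y : F0, IsIntegral A0[X] y ∧ x = algebraMap A0[X] F0 (C τ) * y)
    (d : ℕ)
    (hfin : ∀ (n : ℕ) (c : Fin n → κ0),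
      (∀ g : Fin n → k0[X], ∑ i, f0 (g i) * c i = 0 → ∀ i, g i = 0) → n ≤ d)
    {k : Type*} [Field k] (φ : k0 →+* k) (hφ : φ.IsIntegral)
    {κ : Type*} [Field κ] (f : k[X] →+* κ) (j : κ0 →+* κ)
    (hj : ∀ r : k0[X], j (f0 r) = f (r.map φ))
    (b0 : Fin d → F0) (hb0 : ∀ i, IsIntegral A0[X] (b0 i)) (hb0V : ∀ i, b0 i ∈ V0)
    (hli : ∀ g : Fin d → k[X], ∑ i, f (g i) * j (ρV ⟨b0 i, hb0V i⟩) = 0 → ∀ i, g i = 0)
    (hspan : ∀ x : V0, f.IsIntegralElem (j (ρV x)) →
      ∃ g : Fin d → k[X], j (ρV x) = ∑ i, f (g i) * j (ρV ⟨b0 i, hb0V i⟩)) :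
    IsDedekindDomain (integralClosure A0[X] F0 ⧸
      Ideal.span {algebraMap A0[X] (integralClosure A0[X] F0) (C τ)}) := by
  classical
  have hOV : ∀ x : F0, IsIntegral A0[X] x → x ∈ V0 := fun x hx =>
    valext_mem_of_isIntegral V0 hAV x hx
  let incl : integralClosure A0[X] F0 →+* V0 :=
    { toFun := fun x => ⟨x.1, hOV x.1 x.2⟩
      map_one' := rfl
      map_mul' := fun _ _ => rfl
      map_zero' := rfl
      map_add' := fun _ _ => rfl }
  let ρ0 : integralClosure A0[X] F0 →+* κ0 := ρV.comp incl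
  have hρ0_apply : ∀ x : integralClosure A0[X] F0, ρ0 x = ρV ⟨x.1, hOV x.1 x.2⟩ := fun _ => rfl
  letI : Algebra k0[X] κ0 := f0.toAlgebra
  letI : Algebra (FractionRing k0[X]) κ0 :=
    (IsFractionRing.lift (K := FractionRing k0[X]) (g := f0) hf0inj).toAlgebra
  haveI : IsScalarTower k0[X] (FractionRing k0[X]) κ0 :=
    IsScalarTower.of_algebraMap_eq fun x =>
      (IsFractionRing.lift_algebraMap (K := FractionRing k0[X]) (g := f0) hf0inj x).symm
  letI : Algebra k[X] κ := f.toAlgebra
  have hf0alg : ∀ r : k0[X], algebraMap k0[X] κ0 r = f0 r := fun _ => rfl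
  have hfalg : ∀ r : k[X], algebraMap k[X] κ r = f r := fun _ => rfl
  -- finiteness of the residue field over `k0(t̄)`
  have hrank : Module.rank (FractionRing k0[X]) κ0 ≤ (d : Cardinal) := by
    refine rank_le fun s hs => ?_
    have hinj : Function.Injective fun r : k0[X] => r • (1 : FractionRing k0[X]) := by
      intro a b hab
      simp only [Algebra.smul_def, mul_one] at hab
      exact IsFractionRing.injective k0[X] (FractionRing k0[X]) hab
    have hs' : LinearIndependent k0[X] (fun i : s => (i : κ0)) := hs.restrict_scalars hinj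
    have hs'' : LinearIndependent k0[X]
        (fun i : Fin s.card => ((s.equivFin.symm i : s) : κ0)) :=
      hs'.comp _ s.equivFin.symm.injective
    refine hfin s.card (fun i : Fin s.card => ((s.equivFin.symm i : s) : κ0))
      fun g hg i => Fintype.linearIndependent_iff.1 hs'' g ?_ i
    rw [← hg]
    exact Finset.sum_congr rfl fun i _ => by rw [Algebra.smul_def, hf0alg]
  haveI : FiniteDimensional (FractionRing k0[X]) κ0 :=
    Module.rank_lt_aleph0_iff.mp (hrank.trans_lt (Cardinal.natCast_lt_aleph0))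
  have hcard : Module.finrank (FractionRing k0[X]) κ0 ≤ Fintype.card (Fin d) := by
    rw [Fintype.card_fin]
    exact Module.finrank_le_of_rank_le hrank
  refine sminst_dedekind_of_basis (Kb0 := FractionRing k0[X]) res0 hres0 τ hτ ρ0 ?_ ?_ φ hφ j ?_
    (fun i => (⟨b0 i, hb0 i⟩ : integralClosure A0[X] F0)) ?_ ?_ hcard
  · intro r
    rw [hρ0_apply, hf0alg]
    exact hf0 r
  · intro x hx
    rw [hρ0_apply] at hx
    obtain ⟨y, hyint, hxy⟩ := hker x.1 x.2 (hρV _ hx)
    refine ⟨⟨y, hyint⟩, Subtype.ext ?_⟩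
    show (x : F0) = (C τ : A0[X]) • y
    rw [Algebra.smul_def, hxy]
  · intro r
    rw [hf0alg, hfalg]
    exact hj r
  · rw [Fintype.linearIndependent_iff]
    intro g hg i
    refine hli g ?_ i
    rw [← hg]
    exact Finset.sum_congr rfl fun i _ => by rw [Algebra.smul_def, hfalg]; rfl
  · intro x hx
    obtain ⟨v, rfl⟩ := hρVsurj x
    obtain ⟨g, hg⟩ := hspan v hx
    rw [Submodule.mem_span_range_iff_exists_fun]
    refine ⟨g, ?_⟩
    rw [hg]
    exact Finset.sum_congr rfl fun i _ => by rw [Algebra.smul_def, hfalg]; rfl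

end Basis

end Fermat.Agent.S18
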