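import Fermat.Agent.S18.TameDisc
import Fermat.Agent.S24.SumFormula

/-!
# S18, package DISC0: the characteristic-zero discriminant from fibre counts (place language)

`d0_discr_factorization`: `tmd_discr_factorization` with the fibres of the coordinate `t`
described by the Prelude's `Place`s.  `d0_discr_factorization_moebius`: the same for the chart
coordinate `t = (h - c₁) / (h - c₀)` in terms of the fibres of `h`.
-/

set_option autoImplicit false

namespace Fermat.Agent.S18

open AlgebraicCurve IntermediateField Polynomial Fermat.Agent.S24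

/-- The coordinate `t` is transcendental. -/
theorem d0_transcendental (E : Type*) {K F : Type*} [Field K] [Field E] [Field F] [Algebra K F]
    [Algebra K[X] E] [IsFractionRing K[X] E] [Algebra E F] [Algebra K[X] F]
    [IsScalarTower K[X] E F] (t : F) (hX : ∀ P : K[X], algebraMap K[X] F P = aeval t P) :
    Transcendental K t := by
  rw [transcendental_iff_injective]
  have h1 : Function.Injective (algebraMap K[X] F) := by
    rw [IsScalarTower.algebraMap_eq K[X] E F]
    exact (algebraMap E F).injective.comp (IsFractionRing.injective K[X] E)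
  intro a b hab
  apply h1
  rw [hX, hX, hab]

section d0

variable {K E F : Type*} [Field K] [Field E] [Field F] [Algebra K F]
  [Algebra K[X] E] [IsFractionRing K[X] E] [Algebra E F] [Algebra K[X] F] [IsScalarTower K[X] E F]

/-- The image of `E = Frac K[X]` in `F` is `K(t)`. -/
theorem d0_mem_adjoin_iff (t : F)
    (hX : ∀ P : K[X], algebraMap K[X] F P = aeval t P) (x : F) :
    x ∈ K⟮t⟯ ↔ ∃ y : E, algebraMap E F y = x := by
  rw [mem_adjoin_simple_iff]
  constructor
  · rintro ⟨r, s, rfl⟩
    refine ⟨algebraMap K[X] E r / algebraMap K[X] E s, ?_⟩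
    rw [map_div₀, ← IsScalarTower.algebraMap_apply, ← IsScalarTower.algebraMap_apply, hX, hX]
  · rintro ⟨y, rfl⟩
    obtain ⟨a, b, -, rfl⟩ := IsFractionRing.div_surjective (A := K[X]) y
    refine ⟨a, b, ?_⟩
    rw [map_div₀, ← IsScalarTower.algebraMap_apply, ← IsScalarTower.algebraMap_apply, hX, hX]

/-- The ring isomorphism `E ≃ K(t)`. -/
noncomputable def d0_equiv (t : F) (hX : ∀ P : K[X], algebraMap K[X] F P = aeval t P) :
    E ≃+* K⟮t⟯ :=
  RingEquiv.ofBijective
    ((algebraMap E F).codRestrict K⟮t⟯ fun y => (d0_mem_adjoin_iff t hX _).2 ⟨y, rfl⟩)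
    ⟨fun a b hab => (algebraMap E F).injective (congrArg Subtype.val hab),
     fun z => by
      obtain ⟨y, hy⟩ := (d0_mem_adjoin_iff (E := E) t hX z).1 z.2
      exact ⟨y, Subtype.ext hy⟩⟩

theorem d0_equiv_comm (t : F) (hX : ∀ P : K[X], algebraMap K[X] F P = aeval t P) :
    (algebraMap K⟮t⟯ F).comp (d0_equiv (E := E) t hX).toRingHom =
      (RingEquiv.refl F).toRingHom.comp (algebraMap E F) := by
  ext y
  rfl

theorem d0_finrank (t : F) (hX : ∀ P : K[X], algebraMap K[X] F P = aeval t P) :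
    Module.finrank K⟮t⟯ F = Module.finrank E F :=
  (Algebra.finrank_eq_of_equiv_equiv (d0_equiv (E := E) t hX) (RingEquiv.refl F)
    (d0_equiv_comm t hX)).symm

theorem d0_finiteDimensional [FiniteDimensional E F] (t : F)
    (hX : ∀ P : K[X], algebraMap K[X] F P = aeval t P) : FiniteDimensional K⟮t⟯ F :=
  Module.Finite.of_equiv_equiv (d0_equiv (E := E) t hX) (RingEquiv.refl F) (d0_equiv_comm t hX)

omit [IsFractionRing K[X] E] [Field E] [Algebra K[X] E] [Algebra E F] [IsScalarTower K[X] E F] in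
/-- A zero place of `t - c` contains `K[t]` and `t - c` is a non-unit of it. -/
theorem d0_place_cond (t : F) (hX : ∀ P : K[X], algebraMap K[X] F P = aeval t P) (c : K)
    (P : Place K F) (hP : 0 < P.ord (t - algebraMap K F c)) :
    (∀ r : K[X], algebraMap K[X] F r ∈ P.toValuationSubring) ∧
      algebraMap K[X] F (X - C c) ∈ P.toValuationSubring.nonunits := by
  have h1 : t - algebraMap K F c ∈ P.toValuationSubring := (sf_ord_nonneg_iff P _).1 hP.le
  have ht : t ∈ P.toValuationSubring := by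
    have := add_mem h1 (P.algebraMap_mem' c)
    simpa using this
  constructor
  · intro r
    rw [hX, aeval_eq_sum_range]
    refine sum_mem fun i _ => ?_
    rw [Algebra.smul_def]
    exact mul_mem (P.algebraMap_mem' _) (pow_mem ht i)
  · have h2 : algebraMap K[X] F (X - C c) = t - algebraMap K F c := by
      rw [hX, map_sub, aeval_X, aeval_C]
    rw [h2, ValuationSubring.mem_nonunits_iff_exists_mem_maximalIdeal]
    exact ⟨h1, (sf_mem_maximalIdeal_iff_ord P ⟨_, h1⟩).2 (Or.inr hP)⟩

omit [IsFractionRing K[X] E] [Field E] [Algebra K[X] E] [Algebra E F] [IsScalarTower K[X] E F]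
  [Algebra K[X] F] in
/-- An unramified fibre has `[F : K(t)]` places. -/
theorem d0_exists_finset_of_ord_eq_one [IsAlgClosed K] [CharZero K] (t : F)
    (ht : Transcendental K t) [FiniteDimensional K⟮t⟯ F] (c : K)
    (h1 : ∀ P : Place K F, 0 < P.ord (t - algebraMap K F c) →
      P.ord (t - algebraMap K F c) = 1) :
    ∃ s : Finset (Place K F), (∀ P ∈ s, 0 < P.ord (t - algebraMap K F c)) ∧
      s.card = Module.finrank K⟮t⟯ F := by
  classical
  have hfin := sf_zeroPlaces_sub_finite (F := F) ht c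
  have hsum := sf_finsum_ord_zeroPlaces_sub (F := F) ht c
  refine ⟨hfin.toFinset, fun P hP => (Set.Finite.mem_toFinset hfin).1 hP, ?_⟩
  rw [finsum_mem_eq_finite_toFinset_sum _ hfin] at hsum
  have h2 : ∑ P ∈ hfin.toFinset, P.ord (t - algebraMap K F c) = (hfin.toFinset.card : ℤ) := by
    rw [Finset.sum_congr rfl fun P hP => h1 P ((Set.Finite.mem_toFinset hfin).1 hP)]
    simp
  rw [h2] at hsum
  exact_mod_cast hsum

/-- **Discriminant factorisation from fibre counts, place form.** -/
theorem d0_discr_factorization [IsAlgClosed K] [CharZero K] [FiniteDimensional E F]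
    {J : Type*} [Fintype J] (t : F) (hX : ∀ P : K[X], algebraMap K[X] F P = aeval t P)
    (τ : J → K) (hτ : Function.Injective τ) (n : J → ℕ)
    (hcusp : ∀ i, ∃ s : Finset (Place K F),
      (∀ P ∈ s, 0 < P.ord (t - algebraMap K F (τ i))) ∧ n i ≤ s.card)
    (hunr : ∀ c : K, (∀ i, τ i ≠ c) → ∀ P : Place K F,
      0 < P.ord (t - algebraMap K F c) → P.ord (t - algebraMap K F c) = 1) :
    ∃ (β : Module.Basis (Fin (Module.finrank E F)) E F) (u : K) (e : J → ℕ),
      (∀ i, IsIntegral K[X] (β i)) ∧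
      (∀ x : F, IsIntegral K[X] x → x ∈ Submodule.span K[X] (Set.range β)) ∧ u ≠ 0 ∧
      (∀ i, e i + n i ≤ Module.finrank E F) ∧
      Algebra.discr E β = algebraMap K[X] E (C u * ∏ i, (X - C (τ i)) ^ e i) := by
  classical
  have ht := d0_transcendental E t hX
  have hfd := d0_finiteDimensional (E := E) t hX
  have hrank := d0_finrank (E := E) t hX
  -- places to valuation subrings
  have hconv : ∀ (c : K) (s : Finset (Place K F)),
      (∀ P ∈ s, 0 < P.ord (t - algebraMap K F c)) →
      ∃ s' : Finset (ValuationSubring F),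
        (∀ V ∈ s', (∀ r : K[X], algebraMap K[X] F r ∈ V) ∧
          algebraMap K[X] F (X - C c) ∈ V.nonunits) ∧ s'.card = s.card := by
    intro c s hs
    refine ⟨s.image Place.toValuationSubring, ?_,
      Finset.card_image_of_injective _ Place.toValuationSubring_injective⟩
    intro V hV
    obtain ⟨P, hP, rfl⟩ := Finset.mem_image.1 hV
    exact d0_place_cond t hX c P (hs P hP)
  apply tmd_discr_factorization τ hτ n
  · intro i
    obtain ⟨s, hs, hns⟩ := hcusp i
    obtain ⟨s', hs', hcard⟩ := hconv (τ i) s hs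
    exact ⟨s', hs', by rw [hcard]; exact hns⟩
  · intro c hc
    obtain ⟨s, hs, hcard⟩ := d0_exists_finset_of_ord_eq_one t ht c (hunr c hc)
    obtain ⟨s', hs', hcard'⟩ := hconv c s hs
    exact ⟨s', hs', by rw [hcard', hcard, hrank]⟩

end d0

/-! ### The Möbius chart `t = (h - c₁) / (h - c₀)` -/

section moebius

variable {K F : Type*} [Field K] [Field F] [Algebra K F]

/-- Ultrametric equality: the order of a sum of two elements of different orders. -/
theorem d0_ord_add_eq (P : Place K F) {f g : F} (hf : f ≠ 0) (hlt : P.ord f < P.ord g) :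
    P.ord (f + g) = P.ord f := by
  have hfg : f + g ≠ 0 := by
    intro h0
    have h1 : f = -g := eq_neg_of_add_eq_zero_left h0
    rw [h1, sf_ord_neg] at hlt
    exact lt_irrefl _ hlt
  have h1 : P.ord f ≤ P.ord (f + g) := sf_ord_add_ge P hfg _ (Or.inr le_rfl) (Or.inr hlt.le)
  by_contra hne
  have h2 : P.ord f + 1 ≤ P.ord (f + g) := by omega
  have h3 : P.ord f + 1 ≤ P.ord ((f + g) + (-g)) :=
    sf_ord_add_ge P (by simpa using hf) _ (Or.inr h2) (Or.inr (by rw [sf_ord_neg]; omega))
  rw [add_neg_cancel_right] at h3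
  omega

/-- At a pole of `h`, `h - a` has the same order as `h`. -/
theorem d0_ord_sub_const_of_neg (P : Place K F) (h : F) (a : K) (hh : P.ord h < 0) :
    P.ord (h - algebraMap K F a) = P.ord h := by
  have h0 : h ≠ 0 := by
    rintro rfl
    simp at hh
  rw [sub_eq_add_neg]
  apply d0_ord_add_eq P h0
  rw [sf_ord_neg, sf_ord_algebraMap]
  exact hh

/-- At a place where `h` is regular, `h - a` is regular. -/
theorem d0_ord_sub_const_nonneg (P : Place K F) (h : F) (a : K) (hh : 0 ≤ P.ord h) :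
    0 ≤ P.ord (h - algebraMap K F a) := by
  rw [sf_ord_nonneg_iff] at hh ⊢
  exact sub_mem hh (P.algebraMap_mem' a)

/-- A zero of `h - a` is not a zero of `h - c` for `c ≠ a`. -/
theorem d0_ord_sub_eq_zero (P : Place K F) (h : F) {a c : K} (hac : a ≠ c)
    (hpos : 0 < P.ord (h - algebraMap K F a)) : P.ord (h - algebraMap K F c) = 0 := by
  have h1 : h - algebraMap K F c = algebraMap K F (a - c) + (h - algebraMap K F a) := by
    rw [map_sub]; ring
  have h2 : algebraMap K F (a - c) ≠ 0 := by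
    rw [Ne, map_eq_zero]
    exact sub_ne_zero.2 hac
  rw [h1, d0_ord_add_eq P h2 (by rw [sf_ord_algebraMap]; exact hpos), sf_ord_algebraMap]

/-- The order of `t - τ(a)` for the Möbius coordinate `t = (h - c₁)/(h - c₀)`,
`τ(a) = (a - c₁)/(a - c₀)`. -/
theorem d0_moebius_ord (P : Place K F) (h : F) {a c0 c1 : K} (ha : a ≠ c0) (hc : c0 ≠ c1)
    (h0 : h - algebraMap K F c0 ≠ 0) (ha0 : h - algebraMap K F a ≠ 0) :
    P.ord ((h - algebraMap K F c1) / (h - algebraMap K F c0) -
        algebraMap K F ((a - c1) / (a - c0))) =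
      P.ord (h - algebraMap K F a) - P.ord (h - algebraMap K F c0) := by
  have hac : algebraMap K F a - algebraMap K F c0 ≠ 0 := by
    rw [← map_sub, Ne, map_eq_zero]
    exact sub_ne_zero.2 ha
  have h1 : (h - algebraMap K F c1) / (h - algebraMap K F c0) -
      algebraMap K F ((a - c1) / (a - c0)) =
      algebraMap K F ((c1 - c0) / (a - c0)) *
        ((h - algebraMap K F a) / (h - algebraMap K F c0)) := by
    rw [map_div₀, map_div₀, map_sub, map_sub, map_sub]
    field_simp
    ring
  have h2 : algebraMap K F ((c1 - c0) / (a - c0)) ≠ 0 := by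
    rw [Ne, map_eq_zero]
    exact div_ne_zero (sub_ne_zero.2 hc.symm) (sub_ne_zero.2 ha)
  rw [h1, P.ord_mul h2 (div_ne_zero ha0 h0), sf_ord_algebraMap, sf_ord_div P ha0 h0, zero_add]

/-- A zero of `h - a` (`a ≠ c₀`) is a zero of `t - τ(a)` of the same order. -/
theorem d0_moebius_ord_of_pos (P : Place K F) (h : F) {a c0 c1 : K} (ha : a ≠ c0)
    (hc : c0 ≠ c1) (h0 : h - algebraMap K F c0 ≠ 0)
    (hpos : 0 < P.ord (h - algebraMap K F a)) :
    P.ord ((h - algebraMap K F c1) / (h - algebraMap K F c0) -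
        algebraMap K F ((a - c1) / (a - c0))) = P.ord (h - algebraMap K F a) := by
  have ha0 : h - algebraMap K F a ≠ 0 := by
    intro h1
    rw [h1, P.ord_zero] at hpos
    exact lt_irrefl _ hpos
  rw [d0_moebius_ord P h ha hc h0 ha0, d0_ord_sub_eq_zero P h ha hpos, sub_zero]

/-- A zero of `t - τ(a)` (`a ≠ c₀`) is a zero of `h - a`. -/
theorem d0_moebius_pos (P : Place K F) (h : F) {a c0 c1 : K} (ha : a ≠ c0)
    (hc : c0 ≠ c1) (h0 : h - algebraMap K F c0 ≠ 0) (ha0 : h - algebraMap K F a ≠ 0)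
    (hpos : 0 < P.ord ((h - algebraMap K F c1) / (h - algebraMap K F c0) -
        algebraMap K F ((a - c1) / (a - c0)))) :
    0 < P.ord (h - algebraMap K F a) := by
  rw [d0_moebius_ord P h ha hc h0 ha0] at hpos
  rcases lt_or_ge (P.ord h) 0 with hneg | hnn
  · rw [d0_ord_sub_const_of_neg P h a hneg, d0_ord_sub_const_of_neg P h c0 hneg] at hpos
    omega
  · have := d0_ord_sub_const_nonneg P h c0 hnn
    omega

/-- The order of `t - 1`. -/
theorem d0_moebius_ord_one (P : Place K F) (h : F) {c0 c1 : K} (hc : c0 ≠ c1)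
    (h0 : h - algebraMap K F c0 ≠ 0) :
    P.ord ((h - algebraMap K F c1) / (h - algebraMap K F c0) - algebraMap K F 1) =
      - P.ord (h - algebraMap K F c0) := by
  have h1 : (h - algebraMap K F c1) / (h - algebraMap K F c0) - algebraMap K F 1 =
      algebraMap K F (c0 - c1) / (h - algebraMap K F c0) := by
    rw [map_one, map_sub]
    field_simp
    ring
  have h2 : algebraMap K F (c0 - c1) ≠ 0 := by
    rw [Ne, map_eq_zero]
    exact sub_ne_zero.2 hc
  rw [h1, sf_ord_div P h2 h0, sf_ord_algebraMap, zero_sub]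

/-- The cusp values of the chart coordinate `(h - c₁)/(h - c₀)`; `none` is `h = ∞`. -/
def d0Tau {J : Type*} (c0 c1 : K) (ρ : J → K) : Option J → K
  | none => 1
  | some i => (ρ i - c1) / (ρ i - c0)

@[simp] theorem d0Tau_none {J : Type*} (c0 c1 : K) (ρ : J → K) : d0Tau c0 c1 ρ none = 1 := rfl

@[simp] theorem d0Tau_some {J : Type*} (c0 c1 : K) (ρ : J → K) (i : J) :
    d0Tau c0 c1 ρ (some i) = (ρ i - c1) / (ρ i - c0) := rfl

/-- Fibre-count data in the chart: `none` is `h = ∞`. -/
def d0N {J : Type*} (ninf : ℕ) (n : J → ℕ) : Option J → ℕ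
  | none => ninf
  | some i => n i

@[simp] theorem d0N_none {J : Type*} (ninf : ℕ) (n : J → ℕ) : d0N ninf n none = ninf := rfl

@[simp] theorem d0N_some {J : Type*} (ninf : ℕ) (n : J → ℕ) (i : J) :
    d0N ninf n (some i) = n i := rfl

theorem d0_moebius_eq_iff {a b c0 c1 : K} (ha : a ≠ c0) (hb : b ≠ c0) (hc : c0 ≠ c1) :
    (a - c1) / (a - c0) = (b - c1) / (b - c0) ↔ a = b := by
  have ha' := sub_ne_zero.2 ha
  have hb' := sub_ne_zero.2 hb
  constructor
  · intro h
    rw [div_eq_div_iff ha' hb'] at h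
    have h1 : (c1 - c0) * (a - b) = 0 := by linear_combination h
    rcases mul_eq_zero.1 h1 with h2 | h2
    · exact absurd (sub_eq_zero.1 h2).symm hc
    · exact sub_eq_zero.1 h2
  · rintro rfl
    rfl

theorem d0_moebius_ne_one {a c0 c1 : K} (ha : a ≠ c0) (hc : c0 ≠ c1) :
    (a - c1) / (a - c0) ≠ 1 := by
  intro h
  rw [div_eq_one_iff_eq (sub_ne_zero.2 ha)] at h
  exact hc (sub_right_injective h).symm

theorem d0Tau_injective {J : Type*} {c0 c1 : K} (hc : c0 ≠ c1) {ρ : J → K}
    (hρ : Function.Injective ρ) (hρ0 : ∀ i, ρ i ≠ c0) :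
    Function.Injective (d0Tau c0 c1 ρ) := by
  rintro (_ | i) (_ | j) h
  · rfl
  · exact absurd h.symm (d0_moebius_ne_one (hρ0 j) hc)
  · exact absurd h (d0_moebius_ne_one (hρ0 i) hc)
  · rw [d0Tau_some, d0Tau_some, d0_moebius_eq_iff (hρ0 i) (hρ0 j) hc] at h
    rw [hρ h]

/-- Every `c ≠ 1` is `τ(a)` for a unique `a ≠ c₀`. -/
theorem d0_moebius_surj {c c0 c1 : K} (hc : c0 ≠ c1) (hc1 : c ≠ 1) :
    ∃ a : K, a ≠ c0 ∧ (a - c1) / (a - c0) = c := by
  have h1 : (1 : K) - c ≠ 0 := sub_ne_zero.2 hc1.symm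
  have h2 : c1 - c0 ≠ 0 := sub_ne_zero.2 hc.symm
  have h3 : (c1 - c * c0) / (1 - c) - c0 = (c1 - c0) / (1 - c) := by
    field_simp
    ring
  refine ⟨(c1 - c * c0) / (1 - c), ?_, ?_⟩
  · rw [← sub_ne_zero, h3]
    exact div_ne_zero h2 h1
  · rw [h3]
    field_simp
    ring

end moebius

section d0m

variable {K E F : Type*} [Field K] [Field E] [Field F] [Algebra K F]
  [Algebra K[X] E] [IsFractionRing K[X] E] [Algebra E F] [Algebra K[X] F] [IsScalarTower K[X] E F]

/-- **Discriminant factorisation from fibre counts of `h`, in the chart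
`t = (h - c₁)/(h - c₀)`.**  The finite cusp values of `h` are `ρ i` (all `≠ c₀`), with at least
`n i` places above `ρ i`; there are at least `ninf` poles of `h`; all other fibres of `h` are
unramified.  Then the integral closure of `K[t]` in `F` has a `K[t]`-basis `β` whose
discriminant is `u * ∏ (t - τ o) ^ e o` over `o : Option J`, `τ = d0Tau c₀ c₁ ρ`, with
`e o + (number of places above o) ≤ [F : K(t)]`. -/
theorem d0_discr_factorization_moebius [IsAlgClosed K] [CharZero K] [FiniteDimensional E F]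
    {J : Type*} [Fintype J] (h : F) (c0 c1 : K) (hc : c0 ≠ c1)
    (hX : ∀ P : K[X], algebraMap K[X] F P =
      aeval ((h - algebraMap K F c1) / (h - algebraMap K F c0)) P)
    (ρ : J → K) (hρ : Function.Injective ρ) (hρ0 : ∀ i, ρ i ≠ c0) (n : J → ℕ) (ninf : ℕ)
    (hcusp : ∀ i, ∃ s : Finset (Place K F),
      (∀ P ∈ s, 0 < P.ord (h - algebraMap K F (ρ i))) ∧ n i ≤ s.card)
    (hinf : ∃ s : Finset (Place K F), (∀ P ∈ s, P.ord h < 0) ∧ ninf ≤ s.card)
    (hunr : ∀ c : K, (∀ i, ρ i ≠ c) → ∀ P : Place K F,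
      0 < P.ord (h - algebraMap K F c) → P.ord (h - algebraMap K F c) = 1) :
    ∃ (β : Module.Basis (Fin (Module.finrank E F)) E F) (u : K) (e : Option J → ℕ),
      (∀ i, IsIntegral K[X] (β i)) ∧
      (∀ x : F, IsIntegral K[X] x → x ∈ Submodule.span K[X] (Set.range β)) ∧ u ≠ 0 ∧
      (∀ o, e o + d0N ninf n o ≤ Module.finrank E F) ∧
      Algebra.discr E β =
        algebraMap K[X] E (C u * ∏ o, (X - C (d0Tau c0 c1 ρ o)) ^ e o) := by
  classical
  set t : F := (h - algebraMap K F c1) / (h - algebraMap K F c0) with ht_def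
  have ht := d0_transcendental E t hX
  -- `h` is not a constant
  have hh : ∀ a : K, h - algebraMap K F a ≠ 0 := by
    intro a ha
    apply ht
    have h1 : t = algebraMap K F ((a - c1) / (a - c0)) := by
      rw [ht_def, sub_eq_zero.1 ha, map_div₀, map_sub, map_sub]
    rw [h1]
    exact isAlgebraic_algebraMap _
  apply d0_discr_factorization t hX (d0Tau c0 c1 ρ) (d0Tau_injective hc hρ hρ0) (d0N ninf n)
  · rintro (_ | i)
    · obtain ⟨s, hs, hns⟩ := hinf
      refine ⟨s, fun P hP => ?_, hns⟩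
      rw [d0Tau_none, d0_moebius_ord_one P h hc (hh c0),
        d0_ord_sub_const_of_neg P h c0 (hs P hP)]
      have := hs P hP
      omega
    · obtain ⟨s, hs, hns⟩ := hcusp i
      refine ⟨s, fun P hP => ?_, hns⟩
      rw [d0Tau_some, d0_moebius_ord_of_pos P h (hρ0 i) hc (hh c0) (hs P hP)]
      exact hs P hP
  · intro c hcτ P hP
    have hc1 : c ≠ 1 := fun h1 => hcτ none (by rw [d0Tau_none, h1])
    obtain ⟨a, ha0, rfl⟩ := d0_moebius_surj hc hc1
    have ha : ∀ i, ρ i ≠ a := by
      intro i hi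
      exact hcτ (some i) (by rw [d0Tau_some, hi])
    have hpos := d0_moebius_pos P h ha0 hc (hh c0) (hh a) hP
    rw [d0_moebius_ord_of_pos P h ha0 hc (hh c0) hpos]
    exact hunr a ha P hpos

end d0m

end Fermat.Agent.S18

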