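import Mathlib
import Fermat.Agent.S18.HauptRec
import Fermat.Agent.S18.Disc0
import Fermat.Agent.S18.GaussCompat
import Fermat.Agent.S18.IfaceRed

/-!
# S18, package SM-INST (slice "choice"): the chart constants `c₀, c₁` and the cusp values

`H : HauptRec a2 ℓ`, `K` an algebraically closed field, `A : ValuationSubring K` lying over `ℓ`,
`k` its residue field.

* `smi2_root_mem`: the roots of `H.Qrad` in `K` (the finite cusp values of `h`) lie in `A`;
* `smi2_root_sub_root`: two distinct roots differ by a unit of `A` (separability modulo `ℓ`);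
* `smi2_choice`: there are `c₀, c₁ ∈ A` with `c₀ - c₁`, `Qrad(c₀)`, `Qrad(c₁)` units of `A`;
* `smi2_sub_root`: then `c₀ - r` is a unit of `A` for every root `r`;
* `smi2_tau_mem`, `smi2_tau_sub`, `smi2_tau_residue_injective`: the cusp values
  `d0Tau c₀ c₁ ρ` of the chart coordinate `(h - c₁)/(h - c₀)` lie in `A` and have pairwise
  distinct residues.

"`x` is a unit of `A`" is spelled `x ∈ A ∧ x ≠ 0 ∧ x⁻¹ ∈ A` (`smi2U A x`).
-/

set_option autoImplicit false

noncomputable section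

namespace Fermat.Agent.S18

open Polynomial

section smi2

variable {K : Type*} [Field K] (A : ValuationSubring K)

/-- `x : K` is a unit of the valuation ring `A`. -/
def smi2U (x : K) : Prop := x ∈ A ∧ x ≠ 0 ∧ x⁻¹ ∈ A

variable {A}

theorem smi2U_of_isUnit {x : A} (hx : IsUnit x) : smi2U A (x : K) := by
  obtain ⟨y, hy⟩ := hx.exists_right_inv
  have h1 : (x : K) * (y : K) = 1 := by
    have := congrArg (fun z : A => (z : K)) hy
    simpa using this
  have hx0 : (x : K) ≠ 0 := left_ne_zero_of_mul_eq_one h1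
  refine ⟨x.2, hx0, ?_⟩
  rw [inv_eq_of_mul_eq_one_right h1]
  exact y.2

theorem smi2U_isUnit {x : K} (hx : smi2U A x) : IsUnit (⟨x, hx.1⟩ : A) := by
  refine IsUnit.of_mul_eq_one (⟨x⁻¹, hx.2.2⟩ : A) ?_
  apply Subtype.ext
  show x * x⁻¹ = 1
  exact mul_inv_cancel₀ hx.2.1

theorem smi2U_of_residue_ne_zero {x : A} (hx : IsLocalRing.residue A x ≠ 0) :
    smi2U A (x : K) :=
  smi2U_of_isUnit ((IsLocalRing.residue_ne_zero_iff_isUnit x).mp hx)

theorem smi2U_residue_ne_zero {x : K} (hx : smi2U A x) :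
    IsLocalRing.residue A ⟨x, hx.1⟩ ≠ 0 :=
  (IsLocalRing.residue_ne_zero_iff_isUnit _).mpr (smi2U_isUnit hx)

theorem smi2U_mul {x y : K} (hx : smi2U A x) (hy : smi2U A y) : smi2U A (x * y) :=
  ⟨A.mul_mem _ _ hx.1 hy.1, mul_ne_zero hx.2.1 hy.2.1, by
    rw [mul_inv]; exact A.mul_mem _ _ hx.2.2 hy.2.2⟩

theorem smi2U_inv {x : K} (hx : smi2U A x) : smi2U A x⁻¹ :=
  ⟨hx.2.2, inv_ne_zero hx.2.1, by rw [inv_inv]; exact hx.1⟩

theorem smi2U_neg {x : K} (hx : smi2U A x) : smi2U A (-x) :=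
  ⟨A.neg_mem _ hx.1, neg_ne_zero.mpr hx.2.1, by rw [inv_neg]; exact A.neg_mem _ hx.2.2⟩

theorem smi2U_div {x y : K} (hx : smi2U A x) (hy : smi2U A y) : smi2U A (x / y) := by
  rw [div_eq_mul_inv]
  exact smi2U_mul hx (smi2U_inv hy)

/-- a factor (in `A`) of a unit of `A` is a unit of `A`. -/
theorem smi2U_of_mul_left {x y : K} (hx : x ∈ A) (hy : y ∈ A) (h : smi2U A (x * y)) :
    smi2U A x := by
  have hx0 : x ≠ 0 := left_ne_zero_of_mul h.2.1
  have hy0 : y ≠ 0 := right_ne_zero_of_mul h.2.1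
  refine ⟨hx, hx0, ?_⟩
  have : x⁻¹ = y * (x * y)⁻¹ := by
    field_simp
  rw [this]
  exact A.mul_mem _ _ hy h.2.2

theorem smi2U_of_mul_right {x y : K} (hx : x ∈ A) (hy : y ∈ A) (h : smi2U A (x * y)) :
    smi2U A y := by
  rw [mul_comm] at h
  exact smi2U_of_mul_left hy hx h

theorem smi2U_of_pow {x : K} (hx : x ∈ A) {n : ℕ} (h : smi2U A (x ^ n)) (hn : n ≠ 0) :
    smi2U A x := by
  obtain ⟨m, rfl⟩ := Nat.exists_eq_succ_of_ne_zero hn
  rw [pow_succ] at h
  exact smi2U_of_mul_right (A.pow_mem hx m) hx h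

/-- evaluation of an integer polynomial at an element of `A`. -/
theorem smi2_coe_aeval (p : ℤ[X]) (x : A) : ((aeval x p : A) : K) = aeval (x : K) p := by
  have h := Polynomial.hom_eval₂ p (algebraMap ℤ A) A.subtype x
  rw [Polynomial.aeval_def, Polynomial.aeval_def]
  rw [RingHom.ext_int (A.subtype.comp (algebraMap ℤ A)) (algebraMap ℤ K)] at h
  exact h

theorem smi2_aeval_mem (p : ℤ[X]) {x : K} (hx : x ∈ A) : aeval x p ∈ A := by
  have h := smi2_coe_aeval (A := A) p ⟨x, hx⟩
  rw [← h]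
  exact (aeval (⟨x, hx⟩ : A) p).2

/-- reduction of the value of an integer polynomial. -/
theorem smi2_residue_aeval (p : ℤ[X]) (x : A) :
    IsLocalRing.residue A (aeval x p) = aeval (IsLocalRing.residue A x) p := by
  have h := Polynomial.hom_eval₂ p (algebraMap ℤ A) (IsLocalRing.residue A) x
  rw [Polynomial.aeval_def, Polynomial.aeval_def]
  rw [RingHom.ext_int ((IsLocalRing.residue A).comp (algebraMap ℤ A))
    (algebraMap ℤ (IsLocalRing.ResidueField A))] at h
  exact h

/-- a root in `K` of a monic integer polynomial lies in `A`. -/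
theorem smi2_mem_of_monic {p : ℤ[X]} (hp : p.Monic) {r : K} (hr : aeval r p = 0) : r ∈ A := by
  have h1 : IsIntegral ℤ r := ⟨p, hp, by rw [← Polynomial.aeval_def]; exact hr⟩
  have h2 : IsIntegral A r := h1.tower_top
  obtain ⟨y, hy⟩ := (IsIntegrallyClosed.isIntegral_iff (R := A) (K := K)).mp h2
  rw [← hy]
  exact y.2

end smi2

section smi2H

variable {a2 ℓ : ℕ} [Fact ℓ.Prime] (H : HauptRec a2 ℓ)
variable {K : Type*} [Field K] (A : ValuationSubring K) (hA : A.LiesOverPrime ℓ)

include hA in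
/-- `Qrad` is separable over the residue field of `A`. -/
theorem smi2_Qrad_sep :
    (H.Qrad.map (Int.castRingHom (IsLocalRing.ResidueField A))).Separable := by
  have h := H.Qrad_sep_mod.map (f := grcPhi A ℓ hA)
  rw [Polynomial.map_map] at h
  rwa [RingHom.ext_int ((grcPhi A ℓ hA).comp (Int.castRingHom (ZMod ℓ)))
    (Int.castRingHom (IsLocalRing.ResidueField A))] at h

omit [Fact ℓ.Prime] in
/-- the roots of `Qrad` (finite cusp values of `h`) lie in `A`. -/
theorem smi2_root_mem {r : K} (hr : aeval r H.Qrad = 0) : r ∈ A :=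
  smi2_mem_of_monic H.Qrad_monic hr

include hA in
/-- distinct roots of `Qrad` have distinct residues: their difference is a unit of `A`. -/
theorem smi2_root_sub_root {r r' : K} (hr : aeval r H.Qrad = 0) (hr' : aeval r' H.Qrad = 0)
    (hne : r ≠ r') : smi2U A (r - r') := by
  have hrA : r ∈ A := smi2_root_mem H A hr
  have hrA' : r' ∈ A := smi2_root_mem H A hr'
  set x : A := ⟨r, hrA⟩ with hx
  set x' : A := ⟨r', hrA'⟩ with hx'
  set QA : A[X] := H.Qrad.map (algebraMap ℤ A) with hQA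
  have hev : ∀ y : A, QA.eval y = aeval y H.Qrad := fun y => by
    rw [hQA, Polynomial.eval_map, Polynomial.aeval_def]
  have hroot : QA.IsRoot x := by
    rw [Polynomial.IsRoot, hev]
    apply Subtype.ext
    rw [smi2_coe_aeval]
    exact hr
  have hroot' : QA.IsRoot x' := by
    rw [Polynomial.IsRoot, hev]
    apply Subtype.ext
    rw [smi2_coe_aeval]
    exact hr'
  obtain ⟨S1, hS1⟩ := Polynomial.dvd_iff_isRoot.mpr hroot
  have hxx' : x' - x ≠ 0 := by
    intro h
    apply hne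
    have := congrArg (fun z : A => (z : K)) (sub_eq_zero.mp h)
    exact this.symm
  have hS1root : S1.IsRoot x' := by
    have h1 : QA.eval x' = 0 := hroot'
    rw [hS1, Polynomial.eval_mul, Polynomial.eval_sub, Polynomial.eval_X, Polynomial.eval_C] at h1
    rcases mul_eq_zero.mp h1 with h2 | h2
    · exact absurd h2 hxx'
    · exact h2
  obtain ⟨S2, hS2⟩ := Polynomial.dvd_iff_isRoot.mpr hS1root
  -- reduce
  have hres : IsLocalRing.residue A (x - x') ≠ 0 := by
    intro h0
    have h1 : IsLocalRing.residue A x = IsLocalRing.residue A x' := by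
      rw [map_sub, sub_eq_zero] at h0
      exact h0
    have hmap : H.Qrad.map (Int.castRingHom (IsLocalRing.ResidueField A)) =
        (X - C (IsLocalRing.residue A x)) * (X - C (IsLocalRing.residue A x)) *
          S2.map (IsLocalRing.residue A) := by
      have h2 : QA.map (IsLocalRing.residue A) =
          H.Qrad.map (Int.castRingHom (IsLocalRing.ResidueField A)) := by
        rw [hQA, Polynomial.map_map,
          RingHom.ext_int ((IsLocalRing.residue A).comp (algebraMap ℤ A))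
            (Int.castRingHom (IsLocalRing.ResidueField A))]
      rw [← h2, hS1, hS2]
      simp only [Polynomial.map_mul, Polynomial.map_sub, Polynomial.map_X, Polynomial.map_C]
      rw [← h1, mul_assoc]
    have hsq := (smi2_Qrad_sep H A hA).squarefree
    have hu := hsq (X - C (IsLocalRing.residue A x)) ⟨_, hmap⟩
    exact Polynomial.not_isUnit_X_sub_C _ hu
  have := smi2U_of_residue_ne_zero hres
  simpa [hx, hx'] using this

omit [Fact ℓ.Prime] in
/-- if `Qrad(c)` is a unit of `A` then `c - r` is a unit of `A` for every root `r`. -/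
theorem smi2_sub_root {c : K} (hc : c ∈ A) (hcu : smi2U A (aeval c H.Qrad)) {r : K}
    (hr : aeval r H.Qrad = 0) : smi2U A (c - r) := by
  have hrA : r ∈ A := smi2_root_mem H A hr
  set x : A := ⟨r, hrA⟩ with hx
  set QA : A[X] := H.Qrad.map (algebraMap ℤ A) with hQA
  have hev : ∀ y : A, QA.eval y = aeval y H.Qrad := fun y => by
    rw [hQA, Polynomial.eval_map, Polynomial.aeval_def]
  have hroot : QA.IsRoot x := by
    rw [Polynomial.IsRoot, hev]
    apply Subtype.ext
    rw [smi2_coe_aeval]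
    exact hr
  obtain ⟨S1, hS1⟩ := Polynomial.dvd_iff_isRoot.mpr hroot
  have h1 : aeval c H.Qrad = (c - r) * ((S1.eval (⟨c, hc⟩ : A) : A) : K) := by
    have h2 : QA.eval (⟨c, hc⟩ : A) = ((⟨c, hc⟩ : A) - x) * S1.eval (⟨c, hc⟩ : A) := by
      rw [hS1, Polynomial.eval_mul, Polynomial.eval_sub, Polynomial.eval_X, Polynomial.eval_C]
    rw [hev] at h2
    have h3 := congrArg (fun z : A => (z : K)) h2
    simp only [smi2_coe_aeval] at h3
    rw [h3]
    rfl
  rw [h1] at hcu
  exact smi2U_of_mul_left (sub_mem hc hrA) (S1.eval (⟨c, hc⟩ : A)).2 hcu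

omit [Fact ℓ.Prime] in
/-- if `Qrad(c)` is a unit of `A` then so is `Q(c)`. -/
theorem smi2_Q_unit {c : K} (hc : c ∈ A) (hcu : smi2U A (aeval c H.Qrad)) :
    smi2U A (aeval c H.Q) := by
  have hpow : ∀ n : ℕ, smi2U A (aeval c H.Qrad ^ n) := by
    intro n
    induction n with
    | zero => rw [pow_zero]; exact ⟨A.one_mem, one_ne_zero, by rw [inv_one]; exact A.one_mem⟩
    | succ m ih => rw [pow_succ]; exact smi2U_mul ih hcu
  obtain ⟨n, S, hS⟩ := H.dvd_Qrad_pow
  have h1 : aeval c H.Qrad ^ n = aeval c H.Q * aeval c S := by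
    rw [← map_pow, hS, map_mul]
  have h2 := hpow n
  rw [h1] at h2
  exact smi2U_of_mul_left (smi2_aeval_mem _ hc) (smi2_aeval_mem _ hc) h2

variable [IsAlgClosed K]

omit [Fact ℓ.Prime] in
/-- **The chart constants.** There are `c₀, c₁ ∈ A`, with `c₀ - c₁`, `Qrad(c₀)` and `Qrad(c₁)`
units of `A`. -/
theorem smi2_choice :
    ∃ c0 c1 : K, c0 ∈ A ∧ c1 ∈ A ∧ smi2U A (c0 - c1) ∧
      smi2U A (aeval c0 H.Qrad) ∧ smi2U A (aeval c1 H.Qrad) := by
  classical
  have : IsAlgClosed (IsLocalRing.ResidueField A) := ifr_residue_isAlgClosed A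
  set Qk := H.Qrad.map (Int.castRingHom (IsLocalRing.ResidueField A)) with hQk
  have hQk0 : Qk ≠ 0 := (H.Qrad_monic.map _).ne_zero
  obtain ⟨b0, hb0⟩ := Infinite.exists_notMem_finset Qk.roots.toFinset
  obtain ⟨b1, hb1⟩ := Infinite.exists_notMem_finset (insert b0 Qk.roots.toFinset)
  obtain ⟨x0, rfl⟩ := IsLocalRing.residue_surjective b0
  obtain ⟨x1, rfl⟩ := IsLocalRing.residue_surjective b1
  have key : ∀ x : A, IsLocalRing.residue A x ∉ Qk.roots.toFinset →
      smi2U A (aeval (x : K) H.Qrad) := by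
    intro x hx
    rw [← smi2_coe_aeval]
    apply smi2U_of_residue_ne_zero
    rw [smi2_residue_aeval]
    intro h0
    apply hx
    rw [Multiset.mem_toFinset, Polynomial.mem_roots hQk0, Polynomial.IsRoot, hQk,
      Polynomial.eval_map, ← h0, Polynomial.aeval_def,
      RingHom.ext_int (Int.castRingHom (IsLocalRing.ResidueField A))
        (algebraMap ℤ (IsLocalRing.ResidueField A))]
  refine ⟨x0, x1, x0.2, x1.2, ?_, key x0 hb0, key x1 ?_⟩
  · have h : IsLocalRing.residue A (x0 - x1) ≠ 0 := by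
      rw [map_sub, sub_ne_zero]
      intro h
      apply hb1
      rw [← h]
      exact Finset.mem_insert_self _ _
    exact smi2U_of_residue_ne_zero h
  · intro h
    exact hb1 (Finset.mem_insert_of_mem h)

omit [Fact ℓ.Prime] [IsAlgClosed K] in
/-- the canonical index type of the finite cusp values: `J := ↥(H.Qrad.rootSet K)`,
`ρ := Subtype.val`. -/
theorem smi2_rootSet_aeval (i : ↥(H.Qrad.rootSet K)) : aeval (i : K) H.Qrad = 0 :=
  (Polynomial.mem_rootSet'.mp i.2).2

omit [Fact ℓ.Prime] [IsAlgClosed K] in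
theorem smi2_mem_rootSet {r : K} (hr : aeval r H.Qrad = 0) : r ∈ H.Qrad.rootSet K :=
  Polynomial.mem_rootSet'.mpr ⟨(H.Qrad_monic.map _).ne_zero, hr⟩

end smi2H

section smi2Tau

variable {a2 ℓ : ℕ} [Fact ℓ.Prime] (H : HauptRec a2 ℓ)
variable {K : Type*} [Field K] (A : ValuationSubring K) (hA : A.LiesOverPrime ℓ)
variable {J : Type*} (ρ : J → K) (hρ : ∀ i, aeval (ρ i) H.Qrad = 0)
variable {c0 c1 : K} (hc0 : c0 ∈ A) (hc1 : c1 ∈ A) (hc : smi2U A (c0 - c1))
  (hq0 : smi2U A (aeval c0 H.Qrad))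

omit [Fact ℓ.Prime] in
include hρ hc0 hq0 in
theorem smi2_rho_ne (i : J) : ρ i ≠ c0 := by
  intro h
  have := (smi2_sub_root H A hc0 hq0 (hρ i)).2.1
  rw [h, sub_self] at this
  exact this rfl

include hc in
theorem smi2_c_ne : c0 ≠ c1 := fun h => hc.2.1 (by rw [h, sub_self])

omit [Fact ℓ.Prime] in
include hρ hc0 hc1 hq0 in
/-- the cusp values of the chart coordinate lie in `A`. -/
theorem smi2_tau_mem (o : Option J) : d0Tau c0 c1 ρ o ∈ A := by
  cases o with
  | none => rw [d0Tau_none]; exact A.one_mem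
  | some i =>
    rw [d0Tau_some, div_eq_mul_inv]
    have h1 := smi2_sub_root H A hc0 hq0 (hρ i)
    have h2 : (ρ i - c0)⁻¹ = -(c0 - ρ i)⁻¹ := by rw [← inv_neg, neg_sub]
    rw [h2]
    exact A.mul_mem _ _ (sub_mem (smi2_root_mem H A (hρ i)) hc1) (A.neg_mem _ h1.2.2)

include hA hρ hc0 hc hq0 in
/-- the cusp values of the chart coordinate have pairwise distinct residues: differences of
distinct cusp values are units of `A`. -/
theorem smi2_tau_sub (hinj : Function.Injective ρ) {o o' : Option J} (hne : o ≠ o') :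
    smi2U A (d0Tau c0 c1 ρ o - d0Tau c0 c1 ρ o') := by
  have hone : ∀ i : J, smi2U A ((ρ i - c1) / (ρ i - c0) - 1) := by
    intro i
    have h1 := smi2_sub_root H A hc0 hq0 (hρ i)
    have hne0 : ρ i - c0 ≠ 0 := sub_ne_zero.mpr (smi2_rho_ne H A ρ hρ hc0 hq0 i)
    have h2 : (ρ i - c1) / (ρ i - c0) - 1 = (c0 - c1) / (-(c0 - ρ i)) := by
      rw [neg_sub]
      field_simp
      ring
    rw [h2]
    exact smi2U_div hc (smi2U_neg h1)
  rcases o with _ | i <;> rcases o' with _ | i'
  · exact absurd rfl hne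
  · rw [d0Tau_none, d0Tau_some]
    have := smi2U_neg (hone i')
    rwa [neg_sub] at this
  · rw [d0Tau_none, d0Tau_some]
    exact hone i
  · rw [d0Tau_some, d0Tau_some]
    have hii' : ρ i ≠ ρ i' := fun h => hne (by rw [hinj h])
    have h1 := smi2_sub_root H A hc0 hq0 (hρ i)
    have h1' := smi2_sub_root H A hc0 hq0 (hρ i')
    have h3 := smi2_root_sub_root H A hA (hρ i') (hρ i) (Ne.symm hii')
    have hne0 : ρ i - c0 ≠ 0 := sub_ne_zero.mpr (smi2_rho_ne H A ρ hρ hc0 hq0 i)
    have hne0' : ρ i' - c0 ≠ 0 := sub_ne_zero.mpr (smi2_rho_ne H A ρ hρ hc0 hq0 i')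
    have h2 : (ρ i - c1) / (ρ i - c0) - (ρ i' - c1) / (ρ i' - c0) =
        (ρ i' - ρ i) * (c0 - c1) / ((c0 - ρ i) * (c0 - ρ i')) := by
      have e1 : c0 - ρ i ≠ 0 := h1.2.1
      have e2 : c0 - ρ i' ≠ 0 := h1'.2.1
      field_simp
      ring
    rw [h2]
    exact smi2U_div (smi2U_mul h3 hc) (smi2U_mul h1 h1')

include hA hρ hc0 hc1 hc hq0 in
/-- the residues of the cusp values of the chart coordinate are pairwise distinct. -/
theorem smi2_tau_residue_injective (hinj : Function.Injective ρ) :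
    Function.Injective (fun o : Option J =>
      IsLocalRing.residue A ⟨d0Tau c0 c1 ρ o, smi2_tau_mem H A ρ hρ hc0 hc1 hq0 o⟩) := by
  intro o o' h
  by_contra hne
  have h1 := smi2_tau_sub H A hA ρ hρ hc0 hc hq0 hinj hne
  have h2 := smi2U_residue_ne_zero h1
  apply h2
  have h3 : (⟨d0Tau c0 c1 ρ o - d0Tau c0 c1 ρ o', h1.1⟩ : A) =
      ⟨d0Tau c0 c1 ρ o, smi2_tau_mem H A ρ hρ hc0 hc1 hq0 o⟩ -
        ⟨d0Tau c0 c1 ρ o', smi2_tau_mem H A ρ hρ hc0 hc1 hq0 o'⟩ := rfl
  rw [h3, map_sub, sub_eq_zero]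
  exact h

end smi2Tau

end Fermat.Agent.S18
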