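import Mathlib
import Fermat.Agent.S18.GaussTower

/-!
# S18, package SM-INST: the concrete types and instances shared by all slices

Generic part (any fields `K ⊆ F`, `t : F`):
* `smiPolyAlgebra K t : Algebra K[X] F` (`X ↦ t`), `smi_polyAlgebra_apply` (`rfl`);
* `smiFracAlgebra K t ht : Algebra (FractionRing K[X]) F` for `t` transcendental over `K`;
* `smi_isScalarTower`, `smi_fracAlgebra_algebraMap`.
All of them are reducible definitions to be installed with `letI`.

Concrete part, for ANY `(K, A)` (`A : ValuationSubring K` over `ℓ`, `ℓ ∤ M`), so that it applies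
to `(Qbar, A)` and to a field of definition `(K0, A ∩ K0)`:
* `F = ↥(laurentBaseChange K (modularFunctionFieldFull M))`, `V = grO A hA M hℓM`;
* `SmiKappa A M : Type`, the residue field of `V` (the subfield `grResField A F` of `k((q))`,
  packaged as a type with its own `Field` and `Algebra k` instances so that instance search is
  fast); `smiVal A M : SmiKappa A M →ₐ[k] k((q))` the inclusion;
* `smiRho A hA M hℓM : V →+* SmiKappa A M`, the residue map (`smiVal_smiRho`: it is `grRes`),
  `smiRho_surjective`, `smiRho_eq_zero_iff` (kernel = non-units), `smiRho_algebraMap`.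

Convention for the hypotheses of `sma_main`: `E := FractionRing K[X]`, `Kk := FractionRing k[X]`,
`κ := SmiKappa A M`, `ρ := smiRho A hA M hℓM`, `res := IsLocalRing.residue A`, the algebra
structures being `smiPolyAlgebra K t`, `smiFracAlgebra K t ht` on `F` and
`smiPolyAlgebra k t̄`, `smiFracAlgebra k t̄ ht̄` on `κ`, where `t̄ = smiRho ⟨t, _⟩`.
-/

set_option autoImplicit false
set_option linter.style.haveILetI false
set_option linter.unusedSectionVars false

noncomputable section

open ModularCurve Polynomial

namespace Fermat.Agent.S18

section Generic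

variable (K : Type*) {F : Type*} [Field K] [Field F] [Algebra K F]

/-- The `K[X]`-algebra structure on `F` through `X ↦ t` (install with `letI`). -/
@[reducible] def smiPolyAlgebra (t : F) : Algebra K[X] F :=
  ((Polynomial.aeval t : K[X] →ₐ[K] F) : K[X] →+* F).toAlgebra

theorem smi_polyAlgebra_apply (t : F) (p : K[X]) :
    letI := smiPolyAlgebra K t
    algebraMap K[X] F p = Polynomial.aeval t p :=
  rfl

theorem smi_aeval_injective (t : F) (ht : Transcendental K t) :
    Function.Injective ((Polynomial.aeval t : K[X] →ₐ[K] F) : K[X] →+* F) :=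
  transcendental_iff_injective.mp ht

/-- The `Frac K[X]`-algebra structure on `F` extending `X ↦ t`, for `t` transcendental over `K`
(install with `letI`). -/
@[reducible] def smiFracAlgebra (t : F) (ht : Transcendental K t) :
    Algebra (FractionRing K[X]) F :=
  (IsFractionRing.lift (K := FractionRing K[X])
    (g := ((Polynomial.aeval t : K[X] →ₐ[K] F) : K[X] →+* F))
    (smi_aeval_injective K t ht)).toAlgebra

theorem smi_fracAlgebra_algebraMap (t : F) (ht : Transcendental K t) (p : K[X]) :
    letI := smiFracAlgebra K t ht
    algebraMap (FractionRing K[X]) F (algebraMap K[X] (FractionRing K[X]) p) =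
      Polynomial.aeval t p :=
  IsFractionRing.lift_algebraMap (K := FractionRing K[X])
    (g := ((Polynomial.aeval t : K[X] →ₐ[K] F) : K[X] →+* F)) (smi_aeval_injective K t ht) p

theorem smi_isScalarTower (t : F) (ht : Transcendental K t) :
    letI := smiPolyAlgebra K t
    letI := smiFracAlgebra K t ht
    IsScalarTower K[X] (FractionRing K[X]) F := by
  letI := smiPolyAlgebra K t
  letI := smiFracAlgebra K t ht
  exact IsScalarTower.of_algebraMap_eq fun p => (smi_fracAlgebra_algebraMap K t ht p).symm

end Generic

section Concrete

variable {K : Type*} [Field K] [Algebra ℚ K] (A : ValuationSubring K) {ℓ : ℕ} [Fact ℓ.Prime]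
  (hA : A.LiesOverPrime ℓ) (M : ℕ) [NeZero M] (hℓM : ¬ ℓ ∣ M)

/-- The residue field of the Gauss valuation ring of the level-`M` function field, as a TYPE
(the subfield `grResField A F` of `k((q))`; a definition, so that instance search is fast). -/
def SmiKappa : Type _ :=
  ↥(grResField A (laurentBaseChange K (modularFunctionFieldFull M)))

instance : Field (SmiKappa A M) :=
  (grResField A (laurentBaseChange K (modularFunctionFieldFull M))).toField

instance : Algebra (IsLocalRing.ResidueField A) (SmiKappa A M) :=
  (grResField A (laurentBaseChange K (modularFunctionFieldFull M))).toSubalgebra.algebra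

/-- The inclusion of the residue field into `k((q))`. -/
def smiVal : SmiKappa A M →ₐ[IsLocalRing.ResidueField A]
    LaurentSeries (IsLocalRing.ResidueField A) :=
  (grResField A (laurentBaseChange K (modularFunctionFieldFull M))).val

theorem smiVal_injective : Function.Injective (smiVal A M) :=
  (smiVal A M).toRingHom.injective

theorem smiVal_mem (y : SmiKappa A M) :
    smiVal A M y ∈ grResField A (laurentBaseChange K (modularFunctionFieldFull M)) :=
  y.2

/-- The residue map of the Gauss valuation ring, onto its residue field. -/
def smiRho : ↥(grO A hA M hℓM) →+* SmiKappa A M :=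
  (grRes A hA M hℓM).codRestrict
    (grResField A (laurentBaseChange K (modularFunctionFieldFull M))).toSubring
    (fun x => ⟨grOToV A hA M hℓM x, (x : ↥(laurentBaseChange K (modularFunctionFieldFull M))).2,
      rfl⟩)

theorem smiVal_smiRho (x : ↥(grO A hA M hℓM)) :
    smiVal A M (smiRho A hA M hℓM x) = grRes A hA M hℓM x :=
  rfl

theorem smiRho_surjective : Function.Surjective (smiRho A hA M hℓM) := by
  rintro ⟨y, x, hxF, rfl⟩
  exact ⟨⟨⟨(x : LaurentSeries K), hxF⟩, x.2⟩, Subtype.ext rfl⟩

theorem smiRho_eq_zero_iff (x : ↥(grO A hA M hℓM)) :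
    smiRho A hA M hℓM x = 0 ↔
      (x : ↥(laurentBaseChange K (modularFunctionFieldFull M))) ∈ (grO A hA M hℓM).nonunits := by
  rw [gr_mem_nonunits_iff_grRes, ← smiVal_smiRho]
  constructor
  · intro h
    rw [h, map_zero]
  · intro h
    exact smiVal_injective A M (by rw [h, map_zero])

/-- the residue map on constants -/
theorem smiRho_algebraMap (c : A)
    (hc : algebraMap K ↥(laurentBaseChange K (modularFunctionFieldFull M)) (c : K) ∈
      grO A hA M hℓM) :
    smiRho A hA M hℓM ⟨_, hc⟩ =
      algebraMap (IsLocalRing.ResidueField A) (SmiKappa A M) (IsLocalRing.residue A c) := by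
  apply smiVal_injective A M
  rw [smiVal_smiRho, grRes_apply, AlgHom.commutes]
  exact grRho_algebraMap A c

end Concrete

end Fermat.Agent.S18
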