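import Mathlib
import Fermat.Agent.S18.BaseChangeField

/-!
# S18, package SM-INST, K0 side: descent of an integral family to a field of definition

`L` a field of characteristic zero with a valuation subring `A` (in the application
`L = AlgebraicClosure ℚ`), `K₀ → L` a subfield, `A₀ = A ∩ K₀`, `F_L` the level-`M` function field
over `L` and `F₀` the one over `K₀`, with the base-change embedding `bcfHom : F₀ →+* F_L`.

* `smibStmt K₀ A M t b`: for every `t₀ ∈ F₀` lying over `t`, the family `b : Fin d → F_L` comes
  from a family `b0 : Fin d → F₀` all of whose members are integral over `A₀[t₀]`.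
* `smib_of_lift`: `smibStmt` holds as soon as the `b i` are defined over `K₀` and have monic
  integrality witnesses over `A[t]` whose coefficients are defined over `K₀`.
* `smib_main`: for a family `b` of elements of the function field over `ℚ̄`, integral over `A[t]`,
  there is a finite set `T ⊆ ℚ̄` such that `smibStmt K0 A N' t b` holds for every intermediate
  field `K0` containing `T`.
-/

set_option autoImplicit false

noncomputable section

open ModularCurve Polynomial

namespace Fermat.Agent.S18

local notation "Qb" => AlgebraicClosure ℚ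

/-- Descent of a family `b` of elements of the function field over `L`, integral over `A[t]`, to
the function field over `K₀`: for every `t₀` over `t` there is a family `b0` over `K₀` mapping to
`b` whose members are integral over `(A ∩ K₀)[t₀]`. -/
def smibStmt (K₀ : Type*) [Field K₀] [Algebra ℚ K₀] {L : Type*} [Field L] [Algebra ℚ L]
    [Algebra K₀ L] (A : ValuationSubring L) (M : ℕ) {d : ℕ}
    (t : ↥(laurentBaseChange L (modularFunctionFieldFull M)))
    (b : Fin d → ↥(laurentBaseChange L (modularFunctionFieldFull M))) : Prop :=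
  ∀ t₀ : ↥(laurentBaseChange K₀ (modularFunctionFieldFull M)),
    bcfHom K₀ L (modularFunctionFieldFull M) t₀ = t →
    ∃ b0 : Fin d → ↥(laurentBaseChange K₀ (modularFunctionFieldFull M)),
      (∀ i, bcfHom K₀ L (modularFunctionFieldFull M) (b0 i) = b i) ∧
      ∀ i, ((((Polynomial.aeval t₀ :
          K₀[X] →ₐ[K₀] ↥(laurentBaseChange K₀ (modularFunctionFieldFull M))) :
          K₀[X] →+* _).comp
        (Polynomial.mapRingHom (A.comap (algebraMap K₀ L)).subtype)).IsIntegralElem (b0 i))

section Abstract

variable {K₀ : Type*} [Field K₀] [Algebra ℚ K₀] {L : Type*} [Field L] [Algebra ℚ L]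
  [Algebra K₀ L] (A : ValuationSubring L) (M : ℕ)

/-- compatibility of the two "polynomials in the chart coordinate" maps with base change -/
theorem smib_comp (t : ↥(laurentBaseChange L (modularFunctionFieldFull M)))
    (t₀ : ↥(laurentBaseChange K₀ (modularFunctionFieldFull M)))
    (ht : bcfHom K₀ L (modularFunctionFieldFull M) t₀ = t) :
    (bcfHom K₀ L (modularFunctionFieldFull M)).comp
      (((Polynomial.aeval t₀ :
          K₀[X] →ₐ[K₀] ↥(laurentBaseChange K₀ (modularFunctionFieldFull M))) :
          K₀[X] →+* _).comp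
        (Polynomial.mapRingHom (A.comap (algebraMap K₀ L)).subtype)) =
    (((Polynomial.aeval t :
          L[X] →ₐ[L] ↥(laurentBaseChange L (modularFunctionFieldFull M))) :
          L[X] →+* _).comp (Polynomial.mapRingHom A.subtype)).comp
      (Polynomial.mapRingHom (bcfInc A)) := by
  refine Polynomial.ringHom_ext (fun a => ?_) ?_
  · simp only [RingHom.comp_apply, coe_mapRingHom, map_C, RingHom.coe_coe, aeval_C]
    rw [bcfHom_algebraMap]
    rfl
  · simp only [RingHom.comp_apply, coe_mapRingHom, map_X, RingHom.coe_coe, aeval_X]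
    exact ht

omit [Algebra ℚ K₀] [Algebra ℚ L] in
/-- a polynomial over `A` whose coefficients are defined over `K₀` comes from `A ∩ K₀` -/
theorem smib_mem_lifts (q : (↥A)[X])
    (hq : ∀ m, ((q.coeff m : ↥A) : L) ∈ Set.range (algebraMap K₀ L)) :
    q ∈ Polynomial.lifts (bcfInc (K₀ := K₀) A) := by
  rw [Polynomial.lifts_iff_coeff_lifts]
  intro m
  obtain ⟨c, hc⟩ := hq m
  have hcA : c ∈ A.comap (algebraMap K₀ L) := by
    rw [ValuationSubring.mem_comap, hc]
    exact (q.coeff m).2
  exact ⟨⟨c, hcA⟩, Subtype.ext hc⟩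

/-- **Descent of an integral family**, abstract form. -/
theorem smib_of_lift {d : ℕ} (t : ↥(laurentBaseChange L (modularFunctionFieldFull M)))
    (b : Fin d → ↥(laurentBaseChange L (modularFunctionFieldFull M)))
    (P : Fin d → (↥A)[X][X]) (hPm : ∀ i, (P i).Monic)
    (hP : ∀ i, Polynomial.eval₂ (((Polynomial.aeval t :
          L[X] →ₐ[L] ↥(laurentBaseChange L (modularFunctionFieldFull M))) :
          L[X] →+* _).comp (Polynomial.mapRingHom A.subtype)) (b i) (P i) = 0)
    (hcoef : ∀ i n m, ((((P i).coeff n).coeff m : ↥A) : L) ∈ Set.range (algebraMap K₀ L))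
    (hdesc : ∀ i, ∃ x₀ ∈ laurentBaseChange K₀ (modularFunctionFieldFull M),
      coeffMap (algebraMap K₀ L) x₀ = ((b i : ↥(laurentBaseChange L (modularFunctionFieldFull M))) :
        LaurentSeries L)) :
    smibStmt K₀ A M t b := by
  intro t₀ ht
  choose x₀ hx₀ hx₀b using hdesc
  refine ⟨fun i => ⟨x₀ i, hx₀ i⟩, fun i => Subtype.ext (hx₀b i), fun i => ?_⟩
  -- lift the monic witness to `(A ∩ K₀)[X][Y]`
  have hlift : P i ∈ Polynomial.lifts (Polynomial.mapRingHom (bcfInc (K₀ := K₀) A)) := by
    rw [Polynomial.lifts_iff_coeff_lifts]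
    intro n
    have h := smib_mem_lifts (K₀ := K₀) A ((P i).coeff n) (hcoef i n)
    rw [Polynomial.lifts_iff_set_range] at h
    exact h
  obtain ⟨P0, hP0, -, hP0m⟩ := Polynomial.lifts_and_degree_eq_and_monic hlift (hPm i)
  refine ⟨P0, hP0m, ?_⟩
  apply bcfHom_injective K₀ L (modularFunctionFieldFull M)
  rw [map_zero, Polynomial.hom_eval₂, smib_comp A M t t₀ ht]
  have hbi : bcfHom K₀ L (modularFunctionFieldFull M) ⟨x₀ i, hx₀ i⟩ = b i :=
    Subtype.ext (hx₀b i)
  rw [hbi, ← Polynomial.eval₂_map, hP0]
  exact hP i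

end Abstract

/-- **Descent of an integral family over `ℚ̄`**: a finite family of elements of the level-`N'`
function field over `ℚ̄`, integral over `A[t]`, descends (with integrality over `(A ∩ K0)[t₀]`) to
every intermediate field `K0` containing a suitable finite set. -/
theorem smib_main (N' : ℕ) [NeZero N'] (A : ValuationSubring Qb) {d : ℕ}
    (t : ↥(modularFunctionFieldBar N')) (b : Fin d → ↥(modularFunctionFieldBar N'))
    (hb : ∀ i, ((((Polynomial.aeval t : Qb[X] →ₐ[Qb] ↥(modularFunctionFieldBar N')) :
      Qb[X] →+* _).comp (Polynomial.mapRingHom A.subtype)).IsIntegralElem (b i))) :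
    ∃ T : Finset Qb, ∀ (K0 : IntermediateField ℚ Qb), (∀ c ∈ T, c ∈ K0) →
      smibStmt ↥K0 A N' t b := by
  classical
  choose P hPm hP using hb
  have hdesc : ∀ i, ∃ T : Finset Qb, ∀ K₀ : IntermediateField ℚ Qb, (∀ c ∈ T, c ∈ K₀) →
      ∃ x₀ ∈ laurentBaseChange K₀ (modularFunctionFieldFull N'),
        coeffMap (algebraMap K₀ Qb) x₀ = ((b i : ↥(modularFunctionFieldBar N')) :
          LaurentSeries Qb) :=
    fun i => dvd_descend_bc Qb (modularFunctionFieldFull N') _ (b i).2
  choose T2 hT2 using hdesc
  refine ⟨(Finset.univ.biUnion fun i => (P i).support.biUnion fun n =>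
      ((P i).coeff n).support.image fun m => ((((P i).coeff n).coeff m : ↥A) : Qb)) ∪
      Finset.univ.biUnion T2, fun K0 hK0 => ?_⟩
  refine smib_of_lift (K₀ := ↥K0) A N' t b P hPm hP ?_ ?_
  · intro i n m
    by_cases h0 : ((P i).coeff n).coeff m = 0
    · exact ⟨0, by rw [h0, map_zero]; rfl⟩
    · have hn : n ∈ (P i).support := by
        rw [Polynomial.mem_support_iff]
        intro h1
        exact h0 (by rw [h1, Polynomial.coeff_zero])
      have hm : m ∈ ((P i).coeff n).support := Polynomial.mem_support_iff.mpr h0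
      have hmem : ((((P i).coeff n).coeff m : ↥A) : Qb) ∈ K0 := by
        refine hK0 _ (Finset.mem_union_left _ ?_)
        rw [Finset.mem_biUnion]
        refine ⟨i, Finset.mem_univ i, ?_⟩
        rw [Finset.mem_biUnion]
        exact ⟨n, hn, Finset.mem_image_of_mem _ hm⟩
      exact ⟨⟨_, hmem⟩, rfl⟩
  · intro i
    exact hT2 i K0 fun c hc => hK0 c (Finset.mem_union_right _
      (Finset.mem_biUnion.mpr ⟨i, Finset.mem_univ i, hc⟩))

end Fermat.Agent.S18
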