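import Mathlib
import Fermat.Agent.S18.CoreInst

/-!
# S18, package SM-INST, K0 side: the kernel hypothesis of the chart ring

`smik_hker`: for a discrete valuation subring `A0` of a field `K0` of characteristic zero over the
prime `ℓ`, a level `M` prime to `ℓ`, a Hauptmodul record `H` and the chart coordinate
`t = (h - c1) / (h - c0)` (`c0, c1 ∈ A0` with distinct residues) of the level-`M` function field
over `K0`: an element of the chart ring `chtO A0 {t}` that is a non-unit of the Gauss valuation
ring `grO A0` is `τ` times an element of the chart ring (`τ` a uniformizer of `A0`).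
-/

set_option autoImplicit false
set_option linter.unusedSectionVars false

noncomputable section

open ModularCurve Polynomial
open Fermat.Agent.S28
open scoped IntermediateField

namespace Fermat.Agent.S18

/-- **The kernel hypothesis on a Hauptmodul chart**: `chtO A0 {t} ∩ m_V = τ · chtO A0 {t}` for
the Gauss valuation ring `V = grO A0`. -/
theorem smik_hker {K0 : Type*} [Field K0] [Algebra ℚ K0] (A0 : ValuationSubring K0)
    [IsDiscreteValuationRing A0] {ℓ : ℕ} [Fact ℓ.Prime] (hA0 : A0.LiesOverPrime ℓ) (M : ℕ)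
    [NeZero M] (hℓM : ¬ ℓ ∣ M) {a2 : ℕ} (H : HauptRec a2 ℓ)
    [Algebra A0 ↥(laurentBaseChange K0 (modularFunctionFieldFull M))]
    [IsScalarTower A0 K0 ↥(laurentBaseChange K0 (modularFunctionFieldFull M))]
    (c0 c1 : A0) (hc : IsLocalRing.residue A0 c0 ≠ IsLocalRing.residue A0 c1)
    (t : ↥(laurentBaseChange K0 (modularFunctionFieldFull M)))
    (ht : (t : LaurentSeries K0) = cinstU H K0 (c0 : K0) (c1 : K0))
    (τ : A0) (hτ : Irreducible τ)
    (x : ↥(laurentBaseChange K0 (modularFunctionFieldFull M))) (hx : x ∈ chtO A0 {t})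
    (hxV : x ∈ (grO A0 hA0 M hℓM).nonunits) :
    ∃ y ∈ chtO A0 {t},
      x = algebraMap A0 ↥(laurentBaseChange K0 (modularFunctionFieldFull M)) τ * y := by
  classical
  have : CharZero K0 := algebraRat.charZero K0
  have hVG : ∀ x : ↥(laurentBaseChange K0 (modularFunctionFieldFull M)),
      x ∈ grO A0 hA0 M hℓM ↔ (x : LaurentSeries K0) ∈ grV A0 := fun x => Iff.rfl
  have hgdv : ∀ x ∈ laurentBaseChange K0 (modularFunctionFieldFull M), gdvProp A0 x :=
    fun x hx => gdv_full_le A0 M hx
  have hmap : ∀ a : A0, algebraMap A0 ↥(laurentBaseChange K0 (modularFunctionFieldFull M)) a =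
      algebraMap K0 ↥(laurentBaseChange K0 (modularFunctionFieldFull M)) (a : K0) := fun a =>
    IsScalarTower.algebraMap_apply A0 K0 ↥(laurentBaseChange K0 (modularFunctionFieldFull M)) a
  have hτmax : τ ∈ IsLocalRing.maximalIdeal A0 := by
    rw [IsLocalRing.mem_maximalIdeal, mem_nonunits_iff]
    exact hτ.not_isUnit
  -- the constants
  have hA : ∀ a : A0, algebraMap A0 ↥(laurentBaseChange K0 (modularFunctionFieldFull M)) a ∈
      grO A0 hA0 M hℓM := fun a => by
    rw [hmap]
    exact (cinst_algebraMap_mem_iff (grO A0 hA0 M hℓM) hVG _).mpr a.2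
  have hτV : algebraMap A0 ↥(laurentBaseChange K0 (modularFunctionFieldFull M)) τ ∈
      (grO A0 hA0 M hℓM).nonunits := by
    rw [hmap]
    exact cinst_algebraMap_mem_nonunits (grO A0 hA0 M hℓM) hVG τ hτmax
  have hτF : algebraMap A0 ↥(laurentBaseChange K0 (modularFunctionFieldFull M)) τ ≠ 0 := by
    rw [hmap, Ne, map_eq_zero]
    intro h0
    exact hτ.ne_zero (Subtype.ext h0)
  have hτgen : ∀ x ∈ (grO A0 hA0 M hℓM).nonunits,
      x * (algebraMap A0 ↥(laurentBaseChange K0 (modularFunctionFieldFull M)) τ)⁻¹ ∈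
        grO A0 hA0 M hℓM := by
    intro x hx
    obtain ⟨y, hy, hxy⟩ := cinst_nonunits_eq_mul (grO A0 hA0 M hℓM) hVG hgdv τ
      hτ.maximalIdeal_eq x hx
    rw [hxy, ← hmap, mul_comm, ← mul_assoc, inv_mul_cancel₀ hτF, one_mul]
    exact hy
  -- the chart coordinate
  have hc' : (c0 : K0) ≠ (c1 : K0) := by
    intro h0
    apply hc
    rw [Subtype.ext h0]
  have htt : Transcendental K0 t := cinst_transcendental_t M H _ _ hc' t ht
  -- the residue of the chart coordinate is transcendental
  have hres : Transcendental (IsLocalRing.ResidueField A0)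
      (cinstU H (IsLocalRing.ResidueField A0) (IsLocalRing.residue A0 c0)
        (IsLocalRing.residue A0 c1)) :=
    cinstU_transcendental H _ _ _ hc
  have hG : ∀ p : A0[X], (∃ i, ¬ τ ∣ p.coeff i) →
      aeval t p ∉ (grO A0 hA0 M hℓM).nonunits := by
    rintro p ⟨i, hi⟩ hmem
    rw [cinst_mem_nonunits_iff (grO A0 hA0 M hℓM) hVG] at hmem
    obtain ⟨hmemV, hρ⟩ := hmem
    have hcoe : ((aeval t p : ↥(laurentBaseChange K0 (modularFunctionFieldFull M))) :
        LaurentSeries K0) = aeval (cinstU H K0 (c0 : K0) (c1 : K0)) (p.map A0.subtype) := by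
      rw [← ht, aeval_def, aeval_def, eval₂_map]
      have h1 := Polynomial.hom_eval₂ p
        (algebraMap A0 ↥(laurentBaseChange K0 (modularFunctionFieldFull M)))
        (laurentBaseChange K0 (modularFunctionFieldFull M)).val.toRingHom t
      refine h1.trans ?_
      congr 1
      refine RingHom.ext fun a => ?_
      show ((algebraMap A0 ↥(laurentBaseChange K0 (modularFunctionFieldFull M)) a :
        ↥(laurentBaseChange K0 (modularFunctionFieldFull M))) : LaurentSeries K0) = _
      rw [hmap]
      rfl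
    have hρ' := gab_rho_aeval (gr_gabHyp A0) ⟨cinstU H K0 (c0 : K0) (c1 : K0),
      cinstU_mem_grV H A0 c0 c1⟩ p
    rw [cinstU_grRho] at hρ'
    have hzero : aeval (cinstU H (IsLocalRing.ResidueField A0) (IsLocalRing.residue A0 c0)
        (IsLocalRing.residue A0 c1)) (p.map (IsLocalRing.residue A0)) = 0 := by
      rw [← hρ', ← hρ]
      congr 1
      exact Subtype.ext hcoe.symm
    have hp0 : p.map (IsLocalRing.residue A0) = 0 := by
      by_contra hne
      exact hres ⟨_, hne, hzero⟩
    have hci : IsLocalRing.residue A0 (p.coeff i) = 0 := by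
      rw [← coeff_map, hp0, coeff_zero]
    rw [IsLocalRing.residue_eq_zero_iff, hτ.maximalIdeal_eq, Ideal.mem_span_singleton] at hci
    exact hi hci
  -- finiteness and uniqueness over `K0(t)` from those over `K0(j)`
  have hL := cinst_adjoin_grJ_le M H _ _ hc' t ht
  obtain ⟨b, -, hspan, -, -⟩ := gr_hind_j A0 hA0 M hℓM
  have hfin := cht_hfin_of_span (A0 := A0) (K0 := K0) (L := ↥K0⟮grJ K0 M⟯) t htt hL b hspan
  have huniq := cht_huniq_of_sub (K0 := K0) (L := ↥K0⟮grJ K0 M⟯) (grO A0 hA0 M hℓM) t hL
    (gr_unique_j A0 hA0 M hℓM)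
  exact cht_hVtau (K0 := K0) (grO A0 hA0 M hℓM) hA hτ hτV hτgen t htt hG hfin huniq x hx hxV

end Fermat.Agent.S18
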