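import Mathlib
import Fermat.Agent.S18.BaseChangeField

/-!
# S18, package SM-INST: the residue field of a valuation ring is algebraic over the residue
field of its trace on a subfield

`L / K₀` an algebraic extension of fields, `A : ValuationSubring L`, `A₀ = A ∩ K₀`.  Then the
residue field of `A` is algebraic (integral) over the residue field of `A₀`
(`sminst_bcfResMap_isIntegral`).
-/

set_option autoImplicit false

noncomputable section

open Polynomial

namespace Fermat.Agent.S18

/-- The residue field of `A` is integral over the residue field of `A ∩ K₀` when `L / K₀` is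
algebraic. -/
theorem sminst_bcfResMap_isIntegral {K₀ L : Type*} [Field K₀] [Field L] [Algebra K₀ L]
    [Algebra.IsAlgebraic K₀ L] (A : ValuationSubring L) :
    (bcfResMap (K₀ := K₀) A).IsIntegral := by
  classical
  intro c
  obtain ⟨a, rfl⟩ := IsLocalRing.residue_surjective c
  obtain ⟨p, hp0, hpa⟩ := Algebra.IsAlgebraic.isAlgebraic (R := K₀) (a : L)
  have hsupp : p.support.Nonempty := Polynomial.nonempty_support_iff.mpr hp0
  obtain ⟨m, hm, hmax⟩ := Finset.exists_max_image p.support
    (fun i => (A.comap (algebraMap K₀ L)).valuation (p.coeff i)) hsupp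
  have hcm : p.coeff m ≠ 0 := Polynomial.mem_support_iff.mp hm
  have hv0 : 0 < (A.comap (algebraMap K₀ L)).valuation (p.coeff m) :=
    zero_lt_iff.mpr ((Valuation.ne_zero_iff _).mpr hcm)
  have hq_mem : ∀ i, (p.coeff m)⁻¹ * p.coeff i ∈ A.comap (algebraMap K₀ L) := by
    intro i
    by_cases hi : p.coeff i = 0
    · rw [hi, mul_zero]
      exact (A.comap (algebraMap K₀ L)).zero_mem
    · rw [← ValuationSubring.valuation_le_one_iff, map_mul, map_inv₀, mul_comm,
        ← div_eq_mul_inv, div_le_one₀ hv0]
      exact hmax i (Polynomial.mem_support_iff.mpr hi)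
  have hl : (C (p.coeff m)⁻¹ * p) ∈ Polynomial.lifts (A.comap (algebraMap K₀ L)).subtype := by
    rw [Polynomial.lifts_iff_coeff_lifts]
    intro n
    rw [coeff_C_mul]
    exact ⟨⟨_, hq_mem n⟩, rfl⟩
  obtain ⟨q0, hq0⟩ := (Polynomial.mem_lifts _).mp hl
  -- the coefficient `m` of `q0` is `1`
  have hq0m : q0.coeff m = 1 := by
    apply Subtype.ext
    have h1 : ((q0.coeff m : ↥(A.comap (algebraMap K₀ L))) : K₀) =
        (q0.map (A.comap (algebraMap K₀ L)).subtype).coeff m := by
      rw [coeff_map]
      rfl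
    rw [h1, hq0, coeff_C_mul, inv_mul_cancel₀ hcm]
    rfl
  have hqbar : q0.map (IsLocalRing.residue ↥(A.comap (algebraMap K₀ L))) ≠ 0 := by
    intro h0
    have h1 := congrArg (fun r => Polynomial.coeff r m) h0
    simp only [coeff_map, coeff_zero, hq0m, map_one] at h1
    exact one_ne_zero h1
  -- it kills the residue of `a`
  have hzero : (q0.map (IsLocalRing.residue ↥(A.comap (algebraMap K₀ L)))).eval₂
      (bcfResMap (K₀ := K₀) A) (IsLocalRing.residue ↥A a) = 0 := by
    rw [eval₂_map]
    have hcomp : (bcfResMap (K₀ := K₀) A).comp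
        (IsLocalRing.residue ↥(A.comap (algebraMap K₀ L))) =
        (IsLocalRing.residue ↥A).comp (bcfInc A) := RingHom.ext fun x => rfl
    rw [hcomp, ← hom_eval₂]
    have h2 : q0.eval₂ (bcfInc A) a = 0 := by
      apply Subtype.ext
      have h3 : ((q0.eval₂ (bcfInc A) a : ↥A) : L) =
          q0.eval₂ (A.subtype.comp (bcfInc A)) (A.subtype a) :=
        Polynomial.hom_eval₂ q0 (bcfInc A) A.subtype a
      have hcomp2 : A.subtype.comp (bcfInc (K₀ := K₀) A) =
          (algebraMap K₀ L).comp (A.comap (algebraMap K₀ L)).subtype := RingHom.ext fun x => rfl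
      rw [h3, hcomp2, ← eval₂_map, hq0, eval₂_mul, eval₂_C]
      have h4 : p.eval₂ (algebraMap K₀ L) (A.subtype a) = 0 := hpa
      rw [h4, mul_zero]
      rfl
    rw [h2, map_zero]
  refine ⟨q0.map (IsLocalRing.residue ↥(A.comap (algebraMap K₀ L))) *
    C (q0.map (IsLocalRing.residue ↥(A.comap (algebraMap K₀ L)))).leadingCoeff⁻¹,
    Polynomial.monic_mul_leadingCoeff_inv hqbar, ?_⟩
  rw [eval₂_mul, hzero, zero_mul]

end Fermat.Agent.S18
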