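import Mathlib
import Fermat.Agent.S18.SMInstAbs
import Fermat.Agent.S18.SMInstDefs
import Fermat.Agent.S18.SMInstRes
import Fermat.Agent.S18.GaussChart
import Fermat.Agent.S18.CoreInstFinal
import Fermat.Agent.S18.BaseChangeField
import Fermat.Agent.S18.ValExt
import Fermat.Agent.S18.SMInstKer
import Fermat.Agent.S18.SMInstDescB
import Fermat.Agent.S18.SMInstChoice

/-!
# S18, package SM-INST: the special fibre of a Hauptmodul chart over a field of definition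

`K₀ ⊆ L` algebraic, `A : ValuationSubring L` over `ℓ`, `A₀ = A ∩ K₀` a discrete valuation ring.
`sminst_chart`: the special fibre of the chart `chtO A₀ {t₀}` of the level-`M` function field
over `K₀` is a Dedekind domain, given
* the kernel statement (`hker`: an element of the chart ring which is a non-unit of the Gauss
  valuation ring is `τ` times an element of the chart ring),
* a family `b0` of `ψ(M)/ψ(a2)` elements integral over `A₀[t₀]` whose residues over `L` are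
  `k[t̄]`-independent and span the `k[t̄]`-integral elements of the residue field.
-/

set_option autoImplicit false
set_option linter.style.haveILetI false
set_option linter.unusedSectionVars false

noncomputable section

open ModularCurve Polynomial
open scoped IntermediateField

namespace Fermat.Agent.S18

open Fermat.Agent.S28

section Chart

variable {K₀ L : Type*} [Field K₀] [Field L] [Algebra ℚ K₀] [Algebra ℚ L] [Algebra K₀ L]
  [Algebra.IsAlgebraic K₀ L]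
  (A : ValuationSubring L) {ℓ : ℕ} [Fact ℓ.Prime] (hA : A.LiesOverPrime ℓ)
  (M : ℕ) [NeZero M] (hℓM : ¬ ℓ ∣ M) {a2 : ℕ} (H : HauptRec a2 ℓ)

local notation "Ac" => ValuationSubring.comap A (algebraMap K₀ L)
set_option quotPrecheck false in
local notation "Fm" => ↥(laurentBaseChange K₀ (modularFunctionFieldFull M))
set_option quotPrecheck false in
local notation "kc" => IsLocalRing.ResidueField ↥(ValuationSubring.comap A (algebraMap K₀ L))
set_option quotPrecheck false in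
local notation "kA" => IsLocalRing.ResidueField ↥A

/-- compatibility of the residue maps of the Gauss valuation rings of the function fields over
`K₀` and `L` -/
theorem sminst_grRes_bcf (hA₀ : (A.comap (algebraMap K₀ L)).LiesOverPrime ℓ)
    (x : ↥(laurentBaseChange K₀ (modularFunctionFieldFull M)))
    (hx : x ∈ grO (A.comap (algebraMap K₀ L)) hA₀ M hℓM)
    (hx' : bcfHom K₀ L (modularFunctionFieldFull M) x ∈ grO A hA M hℓM) :
    coeffMap (bcfResMap (K₀ := K₀) A) (grRes (A.comap (algebraMap K₀ L)) hA₀ M hℓM ⟨x, hx⟩) =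
      grRes A hA M hℓM ⟨bcfHom K₀ L (modularFunctionFieldFull M) x, hx'⟩ :=
  (bcf_grRho A ⟨(x : LaurentSeries K₀), hx⟩).symm

set_option maxHeartbeats 1600000 in
/-- **One chart over a field of definition.**  The special fibre of the chart `chtO A₀ {t₀}` is
a Dedekind domain. -/
theorem sminst_chart (A₀ : ValuationSubring K₀) (hA₀A : A₀ = A.comap (algebraMap K₀ L))
    [IsDiscreteValuationRing A₀] (hA₀ : A₀.LiesOverPrime ℓ)
    (c0 c1 : K₀) (hc0 : c0 ∈ A₀) (hc1 : c1 ∈ A₀) (hne : c0 ≠ c1) (h01 : (c0 - c1)⁻¹ ∈ A₀)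
    (t₀ : ↥(laurentBaseChange K₀ (modularFunctionFieldFull M)))
    (ht₀ : (t₀ : LaurentSeries K₀) = cinstU H K₀ c0 c1)
    [Algebra A₀ ↥(laurentBaseChange K₀ (modularFunctionFieldFull M))]
    [IsScalarTower A₀ K₀ ↥(laurentBaseChange K₀ (modularFunctionFieldFull M))]
    (τ : A₀) (hτ : Irreducible τ)
    (hker : ∀ x ∈ chtO A₀ {t₀}, x ∈ (grO A₀ hA₀ M hℓM).nonunits →
      ∃ y ∈ chtO A₀ {t₀},
        x = algebraMap A₀ ↥(laurentBaseChange K₀ (modularFunctionFieldFull M)) τ * y)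
    (b0 : Fin (psi M / psi a2) → ↥(laurentBaseChange K₀ (modularFunctionFieldFull M)))
    (hb0 : ∀ i, (((aeval t₀ : K₀[X] →ₐ[K₀] ↥(laurentBaseChange K₀ (modularFunctionFieldFull M))) :
      K₀[X] →+* ↥(laurentBaseChange K₀ (modularFunctionFieldFull M))).comp
        (Polynomial.mapRingHom A₀.subtype)).IsIntegralElem (b0 i))
    (htV : bcfHom K₀ L (modularFunctionFieldFull M) t₀ ∈ grO A hA M hℓM)
    (hbV : ∀ i, bcfHom K₀ L (modularFunctionFieldFull M) (b0 i) ∈ grO A hA M hℓM)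
    (hli : ∀ g : Fin (psi M / psi a2) → (IsLocalRing.ResidueField A)[X],
      ∑ i, aeval (grRes A hA M hℓM ⟨_, htV⟩) (g i) * grRes A hA M hℓM ⟨_, hbV i⟩ = 0 →
        ∀ i, g i = 0)
    (hspan : ∀ y : ↥(grO A hA M hℓM),
      ((aeval (grRes A hA M hℓM ⟨_, htV⟩) :
          (IsLocalRing.ResidueField A)[X] →ₐ[IsLocalRing.ResidueField A]
            LaurentSeries (IsLocalRing.ResidueField A)) :
          (IsLocalRing.ResidueField A)[X] →+*
            LaurentSeries (IsLocalRing.ResidueField A)).IsIntegralElem (grRes A hA M hℓM y) →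
      ∃ g : Fin (psi M / psi a2) → (IsLocalRing.ResidueField A)[X],
        grRes A hA M hℓM y =
          ∑ i, aeval (grRes A hA M hℓM ⟨_, htV⟩) (g i) * grRes A hA M hℓM ⟨_, hbV i⟩) :
    IsDedekindDomain (chtO A₀ {t₀} ⧸ Ideal.span {algebraMap A₀ (chtO A₀ {t₀}) τ}) := by
  classical
  subst hA₀A
  have hVG : ∀ x : ↥(laurentBaseChange K₀ (modularFunctionFieldFull M)),
      x ∈ grO (A.comap (algebraMap K₀ L)) hA₀ M hℓM ↔
        (x : LaurentSeries K₀) ∈ grV (A.comap (algebraMap K₀ L)) := fun x => Iff.rfl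
  have hgdv : ∀ x ∈ laurentBaseChange K₀ (modularFunctionFieldFull M),
      gdvProp (A.comap (algebraMap K₀ L)) x := fun x hx => gdv_full_le _ M hx
  have hmap : ∀ a : ↥(A.comap (algebraMap K₀ L)),
      algebraMap ↥(A.comap (algebraMap K₀ L))
        ↥(laurentBaseChange K₀ (modularFunctionFieldFull M)) a =
      algebraMap K₀ ↥(laurentBaseChange K₀ (modularFunctionFieldFull M)) (a : K₀) := fun a =>
    IsScalarTower.algebraMap_apply _ K₀ _ a
  have hAmem : ∀ a : ↥(A.comap (algebraMap K₀ L)),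
      algebraMap K₀ ↥(laurentBaseChange K₀ (modularFunctionFieldFull M)) (a : K₀) ∈
        grO (A.comap (algebraMap K₀ L)) hA₀ M hℓM := fun a =>
    (cinst_algebraMap_mem_iff (grO (A.comap (algebraMap K₀ L)) hA₀ M hℓM) hVG _).mpr a.2
  have htV₀ : t₀ ∈ grO (A.comap (algebraMap K₀ L)) hA₀ M hℓM :=
    gch_mem _ hA₀ M hℓM H hc0 hc1 t₀ ht₀
  have htr₀ : Transcendental (IsLocalRing.ResidueField ↥(A.comap (algebraMap K₀ L)))
      (grRes (A.comap (algebraMap K₀ L)) hA₀ M hℓM ⟨t₀, htV₀⟩) :=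
    gch_transcendental _ hA₀ M hℓM H hc0 hc1 hne h01 t₀ ht₀ htV₀
  have hτmax : τ ∈ IsLocalRing.maximalIdeal ↥Ac := by
    rw [IsLocalRing.mem_maximalIdeal, mem_nonunits_iff]
    exact hτ.not_isUnit
  have hτF : algebraMap K₀ Fm (τ : K₀) ≠ 0 := by
    rw [Ne, map_eq_zero]
    intro h0
    exact hτ.ne_zero (Subtype.ext h0)
  -- the polynomial algebra
  letI : Algebra (↥Ac)[X] Fm := ((aeval t₀ : (↥Ac)[X] →ₐ[↥Ac] Fm) : (↥Ac)[X] →+* Fm).toAlgebra
  refine cht_dedekind_bridge t₀ τ (fun p => rfl) ?_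
  have hhomeq : algebraMap (↥Ac)[X] Fm =
      ((aeval t₀ : K₀[X] →ₐ[K₀] Fm) : K₀[X] →+* Fm).comp (Polynomial.mapRingHom (Ac).subtype) := by
    refine Polynomial.ringHom_ext (fun a => ?_) ?_
    · show aeval t₀ (C a) = aeval t₀ ((C a).map (Ac).subtype)
      rw [aeval_C, map_C, aeval_C, hmap]
      rfl
    · show aeval t₀ X = aeval t₀ ((X : (↥Ac)[X]).map (Ac).subtype)
      rw [aeval_X, map_X, aeval_X]
  have hhom : ∀ p : (↥Ac)[X], algebraMap (↥Ac)[X] Fm p = aeval t₀ (p.map (Ac).subtype) := fun p => by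
    rw [hhomeq]
    rfl
  have hCτ : algebraMap (↥Ac)[X] Fm (C τ) = algebraMap K₀ Fm (τ : K₀) := by
    rw [hhom, map_C, aeval_C]
    rfl
  have hAV : ∀ p : (↥Ac)[X], algebraMap (↥Ac)[X] Fm p ∈ grO Ac hA₀ M hℓM := by
    intro p
    rw [hhom, aeval_eq_sum_range]
    refine sum_mem fun i _ => ?_
    rw [coeff_map, Algebra.smul_def]
    exact mul_mem (hAmem (p.coeff i)) (pow_mem htV₀ i)
  -- the residue of the coordinate
  have htbar : Transcendental kc (smiRho Ac hA₀ M hℓM ⟨t₀, htV₀⟩) := by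
    intro halg
    exact htr₀ (halg.algHom (smiVal Ac M))
  have hval : ∀ r : kc[X],
      smiVal Ac M (aeval (smiRho Ac hA₀ M hℓM ⟨t₀, htV₀⟩) r) =
        aeval (grRes Ac hA₀ M hℓM ⟨t₀, htV₀⟩) r := fun r =>
    (Polynomial.aeval_algHom_apply (smiVal Ac M) (smiRho Ac hA₀ M hℓM ⟨t₀, htV₀⟩) r).symm
  -- `hf0`
  have hf0 : ∀ p : (↥Ac)[X], smiRho Ac hA₀ M hℓM ⟨algebraMap (↥Ac)[X] Fm p, hAV p⟩ =
      ((aeval (smiRho Ac hA₀ M hℓM ⟨t₀, htV₀⟩) : kc[X] →ₐ[kc] SmiKappa Ac M) :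
        kc[X] →+* SmiKappa Ac M) (p.map (IsLocalRing.residue ↥Ac)) := by
    let g : (↥Ac)[X] →+* ↥(grO Ac hA₀ M hℓM) :=
      (algebraMap (↥Ac)[X] Fm).codRestrict (grO Ac hA₀ M hℓM).toSubring hAV
    have hcomp : (smiRho Ac hA₀ M hℓM).comp g =
        (((aeval (smiRho Ac hA₀ M hℓM ⟨t₀, htV₀⟩) : kc[X] →ₐ[kc] SmiKappa Ac M) :
          kc[X] →+* SmiKappa Ac M)).comp (Polynomial.mapRingHom (IsLocalRing.residue ↥Ac)) := by
      refine Polynomial.ringHom_ext (fun a => ?_) ?_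
      · show smiRho Ac hA₀ M hℓM (g (C a)) =
          aeval (smiRho Ac hA₀ M hℓM ⟨t₀, htV₀⟩) ((C a).map (IsLocalRing.residue ↥Ac))
        rw [map_C, aeval_C, ← smiRho_algebraMap Ac hA₀ M hℓM a (hAmem a)]
        congr 1
        apply Subtype.ext
        show algebraMap (↥Ac)[X] Fm (C a) = _
        rw [hhom, map_C, aeval_C]
        rfl
      · show smiRho Ac hA₀ M hℓM (g X) =
          aeval (smiRho Ac hA₀ M hℓM ⟨t₀, htV₀⟩) ((X : (↥Ac)[X]).map (IsLocalRing.residue ↥Ac))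
        rw [map_X, aeval_X]
        congr 1
        apply Subtype.ext
        show algebraMap (↥Ac)[X] Fm X = _
        rw [hhom, map_X, aeval_X]
    intro p
    exact congrArg (fun h : (↥Ac)[X] →+* SmiKappa Ac M => h p) hcomp
  -- the kernel
  have hτdvd : ∀ a : ↥Ac, IsLocalRing.residue ↥Ac a = 0 ↔ τ ∣ a := fun a => by
    rw [IsLocalRing.residue_eq_zero_iff, hτ.maximalIdeal_eq, Ideal.mem_span_singleton]
  have hgen : ∀ x ∈ (grO Ac hA₀ M hℓM).nonunits, ∃ y ∈ grO Ac hA₀ M hℓM,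
      x = algebraMap (↥Ac)[X] Fm (C τ) * y := by
    intro x hx
    obtain ⟨y, hy, hxy⟩ := cinst_nonunits_eq_mul (grO Ac hA₀ M hℓM) hVG hgdv τ
      hτ.maximalIdeal_eq x hx
    exact ⟨y, hy, by rw [hCτ]; exact hxy⟩
  have hτV : algebraMap K₀ Fm (τ : K₀) ∈ (grO Ac hA₀ M hℓM).nonunits :=
    cinst_algebraMap_mem_nonunits (grO Ac hA₀ M hℓM) hVG τ hτmax
  have h5 : ∀ x y : Fm, IsIntegral (↥Ac)[X] x → y ∈ grO Ac hA₀ M hℓM →
      x = algebraMap (↥Ac)[X] Fm (C τ) * y → IsIntegral (↥Ac)[X] y := by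
    intro x y hx hy hxy
    have hx' : x ∈ chtO ↥Ac {t₀} := (cht_mem_iff_isIntegral_poly t₀ (fun p => rfl) x).mpr hx
    have hxV : x ∈ (grO Ac hA₀ M hℓM).nonunits := by
      rw [hxy, hCτ, ValuationSubring.mem_nonunits_iff, map_mul]
      have h1 := (ValuationSubring.mem_nonunits_iff _).mp hτV
      have h2 := ((grO Ac hA₀ M hℓM).valuation_le_one_iff y).mpr hy
      exact mul_lt_one_of_lt_of_le h1 h2
    obtain ⟨y', hy', hxy'⟩ := hker x hx' hxV
    have hyy : y = y' := by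
      rw [hxy, hCτ, hmap] at hxy'
      exact mul_left_cancel₀ hτF hxy'
    rw [hyy]
    exact (cht_mem_iff_isIntegral_poly t₀ (fun p => rfl) y').mp hy'
  -- the degree bound
  have hfin : ∃ c : Fin (psi M / psi a2) → SmiKappa Ac M, ∀ x : SmiKappa Ac M,
      ∃ (p : Fin (psi M / psi a2) → kc[X]) (q : kc[X]), q ≠ 0 ∧
        ((aeval (smiRho Ac hA₀ M hℓM ⟨t₀, htV₀⟩) : kc[X] →ₐ[kc] SmiKappa Ac M) :
          kc[X] →+* SmiKappa Ac M) q * x =
        ∑ i, ((aeval (smiRho Ac hA₀ M hℓM ⟨t₀, htV₀⟩) : kc[X] →ₐ[kc] SmiKappa Ac M) :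
          kc[X] →+* SmiKappa Ac M) (p i) * c i := by
    obtain ⟨c, hc⟩ := gch_residue_span Ac hA₀ M hℓM H hc0 hc1 hne h01 t₀ ht₀ htV₀
    refine ⟨fun i => smiRho Ac hA₀ M hℓM (c i), fun x => ?_⟩
    obtain ⟨x', rfl⟩ := smiRho_surjective Ac hA₀ M hℓM x
    obtain ⟨p, q, hq, hpq⟩ := hc x'
    refine ⟨p, q, hq, ?_⟩
    apply smiVal_injective Ac M
    rw [map_mul, map_sum]
    show smiVal Ac M (aeval (smiRho Ac hA₀ M hℓM ⟨t₀, htV₀⟩) q) *
      smiVal Ac M (smiRho Ac hA₀ M hℓM x') = _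
    rw [hval, smiVal_smiRho, hpq]
    refine Finset.sum_congr rfl fun i _ => ?_
    rw [map_mul]
    show _ = smiVal Ac M (aeval (smiRho Ac hA₀ M hℓM ⟨t₀, htV₀⟩) (p i)) *
      smiVal Ac M (smiRho Ac hA₀ M hℓM (c i))
    rw [hval, smiVal_smiRho]
  -- the comparison with the residue field over `L`
  have hj : ∀ r : kc[X],
      ((coeffMap (bcfResMap (K₀ := K₀) A)).comp
        ((smiVal Ac M : SmiKappa Ac M →ₐ[kc] LaurentSeries kc) :
          SmiKappa Ac M →+* LaurentSeries kc))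
        (((aeval (smiRho Ac hA₀ M hℓM ⟨t₀, htV₀⟩) : kc[X] →ₐ[kc] SmiKappa Ac M) :
          kc[X] →+* SmiKappa Ac M) r) =
      ((aeval (grRes A hA M hℓM ⟨_, htV⟩) : kA[X] →ₐ[kA] LaurentSeries kA) :
        kA[X] →+* LaurentSeries kA) (r.map (bcfResMap (K₀ := K₀) A)) := by
    have hcomp : (coeffMap (bcfResMap (K₀ := K₀) A)).comp
        ((aeval (grRes Ac hA₀ M hℓM ⟨t₀, htV₀⟩) : kc[X] →ₐ[kc] LaurentSeries kc) :
          kc[X] →+* LaurentSeries kc) =
        ((aeval (grRes A hA M hℓM ⟨_, htV⟩) : kA[X] →ₐ[kA] LaurentSeries kA) :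
          kA[X] →+* LaurentSeries kA).comp (Polynomial.mapRingHom (bcfResMap (K₀ := K₀) A)) := by
      refine Polynomial.ringHom_ext (fun a => ?_) ?_
      · show coeffMap (bcfResMap (K₀ := K₀) A) (aeval (grRes Ac hA₀ M hℓM ⟨t₀, htV₀⟩) (C a)) =
          aeval (grRes A hA M hℓM ⟨_, htV⟩) ((C a).map (bcfResMap (K₀ := K₀) A))
        rw [aeval_C, map_C, aeval_C]
        exact cinst_coeffMap_algebraMap _ a
      · show coeffMap (bcfResMap (K₀ := K₀) A) (aeval (grRes Ac hA₀ M hℓM ⟨t₀, htV₀⟩) X) =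
          aeval (grRes A hA M hℓM ⟨_, htV⟩) ((X : kc[X]).map (bcfResMap (K₀ := K₀) A))
        rw [aeval_X, map_X, aeval_X]
        exact sminst_grRes_bcf A hA M hℓM hA₀ t₀ htV₀ htV
    intro r
    show coeffMap (bcfResMap (K₀ := K₀) A)
      (smiVal Ac M (aeval (smiRho Ac hA₀ M hℓM ⟨t₀, htV₀⟩) r)) = _
    rw [hval]
    exact congrArg (fun h : kc[X] →+* LaurentSeries kA => h r) hcomp
  -- the basis
  have hb0' : ∀ i, IsIntegral (↥Ac)[X] (b0 i) := fun i => by
    show (algebraMap (↥Ac)[X] Fm).IsIntegralElem (b0 i)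
    rw [hhomeq]
    exact hb0 i
  have hb0V : ∀ i, b0 i ∈ grO Ac hA₀ M hℓM := fun i =>
    valext_mem_of_isIntegral (grO Ac hA₀ M hℓM) hAV _ (hb0' i)
  refine sminst_dedekind_of_valuation (IsLocalRing.residue ↥Ac) IsLocalRing.residue_surjective
    τ hτdvd (grO Ac hA₀ M hℓM) hAV (smiRho Ac hA₀ M hℓM) (smiRho_surjective Ac hA₀ M hℓM)
    (fun x hx => (smiRho_eq_zero_iff Ac hA₀ M hℓM x).mp hx)
    ((aeval (smiRho Ac hA₀ M hℓM ⟨t₀, htV₀⟩) : kc[X] →ₐ[kc] SmiKappa Ac M) :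
      kc[X] →+* SmiKappa Ac M) hf0 (smi_aeval_injective _ _ htbar) hgen h5 (psi M / psi a2) hfin
    (bcfResMap (K₀ := K₀) A) (sminst_bcfResMap_isIntegral A)
    ((aeval (grRes A hA M hℓM ⟨_, htV⟩) : kA[X] →ₐ[kA] LaurentSeries kA) :
      kA[X] →+* LaurentSeries kA)
    ((coeffMap (bcfResMap (K₀ := K₀) A)).comp
      ((smiVal Ac M : SmiKappa Ac M →ₐ[kc] LaurentSeries kc) :
        SmiKappa Ac M →+* LaurentSeries kc)) hj b0 hb0' hb0V ?_ ?_
  · intro g hg
    refine hli g ?_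
    rw [← hg]
    refine Finset.sum_congr rfl fun i _ => ?_
    congr 1
    exact (sminst_grRes_bcf A hA M hℓM hA₀ (b0 i) (hb0V i) (hbV i)).symm
  · intro x hx
    have hx' : bcfHom K₀ L (modularFunctionFieldFull M) (x : Fm) ∈ grO A hA M hℓM :=
      bcf_grV_mem A x.2
    have hkey : ((coeffMap (bcfResMap (K₀ := K₀) A)).comp
        ((smiVal Ac M : SmiKappa Ac M →ₐ[kc] LaurentSeries kc) :
          SmiKappa Ac M →+* LaurentSeries kc)) (smiRho Ac hA₀ M hℓM x) =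
        grRes A hA M hℓM ⟨_, hx'⟩ := sminst_grRes_bcf A hA M hℓM hA₀ (x : Fm) x.2 hx'
    rw [hkey] at hx ⊢
    obtain ⟨g, hg⟩ := hspan _ hx
    refine ⟨g, ?_⟩
    rw [hg]
    refine Finset.sum_congr rfl fun i _ => ?_
    congr 1
    exact (sminst_grRes_bcf A hA M hℓM hA₀ (b0 i) (hb0V i) (hbV i)).symm

set_option quotPrecheck false in
local notation "FL" => ↥(laurentBaseChange L (modularFunctionFieldFull M))

/-- The residue-field part of the conclusion of (SMQ) for a coordinate `t` and a family `b` of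
the level-`M` function field over `(L, A)`: the residues of the `b i` are independent over
`k[t̄]` and span the residues which are integral over `k[t̄]`. -/
def sminstBasis (t : FL) {d : ℕ} (b : Fin d → FL) : Prop :=
  ∃ (htV : t ∈ grO A hA M hℓM) (hb : ∀ i, b i ∈ grO A hA M hℓM),
    (∀ g : Fin d → kA[X],
      ∑ i, aeval (grRes A hA M hℓM ⟨t, htV⟩) (g i) * grRes A hA M hℓM ⟨b i, hb i⟩ = 0 →
        ∀ i, g i = 0) ∧
    (∀ y : ↥(grO A hA M hℓM),
      ((aeval (grRes A hA M hℓM ⟨t, htV⟩) : kA[X] →ₐ[kA] LaurentSeries kA) :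
          kA[X] →+* LaurentSeries kA).IsIntegralElem (grRes A hA M hℓM y) →
      ∃ g : Fin d → kA[X],
        grRes A hA M hℓM y =
          ∑ i, aeval (grRes A hA M hℓM ⟨t, htV⟩) (g i) * grRes A hA M hℓM ⟨b i, hb i⟩)

/-- **One chart over a field of definition, in the shape `cinstSMChart`.** -/
theorem sminst_chart_stmt [IsDiscreteValuationRing ↥(A.comap (algebraMap K₀ L))]
    (c0 c1 : K₀) (hc0 : algebraMap K₀ L c0 ∈ A) (hc1 : algebraMap K₀ L c1 ∈ A) (hne : c0 ≠ c1)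
    (h01 : (algebraMap K₀ L c0 - algebraMap K₀ L c1)⁻¹ ∈ A)
    (t : FL) (ht : (t : LaurentSeries L) = cinstU H L (algebraMap K₀ L c0) (algebraMap K₀ L c1))
    (b : Fin (psi M / psi a2) → FL)
    (hQ : sminstBasis A hA M hℓM t b) (hdesc : smibStmt K₀ A M t b) :
    cinstSMChart K₀ (A.comap (algebraMap K₀ L)) M H c0 c1 := by
  intro t₀ ht₀ _ _ τ hτ
  have hA₀ : (A.comap (algebraMap K₀ L)).LiesOverPrime ℓ := by
    show ((ℓ : ℕ) : K₀) ∈ (A.comap (algebraMap K₀ L)).nonunits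
    rw [dvd_mem_nonunits_comap, map_natCast]
    exact hA
  have htt : bcfHom K₀ L (modularFunctionFieldFull M) t₀ = t :=
    Subtype.ext (by rw [bcfHom_coe, ht₀, cinstU_coeffMap, ht])
  obtain ⟨b0, hbb, hb0⟩ := hdesc t₀ htt
  obtain ⟨htV, hbV, hli, hspan⟩ := hQ
  subst htt
  obtain rfl : b = fun i => bcfHom K₀ L (modularFunctionFieldFull M) (b0 i) :=
    funext fun i => (hbb i).symm
  have hc0' : c0 ∈ A.comap (algebraMap K₀ L) := hc0
  have hc1' : c1 ∈ A.comap (algebraMap K₀ L) := hc1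
  have h01' : (c0 - c1)⁻¹ ∈ A.comap (algebraMap K₀ L) := by
    show algebraMap K₀ L (c0 - c1)⁻¹ ∈ A
    rw [map_inv₀, map_sub]
    exact h01
  exact sminst_chart A hA M hℓM H (A.comap (algebraMap K₀ L)) rfl hA₀ c0 c1 hc0' hc1' hne h01'
    t₀ ht₀ τ hτ
    (fun x hx hxV => smik_hker (A.comap (algebraMap K₀ L)) hA₀ M hℓM H ⟨c0, hc0'⟩ ⟨c1, hc1'⟩
      (gch_residue_ne _ hc0' hc1' hne h01') t₀ ht₀ τ hτ x hx hxV)
    b0 hb0 htV hbV hli hspan

end Chart

section Concrete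

local notation "Qb" => AlgebraicClosure ℚ

/-- **(SM-INST) from (SMQ).**  The `Qbar`-level statement of (SMQ) for all admissible pairs of
base points (as a hypothesis) gives the special-fibre statement for both charts over every number
field containing a finite set. -/
theorem sminst_of_smq (N' : ℕ) [NeZero N'] {ℓ : ℕ} [Fact ℓ.Prime] (hℓN' : ¬ ℓ ∣ N') {a2 : ℕ}
    (H : HauptRec a2 ℓ) (ha2 : a2 ∣ N') (A : ValuationSubring Qb) (hA : A.LiesOverPrime ℓ)
    (hsmq : ∀ (c0 c1 : Qb) (_ : c0 ∈ A) (_ : c1 ∈ A) (_ : (c0 - c1)⁻¹ ∈ A) (_ : c0 ≠ c1)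
      (_ : (Polynomial.aeval c0 H.Qrad)⁻¹ ∈ A) (_ : Polynomial.aeval c0 H.Qrad ≠ 0)
      (t : ↥(modularFunctionFieldBar N')) (_ : (t : LaurentSeries Qb) = cinstU H Qb c0 c1),
      ∃ (htV : t ∈ grO A hA N' hℓN')
        (b : Fin (psi N' / psi a2) → ↥(modularFunctionFieldBar N'))
        (hb : ∀ i, b i ∈ grO A hA N' hℓN'),
        (∀ i, (((Polynomial.aeval t : Qb[X] →ₐ[Qb] ↥(modularFunctionFieldBar N')) : Qb[X] →+*
            ↥(modularFunctionFieldBar N')).comp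
            (Polynomial.mapRingHom A.subtype)).IsIntegralElem (b i)) ∧
        (∀ g : Fin (psi N' / psi a2) → (IsLocalRing.ResidueField A)[X],
          ∑ i, Polynomial.aeval (grRes A hA N' hℓN' ⟨t, htV⟩) (g i) *
            grRes A hA N' hℓN' ⟨b i, hb i⟩ = 0 → ∀ i, g i = 0) ∧
        (∀ y : ↥(grO A hA N' hℓN'),
          ((Polynomial.aeval (grRes A hA N' hℓN' ⟨t, htV⟩) :
              (IsLocalRing.ResidueField A)[X] →ₐ[IsLocalRing.ResidueField A]
                LaurentSeries (IsLocalRing.ResidueField A)) :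
              (IsLocalRing.ResidueField A)[X] →+*
                LaurentSeries (IsLocalRing.ResidueField A)).IsIntegralElem
            (grRes A hA N' hℓN' y) →
          ∃ g : Fin (psi N' / psi a2) → (IsLocalRing.ResidueField A)[X],
            grRes A hA N' hℓN' y = ∑ i, Polynomial.aeval (grRes A hA N' hℓN' ⟨t, htV⟩) (g i) *
              grRes A hA N' hℓN' ⟨b i, hb i⟩)) :
    cinstSMInst N' H A := by
  classical
  obtain ⟨c0, c1, hc0, hc1, hU01, hUq0, hUq1⟩ := smi2_choice (K := Qb) (A := A) H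
  have hne : c0 ≠ c1 := sub_ne_zero.mp hU01.2.1
  have h01 : (c0 - c1)⁻¹ ∈ A := hU01.2.2
  have h10 : (c1 - c0)⁻¹ ∈ A := by
    rw [← neg_sub, inv_neg]
    exact A.neg_mem _ h01
  obtain ⟨htV, b, hb, hbint, hli, hspan⟩ := hsmq c0 c1 hc0 hc1 h01 hne hUq0.2.2 hUq0.2.1
    ⟨cinstU H Qb c0 c1, cinstU_mem H Qb ha2 c0 c1⟩ rfl
  obtain ⟨htV', b', hb', hbint', hli', hspan'⟩ := hsmq c1 c0 hc1 hc0 h10 hne.symm hUq1.2.2
    hUq1.2.1 ⟨cinstU H Qb c1 c0, cinstU_mem H Qb ha2 c1 c0⟩ rfl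
  obtain ⟨T, hT⟩ := smib_main N' A _ b hbint
  obtain ⟨T', hT'⟩ := smib_main N' A _ b' hbint'
  refine ⟨insert c0 (insert c1 (T ∪ T')), c0, c1, Finset.mem_insert_self _ _,
    Finset.mem_insert_of_mem (Finset.mem_insert_self _ _), hc0, hc1, hne, h01, ?_⟩
  intro K0 _ hK0
  haveI := (dvd_isDVR_comap ℓ (Fact.out : ℓ.Prime).ne_zero A hA K0).1
  haveI _algQ : Algebra.IsAlgebraic ℚ Qb := AlgebraicClosure.isAlgebraic ℚ
  haveI : Algebra.IsAlgebraic ↥K0 Qb := Algebra.IsAlgebraic.tower_top (K := ℚ) ↥K0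
  have hTK : ∀ c ∈ T, c ∈ K0 := fun c hc =>
    hK0 c (Finset.mem_insert_of_mem (Finset.mem_insert_of_mem (Finset.mem_union_left _ hc)))
  have hTK' : ∀ c ∈ T', c ∈ K0 := fun c hc =>
    hK0 c (Finset.mem_insert_of_mem (Finset.mem_insert_of_mem (Finset.mem_union_right _ hc)))
  constructor
  · exact sminst_chart_stmt (K₀ := ↥K0) A hA N' hℓN' H _ _ hc0 hc1
      (fun h => hne (congrArg Subtype.val h)) h01 _ rfl b ⟨htV, hb, hli, hspan⟩ (hT K0 hTK)
  · exact sminst_chart_stmt (K₀ := ↥K0) A hA N' hℓN' H _ _ hc1 hc0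
      (fun h => hne.symm (congrArg Subtype.val h)) h10 _ rfl b' ⟨htV', hb', hli', hspan'⟩
      (hT' K0 hTK')

end Concrete

end Fermat.Agent.S18
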