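import Mathlib

/-!
# S18, package CUSPCOUNT (abstract part)

Counting the maximal ideals of an integral closure above a point by a full system of
"Laurent points".

Setting: `R ⊆ E ⊆ L`, `R` an integrally closed domain with fraction field `E`, `L / E` a finite
field extension of degree `n`, `S = integralClosure R L`, `p : R` generating a maximal ideal.
Given `n` pairwise distinct ring homomorphisms `σ i : L →+* k((t))` which agree on `E`, map `R`
into `k[[t]]` and `p` into `t k[[t]]`, we show:

* `cca_isSeparable` : `L / E` is separable;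
* `cca_norm_prod` : the norm is the product over the system;
* `cca_exists_mem_iff` : every maximal ideal `Q` of `S` containing `p` is the set of `z` such
  that `σ i z` has vanishing constant coefficient, for some `i`;
* `cca_card_le` : the number of such maximal ideals is at most the number of classes of any
  labelling `c : ι → γ` for which the constant coefficients of `σ i z` only depend on `c i`.

No completions and no places are used: the argument is "norm + prime avoidance".
-/

set_option autoImplicit false

open Polynomial IntermediateField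

namespace Fermat.Agent.S18

section Power

variable {k : Type*} [Field k]

/-- A Laurent series all of whose coefficients of negative index vanish is a power series. -/
theorem cca_exists_powerSeries (f : LaurentSeries k) (hf : ∀ n : ℤ, n < 0 → f.coeff n = 0) :
    ∃ y : PowerSeries k, HahnSeries.ofPowerSeries ℤ k y = f := by
  refine ⟨PowerSeries.mk fun n => f.coeff n, ?_⟩
  ext n
  rcases lt_or_ge n 0 with hn | hn
  · rw [hf n hn]
    refine HahnSeries.embDomain_of_notMem_range ?_
    rintro ⟨m, hm⟩
    have hm' : (m : ℤ) = n := hm
    omega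
  · lift n to ℕ using hn
    rw [HahnSeries.ofPowerSeries_apply_coeff, PowerSeries.coeff_mk]

theorem cca_coeff_ofPowerSeries_neg (y : PowerSeries k) (n : ℤ) (hn : n < 0) :
    (HahnSeries.ofPowerSeries ℤ k y).coeff n = 0 := by
  refine HahnSeries.embDomain_of_notMem_range ?_
  rintro ⟨m, hm⟩
  have hm' : (m : ℤ) = n := hm
  omega

theorem cca_coeff_ofPowerSeries_zero (y : PowerSeries k) :
    (HahnSeries.ofPowerSeries ℤ k y).coeff 0 = PowerSeries.constantCoeff y := by
  have h := HahnSeries.ofPowerSeries_apply_coeff (Γ := ℤ) y 0
  rw [Nat.cast_zero] at h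
  rw [h, PowerSeries.coeff_zero_eq_constantCoeff_apply]

/-- A Laurent series which is integral over the power series ring is a power series. -/
theorem cca_exists_powerSeries_of_isIntegral (f : LaurentSeries k)
    (hf : IsIntegral (PowerSeries k) f) :
    ∃ y : PowerSeries k, HahnSeries.ofPowerSeries ℤ k y = f := by
  obtain ⟨y, hy⟩ := IsIntegrallyClosed.isIntegral_iff.mp hf
  exact ⟨y, by rw [← hy, LaurentSeries.coe_algebraMap]⟩

end Power

section Main

variable {k : Type*} [Field k]
variable {R E L : Type*} [CommRing R] [IsDomain R] [IsIntegrallyClosed R] [Field E] [Field L]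
  [Algebra R E] [IsFractionRing R E] [Algebra E L] [Algebra R L] [IsScalarTower R E L]
  [FiniteDimensional E L]
variable {ι : Type*} [Fintype ι]

/-- A full system of pairwise distinct embeddings which agree on the base field forces
separability. -/
theorem cca_isSeparable (σ : ι → L →+* LaurentSeries k)
    (hE : ∀ i j (e : E), σ i (algebraMap E L e) = σ j (algebraMap E L e))
    (hinj : Function.Injective σ) (hcard : Fintype.card ι = Module.finrank E L) :
    Algebra.IsSeparable E L := by
  classical
  have hpos : 0 < Fintype.card ι := by rw [hcard]; exact Module.finrank_pos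
  obtain ⟨i⟩ : Nonempty ι := Fintype.card_pos_iff.mp hpos
  let Ω := AlgebraicClosure (LaurentSeries k)
  let ψ₀ : E →+* Ω :=
    (algebraMap (LaurentSeries k) Ω).comp ((σ i).comp (algebraMap E L))
  let _ : Algebra E Ω := ψ₀.toAlgebra
  let τ : ι → (L →ₐ[E] Ω) := fun j =>
    { toRingHom := (algebraMap (LaurentSeries k) Ω).comp (σ j)
      commutes' := fun e => by
        show algebraMap (LaurentSeries k) Ω (σ j (algebraMap E L e)) =
          algebraMap (LaurentSeries k) Ω (σ i (algebraMap E L e))
        exact congrArg _ (hE j i e) }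
  have hτ : Function.Injective τ := by
    intro j j' h
    apply hinj
    refine RingHom.ext fun f => ?_
    have := DFunLike.congr_fun h f
    exact (algebraMap (LaurentSeries k) Ω).injective this
  rw [← Field.finSepDegree_eq_finrank_iff]
  refine le_antisymm (Field.finSepDegree_le_finrank E L) ?_
  rw [Field.finSepDegree_eq_of_isAlgClosed E L Ω, ← hcard, ← Nat.card_eq_fintype_card]
  exact Nat.card_le_card_of_injective τ hτ

/-- The norm to `E` is the product over a full system. -/
theorem cca_norm_prod (σ : ι → L →+* LaurentSeries k)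
    (hE : ∀ i j (e : E), σ i (algebraMap E L e) = σ j (algebraMap E L e))
    (hinj : Function.Injective σ) (hcard : Fintype.card ι = Module.finrank E L)
    (i : ι) (f : L) :
    σ i (algebraMap E L (Algebra.norm E f)) = ∏ j, σ j f := by
  classical
  have hsep : Algebra.IsSeparable E L := cca_isSeparable σ hE hinj hcard
  let Ω := AlgebraicClosure (LaurentSeries k)
  let ψ₀ : E →+* Ω :=
    (algebraMap (LaurentSeries k) Ω).comp ((σ i).comp (algebraMap E L))
  let _ : Algebra E Ω := ψ₀.toAlgebra
  let τ : ι → (L →ₐ[E] Ω) := fun j =>
    { toRingHom := (algebraMap (LaurentSeries k) Ω).comp (σ j)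
      commutes' := fun e => by
        show algebraMap (LaurentSeries k) Ω (σ j (algebraMap E L e)) =
          algebraMap (LaurentSeries k) Ω (σ i (algebraMap E L e))
        exact congrArg _ (hE j i e) }
  have hτ : Function.Injective τ := by
    intro j j' h
    apply hinj
    refine RingHom.ext fun f => ?_
    have := DFunLike.congr_fun h f
    exact (algebraMap (LaurentSeries k) Ω).injective this
  have hcard' : Fintype.card (L →ₐ[E] Ω) = Module.finrank E L := AlgHom.card E L Ω
  have hbij : Function.Bijective τ := by
    rw [Fintype.bijective_iff_injective_and_card]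
    exact ⟨hτ, by rw [hcard', hcard]⟩
  have hnorm := Algebra.norm_eq_prod_embeddings E Ω f
  rw [← Fintype.prod_bijective τ hbij (fun j => τ j f) (fun ρ => ρ f) (fun _ => rfl)] at hnorm
  apply (algebraMap (LaurentSeries k) Ω).injective
  rw [map_prod]
  exact hnorm

end Main

section Eval

variable {k : Type*} [Field k]
variable {R L : Type*} [CommRing R] [Field L] [Algebra R L]

/-- The image of an integral element under a ring homomorphism to `k((t))` which maps the base
ring to `k[[t]]` is a power series. -/
theorem cca_exists_powerSeries_map (σ : L →+* LaurentSeries k)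
    (hR : ∀ (r : R) (n : ℤ), n < 0 → (σ (algebraMap R L r)).coeff n = 0)
    (z : L) (hz : IsIntegral R z) :
    ∃ y : PowerSeries k, HahnSeries.ofPowerSeries ℤ k y = σ z := by
  classical
  have hex : ∀ r : R, ∃ y : PowerSeries k,
      HahnSeries.ofPowerSeries ℤ k y = σ (algebraMap R L r) :=
    fun r => cca_exists_powerSeries _ (hR r)
  choose g hg using hex
  have hinj := HahnSeries.ofPowerSeries_injective (Γ := ℤ) (R := k)
  let G : R →+* PowerSeries k :=
    { toFun := g
      map_one' := hinj (by rw [hg, map_one, map_one, map_one])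
      map_mul' := fun a b => hinj (by rw [hg, map_mul, map_mul, map_mul, hg, hg])
      map_zero' := hinj (by rw [hg, map_zero, map_zero, map_zero])
      map_add' := fun a b => hinj (by rw [hg, map_add, map_add, map_add, hg, hg]) }
  apply cca_exists_powerSeries_of_isIntegral
  refine IsIntegral.map_of_comp_eq G σ ?_ hz
  refine RingHom.ext fun r => ?_
  rw [RingHom.comp_apply, RingHom.comp_apply, LaurentSeries.coe_algebraMap]
  exact hg r

/-- The value at the Laurent point `σ` (constant coefficient) as a ring homomorphism on the
integral closure. -/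
noncomputable def ccaEval (σ : L →+* LaurentSeries k)
    (hR : ∀ (r : R) (n : ℤ), n < 0 → (σ (algebraMap R L r)).coeff n = 0) :
    integralClosure R L →+* k where
  toFun z := (σ (z : L)).coeff 0
  map_one' := by
    show (σ ((1 : integralClosure R L) : L)).coeff 0 = 1
    rw [OneMemClass.coe_one, map_one, HahnSeries.coeff_one, if_pos rfl]
  map_zero' := by
    show (σ ((0 : integralClosure R L) : L)).coeff 0 = 0
    rw [ZeroMemClass.coe_zero, map_zero, HahnSeries.coeff_zero]
  map_add' a b := by
    show (σ ((a + b : integralClosure R L) : L)).coeff 0 = _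
    rw [AddMemClass.coe_add, map_add, HahnSeries.coeff_add]
  map_mul' a b := by
    show (σ ((a * b : integralClosure R L) : L)).coeff 0 = _
    obtain ⟨ya, hya⟩ := cca_exists_powerSeries_map σ hR (a : L) a.2
    obtain ⟨yb, hyb⟩ := cca_exists_powerSeries_map σ hR (b : L) b.2
    rw [MulMemClass.coe_mul, map_mul, ← hya, ← hyb, ← map_mul, cca_coeff_ofPowerSeries_zero,
      cca_coeff_ofPowerSeries_zero, cca_coeff_ofPowerSeries_zero, map_mul]

theorem ccaEval_apply (σ : L →+* LaurentSeries k)
    (hR : ∀ (r : R) (n : ℤ), n < 0 → (σ (algebraMap R L r)).coeff n = 0)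
    (z : integralClosure R L) : ccaEval σ hR z = (σ (z : L)).coeff 0 := rfl

/-- Constant coefficients are multiplicative on finite products of images of integral
elements. -/
theorem cca_coeff_prod {ι : Type*} (s : Finset ι) (σ : ι → L →+* LaurentSeries k)
    (hR : ∀ i (r : R) (n : ℤ), n < 0 → (σ i (algebraMap R L r)).coeff n = 0)
    (z : integralClosure R L) :
    (∏ i ∈ s, σ i (z : L)).coeff 0 = ∏ i ∈ s, ccaEval (σ i) (hR i) z := by
  classical
  have hex : ∀ i, ∃ y : PowerSeries k, HahnSeries.ofPowerSeries ℤ k y = σ i (z : L) :=
    fun i => cca_exists_powerSeries_map (σ i) (hR i) (z : L) z.2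
  choose y hy using hex
  have h1 : ∏ i ∈ s, σ i (z : L) = HahnSeries.ofPowerSeries ℤ k (∏ i ∈ s, y i) := by
    rw [map_prod]
    exact Finset.prod_congr rfl fun i _ => (hy i).symm
  rw [h1, cca_coeff_ofPowerSeries_zero, map_prod]
  refine Finset.prod_congr rfl fun i _ => ?_
  rw [ccaEval_apply, ← hy i, cca_coeff_ofPowerSeries_zero]

end Eval

section Count

variable {k : Type*} [Field k]
variable {R E L : Type*} [CommRing R] [IsDomain R] [IsIntegrallyClosed R] [Field E] [Field L]
  [Algebra R E] [IsFractionRing R E] [Algebra E L] [Algebra R L] [IsScalarTower R E L]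
  [FiniteDimensional E L]
variable {ι : Type*} [Fintype ι]

/-- The norm of an integral element, in terms of the constant coefficient of its minimal
polynomial over the integrally closed base ring. -/
theorem cca_norm_eq (z : L) (hz : IsIntegral R z) :
    ∃ e : ℕ, 0 < e ∧ Algebra.norm E z =
      algebraMap R E (((-1) ^ (minpoly E z).natDegree * (minpoly R z).coeff 0) ^ e) := by
  have hzE : IsIntegral E z := hz.tower_top
  refine ⟨Module.finrank E⟮z⟯ L, Module.finrank_pos, ?_⟩
  rw [Algebra.norm_eq_norm_adjoin E z, map_pow]
  congr 1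
  have h1 := Algebra.PowerBasis.norm_gen_eq_coeff_zero_minpoly (IntermediateField.adjoin.powerBasis hzE)
  rw [IntermediateField.adjoin.powerBasis_gen, IntermediateField.adjoin.powerBasis_dim,
    IntermediateField.minpoly_gen] at h1
  rw [h1, minpoly.isIntegrallyClosed_eq_field_fractions' E hz, Polynomial.coeff_map]
  simp

variable (σ : ι → L →+* LaurentSeries k)
  (hE : ∀ i j (e : E), σ i (algebraMap E L e) = σ j (algebraMap E L e))
  (hinj : Function.Injective σ) (hcard : Fintype.card ι = Module.finrank E L)
  (hR : ∀ i (r : R) (n : ℤ), n < 0 → (σ i (algebraMap R L r)).coeff n = 0)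
  (p : R) (hpmax : (Ideal.span {p}).IsMaximal)
  (hp : ∀ i, (σ i (algebraMap R L p)).coeff 0 = 0)

include hE hinj hcard hpmax hp in
/-- Every element of a maximal ideal above `p` vanishes at one of the Laurent points. -/
theorem cca_exists_eval_eq_zero (Q : Ideal (integralClosure R L)) (hQ : Q.IsMaximal)
    (hpQ : algebraMap R (integralClosure R L) p ∈ Q) (z : integralClosure R L) (hz : z ∈ Q) :
    ∃ i, ccaEval (σ i) (hR i) z = 0 := by
  classical
  have hpos : 0 < Fintype.card ι := by rw [hcard]; exact Module.finrank_pos
  obtain ⟨i₀⟩ : Nonempty ι := Fintype.card_pos_iff.mp hpos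
  -- the constant coefficient of the minimal polynomial lies in `Q`
  have hzS : IsIntegral R z := Algebra.IsIntegral.isIntegral z
  have hminS : minpoly R (z : L) = minpoly R z :=
    minpoly.algebraMap_eq (A := R) (B := integralClosure R L) (B' := L) Subtype.val_injective z
  set b₀ : R := (minpoly R z).coeff 0 with hb₀
  have hb₀Q : algebraMap R (integralClosure R L) b₀ ∈ Q := by
    have h0 : Polynomial.aeval z (minpoly R z) = 0 := minpoly.aeval R z
    have hdec : minpoly R z = (minpoly R z).divX * Polynomial.X + Polynomial.C b₀ :=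
      (Polynomial.divX_mul_X_add _).symm
    rw [hdec, map_add, map_mul, Polynomial.aeval_X, Polynomial.aeval_C] at h0
    have h1 : algebraMap R (integralClosure R L) b₀ =
        -(Polynomial.aeval z (minpoly R z).divX) * z := by
      linear_combination h0
    rw [h1]
    exact Q.mul_mem_left _ hz
  -- hence in `(p)`
  have hcomap : Ideal.span {p} = Q.comap (algebraMap R (integralClosure R L)) := by
    refine hpmax.eq_of_le ?_ ?_
    · intro htop
      have h1 : (1 : R) ∈ Q.comap (algebraMap R (integralClosure R L)) := by
        rw [htop]; exact Submodule.mem_top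
      rw [Ideal.mem_comap, map_one] at h1
      exact hQ.ne_top ((Ideal.eq_top_iff_one _).mpr h1)
    · rw [Ideal.span_le, Set.singleton_subset_iff]
      exact hpQ
  have hb₀p : b₀ ∈ Ideal.span {p} := by rw [hcomap]; exact hb₀Q
  obtain ⟨r₀, hr₀⟩ := Ideal.mem_span_singleton'.mp hb₀p
  -- the norm
  obtain ⟨e, he, hnorm⟩ := cca_norm_eq (E := E) (z : L) z.2
  rw [hminS, ← hb₀] at hnorm
  have hprod := cca_norm_prod σ hE hinj hcard i₀ (z : L)
  rw [hnorm, ← IsScalarTower.algebraMap_apply] at hprod
  -- compare constant coefficients
  set c : R := ((-1) ^ (minpoly E (z : L)).natDegree * b₀) ^ e with hc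
  have h2 := cca_coeff_prod Finset.univ σ hR z
  rw [← hprod] at h2
  have h3 : (σ i₀ (algebraMap R L c)).coeff 0 =
      ccaEval (σ i₀) (hR i₀) (algebraMap R (integralClosure R L) c) := rfl
  rw [h3] at h2
  have h4 : ccaEval (σ i₀) (hR i₀) (algebraMap R (integralClosure R L) c) = 0 := by
    have hpz : ccaEval (σ i₀) (hR i₀) (algebraMap R (integralClosure R L) p) = 0 := hp i₀
    rw [hc, ← hr₀]
    simp only [map_pow, map_mul, hpz, mul_zero, zero_pow he.ne']
  rw [h4] at h2
  obtain ⟨i, -, hi⟩ := Finset.prod_eq_zero_iff.mp h2.symm
  exact ⟨i, hi⟩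

include hE hinj hcard hR hpmax hp in
/-- Every maximal ideal of the integral closure above `p` is the kernel of the evaluation at one
of the Laurent points. -/
theorem cca_exists_mem_iff (Q : Ideal (integralClosure R L)) (hQ : Q.IsMaximal)
    (hpQ : algebraMap R (integralClosure R L) p ∈ Q) :
    ∃ i, ∀ z : integralClosure R L, z ∈ Q ↔ (σ i (z : L)).coeff 0 = 0 := by
  classical
  have hpos : 0 < Fintype.card ι := by rw [hcard]; exact Module.finrank_pos
  obtain ⟨i₀⟩ : Nonempty ι := Fintype.card_pos_iff.mp hpos
  have hsub : ((Q : Set (integralClosure R L)) ⊆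
      ⋃ i ∈ ((Finset.univ : Finset ι) : Set ι),
        (RingHom.ker (ccaEval (σ i) (hR i)) : Set (integralClosure R L))) := by
    intro z hz
    obtain ⟨i, hi⟩ := cca_exists_eval_eq_zero σ hE hinj hcard hR p hpmax hp Q hQ hpQ z hz
    exact Set.mem_biUnion (Finset.mem_coe.mpr (Finset.mem_univ i)) (RingHom.mem_ker.mpr hi)
  obtain ⟨i, -, hi⟩ := (Ideal.subset_union_prime (s := (Finset.univ : Finset ι))
    (f := fun i => RingHom.ker (ccaEval (σ i) (hR i))) i₀ i₀
    (fun i _ _ _ => RingHom.ker_isPrime _)).mp hsub
  have heq : Q = RingHom.ker (ccaEval (σ i) (hR i)) :=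
    hQ.eq_of_le (RingHom.ker_ne_top _) hi
  refine ⟨i, fun z => ?_⟩
  rw [heq, RingHom.mem_ker, ccaEval_apply]

include hE hinj hcard hR hpmax hp in
/-- The number of maximal ideals of the integral closure above `p` is at most the number of
classes of any labelling of the system along which the constant coefficients are constant. -/
theorem cca_card_le {γ : Type*} [Fintype γ] (c : ι → γ)
    (hc : ∀ i j, c i = c j → ∀ z : integralClosure R L,
      (σ i (z : L)).coeff 0 = (σ j (z : L)).coeff 0)
    (s : Finset (Ideal (integralClosure R L)))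
    (hs : ∀ Q ∈ s, Q.IsMaximal ∧ algebraMap R (integralClosure R L) p ∈ Q) :
    s.card ≤ Fintype.card γ := by
  classical
  have hex : ∀ Q : s, ∃ i, ∀ z : integralClosure R L,
      z ∈ (Q : Ideal (integralClosure R L)) ↔ (σ i (z : L)).coeff 0 = 0 := fun Q =>
    cca_exists_mem_iff σ hE hinj hcard hR p hpmax hp Q.1 (hs Q.1 Q.2).1 (hs Q.1 Q.2).2
  choose f hf using hex
  have hinj' : Function.Injective (fun Q : s => c (f Q)) := by
    intro Q Q' h
    apply Subtype.ext
    apply Ideal.ext
    intro z
    rw [hf Q z, hf Q' z, hc _ _ h z]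
  have := Fintype.card_le_of_injective _ hinj'
  rwa [Fintype.card_coe] at this

end Count

end Fermat.Agent.S18
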