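import Mathlib
import Fermat.Agent.S18.CuspCountAbs
import Fermat.Agent.S18.ValExt

/-!
# S18, package CUSPCOUNT (abstract part 2): the valuation-ring form

Setting of `CuspCountAbs`: a finite field extension `L / E` with a full system
`σ i : L →+* k((t))` of pairwise distinct embeddings agreeing on `E`.  Let `x : E` be an element
whose expansion lies in `t k[[t]]`, and assume that the valuation ring
`R = {e ∈ E | expansion of e is a power series}` of `E` has maximal ideal `(x)` (`hdiv`), and is
contained in every valuation ring of `L` whose maximal ideal contains `x` (`hO`).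

* `ccvPS k` : the power series as a valuation subring of `k((t))`;
* `ccv_isIntegral` : an element of `L` all of whose expansions are power series is integral
  over `R`;
* `ccv_exists_mem_iff` : if `S` is any ring of such elements (`f : S →+* L` injective) and `Q` a
  maximal ideal of `S` with `x ∈ Q S_Q`, then `Q` is the set of `z` such that the constant
  coefficient of `σ i (f z)` vanishes, for some `i`;
* `ccv_card_le` : the number of such maximal ideals is at most the number of classes of any
  labelling along which the constant coefficients are constant.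
-/

set_option autoImplicit false

noncomputable section

open Polynomial

namespace Fermat.Agent.S18

section PS

variable (k : Type*) [Field k]

theorem ccv_mul_mem {f g : LaurentSeries k} (hf : ∀ n : ℤ, n < 0 → f.coeff n = 0)
    (hg : ∀ n : ℤ, n < 0 → g.coeff n = 0) : ∀ n : ℤ, n < 0 → (f * g).coeff n = 0 := by
  obtain ⟨y, rfl⟩ := cca_exists_powerSeries f hf
  obtain ⟨y', rfl⟩ := cca_exists_powerSeries g hg
  intro n hn
  rw [← map_mul]
  exact cca_coeff_ofPowerSeries_neg _ n hn

theorem ccv_coeff_zero_mul {f g : LaurentSeries k} (hf : ∀ n : ℤ, n < 0 → f.coeff n = 0)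
    (hg : ∀ n : ℤ, n < 0 → g.coeff n = 0) : (f * g).coeff 0 = f.coeff 0 * g.coeff 0 := by
  obtain ⟨y, rfl⟩ := cca_exists_powerSeries f hf
  obtain ⟨y', rfl⟩ := cca_exists_powerSeries g hg
  rw [← map_mul, cca_coeff_ofPowerSeries_zero, cca_coeff_ofPowerSeries_zero,
    cca_coeff_ofPowerSeries_zero, map_mul]

theorem ccv_order_nonneg {f : LaurentSeries k} (hf0 : f ≠ 0)
    (hf : ∀ n : ℤ, n < 0 → f.coeff n = 0) : 0 ≤ f.order := by
  by_contra h
  exact (mt HahnSeries.coeff_order_eq_zero.mp hf0) (hf _ (not_le.mp h))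

theorem ccv_inv_of_order_neg {f : LaurentSeries k} (hf : f.order < 0) :
    ∀ n : ℤ, n ≤ 0 → f⁻¹.coeff n = 0 := by
  have hf0 : f ≠ 0 := by
    rintro rfl
    simp at hf
  have h := HahnSeries.order_mul hf0 (inv_ne_zero hf0)
  rw [mul_inv_cancel₀ hf0, HahnSeries.order_one] at h
  intro n hn
  exact HahnSeries.coeff_eq_zero_of_lt_order (by omega)

/-- The inverse of a power series with nonzero constant coefficient is a power series. -/
theorem ccv_inv_mem {f : LaurentSeries k} (hf : ∀ n : ℤ, n < 0 → f.coeff n = 0)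
    (h0 : f.coeff 0 ≠ 0) : ∀ n : ℤ, n < 0 → f⁻¹.coeff n = 0 := by
  have hf0 : f ≠ 0 := by
    rintro rfl
    simp at h0
  have h1 : f.order = 0 :=
    le_antisymm (HahnSeries.order_le_of_coeff_ne_zero h0) (ccv_order_nonneg k hf0 hf)
  have h := HahnSeries.order_mul hf0 (inv_ne_zero hf0)
  rw [mul_inv_cancel₀ hf0, HahnSeries.order_one, h1, zero_add] at h
  intro n hn
  exact HahnSeries.coeff_eq_zero_of_lt_order (by omega)

/-- The power series, as a valuation subring of the Laurent series. -/
def ccvPS : ValuationSubring (LaurentSeries k) where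
  carrier := {f | ∀ n : ℤ, n < 0 → f.coeff n = 0}
  mul_mem' hf hg := ccv_mul_mem k hf hg
  one_mem' := by
    intro n hn
    rw [HahnSeries.coeff_one, if_neg (by omega)]
  add_mem' hf hg := by
    intro n hn
    rw [HahnSeries.coeff_add, hf n hn, hg n hn, add_zero]
  zero_mem' := fun n _ => HahnSeries.coeff_zero
  neg_mem' hf := by
    intro n hn
    rw [HahnSeries.coeff_neg, hf n hn, neg_zero]
  mem_or_inv_mem' f := by
    by_cases h : 0 ≤ f.order
    · left
      intro n hn
      exact HahnSeries.coeff_eq_zero_of_lt_order (lt_of_lt_of_le hn h)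
    · right
      intro n hn
      exact ccv_inv_of_order_neg k (not_le.mp h) n hn.le

theorem ccv_mem_PS {f : LaurentSeries k} : f ∈ ccvPS k ↔ ∀ n : ℤ, n < 0 → f.coeff n = 0 :=
  Iff.rfl

end PS

section Base

variable {k : Type*} [Field k]
variable (E : Type*) {L : Type*} [Field E] [Field L] [Algebra E L]
variable {ι : Type*}

/-- The valuation ring of the base field: the elements whose expansion is a power series. -/
def ccvR (σ : ι → L →+* LaurentSeries k) (i₀ : ι) : ValuationSubring E :=
  (ccvPS k).comap ((σ i₀).comp (algebraMap E L))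

theorem ccv_mem_R (σ : ι → L →+* LaurentSeries k) (i₀ : ι) {e : E} :
    e ∈ ccvR E σ i₀ ↔ ∀ n : ℤ, n < 0 → (σ i₀ (algebraMap E L e)).coeff n = 0 :=
  Iff.rfl

/-- The algebra structure of `L` over the base valuation ring. -/
@[reducible] def ccvAlg (σ : ι → L →+* LaurentSeries k) (i₀ : ι) : Algebra (ccvR E σ i₀) L :=
  ((algebraMap E L).comp (algebraMap (ccvR E σ i₀) E)).toAlgebra

attribute [local instance] ccvAlg

theorem ccv_tower (σ : ι → L →+* LaurentSeries k) (i₀ : ι) :
    IsScalarTower (ccvR E σ i₀) E L :=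
  IsScalarTower.of_algebraMap_eq (fun _ => rfl)

attribute [local instance] ccv_tower

theorem ccv_algebraMap_R (σ : ι → L →+* LaurentSeries k) (i₀ : ι) (r : ccvR E σ i₀) :
    algebraMap (ccvR E σ i₀) L r = algebraMap E L (r : E) := rfl

/-- The base valuation ring is local with maximal ideal generated by `x`. -/
theorem ccv_isMaximal (σ : ι → L →+* LaurentSeries k) (i₀ : ι) (x : E) (hxne : x ≠ 0)
    (hx0 : ∀ n : ℤ, n ≤ 0 → (σ i₀ (algebraMap E L x)).coeff n = 0)
    (hdiv : ∀ e : E, (∀ n : ℤ, n ≤ 0 → (σ i₀ (algebraMap E L e)).coeff n = 0) →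
      ∀ n : ℤ, n < 0 → (σ i₀ (algebraMap E L (e / x))).coeff n = 0) :
    (Ideal.span {(⟨x, fun n hn => hx0 n hn.le⟩ : ccvR E σ i₀)}).IsMaximal := by
  set p : ccvR E σ i₀ := ⟨x, fun n hn => hx0 n hn.le⟩ with hp
  have key : Ideal.span {p} = IsLocalRing.maximalIdeal (ccvR E σ i₀) := by
    ext e
    rw [Ideal.mem_span_singleton', IsLocalRing.mem_maximalIdeal, mem_nonunits_iff]
    constructor
    · rintro ⟨a, rfl⟩ hu
      have hpu : IsUnit p := isUnit_of_mul_isUnit_right hu
      obtain ⟨p', hp'⟩ := isUnit_iff_exists_inv.mp hpu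
      have h1 : σ i₀ (algebraMap E L x) * σ i₀ (algebraMap E L (p' : E)) = 1 := by
        rw [← map_mul, ← map_mul]
        have h2 : x * (p' : E) = 1 := congrArg Subtype.val hp'
        rw [h2, map_one, map_one]
      have hp'2 : ∀ n : ℤ, n < 0 → (σ i₀ (algebraMap E L (p' : E))).coeff n = 0 := p'.2
      have h3 := ccv_coeff_zero_mul k (fun n hn => hx0 n hn.le) hp'2
      rw [h1, HahnSeries.coeff_one, if_pos rfl, hx0 0 le_rfl, zero_mul] at h3
      exact one_ne_zero h3
    · intro hu
      have h0 : (σ i₀ (algebraMap E L (e : E))).coeff 0 = 0 := by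
        by_contra hne
        apply hu
        have hinv : (e : E)⁻¹ ∈ ccvR E σ i₀ := by
          rw [ccv_mem_R, map_inv₀, map_inv₀]
          exact ccv_inv_mem k e.2 hne
        have he0 : (e : E) ≠ 0 := by
          intro h0
          apply hne
          rw [h0, map_zero, map_zero, HahnSeries.coeff_zero]
        exact isUnit_iff_exists_inv.mpr ⟨⟨_, hinv⟩, Subtype.ext (mul_inv_cancel₀ he0)⟩
      have hmem : (e : E) / x ∈ ccvR E σ i₀ := by
        rw [ccv_mem_R]
        refine hdiv e (fun n hn => ?_)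
        rcases lt_or_eq_of_le hn with h | h
        · exact e.2 n h
        · rw [h]; exact h0
      refine ⟨⟨_, hmem⟩, Subtype.ext ?_⟩
      show (e : E) / x * x = e
      exact div_mul_cancel₀ _ hxne
  rw [key]
  exact IsLocalRing.maximalIdeal.isMaximal _

variable [FiniteDimensional E L] [Fintype ι]

/-- An element all of whose expansions are power series is integral over the base valuation
ring. -/
theorem ccv_isIntegral (σ : ι → L →+* LaurentSeries k)
    (hE : ∀ i j (e : E), σ i (algebraMap E L e) = σ j (algebraMap E L e))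
    (hinj : Function.Injective σ) (hcard : Fintype.card ι = Module.finrank E L) (i₀ : ι)
    (z : L) (hz : ∀ i (n : ℤ), n < 0 → (σ i z).coeff n = 0) :
    IsIntegral (ccvR E σ i₀) z := by
  classical
  have hsep : Algebra.IsSeparable E L := cca_isSeparable σ hE hinj hcard
  let Ω := AlgebraicClosure (LaurentSeries k)
  let ψ₀ : E →+* Ω :=
    (algebraMap (LaurentSeries k) Ω).comp ((σ i₀).comp (algebraMap E L))
  let _ : Algebra E Ω := ψ₀.toAlgebra
  let τ : ι → (L →ₐ[E] Ω) := fun j =>
    { toRingHom := (algebraMap (LaurentSeries k) Ω).comp (σ j)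
      commutes' := fun e => by
        show algebraMap (LaurentSeries k) Ω (σ j (algebraMap E L e)) =
          algebraMap (LaurentSeries k) Ω (σ i₀ (algebraMap E L e))
        exact congrArg _ (hE j i₀ e) }
  have hτ : Function.Injective τ := by
    intro j j' h
    apply hinj
    refine RingHom.ext fun f => ?_
    have := DFunLike.congr_fun h f
    exact (algebraMap (LaurentSeries k) Ω).injective this
  have hcard' : Fintype.card (L →ₐ[E] Ω) = Module.finrank E L := AlgHom.card E L Ω
  have hbij : Function.Bijective τ := by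
    rw [Fintype.bijective_iff_injective_and_card]
    exact ⟨hτ, by rw [hcard', hcard]⟩
  have hzE : IsIntegral E z := IsIntegral.of_finite E z
  set m := minpoly E z with hm
  have hmon : m.Monic := minpoly.monic hzE
  let ips : PowerSeries k →+* Ω :=
    (algebraMap (LaurentSeries k) Ω).comp (HahnSeries.ofPowerSeries ℤ k)
  have hroots : ∀ a ∈ (m.map (algebraMap E Ω)).roots, a ∈ ips.range := by
    intro a ha
    have ha' : a ∈ m.rootSet Ω := by
      rw [Polynomial.rootSet, Finset.mem_coe, Multiset.mem_toFinset]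
      exact ha
    rw [← Algebra.IsAlgebraic.range_eval_eq_rootSet_minpoly Ω z] at ha'
    obtain ⟨ψ, rfl⟩ := ha'
    obtain ⟨j, rfl⟩ := hbij.2 ψ
    obtain ⟨y, hy⟩ := cca_exists_powerSeries (σ j z) (hz j)
    exact ⟨y, by show algebraMap (LaurentSeries k) Ω (HahnSeries.ofPowerSeries ℤ k y) = _; rw [hy]; rfl⟩
  have hlift := (IsAlgClosed.splits (m.map (algebraMap E Ω))).mem_lift_of_roots_mem_range
    (hmon.map _) ips hroots
  rw [Polynomial.lifts_iff_coeff_lifts] at hlift
  have hcoeff : ∀ n : ℕ, m.coeff n ∈ ccvR E σ i₀ := by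
    intro n
    obtain ⟨y, hy⟩ := hlift n
    rw [Polynomial.coeff_map] at hy
    have h1 : HahnSeries.ofPowerSeries ℤ k y = σ i₀ (algebraMap E L (m.coeff n)) :=
      (algebraMap (LaurentSeries k) Ω).injective hy
    rw [ccv_mem_R, ← h1]
    exact fun n hn => cca_coeff_ofPowerSeries_neg y n hn
  have hlift' : m ∈ Polynomial.lifts (algebraMap (ccvR E σ i₀) E) := by
    rw [Polynomial.lifts_iff_coeff_lifts]
    exact fun n => ⟨⟨_, hcoeff n⟩, rfl⟩
  obtain ⟨mR, hmR, -, hmRmon⟩ := Polynomial.lifts_and_natDegree_eq_and_monic hlift' hmon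
  refine ⟨mR, hmRmon, ?_⟩
  have h2 : algebraMap (ccvR E σ i₀) L = (algebraMap E L).comp (algebraMap (ccvR E σ i₀) E) := rfl
  rw [h2, ← Polynomial.eval₂_map, hmR]
  exact minpoly.aeval E z

end Base

section Count

variable {k : Type*} [Field k]
variable (E : Type*) {L : Type*} [Field E] [Field L] [Algebra E L] [FiniteDimensional E L]
variable {ι : Type*} [Fintype ι]

attribute [local instance] ccvAlg ccv_tower

/-- Main statement: a maximal ideal `Q` of a ring `S` of functions regular at all Laurent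
points, with `x ∈ Q S_Q`, is the set of elements vanishing at one of the Laurent points. -/
theorem ccv_exists_mem_iff (σ : ι → L →+* LaurentSeries k)
    (hE : ∀ i j (e : E), σ i (algebraMap E L e) = σ j (algebraMap E L e))
    (hinj : Function.Injective σ) (hcard : Fintype.card ι = Module.finrank E L) (i₀ : ι)
    (x : E) (hxne : x ≠ 0)
    (hx0 : ∀ n : ℤ, n ≤ 0 → (σ i₀ (algebraMap E L x)).coeff n = 0)
    (hdiv : ∀ e : E, (∀ n : ℤ, n ≤ 0 → (σ i₀ (algebraMap E L e)).coeff n = 0) →
      ∀ n : ℤ, n < 0 → (σ i₀ (algebraMap E L (e / x))).coeff n = 0)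
    (hO : ∀ O : ValuationSubring L, algebraMap E L x ∈ O.nonunits →
      ∀ e : E, e ∈ ccvR E σ i₀ → algebraMap E L e ∈ O)
    {S : Type*} [CommRing S] (f : S →+* L) (hf : Function.Injective f)
    (hreg : ∀ (z : S) (i : ι) (n : ℤ), n < 0 → (σ i (f z)).coeff n = 0)
    (Q : Ideal S) (hQ : Q.IsMaximal)
    (hxQ : ∃ a ∈ Q, ∃ b, b ∉ Q ∧ f b * algebraMap E L x = f a) :
    ∃ i, ∀ z : S, z ∈ Q ↔ (σ i (f z)).coeff 0 = 0 := by
  classical
  -- a valuation ring dominating `S_Q`
  have hI : Q.map f.rangeRestrict ≠ ⊤ := by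
    intro htop
    have h1 : (1 : f.range) ∈ Q.map f.rangeRestrict := by rw [htop]; exact Submodule.mem_top
    rw [Ideal.mem_map_iff_of_surjective _ f.rangeRestrict_surjective] at h1
    obtain ⟨q, hq, hq1⟩ := h1
    have h2 : f q = f 1 := by
      rw [map_one]
      exact congrArg Subtype.val hq1
    rw [hf h2] at hq
    exact hQ.ne_top ((Ideal.eq_top_iff_one _).mpr hq)
  obtain ⟨O, hAO, hIO⟩ := Ideal.image_subset_nonunits_valuationSubring _ hI
  have hfO : ∀ z : S, f z ∈ O := fun z => hAO (f.mem_range_self z)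
  have hQO : ∀ z ∈ Q, f z ∈ O.nonunits := fun z hz =>
    hIO ⟨f.rangeRestrict z, Ideal.mem_map_of_mem _ hz, rfl⟩
  have hQO' : ∀ z : S, z ∉ Q → f z ∉ O.nonunits := by
    intro z hz hnon
    obtain ⟨y, i, hi, hyi⟩ := hQ.exists_inv hz
    have h1 : f y * f z + f i = 1 := by rw [← map_mul, ← map_add, hyi, map_one]
    have h2 : O.valuation (f y * f z + f i) < 1 := by
      refine lt_of_le_of_lt (O.valuation.map_add _ _) (max_lt ?_ ?_)
      · rw [map_mul]
        have h3 : O.valuation (f y) ≤ 1 := (O.valuation_le_one_iff _).mpr (hfO y)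
        have h4 : O.valuation (f z) < 1 := (O.mem_nonunits_iff).mp hnon
        calc O.valuation (f y) * O.valuation (f z) ≤ 1 * O.valuation (f z) :=
              mul_le_mul_left h3 _
          _ < 1 := by rw [one_mul]; exact h4
      · exact (O.mem_nonunits_iff).mp (hQO i hi)
    rw [h1, map_one] at h2
    exact lt_irrefl _ h2
  -- `x` lies in the maximal ideal
  have hxO : algebraMap E L x ∈ O.nonunits := by
    obtain ⟨a, ha, b, hb, hab⟩ := hxQ
    rw [O.mem_nonunits_iff]
    have h1 : O.valuation (f a) < 1 := (O.mem_nonunits_iff).mp (hQO a ha)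
    have h2 : O.valuation (f b) = 1 := by
      refine le_antisymm ((O.valuation_le_one_iff _).mpr (hfO b)) ?_
      by_contra h
      exact hQO' b hb ((O.mem_nonunits_iff).mpr (not_le.mp h))
    rw [← hab, map_mul, h2, one_mul] at h1
    exact h1
  -- the base ring and its integral closure lie in `O`
  have hRO : ∀ r : ccvR E σ i₀, algebraMap (ccvR E σ i₀) L r ∈ O := fun r => hO O hxO r r.2
  have hBO : ∀ b : integralClosure (ccvR E σ i₀) L, (b : L) ∈ O := fun b =>
    valext_mem_of_isIntegral O hRO (b : L) b.2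
  let incl : integralClosure (ccvR E σ i₀) L →+* O :=
    (integralClosure (ccvR E σ i₀) L).val.toRingHom.codRestrict O.toSubring hBO
  let Q' : Ideal (integralClosure (ccvR E σ i₀) L) := (IsLocalRing.maximalIdeal O).comap incl
  have hQ'mem : ∀ b : integralClosure (ccvR E σ i₀) L, b ∈ Q' ↔ (b : L) ∈ O.nonunits := by
    intro b
    rw [ValuationSubring.mem_nonunits_iff_exists_mem_maximalIdeal]
    constructor
    · intro hb
      exact ⟨hBO b, hb⟩
    · rintro ⟨_, hb⟩
      exact hb
  have hQ'prime : Q'.IsPrime := Ideal.comap_isPrime incl _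
  set p : ccvR E σ i₀ := ⟨x, fun n hn => hx0 n hn.le⟩ with hp
  have hpmax : (Ideal.span {p}).IsMaximal := ccv_isMaximal E σ i₀ x hxne hx0 hdiv
  have hpQ' : algebraMap (ccvR E σ i₀) (integralClosure (ccvR E σ i₀) L) p ∈ Q' := by
    rw [hQ'mem]
    exact hxO
  have hcomap : (Q'.comap (algebraMap (ccvR E σ i₀) (integralClosure (ccvR E σ i₀) L))).IsMaximal := by
    have heq : Ideal.span {p} =
        Q'.comap (algebraMap (ccvR E σ i₀) (integralClosure (ccvR E σ i₀) L)) := by
      refine hpmax.eq_of_le ?_ ?_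
      · intro htop
        have h1 : (1 : ccvR E σ i₀) ∈
            Q'.comap (algebraMap (ccvR E σ i₀) (integralClosure (ccvR E σ i₀) L)) := by
          rw [htop]; exact Submodule.mem_top
        rw [Ideal.mem_comap, map_one] at h1
        exact hQ'prime.ne_top ((Ideal.eq_top_iff_one _).mpr h1)
      · rw [Ideal.span_le, Set.singleton_subset_iff]
        exact hpQ'
    rw [← heq]
    exact hpmax
  have hQ'max : Q'.IsMaximal := Ideal.isMaximal_of_isIntegral_of_isMaximal_comap Q' hcomap
  have hR : ∀ i (r : ccvR E σ i₀) (n : ℤ), n < 0 →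
      (σ i (algebraMap (ccvR E σ i₀) L r)).coeff n = 0 := by
    intro i r n hn
    rw [ccv_algebraMap_R, hE i i₀]
    exact r.2 n hn
  have hp0 : ∀ i, (σ i (algebraMap (ccvR E σ i₀) L p)).coeff 0 = 0 := by
    intro i
    rw [ccv_algebraMap_R, hE i i₀]
    exact hx0 0 le_rfl
  obtain ⟨i, hi⟩ := cca_exists_mem_iff σ hE hinj hcard hR p hpmax hp0 Q' hQ'max hpQ'
  refine ⟨i, fun z => ?_⟩
  have hzint : IsIntegral (ccvR E σ i₀) (f z) :=
    ccv_isIntegral E σ hE hinj hcard i₀ (f z) (hreg z)
  have h1 := hi ⟨f z, hzint⟩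
  rw [hQ'mem] at h1
  rw [← h1]
  constructor
  · exact hQO z
  · intro hz
    by_contra hzQ
    exact hQO' z hzQ hz

/-- The number of maximal ideals `Q` of `S` with `x ∈ Q S_Q` is at most the number of classes of
any labelling of the system along which the constant coefficients (of regular elements) are
constant. -/
theorem ccv_card_le (σ : ι → L →+* LaurentSeries k)
    (hE : ∀ i j (e : E), σ i (algebraMap E L e) = σ j (algebraMap E L e))
    (hinj : Function.Injective σ) (hcard : Fintype.card ι = Module.finrank E L) (i₀ : ι)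
    (x : E) (hxne : x ≠ 0)
    (hx0 : ∀ n : ℤ, n ≤ 0 → (σ i₀ (algebraMap E L x)).coeff n = 0)
    (hdiv : ∀ e : E, (∀ n : ℤ, n ≤ 0 → (σ i₀ (algebraMap E L e)).coeff n = 0) →
      ∀ n : ℤ, n < 0 → (σ i₀ (algebraMap E L (e / x))).coeff n = 0)
    (hO : ∀ O : ValuationSubring L, algebraMap E L x ∈ O.nonunits →
      ∀ e : E, e ∈ ccvR E σ i₀ → algebraMap E L e ∈ O)
    {γ : Type*} [Fintype γ] (c : ι → γ)
    (hc : ∀ i j, c i = c j → ∀ z : L, (∀ (i' : ι) (n : ℤ), n < 0 → (σ i' z).coeff n = 0) →
      (σ i z).coeff 0 = (σ j z).coeff 0)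
    {S : Type*} [CommRing S] (f : S →+* L) (hf : Function.Injective f)
    (hreg : ∀ (z : S) (i : ι) (n : ℤ), n < 0 → (σ i (f z)).coeff n = 0)
    (s : Finset (Ideal S))
    (hs : ∀ Q ∈ s, Q.IsMaximal ∧ ∃ a ∈ Q, ∃ b, b ∉ Q ∧ f b * algebraMap E L x = f a) :
    s.card ≤ Fintype.card γ := by
  classical
  have hex : ∀ Q : s, ∃ i, ∀ z : S, z ∈ (Q : Ideal S) ↔ (σ i (f z)).coeff 0 = 0 := fun Q =>
    ccv_exists_mem_iff E σ hE hinj hcard i₀ x hxne hx0 hdiv hO f hf hreg Q.1
      (hs Q.1 Q.2).1 (hs Q.1 Q.2).2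
  choose g hg using hex
  have hinj' : Function.Injective (fun Q : s => c (g Q)) := by
    intro Q Q' h
    apply Subtype.ext
    apply Ideal.ext
    intro z
    rw [hg Q z, hg Q' z, hc _ _ h (f z) (hreg z)]
  have := Fintype.card_le_of_injective _ hinj'
  rwa [Fintype.card_coe] at this

end Count

end Fermat.Agent.S18
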