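import Fermat.Agent.S18.CuspSeries
import Fermat.Agent.S18.GaussCompat

/-!
# S18, package CUSPCOUNT (D7): the reduced cusp expansions are pairwise distinct, and `T` acts on
them by a twist

* `cci_eq_of_res_eq`: two cosets whose conjugate embeddings have the same reduction on
  `j(q^M)` are equal (`ℓ ∤ M`);
* `cci_res_T`: the reduction of `ccjTau M (T • q)` is a fixed twist of the reduction of
  `ccjTau M q`.
-/

set_option autoImplicit false

noncomputable section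

open ModularCurve Polynomial Fermat.Agent.S24
open scoped IntermediateField MatrixGroups

namespace Fermat.Agent.S18

local notation "Qb" => AlgebraicClosure ℚ

/-! ### The model series `qExpand m (twist ζ j)` -/

section Model

variable {k : Type*} [Field k]

theorem cci_coeff_neg (m : ℕ) [NeZero m] (ζ : k) (hζ : ζ ≠ 0) :
    (qExpand k m (ccjTwist ζ hζ (jqModC k))).coeff (-(m : ℤ)) = ζ⁻¹ := by
  have h1 : (-(m : ℤ)) = (m : ℤ) * (-1) := by ring
  rw [h1, qExpand_coeff_mul, ccjTwist_coeff, coeff_jqModC_neg_one, mul_one, zpow_neg_one]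

theorem cci_coeff_of_lt (m : ℕ) [NeZero m] (ζ : k) (hζ : ζ ≠ 0) {i : ℤ} (hi : i < -(m : ℤ)) :
    (qExpand k m (ccjTwist ζ hζ (jqModC k))).coeff i = 0 := by
  by_cases hdvd : (m : ℤ) ∣ i
  · obtain ⟨n, rfl⟩ := hdvd
    rw [qExpand_coeff_mul, ccjTwist_coeff]
    have hm : (0 : ℤ) < m := by exact_mod_cast Nat.pos_of_ne_zero (NeZero.ne m)
    have hn : n < -1 := by
      by_contra hn
      have h2 : (m : ℤ) * (-1) ≤ (m : ℤ) * n := mul_le_mul_of_nonneg_left (by omega) hm.le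
      omega
    rw [coeff_jqModC_of_lt k hn, mul_zero]
  · exact qExpand_coeff_of_not_dvd m _ hdvd

/-- The model series determines `m` and `ζ`. -/
theorem cci_model_inj (m m' : ℕ) [NeZero m] [NeZero m'] (ζ ζ' : k) (hζ : ζ ≠ 0) (hζ' : ζ' ≠ 0)
    (h : qExpand k m (ccjTwist ζ hζ (jqModC k)) = qExpand k m' (ccjTwist ζ' hζ' (jqModC k))) :
    m = m' ∧ ζ = ζ' := by
  have hm : m = m' := by
    rcases lt_trichotomy m m' with hlt | heq | hgt
    · exfalso
      have h1 := cci_coeff_neg m' ζ' hζ'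
      rw [← h, cci_coeff_of_lt m ζ hζ (by exact_mod_cast Int.neg_lt_neg (Int.ofNat_lt.2 hlt))]
        at h1
      exact inv_ne_zero hζ' h1.symm
    · exact heq
    · exfalso
      have h1 := cci_coeff_neg m ζ hζ
      rw [h, cci_coeff_of_lt m' ζ' hζ' (by exact_mod_cast Int.neg_lt_neg (Int.ofNat_lt.2 hgt))]
        at h1
      exact inv_ne_zero hζ h1.symm
  subst hm
  refine ⟨rfl, ?_⟩
  have h1 := cci_coeff_neg m ζ hζ
  rw [h, cci_coeff_neg m ζ' hζ'] at h1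
  exact inv_injective h1.symm

end Model

/-! ### Roots of unity with trivial residue -/

/-- A root of unity of order prime to the residue characteristic with residue `1` is `1`. -/
theorem cci_root_eq_one {K : Type*} [Field K] (A : ValuationSubring K) (ℓ : ℕ)
    [CharP (IsLocalRing.ResidueField A) ℓ] (M : ℕ) (hℓM : ¬ ℓ ∣ M) (ζ : A) (hζ : ζ ^ M = 1)
    (h1 : IsLocalRing.residue A ζ = 1) : ζ = 1 := by
  by_contra hne
  have hsum : (∑ i ∈ Finset.range M, ζ ^ i) = 0 := by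
    have h2 : (ζ - 1) * ∑ i ∈ Finset.range M, ζ ^ i = 0 := by
      rw [mul_comm, geom_sum_mul, hζ, sub_self]
    rcases mul_eq_zero.1 h2 with h3 | h3
    · exact absurd (sub_eq_zero.1 h3) hne
    · exact h3
  have h4 := congrArg (IsLocalRing.residue A) hsum
  rw [map_sum, map_zero] at h4
  simp only [map_pow, h1, one_pow, Finset.sum_const, Finset.card_range, nsmul_eq_mul,
    mul_one] at h4
  exact hℓM ((CharP.cast_eq_zero_iff (IsLocalRing.ResidueField A) ℓ M).1 h4)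

/-! ### The reductions of the conjugate embeddings -/

theorem cci_coeffEmb_jq : coeffEmb Qb jq = jqModC Qb := by
  rw [← jqModC_rat, coeffEmb, coeffMap_jqModC]

section Main

variable (A : ValuationSubring Qb)

/-- The model series over `ℚ̄` lies in the Gauss ring and reduces to the model series over the
residue field. -/
theorem cci_model_res (m : ℕ) [NeZero m] (ξ : Qb) (hξ : ξ ≠ 0) (hξA : ξ ∈ A) (hξiA : ξ⁻¹ ∈ A)
    (h : qExpand Qb m (ccjTwist ξ hξ (jqModC Qb)) ∈ grV A) :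
    grRho A ⟨qExpand Qb m (ccjTwist ξ hξ (jqModC Qb)), h⟩ =
      qExpand (IsLocalRing.ResidueField A) m
        (ccjTwist (IsLocalRing.residue A ⟨ξ, hξA⟩) (cc_residue_ne_zero A ξ hξ hξA hξiA)
          (jqModC (IsLocalRing.ResidueField A))) := by
  have hj : jqModC Qb ∈ grV A := gr_jqModC_mem A
  have ht : ccjTwist ξ hξ (jqModC Qb) ∈ grV A := cc_twist_mem A ξ hξ hξA hξiA hj
  have e1 := cc_grRho_qExpand A m ⟨ccjTwist ξ hξ (jqModC Qb), ht⟩
  have e2 := cc_grRho_twist A ξ hξ hξA hξiA ⟨jqModC Qb, hj⟩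
  rw [grRho_jqModC] at e2
  rw [← e2]
  exact e1

/-- **The reduced cusp expansions are pairwise distinct** (`ℓ ∤ M`): they are separated by
`j(q^M)`. -/
theorem cci_eq_of_res_eq {ℓ : ℕ} [Fact ℓ.Prime] (hA : A.LiesOverPrime ℓ) (M : ℕ) [NeZero M]
    (hℓM : ¬ ℓ ∣ M) (q q' : SL(2, ℤ) ⧸ CongruenceSubgroup.Gamma0 M)
    (h : ccjTau M q (jdBar M M dvd_rfl) ∈ grV A)
    (h' : ccjTau M q' (jdBar M M dvd_rfl) ∈ grV A)
    (heq : grRho A ⟨_, h⟩ = grRho A ⟨_, h'⟩) : q = q' := by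
  obtain ⟨m, hm, ξ, hξ, hξM, e1⟩ := ccj_tau_jdBar M q M dvd_rfl
  obtain ⟨m', hm', ξ', hξ', hξM', e1'⟩ := ccj_tau_jdBar M q' M dvd_rfl
  rw [cci_coeffEmb_jq] at e1 e1'
  obtain ⟨-, hξA, hξiA⟩ := cc_rootOfUnity_mem A ξ M (NeZero.ne M) hξM
  obtain ⟨-, hξA', hξiA'⟩ := cc_rootOfUnity_mem A ξ' M (NeZero.ne M) hξM'
  have hmem : qExpand Qb m (ccjTwist ξ hξ (jqModC Qb)) ∈ grV A := e1 ▸ h
  have hmem' : qExpand Qb m' (ccjTwist ξ' hξ' (jqModC Qb)) ∈ grV A := e1' ▸ h'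
  have r1 : grRho A ⟨_, h⟩ = grRho A ⟨_, hmem⟩ := congrArg (grRho A) (Subtype.ext e1)
  have r1' : grRho A ⟨_, h'⟩ = grRho A ⟨_, hmem'⟩ := congrArg (grRho A) (Subtype.ext e1')
  rw [r1, r1', cci_model_res A m ξ hξ hξA hξiA hmem,
    cci_model_res A m' ξ' hξ' hξA' hξiA' hmem'] at heq
  obtain ⟨hmm, hres⟩ := cci_model_inj m m' _ _ _ _ heq
  subst hmm
  -- `ξ = ξ'`
  have _i : CharP (IsLocalRing.ResidueField A) ℓ := grc_charP A ℓ hA
  have hξξ : ξ = ξ' := by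
    have hz : (⟨ξ, hξA⟩ * ⟨ξ'⁻¹, hξiA'⟩ : A) = 1 := by
      apply cci_root_eq_one A ℓ M hℓM
      · apply Subtype.ext
        push_cast
        rw [mul_pow, hξM, inv_pow, hξM', inv_one, mul_one]
      · have h2 : (⟨ξ', hξA'⟩ * ⟨ξ'⁻¹, hξiA'⟩ : A) = 1 := Subtype.ext (mul_inv_cancel₀ hξ')
        have h3 := congrArg (IsLocalRing.residue A) h2
        rw [map_mul, map_one] at h3
        rw [map_mul, hres]
        exact h3
    have hz' : ξ * ξ'⁻¹ = 1 := by
      have := congrArg Subtype.val hz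
      simpa using this
    exact eq_of_mul_inv_eq_one hz'
  subst hξξ
  exact ccj_tau_eq_of_jdBar M q q' (e1.trans e1'.symm)

/-- **`T` acts on the reduced cusp expansions by a twist.** -/
theorem cci_res_T (M : ℕ) [NeZero M] :
    ∃ (ζ : IsLocalRing.ResidueField A) (hζ : ζ ≠ 0),
      ∀ (q : SL(2, ℤ) ⧸ CongruenceSubgroup.Gamma0 M) (x : ↥(modularFunctionFieldBar M))
        (h : ccjTau M q x ∈ grV A) (h' : ccjTau M (ModularGroup.T • q) x ∈ grV A),
        grRho A ⟨ccjTau M (ModularGroup.T • q) x, h'⟩ =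
          ccjTwist ζ hζ (grRho A ⟨ccjTau M q x, h⟩) := by
  obtain ⟨ζ₀, hζ₀, hζM, hT⟩ := ccj_tau_T M
  obtain ⟨-, hζA, hζiA⟩ := cc_rootOfUnity_mem A ζ₀ M (NeZero.ne M) hζM
  refine ⟨IsLocalRing.residue A ⟨ζ₀, hζA⟩, cc_residue_ne_zero A ζ₀ hζ₀ hζA hζiA, ?_⟩
  intro q x h h'
  have e1 : ccjTau M (ModularGroup.T • q) x = ccjTwist ζ₀ hζ₀ (ccjTau M q x) := by
    rw [hT q]
    rfl
  have r1 : grRho A ⟨_, h'⟩ =
      grRho A ⟨ccjTwist ζ₀ hζ₀ (ccjTau M q x), cc_twist_mem A ζ₀ hζ₀ hζA hζiA h⟩ :=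
    congrArg (grRho A) (Subtype.ext e1)
  rw [r1]
  exact cc_grRho_twist A ζ₀ hζ₀ hζA hζiA ⟨ccjTau M q x, h⟩

end Main

end Fermat.Agent.S18
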