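import Fermat.Agent.S18.CuspConj
import Fermat.Agent.S18.GaussDvr
import Fermat.Agent.S18.DvrDef
import Fermat.Agent.S18.BaseChangeField

/-!
# S18, package CUSPNORM: the conjugate expansions are normalised

For every coset `q` and every `x` in the level-`M` function field over `ℚ̄`, the conjugate
expansion `ccjTau M q x ∈ ℚ̄((T))` or its inverse lies in the Gauss ring `grV A` of any valuation
subring `A` of `ℚ̄` over a prime: the expansions of the generators `j(q^d)` have coefficients in
the ring generated by the `M`-th roots of unity, so `ccjTau M q x` is defined over a number field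
`K₀` in which `A ∩ K₀` is a discrete valuation ring, and the Gauss lemma over a discrete valuation
ring applies.

* `ccn_tau_mem` : `ccjTau M q x` lies in the field generated by the constants and the series with
  coefficients in `ℤ[μ_M]`;
* `ccn_mem_or_inv_mem` : `ccjTau M q x ∈ grV A ∨ (ccjTau M q x)⁻¹ ∈ grV A`.
-/

set_option autoImplicit false

open scoped MatrixGroups

noncomputable section

namespace Fermat.Agent.S18

open Fermat.Agent.S24 ModularCurve

/-- the ring generated by the `M`-th roots of unity in `ℚ̄` -/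
def ccnR (M : ℕ) : Subring (AlgebraicClosure ℚ) := Subring.closure {ξ | ξ ^ M = 1}

/-- the field generated by the constants and the series with coefficients in `ℤ[μ_M]` -/
def ccnG (M : ℕ) : Subfield (LaurentSeries (AlgebraicClosure ℚ)) :=
  Subfield.closure
    (Set.range (algebraMap (AlgebraicClosure ℚ) (LaurentSeries (AlgebraicClosure ℚ))) ∪
      (⇑(coeffMap (ccnR M).subtype) '' Set.univ))

theorem ccn_coeffEmb_jq :
    coeffEmb (AlgebraicClosure ℚ) jq
      = coeffMap (Int.castRingHom (AlgebraicClosure ℚ)) (Fermat.Agent.S28.jd ℤ 1) := by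
  rw [Fermat.Agent.S28.coeffMap_jd,
    ← Fermat.Agent.S28.coeffMap_jd (algebraMap ℚ (AlgebraicClosure ℚ)) 1,
    Fermat.Agent.S28.jd_rat_eq_qExpand, qExpand_one_apply]
  rfl

theorem ccn_jd_coeff_mem (M : ℕ) (m : ℕ) [NeZero m] (ξ : AlgebraicClosure ℚ) (hξ : ξ ≠ 0)
    (hξM : ξ ^ M = 1) (k : ℤ) :
    (qExpand (AlgebraicClosure ℚ) m
      (ccjTwist ξ hξ (coeffEmb (AlgebraicClosure ℚ) jq))).coeff k ∈ ccnR M := by
  by_cases hk : (m : ℤ) ∣ k
  · obtain ⟨i, rfl⟩ := hk
    rw [qExpand_coeff_mul, ccjTwist_coeff, ccn_coeffEmb_jq, coeffMap_coeff]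
    refine Subring.mul_mem _ (Subring.subset_closure ?_) ?_
    · show (ξ ^ i) ^ M = 1
      rw [← zpow_natCast, ← zpow_mul, mul_comm, zpow_mul, zpow_natCast, hξM, one_zpow]
    · exact intCast_mem _ _
  · rw [qExpand_coeff_of_not_dvd _ _ hk]
    exact Subring.zero_mem _

theorem ccn_tau_evF (M : ℕ) [NeZero M] (q : SL(2, ℤ) ⧸ CongruenceSubgroup.Gamma0 M)
    (P : MvPolynomial (rzIdx M) (AlgebraicClosure ℚ)) :
    ccjTau M q (rzEvF M P) ∈ ccnG M := by
  induction P using MvPolynomial.induction_on with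
  | C c =>
    rw [rzEvF_C, ccj_tau_const]
    exact Subfield.subset_closure (Or.inl ⟨c, rfl⟩)
  | add P Q hP hQ =>
    rw [show rzEvF M (P + Q) = rzEvF M P + rzEvF M Q from (rzEvF M).toRingHom.map_add P Q,
      map_add]
    exact add_mem hP hQ
  | mul_X P d hP =>
    rw [map_mul, map_mul]
    refine mul_mem hP ?_
    rw [rzEvF_X]
    have := rz_neZero d
    obtain ⟨m, hm, ξ, hξ, hξM, h⟩ := ccj_tau_jdBar M q d.1 d.2
    have h' : ccjTau M q (rzGenF M d)
        = qExpand (AlgebraicClosure ℚ) m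
            (ccjTwist ξ hξ (coeffEmb (AlgebraicClosure ℚ) jq)) := h
    rw [h']
    obtain ⟨g, hg⟩ := dvd_lift_coeff (ccnR M) _ (ccn_jd_coeff_mem M m ξ hξ hξM)
    exact Subfield.subset_closure (Or.inr ⟨g, Set.mem_univ _, hg⟩)

/-- the conjugate expansions lie in the field generated by the constants and the series with
coefficients in `ℤ[μ_M]` -/
theorem ccn_tau_mem (M : ℕ) [NeZero M] (q : SL(2, ℤ) ⧸ CongruenceSubgroup.Gamma0 M)
    (x : ↥(modularFunctionFieldBar M)) : ccjTau M q x ∈ ccnG M := by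
  rw [rz_eq_div M x, map_div₀]
  exact div_mem (ccn_tau_evF M q _) (ccn_tau_evF M q _)

/-- roots of unity lie in every valuation subring -/
theorem ccn_root_mem {K : Type*} [Field K] (A : ValuationSubring K) (M : ℕ) (hM : 0 < M) (ξ : K)
    (hξ : ξ ^ M = 1) : ξ ∈ A := by
  rcases A.mem_or_inv_mem ξ with h | h
  · exact h
  · have h1 : ξ = (ξ⁻¹) ^ (M - 1) := by
      have hξ0 : ξ ≠ 0 := by
        intro h0
        rw [h0, zero_pow hM.ne'] at hξ
        exact zero_ne_one hξ
      have h2 : ξ * ξ ^ (M - 1) = 1 := by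
        rw [← pow_succ', Nat.sub_add_cancel hM, hξ]
      rw [inv_pow]
      exact eq_inv_of_mul_eq_one_left h2
    rw [h1]
    exact pow_mem h _

/-- **CUSPNORM.** Every conjugate expansion, or its inverse, lies in the Gauss ring. -/
theorem ccn_mem_or_inv_mem (M : ℕ) [NeZero M] (A : ValuationSubring (AlgebraicClosure ℚ))
    {ℓ : ℕ} [Fact ℓ.Prime] (hA : A.LiesOverPrime ℓ)
    (q : SL(2, ℤ) ⧸ CongruenceSubgroup.Gamma0 M) (x : ↥(modularFunctionFieldBar M)) :
    ccjTau M q x ∈ grV A ∨ (ccjTau M q x)⁻¹ ∈ grV A := by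
  classical
  have hyG : ccjTau M q x ∈ ccnG M := ccn_tau_mem M q x
  obtain ⟨T, hT⟩ := dvd_descend (ccnR M).subtype Set.univ (ccjTau M q x) hyG
  let s : Finset (AlgebraicClosure ℚ) :=
    T ∪ Polynomial.nthRootsFinset M (1 : AlgebraicClosure ℚ)
  let K0 : IntermediateField ℚ (AlgebraicClosure ℚ) :=
    IntermediateField.adjoin ℚ (s : Set (AlgebraicClosure ℚ))
  have hfd : FiniteDimensional ℚ K0 := dvd_adjoin_finite s
  have hs : ∀ c ∈ s, c ∈ K0 := fun c hc =>
    IntermediateField.subset_adjoin ℚ _ (Finset.mem_coe.mpr hc)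
  have hRK : ∀ r : ccnR M, (ccnR M).subtype r ∈ K0.toSubfield := by
    intro r
    have hle : ccnR M ≤ K0.toSubfield.toSubring := by
      rw [ccnR, Subring.closure_le]
      intro ξ hξ
      exact hs ξ (Finset.mem_union_right _
        ((Polynomial.mem_nthRootsFinset (NeZero.pos M) _).mpr hξ))
    exact hle r.2
  have hRA : ∀ r : ccnR M, (r : AlgebraicClosure ℚ) ∈ A := by
    intro r
    have hle : ccnR M ≤ A.toSubring := by
      rw [ccnR, Subring.closure_le]
      intro ξ hξ
      exact ccn_root_mem A M (NeZero.pos M) ξ hξ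
    exact hle r.2
  obtain ⟨x₀, hx₀, hxy⟩ := hT K0.toSubfield hRK
    (fun c hc => hs c (Finset.mem_union_left _ hc))
  obtain ⟨hdvr, -, -⟩ := dvd_isDVR_comap ℓ (Fact.out : ℓ.Prime).ne_zero A hA K0
  have := hdvr
  have hprop : gdvProp (A.comap (algebraMap K0 (AlgebraicClosure ℚ))) x₀ := by
    have hle : Subfield.closure (Set.range (algebraMap K0 (LaurentSeries K0)) ∪
        (⇑(coeffMap ((ccnR M).subtype.codRestrict K0.toSubfield hRK)) '' Set.univ))
        ≤ gdvField (A.comap (algebraMap K0 (AlgebraicClosure ℚ))) := by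
      rw [Subfield.closure_le]
      rintro z (⟨c, rfl⟩ | ⟨g, -, rfl⟩)
      · exact gdvProp_const _ c
      · let ψ : ccnR M →+* ↥(A.comap (algebraMap K0 (AlgebraicClosure ℚ))) :=
          ((ccnR M).subtype.codRestrict K0.toSubfield hRK).codRestrict
            (A.comap (algebraMap K0 (AlgebraicClosure ℚ))).toSubring (fun r => hRA r)
        have h1 : coeffMap ((ccnR M).subtype.codRestrict K0.toSubfield hRK) g
            = coeffMap (A.comap (algebraMap K0 (AlgebraicClosure ℚ))).subtype (coeffMap ψ g) := by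
          rw [coeffMap_coeffMap]
          rfl
        show coeffMap ((ccnR M).subtype.codRestrict K0.toSubfield hRK) g ∈ gdvField _
        rw [h1]
        exact gdv_coeffMap_mem _ _
    exact hle hx₀
  have hxy' : coeffMap (algebraMap K0 (AlgebraicClosure ℚ)) x₀ = ccjTau M q x := hxy
  rcases hprop with h0 | ⟨c, hc, u, hu, hcu⟩
  · left
    rw [← hxy', h0, map_zero]
    exact Subring.zero_mem _
  · have hu1 : coeffMap (algebraMap K0 (AlgebraicClosure ℚ)) u ∈ grV A := bcf_grV_mem A hu.2.1
    have hu2 : (coeffMap (algebraMap K0 (AlgebraicClosure ℚ)) u)⁻¹ ∈ grV A := by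
      rw [← map_inv₀]
      exact bcf_grV_mem A hu.2.2
    have hy : ccjTau M q x
        = algebraMap (AlgebraicClosure ℚ) (LaurentSeries (AlgebraicClosure ℚ))
            (algebraMap K0 (AlgebraicClosure ℚ) c)
          * coeffMap (algebraMap K0 (AlgebraicClosure ℚ)) u := by
      rw [← hxy', hcu, map_mul, bcf_coeffMap_algebraMap]
    rcases A.mem_or_inv_mem (algebraMap K0 (AlgebraicClosure ℚ) c) with hcA | hcA
    · left
      rw [hy]
      exact Subring.mul_mem _ ((gr_algebraMap_mem_iff A _).mpr hcA) hu1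
    · right
      rw [hy, mul_inv, ← map_inv₀]
      exact Subring.mul_mem _ ((gr_algebraMap_mem_iff A _).mpr hcA) hu2

end Fermat.Agent.S18
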