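import Mathlib
import Fermat.Agent.S18.CuspCountVal

/-!
# S18, package CUSPCOUNT: two abstract leaves (D2 / D2a)

Setting: fields `k`, `κ`, a ring homomorphism `cst : k →+* κ` ("constants"), a ring homomorphism
`σ : κ →+* k((q))` restricting to the constants on `cst k`, and `x : κ` nonzero whose expansion
`σ x` has only coefficients of positive index.

* `ccr_eval_ne_zero`: `x` is transcendental over the constants: `Q(x) ≠ 0` for `Q ≠ 0`.
* `ccr_mem_of_rat`: a rational function `e = P(x)/Q(x)` whose expansion is a power series lies in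
  every valuation subring `O ⊇ cst k` of `κ` having `x` as a non-unit.

Both follow from the computation of the valuation of `Q(x)` in a valuation subring `V ⊇ cst k`
with `x` a non-unit: `v (Q(x)) = v(x) ^ (multiplicity of 0 as a root of Q)`.

Names are prefixed `ccr_`.
-/

set_option autoImplicit false

namespace Fermat.Agent.S18

open Polynomial

section Val

variable {k κ : Type*} [Field k] [Field κ] (cst : k →+* κ) (V : ValuationSubring κ)

theorem ccr_eval_mem (hcV : ∀ c : k, cst c ∈ V) (x : κ) (hx : x ∈ V) (Q : Polynomial k) :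
    eval₂ cst x Q ∈ V := by
  rw [eval₂_eq_sum_range]
  exact sum_mem fun i _ => V.mul_mem _ _ (hcV _) (pow_mem hx i)

theorem ccr_valuation_const (hcV : ∀ c : k, cst c ∈ V) (c : k) (hc : c ≠ 0) :
    V.valuation (cst c) = 1 := by
  have h1 : V.valuation (cst c) ≤ 1 := (V.valuation_le_one_iff _).mpr (hcV c)
  have h2 : V.valuation (cst c⁻¹) ≤ 1 := (V.valuation_le_one_iff _).mpr (hcV c⁻¹)
  have h3 : V.valuation (cst c) * V.valuation (cst c⁻¹) = 1 := by
    rw [← map_mul, ← map_mul, mul_inv_cancel₀ hc, map_one, map_one]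
  refine le_antisymm h1 ?_
  calc (1 : V.ValueGroup) = V.valuation (cst c) * V.valuation (cst c⁻¹) := h3.symm
    _ ≤ V.valuation (cst c) * 1 := mul_le_mul' le_rfl h2
    _ = V.valuation (cst c) := mul_one _

/-- A polynomial with nonzero constant coefficient takes a unit value at a non-unit. -/
theorem ccr_valuation_eval_unit (hcV : ∀ c : k, cst c ∈ V) (x : κ) (hx : x ∈ V.nonunits)
    (Q : Polynomial k) (hQ : Q.coeff 0 ≠ 0) : V.valuation (eval₂ cst x Q) = 1 := by
  have hx1 : V.valuation x < 1 := (V.mem_nonunits_iff).mp hx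
  have hxV : x ∈ V := (V.valuation_le_one_iff _).mp hx1.le
  have h1 : eval₂ cst x Q = cst (Q.coeff 0) + eval₂ cst x Q.divX * x := by
    conv_lhs => rw [← divX_mul_X_add Q]
    rw [eval₂_add, eval₂_mul, eval₂_X, eval₂_C, add_comm]
  have h2 : V.valuation (eval₂ cst x Q.divX * x) < 1 := by
    rw [map_mul]
    have h3 : V.valuation (eval₂ cst x Q.divX) ≤ 1 :=
      (V.valuation_le_one_iff _).mpr (ccr_eval_mem cst V hcV x hxV _)
    calc V.valuation (eval₂ cst x Q.divX) * V.valuation x ≤ 1 * V.valuation x :=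
          mul_le_mul' h3 le_rfl
      _ = V.valuation x := one_mul _
      _ < 1 := hx1
  have h4 : V.valuation (cst (Q.coeff 0)) = 1 := ccr_valuation_const cst V hcV _ hQ
  rw [h1, V.valuation.map_add_eq_of_lt_left (by rw [h4]; exact h2), h4]

/-- The valuation of `Q(x)` for `x` a non-unit: `v(x) ^ m`, `m` the multiplicity of the root
`0` of `Q`. -/
theorem ccr_valuation_eval (hcV : ∀ c : k, cst c ∈ V) (x : κ) (hx : x ∈ V.nonunits)
    (Q : Polynomial k) (hQ : Q ≠ 0) :
    V.valuation (eval₂ cst x Q) = V.valuation x ^ Q.rootMultiplicity 0 := by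
  obtain ⟨Q1, hQ1, hnd⟩ := exists_eq_pow_rootMultiplicity_mul_and_not_dvd Q hQ 0
  rw [C_0, sub_zero] at hQ1 hnd
  have h0 : Q1.coeff 0 ≠ 0 := fun h => hnd (X_dvd_iff.mpr h)
  conv_lhs => rw [hQ1]
  rw [eval₂_mul, eval₂_pow, eval₂_X, map_mul, map_pow,
    ccr_valuation_eval_unit cst V hcV x hx Q1 h0, mul_one]

end Val

section Main

variable {k κ : Type*} [Field k] [Field κ]

/-- The valuation subring of `κ` of the elements whose expansion is a power series. -/
theorem ccr_const_mem_comap (cst : k →+* κ) (σ : κ →+* LaurentSeries k)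
    (hσc : ∀ c : k, σ (cst c) = algebraMap k (LaurentSeries k) c) (c : k) :
    cst c ∈ (ccvPS k).comap σ := by
  rw [ValuationSubring.mem_comap, hσc, ccv_mem_PS]
  intro n hn
  rw [HahnSeries.algebraMap_apply']
  exact cca_coeff_ofPowerSeries_neg _ n hn

theorem ccr_mem_nonunits_comap (σ : κ →+* LaurentSeries k) (x : κ) (hx0 : x ≠ 0)
    (hσx : ∀ n : ℤ, n ≤ 0 → (σ x).coeff n = 0) : x ∈ ((ccvPS k).comap σ).nonunits := by
  rw [ValuationSubring.mem_nonunits_iff]
  by_contra hlt
  have h1 : ((ccvPS k).comap σ).valuation x⁻¹ ≤ 1 := by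
    rw [map_inv₀]
    exact inv_le_one_of_one_le₀ (not_lt.mp hlt)
  have h2 : x⁻¹ ∈ (ccvPS k).comap σ := (ValuationSubring.valuation_le_one_iff _ _).mp h1
  rw [ValuationSubring.mem_comap, ccv_mem_PS] at h2
  have h3 := ccv_coeff_zero_mul k (fun n hn => hσx n hn.le) h2
  rw [← map_mul, mul_inv_cancel₀ hx0, map_one, hσx 0 le_rfl, zero_mul] at h3
  simp at h3

/-- **D2.** `x` is transcendental over the constants. -/
theorem ccr_eval_ne_zero {k κ : Type*} [Field k] [Field κ] (cst : k →+* κ)
    (σ : κ →+* LaurentSeries k)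
    (hσc : ∀ c : k, σ (cst c) = algebraMap k (LaurentSeries k) c) (x : κ) (hx0 : x ≠ 0)
    (hσx : ∀ n : ℤ, n ≤ 0 → (σ x).coeff n = 0) (Q : Polynomial k) (hQ : Q ≠ 0) :
    Polynomial.eval₂ cst x Q ≠ 0 := by
  intro h0
  have h1 := ccr_valuation_eval cst ((ccvPS k).comap σ) (ccr_const_mem_comap cst σ hσc) x
    (ccr_mem_nonunits_comap σ x hx0 hσx) Q hQ
  rw [h0, map_zero] at h1
  exact pow_ne_zero _ ((Valuation.ne_zero_iff _).mpr hx0) h1.symm

/-- **D2a.** A rational function of `x` whose expansion is a power series lies in every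
valuation subring containing the constants and having `x` as a non-unit. -/
theorem ccr_mem_of_rat {k κ : Type*} [Field k] [Field κ] (cst : k →+* κ) (O : ValuationSubring κ)
    (hcO : ∀ c : k, cst c ∈ O) (σ : κ →+* LaurentSeries k)
    (hσc : ∀ c : k, σ (cst c) = algebraMap k (LaurentSeries k) c) (x : κ)
    (hx : x ∈ O.nonunits) (hx0 : x ≠ 0) (hσx : ∀ n : ℤ, n ≤ 0 → (σ x).coeff n = 0) (e : κ)
    (he : ∀ n : ℤ, n < 0 → (σ e).coeff n = 0) (P Q : Polynomial k) (hQ : Q ≠ 0)
    (h : e * Polynomial.eval₂ cst x Q = Polynomial.eval₂ cst x P) : e ∈ O := by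
  have hQx : eval₂ cst x Q ≠ 0 := ccr_eval_ne_zero cst σ hσc x hx0 hσx Q hQ
  by_cases hP : P = 0
  · rw [hP, eval₂_zero] at h
    rcases mul_eq_zero.mp h with h1 | h1
    · rw [h1]
      exact O.zero_mem
    · exact absurd h1 hQx
  set W : ValuationSubring κ := (ccvPS k).comap σ with hW
  have hcW : ∀ c : k, cst c ∈ W := ccr_const_mem_comap cst σ hσc
  have hxW : x ∈ W.nonunits := ccr_mem_nonunits_comap σ x hx0 hσx
  have heW : W.valuation e ≤ 1 := by
    rw [ValuationSubring.valuation_le_one_iff, hW, ValuationSubring.mem_comap, ccv_mem_PS]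
    exact he
  set m := Q.rootMultiplicity 0 with hm
  set r := P.rootMultiplicity 0 with hr
  -- the relation in `W` gives `m ≤ r`
  have hWrel : W.valuation e * W.valuation x ^ m = W.valuation x ^ r := by
    rw [← ccr_valuation_eval cst W hcW x hxW Q hQ, ← ccr_valuation_eval cst W hcW x hxW P hP,
      ← map_mul, h]
  have hmr : m ≤ r := by
    by_contra hlt
    have hlt' : r < m := not_le.mp hlt
    have h1 : W.valuation x ^ m < W.valuation x ^ r :=
      pow_lt_pow_right_of_lt_one₀ (zero_lt_iff.mpr ((Valuation.ne_zero_iff _).mpr hx0))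
        ((W.mem_nonunits_iff).mp hxW) hlt'
    have h2 : W.valuation x ^ r ≤ W.valuation x ^ m := by
      rw [← hWrel]
      calc W.valuation e * W.valuation x ^ m ≤ 1 * W.valuation x ^ m := mul_le_mul' heW le_rfl
        _ = W.valuation x ^ m := one_mul _
    exact absurd h1 (not_lt.mpr h2)
  -- the relation in `O` then gives `v(e) = v(x) ^ (r - m) ≤ 1`
  have hOrel : O.valuation e * O.valuation x ^ m = O.valuation x ^ r := by
    rw [← ccr_valuation_eval cst O hcO x hx Q hQ, ← ccr_valuation_eval cst O hcO x hx P hP,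
      ← map_mul, h]
  have hxO0 : O.valuation x ^ m ≠ 0 := pow_ne_zero _ ((Valuation.ne_zero_iff _).mpr hx0)
  have h3 : O.valuation e = O.valuation x ^ (r - m) := by
    apply mul_right_cancel₀ hxO0
    rw [hOrel, ← pow_add, Nat.sub_add_cancel hmr]
  rw [← ValuationSubring.valuation_le_one_iff, h3]
  exact pow_le_one' ((O.mem_nonunits_iff).mp hx).le _

end Main

end Fermat.Agent.S18
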