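import Mathlib
import Fermat.Prelude.Def_FLTPrelim_Ramification

/-!
# S18, package CUSPCOUNT: two abstract leaves (D3 / D6)

* `ccs_const_mem`: for `A` a valuation subring of `ℚ̄` lying over `ℓ`, every ring homomorphism
  `cst` from the residue field of `A` to a field `κ` takes its values in every valuation subring
  of `κ` (the residue field is integral over `ℤ`, and valuation subrings are integrally closed).
* `ccs_isSeparable_of_le`: if `κ / E` is separable and the image of `E` in `κ` is contained in
  the image of `Kk`, then `κ / Kk` is separable.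

Names are prefixed `ccs_`.
-/

set_option autoImplicit false

namespace Fermat.Agent.S18

open Polynomial

/-- A valuation subring contains every element integral over `ℤ`. -/
theorem ccs_mem_of_isIntegral_int {κ : Type*} [Field κ] (O : ValuationSubring κ) (x : κ)
    (hx : IsIntegral ℤ x) : x ∈ O := by
  have h1 : IsIntegral O x := hx.tower_top
  obtain ⟨y, hy⟩ := IsIntegrallyClosed.isIntegral_iff.mp h1
  rw [← hy]
  exact y.2

/-- The residue field of a valuation subring lying over `ℓ` has characteristic `ℓ`. -/
theorem ccs_charP {ℓ : ℕ} [Fact ℓ.Prime] {K : Type*} [Field K] (A : ValuationSubring K)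
    (hA : A.LiesOverPrime ℓ) : CharP (IsLocalRing.ResidueField A) ℓ := by
  rw [CharP.charP_iff_prime_eq_zero (Fact.out : ℓ.Prime)]
  have h1 : ((ℓ : A) : K) ∈ A.nonunits := by
    rw [show ((ℓ : A) : K) = (ℓ : K) from by simp]
    exact hA
  have h2 : (ℓ : A) ∈ IsLocalRing.maximalIdeal A := by
    rw [IsLocalRing.mem_maximalIdeal]
    exact (A.coe_mem_nonunits_iff).mp h1
  have h3 := (IsLocalRing.residue_eq_zero_iff (ℓ : A)).mpr h2
  rwa [map_natCast] at h3

/-- The residue field of a valuation subring of `ℚ̄` lying over `ℓ` is integral over `ℤ`. -/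
theorem ccs_isIntegral_int {ℓ : ℕ} [Fact ℓ.Prime] (A : ValuationSubring (AlgebraicClosure ℚ))
    (hA : A.LiesOverPrime ℓ) (c : IsLocalRing.ResidueField A) : IsIntegral ℤ c := by
  have : CharP (IsLocalRing.ResidueField A) ℓ := ccs_charP A hA
  obtain ⟨a, rfl⟩ := IsLocalRing.residue_surjective c
  -- a nonzero integer polynomial killing `a`
  have halg : IsAlgebraic ℤ (a : AlgebraicClosure ℚ) :=
    (IsFractionRing.isAlgebraic_iff ℤ ℚ (AlgebraicClosure ℚ)).mpr
      ((AlgebraicClosure.isAlgebraic ℚ).isAlgebraic (a : AlgebraicClosure ℚ))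
  obtain ⟨p0, hp0, hp0a⟩ := halg
  have hpa : aeval (a : AlgebraicClosure ℚ) p0.primPart = 0 :=
    aeval_primPart_eq_zero hp0 hp0a
  set p := p0.primPart with hp
  have hprim : p.IsPrimitive := p0.isPrimitive_primPart
  -- its reduction mod `ℓ` is nonzero
  let π : ℤ →+* ZMod ℓ := Int.castRingHom (ZMod ℓ)
  have hπ : Function.Surjective π := ZMod.intCast_surjective
  have hpbar : p.map π ≠ 0 := by
    intro h0
    have h1 : (C (ℓ : ℤ)) ∣ p := by
      rw [C_dvd_iff_dvd_coeff]
      intro i
      have h2 : π (p.coeff i) = 0 := by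
        rw [← coeff_map, h0, coeff_zero]
      exact (ZMod.intCast_zmod_eq_zero_iff_dvd _ _).mp h2
    have h3 := hprim _ h1
    have h4 : Prime (ℓ : ℤ) := Nat.prime_iff_prime_int.mp Fact.out
    exact h4.not_isUnit h3
  -- normalise to a monic polynomial and lift it
  let φ : ZMod ℓ →+* IsLocalRing.ResidueField A := ZMod.castHom (dvd_refl ℓ) _
  have hcomp : φ.comp π = Int.castRingHom (IsLocalRing.ResidueField A) := RingHom.ext_int _ _
  set u := (p.map π).leadingCoeff with hu
  have hu0 : u ≠ 0 := leadingCoeff_ne_zero.mpr hpbar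
  have hmonic : (C u⁻¹ * p.map π).Monic := by
    rw [Monic, leadingCoeff_mul, leadingCoeff_C, ← hu, inv_mul_cancel₀ hu0]
  obtain ⟨m, hm, -, hmm⟩ := lifts_and_natDegree_eq_and_monic
    ((mem_lifts _).mpr (map_surjective π hπ _)) hmonic
  refine ⟨m, hmm, ?_⟩
  -- `p` kills the residue of `a`
  have hpA : eval₂ (Int.castRingHom A) a p = 0 := by
    apply Subtype.ext
    have h1 : ((eval₂ (Int.castRingHom A) a p : A) : AlgebraicClosure ℚ) =
        eval₂ (A.subtype.comp (Int.castRingHom A)) (a : AlgebraicClosure ℚ) p := by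
      rw [← A.subtype_apply, hom_eval₂]
      rfl
    rw [h1, show A.subtype.comp (Int.castRingHom A) = algebraMap ℤ (AlgebraicClosure ℚ) from
      RingHom.ext_int _ _]
    exact hpa
  have hpk : eval₂ (Int.castRingHom (IsLocalRing.ResidueField A)) (IsLocalRing.residue A a) p
      = 0 := by
    have h1 := congrArg (IsLocalRing.residue A) hpA
    rw [hom_eval₂, map_zero] at h1
    rw [← h1]
    congr 1
  have h2 : eval₂ (algebraMap ℤ (IsLocalRing.ResidueField A)) (IsLocalRing.residue A a) m
      = eval₂ φ (IsLocalRing.residue A a) (m.map π) := by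
    rw [eval₂_map, hcomp]
    congr 1
  rw [h2, hm, eval₂_mul, eval₂_C, eval₂_map, hcomp, hpk, mul_zero]

/-- **D3.** Constants lie in every valuation subring: for `A` a valuation subring of `ℚ̄` lying
over `ℓ` and any ring homomorphism `cst` from its residue field to a field `κ`, the image of
`cst` is contained in every valuation subring `O` of `κ`. -/
theorem ccs_const_mem {ℓ : ℕ} [Fact ℓ.Prime] (A : ValuationSubring (AlgebraicClosure ℚ))
    (hA : A.LiesOverPrime ℓ) {κ : Type*} [Field κ] (cst : IsLocalRing.ResidueField A →+* κ)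
    (O : ValuationSubring κ) (c : IsLocalRing.ResidueField A) : cst c ∈ O :=
  ccs_mem_of_isIntegral_int O _ (map_isIntegral_int cst (ccs_isIntegral_int A hA c))

/-- **D6.** Separability descends along an inclusion of base fields (stated through the images in
`κ`): if `κ / E` is separable and the image of `E` in `κ` lies in the image of `Kk`, then
`κ / Kk` is separable. -/
theorem ccs_isSeparable_of_le {E Kk κ : Type*} [Field E] [Field Kk] [Field κ] [Algebra E κ]
    [Algebra Kk κ] [Algebra.IsSeparable E κ]
    (h : ∀ e : E, algebraMap E κ e ∈ (algebraMap Kk κ).range) : Algebra.IsSeparable Kk κ := by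
  refine ⟨fun y => ?_⟩
  have hsep : (minpoly E y).Separable := Algebra.IsSeparable.isSeparable E y
  have hlift : (minpoly E y).map (algebraMap E κ) ∈ lifts (algebraMap Kk κ) := by
    rw [lifts_iff_coeff_lifts]
    intro n
    rw [coeff_map]
    exact h _
  obtain ⟨p', hp'⟩ := (mem_lifts _).mp hlift
  have hp'sep : p'.Separable := by
    rw [← separable_map (algebraMap Kk κ), hp']
    exact hsep.map
  have hroot : aeval y p' = 0 := by
    rw [aeval_def, ← eval_map, hp', eval_map, ← aeval_def, minpoly.aeval]
  exact hp'sep.of_dvd (minpoly.dvd Kk y hroot)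

end Fermat.Agent.S18
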