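import Fermat.Agent.S24.SysCusp

/-!
# S18, package CUSPCONJ: the conjugate embeddings at the cusps, over `ℚ̄`

S24 constructs, for every coset `q = γ Γ₀(N)`, the ring homomorphism
`scPhi N q : F_N(ℚ̄) →+* ℂ((T))` (`f ↦` Laurent expansion of `f (γ⁻¹ (N τ))`).  Its values have
coefficients in `ℚ̄` (the only non-rational constants are roots of unity), so it descends to
`ccjTau N q : F_N(ℚ̄) →+* ℚ̄((T))` with `coeffMap ιc ∘ ccjTau N q = scPhi N q`.

* `ccjTwist`: the coefficientwise twist `T ↦ ζ T` over any field;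
* `ccjTau`, `ccj_tau_spec`, `ccj_tau_const`, `ccj_tau_jBar`, `ccj_tau_jdBar`;
* `ccj_tau_eq_of_jdBar`: the embeddings are separated by `j(q^N)`;
* `ccj_tau_T`: `ccjTau (T q) = twist ∘ ccjTau q`.
-/

set_option autoImplicit false

open UpperHalfPlane ModularForm EisensteinSeries
open scoped MatrixGroups Manifold

noncomputable section

namespace Fermat.Agent.S18

open Fermat.Agent.S24 ModularCurve

/-! ### The coefficientwise twist over a field -/

/-- coefficientwise twist of a Laurent series: the coefficient of `T^n` is multiplied by `ζ^n` -/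
def ccjTwistFun {K : Type*} [Field K] (ζ : K) (f : LaurentSeries K) : LaurentSeries K :=
  ⟨fun n => ζ ^ n * f.coeff n, f.isPWO_support.mono fun n hn => by
    simp only [Function.mem_support, ne_eq] at hn
    exact fun h => hn (by rw [h, mul_zero])⟩

theorem ccjTwistFun_coeff {K : Type*} [Field K] (ζ : K) (f : LaurentSeries K) (n : ℤ) :
    (ccjTwistFun ζ f).coeff n = ζ ^ n * f.coeff n := rfl

/-- coefficientwise twist, a ring homomorphism for `ζ ≠ 0` -/
def ccjTwist {K : Type*} [Field K] (ζ : K) (hζ : ζ ≠ 0) : LaurentSeries K →+* LaurentSeries K where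
  toFun := ccjTwistFun ζ
  map_one' := by
    ext n
    rw [ccjTwistFun_coeff, HahnSeries.coeff_one]
    split_ifs with h
    · subst h
      simp
    · simp
  map_mul' x y := by
    ext a
    rw [ccjTwistFun_coeff, HahnSeries.coeff_mul, HahnSeries.coeff_mul, Finset.mul_sum]
    refine Finset.sum_congr ?_ ?_
    · ext ij
      simp only [Finset.mem_antidiagonal, HahnSeries.mem_support, ccjTwistFun_coeff, ne_eq,
        mul_eq_zero, zpow_ne_zero _ hζ, false_or]
    · intro ij hij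
      rw [Finset.mem_antidiagonal] at hij
      rw [ccjTwistFun_coeff, ccjTwistFun_coeff, ← hij.2.2, zpow_add₀ hζ]
      ring
  map_zero' := by
    ext n
    simp [ccjTwistFun_coeff]
  map_add' x y := by
    ext n
    simp [ccjTwistFun_coeff, mul_add]

theorem ccjTwist_coeff {K : Type*} [Field K] (ζ : K) (hζ : ζ ≠ 0) (f : LaurentSeries K) (n : ℤ) :
    (ccjTwist ζ hζ f).coeff n = ζ ^ n * f.coeff n := rfl

theorem ccj_twist_congr {ζ ζ' : ℂ} (h : ζ = ζ') (hζ : ζ ≠ 0) (hζ' : ζ' ≠ 0)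
    (x : LaurentSeries ℂ) : twist ζ hζ x = twist ζ' hζ' x := by
  subst h
  rfl

theorem ccj_coeffMap_twist (ξ : AlgebraicClosure ℚ) (hξ : ξ ≠ 0)
    (x : LaurentSeries (AlgebraicClosure ℚ)) :
    coeffMap ιc (ccjTwist ξ hξ x) = twist (ιc ξ) ((map_ne_zero ιc).mpr hξ) (coeffMap ιc x) := by
  ext n
  rw [coeffMap_coeff, ccjTwist_coeff, twist_coeff, coeffMap_coeff, map_mul, map_zpow₀]

theorem ccj_coeffMap_injective :
    Function.Injective (coeffMap ιc :
      LaurentSeries (AlgebraicClosure ℚ) →+* LaurentSeries ℂ) :=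
  (coeffMap ιc).injective

theorem ccj_coeffMap_coeffEmb (x : LaurentSeries ℚ) :
    coeffMap ιc (coeffEmb (AlgebraicClosure ℚ) x) = coeffEmb ℂ x := by
  rw [coeffEmb, coeffMap_coeffMap, rz_ιc_comp]
  rfl

/-! ### Roots of unity are algebraic -/

theorem ccj_exists_root (n : ℕ) (hn : 0 < n) (z : ℂ) (hz : z ^ n = 1) :
    ∃ ξ : AlgebraicClosure ℚ, ξ ^ n = 1 ∧ ιc ξ = z := by
  have : NeZero n := ⟨hn.ne'⟩
  obtain ⟨ξ₀, hξ₀⟩ := HasEnoughRootsOfUnity.exists_primitiveRoot (AlgebraicClosure ℚ) n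
  have h1 : IsPrimitiveRoot (ιc ξ₀) n := hξ₀.map_of_injective ιc.injective
  obtain ⟨i, _, hi⟩ := h1.eq_pow_of_pow_eq_one hz
  refine ⟨ξ₀ ^ i, ?_, by rw [map_pow, hi]⟩
  rw [← pow_mul, mul_comm, pow_mul, hξ₀.pow_eq_one, one_pow]

theorem ccj_exp_pow (b : ℤ) (e : ℕ) (he : 0 < e) :
    Complex.exp (2 * Real.pi * Complex.I * (((b : ℝ) / e : ℝ) : ℂ)) ^ e = 1 := by
  have e_ne : (e : ℂ) ≠ 0 := by exact_mod_cast he.ne'
  rw [← Complex.exp_nat_mul]
  have h1 : (e : ℂ) * (2 * Real.pi * Complex.I * (((b : ℝ) / e : ℝ) : ℂ))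
      = (b : ℂ) * (2 * Real.pi * Complex.I) := by
    push_cast
    field_simp
  rw [h1]
  exact Complex.exp_int_mul_two_pi_mul_I b

/-! ### The conjugates at the cusp, with rational translation -/

/-- `j(d · γ(Nτ)) = j(kτ + b/e)` with `k ≥ 1` and `e ∣ N` -/
theorem ccj_jd_smul_scale (N d : ℕ) [NeZero N] (hd : d ∣ N) (γ : SL(2, ℤ)) :
    ∃ (k e : ℕ) (b : ℤ), 0 < k ∧ 0 < e ∧ e ∣ N ∧
      ∀ τ : ℍ, jd d (γ • ofComplex ((N : ℂ) * τ))
        = jFun (((b : ℝ) / e : ℝ) +ᵥ ofComplex ((k : ℂ) * τ)) := by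
  have hd0 : 0 < d := Nat.pos_of_ne_zero
    (fun h => NeZero.ne N (by rw [h] at hd; exact Nat.eq_zero_of_zero_dvd hd))
  obtain ⟨a, e, b, ha, he, hae, hgcd, hj⟩ := jc_hermite d hd0 γ
  have heN : e ∣ N := (Dvd.intro_left a hae).trans hd
  obtain ⟨m, hm⟩ := heN
  have hm0 : 0 < m := Nat.pos_of_ne_zero (fun h => NeZero.ne N (by rw [hm, h, mul_zero]))
  refine ⟨a * m, e, b, Nat.mul_pos ha hm0, he, ⟨m, hm⟩, fun τ => ?_⟩
  rw [hj]
  have hNτ : 0 < ((N : ℂ) * (τ : ℂ)).im := by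
    have h1 : ((N : ℂ) * (τ : ℂ)).im = N * τ.im := by simp [Complex.mul_im]
    rw [h1]
    have : (0 : ℝ) < N := by exact_mod_cast NeZero.pos N
    have := τ.im_pos
    positivity
  have hkτ : 0 < (((a * m : ℕ) : ℂ) * (τ : ℂ)).im := by
    have h1 : (((a * m : ℕ) : ℂ) * (τ : ℂ)).im = (a * m : ℕ) * τ.im := by simp [Complex.mul_im]
    rw [h1]
    have : (0 : ℝ) < (a * m : ℕ) := by exact_mod_cast Nat.mul_pos ha hm0
    have := τ.im_pos
    positivity
  have e_ne : (e : ℂ) ≠ 0 := by exact_mod_cast he.ne'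
  rw [ofComplex_apply_of_im_pos hNτ, ofComplex_apply_of_im_pos hkτ, ← jc_jC_coe,
    UpperHalfPlane.coe_vadd]
  congr 1
  show ((a : ℂ) * ((N : ℂ) * (τ : ℂ)) + b) / e = (((b : ℝ) / e : ℝ) : ℂ) + ((a * m : ℕ) : ℂ) * τ
  rw [hm]
  push_cast
  field_simp
  ring

/-! ### The expansions have algebraic coefficients -/

theorem ccj_theta_jd (N : ℕ) [NeZero N] (γ : SL(2, ℤ)) (d : ℕ) (hd : d ∣ N) :
    ∃ (m : ℕ) (_ : NeZero m) (ξ : AlgebraicClosure ℚ) (hξ : ξ ≠ 0), ξ ^ N = 1 ∧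
      scTheta N γ ⟨jd d, jd_mem_anaRing hd⟩
        = coeffMap ιc (qExpand (AlgebraicClosure ℚ) m
            (ccjTwist ξ hξ (coeffEmb (AlgebraicClosure ℚ) jq))) := by
  obtain ⟨k, e, b, hk, he, heN, h⟩ := ccj_jd_smul_scale N d hd γ⁻¹
  have hkne : NeZero k := ⟨hk.ne'⟩
  obtain ⟨ξ, hξe, hξ⟩ := ccj_exists_root e he _ (ccj_exp_pow b e he)
  have hξ0 : ξ ≠ 0 := by
    intro h0
    rw [h0, zero_pow he.ne'] at hξe
    exact zero_ne_one hξe
  have hξN : ξ ^ N = 1 := by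
    obtain ⟨m, hm⟩ := heN
    rw [hm, pow_mul, hξe, one_pow]
  refine ⟨k, hkne, ξ, hξ0, hξN, ?_⟩
  have e1 : (⟨scComp N γ (jd d), sc_isWH N γ (jd_mem_anaRing hd)⟩ : whSubring)
      = ⟨fun τ : ℍ => (fun τ' : ℍ => jFun ((((b : ℝ) / e : ℝ)) +ᵥ τ')) (ofComplex ((k : ℂ) * τ)),
          isWH_scale k hk (isWH_vadd ((b : ℝ) / e) isWH_jFun)⟩ :=
    Subtype.ext (funext fun τ => h τ)
  rw [sc_theta_apply]
  show qLaurent ⟨scComp N γ (jd d), sc_isWH N γ (jd_mem_anaRing hd)⟩ = _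
  rw [e1, qLaurent_scale k _ (isWH_vadd ((b : ℝ) / e) isWH_jFun),
    qLaurent_vadd ((b : ℝ) / e) jFun isWH_jFun, qLaurent_jFun, coeffMap_qExpand,
    ccj_coeffMap_twist, ccj_coeffMap_coeffEmb]
  congr 1
  exact ccj_twist_congr hξ.symm _ _ _

theorem ccj_theta_const (N : ℕ) [NeZero N] (γ : SL(2, ℤ)) (c : AlgebraicClosure ℚ) :
    scTheta N γ (rzConst N c) = coeffMap ιc (HahnSeries.C c) := by
  rw [sc_theta_apply]
  have e1 : (⟨scComp N γ (rzConst N c).1, sc_isWH N γ (rzConst N c).2⟩ : whSubring)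
      = ⟨fun _ : ℍ => ιc c, ql_isWH_const (ιc c)⟩ := rfl
  rw [e1, qLaurent_const, HahnSeries.C_apply, HahnSeries.C_apply, coeffMap_single]

theorem ccj_theta_mem_range (N : ℕ) [NeZero N] (γ : SL(2, ℤ)) (g : anaRing N) :
    ∃ x : LaurentSeries (AlgebraicClosure ℚ), coeffMap ιc x = scTheta N γ g := by
  classical
  have hgen : ∀ d : rzIdx N, ∃ x : LaurentSeries (AlgebraicClosure ℚ),
      coeffMap ιc x = scTheta N γ (rzGenA N d) := by
    intro d
    obtain ⟨m, hm, ξ, hξ, _, h⟩ := ccj_theta_jd N γ d.1 d.2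
    exact ⟨_, h.symm⟩
  choose s hs using hgen
  let Ψ : MvPolynomial (rzIdx N) (AlgebraicClosure ℚ) →+* LaurentSeries (AlgebraicClosure ℚ) :=
    MvPolynomial.eval₂Hom (HahnSeries.C : AlgebraicClosure ℚ →+* _) s
  have hcomp : (coeffMap ιc).comp Ψ = (scTheta N γ).comp (rzEvA N) := by
    refine MvPolynomial.ringHom_ext ?_ ?_
    · intro c
      show coeffMap ιc (Ψ (MvPolynomial.C c)) = scTheta N γ (rzEvA N (MvPolynomial.C c))
      rw [rzEvA_C, ccj_theta_const]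
      congr 1
      exact MvPolynomial.eval₂Hom_C _ _ c
    · intro d
      show coeffMap ιc (Ψ (MvPolynomial.X d)) = scTheta N γ (rzEvA N (MvPolynomial.X d))
      rw [rzEvA_X, ← hs d]
      congr 1
      exact MvPolynomial.eval₂Hom_X' _ _ d
  obtain ⟨P, rfl⟩ := rz_evA_surjective N g
  exact ⟨Ψ P, congrArg (fun φ => φ P) hcomp⟩

/-- the expansion of `g ∘ γ⁻¹` with coefficients in `ℚ̄` -/
def ccjTheta (N : ℕ) [NeZero N] (γ : SL(2, ℤ)) :
    anaRing N →+* LaurentSeries (AlgebraicClosure ℚ) where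
  toFun g := Classical.choose (ccj_theta_mem_range N γ g)
  map_one' := ccj_coeffMap_injective (by
    rw [Classical.choose_spec (ccj_theta_mem_range N γ 1), map_one, map_one])
  map_mul' x y := ccj_coeffMap_injective (by
    rw [Classical.choose_spec (ccj_theta_mem_range N γ (x * y)), map_mul, map_mul,
      Classical.choose_spec (ccj_theta_mem_range N γ x),
      Classical.choose_spec (ccj_theta_mem_range N γ y)])
  map_zero' := ccj_coeffMap_injective (by
    rw [Classical.choose_spec (ccj_theta_mem_range N γ 0), map_zero, map_zero])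
  map_add' x y := ccj_coeffMap_injective (by
    rw [Classical.choose_spec (ccj_theta_mem_range N γ (x + y)), map_add, map_add,
      Classical.choose_spec (ccj_theta_mem_range N γ x),
      Classical.choose_spec (ccj_theta_mem_range N γ y)])

theorem ccjTheta_spec (N : ℕ) [NeZero N] (γ : SL(2, ℤ)) (g : anaRing N) :
    coeffMap ιc (ccjTheta N γ g) = scTheta N γ g :=
  Classical.choose_spec (ccj_theta_mem_range N γ g)

theorem ccjTheta_injective (N : ℕ) [NeZero N] (γ : SL(2, ℤ)) :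
    Function.Injective (ccjTheta N γ) := by
  intro g g' h
  apply sc_theta_injective N γ
  rw [← ccjTheta_spec, ← ccjTheta_spec, h]

/-! ### The embeddings -/

/-- the conjugate embedding of the function field attached to a coset, with values in
`ℚ̄((T))` -/
def ccjTau (N : ℕ) [NeZero N] (q : SL(2, ℤ) ⧸ CongruenceSubgroup.Gamma0 N) :
    ↥(modularFunctionFieldBar N) →+* LaurentSeries (AlgebraicClosure ℚ) :=
  liftAna N (ccjTheta N q.out) (ccjTheta_injective N q.out)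

theorem ccj_tau_spec (N : ℕ) [NeZero N] (q : SL(2, ℤ) ⧸ CongruenceSubgroup.Gamma0 N)
    (f : ↥(modularFunctionFieldBar N)) :
    coeffMap ιc (ccjTau N q f) = scPhi N q f := by
  have h : (coeffMap ιc).comp (ccjTau N q) = scPhi N q := by
    apply ringHom_ext_Fb
    · intro c
      rw [RingHom.comp_apply, ccjTau, liftAna_const, ccjTheta_spec, scPhi, liftAna_const]
    · intro d _ hd
      rw [RingHom.comp_apply, ccjTau, liftAna_jdBar, ccjTheta_spec, scPhi, liftAna_jdBar]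
  exact congrArg (fun φ => φ f) h

theorem ccj_tau_const (N : ℕ) [NeZero N] (q : SL(2, ℤ) ⧸ CongruenceSubgroup.Gamma0 N)
    (c : AlgebraicClosure ℚ) :
    ccjTau N q (algebraMap (AlgebraicClosure ℚ) ↥(modularFunctionFieldBar N) c)
      = algebraMap (AlgebraicClosure ℚ) (LaurentSeries (AlgebraicClosure ℚ)) c := by
  apply ccj_coeffMap_injective
  rw [ccj_tau_spec, sc_phi_const, algebraMap_laurentSeries_eq_single, coeffMap_single,
    HahnSeries.C_apply]

theorem ccj_tau_jBar (N : ℕ) [NeZero N] (q : SL(2, ℤ) ⧸ CongruenceSubgroup.Gamma0 N) :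
    ccjTau N q (jBar N) = qExpand (AlgebraicClosure ℚ) N (coeffEmb (AlgebraicClosure ℚ) jq) := by
  apply ccj_coeffMap_injective
  rw [ccj_tau_spec, sc_phi_jBar, scJ, coeffMap_qExpand, ccj_coeffMap_coeffEmb]

/-- the value at `j(q^d)`: the coefficient of `T^(m i)` is `ξ^i c_i` (`c_i` the coefficients of
`j`), with `ξ` an `N`-th root of unity -/
theorem ccj_tau_jdBar (N : ℕ) [NeZero N] (q : SL(2, ℤ) ⧸ CongruenceSubgroup.Gamma0 N)
    (d : ℕ) [NeZero d] (hd : d ∣ N) :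
    ∃ (m : ℕ) (_ : NeZero m) (ξ : AlgebraicClosure ℚ) (hξ : ξ ≠ 0), ξ ^ N = 1 ∧
      ccjTau N q (jdBar N d hd)
        = qExpand (AlgebraicClosure ℚ) m (ccjTwist ξ hξ (coeffEmb (AlgebraicClosure ℚ) jq)) := by
  obtain ⟨m, hm, ξ, hξ, hξN, h⟩ := ccj_theta_jd N q.out d hd
  refine ⟨m, hm, ξ, hξ, hξN, ?_⟩
  apply ccj_coeffMap_injective
  rw [← h, ccjTau, liftAna_jdBar, ccjTheta_spec]

/-- the embeddings are separated by `j(q^N)` -/
theorem ccj_tau_eq_of_jdBar (N : ℕ) [NeZero N]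
    (q q' : SL(2, ℤ) ⧸ CongruenceSubgroup.Gamma0 N)
    (h : ccjTau N q (jdBar N N dvd_rfl) = ccjTau N q' (jdBar N N dvd_rfl)) : q = q' := by
  have h1 : scPhi N q (jdBar N N dvd_rfl) = scPhi N q' (jdBar N N dvd_rfl) := by
    rw [← ccj_tau_spec, ← ccj_tau_spec, h]
  rw [sc_phi_jdBar, sc_phi_jdBar] at h1
  have h2 := qLaurent_injective h1
  have h3 : ∀ w : ℍ, jd N (q.out⁻¹ • w) = jd N (q'.out⁻¹ • w) := by
    intro w
    obtain ⟨τ, rfl⟩ := sc_scale_surjective N w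
    exact congrFun (congrArg Subtype.val h2) τ
  have h4 : q.out⁻¹ * q'.out ∈ CongruenceSubgroup.Gamma0 N := by
    apply mem_Gamma0_of_jd_smul_eq
    intro τ
    have h5 := h3 (q'.out • τ)
    rw [inv_smul_smul] at h5
    rw [mul_smul]
    exact h5
  rw [← q.out_eq', ← q'.out_eq']
  exact QuotientGroup.eq.mpr h4

theorem ccj_zeta_pow (N : ℕ) [NeZero N] : scZeta N ^ N = 1 := by
  have hN : (N : ℂ) ≠ 0 := by exact_mod_cast NeZero.ne N
  rw [scZeta, ← Complex.exp_nat_mul]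
  have h1 : (N : ℂ) * (2 * Real.pi * Complex.I * ((-1 / (N : ℝ) : ℝ) : ℂ))
      = ((-1 : ℤ) : ℂ) * (2 * Real.pi * Complex.I) := by
    push_cast
    field_simp
  rw [h1]
  exact Complex.exp_int_mul_two_pi_mul_I (-1)

theorem ccj_zeta_primitive (N : ℕ) [NeZero N] : IsPrimitiveRoot (scZeta N) N := by
  have hN : (N : ℂ) ≠ 0 := by exact_mod_cast NeZero.ne N
  have h1 := (Complex.isPrimitiveRoot_exp N (NeZero.ne N)).inv
  have h2 : scZeta N = (Complex.exp (2 * Real.pi * Complex.I / N))⁻¹ := by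
    rw [scZeta, ← Complex.exp_neg]
    congr 1
    push_cast
    field_simp
  rw [h2]
  exact h1

/-- the action of `T` on the cosets is the twist by a fixed primitive `N`-th root of unity
(strong form, with the complex value of the root of unity) -/
theorem ccj_tau_T_strong (N : ℕ) [NeZero N] :
    ∃ (ζ : AlgebraicClosure ℚ) (hζ : ζ ≠ 0), ζ ^ N = 1 ∧ IsPrimitiveRoot ζ N ∧
      ιc ζ = scZeta N ∧
      ∀ q : SL(2, ℤ) ⧸ CongruenceSubgroup.Gamma0 N,
        ccjTau N (ModularGroup.T • q) = (ccjTwist ζ hζ).comp (ccjTau N q) := by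
  obtain ⟨ζ, hζN, hζ⟩ := ccj_exists_root N (NeZero.pos N) _ (ccj_zeta_pow N)
  have hζ0 : ζ ≠ 0 := by
    intro h0
    rw [h0, zero_pow (NeZero.ne N)] at hζN
    exact zero_ne_one hζN
  have hprim : IsPrimitiveRoot ζ N := by
    have h1 := ccj_zeta_primitive N
    rw [← hζ] at h1
    exact IsPrimitiveRoot.of_map_of_injective h1 ιc.injective
  refine ⟨ζ, hζ0, hζN, hprim, hζ, fun q => ?_⟩
  refine RingHom.ext fun f => ?_
  apply ccj_coeffMap_injective
  rw [RingHom.comp_apply, ccj_coeffMap_twist, ccj_tau_spec, ccj_tau_spec, sc_phi_T,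
    RingHom.comp_apply]
  exact ccj_twist_congr hζ.symm _ _ _

/-- the action of `T` on the cosets is the twist by a fixed `N`-th root of unity -/
theorem ccj_tau_T (N : ℕ) [NeZero N] :
    ∃ (ζ : AlgebraicClosure ℚ) (hζ : ζ ≠ 0), ζ ^ N = 1 ∧
      ∀ q : SL(2, ℤ) ⧸ CongruenceSubgroup.Gamma0 N,
        ccjTau N (ModularGroup.T • q) = (ccjTwist ζ hζ).comp (ccjTau N q) := by
  obtain ⟨ζ, hζ0, hζN, _, _, h⟩ := ccj_tau_T_strong N
  exact ⟨ζ, hζ0, hζN, h⟩

end Fermat.Agent.S18
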