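import Mathlib
import Fermat.Agent.S18.CuspConj
import Fermat.Agent.S18.GaussRing

/-!
# S18, package CUSPCOUNT (series level)

For a valuation subring `A` of a field `K`, the substitutions `q ↦ q ^ m` (`qExpand K m`) and
`q ↦ ζ q` (`ccjTwist ζ`, `ζ` a unit of `A`) of `K((q))` preserve the Gauss ring `grV A` and
commute with the reduction `grRho A`:
`cc_qExpand_mem`, `cc_grRho_qExpand`, `cc_twist_mem`, `cc_grRho_twist`; roots of unity are units
of every valuation subring (`cc_rootOfUnity_mem`).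
-/

set_option autoImplicit false

noncomputable section

open ModularCurve Polynomial
open scoped IntermediateField MatrixGroups

namespace Fermat.Agent.S18

/-! ### Series level: substitutions preserve the Gauss ring -/

section Series

variable {K : Type*} [Field K] (A : ValuationSubring K)

/-- A series with coefficients in `A` comes from a series over `A`. -/
theorem cc_lift (x : LaurentSeries K) (hx : ∀ n, x.coeff n ∈ A) :
    ∃ y : LaurentSeries A, coeffMap A.subtype y = x := by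
  refine ⟨⟨fun n => ⟨x.coeff n, hx n⟩, ?_⟩, ?_⟩
  · refine x.isPWO_support.mono ?_
    intro n hn
    rw [Function.mem_support] at hn
    rw [HahnSeries.mem_support]
    intro h0
    exact hn (Subtype.ext h0)
  · ext n
    rfl

theorem cc_qExpand_mem (m : ℕ) [NeZero m] {x : LaurentSeries K} (hx : x ∈ grV A) :
    qExpand K m x ∈ grV A := by
  obtain ⟨a, b, hb, h⟩ := hx
  refine ⟨qExpand A m a, qExpand A m b, ?_, ?_⟩
  · rw [coeffMap_qExpand]
    intro h0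
    apply hb
    exact qExpand_injective m (h0.trans (map_zero _).symm)
  · rw [coeffMap_qExpand, coeffMap_qExpand, ← h, map_mul]

theorem cc_grRho_qExpand (m : ℕ) [NeZero m] (x : grV A) :
    grRho A ⟨qExpand K m (x : LaurentSeries K), cc_qExpand_mem A m x.2⟩ =
      qExpand (IsLocalRing.ResidueField A) m (grRho A x) := by
  obtain ⟨a, b, hb, h⟩ := x.2
  have hb' : coeffMap (IsLocalRing.residue A) (qExpand A m b) ≠ 0 := by
    rw [coeffMap_qExpand]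
    intro h0
    apply hb
    exact qExpand_injective m (h0.trans (map_zero _).symm)
  have h' : qExpand K m (x : LaurentSeries K) * coeffMap A.subtype (qExpand A m b) =
      coeffMap A.subtype (qExpand A m a) := by
    rw [coeffMap_qExpand, coeffMap_qExpand, ← h, map_mul]
  have h1 := grRho_spec A ⟨_, cc_qExpand_mem A m x.2⟩ _ _ hb' h'
  have h2 := congrArg (qExpand (IsLocalRing.ResidueField A) m) (grRho_spec A x a b hb h)
  rw [map_mul] at h2
  rw [coeffMap_qExpand, coeffMap_qExpand] at h1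
  rw [coeffMap_qExpand] at hb'
  exact mul_right_cancel₀ hb' (h1.trans h2.symm)

theorem cc_zpow_mem (ζ : K) (hζA : ζ ∈ A) (hζiA : ζ⁻¹ ∈ A) (n : ℤ) : ζ ^ n ∈ A := by
  obtain ⟨m, rfl | rfl⟩ := n.eq_nat_or_neg
  · rw [zpow_natCast]
    exact A.pow_mem hζA m
  · rw [zpow_neg, zpow_natCast, ← inv_pow]
    exact A.pow_mem hζiA m

theorem cc_residue_ne_zero (ζ : K) (hζ : ζ ≠ 0) (hζA : ζ ∈ A) (hζiA : ζ⁻¹ ∈ A) :
    IsLocalRing.residue A ⟨ζ, hζA⟩ ≠ 0 := by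
  intro h0
  have h1 : (⟨ζ, hζA⟩ : A) * ⟨ζ⁻¹, hζiA⟩ = 1 := Subtype.ext (mul_inv_cancel₀ hζ)
  have h2 := congrArg (IsLocalRing.residue A) h1
  rw [map_mul, h0, zero_mul, map_one] at h2
  exact zero_ne_one h2

theorem cc_residue_zpow (ζ : K) (hζ : ζ ≠ 0) (hζA : ζ ∈ A) (hζiA : ζ⁻¹ ∈ A) (n : ℤ) :
    IsLocalRing.residue A ⟨ζ ^ n, cc_zpow_mem A ζ hζA hζiA n⟩ =
      (IsLocalRing.residue A ⟨ζ, hζA⟩) ^ n := by
  have h1 : (⟨ζ, hζA⟩ : A) * ⟨ζ⁻¹, hζiA⟩ = 1 := Subtype.ext (mul_inv_cancel₀ hζ)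
  have h2 := congrArg (IsLocalRing.residue A) h1
  rw [map_mul, map_one] at h2
  have hinv : IsLocalRing.residue A ⟨ζ⁻¹, hζiA⟩ = (IsLocalRing.residue A ⟨ζ, hζA⟩)⁻¹ :=
    eq_inv_of_mul_eq_one_right h2
  obtain ⟨m, rfl | rfl⟩ := n.eq_nat_or_neg
  · have e : (⟨ζ ^ (m : ℤ), cc_zpow_mem A ζ hζA hζiA m⟩ : A) = ⟨ζ, hζA⟩ ^ m :=
      Subtype.ext (by rw [SubmonoidClass.coe_pow]; exact zpow_natCast ζ m)
    rw [e, map_pow, zpow_natCast]
  · have e : (⟨ζ ^ (-(m : ℤ)), cc_zpow_mem A ζ hζA hζiA (-(m : ℤ))⟩ : A) = ⟨ζ⁻¹, hζiA⟩ ^ m :=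
      Subtype.ext (by
        rw [SubmonoidClass.coe_pow]
        show ζ ^ (-(m : ℤ)) = ζ⁻¹ ^ m
        rw [zpow_neg, zpow_natCast, inv_pow])
    rw [e, map_pow, hinv, zpow_neg, zpow_natCast, inv_pow]

/-- The twist of a series over `A` by a unit of `A`. -/
theorem cc_twist_lift (ζ : K) (hζ : ζ ≠ 0) (hζA : ζ ∈ A) (hζiA : ζ⁻¹ ∈ A)
    (b : LaurentSeries A) :
    ∃ b' : LaurentSeries A, coeffMap A.subtype b' = ccjTwist ζ hζ (coeffMap A.subtype b) ∧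
      coeffMap (IsLocalRing.residue A) b' =
        ccjTwist (IsLocalRing.residue A ⟨ζ, hζA⟩) (cc_residue_ne_zero A ζ hζ hζA hζiA)
          (coeffMap (IsLocalRing.residue A) b) := by
  have hmem : ∀ n, (ccjTwist ζ hζ (coeffMap A.subtype b)).coeff n ∈ A := by
    intro n
    rw [ccjTwist_coeff, coeffMap_coeff]
    exact A.mul_mem _ _ (cc_zpow_mem A ζ hζA hζiA n) (b.coeff n).2
  obtain ⟨b', hb'⟩ := cc_lift A _ hmem
  refine ⟨b', hb', ?_⟩
  ext n
  rw [coeffMap_coeff, ccjTwist_coeff, coeffMap_coeff, ← cc_residue_zpow A ζ hζ hζA hζiA n,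
    ← map_mul]
  congr 1
  apply Subtype.ext
  have h1 := congrArg (fun y => HahnSeries.coeff y n) hb'
  simp only [coeffMap_coeff, ccjTwist_coeff] at h1
  exact h1

theorem cc_twist_mem (ζ : K) (hζ : ζ ≠ 0) (hζA : ζ ∈ A) (hζiA : ζ⁻¹ ∈ A)
    {x : LaurentSeries K} (hx : x ∈ grV A) : ccjTwist ζ hζ x ∈ grV A := by
  obtain ⟨a, b, hb, h⟩ := hx
  obtain ⟨a', ha', -⟩ := cc_twist_lift A ζ hζ hζA hζiA a
  obtain ⟨b', hb', hb'r⟩ := cc_twist_lift A ζ hζ hζA hζiA b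
  refine ⟨a', b', ?_, ?_⟩
  · rw [hb'r]
    exact (_root_.map_ne_zero _).mpr hb
  · rw [ha', hb', ← h, map_mul]

theorem cc_grRho_twist (ζ : K) (hζ : ζ ≠ 0) (hζA : ζ ∈ A) (hζiA : ζ⁻¹ ∈ A) (x : grV A) :
    grRho A ⟨ccjTwist ζ hζ (x : LaurentSeries K), cc_twist_mem A ζ hζ hζA hζiA x.2⟩ =
      ccjTwist (IsLocalRing.residue A ⟨ζ, hζA⟩) (cc_residue_ne_zero A ζ hζ hζA hζiA)
        (grRho A x) := by
  obtain ⟨a, b, hb, h⟩ := x.2
  obtain ⟨a', ha', ha'r⟩ := cc_twist_lift A ζ hζ hζA hζiA a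
  obtain ⟨b', hb', hb'r⟩ := cc_twist_lift A ζ hζ hζA hζiA b
  have hb'0 : coeffMap (IsLocalRing.residue A) b' ≠ 0 := by
    rw [hb'r]
    exact (_root_.map_ne_zero _).mpr hb
  have h' : ccjTwist ζ hζ (x : LaurentSeries K) * coeffMap A.subtype b' =
      coeffMap A.subtype a' := by
    rw [ha', hb', ← h, map_mul]
  have h1 := grRho_spec A ⟨_, cc_twist_mem A ζ hζ hζA hζiA x.2⟩ _ _ hb'0 h'
  have h2 := congrArg (ccjTwist (IsLocalRing.residue A ⟨ζ, hζA⟩)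
    (cc_residue_ne_zero A ζ hζ hζA hζiA)) (grRho_spec A x a b hb h)
  rw [map_mul] at h2
  rw [ha'r, hb'r] at h1
  rw [hb'r] at hb'0
  exact mul_right_cancel₀ hb'0 (h1.trans h2.symm)

/-- A root of unity is a unit of every valuation subring. -/
theorem cc_rootOfUnity_mem (ξ : K) (N : ℕ) (hN : N ≠ 0) (hξ : ξ ^ N = 1) :
    ξ ≠ 0 ∧ ξ ∈ A ∧ ξ⁻¹ ∈ A := by
  have h0 : ξ ≠ 0 := by
    rintro rfl
    rw [zero_pow hN] at hξ
    exact zero_ne_one hξ
  have hinv : ξ⁻¹ = ξ ^ (N - 1) := by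
    rw [eq_comm, ← mul_eq_one_iff_eq_inv₀ h0, ← pow_succ, Nat.sub_add_cancel (Nat.pos_of_ne_zero hN), hξ]
  have hinv' : ξ = ξ⁻¹ ^ (N - 1) := by
    rw [inv_pow, ← hinv, inv_inv]
  rcases A.mem_or_inv_mem ξ with h | h
  · exact ⟨h0, h, hinv ▸ A.pow_mem h _⟩
  · exact ⟨h0, hinv' ▸ A.pow_mem h _, h⟩

end Series

end Fermat.Agent.S18
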