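import Fermat.Agent.S18.CuspNorm
import Fermat.Agent.S18.CuspSeries
import Fermat.Agent.S18.GaussMain

/-!
# S18, package CUSPCOUNT (leaf D8): the conjugate expansions and the Gauss valuation ring

For every coset `q`, the pull-back of the Gauss ring `grV A` under the conjugate expansion
`ccjTau M q : F_M(ℚ̄) →+* ℚ̄((T))` is the Gauss valuation ring `grO A hA M hℓM` of the level-`M`
function field:

* `ccn_tau_adjoin` : on `ℚ̄(j)` the conjugate expansion is the substitution `q ↦ q ^ M`;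
* `ccn_qExpand_mem_iff` : the substitution `q ↦ q ^ m` reflects membership in the Gauss ring on
  series which are normalised (the series or its inverse lies in the Gauss ring);
* `ccn_tau_mem_grV_iff` : `ccjTau M q x ∈ grV A ↔ x ∈ grO A hA M hℓM`;
* `ccn_tau_res_zero` : non-units of the Gauss valuation ring have conjugate expansions with
  residue zero.
-/

set_option autoImplicit false

open scoped MatrixGroups IntermediateField

noncomputable section

namespace Fermat.Agent.S18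

open Fermat.Agent.S24 ModularCurve

/-- `grJ` is `jBar`. -/
theorem ccn_grJ_eq (M : ℕ) [NeZero M] : grJ (AlgebraicClosure ℚ) M = jBar M :=
  Subtype.ext (dg_coe_jBar M).symm

/-- On `ℚ̄(j)` every conjugate expansion is the substitution `q ↦ q ^ M`. -/
theorem ccn_tau_adjoin (M : ℕ) [NeZero M] (q : SL(2, ℤ) ⧸ CongruenceSubgroup.Gamma0 M)
    (y : ↥(modularFunctionFieldBar M))
    (hy : y ∈ (AlgebraicClosure ℚ)⟮grJ (AlgebraicClosure ℚ) M⟯) :
    ccjTau M q y = qExpand (AlgebraicClosure ℚ) M (y : LaurentSeries (AlgebraicClosure ℚ)) := by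
  refine sys_eq_on_adjoin (K := AlgebraicClosure ℚ) (grJ (AlgebraicClosure ℚ) M) (ccjTau M q)
    ((qExpand (AlgebraicClosure ℚ) M).comp (modularFunctionFieldBar M).val.toRingHom) ?_ ?_ y hy
  · intro c
    rw [ccj_tau_const]
    show _ = qExpand (AlgebraicClosure ℚ) M
      (algebraMap (AlgebraicClosure ℚ) (LaurentSeries (AlgebraicClosure ℚ)) c)
    rw [algebraMap_laurentSeries_eq_single, qExpand_single, mul_zero]
  · rw [ccn_grJ_eq, ccj_tau_jBar]
    rfl

/-- The substitution `q ↦ q ^ m` reflects membership in the Gauss ring, on normalised series. -/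
theorem ccn_qExpand_mem_iff {K : Type*} [Field K] (A : ValuationSubring K) (m : ℕ) [NeZero m]
    (z : LaurentSeries K) (hz : z ∈ grV A ∨ z⁻¹ ∈ grV A) :
    qExpand K m z ∈ grV A ↔ z ∈ grV A := by
  refine ⟨fun h => ?_, fun h => cc_qExpand_mem A m h⟩
  by_contra hzV
  have hzi : z⁻¹ ∈ grV A := hz.resolve_left hzV
  have hz0 : z ≠ 0 := by
    rintro rfl
    exact hzV (grV A).zero_mem
  have hρ : grRho A ⟨z⁻¹, hzi⟩ = 0 := by
    by_contra hne
    have := gr_inv_mem A ⟨z⁻¹, hzi⟩ hne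
    rw [inv_inv] at this
    exact hzV this
  have hρ' : grRho A ⟨qExpand K m z⁻¹, cc_qExpand_mem A m hzi⟩ = 0 := by
    have h1 := cc_grRho_qExpand A m ⟨z⁻¹, hzi⟩
    rw [hρ, map_zero] at h1
    exact h1
  have hne : qExpand K m z⁻¹ ≠ 0 := by
    rw [map_inv₀]
    exact inv_ne_zero ((_root_.map_ne_zero _).mpr hz0)
  have hnot := gr_inv_notMem A ⟨qExpand K m z⁻¹, cc_qExpand_mem A m hzi⟩ hρ' hne
  apply hnot
  show (qExpand K m z⁻¹)⁻¹ ∈ grV A
  rw [map_inv₀, inv_inv]
  exact h

/-- The pull-back of the Gauss ring under a conjugate expansion, as a valuation subring. -/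
def ccnW (M : ℕ) [NeZero M] (A : ValuationSubring (AlgebraicClosure ℚ))
    {ℓ : ℕ} [Fact ℓ.Prime] (hA : A.LiesOverPrime ℓ)
    (q : SL(2, ℤ) ⧸ CongruenceSubgroup.Gamma0 M) :
    ValuationSubring ↥(modularFunctionFieldBar M) where
  carrier := {x | ccjTau M q x ∈ grV A}
  mul_mem' := fun {a b} ha hb => by
    show ccjTau M q (a * b) ∈ grV A
    rw [map_mul]
    exact (grV A).mul_mem ha hb
  one_mem' := by
    show ccjTau M q 1 ∈ grV A
    rw [map_one]
    exact (grV A).one_mem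
  add_mem' := fun {a b} ha hb => by
    show ccjTau M q (a + b) ∈ grV A
    rw [map_add]
    exact (grV A).add_mem ha hb
  zero_mem' := by
    show ccjTau M q 0 ∈ grV A
    rw [map_zero]
    exact (grV A).zero_mem
  neg_mem' := fun {a} ha => by
    show ccjTau M q (-a) ∈ grV A
    rw [map_neg]
    exact (grV A).neg_mem ha
  mem_or_inv_mem' := fun x => by
    rcases ccn_mem_or_inv_mem M A hA q x with h | h
    · exact Or.inl h
    · refine Or.inr ?_
      show ccjTau M q x⁻¹ ∈ grV A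
      rw [map_inv₀]
      exact h

theorem mem_ccnW_iff (M : ℕ) [NeZero M] (A : ValuationSubring (AlgebraicClosure ℚ))
    {ℓ : ℕ} [Fact ℓ.Prime] (hA : A.LiesOverPrime ℓ)
    (q : SL(2, ℤ) ⧸ CongruenceSubgroup.Gamma0 M) (x : ↥(modularFunctionFieldBar M)) :
    x ∈ ccnW M A hA q ↔ ccjTau M q x ∈ grV A := Iff.rfl

/-- **D8.** The pull-back of the Gauss ring under every conjugate expansion is the Gauss
valuation ring of the function field. -/
theorem ccn_tau_mem_grV_iff (M : ℕ) [NeZero M] (A : ValuationSubring (AlgebraicClosure ℚ))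
    {ℓ : ℕ} [Fact ℓ.Prime] (hA : A.LiesOverPrime ℓ) (hℓM : ¬ ℓ ∣ M)
    (q : SL(2, ℤ) ⧸ CongruenceSubgroup.Gamma0 M) (x : ↥(modularFunctionFieldBar M)) :
    ccjTau M q x ∈ grV A ↔ x ∈ grO A hA M hℓM := by
  have hW : ccnW M A hA q = grO A hA M hℓM := by
    refine gr_unique_j A hA M hℓM (ccnW M A hA q) fun y => ?_
    rw [mem_ccnW_iff, mem_grO_iff]
    have h1 := ccn_tau_adjoin M q
      (algebraMap ↥(AlgebraicClosure ℚ)⟮grJ (AlgebraicClosure ℚ) M⟯
        ↥(modularFunctionFieldBar M) y) y.2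
    rw [h1]
    exact ccn_qExpand_mem_iff A M _
      (gr_mem_or_inv_mem A hA M hℓM _
        (algebraMap ↥(AlgebraicClosure ℚ)⟮grJ (AlgebraicClosure ℚ) M⟯
          ↥(modularFunctionFieldBar M) y).2)
  rw [← hW]
  exact Iff.rfl

/-- Non-units of the Gauss valuation ring have conjugate expansions with residue zero. -/
theorem ccn_tau_res_zero (M : ℕ) [NeZero M] (A : ValuationSubring (AlgebraicClosure ℚ))
    {ℓ : ℕ} [Fact ℓ.Prime] (hA : A.LiesOverPrime ℓ) (hℓM : ¬ ℓ ∣ M)
    (q : SL(2, ℤ) ⧸ CongruenceSubgroup.Gamma0 M) (x : ↥(modularFunctionFieldBar M))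
    (hx : x ∈ (grO A hA M hℓM).nonunits) (h : ccjTau M q x ∈ grV A) :
    grRho A ⟨ccjTau M q x, h⟩ = 0 := by
  by_contra hne
  have hinv : (ccjTau M q x)⁻¹ ∈ grV A := gr_inv_mem A ⟨ccjTau M q x, h⟩ hne
  rw [← map_inv₀] at hinv
  have hxi : x⁻¹ ∈ grO A hA M hℓM := (ccn_tau_mem_grV_iff M A hA hℓM q x⁻¹).mp hinv
  have hx0 : x ≠ 0 := by
    rintro rfl
    apply hne
    have e : (⟨ccjTau M q 0, h⟩ : grV A) = 0 := Subtype.ext (map_zero _)
    rw [e, map_zero]
  have hv : (grO A hA M hℓM).valuation x < 1 := (ValuationSubring.mem_nonunits_iff _).mp hx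
  have h1 : (grO A hA M hℓM).valuation x⁻¹ ≤ 1 :=
    (ValuationSubring.valuation_le_one_iff _ _).mpr hxi
  have hv0 : (grO A hA M hℓM).valuation x ≠ 0 := (Valuation.ne_zero_iff _).mpr hx0
  rw [map_inv₀, inv_le_one₀ (zero_lt_iff.mpr hv0)] at h1
  exact absurd hv (not_lt.mpr h1)

end Fermat.Agent.S18
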