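import Mathlib
import Fermat.Agent.S18.ValExt

/-!
# S18, package SMRED (part 1): traces and discriminants commute with reduction

`F / L` is a finite field extension, `O : ValuationSubring F`, `OL := O.comap (algebraMap L F)` its
trace on `L`.  Residue fields are abstract: `ρ : O →+* κ`, `ρL : OL →+* κL` surjective ring
homomorphisms onto fields with `[Algebra κL κ]`, compatible, `ρL` killing the nonunits.

If `b : Fin d → F`, `d = [F : L]`, is a family in `O` whose residues are independent over `κL`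
(hypothesis `hind` of `ValExt.lean`), then

* `rdisc_li`, `rdisc_span`, `rdiscBasis`: the residues `ρ (b i)` form a `κL`-basis of `κ`;
* `rdisc_leftMul`: multiplication matrices reduce;
* `rdisc_trace`: `ρL (Tr_{F/L} x) = Tr_{κ/κL} (ρ x)` for `x ∈ O`;
* `rdisc_discr`: `ρL (discr_L b) = discr_{κL} (ρ ∘ b)`.
-/

set_option autoImplicit false

namespace Fermat.Agent.S18

open Polynomial

section RedTrace

variable {L F κL κ : Type*} [Field L] [Field F] [Algebra L F]
  [Field κL] [Field κ] [Algebra κL κ]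

/-- An element of `O` killed by a ring homomorphism to a field is a nonunit. -/
theorem rdisc_nonunit_of_map_eq_zero (O : ValuationSubring F) (ρ : O →+* κ) (x : O)
    (hx : ρ x = 0) : (x : F) ∈ O.nonunits := by
  rw [ValuationSubring.coe_mem_nonunits_iff, IsLocalRing.mem_maximalIdeal, mem_nonunits_iff]
  intro hu
  exact (hu.map ρ).ne_zero hx

variable (O : ValuationSubring F) (ρ : O →+* κ) (ρL : (O.comap (algebraMap L F)) →+* κL)
  {d : ℕ} (b : Fin d → F) (hb : ∀ i, b i ∈ O)

/-- Coefficients of an element of `O` in an orthonormal family lie in `O`. -/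
theorem rdisc_coeff_mem
    (hind : ∀ a : Fin d → L, (∀ i, algebraMap L F (a i) ∈ O) →
      ∑ i, algebraMap L F (a i) * b i ∈ O.nonunits → ∀ i, algebraMap L F (a i) ∈ O.nonunits)
    (a : Fin d → L) (h : ∑ i, algebraMap L F (a i) * b i ∈ O) (i : Fin d) :
    algebraMap L F (a i) ∈ O := by
  rw [← ValuationSubring.valuation_le_one_iff]
  exact (valext_le_sum O b hind a i).trans ((O.valuation_le_one_iff _).mpr h)

include hb in
/-- The residues of an orthonormal family are linearly independent. -/
theorem rdisc_li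
    (hind : ∀ a : Fin d → L, (∀ i, algebraMap L F (a i) ∈ O) →
      ∑ i, algebraMap L F (a i) * b i ∈ O.nonunits → ∀ i, algebraMap L F (a i) ∈ O.nonunits)
    (hsurjL : Function.Surjective ρL)
    (hkerL : ∀ y : O.comap (algebraMap L F), algebraMap L F (y : L) ∈ O.nonunits → ρL y = 0)
    (hcompat : ∀ y : O.comap (algebraMap L F),
      algebraMap κL κ (ρL y) = ρ ⟨algebraMap L F (y : L), y.2⟩) :
    LinearIndependent κL (fun i => ρ ⟨b i, hb i⟩) := by
  rw [Fintype.linearIndependent_iff]
  intro c hc i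
  choose a ha using fun j => hsurjL (c j)
  have hsum : ρ (∑ j, (⟨algebraMap L F (a j : L), (a j).2⟩ : O) * ⟨b j, hb j⟩) = 0 := by
    rw [map_sum, ← hc]
    refine Finset.sum_congr rfl fun j _ => ?_
    rw [map_mul, ← hcompat, ha, Algebra.smul_def]
  have hnon := rdisc_nonunit_of_map_eq_zero O ρ _ hsum
  have hcoe : ((∑ j, (⟨algebraMap L F (a j : L), (a j).2⟩ : O) * ⟨b j, hb j⟩ : O) : F) =
      ∑ j, algebraMap L F ((a j : L)) * b j := by
    push_cast
    rfl
  rw [hcoe] at hnon
  have h1 := hind (fun j => (a j : L)) (fun j => (a j).2) hnon i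
  rw [← ha i]
  exact hkerL _ h1

include hb in
/-- The residues of an orthonormal basis span the residue field. -/
theorem rdisc_span [FiniteDimensional L F]
    (hn : Module.finrank L F = d)
    (hind : ∀ a : Fin d → L, (∀ i, algebraMap L F (a i) ∈ O) →
      ∑ i, algebraMap L F (a i) * b i ∈ O.nonunits → ∀ i, algebraMap L F (a i) ∈ O.nonunits)
    (hsurj : Function.Surjective ρ)
    (hcompat : ∀ y : O.comap (algebraMap L F),
      algebraMap κL κ (ρL y) = ρ ⟨algebraMap L F (y : L), y.2⟩)
    (z : κ) : ∃ c : Fin d → κL, z = ∑ i, c i • ρ ⟨b i, hb i⟩ := by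
  obtain ⟨x, rfl⟩ := hsurj z
  obtain ⟨a, ha⟩ := valext_span O b hind hn (x : F)
  have hmem : ∀ i, algebraMap L F (a i) ∈ O := fun i =>
    rdisc_coeff_mem O b hind a (ha ▸ x.2) i
  refine ⟨fun i => ρL ⟨a i, hmem i⟩, ?_⟩
  have hx : x = ∑ i, (⟨algebraMap L F (a i), hmem i⟩ : O) * ⟨b i, hb i⟩ := by
    apply Subtype.ext
    rw [ha]
    push_cast
    rfl
  conv_lhs => rw [hx]
  rw [map_sum]
  refine Finset.sum_congr rfl fun i _ => ?_
  rw [map_mul, Algebra.smul_def, hcompat]

/-- The residue basis attached to an orthonormal basis. -/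
noncomputable def rdiscBasis [FiniteDimensional L F]
    (hn : Module.finrank L F = d)
    (hind : ∀ a : Fin d → L, (∀ i, algebraMap L F (a i) ∈ O) →
      ∑ i, algebraMap L F (a i) * b i ∈ O.nonunits → ∀ i, algebraMap L F (a i) ∈ O.nonunits)
    (hsurj : Function.Surjective ρ) (hsurjL : Function.Surjective ρL)
    (hkerL : ∀ y : O.comap (algebraMap L F), algebraMap L F (y : L) ∈ O.nonunits → ρL y = 0)
    (hcompat : ∀ y : O.comap (algebraMap L F),
      algebraMap κL κ (ρL y) = ρ ⟨algebraMap L F (y : L), y.2⟩) :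
    Module.Basis (Fin d) κL κ :=
  Module.Basis.mk (rdisc_li O ρ ρL b hb hind hsurjL hkerL hcompat) (by
    intro z _
    obtain ⟨c, hc⟩ := rdisc_span O ρ ρL b hb hn hind hsurj hcompat z
    rw [hc]
    exact Submodule.sum_mem _ fun i _ => Submodule.smul_mem _ _ (Submodule.subset_span ⟨i, rfl⟩))

theorem rdiscBasis_apply [FiniteDimensional L F]
    (hn : Module.finrank L F = d)
    (hind : ∀ a : Fin d → L, (∀ i, algebraMap L F (a i) ∈ O) →
      ∑ i, algebraMap L F (a i) * b i ∈ O.nonunits → ∀ i, algebraMap L F (a i) ∈ O.nonunits)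
    (hsurj : Function.Surjective ρ) (hsurjL : Function.Surjective ρL)
    (hkerL : ∀ y : O.comap (algebraMap L F), algebraMap L F (y : L) ∈ O.nonunits → ρL y = 0)
    (hcompat : ∀ y : O.comap (algebraMap L F),
      algebraMap κL κ (ρL y) = ρ ⟨algebraMap L F (y : L), y.2⟩) (i : Fin d) :
    rdiscBasis O ρ ρL b hb hn hind hsurj hsurjL hkerL hcompat i = ρ ⟨b i, hb i⟩ := by
  rw [rdiscBasis, Module.Basis.mk_apply]

/-- The `L`-basis of `F` given by an orthonormal family of the right cardinality. -/
noncomputable def rdiscBasisL [FiniteDimensional L F]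
    (hn : Module.finrank L F = d)
    (hind : ∀ a : Fin d → L, (∀ i, algebraMap L F (a i) ∈ O) →
      ∑ i, algebraMap L F (a i) * b i ∈ O.nonunits → ∀ i, algebraMap L F (a i) ∈ O.nonunits) :
    Module.Basis (Fin d) L F :=
  Module.Basis.mk (valext_linearIndependent O b hind)
    ((valext_linearIndependent O b hind).span_eq_top_of_card_eq_finrank' (by simp [hn])).ge

theorem rdiscBasisL_apply [FiniteDimensional L F]
    (hn : Module.finrank L F = d)
    (hind : ∀ a : Fin d → L, (∀ i, algebraMap L F (a i) ∈ O) →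
      ∑ i, algebraMap L F (a i) * b i ∈ O.nonunits → ∀ i, algebraMap L F (a i) ∈ O.nonunits)
    (i : Fin d) : rdiscBasisL O b hn hind i = b i := by
  rw [rdiscBasisL, Module.Basis.mk_apply]

include hb in
/-- Multiplication matrices reduce: the matrix of `x ∈ O` in the orthonormal basis has entries in
the trace of `O` on `L`, and its reduction is the matrix of `ρ x` in the residue basis. -/
theorem rdisc_leftMul [FiniteDimensional L F]
    (hn : Module.finrank L F = d)
    (hind : ∀ a : Fin d → L, (∀ i, algebraMap L F (a i) ∈ O) →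
      ∑ i, algebraMap L F (a i) * b i ∈ O.nonunits → ∀ i, algebraMap L F (a i) ∈ O.nonunits)
    (hsurj : Function.Surjective ρ) (hsurjL : Function.Surjective ρL)
    (hkerL : ∀ y : O.comap (algebraMap L F), algebraMap L F (y : L) ∈ O.nonunits → ρL y = 0)
    (hcompat : ∀ y : O.comap (algebraMap L F),
      algebraMap κL κ (ρL y) = ρ ⟨algebraMap L F (y : L), y.2⟩)
    (x : O) :
    ∃ m : Matrix (Fin d) (Fin d) (O.comap (algebraMap L F)),
      (∀ i j, ((m i j : O.comap (algebraMap L F)) : L) =
        Algebra.leftMulMatrix (rdiscBasisL O b hn hind) (x : F) i j) ∧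
      Algebra.leftMulMatrix (rdiscBasis O ρ ρL b hb hn hind hsurj hsurjL hkerL hcompat) (ρ x) =
        m.map ρL := by
  classical
  set B := rdiscBasisL O b hn hind with hB
  set BB := rdiscBasis O ρ ρL b hb hn hind hsurj hsurjL hkerL hcompat with hBB
  have hBapp : ∀ i, B i = b i := rdiscBasisL_apply O b hn hind
  have hBBapp : ∀ i, BB i = ρ ⟨b i, hb i⟩ :=
    rdiscBasis_apply O ρ ρL b hb hn hind hsurj hsurjL hkerL hcompat
  -- expansion of x * b j
  have hexp : ∀ j, (x : F) * b j =
      ∑ i, algebraMap L F (Algebra.leftMulMatrix B (x : F) i j) * b i := by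
    intro j
    have h := B.sum_repr ((x : F) * B j)
    rw [hBapp] at h
    rw [← h]
    refine Finset.sum_congr rfl fun i _ => ?_
    rw [Algebra.leftMulMatrix_eq_repr_mul, hBapp, Algebra.smul_def, hBapp]
  have hmem : ∀ i j, algebraMap L F (Algebra.leftMulMatrix B (x : F) i j) ∈ O := by
    intro i j
    refine rdisc_coeff_mem O b hind (fun i => Algebra.leftMulMatrix B (x : F) i j) ?_ i
    rw [← hexp j]
    exact O.mul_mem _ _ x.2 (hb j)
  refine ⟨fun i j => ⟨Algebra.leftMulMatrix B (x : F) i j, hmem i j⟩, fun i j => rfl, ?_⟩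
  ext i j
  rw [Algebra.leftMulMatrix_eq_repr_mul]
  change (BB.repr (ρ x * BB j)) i = ρL ⟨Algebra.leftMulMatrix B (x : F) i j, hmem i j⟩
  have hred : ρ x * BB j = ∑ i', ρL ⟨Algebra.leftMulMatrix B (x : F) i' j, hmem i' j⟩ • BB i' := by
    have h1 : x * (⟨b j, hb j⟩ : O) =
        ∑ i', (⟨algebraMap L F (Algebra.leftMulMatrix B (x : F) i' j), hmem i' j⟩ : O) *
          ⟨b i', hb i'⟩ := by
      apply Subtype.ext
      push_cast
      exact hexp j
    rw [hBBapp, ← map_mul, h1, map_sum]
    refine Finset.sum_congr rfl fun i' _ => ?_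
    rw [map_mul, Algebra.smul_def, hcompat, hBBapp]
  rw [hred, map_sum]
  simp only [map_smul, Module.Basis.repr_self, Finsupp.coe_finsetSum, Finsupp.coe_smul,
    Finset.sum_apply, Pi.smul_apply, Finsupp.single_apply, smul_eq_mul, mul_ite, mul_one,
    mul_zero, Finset.sum_ite_eq', Finset.mem_univ, if_true]

include hb in
/-- Traces commute with reduction. -/
theorem rdisc_trace [FiniteDimensional L F]
    (hn : Module.finrank L F = d)
    (hind : ∀ a : Fin d → L, (∀ i, algebraMap L F (a i) ∈ O) →
      ∑ i, algebraMap L F (a i) * b i ∈ O.nonunits → ∀ i, algebraMap L F (a i) ∈ O.nonunits)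
    (hsurj : Function.Surjective ρ) (hsurjL : Function.Surjective ρL)
    (hkerL : ∀ y : O.comap (algebraMap L F), algebraMap L F (y : L) ∈ O.nonunits → ρL y = 0)
    (hcompat : ∀ y : O.comap (algebraMap L F),
      algebraMap κL κ (ρL y) = ρ ⟨algebraMap L F (y : L), y.2⟩)
    (x : O) :
    ∃ y : O.comap (algebraMap L F), (y : L) = Algebra.trace L F (x : F) ∧
      ρL y = Algebra.trace κL κ (ρ x) := by
  classical
  obtain ⟨m, hm, hmm⟩ := rdisc_leftMul O ρ ρL b hb hn hind hsurj hsurjL hkerL hcompat x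
  refine ⟨∑ i, m i i, ?_, ?_⟩
  · rw [Algebra.trace_eq_matrix_trace (rdiscBasisL O b hn hind), Matrix.trace]
    push_cast
    exact Finset.sum_congr rfl fun i _ => hm i i
  · rw [Algebra.trace_eq_matrix_trace
      (rdiscBasis O ρ ρL b hb hn hind hsurj hsurjL hkerL hcompat), hmm, Matrix.trace, map_sum]
    rfl

include hb in
/-- Discriminants commute with reduction. -/
theorem rdisc_discr [FiniteDimensional L F]
    (hn : Module.finrank L F = d)
    (hind : ∀ a : Fin d → L, (∀ i, algebraMap L F (a i) ∈ O) →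
      ∑ i, algebraMap L F (a i) * b i ∈ O.nonunits → ∀ i, algebraMap L F (a i) ∈ O.nonunits)
    (hsurj : Function.Surjective ρ) (hsurjL : Function.Surjective ρL)
    (hkerL : ∀ y : O.comap (algebraMap L F), algebraMap L F (y : L) ∈ O.nonunits → ρL y = 0)
    (hcompat : ∀ y : O.comap (algebraMap L F),
      algebraMap κL κ (ρL y) = ρ ⟨algebraMap L F (y : L), y.2⟩) :
    ∃ D : O.comap (algebraMap L F), (D : L) = Algebra.discr L b ∧
      ρL D = Algebra.discr κL (fun i => ρ ⟨b i, hb i⟩) := by
  classical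
  have h := fun i j => rdisc_trace O ρ ρL b hb hn hind hsurj hsurjL hkerL hcompat
    ((⟨b i, hb i⟩ : O) * ⟨b j, hb j⟩)
  choose T hT1 hT2 using h
  refine ⟨Matrix.det (Matrix.of T), ?_, ?_⟩
  · rw [Algebra.discr_def]
    have hmap : (Matrix.of T).map (O.comap (algebraMap L F)).subtype = Algebra.traceMatrix L b := by
      ext i j
      rw [Matrix.map_apply, Matrix.of_apply, Algebra.traceMatrix_apply, Algebra.traceForm_apply]
      exact hT1 i j
    rw [← hmap]
    exact RingHom.map_det (O.comap (algebraMap L F)).subtype (Matrix.of T)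
  · rw [Algebra.discr_def, RingHom.map_det]
    congr 1
    ext i j
    rw [RingHom.mapMatrix_apply, Matrix.map_apply, Matrix.of_apply, Algebra.traceMatrix_apply,
      Algebra.traceForm_apply, hT2, map_mul]

end RedTrace

end Fermat.Agent.S18
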