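import Mathlib
import Fermat.Agent.S18.CuspCountVal
import Fermat.Agent.S18.CuspSeries
import Fermat.Agent.S18.CuspNorm
import Fermat.Agent.S18.CuspTrace
import Fermat.Agent.S18.CuspInj
import Fermat.Agent.S18.CuspRatA2
import Fermat.Agent.S18.CuspRatB
import Fermat.Agent.S18.GaussMain
import Fermat.Agent.S18.RedDisc
import Fermat.Agent.S24.CosetsCusps

/-!
# S18, package CUSPCOUNT: the cusps of the special fibre

`A` a valuation subring of `Qb = AlgebraicClosure ℚ` over a prime `ℓ ∤ M`, `k` its residue field,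
`F` the level-`M` function field over `Qb`, `grO` its Gauss valuation ring, and
`ρ : grO →+* κ` ANY surjective ring homomorphism onto a field (a residue field of `grO`).

* `ccSig q : κ →+* k((q))`, `q : SL(2, ℤ) ⧸ Γ₀(M)`: the `ψ(M)` reduced cusp expansions
  (`cc_sig_rho`), pairwise distinct (`cc_sig_injective`), agreeing on the residue field `ccE`
  of `Qb(j)` (`cc_hE`), `[κ : ccE] = ψ(M)` (`cc_finrank`);
* `ccCst : k →+* κ` (constants, `cc_sig_cst`), `ccX : κ` (the residue of `1 / j`, `cc_sig_X`);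
* `ccReg : Subring κ`: the functions regular at all cusps (`cc_mem_reg`, `cc_cst_mem_reg`,
  `cc_X_mem_reg`, `cc_reg_inv`, `cc_reg_isIntegral`);
* `cc_card_le`: in a ring of regular functions, the maximal ideals at which `1 / j` vanishes
  are at most `cuspCount M` many; `cc_exists_mem_iff`: each of them is the kernel of the
  constant coefficient of a reduced cusp expansion;
* `cc_isSeparable`: `κ` is separable over every subfield containing the constants and `1 / j`.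
-/

set_option autoImplicit false

noncomputable section

open ModularCurve Polynomial
open scoped IntermediateField MatrixGroups

namespace Fermat.Agent.S18

open Fermat.Agent.S24 Fermat.Agent.S28

/-! ### Generalities -/

theorem cc_qExpand_coeff_neg {k : Type*} [CommRing k] (m : ℕ) [NeZero m] (y : LaurentSeries k)
    (hy : ∀ n : ℤ, n < 0 → y.coeff n = 0) : ∀ n : ℤ, n < 0 → (qExpand k m y).coeff n = 0 := by
  intro n hn
  by_cases hd : (m : ℤ) ∣ n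
  · obtain ⟨n', rfl⟩ := hd
    rw [qExpand_coeff_mul]
    apply hy
    have hm : (0 : ℤ) < m := by exact_mod_cast NeZero.pos m
    by_contra h
    rw [not_lt] at h
    have := mul_nonneg hm.le h
    omega
  · exact qExpand_coeff_of_not_dvd m y hd

theorem cc_qExpand_coeff_nonpos {k : Type*} [CommRing k] (m : ℕ) [NeZero m] (y : LaurentSeries k)
    (hy : ∀ n : ℤ, n ≤ 0 → y.coeff n = 0) : ∀ n : ℤ, n ≤ 0 → (qExpand k m y).coeff n = 0 := by
  intro n hn
  by_cases hd : (m : ℤ) ∣ n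
  · obtain ⟨n', rfl⟩ := hd
    rw [qExpand_coeff_mul]
    apply hy
    have hm : (0 : ℤ) < m := by exact_mod_cast NeZero.pos m
    by_contra h
    rw [not_le] at h
    have := mul_pos hm h
    omega
  · exact qExpand_coeff_of_not_dvd m y hd

theorem cc_inv_mem_of_not_nonunit {F : Type*} [Field F] (O : ValuationSubring F) (x : F)
    (hx : x ∉ O.nonunits) : x⁻¹ ∈ O := by
  rw [ValuationSubring.mem_nonunits_iff, not_lt] at hx
  rw [← ValuationSubring.valuation_le_one_iff, map_inv₀]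
  by_cases h0 : O.valuation x = 0
  · rw [h0, inv_zero]
    exact zero_le_one
  · exact (inv_le_one₀ (zero_lt_iff.mpr h0)).mpr hx

section Main

variable (A : ValuationSubring (AlgebraicClosure ℚ)) {ℓ : ℕ} [Fact ℓ.Prime]
  (hA : A.LiesOverPrime ℓ) (M : ℕ) [NeZero M] (hℓM : ¬ ℓ ∣ M)
  {κ : Type*} [Field κ] (ρ : ↥(grO A hA M hℓM) →+* κ) (hρ : Function.Surjective ρ)

include hρ in
/-- `ρ` kills the non-units. -/
theorem cc_rho_eq_zero (x : ↥(grO A hA M hℓM))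
    (hx : (x : ↥(modularFunctionFieldBar M)) ∈ (grO A hA M hℓM).nonunits) : ρ x = 0 := by
  have hmax : (RingHom.ker ρ).IsMaximal := RingHom.ker_isMaximal_of_surjective ρ hρ
  have hker := IsLocalRing.eq_maximalIdeal hmax
  obtain ⟨hx', hmem⟩ := ValuationSubring.mem_nonunits_iff_exists_mem_maximalIdeal.mp hx
  have h : x ∈ RingHom.ker ρ := by
    rw [hker]
    exact hmem
  exact RingHom.mem_ker.mp h

/-- The `q`-th cusp expansion on the Gauss valuation ring, with values in the Gauss ring. -/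
def ccTauO (q : SL(2, ℤ) ⧸ CongruenceSubgroup.Gamma0 M) : ↥(grO A hA M hℓM) →+* ↥(grV A) :=
  ((ccjTau M q).comp (grO A hA M hℓM).subtype).codRestrict (grV A)
    (fun x => (ccn_tau_mem_grV_iff M A hA hℓM q x).mpr x.2)

theorem ccTauO_coe (q : SL(2, ℤ) ⧸ CongruenceSubgroup.Gamma0 M) (x : ↥(grO A hA M hℓM)) :
    ((ccTauO A hA M hℓM q x : grV A) : LaurentSeries (AlgebraicClosure ℚ)) = ccjTau M q x := rfl

/-- The reduced `q`-th cusp expansion on the Gauss valuation ring. -/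
def ccRed (q : SL(2, ℤ) ⧸ CongruenceSubgroup.Gamma0 M) :
    ↥(grO A hA M hℓM) →+* LaurentSeries (IsLocalRing.ResidueField A) :=
  (grRho A).comp (ccTauO A hA M hℓM q)

theorem cc_ker_le (q : SL(2, ℤ) ⧸ CongruenceSubgroup.Gamma0 M) :
    RingHom.ker ρ ≤ RingHom.ker (ccRed A hA M hℓM q) := by
  intro x hx
  rw [RingHom.mem_ker] at hx ⊢
  exact ccn_tau_res_zero M A hA hℓM q x (rdisc_nonunit_of_map_eq_zero _ ρ x hx) _

/-- The reduced cusp expansions of the residue field `κ` of the Gauss valuation ring. -/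
def ccSig (q : SL(2, ℤ) ⧸ CongruenceSubgroup.Gamma0 M) :
    κ →+* LaurentSeries (IsLocalRing.ResidueField A) :=
  RingHom.liftOfSurjective ρ hρ ⟨ccRed A hA M hℓM q, cc_ker_le A hA M hℓM ρ q⟩

theorem cc_sig_rho (q : SL(2, ℤ) ⧸ CongruenceSubgroup.Gamma0 M) (x : ↥(grO A hA M hℓM)) :
    ccSig A hA M hℓM ρ hρ q (ρ x) =
      grRho A ⟨ccjTau M q x, (ccn_tau_mem_grV_iff M A hA hℓM q x).mpr x.2⟩ :=
  RingHom.liftOfSurjective_comp_apply ρ hρ _ x

/-! ### Constants -/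

/-- Constants of `A` as elements of the Gauss valuation ring. -/
def ccConstO : ↥A →+* ↥(grO A hA M hℓM) :=
  ((algebraMap (AlgebraicClosure ℚ) ↥(modularFunctionFieldBar M)).comp A.subtype).codRestrict
    (grO A hA M hℓM) (fun a => gr_algebraMap_mem A a)

theorem cc_constO_coe (a : A) :
    (((ccConstO A hA M hℓM a : ↥(grO A hA M hℓM)) : ↥(modularFunctionFieldBar M)) :
      LaurentSeries (AlgebraicClosure ℚ)) =
      algebraMap (AlgebraicClosure ℚ) (LaurentSeries (AlgebraicClosure ℚ)) (a : AlgebraicClosure ℚ) :=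
  rfl

theorem cc_constO_nonunit (a : A) (ha : (a : AlgebraicClosure ℚ) ∈ A.nonunits) :
    ((ccConstO A hA M hℓM a : ↥(grO A hA M hℓM)) : ↥(modularFunctionFieldBar M)) ∈
      (grO A hA M hℓM).nonunits := by
  rw [gr_mem_nonunits_iff]
  refine ⟨gr_algebraMap_mem A a, ?_⟩
  have h0 : IsLocalRing.residue A a = 0 := by
    rw [IsLocalRing.residue_eq_zero_iff]
    obtain ⟨ha', hmem⟩ := ValuationSubring.mem_nonunits_iff_exists_mem_maximalIdeal.mp ha
    exact hmem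
  have h1 := grRho_algebraMap A a
  rw [h0, map_zero] at h1
  exact h1

include hρ in
theorem cc_isLocalHom : IsLocalHom (ρ.comp (ccConstO A hA M hℓM)) := ⟨fun a ha => by
  by_contra hna
  have h1 : (a : AlgebraicClosure ℚ) ∈ A.nonunits := by
    rw [ValuationSubring.mem_nonunits_iff_exists_mem_maximalIdeal]
    exact ⟨a.2, hna⟩
  have h2 := cc_rho_eq_zero A hA M hℓM ρ hρ _ (cc_constO_nonunit A hA M hℓM a h1)
  rw [RingHom.comp_apply, h2] at ha
  exact not_isUnit_zero ha⟩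

/-- The constants of the residue field `κ`. -/
def ccCst : IsLocalRing.ResidueField A →+* κ :=
  @IsLocalRing.ResidueField.lift _ _ _ _ _ (ρ.comp (ccConstO A hA M hℓM))
    (cc_isLocalHom A hA M hℓM ρ hρ)

theorem cc_cst_residue (a : A) :
    ccCst A hA M hℓM ρ hρ (IsLocalRing.residue A a) = ρ (ccConstO A hA M hℓM a) :=
  @IsLocalRing.ResidueField.lift_residue_apply _ _ _ _ _ (ρ.comp (ccConstO A hA M hℓM))
    (cc_isLocalHom A hA M hℓM ρ hρ) a

theorem cc_cst_residue' (a : A)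
    (h : algebraMap (AlgebraicClosure ℚ) ↥(modularFunctionFieldBar M) (a : AlgebraicClosure ℚ) ∈
      grO A hA M hℓM) :
    ccCst A hA M hℓM ρ hρ (IsLocalRing.residue A a) =
      ρ ⟨algebraMap (AlgebraicClosure ℚ) ↥(modularFunctionFieldBar M) (a : AlgebraicClosure ℚ),
        h⟩ :=
  cc_cst_residue A hA M hℓM ρ hρ a

theorem cc_sig_cst (q : SL(2, ℤ) ⧸ CongruenceSubgroup.Gamma0 M) (c : IsLocalRing.ResidueField A) :
    ccSig A hA M hℓM ρ hρ q (ccCst A hA M hℓM ρ hρ c) =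
      algebraMap (IsLocalRing.ResidueField A) (LaurentSeries (IsLocalRing.ResidueField A)) c := by
  obtain ⟨a, rfl⟩ := IsLocalRing.residue_surjective c
  rw [cc_cst_residue, cc_sig_rho, ← grRho_algebraMap A a]
  congr 1
  exact Subtype.ext (ccj_tau_const M q (a : AlgebraicClosure ℚ))

/-! ### The function `1 / j` -/

theorem cc_coeffEmb_jq :
    coeffEmb (AlgebraicClosure ℚ) jq = jqModC (AlgebraicClosure ℚ) := dg_coe_jBar (N := 1)

theorem cc_jinv_coe :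
    (((jBar M)⁻¹ : ↥(modularFunctionFieldBar M)) : LaurentSeries (AlgebraicClosure ℚ)) =
      (jqModC (AlgebraicClosure ℚ))⁻¹ := by
  rw [← cc_coeffEmb_jq]
  rfl

theorem cc_jqModC_inv_mem : (jqModC (AlgebraicClosure ℚ))⁻¹ ∈ grV A :=
  gr_inv_mem A ⟨jqModC (AlgebraicClosure ℚ), gr_jqModC_mem A⟩ (by
    rw [grRho_jqModC]
    exact jqModC_ne_zero_of_nontrivial _)

theorem cc_jinv_mem : (jBar M)⁻¹ ∈ grO A hA M hℓM := by
  show (((jBar M)⁻¹ : ↥(modularFunctionFieldBar M)) : LaurentSeries (AlgebraicClosure ℚ)) ∈ grV A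
  rw [cc_jinv_coe]
  exact cc_jqModC_inv_mem A

/-- `1 / j` as an element of the Gauss valuation ring. -/
def ccXO : ↥(grO A hA M hℓM) := ⟨(jBar M)⁻¹, cc_jinv_mem A hA M hℓM⟩

/-- The residue of `1 / j`. -/
def ccX : κ := ρ (ccXO A hA M hℓM)

theorem cc_X_def (h : (jBar M)⁻¹ ∈ grO A hA M hℓM) :
    ccX A hA M hℓM ρ = ρ ⟨(jBar M)⁻¹, h⟩ := rfl

theorem cc_sig_X_eq (q : SL(2, ℤ) ⧸ CongruenceSubgroup.Gamma0 M) :
    ccSig A hA M hℓM ρ hρ q (ccX A hA M hℓM ρ) =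
      qExpand (IsLocalRing.ResidueField A) M (jqModC (IsLocalRing.ResidueField A))⁻¹ := by
  rw [ccX, cc_sig_rho]
  have h1 : ccjTau M q (jBar M)⁻¹ =
      qExpand (AlgebraicClosure ℚ) M (jqModC (AlgebraicClosure ℚ))⁻¹ := by
    rw [map_inv₀, ccj_tau_jBar, map_inv₀, cc_coeffEmb_jq]
  have h2 : (⟨ccjTau M q (ccXO A hA M hℓM : ↥(modularFunctionFieldBar M)),
      (ccn_tau_mem_grV_iff M A hA hℓM q _).mpr (ccXO A hA M hℓM).2⟩ : grV A) =
      ⟨qExpand (AlgebraicClosure ℚ) M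
        ((⟨(jqModC (AlgebraicClosure ℚ))⁻¹, cc_jqModC_inv_mem A⟩ : grV A) :
          LaurentSeries (AlgebraicClosure ℚ)), cc_qExpand_mem A M (cc_jqModC_inv_mem A)⟩ :=
    Subtype.ext h1
  rw [h2, cc_grRho_qExpand, grRho_inv A ⟨jqModC (AlgebraicClosure ℚ), gr_jqModC_mem A⟩ (by
    rw [grRho_jqModC]
    exact jqModC_ne_zero_of_nontrivial _), grRho_jqModC]

theorem cc_jqModC_inv_coeff (k : Type*) [Field k] :
    ∀ n : ℤ, n ≤ 0 → ((jqModC k)⁻¹).coeff n = 0 :=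
  ccv_inv_of_order_neg k (lt_of_le_of_lt (HahnSeries.order_le_of_coeff_ne_zero (by
    rw [coeff_jqModC_neg_one]
    exact one_ne_zero)) (by norm_num))

theorem cc_sig_X (q : SL(2, ℤ) ⧸ CongruenceSubgroup.Gamma0 M) :
    ∀ n : ℤ, n ≤ 0 → (ccSig A hA M hℓM ρ hρ q (ccX A hA M hℓM ρ)).coeff n = 0 := by
  rw [cc_sig_X_eq]
  exact cc_qExpand_coeff_nonpos M _ (cc_jqModC_inv_coeff _)

include hρ in
theorem cc_X_ne_zero : ccX A hA M hℓM ρ ≠ 0 := by
  intro h0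
  have h1 := cc_sig_X_eq A hA M hℓM ρ hρ ((1 : SL(2, ℤ)) : SL(2, ℤ) ⧸ CongruenceSubgroup.Gamma0 M)
  rw [h0, map_zero] at h1
  have h2 : (jqModC (IsLocalRing.ResidueField A))⁻¹ = 0 :=
    qExpand_injective M (h1.symm.trans (map_zero _).symm)
  exact inv_ne_zero (jqModC_ne_zero_of_nontrivial _) h2

/-! ### The ring of functions regular at all cusps -/

/-- The elements of `κ` all of whose reduced cusp expansions are power series. -/
def ccReg : Subring κ :=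
  ⨅ q : SL(2, ℤ) ⧸ CongruenceSubgroup.Gamma0 M,
    (ccvPS (IsLocalRing.ResidueField A)).toSubring.comap (ccSig A hA M hℓM ρ hρ q)

theorem cc_mem_reg {y : κ} : y ∈ ccReg A hA M hℓM ρ hρ ↔
    ∀ (q : SL(2, ℤ) ⧸ CongruenceSubgroup.Gamma0 M) (n : ℤ), n < 0 →
      (ccSig A hA M hℓM ρ hρ q y).coeff n = 0 := by
  simp only [ccReg, Subring.mem_iInf, Subring.mem_comap, ValuationSubring.mem_toSubring,
    ccv_mem_PS]

theorem cc_cst_mem_reg (c : IsLocalRing.ResidueField A) :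
    ccCst A hA M hℓM ρ hρ c ∈ ccReg A hA M hℓM ρ hρ := by
  rw [cc_mem_reg]
  intro q n hn
  rw [cc_sig_cst, algebraMap_laurentSeries_eq_single, HahnSeries.coeff_single_of_ne hn.ne]

theorem cc_X_mem_reg : ccX A hA M hℓM ρ ∈ ccReg A hA M hℓM ρ hρ := by
  rw [cc_mem_reg]
  intro q n hn
  exact cc_sig_X A hA M hℓM ρ hρ q n hn.le

theorem cc_reg_inv {y : κ} (hy : y ∈ ccReg A hA M hℓM ρ hρ)
    (h0 : ∀ q : SL(2, ℤ) ⧸ CongruenceSubgroup.Gamma0 M,
      (ccSig A hA M hℓM ρ hρ q y).coeff 0 ≠ 0) : y⁻¹ ∈ ccReg A hA M hℓM ρ hρ := by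
  rw [cc_mem_reg] at hy ⊢
  intro q
  rw [map_inv₀]
  exact ccv_inv_mem _ (hy q) (h0 q)

theorem cc_reg_isIntegral (y : κ) (hy : IsIntegral ↥(ccReg A hA M hℓM ρ hρ) y) :
    y ∈ ccReg A hA M hℓM ρ hρ := by
  rw [cc_mem_reg]
  intro q
  rw [← ccv_mem_PS]
  let φ : ↥(ccReg A hA M hℓM ρ hρ) →+* ↥(ccvPS (IsLocalRing.ResidueField A)) :=
    ((ccSig A hA M hℓM ρ hρ q).comp (ccReg A hA M hℓM ρ hρ).subtype).codRestrict
      (ccvPS (IsLocalRing.ResidueField A))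
      (fun r => (ccv_mem_PS _).mpr ((cc_mem_reg A hA M hℓM ρ hρ).mp r.2 q))
  have h := IsIntegral.map_of_comp_eq φ (ccSig A hA M hℓM ρ hρ q) (by ext r; rfl) hy
  exact valext_mem_of_isIntegral (ccvPS (IsLocalRing.ResidueField A)) (fun s => s.2) _ h

/-! ### The residue field of `Qb(j)` inside `κ` -/

/-- The residue field of the trace of the Gauss valuation ring on `Qb(j)`, as a subfield of
`κ`. -/
def ccE : Subfield κ where
  carrier := {e | ∃ x : ↥(grO A hA M hℓM),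
    (x : ↥(modularFunctionFieldBar M)) ∈ (AlgebraicClosure ℚ)⟮grJ (AlgebraicClosure ℚ) M⟯ ∧
      ρ x = e}
  mul_mem' := by
    rintro _ _ ⟨x, hx, rfl⟩ ⟨y, hy, rfl⟩
    exact ⟨x * y, mul_mem hx hy, map_mul ρ x y⟩
  one_mem' := ⟨1, one_mem _, map_one ρ⟩
  add_mem' := by
    rintro _ _ ⟨x, hx, rfl⟩ ⟨y, hy, rfl⟩
    exact ⟨x + y, add_mem hx hy, map_add ρ x y⟩
  zero_mem' := ⟨0, zero_mem _, map_zero ρ⟩
  neg_mem' := by
    rintro _ ⟨x, hx, rfl⟩
    exact ⟨-x, neg_mem hx, map_neg ρ x⟩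
  inv_mem' := by
    rintro _ ⟨x, hx, rfl⟩
    by_cases h0 : ρ x = 0
    · rw [h0, inv_zero]
      exact ⟨0, zero_mem _, map_zero ρ⟩
    · have hnon : (x : ↥(modularFunctionFieldBar M)) ∉ (grO A hA M hℓM).nonunits :=
        fun h => h0 (cc_rho_eq_zero A hA M hℓM ρ hρ x h)
      have hinv : (x : ↥(modularFunctionFieldBar M))⁻¹ ∈ grO A hA M hℓM :=
        cc_inv_mem_of_not_nonunit _ _ hnon
      have hx0 : (x : ↥(modularFunctionFieldBar M)) ≠ 0 := by
        intro h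
        apply h0
        have : x = 0 := Subtype.ext h
        rw [this, map_zero]
      refine ⟨⟨(x : ↥(modularFunctionFieldBar M))⁻¹, hinv⟩, inv_mem hx, ?_⟩
      have h1 : x * ⟨(x : ↥(modularFunctionFieldBar M))⁻¹, hinv⟩ = 1 :=
        Subtype.ext (mul_inv_cancel₀ hx0)
      have h2 := congrArg ρ h1
      rw [map_mul, map_one] at h2
      exact eq_inv_of_mul_eq_one_right h2

theorem cc_mem_E {e : κ} : e ∈ ccE A hA M hℓM ρ hρ ↔ ∃ x : ↥(grO A hA M hℓM),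
    (x : ↥(modularFunctionFieldBar M)) ∈ (AlgebraicClosure ℚ)⟮grJ (AlgebraicClosure ℚ) M⟯ ∧
      ρ x = e := Iff.rfl

/-- The inclusion of the trace of the Gauss valuation ring on `Qb(j)`. -/
def ccIncL : ↥((grO A hA M hℓM).comap
    (algebraMap ↥(AlgebraicClosure ℚ)⟮grJ (AlgebraicClosure ℚ) M⟯
      ↥(modularFunctionFieldBar M))) →+* ↥(grO A hA M hℓM) :=
  ((algebraMap ↥(AlgebraicClosure ℚ)⟮grJ (AlgebraicClosure ℚ) M⟯
      ↥(modularFunctionFieldBar M)).comp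
    ((grO A hA M hℓM).comap (algebraMap ↥(AlgebraicClosure ℚ)⟮grJ (AlgebraicClosure ℚ) M⟯
      ↥(modularFunctionFieldBar M))).subtype).codRestrict (grO A hA M hℓM) (fun y => y.2)

/-- The residue map of the trace of the Gauss valuation ring on `Qb(j)`. -/
def ccRhoL : ↥((grO A hA M hℓM).comap
    (algebraMap ↥(AlgebraicClosure ℚ)⟮grJ (AlgebraicClosure ℚ) M⟯
      ↥(modularFunctionFieldBar M))) →+* ↥(ccE A hA M hℓM ρ hρ) :=
  (ρ.comp (ccIncL A hA M hℓM)).codRestrict (ccE A hA M hℓM ρ hρ)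
    (fun y => ⟨ccIncL A hA M hℓM y, (y : ↥(AlgebraicClosure ℚ)⟮grJ (AlgebraicClosure ℚ) M⟯).2,
      rfl⟩)

theorem cc_finrank : Module.finrank ↥(ccE A hA M hℓM ρ hρ) κ = psi M ∧
    FiniteDimensional ↥(ccE A hA M hℓM ρ hρ) κ := by
  obtain ⟨b, hb, -, hind, -⟩ := gr_hind_j A hA M hℓM
  obtain ⟨hn, hfd⟩ := gr_finrank_j A hA M hℓM
  haveI := hfd
  have hsurjL : Function.Surjective (ccRhoL A hA M hℓM ρ hρ) := by
    rintro ⟨_, x, hx, rfl⟩
    exact ⟨⟨⟨(x : ↥(modularFunctionFieldBar M)), hx⟩, x.2⟩, rfl⟩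
  have hkerL : ∀ y : ↥((grO A hA M hℓM).comap
      (algebraMap ↥(AlgebraicClosure ℚ)⟮grJ (AlgebraicClosure ℚ) M⟯
        ↥(modularFunctionFieldBar M))),
      algebraMap ↥(AlgebraicClosure ℚ)⟮grJ (AlgebraicClosure ℚ) M⟯
        ↥(modularFunctionFieldBar M) (y : ↥(AlgebraicClosure ℚ)⟮grJ (AlgebraicClosure ℚ) M⟯) ∈
          (grO A hA M hℓM).nonunits → ccRhoL A hA M hℓM ρ hρ y = 0 := fun y hy =>
    Subtype.ext (cc_rho_eq_zero A hA M hℓM ρ hρ (ccIncL A hA M hℓM y) hy)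
  let B := rdiscBasis (grO A hA M hℓM) ρ (ccRhoL A hA M hℓM ρ hρ) b hb hn hind hρ hsurjL hkerL
    (fun y => rfl)
  exact ⟨by rw [Module.finrank_eq_card_basis B, Fintype.card_fin], Module.Finite.of_basis B⟩

include hA hℓM in
theorem cc_card : Nat.card (SL(2, ℤ) ⧸ CongruenceSubgroup.Gamma0 M) = psi M := by
  rw [sc_card_eq M]
  obtain ⟨hn, hfd⟩ := gr_finrank_j A hA M hℓM
  have h1 : (AlgebraicClosure ℚ)⟮(jBar M)⁻¹⟯ = (AlgebraicClosure ℚ)⟮grJ (AlgebraicClosure ℚ) M⟯ := by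
    rw [sc_adjoin_inv]
    have h2 : jBar M = grJ (AlgebraicClosure ℚ) M := Subtype.ext (dg_coe_jBar M)
    rw [h2]
  haveI := hfd
  obtain ⟨-, h2⟩ := sc_transport _ _ h1
  rw [h2, hn]

/-! ### The hypotheses of the abstract count -/

theorem cc_sig_E (q : SL(2, ℤ) ⧸ CongruenceSubgroup.Gamma0 M) (x : ↥(grO A hA M hℓM))
    (hx : (x : ↥(modularFunctionFieldBar M)) ∈
      (AlgebraicClosure ℚ)⟮grJ (AlgebraicClosure ℚ) M⟯) :
    ccSig A hA M hℓM ρ hρ q (ρ x) =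
      qExpand (IsLocalRing.ResidueField A) M (grRes A hA M hℓM x) := by
  rw [cc_sig_rho, grRes_apply]
  have h1 := ccn_tau_adjoin M q (x : ↥(modularFunctionFieldBar M)) hx
  have h2 : (⟨ccjTau M q (x : ↥(modularFunctionFieldBar M)),
      (ccn_tau_mem_grV_iff M A hA hℓM q _).mpr x.2⟩ : grV A) =
      ⟨qExpand (AlgebraicClosure ℚ) M
        ((⟨((x : ↥(modularFunctionFieldBar M)) : LaurentSeries (AlgebraicClosure ℚ)), x.2⟩ :
          grV A) : LaurentSeries (AlgebraicClosure ℚ)), cc_qExpand_mem A M x.2⟩ :=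
    Subtype.ext h1
  rw [h2, cc_grRho_qExpand]

theorem cc_hE (q q' : SL(2, ℤ) ⧸ CongruenceSubgroup.Gamma0 M) (e : ↥(ccE A hA M hℓM ρ hρ)) :
    ccSig A hA M hℓM ρ hρ q (algebraMap ↥(ccE A hA M hℓM ρ hρ) κ e) =
      ccSig A hA M hℓM ρ hρ q' (algebraMap ↥(ccE A hA M hℓM ρ hρ) κ e) := by
  obtain ⟨_, x, hx, rfl⟩ := e
  show ccSig A hA M hℓM ρ hρ q (ρ x) = ccSig A hA M hℓM ρ hρ q' (ρ x)
  rw [cc_sig_E A hA M hℓM ρ hρ q x hx, cc_sig_E A hA M hℓM ρ hρ q' x hx]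

theorem cc_jdBar_mem : jdBar M M dvd_rfl ∈ grO A hA M hℓM := by
  show coeffEmb (AlgebraicClosure ℚ) (qExpand ℚ M jq) ∈ grV A
  rw [← jd_rat_eq_qExpand, coeffEmb, coeffMap_jd]
  exact gr_jd_mem A M

theorem cc_sig_injective : Function.Injective (ccSig A hA M hℓM ρ hρ) := by
  intro q q' h
  have h1 := congrArg (fun σ => σ (ρ ⟨jdBar M M dvd_rfl, cc_jdBar_mem A hA M hℓM⟩)) h
  simp only [cc_sig_rho] at h1
  exact cci_eq_of_res_eq A hA M hℓM q q' _ _ h1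

theorem cc_hdiv (q : SL(2, ℤ) ⧸ CongruenceSubgroup.Gamma0 M) (e : κ)
    (he : e ∈ ccE A hA M hℓM ρ hρ)
    (h0 : ∀ n : ℤ, n ≤ 0 → (ccSig A hA M hℓM ρ hρ q e).coeff n = 0) :
    ∀ n : ℤ, n < 0 → (ccSig A hA M hℓM ρ hρ q (e / ccX A hA M hℓM ρ)).coeff n = 0 := by
  obtain ⟨x, hx, rfl⟩ := he
  rw [map_div₀, cc_sig_X_eq, cc_sig_E A hA M hℓM ρ hρ q x hx]
  rw [cc_sig_E A hA M hℓM ρ hρ q x hx] at h0
  generalize grRes A hA M hℓM x = g at h0 ⊢
  have hg : ∀ n : ℤ, n ≤ 0 → g.coeff n = 0 := fun n hn => by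
    rw [← qExpand_coeff_mul M g n]
    exact h0 _ (mul_nonpos_of_nonneg_of_nonpos (Int.natCast_nonneg M) hn)
  rw [← map_div₀, div_inv_eq_mul]
  refine cc_qExpand_coeff_neg M _ ?_
  by_cases hg0 : g = 0
  · rw [hg0, zero_mul]
    intro n _
    rfl
  · have hord : 1 ≤ g.order := by
      by_contra hlt
      rw [not_le] at hlt
      exact (mt HahnSeries.coeff_order_eq_zero.mp hg0) (hg _ (by omega))
    have hj0 : jqModC (IsLocalRing.ResidueField A) ≠ 0 := jqModC_ne_zero_of_nontrivial _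
    have hjord : -1 ≤ (jqModC (IsLocalRing.ResidueField A)).order := by
      by_contra hlt
      rw [not_le] at hlt
      exact (mt HahnSeries.coeff_order_eq_zero.mp hj0) (coeff_jqModC_of_lt _ hlt)
    have hmul := HahnSeries.order_mul hg0 hj0
    intro n hn
    exact HahnSeries.coeff_eq_zero_of_lt_order (by omega)

/-- The coercion of a polynomial expression in `1 / j` with coefficients in `A`. -/
theorem cc_poly_coe (P : (↥A)[X]) :
    (((eval₂ (ccConstO A hA M hℓM) (ccXO A hA M hℓM) P : ↥(grO A hA M hℓM)) :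
      ↥(modularFunctionFieldBar M)) : LaurentSeries (AlgebraicClosure ℚ)) =
      aeval (jqModC (AlgebraicClosure ℚ))⁻¹ (P.map A.subtype) := by
  let φ : ↥(grO A hA M hℓM) →+* LaurentSeries (AlgebraicClosure ℚ) :=
    (algebraMap ↥(modularFunctionFieldBar M) (LaurentSeries (AlgebraicClosure ℚ))).comp
      (grO A hA M hℓM).subtype
  have h1 := hom_eval₂ P (ccConstO A hA M hℓM) φ (ccXO A hA M hℓM)
  have h2 : φ.comp (ccConstO A hA M hℓM) =
      (algebraMap (AlgebraicClosure ℚ) (LaurentSeries (AlgebraicClosure ℚ))).comp A.subtype :=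
    RingHom.ext fun a => rfl
  have h3 : φ (ccXO A hA M hℓM) = (jqModC (AlgebraicClosure ℚ))⁻¹ := cc_jinv_coe M
  rw [h2, h3] at h1
  rw [aeval_def, eval₂_map]
  exact h1

theorem cc_rho_poly (P : (↥A)[X]) :
    ρ (eval₂ (ccConstO A hA M hℓM) (ccXO A hA M hℓM) P) =
      eval₂ (ccCst A hA M hℓM ρ hρ) (ccX A hA M hℓM ρ) (P.map (IsLocalRing.residue A)) := by
  rw [hom_eval₂, eval₂_map]
  have h : ρ.comp (ccConstO A hA M hℓM) =
      (ccCst A hA M hℓM ρ hρ).comp (IsLocalRing.residue A) :=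
    RingHom.ext fun a => (cc_cst_residue A hA M hℓM ρ hρ a).symm
  rw [h]
  rfl

/-- The elements of `E` are rational functions of `1 / j` with constant coefficients. -/
theorem cc_E_rat (e : κ) (he : e ∈ ccE A hA M hℓM ρ hρ) :
    ∃ P Q : (IsLocalRing.ResidueField A)[X], Q ≠ 0 ∧
      e * eval₂ (ccCst A hA M hℓM ρ hρ) (ccX A hA M hℓM ρ) Q =
        eval₂ (ccCst A hA M hℓM ρ hρ) (ccX A hA M hℓM ρ) P := by
  obtain ⟨x, hx, rfl⟩ := he
  have hτ : Transcendental (IsLocalRing.ResidueField A)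
      (grRho A ⟨(jqModC (AlgebraicClosure ℚ))⁻¹, cc_jqModC_inv_mem A⟩) := by
    rw [grRho_inv A ⟨jqModC (AlgebraicClosure ℚ), gr_jqModC_mem A⟩ (by
      rw [grRho_jqModC]
      exact jqModC_ne_zero_of_nontrivial _), grRho_jqModC]
    exact fun h => dg_transcendental_jqModC _ (IsAlgebraic.inv_iff.mp h)
  have ha : ((⟨((x : ↥(modularFunctionFieldBar M)) : LaurentSeries (AlgebraicClosure ℚ)), x.2⟩ :
      grV A) : LaurentSeries (AlgebraicClosure ℚ)) ∈
      (AlgebraicClosure ℚ)⟮((⟨(jqModC (AlgebraicClosure ℚ))⁻¹, cc_jqModC_inv_mem A⟩ : grV A) :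
        LaurentSeries (AlgebraicClosure ℚ))⟯ := by
    show ((x : ↥(modularFunctionFieldBar M)) : LaurentSeries (AlgebraicClosure ℚ)) ∈
      (AlgebraicClosure ℚ)⟮(jqModC (AlgebraicClosure ℚ))⁻¹⟯
    rw [sc_adjoin_inv]
    exact gr_coe_mem_adjoin M _ hx
  obtain ⟨P, Q, hQ, h1, -⟩ := gab_mem_adjoin (gr_gabHyp A)
    ⟨(jqModC (AlgebraicClosure ℚ))⁻¹, cc_jqModC_inv_mem A⟩ hτ _ ha
  refine ⟨P.map (IsLocalRing.residue A), Q.map (IsLocalRing.residue A), hQ, ?_⟩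
  have h2 : x * eval₂ (ccConstO A hA M hℓM) (ccXO A hA M hℓM) Q =
      eval₂ (ccConstO A hA M hℓM) (ccXO A hA M hℓM) P := by
    apply Subtype.ext
    apply Subtype.ext
    show ((x : ↥(modularFunctionFieldBar M)) : LaurentSeries (AlgebraicClosure ℚ)) *
      (((eval₂ (ccConstO A hA M hℓM) (ccXO A hA M hℓM) Q : ↥(grO A hA M hℓM)) :
        ↥(modularFunctionFieldBar M)) : LaurentSeries (AlgebraicClosure ℚ)) =
      (((eval₂ (ccConstO A hA M hℓM) (ccXO A hA M hℓM) P : ↥(grO A hA M hℓM)) :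
        ↥(modularFunctionFieldBar M)) : LaurentSeries (AlgebraicClosure ℚ))
    rw [cc_poly_coe, cc_poly_coe]
    exact h1
  have h3 := congrArg ρ h2
  rw [map_mul, cc_rho_poly A hA M hℓM ρ hρ, cc_rho_poly A hA M hℓM ρ hρ] at h3
  exact h3

theorem cc_hO (q : SL(2, ℤ) ⧸ CongruenceSubgroup.Gamma0 M) (O : ValuationSubring κ)
    (hxO : ccX A hA M hℓM ρ ∈ O.nonunits) (e : κ) (he : e ∈ ccE A hA M hℓM ρ hρ)
    (hreg : ∀ n : ℤ, n < 0 → (ccSig A hA M hℓM ρ hρ q e).coeff n = 0) : e ∈ O := by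
  obtain ⟨P, Q, hQ, h⟩ := cc_E_rat A hA M hℓM ρ hρ e he
  exact ccr_mem_of_rat (ccCst A hA M hℓM ρ hρ) O
    (fun c => ccs_const_mem A hA (ccCst A hA M hℓM ρ hρ) O c) (ccSig A hA M hℓM ρ hρ q)
    (cc_sig_cst A hA M hℓM ρ hρ q) (ccX A hA M hℓM ρ) hxO (cc_X_ne_zero A hA M hℓM ρ hρ)
    (cc_sig_X A hA M hℓM ρ hρ q) e hreg P Q hQ h

/-! ### Orbits of `T` -/

theorem cc_sig_T_coeff (q : SL(2, ℤ) ⧸ CongruenceSubgroup.Gamma0 M) (y : κ) :
    (ccSig A hA M hℓM ρ hρ (ModularGroup.T • q) y).coeff 0 =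
      (ccSig A hA M hℓM ρ hρ q y).coeff 0 := by
  obtain ⟨ζ, hζ, hT⟩ := cci_res_T A M
  obtain ⟨x, rfl⟩ := hρ y
  rw [cc_sig_rho, cc_sig_rho, hT q x _ _, ccjTwist_coeff, zpow_zero, one_mul]

theorem cc_sig_orbit (q q' : SL(2, ℤ) ⧸ CongruenceSubgroup.Gamma0 M)
    (h : MulAction.orbitRel (Subgroup.zpowers (MulAction.toPerm ModularGroup.T :
      Equiv.Perm (SL(2, ℤ) ⧸ CongruenceSubgroup.Gamma0 M)))
      (SL(2, ℤ) ⧸ CongruenceSubgroup.Gamma0 M) q q') (y : κ) :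
    (ccSig A hA M hℓM ρ hρ q y).coeff 0 = (ccSig A hA M hℓM ρ hρ q' y).coeff 0 := by
  obtain ⟨n, rfl⟩ := (orbitRel_zpowers_toPerm_T_iff M q q').mp h
  let H : Subgroup SL(2, ℤ) :=
    { carrier := {g | ∀ q : SL(2, ℤ) ⧸ CongruenceSubgroup.Gamma0 M,
        (ccSig A hA M hℓM ρ hρ (g • q) y).coeff 0 = (ccSig A hA M hℓM ρ hρ q y).coeff 0}
      mul_mem' := fun {a b} ha hb q => by rw [mul_smul, ha, hb]
      one_mem' := fun q => by rw [one_smul]
      inv_mem' := fun {a} ha q => by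
        have := ha (a⁻¹ • q)
        rw [smul_inv_smul] at this
        exact this.symm }
  have hT : ModularGroup.T ∈ H := fun q => cc_sig_T_coeff A hA M hℓM ρ hρ q y
  exact H.zpow_mem hT n q'

/-! ### The count -/

/-- **The cusps of the special fibre.** Maximal ideals of a ring of functions regular at the
cusps at which `1 / j` vanishes are at most `cuspCount M` many. -/
theorem cc_card_le {S : Type*} [CommRing S] (f : S →+* κ) (hf : Function.Injective f)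
    (hreg : ∀ z, f z ∈ ccReg A hA M hℓM ρ hρ) (s : Finset (Ideal S))
    (hs : ∀ Q ∈ s, Q.IsMaximal ∧ ∃ a ∈ Q, ∃ b, b ∉ Q ∧ f b * ccX A hA M hℓM ρ = f a) :
    s.card ≤ cuspCount M := by
  classical
  haveI : Fintype (SL(2, ℤ) ⧸ CongruenceSubgroup.Gamma0 M) := Fintype.ofFinite _
  obtain ⟨hfin, hfd⟩ := cc_finrank A hA M hℓM ρ hρ
  haveI := hfd
  haveI : Fintype (MulAction.orbitRel.Quotient (Subgroup.zpowers (MulAction.toPerm
      ModularGroup.T : Equiv.Perm (SL(2, ℤ) ⧸ CongruenceSubgroup.Gamma0 M)))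
      (SL(2, ℤ) ⧸ CongruenceSubgroup.Gamma0 M)) := Fintype.ofFinite _
  have hcard : Fintype.card (SL(2, ℤ) ⧸ CongruenceSubgroup.Gamma0 M) =
      Module.finrank ↥(ccE A hA M hℓM ρ hρ) κ := by
    rw [hfin, ← Nat.card_eq_fintype_card, cc_card A hA M hℓM]
  have hγ : Fintype.card (MulAction.orbitRel.Quotient (Subgroup.zpowers (MulAction.toPerm
      ModularGroup.T : Equiv.Perm (SL(2, ℤ) ⧸ CongruenceSubgroup.Gamma0 M)))
      (SL(2, ℤ) ⧸ CongruenceSubgroup.Gamma0 M)) = cuspCount M := by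
    rw [← Nat.card_eq_fintype_card]
    exact card_orbits_toPerm_T M (NeZero.ne M)
  rw [← hγ]
  let q₀ : SL(2, ℤ) ⧸ CongruenceSubgroup.Gamma0 M := ((1 : SL(2, ℤ)) : _)
  have hXE : ccX A hA M hℓM ρ ∈ ccE A hA M hℓM ρ hρ :=
    ⟨ccXO A hA M hℓM, inv_mem (by
      have h2 : jBar M = grJ (AlgebraicClosure ℚ) M := Subtype.ext (dg_coe_jBar M)
      rw [h2]
      exact IntermediateField.mem_adjoin_simple_self _ _), rfl⟩
  exact ccv_card_le ↥(ccE A hA M hℓM ρ hρ) (ccSig A hA M hℓM ρ hρ)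
    (fun q q' e => cc_hE A hA M hℓM ρ hρ q q' e) (cc_sig_injective A hA M hℓM ρ hρ) hcard q₀
    ⟨ccX A hA M hℓM ρ, hXE⟩ (fun h => cc_X_ne_zero A hA M hℓM ρ hρ (congrArg Subtype.val h))
    (cc_sig_X A hA M hℓM ρ hρ q₀)
    (fun e h0 => cc_hdiv A hA M hℓM ρ hρ q₀ e e.2 h0)
    (fun O hxO e he => cc_hO A hA M hℓM ρ hρ q₀ O hxO e e.2 ((ccv_mem_R _ _ _).mp he))
    (fun q => (Quotient.mk'' q : MulAction.orbitRel.Quotient (Subgroup.zpowers
      (MulAction.toPerm ModularGroup.T :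
        Equiv.Perm (SL(2, ℤ) ⧸ CongruenceSubgroup.Gamma0 M)))
      (SL(2, ℤ) ⧸ CongruenceSubgroup.Gamma0 M)))
    (fun q q' h z _ => cc_sig_orbit A hA M hℓM ρ hρ q q' (Quotient.exact' h) z)
    f hf (fun z q n hn => (cc_mem_reg A hA M hℓM ρ hρ).mp (hreg z) q n hn) s hs

/-- Residue degree one at the cusps: a maximal ideal at which `1 / j` vanishes is the kernel of
the constant coefficient of one of the reduced cusp expansions. -/
theorem cc_exists_mem_iff {S : Type*} [CommRing S] (f : S →+* κ) (hf : Function.Injective f)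
    (hreg : ∀ z, f z ∈ ccReg A hA M hℓM ρ hρ) (Q : Ideal S) (hQ : Q.IsMaximal)
    (hxQ : ∃ a ∈ Q, ∃ b, b ∉ Q ∧ f b * ccX A hA M hℓM ρ = f a) :
    ∃ q : SL(2, ℤ) ⧸ CongruenceSubgroup.Gamma0 M,
      ∀ z : S, z ∈ Q ↔ (ccSig A hA M hℓM ρ hρ q (f z)).coeff 0 = 0 := by
  classical
  haveI : Fintype (SL(2, ℤ) ⧸ CongruenceSubgroup.Gamma0 M) := Fintype.ofFinite _
  obtain ⟨hfin, hfd⟩ := cc_finrank A hA M hℓM ρ hρ
  haveI := hfd
  have hcard : Fintype.card (SL(2, ℤ) ⧸ CongruenceSubgroup.Gamma0 M) =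
      Module.finrank ↥(ccE A hA M hℓM ρ hρ) κ := by
    rw [hfin, ← Nat.card_eq_fintype_card, cc_card A hA M hℓM]
  let q₀ : SL(2, ℤ) ⧸ CongruenceSubgroup.Gamma0 M := ((1 : SL(2, ℤ)) : _)
  have hXE : ccX A hA M hℓM ρ ∈ ccE A hA M hℓM ρ hρ :=
    ⟨ccXO A hA M hℓM, inv_mem (by
      have h2 : jBar M = grJ (AlgebraicClosure ℚ) M := Subtype.ext (dg_coe_jBar M)
      rw [h2]
      exact IntermediateField.mem_adjoin_simple_self _ _), rfl⟩
  exact ccv_exists_mem_iff ↥(ccE A hA M hℓM ρ hρ) (ccSig A hA M hℓM ρ hρ)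
    (fun q q' e => cc_hE A hA M hℓM ρ hρ q q' e) (cc_sig_injective A hA M hℓM ρ hρ) hcard q₀
    ⟨ccX A hA M hℓM ρ, hXE⟩ (fun h => cc_X_ne_zero A hA M hℓM ρ hρ (congrArg Subtype.val h))
    (cc_sig_X A hA M hℓM ρ hρ q₀)
    (fun e h0 => cc_hdiv A hA M hℓM ρ hρ q₀ e e.2 h0)
    (fun O hxO e he => cc_hO A hA M hℓM ρ hρ q₀ O hxO e e.2 ((ccv_mem_R _ _ _).mp he))
    f hf (fun z q n hn => (cc_mem_reg A hA M hℓM ρ hρ).mp (hreg z) q n hn) Q hQ hxQ

/-! ### Separability -/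

theorem cc_isSeparable_E : Algebra.IsSeparable ↥(ccE A hA M hℓM ρ hρ) κ := by
  classical
  haveI : Fintype (SL(2, ℤ) ⧸ CongruenceSubgroup.Gamma0 M) := Fintype.ofFinite _
  obtain ⟨hfin, hfd⟩ := cc_finrank A hA M hℓM ρ hρ
  haveI := hfd
  have hcard : Fintype.card (SL(2, ℤ) ⧸ CongruenceSubgroup.Gamma0 M) =
      Module.finrank ↥(ccE A hA M hℓM ρ hρ) κ := by
    rw [hfin, ← Nat.card_eq_fintype_card, cc_card A hA M hℓM]
  exact cca_isSeparable (ccSig A hA M hℓM ρ hρ) (fun q q' e => cc_hE A hA M hℓM ρ hρ q q' e)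
    (cc_sig_injective A hA M hℓM ρ hρ) hcard

/-- `κ` is separable over every subfield containing the constants and `1 / j`. -/
theorem cc_isSeparable {Kk : Type*} [Field Kk] [Algebra Kk κ]
    (hX : ccX A hA M hℓM ρ ∈ (algebraMap Kk κ).range)
    (hc : ∀ c, ccCst A hA M hℓM ρ hρ c ∈ (algebraMap Kk κ).range) :
    Algebra.IsSeparable Kk κ := by
  haveI := cc_isSeparable_E A hA M hℓM ρ hρ
  refine ccs_isSeparable_of_le (E := ↥(ccE A hA M hℓM ρ hρ)) (fun e => ?_)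
  obtain ⟨P, Q, hQ, h⟩ := cc_E_rat A hA M hℓM ρ hρ (e : κ) e.2
  let q₀ : SL(2, ℤ) ⧸ CongruenceSubgroup.Gamma0 M := ((1 : SL(2, ℤ)) : _)
  have hQne : eval₂ (ccCst A hA M hℓM ρ hρ) (ccX A hA M hℓM ρ) Q ≠ 0 :=
    ccr_eval_ne_zero (ccCst A hA M hℓM ρ hρ) (ccSig A hA M hℓM ρ hρ q₀)
      (cc_sig_cst A hA M hℓM ρ hρ q₀) (ccX A hA M hℓM ρ) (cc_X_ne_zero A hA M hℓM ρ hρ)
      (cc_sig_X A hA M hℓM ρ hρ q₀) Q hQ
  have hmem : ∀ P : (IsLocalRing.ResidueField A)[X],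
      eval₂ (ccCst A hA M hℓM ρ hρ) (ccX A hA M hℓM ρ) P ∈ (algebraMap Kk κ).fieldRange := by
    intro P
    rw [eval₂_eq_sum_range]
    refine sum_mem (fun i _ => mul_mem ?_ (pow_mem ?_ _))
    · exact RingHom.mem_fieldRange.mpr (RingHom.mem_range.mp (hc _))
    · exact RingHom.mem_fieldRange.mpr (RingHom.mem_range.mp hX)
  have he : (e : κ) = eval₂ (ccCst A hA M hℓM ρ hρ) (ccX A hA M hℓM ρ) P /
      eval₂ (ccCst A hA M hℓM ρ hρ) (ccX A hA M hℓM ρ) Q := by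
    rw [eq_div_iff hQne]
    exact h
  have hfr : (e : κ) ∈ (algebraMap Kk κ).fieldRange := by
    rw [he]
    exact div_mem (hmem P) (hmem Q)
  exact RingHom.mem_range.mpr (RingHom.mem_fieldRange.mp hfr)

end Main

end Fermat.Agent.S18
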