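import Mathlib
import Fermat.Agent.S18.HauptRec
import Fermat.Agent.S18.GaussCompat
import Fermat.Agent.S18.IfaceRed

/-!
# S18: cusp values of a Hauptmodul record and the Möbius chart

For `H : HauptRec a2 ℓ` and a valuation subring `A` of a field `K` lying over `ℓ`:

* (C1) the finite cusp values of `h` (the roots of `H.Qrad`, equivalently of `H.Q`) lie in `A`
  and have pairwise distinct residues (`A.valuation (ρ - ρ') = 1`); `hcuRoots H K` is their
  finset (of cardinality `natDegree Qrad` over an algebraically closed field of characteristic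
  `0`);
* (C2) if `K` is algebraically closed there are base points `c0 c1 ∈ A`, with distinct residues,
  whose residues are not cusp values;
* (C3) the Möbius cusp values `(ρ - c1)/(ρ - c0)` (and `1` for `h = ∞`) lie in `A` and have
  pairwise distinct residues;
* (C4) `hcuNum`, `hcuDen`: `j · Num(u) = Den(u)` for the chart coordinate
  `u = (h - c1)/(h - c0)`, with the values of `Num`, `Den` at the cusp values and their leading
  coefficients.

Unit-ness of `x ∈ K` in `A` is expressed as `A.valuation x = 1`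
(`hcu_val_eq_one_iff : A.valuation x = 1 ↔ x ∈ A ∧ x ≠ 0 ∧ x⁻¹ ∈ A`).
-/

set_option autoImplicit false

open Polynomial

noncomputable section

namespace Fermat.Agent.S18

/-! ### Units of a valuation subring -/

section Val

variable {K : Type*} [Field K] (A : ValuationSubring K)

theorem hcu_val_eq_one_iff {x : K} : A.valuation x = 1 ↔ x ∈ A ∧ x ≠ 0 ∧ x⁻¹ ∈ A := by
  constructor
  · intro h
    have hx0 : x ≠ 0 := by
      rintro rfl
      rw [map_zero] at h
      exact zero_ne_one h
    refine ⟨(A.valuation_le_one_iff x).mp h.le, hx0, (A.valuation_le_one_iff _).mp ?_⟩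
    rw [map_inv₀, h, inv_one]
  · rintro ⟨h1, h0, h2⟩
    have h3 := (A.valuation_le_one_iff x).mpr h1
    have h4 := (A.valuation_le_one_iff _).mpr h2
    rw [map_inv₀] at h4
    have hv0 : A.valuation x ≠ 0 := (_root_.map_ne_zero _).mpr h0
    exact le_antisymm h3 ((inv_le_one₀ (zero_lt_iff.mpr hv0)).mp h4)

theorem hcu_val_eq_one_iff_residue (x : A) :
    A.valuation (x : K) = 1 ↔ IsLocalRing.residue A x ≠ 0 := by
  rw [← A.valuation_eq_one_iff, ← IsLocalRing.notMem_maximalIdeal, Ne,
    IsLocalRing.residue_eq_zero_iff]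

theorem hcu_val_eq_one_iff_notMem {x : K} (hx : x ∈ A) :
    A.valuation x = 1 ↔ x ∉ A.nonunits := by
  rw [hcu_val_eq_one_iff_residue A ⟨x, hx⟩, Ne, IsLocalRing.residue_eq_zero_iff,
    ← ValuationSubring.coe_mem_nonunits_iff]

theorem hcu_val_mul {x y : K} (hx : A.valuation x = 1) (hy : A.valuation y = 1) :
    A.valuation (x * y) = 1 := by
  rw [map_mul, hx, hy, one_mul]

theorem hcu_val_div {x y : K} (hx : A.valuation x = 1) (hy : A.valuation y = 1) :
    A.valuation (x / y) = 1 := by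
  rw [map_div₀, hx, hy, div_one]

theorem hcu_val_neg {x : K} (hx : A.valuation x = 1) : A.valuation (-x) = 1 := by
  rw [Valuation.map_neg, hx]

theorem hcu_val_sub_comm {x y : K} (h : A.valuation (x - y) = 1) : A.valuation (y - x) = 1 := by
  rw [← neg_sub, Valuation.map_neg, h]

end Val

/-! ### (C1) cusp values -/

section Roots

variable {a2 ℓ : ℕ} (H : HauptRec a2 ℓ)

/-- the roots of `Q` and of its radical coincide (in any domain). -/
theorem hcu_aeval_Q_eq_zero_iff {R : Type*} [CommRing R] [IsDomain R] (c : R) :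
    aeval c H.Q = 0 ↔ aeval c H.Qrad = 0 := by
  constructor
  · intro h
    obtain ⟨n, W, hW⟩ := H.dvd_Qrad_pow
    have h1 := congrArg (aeval c) hW
    rw [map_pow, map_mul, h, zero_mul] at h1
    exact (pow_eq_zero_iff (by
      rintro rfl
      rw [pow_zero] at h1
      exact one_ne_zero h1)).mp h1
  · intro h
    obtain ⟨W, hW⟩ := H.Qrad_dvd
    rw [hW, map_mul, h, zero_mul]

theorem hcu_Qrad_map_ne_zero (R : Type*) [CommRing R] [Nontrivial R] :
    H.Qrad.map (Int.castRingHom R) ≠ 0 :=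
  (H.Qrad_monic.map _).ne_zero

theorem hcu_sep_of_charZero (K : Type*) [Field K] [CharZero K] :
    (H.Qrad.map (Int.castRingHom K)).Separable := by
  have h := H.Qrad_sep_rat.map (f := algebraMap ℚ K)
  rwa [Polynomial.map_map, RingHom.ext_int ((algebraMap ℚ K).comp (Int.castRingHom ℚ))
    (Int.castRingHom K)] at h

theorem hcu_sep_of_charP (k : Type*) [Field k] [CharP k ℓ] :
    (H.Qrad.map (Int.castRingHom k)).Separable := by
  have h := H.Qrad_sep_mod.map (f := ZMod.castHom (dvd_refl ℓ) k)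
  rwa [Polynomial.map_map, RingHom.ext_int ((ZMod.castHom (dvd_refl ℓ) k).comp
    (Int.castRingHom (ZMod ℓ))) (Int.castRingHom k)] at h

/-- the finite cusp values of `h` in a field `K`: the roots of `Qrad`. -/
def hcuRoots (K : Type*) [Field K] : Finset K :=
  haveI := Classical.decEq K
  (H.Qrad.map (Int.castRingHom K)).roots.toFinset

theorem hcu_aeval_eq_eval_map {R : Type*} [CommRing R] (c : R) (p : Polynomial ℤ) :
    aeval c p = (p.map (Int.castRingHom R)).eval c := by
  rw [Polynomial.eval_map, Polynomial.aeval_def]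
  congr 1

theorem mem_hcuRoots {K : Type*} [Field K] {c : K} :
    c ∈ hcuRoots H K ↔ aeval c H.Qrad = 0 := by
  classical
  rw [hcuRoots, Multiset.mem_toFinset, Polynomial.mem_roots (hcu_Qrad_map_ne_zero H K),
    Polynomial.IsRoot, hcu_aeval_eq_eval_map]

theorem hcu_card_roots_of_separable {K : Type*} [Field K] [IsAlgClosed K]
    (hsep : (H.Qrad.map (Int.castRingHom K)).Separable) :
    (hcuRoots H K).card = H.Qrad.natDegree := by
  classical
  rw [hcuRoots, Multiset.toFinset_card_of_nodup (Polynomial.nodup_roots hsep),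
    Polynomial.splits_iff_card_roots.mp (IsAlgClosed.splits _), H.Qrad_monic.natDegree_map]

theorem hcu_card_roots {K : Type*} [Field K] [IsAlgClosed K] [CharZero K] :
    (hcuRoots H K).card = H.Qrad.natDegree :=
  hcu_card_roots_of_separable H (hcu_sep_of_charZero H K)

theorem hcu_card_roots_charP {k : Type*} [Field k] [IsAlgClosed k] [CharP k ℓ] :
    (hcuRoots H k).card = H.Qrad.natDegree :=
  hcu_card_roots_of_separable H (hcu_sep_of_charP H k)

variable {K : Type*} [Field K] (A : ValuationSubring K)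

/-- a cusp value is an algebraic integer. -/
theorem hcu_isIntegral {c : K} (hc : aeval c H.Qrad = 0) : IsIntegral ℤ c :=
  ⟨H.Qrad, H.Qrad_monic, by rwa [← Polynomial.aeval_def]⟩

/-- the cusp values lie in every valuation subring. -/
theorem hcu_root_mem {c : K} (hc : aeval c H.Qrad = 0) : c ∈ A := by
  have h1 : IsIntegral A c := (hcu_isIntegral H hc).tower_top
  obtain ⟨y, rfl⟩ := IsIntegrallyClosed.algebraMap_eq_of_integral h1
  exact y.2

/-- evaluation of an integer polynomial commutes with the residue map. -/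
theorem hcu_residue_aeval (x : A) (p : Polynomial ℤ) :
    IsLocalRing.residue A (aeval x p) = aeval (IsLocalRing.residue A x) p := by
  rw [Polynomial.aeval_def, Polynomial.aeval_def, Polynomial.hom_eval₂]
  congr 1

theorem hcu_coe_aeval (x : A) (p : Polynomial ℤ) :
    ((aeval x p : A) : K) = aeval (x : K) p := by
  have h := Polynomial.hom_eval₂ p (algebraMap ℤ A) A.subtype x
  rw [Polynomial.aeval_def, Polynomial.aeval_def,
    show algebraMap ℤ K = (A.subtype).comp (algebraMap ℤ A) from RingHom.ext_int _ _]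
  exact h

variable [Fact ℓ.Prime]

/-- distinct cusp values have distinct residues modulo a valuation subring over `ℓ`. -/
theorem hcu_root_sub_val (hA : A.LiesOverPrime ℓ) {c c' : K} (hc : aeval c H.Qrad = 0)
    (hc' : aeval c' H.Qrad = 0) (hne : c ≠ c') : A.valuation (c - c') = 1 := by
  have hchar : CharP (IsLocalRing.ResidueField A) ℓ := grc_charP A ℓ hA
  set x : A := ⟨c, hcu_root_mem H A hc⟩ with hx
  set y : A := ⟨c', hcu_root_mem H A hc'⟩ with hy
  have hxy : x ≠ y := fun h => hne (congrArg Subtype.val h)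
  have hcx : A.valuation (c - c') = A.valuation ((x - y : A) : K) := rfl
  rw [hcx, hcu_val_eq_one_iff_residue]
  intro hres
  rw [map_sub, sub_eq_zero] at hres
  -- the polynomial over `A`
  set p : Polynomial A := H.Qrad.map (Int.castRingHom A) with hp
  have hpx : p.IsRoot x := by
    rw [Polynomial.IsRoot, hp, ← hcu_aeval_eq_eval_map]
    apply Subtype.ext
    rw [hcu_coe_aeval]
    exact hc
  have hpy : p.IsRoot y := by
    rw [Polynomial.IsRoot, hp, ← hcu_aeval_eq_eval_map]
    apply Subtype.ext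
    rw [hcu_coe_aeval]
    exact hc'
  obtain ⟨g, hg⟩ := Polynomial.dvd_iff_isRoot.mpr hpx
  have hgy : g.IsRoot y := by
    have h1 : p.eval y = 0 := hpy
    rw [hg, Polynomial.eval_mul, Polynomial.eval_sub, Polynomial.eval_X, Polynomial.eval_C] at h1
    rcases mul_eq_zero.mp h1 with h2 | h2
    · exact absurd (sub_eq_zero.mp h2).symm hxy
    · exact h2
  obtain ⟨g', hg'⟩ := Polynomial.dvd_iff_isRoot.mpr hgy
  have hsep : (H.Qrad.map (Int.castRingHom (IsLocalRing.ResidueField A))).Separable :=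
    hcu_sep_of_charP H _
  have hmap : H.Qrad.map (Int.castRingHom (IsLocalRing.ResidueField A)) =
      p.map (IsLocalRing.residue A) := by
    rw [hp, Polynomial.map_map]
    congr 1
  rw [hmap, hg, hg'] at hsep
  have hsq := hsep.squarefree (X - C (IsLocalRing.residue A x)) (by
    refine ⟨g'.map (IsLocalRing.residue A), ?_⟩
    rw [Polynomial.map_mul, Polynomial.map_mul, Polynomial.map_sub, Polynomial.map_sub,
      Polynomial.map_X, Polynomial.map_C, Polynomial.map_C, ← hres]
    ring)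
  exact Polynomial.not_isUnit_X_sub_C _ hsq

end Roots

/-! ### (C2) base points -/

section Base

variable {a2 ℓ : ℕ} (H : HauptRec a2 ℓ) {K : Type*} [Field K] (A : ValuationSubring K)

/-- an integer polynomial maps `A` into `A`. -/
theorem hcu_aeval_mem {c : K} (hc : c ∈ A) (p : Polynomial ℤ) : aeval c p ∈ A := by
  have h := hcu_coe_aeval A ⟨c, hc⟩ p
  rw [← h]
  exact Subtype.coe_prop _

/-- `c ∈ K` is a non-cuspidal base point modulo `A`: `c ∈ A` and `Qrad(c)` is a unit of `A`
(the residue of `c` is not a cusp value of the reduced Hauptmodul). -/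
def hcuGood (c : K) : Prop := c ∈ A ∧ A.valuation (aeval c H.Qrad) = 1

theorem hcuGood_iff_residue (x : A) :
    hcuGood H A (x : K) ↔ aeval (IsLocalRing.residue A x) H.Qrad ≠ 0 := by
  rw [hcuGood, ← hcu_coe_aeval, hcu_val_eq_one_iff_residue, hcu_residue_aeval]
  exact ⟨fun h => h.2, fun h => ⟨x.2, h⟩⟩

variable {H A}

theorem hcuGood.mem {c : K} (hc : hcuGood H A c) : c ∈ A := hc.1

/-- a good base point differs from every cusp value by a unit. -/
theorem hcuGood.root_sub_val {c ρ : K} (hc : hcuGood H A c) (hρ : aeval ρ H.Qrad = 0) :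
    A.valuation (ρ - c) = 1 := by
  set x : A := ⟨c, hc.1⟩ with hx
  set r : A := ⟨ρ, hcu_root_mem H A hρ⟩ with hr
  have h1 : A.valuation (ρ - c) = A.valuation ((r - x : A) : K) := rfl
  rw [h1, hcu_val_eq_one_iff_residue]
  intro hres
  rw [map_sub, sub_eq_zero] at hres
  have h2 := (hcuGood_iff_residue H A x).mp hc
  apply h2
  rw [← hres, ← hcu_residue_aeval]
  have h3 : (aeval r H.Qrad : A) = 0 := by
    apply Subtype.ext
    rw [hcu_coe_aeval]
    exact hρ
  rw [h3, map_zero]

theorem hcuGood.sub_root_val {c ρ : K} (hc : hcuGood H A c) (hρ : aeval ρ H.Qrad = 0) :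
    A.valuation (c - ρ) = 1 :=
  hcu_val_sub_comm A (hc.root_sub_val hρ)

theorem hcuGood.ne_root {c ρ : K} (hc : hcuGood H A c) (hρ : aeval ρ H.Qrad = 0) : ρ ≠ c := by
  intro h
  have h1 := hc.root_sub_val hρ
  rw [h, sub_self, map_zero] at h1
  exact zero_ne_one h1

/-- at a good base point `Q(c)` is a unit of `A`. -/
theorem hcuGood.Q_val {c : K} (hc : hcuGood H A c) : A.valuation (aeval c H.Q) = 1 := by
  obtain ⟨n, W, hW⟩ := H.dvd_Qrad_pow
  have h1 := congrArg (fun p => A.valuation (aeval c p)) hW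
  simp only [map_pow, map_mul, hc.2, one_pow] at h1
  have h2 : A.valuation (aeval c H.Q) ≤ 1 :=
    (A.valuation_le_one_iff _).mpr (hcu_aeval_mem A hc.1 _)
  have h3 : A.valuation (aeval c W) ≤ 1 :=
    (A.valuation_le_one_iff _).mpr (hcu_aeval_mem A hc.1 _)
  refine le_antisymm h2 ?_
  calc (1 : _) = A.valuation (aeval c H.Q) * A.valuation (aeval c W) := h1
    _ ≤ A.valuation (aeval c H.Q) * 1 := mul_le_mul_right h3 _
    _ = A.valuation (aeval c H.Q) := mul_one _

theorem hcuGood.Q_ne_zero {c : K} (hc : hcuGood H A c) : aeval c H.Q ≠ 0 := by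
  intro h
  have h1 := hc.Q_val
  rw [h, map_zero] at h1
  exact zero_ne_one h1

theorem hcuGood.Qrad_ne_zero {c : K} (hc : hcuGood H A c) : aeval c H.Qrad ≠ 0 := by
  intro h
  have h1 := hc.2
  rw [h, map_zero] at h1
  exact zero_ne_one h1

variable (H A)

/-- Existence of base points: over an algebraically closed field there are `c0, c1 ∈ A`, good,
with distinct residues, and avoiding modulo the maximal ideal any given finite set. -/
theorem hcu_exists_base_avoid [IsAlgClosed K] (T : Finset K) :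
    ∃ c0 c1 : K, hcuGood H A c0 ∧ hcuGood H A c1 ∧ A.valuation (c0 - c1) = 1 ∧
      ∀ t ∈ T, t ∈ A → A.valuation (t - c0) = 1 ∧ A.valuation (t - c1) = 1 := by
  classical
  have hk : IsAlgClosed (IsLocalRing.ResidueField A) := ifr_residue_isAlgClosed A
  have hinf : Infinite (IsLocalRing.ResidueField A) := IsAlgClosed.instInfinite
  -- residues to avoid
  let B : Finset (IsLocalRing.ResidueField A) :=
    hcuRoots H (IsLocalRing.ResidueField A) ∪
      T.image (fun t => if ht : t ∈ A then IsLocalRing.residue A ⟨t, ht⟩ else 0)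
  obtain ⟨b0, hb0⟩ := Infinite.exists_notMem_finset B
  obtain ⟨b1, hb1⟩ := Infinite.exists_notMem_finset (insert b0 B)
  obtain ⟨x0, rfl⟩ := IsLocalRing.residue_surjective b0
  obtain ⟨x1, rfl⟩ := IsLocalRing.residue_surjective b1
  have hb1' : IsLocalRing.residue A x1 ≠ IsLocalRing.residue A x0 ∧
      IsLocalRing.residue A x1 ∉ B := by
    rw [Finset.mem_insert, not_or] at hb1
    exact hb1
  refine ⟨(x0 : K), (x1 : K), ?_, ?_, ?_, ?_⟩
  · rw [hcuGood_iff_residue]
    exact fun h => hb0 (Finset.mem_union_left _ ((mem_hcuRoots H).mpr h))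
  · rw [hcuGood_iff_residue]
    exact fun h => hb1'.2 (Finset.mem_union_left _ ((mem_hcuRoots H).mpr h))
  · have h1 : A.valuation ((x0 : K) - (x1 : K)) = A.valuation ((x0 - x1 : A) : K) := rfl
    rw [h1, hcu_val_eq_one_iff_residue, map_sub, sub_ne_zero]
    exact fun h => hb1'.1 h.symm
  · intro t ht htA
    have hmem : IsLocalRing.residue A ⟨t, htA⟩ ∈ B := by
      apply Finset.mem_union_right
      rw [Finset.mem_image]
      exact ⟨t, ht, by rw [dif_pos htA]⟩
    constructor
    · have h1 : A.valuation (t - (x0 : K)) = A.valuation (((⟨t, htA⟩ : A) - x0 : A) : K) := rfl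
      rw [h1, hcu_val_eq_one_iff_residue, map_sub, sub_ne_zero]
      exact fun h => hb0 (h ▸ hmem)
    · have h1 : A.valuation (t - (x1 : K)) = A.valuation (((⟨t, htA⟩ : A) - x1 : A) : K) := rfl
      rw [h1, hcu_val_eq_one_iff_residue, map_sub, sub_ne_zero]
      exact fun h => hb1'.2 (h ▸ hmem)

theorem hcu_exists_base [IsAlgClosed K] :
    ∃ c0 c1 : K, hcuGood H A c0 ∧ hcuGood H A c1 ∧ A.valuation (c0 - c1) = 1 := by
  obtain ⟨c0, c1, h0, h1, h01, -⟩ := hcu_exists_base_avoid H A ∅
  exact ⟨c0, c1, h0, h1, h01⟩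

/-- `hcuGood` in the "inverse lies in `A`" spelling (note that `x⁻¹ ∈ A` alone does not exclude
`x = 0`). -/
theorem hcuGood_iff (c : K) :
    hcuGood H A c ↔ c ∈ A ∧ aeval c H.Qrad ≠ 0 ∧ (aeval c H.Qrad)⁻¹ ∈ A := by
  rw [hcuGood, hcu_val_eq_one_iff]
  constructor
  · rintro ⟨h1, -, h2, h3⟩
    exact ⟨h1, h2, h3⟩
  · rintro ⟨h1, h2, h3⟩
    exact ⟨h1, hcu_aeval_mem A h1 _, h2, h3⟩

/-- Existence of base points in the "inverse lies in `A`" spelling. -/
theorem hcu_exists_base' [IsAlgClosed K] :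
    ∃ c0 c1 : K, c0 ∈ A ∧ c1 ∈ A ∧ c0 ≠ c1 ∧ (c0 - c1)⁻¹ ∈ A ∧
      aeval c0 H.Qrad ≠ 0 ∧ (aeval c0 H.Qrad)⁻¹ ∈ A ∧
      aeval c1 H.Qrad ≠ 0 ∧ (aeval c1 H.Qrad)⁻¹ ∈ A := by
  obtain ⟨c0, c1, h0, h1, h01⟩ := hcu_exists_base H A
  obtain ⟨-, h2, h3⟩ := (hcu_val_eq_one_iff A).mp h01
  obtain ⟨a0, b0, d0⟩ := (hcuGood_iff H A c0).mp h0
  obtain ⟨a1, b1, d1⟩ := (hcuGood_iff H A c1).mp h1
  exact ⟨c0, c1, a0, a1, sub_ne_zero.mp h2, h3, b0, d0, b1, d1⟩

end Base

/-! ### (C3) Möbius cusp values -/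

section Moebius

variable {K : Type*} [Field K] (A : ValuationSubring K)

theorem hcu_ne_of_val {x y : K} (h : A.valuation (x - y) = 1) : x - y ≠ 0 := by
  intro h0
  rw [h0, map_zero] at h
  exact zero_ne_one h

theorem hcu_moebius_mem {c0 c1 ρ : K} (h1 : c1 ∈ A) (hρ : ρ ∈ A)
    (h0 : A.valuation (ρ - c0) = 1) : (ρ - c1) / (ρ - c0) ∈ A := by
  rw [← A.valuation_le_one_iff, map_div₀, h0, div_one, A.valuation_le_one_iff]
  exact A.sub_mem hρ h1

theorem hcu_moebius_val {c0 c1 ρ : K} (h1 : A.valuation (ρ - c1) = 1)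
    (h0 : A.valuation (ρ - c0) = 1) : A.valuation ((ρ - c1) / (ρ - c0)) = 1 :=
  hcu_val_div A h1 h0

theorem hcu_moebius_sub_one {c0 c1 ρ : K} (hc : A.valuation (c0 - c1) = 1)
    (h0 : A.valuation (ρ - c0) = 1) : A.valuation ((ρ - c1) / (ρ - c0) - 1) = 1 := by
  have hne := hcu_ne_of_val A h0
  have h : (ρ - c1) / (ρ - c0) - 1 = (c0 - c1) / (ρ - c0) := by
    field_simp
    ring
  rw [h]
  exact hcu_val_div A hc h0

theorem hcu_moebius_sub {c0 c1 ρ ρ' : K} (hc : A.valuation (c0 - c1) = 1)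
    (h0 : A.valuation (ρ - c0) = 1) (h0' : A.valuation (ρ' - c0) = 1)
    (hρ : A.valuation (ρ - ρ') = 1) :
    A.valuation ((ρ - c1) / (ρ - c0) - (ρ' - c1) / (ρ' - c0)) = 1 := by
  have hne := hcu_ne_of_val A h0
  have hne' := hcu_ne_of_val A h0'
  have h : (ρ - c1) / (ρ - c0) - (ρ' - c1) / (ρ' - c0) =
      (ρ - ρ') * (c1 - c0) / ((ρ - c0) * (ρ' - c0)) := by
    field_simp
    ring
  rw [h]
  exact hcu_val_div A (hcu_val_mul A hρ (hcu_val_sub_comm A hc)) (hcu_val_mul A h0 h0')

variable {a2 ℓ : ℕ} (H : HauptRec a2 ℓ)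

/-- the cusp values of the chart coordinate `u = (h - c1)/(h - c0)`: `1` (at `h = ∞`) and
`(ρ - c1)/(ρ - c0)` for the finite cusp values `ρ` of `h`. -/
def hcuTau (c0 c1 : K) : Option (hcuRoots H K) → K
  | none => 1
  | some ρ => ((ρ : K) - c1) / ((ρ : K) - c0)

@[simp] theorem hcuTau_none (c0 c1 : K) : hcuTau H c0 c1 none = 1 := rfl

@[simp] theorem hcuTau_some (c0 c1 : K) (ρ : hcuRoots H K) :
    hcuTau H c0 c1 (some ρ) = ((ρ : K) - c1) / ((ρ : K) - c0) := rfl

variable {H A}

theorem hcuTau_mem {c0 c1 : K} (h0 : hcuGood H A c0) (h1 : c1 ∈ A)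
    (i : Option (hcuRoots H K)) : hcuTau H c0 c1 i ∈ A := by
  rcases i with _ | ρ
  · exact A.one_mem
  · exact hcu_moebius_mem A h1 (hcu_root_mem H A (mem_hcuRoots H |>.mp ρ.2))
      (h0.root_sub_val (mem_hcuRoots H |>.mp ρ.2))

/-- the cusp values of the chart have pairwise distinct residues. -/
theorem hcuTau_sub_val [Fact ℓ.Prime] (hA : A.LiesOverPrime ℓ) {c0 c1 : K}
    (h0 : hcuGood H A c0) (hc : A.valuation (c0 - c1) = 1)
    {i j : Option (hcuRoots H K)} (hij : i ≠ j) :
    A.valuation (hcuTau H c0 c1 i - hcuTau H c0 c1 j) = 1 := by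
  rcases i with _ | ρ <;> rcases j with _ | ρ'
  · exact absurd rfl hij
  · rw [hcuTau_none, hcuTau_some]
    exact hcu_val_sub_comm A
      (hcu_moebius_sub_one A hc (h0.root_sub_val (mem_hcuRoots H |>.mp ρ'.2)))
  · rw [hcuTau_none, hcuTau_some]
    exact hcu_moebius_sub_one A hc (h0.root_sub_val (mem_hcuRoots H |>.mp ρ.2))
  · rw [hcuTau_some, hcuTau_some]
    have hne : (ρ : K) ≠ (ρ' : K) := fun h => hij (congrArg some (Subtype.ext h))
    exact hcu_moebius_sub A hc (h0.root_sub_val (mem_hcuRoots H |>.mp ρ.2))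
      (h0.root_sub_val (mem_hcuRoots H |>.mp ρ'.2))
      (hcu_root_sub_val H A hA (mem_hcuRoots H |>.mp ρ.2) (mem_hcuRoots H |>.mp ρ'.2) hne)

theorem hcuTau_injective [Fact ℓ.Prime] (hA : A.LiesOverPrime ℓ) {c0 c1 : K}
    (h0 : hcuGood H A c0) (hc : A.valuation (c0 - c1) = 1) :
    Function.Injective (hcuTau H c0 c1) := by
  intro i j hij
  by_contra hne
  have h := hcuTau_sub_val hA h0 hc hne
  rw [hij, sub_self, map_zero] at h
  exact zero_ne_one h

/-- the cusp values of the chart are units of `A` when `c1` is good as well (so that the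
inverse chart `1/u` has its cusp values in `A` too). -/
theorem hcuTau_val {c0 c1 : K} (h0 : hcuGood H A c0) (h1 : hcuGood H A c1)
    (i : Option (hcuRoots H K)) : A.valuation (hcuTau H c0 c1 i) = 1 := by
  rcases i with _ | ρ
  · rw [hcuTau_none, map_one]
  · exact hcu_moebius_val A (h1.root_sub_val (mem_hcuRoots H |>.mp ρ.2))
      (h0.root_sub_val (mem_hcuRoots H |>.mp ρ.2))

/-- the cusp values of the inverse chart are the inverses. -/
theorem hcuTau_swap {c0 c1 : K} (i : Option (hcuRoots H K)) :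
    hcuTau H c1 c0 i = (hcuTau H c0 c1 i)⁻¹ := by
  rcases i with _ | ρ
  · rw [hcuTau_none, hcuTau_none, inv_one]
  · rw [hcuTau_some, hcuTau_some, inv_div]

end Moebius

end Fermat.Agent.S18
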