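import Fermat.Agent.S18.Disc0Level
import Fermat.Agent.S18.HauptCusp
import Fermat.Agent.S18.CoreInstChart

/-!
# S18, package CHAR0RAM: the characteristic-zero discriminant of the Hauptmodul chart of a
`HauptRec` at level `N`

For `H : HauptRec a2 ℓ` and a level `N` with `a2 ∣ N`, `F = modularFunctionFieldBar N` over
`ℚ̄`:

* `c0rH N H ha2 : F` is the Hauptmodul (underlying series `H.h ℚ̄`), `c0rT N H ha2 c0 c1 : F` the
  chart coordinate (underlying series `cinstU H ℚ̄ c0 c1 = (h - c1) / (h - c0)`);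
* `c0r_rel`: `jBar N * Q(h) = P(h)`; `c0r_cube`, `c0r_square`, `c0r_natDegree_lt`;
* `c0r_transcendental`, `c0r_finiteDimensional`, `c0r_finiteDimensional_frac`;
* `c0r_ord_eq_one`: the fibres of `h` over non-cuspidal values are reduced;
* `c0r_main`: in any `ℚ̄[X]`-setup `E = Frac ℚ̄[X] → F`, `X ↦ t = (h - c1) / (h - c0)`
  (`c0 ≠ c1`, `c0` non-cuspidal) the integral closure of `ℚ̄[X]` in `F` has a basis `β` with
  `discr β = u * ∏ o, (X - hcuTau H c0 c1 o) ^ e o`, `e o + n o ≤ [F : E]`,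
  `∑ o, n o = cuspCount N`  (this is `d0l_main` for the record).
-/

set_option autoImplicit false

noncomputable section

namespace Fermat.Agent.S18

open ModularCurve AlgebraicCurve IntermediateField Polynomial
open Fermat.Agent.S24 Fermat.Agent.S28

section general

variable {a2 ℓ : ℕ} (H : HauptRec a2 ℓ)

theorem c0r_cube (R : Type*) [CommRing R] :
    H.P.map (Int.castRingHom R) = (H.P3.map (Int.castRingHom R)) ^ 3 := by
  rw [← Polynomial.map_pow, ← H.cube]

theorem c0r_square (R : Type*) [CommRing R] :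
    H.P.map (Int.castRingHom R) - 1728 * H.Q.map (Int.castRingHom R) =
      (H.P2.map (Int.castRingHom R)) ^ 2 := by
  rw [← Polynomial.map_pow, ← H.square, Polynomial.map_sub, Polynomial.map_mul]
  congr 2
  simp

theorem c0r_natDegree_lt (K : Type*) [Field K] :
    (H.Q.map (Int.castRingHom K)).natDegree < (H.P.map (Int.castRingHom K)).natDegree := by
  rw [H.natDegree_P_map K]
  exact H.natDegree_Q_map K

theorem c0r_eval_Q_eq_zero_iff {K : Type*} [Field K] (c : K) :
    (H.Q.map (Int.castRingHom K)).eval c = 0 ↔ aeval c H.Qrad = 0 := by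
  rw [← hcu_aeval_eq_eval_map, hcu_aeval_Q_eq_zero_iff]

theorem c0r_d0Tau_eq {K : Type*} [Field K] (c0 c1 : K) :
    d0Tau c0 c1 (fun i : hcuRoots H K => (i : K)) = hcuTau H c0 c1 := by
  funext o
  cases o <;> rfl

end general

section level

variable (N : ℕ) [NeZero N] {a2 ℓ : ℕ} (H : HauptRec a2 ℓ) (ha2 : a2 ∣ N)

local notation "Qb" => AlgebraicClosure ℚ

/-- The Hauptmodul of the record as an element of the function field of `X₀(N)` over `ℚ̄`. -/
def c0rH : ↥(modularFunctionFieldBar N) := ⟨H.h Qb, cinst_h_mem H Qb ha2⟩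

@[simp] theorem c0rH_coe :
    ((c0rH N H ha2 : ↥(modularFunctionFieldBar N)) : LaurentSeries Qb) = H.h Qb := rfl

/-- The chart coordinate `(h - c1) / (h - c0)` as an element of the function field of `X₀(N)`
over `ℚ̄`. -/
def c0rT (c0 c1 : Qb) : ↥(modularFunctionFieldBar N) :=
  ⟨cinstU H Qb c0 c1, cinstU_mem H Qb ha2 c0 c1⟩

@[simp] theorem c0rT_coe (c0 c1 : Qb) :
    ((c0rT N H ha2 c0 c1 : ↥(modularFunctionFieldBar N)) : LaurentSeries Qb) =
      cinstU H Qb c0 c1 := rfl

omit [NeZero N] in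
theorem c0r_coe_aeval (x : ↥(modularFunctionFieldBar N)) (p : Qb[X]) :
    ((aeval x p : ↥(modularFunctionFieldBar N)) : LaurentSeries Qb) =
      aeval (x : LaurentSeries Qb) p :=
  (aeval_algHom_apply (modularFunctionFieldBar N).val x p).symm

/-- `j * Q(h) = P(h)` in the function field of `X₀(N)` over `ℚ̄`. -/
theorem c0r_rel :
    jBar N * aeval (c0rH N H ha2) (H.Q.map (Int.castRingHom Qb)) =
      aeval (c0rH N H ha2) (H.P.map (Int.castRingHom Qb)) := by
  apply Subtype.ext
  rw [MulMemClass.coe_mul, c0r_coe_aeval, c0r_coe_aeval, dg_coe_jBar, ← jd_one]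
  exact H.rel_field Qb

/-- the chart coordinate is `(h - c1) / (h - c0)` in the function field. -/
theorem c0r_chart_eq (c0 c1 : Qb) (t : ↥(modularFunctionFieldBar N))
    (ht : (t : LaurentSeries Qb) = cinstU H Qb c0 c1) :
    t = (c0rH N H ha2 - algebraMap Qb ↥(modularFunctionFieldBar N) c1) /
      (c0rH N H ha2 - algebraMap Qb ↥(modularFunctionFieldBar N) c0) := by
  apply Subtype.ext
  rw [ht]
  rfl

theorem c0rT_eq (c0 c1 : Qb) :
    c0rT N H ha2 c0 c1 = (c0rH N H ha2 - algebraMap Qb ↥(modularFunctionFieldBar N) c1) /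
      (c0rH N H ha2 - algebraMap Qb ↥(modularFunctionFieldBar N) c0) :=
  c0r_chart_eq N H ha2 c0 c1 _ rfl

/-- The Hauptmodul is transcendental over `ℚ̄`. -/
theorem c0r_transcendental : Transcendental Qb (c0rH N H ha2) := by
  intro halg
  apply H.transcendental Qb
  have h1 := halg.algHom (modularFunctionFieldBar N).val
  exact h1

/-- The function field of `X₀(N)` is finite over `ℚ̄(h)`. -/
theorem c0r_finiteDimensional :
    FiniteDimensional Qb⟮c0rH N H ha2⟯ ↥(modularFunctionFieldBar N) :=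
  have := finiteDimensional_jBar' N
  sf_finiteDimensional_of_transcendental (jBar N) (c0r_transcendental N H ha2)

/-- **Reduced fibres.**  Over a non-cuspidal value `c` (`Qrad(c) ≠ 0`) the function `h - c` has
only simple zeros on `X₀(N)`. -/
theorem c0r_ord_eq_one (c : Qb) (hc : aeval c H.Qrad ≠ 0)
    (P : Place Qb ↥(modularFunctionFieldBar N))
    (hP : 0 < P.ord (c0rH N H ha2 - algebraMap Qb ↥(modularFunctionFieldBar N) c)) :
    P.ord (c0rH N H ha2 - algebraMap Qb ↥(modularFunctionFieldBar N) c) = 1 := by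
  exact d0r_ord_eq_one (jBar N) (c0rH N H ha2) _ _ _ _ (c0r_rel N H ha2)
    (c0r_natDegree_lt H Qb) (c0r_cube H Qb) (c0r_square H Qb) (c0r_transcendental N H ha2)
    (d0l_hgen N) (d0l_h0 N) (d0l_h1728 N) c
    (fun h0 => hc ((c0r_eval_Q_eq_zero_iff H c).mp h0)) P hP

section frac

variable {E : Type*} [Field E] [Algebra Qb[X] E] [IsFractionRing Qb[X] E]
  [Algebra E ↥(modularFunctionFieldBar N)] [Algebra Qb[X] ↥(modularFunctionFieldBar N)]
  [IsScalarTower Qb[X] E ↥(modularFunctionFieldBar N)]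

/-- In any `ℚ̄[X]`-setup `E = Frac ℚ̄[X] → F` with `X ↦ t`, `t` transcendental over `ℚ̄`, the
function field of `X₀(N)` is finite over `E`. -/
theorem c0r_finiteDimensional_frac (t : ↥(modularFunctionFieldBar N))
    (hX : ∀ P : Qb[X], algebraMap Qb[X] ↥(modularFunctionFieldBar N) P = aeval t P) :
    FiniteDimensional E ↥(modularFunctionFieldBar N) := by
  have htr : Transcendental Qb t := d0_transcendental E t hX
  have _i := finiteDimensional_jBar' N
  have _i2 : FiniteDimensional Qb⟮t⟯ ↥(modularFunctionFieldBar N) :=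
    sf_finiteDimensional_of_transcendental (jBar N) htr
  refine Module.Finite.of_equiv_equiv (d0_equiv (E := E) t hX).symm
    (RingEquiv.refl ↥(modularFunctionFieldBar N)) ?_
  refine RingHom.ext fun y => ?_
  have h1 := congrArg (fun f => f ((d0_equiv (E := E) t hX).symm y)) (d0_equiv_comm (E := E) t hX)
  simp only [RingHom.comp_apply, RingEquiv.toRingHom_eq_coe, RingEquiv.coe_toRingHom,
    RingEquiv.apply_symm_apply, RingEquiv.refl_apply] at h1
  simp only [RingHom.comp_apply, RingEquiv.coe_toRingHom, RingEquiv.refl_apply]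
  exact h1.symm

/-- **The characteristic-zero discriminant of the Hauptmodul chart at level `N`.**
`t = (h - c1) / (h - c0)` with `c0 ≠ c1`, `c0` non-cuspidal; `X ↦ t`.  The cusp values of `t`
are `hcuTau H c0 c1 o`, `o : Option (hcuRoots H ℚ̄)` (`none` is `h = ∞`, i.e. `t = 1`). -/
theorem c0r_main (ha2 : a2 ∣ N) (c0 c1 : Qb) (hc : c0 ≠ c1) (hq0 : aeval c0 H.Qrad ≠ 0)
    (t : ↥(modularFunctionFieldBar N)) (ht : (t : LaurentSeries Qb) = cinstU H Qb c0 c1)
    (hX : ∀ P : Qb[X], algebraMap Qb[X] ↥(modularFunctionFieldBar N) P = aeval t P) :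
    ∃ (β : Module.Basis (Fin (Module.finrank E ↥(modularFunctionFieldBar N))) E
        ↥(modularFunctionFieldBar N)) (u : Qb) (e n : Option (hcuRoots H Qb) → ℕ),
      (∀ i, IsIntegral Qb[X] (β i)) ∧
      (∀ x : ↥(modularFunctionFieldBar N), IsIntegral Qb[X] x →
        x ∈ Submodule.span Qb[X] (Set.range β)) ∧ u ≠ 0 ∧
      (∀ o, e o + n o ≤ Module.finrank E ↥(modularFunctionFieldBar N)) ∧
      ∑ o, n o = cuspCount N ∧
      Algebra.discr E β =
        algebraMap Qb[X] E (C u * ∏ o, (X - C (hcuTau H c0 c1 o)) ^ e o) := by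
  have _i : FiniteDimensional E ↥(modularFunctionFieldBar N) :=
    c0r_finiteDimensional_frac N t hX
  have hteq := c0r_chart_eq N H ha2 c0 c1 t ht
  rw [hteq] at hX
  have hmain := d0l_main N (E := E) (c0rH N H ha2) _ _ _ _ (c0r_rel N H ha2)
    (H.coprime_of_charZero Qb) (c0r_natDegree_lt H Qb) (c0r_cube H Qb) (c0r_square H Qb) c0 c1 hc
    (fun h0 => hq0 ((c0r_eval_Q_eq_zero_iff H c0).mp h0)) hX
    (fun i : hcuRoots H Qb => (i : Qb)) Subtype.val_injective
    (fun r => by
      rw [c0r_eval_Q_eq_zero_iff, ← mem_hcuRoots]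
      exact ⟨fun h => ⟨⟨r, h⟩, rfl⟩, fun ⟨i, hi⟩ => hi ▸ i.2⟩)
  rw [c0r_d0Tau_eq] at hmain
  exact hmain

end frac

end level

end Fermat.Agent.S18
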