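import Mathlib
import Fermat.Agent.S18.HauptRec
import Fermat.Agent.S18.HauptCusp
import Fermat.Agent.S18.CoreInstChart
import Fermat.Agent.S18.Disc0

/-!
# S18: `1/j` in the Möbius chart of a Hauptmodul record

For `H : HauptRec a2 ℓ`, `n = psi a2` and constants `c0 c1` of a commutative ring `R`:

* `hcuHom p n a b = ∑_{i ≤ n} p_i a^i b^(n-i)` (homogenisation of an integer polynomial);
* `hcuDen H R c0 c1 = P^hom(c0 X - c1, X - 1)`, `hcuNum H R c0 c1 = Q^hom(c0 X - c1, X - 1)`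
  in `R[X]` (both homogenised in degree `n`), compatible with ring homomorphisms;
* `hcu_rel`: `j · Num(u) = Den(u)` for the chart coordinate `u = cinstU H K c0 c1
  = (h - c1)/(h - c0)` over any field `K`; `hcu_rel_inv`: `j⁻¹ · Den(u) = Num(u)`;
* values: `Num(1) = 0`, `Den(1) = (c0 - c1)^n`, and at `τ = (x - c1)/(x - c0)`:
  `Num(τ) = ((c0 - c1)/(x - c0))^n · Q(x)`, `Den(τ) = ((c0 - c1)/(x - c0))^n · P(x)`;
  hence `Num` vanishes and `Den` does not vanish at every cusp value of the chart;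
* degrees and leading coefficients: `natDegree ≤ n`, `coeff n Den = P(c0)`, `coeff n Num = Q(c0)`;
* `hcu_mem_of_root`, `hcu_notMem_of_ne`: for a proper ideal `𝔮` of a `k[X]`-algebra containing
  `X - τ`: `p(τ) = 0 ⇒ p ∈ 𝔮` and `p(τ) ≠ 0 ⇒ p ∉ 𝔮`;
* `hcu_isIntegral_lead_mul`: the chart coordinate times `j⁻¹ P(c0) - Q(c0)` is integral over
  every subring containing the constants and `j⁻¹`.
-/

set_option autoImplicit false

open Polynomial ModularCurve
open Fermat.Agent.S28

noncomputable section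

namespace Fermat.Agent.S18

/-! ### Homogenisation -/

section Hom

variable {S : Type*} [CommRing S]

/-- homogenisation in degree `n` of an integer polynomial: `∑_{i ≤ n} p_i a^i b^(n-i)`. -/
def hcuHom (p : Polynomial ℤ) (n : ℕ) (a b : S) : S :=
  ∑ i ∈ Finset.range (n + 1), (p.coeff i : S) * a ^ i * b ^ (n - i)

theorem hcuHom_map {S' : Type*} [CommRing S'] (f : S →+* S') (p : Polynomial ℤ) (n : ℕ)
    (a b : S) : f (hcuHom p n a b) = hcuHom p n (f a) (f b) := by
  simp only [hcuHom, map_sum, map_mul, map_pow, map_intCast]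

theorem hcuHom_mul (p : Polynomial ℤ) {n : ℕ} (hn : p.natDegree ≤ n) (b x : S) :
    hcuHom p n (b * x) b = b ^ n * aeval x p := by
  rw [hcuHom, aeval_eq_sum_range' (Nat.lt_succ_of_le hn), Finset.mul_sum]
  refine Finset.sum_congr rfl fun i hi => ?_
  have hi' : i ≤ n := Nat.lt_succ_iff.mp (Finset.mem_range.mp hi)
  rw [zsmul_eq_mul, mul_pow, ← pow_mul_pow_sub b hi']
  ring

theorem hcuHom_zero_right (p : Polynomial ℤ) (n : ℕ) (a : S) :
    hcuHom p n a 0 = (p.coeff n : S) * a ^ n := by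
  rw [hcuHom, Finset.sum_eq_single n]
  · rw [Nat.sub_self, pow_zero, mul_one]
  · intro i hi hne
    have hi' : i < n := lt_of_le_of_ne (Nat.lt_succ_iff.mp (Finset.mem_range.mp hi)) hne
    rw [zero_pow (Nat.sub_ne_zero_of_lt hi'), mul_zero]
  · intro h
    exact absurd (Finset.mem_range.mpr (Nat.lt_succ_self n)) h

/-- the Möbius substitution: `p^hom(c0 τ - c1, τ - 1)` at `τ = (x - c1)/(x - c0)`. -/
theorem hcuHom_moebius {K : Type*} [Field K] (p : Polynomial ℤ) {n : ℕ} (hn : p.natDegree ≤ n)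
    (c0 c1 x : K) (hx : x ≠ c0) :
    hcuHom p n (c0 * ((x - c1) / (x - c0)) - c1) ((x - c1) / (x - c0) - 1) =
      ((c0 - c1) / (x - c0)) ^ n * aeval x p := by
  have hne : x - c0 ≠ 0 := sub_ne_zero.mpr hx
  have h1 : (x - c1) / (x - c0) - 1 = (c0 - c1) / (x - c0) := by
    field_simp
    ring
  have h2 : c0 * ((x - c1) / (x - c0)) - c1 = (c0 - c1) / (x - c0) * x := by
    field_simp
    ring
  rw [h1, h2, hcuHom_mul p hn]

section Poly

variable {R : Type*} [CommRing R]

theorem hcuHom_natDegree_le (p : Polynomial ℤ) (n : ℕ) (c0 c1 : R) :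
    (hcuHom p n (C c0 * X - C c1) (X - 1) : R[X]).natDegree ≤ n := by
  rw [hcuHom]
  refine Polynomial.natDegree_sum_le_of_forall_le _ _ fun i hi => ?_
  have hi' : i ≤ n := Nat.lt_succ_iff.mp (Finset.mem_range.mp hi)
  have h1 : ((p.coeff i : ℤ) : R[X]).natDegree ≤ 0 := by
    rw [← Polynomial.C_eq_intCast]
    exact (Polynomial.natDegree_C _).le
  have h2 : (C c0 * X - C c1 : R[X]).natDegree ≤ 1 := by
    refine (Polynomial.natDegree_sub_le _ _).trans (max_le ?_ ?_)
    · exact Polynomial.natDegree_C_mul_le _ _ |>.trans Polynomial.natDegree_X_le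
    · rw [Polynomial.natDegree_C]
      exact Nat.zero_le 1
  have h3 : (X - 1 : R[X]).natDegree ≤ 1 := by
    refine (Polynomial.natDegree_sub_le _ _).trans (max_le Polynomial.natDegree_X_le ?_)
    rw [Polynomial.natDegree_one]
    exact Nat.zero_le 1
  have h4 : ((C c0 * X - C c1 : R[X]) ^ i).natDegree ≤ i := by
    simpa using Polynomial.natDegree_pow_le_of_le i h2
  have h5 : ((X - 1 : R[X]) ^ (n - i)).natDegree ≤ n - i := by
    simpa using Polynomial.natDegree_pow_le_of_le (n - i) h3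
  have h6 := Polynomial.natDegree_mul_le_of_le (Polynomial.natDegree_mul_le_of_le h1 h4) h5
  refine h6.trans ?_
  omega

theorem hcuHom_coeff (p : Polynomial ℤ) {n : ℕ} (hn : p.natDegree ≤ n) (c0 c1 : R) :
    (hcuHom p n (C c0 * X - C c1) (X - 1) : R[X]).coeff n = aeval c0 p := by
  rw [hcuHom, Polynomial.finsetSum_coeff, aeval_eq_sum_range' (Nat.lt_succ_of_le hn)]
  refine Finset.sum_congr rfl fun i hi => ?_
  have hi' : i ≤ n := Nat.lt_succ_iff.mp (Finset.mem_range.mp hi)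
  have h2 : (C c0 * X - C c1 : R[X]).natDegree ≤ 1 := by
    refine (Polynomial.natDegree_sub_le _ _).trans (max_le ?_ ?_)
    · exact Polynomial.natDegree_C_mul_le _ _ |>.trans Polynomial.natDegree_X_le
    · rw [Polynomial.natDegree_C]
      exact Nat.zero_le 1
  have h3 : (X - 1 : R[X]).natDegree ≤ 1 := by
    refine (Polynomial.natDegree_sub_le _ _).trans (max_le Polynomial.natDegree_X_le ?_)
    rw [Polynomial.natDegree_one]
    exact Nat.zero_le 1
  have h4 : ((C c0 * X - C c1 : R[X]) ^ i).natDegree ≤ i := by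
    simpa using Polynomial.natDegree_pow_le_of_le i h2
  have h5 : ((X - 1 : R[X]) ^ (n - i)).natDegree ≤ n - i := by
    simpa using Polynomial.natDegree_pow_le_of_le (n - i) h3
  have c4 : ((C c0 * X - C c1 : R[X]) ^ i).coeff i = c0 ^ i := by
    have h := Polynomial.coeff_pow_of_natDegree_le (m := i) h2
    rw [mul_one] at h
    rw [h, Polynomial.coeff_sub, Polynomial.coeff_C_mul, Polynomial.coeff_X_one, mul_one,
      Polynomial.coeff_C, if_neg one_ne_zero, sub_zero]
  have c5 : ((X - 1 : R[X]) ^ (n - i)).coeff (n - i) = 1 := by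
    have h := Polynomial.coeff_pow_of_natDegree_le (m := n - i) h3
    rw [mul_one] at h
    rw [h, Polynomial.coeff_sub, Polynomial.coeff_X_one, Polynomial.coeff_one,
      if_neg one_ne_zero, sub_zero, one_pow]
  have h7 : ((C c0 * X - C c1 : R[X]) ^ i * (X - 1) ^ (n - i)).coeff n = c0 ^ i := by
    have h := Polynomial.coeff_mul_add_eq_of_natDegree_le h4 h5
    rw [Nat.add_sub_cancel' hi'] at h
    rw [h, c4, c5, mul_one]
  rw [mul_assoc, ← Polynomial.C_eq_intCast, Polynomial.coeff_C_mul, h7, zsmul_eq_mul]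

end Poly

end Hom

/-! ### The chart polynomials -/

section Chart

variable {a2 ℓ : ℕ} (H : HauptRec a2 ℓ)

/-- denominator of `1/j` in the chart `u = (h - c1)/(h - c0)`: `P^hom(c0 X - c1, X - 1)`. -/
def hcuDen (R : Type*) [CommRing R] (c0 c1 : R) : R[X] :=
  hcuHom H.P (psi a2) (C c0 * X - C c1) (X - 1)

/-- numerator of `1/j` in the chart `u = (h - c1)/(h - c0)`: `Q^hom(c0 X - c1, X - 1)`
(homogenised in degree `psi a2 = deg P`). -/
def hcuNum (R : Type*) [CommRing R] (c0 c1 : R) : R[X] :=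
  hcuHom H.Q (psi a2) (C c0 * X - C c1) (X - 1)

theorem hcu_natDegree_P_le : H.P.natDegree ≤ psi a2 := H.natDegree_P.le

theorem hcu_natDegree_Q_le : H.Q.natDegree ≤ psi a2 := H.natDegree_Q.le

section Ring

variable {R : Type*} [CommRing R]

theorem hcuDen_map {S : Type*} [CommRing S] (f : R →+* S) (c0 c1 : R) :
    (hcuDen H R c0 c1).map f = hcuDen H S (f c0) (f c1) := by
  rw [hcuDen, hcuDen, ← Polynomial.coe_mapRingHom, hcuHom_map]
  simp

theorem hcuNum_map {S : Type*} [CommRing S] (f : R →+* S) (c0 c1 : R) :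
    (hcuNum H R c0 c1).map f = hcuNum H S (f c0) (f c1) := by
  rw [hcuNum, hcuNum, ← Polynomial.coe_mapRingHom, hcuHom_map]
  simp

theorem hcuDen_eval (c0 c1 x : R) :
    (hcuDen H R c0 c1).eval x = hcuHom H.P (psi a2) (c0 * x - c1) (x - 1) := by
  rw [hcuDen, ← Polynomial.coe_evalRingHom, hcuHom_map]
  simp

theorem hcuNum_eval (c0 c1 x : R) :
    (hcuNum H R c0 c1).eval x = hcuHom H.Q (psi a2) (c0 * x - c1) (x - 1) := by
  rw [hcuNum, ← Polynomial.coe_evalRingHom, hcuHom_map]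
  simp

theorem hcuDen_aeval {S : Type*} [CommRing S] [Algebra R S] (c0 c1 : R) (u : S) :
    aeval u (hcuDen H R c0 c1) =
      hcuHom H.P (psi a2) (algebraMap R S c0 * u - algebraMap R S c1) (u - 1) := by
  rw [hcuDen, ← AlgHom.coe_toRingHom, hcuHom_map]
  simp

theorem hcuNum_aeval {S : Type*} [CommRing S] [Algebra R S] (c0 c1 : R) (u : S) :
    aeval u (hcuNum H R c0 c1) =
      hcuHom H.Q (psi a2) (algebraMap R S c0 * u - algebraMap R S c1) (u - 1) := by
  rw [hcuNum, ← AlgHom.coe_toRingHom, hcuHom_map]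
  simp

theorem hcuDen_natDegree_le (c0 c1 : R) : (hcuDen H R c0 c1).natDegree ≤ psi a2 :=
  hcuHom_natDegree_le _ _ _ _

theorem hcuNum_natDegree_le (c0 c1 : R) : (hcuNum H R c0 c1).natDegree ≤ psi a2 :=
  hcuHom_natDegree_le _ _ _ _

/-- the top coefficient of `Den` is `P(c0)`. -/
theorem hcuDen_coeff (c0 c1 : R) : (hcuDen H R c0 c1).coeff (psi a2) = aeval c0 H.P :=
  hcuHom_coeff _ (hcu_natDegree_P_le H) _ _

/-- the top coefficient of `Num` is `Q(c0)`. -/
theorem hcuNum_coeff (c0 c1 : R) : (hcuNum H R c0 c1).coeff (psi a2) = aeval c0 H.Q :=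
  hcuHom_coeff _ (hcu_natDegree_Q_le H) _ _

/-- `Den(1) = (c0 - c1)^n` (the cusp value `1` of the chart, `h = ∞`). -/
theorem hcuDen_eval_one (c0 c1 : R) : (hcuDen H R c0 c1).eval 1 = (c0 - c1) ^ psi a2 := by
  have h1 : H.P.coeff (psi a2) = 1 := by
    have h := H.P_monic.coeff_natDegree
    rwa [H.natDegree_P] at h
  rw [hcuDen_eval, sub_self, hcuHom_zero_right, h1, Int.cast_one, one_mul, mul_one]

/-- `Num(1) = 0` (the cusp value `1` of the chart, `h = ∞`). -/
theorem hcuNum_eval_one (c0 c1 : R) : (hcuNum H R c0 c1).eval 1 = 0 := by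
  have h1 : H.Q.coeff (psi a2) = 0 := Polynomial.coeff_eq_zero_of_natDegree_lt H.natDegree_Q
  rw [hcuNum_eval, sub_self, hcuHom_zero_right, h1, Int.cast_zero, zero_mul]

end Ring

section Field

variable {K : Type*} [Field K]

theorem hcuDen_eval_moebius (c0 c1 x : K) (hx : x ≠ c0) :
    (hcuDen H K c0 c1).eval ((x - c1) / (x - c0)) =
      ((c0 - c1) / (x - c0)) ^ psi a2 * aeval x H.P := by
  rw [hcuDen_eval, hcuHom_moebius _ (hcu_natDegree_P_le H) _ _ _ hx]

theorem hcuNum_eval_moebius (c0 c1 x : K) (hx : x ≠ c0) :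
    (hcuNum H K c0 c1).eval ((x - c1) / (x - c0)) =
      ((c0 - c1) / (x - c0)) ^ psi a2 * aeval x H.Q := by
  rw [hcuNum_eval, hcuHom_moebius _ (hcu_natDegree_Q_le H) _ _ _ hx]

/-- `Num` vanishes at the Möbius image of a finite cusp value. -/
theorem hcuNum_eval_root (c0 c1 ρ : K) (hρ0 : ρ ≠ c0) (hρ : aeval ρ H.Qrad = 0) :
    (hcuNum H K c0 c1).eval ((ρ - c1) / (ρ - c0)) = 0 := by
  rw [hcuNum_eval_moebius H c0 c1 ρ hρ0, (hcu_aeval_Q_eq_zero_iff H ρ).mpr hρ, mul_zero]

/-- `P` does not vanish at a root of `Q` when `P`, `Q` are coprime over `K`. -/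
theorem hcu_aeval_P_ne_zero
    (hcop : IsCoprime (H.P.map (Int.castRingHom K)) (H.Q.map (Int.castRingHom K)))
    {ρ : K} (hρ : aeval ρ H.Qrad = 0) : aeval ρ H.P ≠ 0 := by
  obtain ⟨U, V, hUV⟩ := hcop
  intro hP
  have h := congrArg (Polynomial.eval ρ) hUV
  rw [Polynomial.eval_add, Polynomial.eval_mul, Polynomial.eval_mul, Polynomial.eval_one,
    ← hcu_aeval_eq_eval_map, ← hcu_aeval_eq_eval_map, hP,
    (hcu_aeval_Q_eq_zero_iff H ρ).mpr hρ, mul_zero, mul_zero, add_zero] at h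
  exact zero_ne_one h

/-- `Den` does not vanish at the Möbius image of a finite cusp value. -/
theorem hcuDen_eval_root_ne_zero
    (hcop : IsCoprime (H.P.map (Int.castRingHom K)) (H.Q.map (Int.castRingHom K)))
    (c0 c1 ρ : K) (hc : c0 ≠ c1) (hρ0 : ρ ≠ c0) (hρ : aeval ρ H.Qrad = 0) :
    (hcuDen H K c0 c1).eval ((ρ - c1) / (ρ - c0)) ≠ 0 := by
  rw [hcuDen_eval_moebius H c0 c1 ρ hρ0]
  exact mul_ne_zero (pow_ne_zero _ (div_ne_zero (sub_ne_zero.mpr hc) (sub_ne_zero.mpr hρ0)))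
    (hcu_aeval_P_ne_zero H hcop hρ)

/-- `Num` vanishes at every cusp value of the chart. -/
theorem hcuNum_eval_tau (c0 c1 : K) (h0 : ∀ ρ : K, aeval ρ H.Qrad = 0 → ρ ≠ c0)
    (o : Option (hcuRoots H K)) : (hcuNum H K c0 c1).eval (hcuTau H c0 c1 o) = 0 := by
  rcases o with _ | ρ
  · exact hcuNum_eval_one H c0 c1
  · exact hcuNum_eval_root H c0 c1 ρ (h0 _ ((mem_hcuRoots H).mp ρ.2)) ((mem_hcuRoots H).mp ρ.2)

/-- `Den` does not vanish at any cusp value of the chart. -/
theorem hcuDen_eval_tau_ne_zero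
    (hcop : IsCoprime (H.P.map (Int.castRingHom K)) (H.Q.map (Int.castRingHom K)))
    (c0 c1 : K) (hc : c0 ≠ c1) (h0 : ∀ ρ : K, aeval ρ H.Qrad = 0 → ρ ≠ c0)
    (o : Option (hcuRoots H K)) : (hcuDen H K c0 c1).eval (hcuTau H c0 c1 o) ≠ 0 := by
  rcases o with _ | ρ
  · rw [hcuTau_none, hcuDen_eval_one]
    exact pow_ne_zero _ (sub_ne_zero.mpr hc)
  · exact hcuDen_eval_root_ne_zero H hcop c0 c1 ρ hc (h0 _ ((mem_hcuRoots H).mp ρ.2))
      ((mem_hcuRoots H).mp ρ.2)

/-- the two `ℤ`-algebra structures on Laurent series give the same evaluation. -/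
theorem hcu_aeval_laurent (x : LaurentSeries K) (p : Polynomial ℤ) :
    (@aeval ℤ (LaurentSeries K) _ _ (Ring.toIntAlgebra _) x) p = aeval x p := by
  have h1 := @aeval_def ℤ (LaurentSeries K) _ _ (Ring.toIntAlgebra _) x p
  rw [h1, aeval_def]
  congr 1
  exact RingHom.ext_int _ _

/-- `j · Num(u) = Den(u)` for the chart coordinate `u = (h - c1)/(h - c0)`. -/
theorem hcu_rel (c0 c1 : K) :
    jd K 1 * aeval (cinstU H K c0 c1) (hcuNum H K c0 c1) =
      aeval (cinstU H K c0 c1) (hcuDen H K c0 c1) := by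
  have hne : H.h K ≠ algebraMap K (LaurentSeries K) c0 :=
    sub_ne_zero.mp (cinst_h_sub_ne_zero H K c0)
  rw [hcuNum_aeval, hcuDen_aeval, cinstU, hcuHom_moebius _ (hcu_natDegree_Q_le H) _ _ _ hne,
    hcuHom_moebius _ (hcu_natDegree_P_le H) _ _ _ hne, mul_left_comm, hcu_aeval_laurent,
    hcu_aeval_laurent, H.rel_map K]

theorem hcu_jd_ne_zero : jd K 1 ≠ 0 := by
  have h := valRing_jd_transcendental K 1 X Polynomial.X_ne_zero
  rwa [aeval_X] at h

/-- `j⁻¹ · Den(u) = Num(u)` for the chart coordinate `u = (h - c1)/(h - c0)`. -/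
theorem hcu_rel_inv (c0 c1 : K) :
    (jd K 1)⁻¹ * aeval (cinstU H K c0 c1) (hcuDen H K c0 c1) =
      aeval (cinstU H K c0 c1) (hcuNum H K c0 c1) := by
  rw [← hcu_rel, ← mul_assoc, inv_mul_cancel₀ hcu_jd_ne_zero, one_mul]

end Field

/-- the top coefficients in the instance-free spelling. -/
theorem hcuDen_coeff' {R : Type*} [CommRing R] (c0 c1 : R) :
    (hcuDen H R c0 c1).coeff (psi a2) = (H.P.map (Int.castRingHom R)).eval c0 := by
  rw [hcuDen_coeff, hcu_aeval_eq_eval_map]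

theorem hcuNum_coeff' {R : Type*} [CommRing R] (c0 c1 : R) :
    (hcuNum H R c0 c1).coeff (psi a2) = (H.Q.map (Int.castRingHom R)).eval c0 := by
  rw [hcuNum_coeff, hcu_aeval_eq_eval_map]

/-! ### The cusp values in the `d0Tau` indexing of `Disc0` -/

section D0

variable {K : Type*} [Field K]

theorem hcuNum_eval_d0Tau {J : Type*} (c0 c1 : K) (ρ : J → K)
    (hρ : ∀ i, aeval (ρ i) H.Qrad = 0) (hρ0 : ∀ i, ρ i ≠ c0) (o : Option J) :
    (hcuNum H K c0 c1).eval (d0Tau c0 c1 ρ o) = 0 := by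
  rcases o with _ | i
  · exact hcuNum_eval_one H c0 c1
  · exact hcuNum_eval_root H c0 c1 (ρ i) (hρ0 i) (hρ i)

theorem hcuDen_eval_d0Tau_ne_zero
    (hcop : IsCoprime (H.P.map (Int.castRingHom K)) (H.Q.map (Int.castRingHom K)))
    {J : Type*} (c0 c1 : K) (hc : c0 ≠ c1) (ρ : J → K)
    (hρ : ∀ i, aeval (ρ i) H.Qrad = 0) (hρ0 : ∀ i, ρ i ≠ c0) (o : Option J) :
    (hcuDen H K c0 c1).eval (d0Tau c0 c1 ρ o) ≠ 0 := by
  rcases o with _ | i
  · rw [d0Tau_none, hcuDen_eval_one]
    exact pow_ne_zero _ (sub_ne_zero.mpr hc)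
  · exact hcuDen_eval_root_ne_zero H hcop c0 c1 (ρ i) hc (hρ0 i) (hρ i)

end D0

end Chart

/-! ### Ideals over a point of the line -/

section Ideal

variable {k : Type*} [Field k] {S : Type*} [CommRing S] [Algebra k[X] S]

/-- a polynomial vanishing at `τ` lies in every ideal containing `X - τ`. -/
theorem hcu_mem_of_root (𝔮 : Ideal S) (τ : k) (hτ : algebraMap k[X] S (X - C τ) ∈ 𝔮)
    (p : k[X]) (hp : p.eval τ = 0) : algebraMap k[X] S p ∈ 𝔮 := by
  obtain ⟨g, rfl⟩ := Polynomial.dvd_iff_isRoot.mpr hp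
  rw [map_mul]
  exact 𝔮.mul_mem_right _ hτ

/-- a polynomial not vanishing at `τ` lies in no proper ideal containing `X - τ`. -/
theorem hcu_notMem_of_ne (𝔮 : Ideal S) (h𝔮 : 𝔮 ≠ ⊤) (τ : k)
    (hτ : algebraMap k[X] S (X - C τ) ∈ 𝔮) (p : k[X]) (hp : p.eval τ ≠ 0) :
    algebraMap k[X] S p ∉ 𝔮 := by
  intro hmem
  have h1 : (p - C (p.eval τ)).eval τ = 0 := by
    rw [Polynomial.eval_sub, Polynomial.eval_C, sub_self]
  have h2 := hcu_mem_of_root 𝔮 τ hτ _ h1
  have h3 : algebraMap k[X] S (C (p.eval τ)) ∈ 𝔮 := by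
    have h4 := 𝔮.sub_mem hmem h2
    rwa [← map_sub, sub_sub_cancel] at h4
  apply h𝔮
  rw [Ideal.eq_top_iff_one]
  have h5 : algebraMap k[X] S (C (p.eval τ)⁻¹) * algebraMap k[X] S (C (p.eval τ)) = 1 := by
    rw [← map_mul, ← C_mul, inv_mul_cancel₀ hp, C_1, map_one]
  rw [← h5]
  exact 𝔮.mul_mem_left _ h3

end Ideal

/-! ### Integrality of the chart coordinate over `k[1/j]` localised at `1/j = 0` -/

section Integral

/-- Abstract form: if `x · Den(u) = Num(u)` with `Num, Den ∈ K[X]` of degree `≤ n`, then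
`(x · Den_n - Num_n) · u` is integral over every subring containing the constants and `x`. -/
theorem hcu_isIntegral_of_rel {K L : Type*} [Field K] [CommRing L] [Algebra K L]
    (S : Subring L) (hconst : ∀ c : K, algebraMap K L c ∈ S) (x u : L) (hx : x ∈ S)
    (Num Den : K[X]) (n : ℕ) (hN : Num.natDegree ≤ n) (hD : Den.natDegree ≤ n)
    (hrel : x * aeval u Den = aeval u Num) :
    IsIntegral S ((x * algebraMap K L (Den.coeff n) - algebraMap K L (Num.coeff n)) * u) := by
  set φ : K →+* S := (algebraMap K L).codRestrict S hconst with hφ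
  have hφ' : S.subtype.comp φ = algebraMap K L := RingHom.ext fun c => rfl
  set G : S[X] := C ⟨x, hx⟩ * Den.map φ - Num.map φ with hG
  have hGdeg : G.natDegree ≤ n := by
    refine (Polynomial.natDegree_sub_le _ _).trans (max_le ?_ ?_)
    · exact (Polynomial.natDegree_C_mul_le _ _).trans ((Polynomial.natDegree_map_le).trans hD)
    · exact (Polynomial.natDegree_map_le).trans hN
  have hGeval : G.eval₂ S.subtype u = 0 := by
    rw [hG, Polynomial.eval₂_sub, Polynomial.eval₂_mul, Polynomial.eval₂_C,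
      Polynomial.eval₂_map, Polynomial.eval₂_map, hφ', ← Polynomial.aeval_def,
      ← Polynomial.aeval_def]
    show x * aeval u Den - aeval u Num = 0
    rw [hrel, sub_self]
  have hGcoeff : S.subtype (G.coeff n) =
      x * algebraMap K L (Den.coeff n) - algebraMap K L (Num.coeff n) := by
    rw [hG, Polynomial.coeff_sub, Polynomial.coeff_C_mul, Polynomial.coeff_map,
      Polynomial.coeff_map, map_sub, map_mul]
    rfl
  rw [← hGcoeff]
  rcases hGdeg.eq_or_lt with h | h
  · have h1 := RingHom.isIntegralElem_leadingCoeff_mul S.subtype G u hGeval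
    rw [Polynomial.leadingCoeff, h] at h1
    exact h1
  · rw [Polynomial.coeff_eq_zero_of_natDegree_lt h, map_zero, zero_mul]
    exact isIntegral_zero

variable {a2 ℓ : ℕ} (H : HauptRec a2 ℓ) {K : Type*} [Field K]

/-- The chart coordinate `u = (h - c1)/(h - c0)` times `j⁻¹ · P(c0) - Q(c0)` is integral over
every subring of `K((q))` containing the constants and `j⁻¹`. -/
theorem hcu_isIntegral_lead_mul (S : Subring (LaurentSeries K))
    (hconst : ∀ c : K, algebraMap K (LaurentSeries K) c ∈ S) (hx : (jd K 1)⁻¹ ∈ S)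
    (c0 c1 : K) :
    IsIntegral S (((jd K 1)⁻¹ * algebraMap K (LaurentSeries K) (aeval c0 H.P) -
      algebraMap K (LaurentSeries K) (aeval c0 H.Q)) * cinstU H K c0 c1) := by
  have h := hcu_isIntegral_of_rel S hconst (jd K 1)⁻¹ (cinstU H K c0 c1) hx
    (hcuNum H K c0 c1) (hcuDen H K c0 c1) (psi a2) (hcuNum_natDegree_le H c0 c1)
    (hcuDen_natDegree_le H c0 c1) (hcu_rel_inv H c0 c1)
  rwa [hcuDen_coeff, hcuNum_coeff] at h

end Integral

/-! ### Residues of the cusp values -/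

section Residue

variable {a2 ℓ : ℕ} (H : HauptRec a2 ℓ) {K : Type*} [Field K] (A : ValuationSubring K)
  [Fact ℓ.Prime]

/-- `P(ρ)` is a unit of `A` at every finite cusp value `ρ`. -/
theorem hcu_P_root_val (hA : A.LiesOverPrime ℓ) {ρ : K} (hρ : aeval ρ H.Qrad = 0) :
    A.valuation (aeval ρ H.P) = 1 := by
  have hchar : CharP (IsLocalRing.ResidueField A) ℓ := grc_charP A ℓ hA
  set r : A := ⟨ρ, hcu_root_mem H A hρ⟩ with hr
  have h1 : aeval ρ H.P = ((aeval r H.P : A) : K) := (hcu_coe_aeval A r H.P).symm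
  rw [h1, hcu_val_eq_one_iff_residue, hcu_residue_aeval]
  refine hcu_aeval_P_ne_zero H (H.coprime_of_charP _) ?_
  have h3 : (aeval r H.Qrad : A) = 0 := by
    apply Subtype.ext
    rw [hcu_coe_aeval]
    exact hρ
  have h4 := hcu_residue_aeval A r H.Qrad
  rw [h3, map_zero] at h4
  exact h4.symm

/-- Residues of the cusp values of the chart: `Num` vanishes and `Den` does not vanish at the
residue of every cusp value `τ ∈ A` (`τ = 1` or `τ = (ρ - c1)/(ρ - c0)`, `ρ` a root of `Qrad`),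
for the chart polynomials over the residue field. -/
theorem hcu_residue_num_den (hA : A.LiesOverPrime ℓ) (x0 x1 τ : A)
    (h0 : hcuGood H A (x0 : K)) (h01 : A.valuation ((x0 : K) - (x1 : K)) = 1)
    (hτ : (τ : K) = 1 ∨ ∃ ρ : K, aeval ρ H.Qrad = 0 ∧ (τ : K) = (ρ - x1) / (ρ - x0)) :
    (hcuNum H (IsLocalRing.ResidueField A) (IsLocalRing.residue A x0)
        (IsLocalRing.residue A x1)).eval (IsLocalRing.residue A τ) = 0 ∧
      (hcuDen H (IsLocalRing.ResidueField A) (IsLocalRing.residue A x0)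
        (IsLocalRing.residue A x1)).eval (IsLocalRing.residue A τ) ≠ 0 := by
  rw [← hcuNum_map H (IsLocalRing.residue A), ← hcuDen_map H (IsLocalRing.residue A),
    Polynomial.eval_map_apply, Polynomial.eval_map_apply, ← hcu_val_eq_one_iff_residue]
  have eN : (((hcuNum H A x0 x1).eval τ : A) : K) = (hcuNum H K x0 x1).eval (τ : K) := by
    have h := Polynomial.eval_map_apply (p := hcuNum H A x0 x1) A.subtype τ
    rw [hcuNum_map] at h
    exact h.symm
  have eD : (((hcuDen H A x0 x1).eval τ : A) : K) = (hcuDen H K x0 x1).eval (τ : K) := by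
    have h := Polynomial.eval_map_apply (p := hcuDen H A x0 x1) A.subtype τ
    rw [hcuDen_map] at h
    exact h.symm
  rw [eD]
  rcases hτ with hτ | ⟨ρ, hρ, hτ⟩
  · constructor
    · have hz : (hcuNum H A x0 x1).eval τ = 0 :=
        Subtype.ext (by rw [eN, hτ, hcuNum_eval_one]; rfl)
      rw [hz, map_zero]
    · rw [hτ, hcuDen_eval_one, map_pow, h01, one_pow]
  · have hne : ρ ≠ (x0 : K) := h0.ne_root hρ
    constructor
    · have hz : (hcuNum H A x0 x1).eval τ = 0 :=
        Subtype.ext (by rw [eN, hτ, hcuNum_eval_root H _ _ ρ hne hρ]; rfl)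
      rw [hz, map_zero]
    · rw [hτ, hcuDen_eval_moebius H _ _ ρ hne, map_mul, map_pow,
        hcu_val_div A h01 (h0.root_sub_val hρ), one_pow, one_mul]
      exact hcu_P_root_val H A hA hρ

/-- `hcu_residue_num_den` for the family `hcuTau`. -/
theorem hcu_residue_num_den_tau (hA : A.LiesOverPrime ℓ) (x0 x1 τ : A)
    (h0 : hcuGood H A (x0 : K)) (h01 : A.valuation ((x0 : K) - (x1 : K)) = 1)
    (o : Option (hcuRoots H K)) (hτ : (τ : K) = hcuTau H (x0 : K) (x1 : K) o) :
    (hcuNum H (IsLocalRing.ResidueField A) (IsLocalRing.residue A x0)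
        (IsLocalRing.residue A x1)).eval (IsLocalRing.residue A τ) = 0 ∧
      (hcuDen H (IsLocalRing.ResidueField A) (IsLocalRing.residue A x0)
        (IsLocalRing.residue A x1)).eval (IsLocalRing.residue A τ) ≠ 0 := by
  refine hcu_residue_num_den H A hA x0 x1 τ h0 h01 ?_
  rcases o with _ | ρ
  · exact Or.inl hτ
  · exact Or.inr ⟨ρ, (mem_hcuRoots H).mp ρ.2, hτ⟩

/-- `hcu_residue_num_den` for the family `d0Tau` of `Disc0`. -/
theorem hcu_residue_num_den_d0Tau (hA : A.LiesOverPrime ℓ) (x0 x1 τ : A)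
    (h0 : hcuGood H A (x0 : K)) (h01 : A.valuation ((x0 : K) - (x1 : K)) = 1)
    {J : Type*} (ρ : J → K) (hρ : ∀ i, aeval (ρ i) H.Qrad = 0)
    (o : Option J) (hτ : (τ : K) = d0Tau (x0 : K) (x1 : K) ρ o) :
    (hcuNum H (IsLocalRing.ResidueField A) (IsLocalRing.residue A x0)
        (IsLocalRing.residue A x1)).eval (IsLocalRing.residue A τ) = 0 ∧
      (hcuDen H (IsLocalRing.ResidueField A) (IsLocalRing.residue A x0)
        (IsLocalRing.residue A x1)).eval (IsLocalRing.residue A τ) ≠ 0 := by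
  refine hcu_residue_num_den H A hA x0 x1 τ h0 h01 ?_
  rcases o with _ | i
  · exact Or.inl hτ
  · exact Or.inr ⟨ρ i, hρ i, hτ⟩

end Residue

end Fermat.Agent.S18
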