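import Mathlib
import Fermat.Agent.S18.HauptCusp2

/-!
# S18: the residue-level chart package for the cusp count

For `H : HauptRec a2 ℓ`, `A : ValuationSubring K` over `ℓ`, base points `x0 x1 : A` with `x0`
good and `x0 - x1` a unit, `k = IsLocalRing.ResidueField A`, `n = psi a2`,
`Num = hcuNum H k (res x0) (res x1)`, `Den = hcuDen H k (res x0) (res x1)`:

* `hcuNum_natDegree_le`, `hcuDen_natDegree_le` (in `HauptCusp2`), `hcu_residue_num_coeff_ne_zero`
  (`Num.coeff n ≠ 0`);
* `hcu_rel_inv'`: `aeval t̄ Den * (jd k 1)⁻¹ = aeval t̄ Num` for `t̄ = cinstU H k _ _`;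
* `hcuTauA`, `hcuTauRes`: the cusp values of the chart as elements of `A` and their residues;
  `hcuTauRes_num`, `hcuTauRes_den`, `hcuTauRes_injective`.
-/

set_option autoImplicit false

open Polynomial ModularCurve
open Fermat.Agent.S28

noncomputable section

namespace Fermat.Agent.S18

variable {a2 ℓ : ℕ} (H : HauptRec a2 ℓ) {K : Type*} [Field K]

/-- `Den(u) · j⁻¹ = Num(u)` for the chart coordinate `u = (h - c1)/(h - c0)`. -/
theorem hcu_rel_inv' (c0 c1 : K) :
    aeval (cinstU H K c0 c1) (hcuDen H K c0 c1) * (jd K 1)⁻¹ =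
      aeval (cinstU H K c0 c1) (hcuNum H K c0 c1) := by
  rw [mul_comm, hcu_rel_inv]

variable (A : ValuationSubring K)

/-- the top coefficient `Q(c̄0)` of `Num` over the residue field is nonzero at a good base
point. -/
theorem hcu_residue_num_coeff_ne_zero (x0 x1 : A) (h0 : hcuGood H A (x0 : K)) :
    (hcuNum H (IsLocalRing.ResidueField A) (IsLocalRing.residue A x0)
      (IsLocalRing.residue A x1)).coeff (psi a2) ≠ 0 := by
  rw [hcuNum_coeff]
  intro h
  have h1 := (hcu_aeval_Q_eq_zero_iff H (IsLocalRing.residue A x0)).mp h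
  exact (hcuGood_iff_residue H A x0).mp h0 h1

/-- the cusp values of the chart `u = (h - x1)/(h - x0)` as elements of `A`. -/
def hcuTauA (x0 x1 : A) (h0 : hcuGood H A (x0 : K)) : Option (hcuRoots H K) → A :=
  fun o => ⟨hcuTau H (x0 : K) (x1 : K) o, hcuTau_mem h0 x1.2 o⟩

@[simp] theorem hcuTauA_coe (x0 x1 : A) (h0 : hcuGood H A (x0 : K))
    (o : Option (hcuRoots H K)) :
    ((hcuTauA H A x0 x1 h0 o : A) : K) = hcuTau H (x0 : K) (x1 : K) o := rfl

/-- the residues of the cusp values of the chart. -/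
def hcuTauRes (x0 x1 : A) (h0 : hcuGood H A (x0 : K)) :
    Option (hcuRoots H K) → IsLocalRing.ResidueField A :=
  fun o => IsLocalRing.residue A (hcuTauA H A x0 x1 h0 o)

theorem hcuTauRes_apply (x0 x1 : A) (h0 : hcuGood H A (x0 : K)) (o : Option (hcuRoots H K)) :
    hcuTauRes H A x0 x1 h0 o = IsLocalRing.residue A (hcuTauA H A x0 x1 h0 o) := rfl

variable [Fact ℓ.Prime]

/-- distinct cusp values of the chart have distinct residues. -/
theorem hcuTauRes_injective (hA : A.LiesOverPrime ℓ) (x0 x1 : A) (h0 : hcuGood H A (x0 : K))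
    (h01 : A.valuation ((x0 : K) - (x1 : K)) = 1) :
    Function.Injective (hcuTauRes H A x0 x1 h0) := by
  intro i j hij
  by_contra hne
  have h := hcuTau_sub_val hA h0 h01 hne
  have h1 : hcuTau H (x0 : K) (x1 : K) i - hcuTau H (x0 : K) (x1 : K) j =
      ((hcuTauA H A x0 x1 h0 i - hcuTauA H A x0 x1 h0 j : A) : K) := rfl
  rw [h1, hcu_val_eq_one_iff_residue, map_sub, sub_ne_zero] at h
  exact h hij

/-- `Num` vanishes at the residue of every cusp value of the chart. -/
theorem hcuTauRes_num (hA : A.LiesOverPrime ℓ) (x0 x1 : A) (h0 : hcuGood H A (x0 : K))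
    (h01 : A.valuation ((x0 : K) - (x1 : K)) = 1) (o : Option (hcuRoots H K)) :
    (hcuNum H (IsLocalRing.ResidueField A) (IsLocalRing.residue A x0)
      (IsLocalRing.residue A x1)).eval (hcuTauRes H A x0 x1 h0 o) = 0 :=
  (hcu_residue_num_den_tau H A hA x0 x1 _ h0 h01 o rfl).1

/-- `Den` does not vanish at the residue of any cusp value of the chart. -/
theorem hcuTauRes_den (hA : A.LiesOverPrime ℓ) (x0 x1 : A) (h0 : hcuGood H A (x0 : K))
    (h01 : A.valuation ((x0 : K) - (x1 : K)) = 1) (o : Option (hcuRoots H K)) :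
    (hcuDen H (IsLocalRing.ResidueField A) (IsLocalRing.residue A x0)
      (IsLocalRing.residue A x1)).eval (hcuTauRes H A x0 x1 h0 o) ≠ 0 :=
  (hcu_residue_num_den_tau H A hA x0 x1 _ h0 h01 o rfl).2

omit [Fact ℓ.Prime] in
/-- a good base point in the "inverse lies in `A`" spelling. -/
theorem hcuGood_of_inv_mem {c : K} (hc : c ∈ A) (hq : aeval c H.Qrad ≠ 0)
    (hq' : (aeval c H.Qrad)⁻¹ ∈ A) : hcuGood H A c :=
  (hcuGood_iff H A c).mpr ⟨hc, hq, hq'⟩

omit [Fact ℓ.Prime] in
/-- a unit difference in the "inverse lies in `A`" spelling. -/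
theorem hcu_val_sub_of_inv_mem {c0 c1 : K} (h0 : c0 ∈ A) (h1 : c1 ∈ A) (hc : c0 ≠ c1)
    (h01 : (c0 - c1)⁻¹ ∈ A) : A.valuation (c0 - c1) = 1 :=
  (hcu_val_eq_one_iff A).mpr ⟨A.sub_mem h0 h1, sub_ne_zero.mpr hc, h01⟩

end Fermat.Agent.S18
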