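import Mathlib
import Fermat.Agent.S18.ValExt
import Fermat.Agent.S18.RedDisc
import Fermat.Agent.S18.DiscBound

/-!
# S18 / S37, package SMABS (part 1): the Gauss-ring setting over a valuation ring

`K` a field with a valuation subring `A` and residue map `res : A →+* k`; `F` a field which is a
`K[X]`-algebra (`X ↦ t`), `V` a valuation subring of `F` ("the Gauss ring") with residue map
`ρ : V →+* κ`, `κ` a `k[X]`-algebra, such that `A[X]` maps into `V` and `ρ (P(t)) = (P mod m)(t̄)`
(structure `SmaData`).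

* `sma_exists_primitive`, `sma_const_mem`, `sma_poly_mem`, `sma_frac`: content normalisation and
  the Gauss-ring description of the trace of `V` on `K`, `K[X]` and the fraction field `E`.
* `smaRhoE`: the induced residue map of `V ∩ E` with values in the fraction field of `k[X]`.
* `SmaInt`: integrality over `A[X]`; `sma_int_rho`: reductions of integral elements are integral.
* `sma_free_aux`, `sma_exists_basis`: the image of the `A[X]`-integral elements of `V` is a free
  `k[X]`-module of rank `[κ : k(X)]`, and a basis lifts.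
-/

set_option autoImplicit false
set_option linter.unusedSectionVars false

namespace Fermat.Agent.S18

open Polynomial

section SMAFree

/-- A submodule `N` of integral elements of `κ` over a PID `R`, spanning `κ` over the fraction
field, is free of rank `[κ : Kk]`. -/
theorem sma_free_aux {R Kk κ : Type*} [CommRing R] [IsDomain R] [IsPrincipalIdealRing R]
    [Field Kk] [Field κ] [Algebra R Kk] [IsFractionRing R Kk] [Algebra Kk κ] [Algebra R κ]
    [IsScalarTower R Kk κ] [FiniteDimensional Kk κ] [Algebra.IsSeparable Kk κ]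
    (N : Submodule R κ) (hN : ∀ z ∈ N, IsIntegral R z)
    (hspan : ∀ y : κ, ∃ D : R, D ≠ 0 ∧ D • y ∈ N) :
    ∃ b : Fin (Module.finrank Kk κ) → κ, (∀ i, b i ∈ N) ∧ LinearIndependent Kk b ∧
      ∀ z ∈ N, z ∈ Submodule.span R (Set.range b) := by
  classical
  have htf : Module.IsTorsionFree R κ := .trans_faithfulSMul R Kk κ
  have hfree : Module.Free R (integralClosure R κ) :=
    IsIntegralClosure.module_free R Kk κ (integralClosure R κ)
  have hfin : Module.Finite R (integralClosure R κ) :=
    IsIntegralClosure.finite R Kk κ (integralClosure R κ)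
  obtain ⟨φ, hφ⟩ : ∃ φ : integralClosure R κ →ₗ[R] κ, ∀ w, φ w = (w : κ) :=
    ⟨(integralClosure R κ).val.toLinearMap, fun _ => rfl⟩
  obtain ⟨n, c⟩ := Submodule.basisOfPid
    (Module.Free.chooseBasis R (integralClosure R κ)) (N.comap φ)
  have hvli : LinearIndependent R (fun i => φ (c i)) := by
    rw [Fintype.linearIndependent_iff]
    intro g hg i
    refine Fintype.linearIndependent_iff.mp c.linearIndependent g ?_ i
    apply Subtype.ext
    apply Subtype.ext
    rw [← hφ, Submodule.coe_sum, map_sum]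
    rw [Submodule.coe_zero, ZeroMemClass.coe_zero, ← hg]
    exact Finset.sum_congr rfl fun i _ => by rw [Submodule.coe_smul, map_smul]
  have hvliK : LinearIndependent Kk (fun i => φ (c i)) :=
    (LinearIndependent.iff_fractionRing R Kk).mp hvli
  have hrep : ∀ z ∈ N, ∃ a : Fin n → R, z = ∑ i, a i • φ (c i) := by
    intro z hz
    have hmem : (⟨z, hN z hz⟩ : integralClosure R κ) ∈ N.comap φ := by
      rw [Submodule.mem_comap, hφ]
      exact hz
    refine ⟨fun i => c.repr ⟨_, hmem⟩ i, ?_⟩
    have h1 := congrArg (fun w : N.comap φ => φ (w : integralClosure R κ)) (c.sum_repr ⟨_, hmem⟩)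
    simp only [Submodule.coe_sum, map_sum, Submodule.coe_smul, map_smul] at h1
    rw [h1, hφ]
  have hvspan : ⊤ ≤ Submodule.span Kk (Set.range fun i => φ (c i)) := by
    intro y _
    obtain ⟨D, hD, hDy⟩ := hspan y
    obtain ⟨a, ha⟩ := hrep _ hDy
    have hDK : algebraMap R Kk D ≠ 0 := by
      rw [Ne, map_eq_zero_iff _ (IsFractionRing.injective R Kk)]
      exact hD
    have h3 : y = ∑ i, (algebraMap R Kk (a i) / algebraMap R Kk D) • φ (c i) := by
      have h4 : algebraMap R Kk D • y = algebraMap R Kk D •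
          ∑ i, (algebraMap R Kk (a i) / algebraMap R Kk D) • φ (c i) := by
        rw [algebraMap_smul, ha, Finset.smul_sum]
        refine Finset.sum_congr rfl fun i _ => ?_
        rw [smul_smul, mul_div_cancel₀ _ hDK, algebraMap_smul]
      exact smul_right_injective κ hDK h4
    rw [h3]
    exact Submodule.sum_mem _ fun i _ => Submodule.smul_mem _ _ (Submodule.subset_span ⟨i, rfl⟩)
  have hn : Module.finrank Kk κ = n := by
    rw [Module.finrank_eq_card_basis (Module.Basis.mk hvliK hvspan), Fintype.card_fin]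
  subst hn
  refine ⟨fun i => φ (c i), fun i => (c i).2, hvliK, ?_⟩
  intro z hz
  obtain ⟨a, ha⟩ := hrep z hz
  rw [ha]
  exact Submodule.sum_mem _ fun i _ => Submodule.smul_mem _ _ (Submodule.subset_span ⟨i, rfl⟩)

end SMAFree

section SMAGauss

variable {K k : Type*} [Field K] [Field k] (A : ValuationSubring K) (res : A →+* k)

/-- Content normalisation: a nonzero polynomial over `K` is a constant times a polynomial over
the valuation ring `A` with nonzero reduction. -/
theorem sma_exists_primitive (P : K[X]) (hP : P ≠ 0) :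
    ∃ (c : K) (Q : (A)[X]), c ≠ 0 ∧ P = C c * Q.map A.subtype ∧ Q.map res ≠ 0 := by
  classical
  have hne : P.support.Nonempty := by
    rwa [Polynomial.support_nonempty]
  obtain ⟨i₀, hi₀, hmax⟩ :=
    Finset.exists_max_image P.support (fun i => A.valuation (P.coeff i)) hne
  have hc : P.coeff i₀ ≠ 0 := Polynomial.mem_support_iff.mp hi₀
  have hmem : ∀ i, P.coeff i / P.coeff i₀ ∈ A := by
    intro i
    by_cases hi : i ∈ P.support
    · rw [← ValuationSubring.valuation_le_one_iff, map_div₀]
      exact div_le_one_of_le₀ (hmax i hi) zero_le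
    · rw [Polynomial.notMem_support_iff.mp hi, zero_div]
      exact A.zero_mem
  have hl : C (P.coeff i₀)⁻¹ * P ∈ Polynomial.lifts A.subtype := by
    rw [Polynomial.lifts_iff_coeff_lifts]
    intro n
    rw [coeff_C_mul]
    exact ⟨⟨P.coeff n / P.coeff i₀, hmem n⟩, by
      show P.coeff n / P.coeff i₀ = _
      rw [div_eq_inv_mul]⟩
  obtain ⟨Q, hQ⟩ := hl
  rw [coe_mapRingHom] at hQ
  refine ⟨P.coeff i₀, Q, hc, ?_, ?_⟩
  · rw [hQ, ← mul_assoc, ← C_mul, mul_inv_cancel₀ hc, C_1, one_mul]
  · intro h0
    have h1 : (Q.map res).coeff i₀ = 0 := by rw [h0, coeff_zero]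
    rw [coeff_map] at h1
    have h2 : Q.coeff i₀ = 1 := by
      apply Subtype.ext
      have h3 := congrArg (fun p => p.coeff i₀) hQ
      simp only [coeff_map, coeff_C_mul] at h3
      rw [inv_mul_cancel₀ hc] at h3
      exact h3
    rw [h2, map_one] at h1
    exact one_ne_zero h1

end SMAGauss

section SMASetting

/-- The Gauss-ring setting: `A` a valuation subring of `K` with residue map `res` onto `k`;
`V` a valuation subring of the `K[X]`-algebra `F` with residue map `ρ` onto the `k[X]`-algebra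
`κ`, containing the image of `A[X]`, such that `ρ` is the coefficientwise reduction on `A[X]`. -/
structure SmaData {K k F κ : Type*} [Field K] [Field k] [Field F] [Field κ]
    [Algebra K[X] F] [Algebra k[X] κ]
    (A : ValuationSubring K) (res : A →+* k) (V : ValuationSubring F) (ρ : V →+* κ) : Prop where
  res_surj : Function.Surjective res
  res_ker : ∀ a : A, (a : K) ∈ A.nonunits → res a = 0
  rho_surj : Function.Surjective ρ
  rho_ker : ∀ x : V, (x : F) ∈ V.nonunits → ρ x = 0
  inj : Function.Injective (algebraMap k[X] κ)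
  mem : ∀ P : (A)[X], algebraMap K[X] F (P.map A.subtype) ∈ V
  compat : ∀ P : (A)[X],
    ρ ⟨algebraMap K[X] F (P.map A.subtype), mem P⟩ = algebraMap k[X] κ (P.map res)

variable {K k F κ : Type*} [Field K] [Field k] [Field F] [Field κ]
  [Algebra K[X] F] [Algebra k[X] κ]
  {A : ValuationSubring K} {res : A →+* k} {V : ValuationSubring F} {ρ : V →+* κ}

/-- The structure map `A[X] → V`. -/
noncomputable def smaLift (h : SmaData A res V ρ) : (A)[X] →+* V :=
  RingHom.codRestrict ((algebraMap K[X] F).comp (mapRingHom A.subtype)) V (fun P => h.mem P)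

theorem sma_lift_coe (h : SmaData A res V ρ) (P : (A)[X]) :
    (smaLift h P : F) = algebraMap K[X] F (P.map A.subtype) := rfl

theorem sma_rho_lift (h : SmaData A res V ρ) (P : (A)[X]) :
    ρ (smaLift h P) = algebraMap k[X] κ (P.map res) := h.compat P

theorem sma_rho_ne (h : SmaData A res V ρ) (Q : (A)[X]) (hQ : Q.map res ≠ 0) :
    ρ (smaLift h Q) ≠ 0 := by
  rw [sma_rho_lift]
  exact fun h0 => hQ (h.inj (by rw [h0, map_zero]))

/-- An element of `V` with nonzero residue is a unit of `V`. -/
theorem sma_inv_mem_of_rho_ne (h : SmaData A res V ρ) (x : V) (hx : ρ x ≠ 0) :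
    (x : F)⁻¹ ∈ V := by
  have h1 : ¬ (x : F) ∈ V.nonunits := fun hn => hx (h.rho_ker x hn)
  rw [ValuationSubring.mem_nonunits_iff, not_lt] at h1
  rw [← ValuationSubring.valuation_le_one_iff, map_inv₀]
  exact inv_le_one_of_one_le₀ h1

theorem sma_inv_mem (h : SmaData A res V ρ) (Q : (A)[X]) (hQ : Q.map res ≠ 0) :
    (algebraMap K[X] F (Q.map A.subtype))⁻¹ ∈ V :=
  sma_inv_mem_of_rho_ne h (smaLift h Q) (sma_rho_ne h Q hQ)

theorem sma_ne_zero (h : SmaData A res V ρ) (Q : (A)[X]) (hQ : Q.map res ≠ 0) :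
    algebraMap K[X] F (Q.map A.subtype) ≠ 0 := by
  intro h0
  apply sma_rho_ne h Q hQ
  have : smaLift h Q = 0 := Subtype.ext h0
  rw [this, map_zero]

/-- `V ∩ K = A`. -/
theorem sma_const_mem (h : SmaData A res V ρ) (c : K) (hc : algebraMap K[X] F (C c) ∈ V) :
    c ∈ A := by
  by_contra hcA
  have hci : c⁻¹ ∈ A := (A.mem_or_inv_mem c).resolve_left hcA
  have hnu : ((⟨c⁻¹, hci⟩ : A) : K) ∈ A.nonunits := by
    rw [ValuationSubring.mem_nonunits_iff, map_inv₀]
    rw [← ValuationSubring.valuation_le_one_iff, not_le] at hcA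
    exact inv_lt_one_of_one_lt₀ hcA
  have h0 := h.res_ker _ hnu
  have h1 := sma_rho_lift h (C (⟨c⁻¹, hci⟩ : A))
  rw [Polynomial.map_C, h0, C_0, map_zero] at h1
  have h2 := rdisc_nonunit_of_map_eq_zero V ρ _ h1
  rw [ValuationSubring.mem_nonunits_iff, sma_lift_coe] at h2
  have h3 : algebraMap K[X] F (C c) * algebraMap K[X] F ((C (⟨c⁻¹, hci⟩ : A)).map A.subtype) = 1 := by
    rw [Polynomial.map_C, ← map_mul, ← C_mul]
    show algebraMap K[X] F (C (c * c⁻¹)) = 1
    have hc0 : c ≠ 0 := fun h => hcA (h ▸ A.zero_mem)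
    rw [mul_inv_cancel₀ hc0, C_1, map_one]
  have h4 := congrArg V.valuation h3
  rw [map_mul, map_one] at h4
  rw [← ValuationSubring.valuation_le_one_iff] at hc
  have h5 := mul_lt_one_of_nonneg_of_lt_one_right hc zero_le h2
  exact absurd h4 (ne_of_lt h5)

/-- A polynomial over `K` whose value lies in `V` has coefficients in `A`. -/
theorem sma_poly_mem (h : SmaData A res V ρ) (P : K[X]) (hP : algebraMap K[X] F P ∈ V) :
    ∃ Q : (A)[X], Q.map A.subtype = P := by
  by_cases hP0 : P = 0
  · exact ⟨0, by rw [hP0, Polynomial.map_zero]⟩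
  obtain ⟨c, Q, hc, hPQ, hQ⟩ := sma_exists_primitive A res P hP0
  have h1 : algebraMap K[X] F (C c) ∈ V := by
    have h2 : algebraMap K[X] F (C c) =
        algebraMap K[X] F P * (algebraMap K[X] F (Q.map A.subtype))⁻¹ := by
      rw [hPQ, map_mul, mul_assoc, mul_inv_cancel₀ (sma_ne_zero h Q hQ), mul_one]
    rw [h2]
    exact V.mul_mem _ _ hP (sma_inv_mem h Q hQ)
  have hcA := sma_const_mem h c h1
  exact ⟨C ⟨c, hcA⟩ * Q, by rw [Polynomial.map_mul, Polynomial.map_C, hPQ]; rfl⟩

end SMASetting

section SMAFrac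

variable {K k F κ E Kk : Type*} [Field K] [Field k] [Field F] [Field κ] [Field E] [Field Kk]
  [Algebra K[X] F] [Algebra k[X] κ]
  [Algebra K[X] E] [IsFractionRing K[X] E] [Algebra E F] [IsScalarTower K[X] E F]
  [Algebra k[X] Kk] [IsFractionRing k[X] Kk] [Algebra Kk κ] [IsScalarTower k[X] Kk κ]
  {A : ValuationSubring K} {res : A →+* k} {V : ValuationSubring F} {ρ : V →+* κ}

/-- The Gauss-ring description of `V ∩ E`: every element is `P(t) / Q(t)` with `P, Q ∈ A[X]` and
`Q` of nonzero reduction. -/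
theorem sma_frac (h : SmaData A res V ρ) (e : E) (he : algebraMap E F e ∈ V) :
    ∃ P Q : (A)[X], Q.map res ≠ 0 ∧
      e * algebraMap K[X] E (Q.map A.subtype) = algebraMap K[X] E (P.map A.subtype) := by
  obtain ⟨p, q, hq, rfl⟩ := IsFractionRing.div_surjective (A := K[X]) e
  have hq0 : q ≠ 0 := nonZeroDivisors.ne_zero hq
  obtain ⟨c, Q, hc, hqQ, hQ⟩ := sma_exists_primitive A res q hq0
  have hqE : algebraMap K[X] E q ≠ 0 := by
    rw [Ne, map_eq_zero_iff _ (IsFractionRing.injective K[X] E)]
    exact hq0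
  have hEq : algebraMap K[X] E p / algebraMap K[X] E q * algebraMap K[X] E (Q.map A.subtype) =
      algebraMap K[X] E (C c⁻¹ * p) := by
    have hQ' : Q.map A.subtype = C c⁻¹ * q := by
      rw [hqQ, ← mul_assoc, ← C_mul, inv_mul_cancel₀ hc, C_1, one_mul]
    rw [hQ', map_mul, map_mul]
    field_simp
  have hmem : algebraMap K[X] F (C c⁻¹ * p) ∈ V := by
    rw [IsScalarTower.algebraMap_apply K[X] E F, ← hEq, map_mul,
      ← IsScalarTower.algebraMap_apply]
    exact V.mul_mem _ _ he (h.mem Q)
  obtain ⟨P, hP⟩ := sma_poly_mem h _ hmem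
  exact ⟨P, Q, hQ, by rw [hP, hEq]⟩

/-- The inclusion `V ∩ E → V`. -/
noncomputable def smaInc (V : ValuationSubring F) : (V.comap (algebraMap E F)) →+* V :=
  (algebraMap E F).restrict (V.comap (algebraMap E F)) V (fun _ hx => hx)

theorem sma_inc_coe (y : V.comap (algebraMap E F)) :
    (smaInc (E := E) V y : F) = algebraMap E F (y : E) := rfl

theorem sma_algebraMap_ne (h : SmaData A res V ρ) (q : k[X]) (hq : q ≠ 0) :
    algebraMap k[X] κ q ≠ 0 := fun h0 => hq (h.inj (by rw [h0, map_zero]))

omit [IsFractionRing k[X] Kk] in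
theorem sma_rho_mem_range (h : SmaData A res V ρ) (y : V.comap (algebraMap E F)) :
    ρ (smaInc V y) ∈ (algebraMap Kk κ).range := by
  obtain ⟨P, Q, hQ, hPQ⟩ := sma_frac h (y : E) y.2
  refine ⟨algebraMap k[X] Kk (P.map res) / algebraMap k[X] Kk (Q.map res), ?_⟩
  have h1 : smaInc V y * smaLift h Q = smaLift h P := by
    apply Subtype.ext
    show algebraMap E F y * algebraMap K[X] F (Q.map A.subtype) =
      algebraMap K[X] F (P.map A.subtype)
    rw [IsScalarTower.algebraMap_apply K[X] E F, IsScalarTower.algebraMap_apply K[X] E F,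
      ← map_mul, hPQ]
  have h2 := congrArg ρ h1
  rw [map_mul, sma_rho_lift, sma_rho_lift] at h2
  rw [map_div₀, ← IsScalarTower.algebraMap_apply, ← IsScalarTower.algebraMap_apply, ← h2,
    mul_div_cancel_right₀ _ (sma_algebraMap_ne h _ hQ)]

/-- The residue map of `V ∩ E`, with values in the fraction field `Kk` of `k[X]`. -/
noncomputable def smaRhoE (h : SmaData A res V ρ) : (V.comap (algebraMap E F)) →+* Kk :=
  ((RingEquiv.ofBijective (algebraMap Kk κ).rangeRestrict
      ⟨(RingHom.injective_codRestrict ..).mpr (algebraMap Kk κ).injective,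
        (algebraMap Kk κ).rangeRestrict_surjective⟩).symm : (algebraMap Kk κ).range →+* Kk).comp
    (RingHom.codRestrict (ρ.comp (smaInc V)) (algebraMap Kk κ).range (sma_rho_mem_range h))

theorem sma_rhoE_compat (h : SmaData A res V ρ) (y : V.comap (algebraMap E F)) :
    algebraMap Kk κ (smaRhoE (Kk := Kk) h y) = ρ (smaInc V y) := by
  have h1 := (RingEquiv.ofBijective (algebraMap Kk κ).rangeRestrict
      ⟨(RingHom.injective_codRestrict ..).mpr (algebraMap Kk κ).injective,
        (algebraMap Kk κ).rangeRestrict_surjective⟩).apply_symm_apply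
    (RingHom.codRestrict (ρ.comp (smaInc (E := E) V)) (algebraMap Kk κ).range
      (sma_rho_mem_range (E := E) (Kk := Kk) h) y)
  exact congrArg Subtype.val h1

theorem sma_rhoE_ker (h : SmaData A res V ρ) (y : V.comap (algebraMap E F))
    (hy : algebraMap E F (y : E) ∈ V.nonunits) : smaRhoE (Kk := Kk) h y = 0 := by
  apply (algebraMap Kk κ).injective
  rw [sma_rhoE_compat, map_zero]
  exact h.rho_ker _ hy

theorem sma_rhoE_surj (h : SmaData A res V ρ) :
    Function.Surjective (smaRhoE (E := E) (Kk := Kk) h) := by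
  intro z
  obtain ⟨p, q, hq, rfl⟩ := IsFractionRing.div_surjective (A := k[X]) z
  have hq0 : q ≠ 0 := nonZeroDivisors.ne_zero hq
  obtain ⟨P, rfl⟩ := Polynomial.map_surjective res h.res_surj p
  obtain ⟨Q, rfl⟩ := Polynomial.map_surjective res h.res_surj q
  have hmem : algebraMap E F (algebraMap K[X] E (P.map A.subtype) /
      algebraMap K[X] E (Q.map A.subtype)) ∈ V := by
    rw [map_div₀, ← IsScalarTower.algebraMap_apply, ← IsScalarTower.algebraMap_apply,
      div_eq_mul_inv]
    exact V.mul_mem _ _ (h.mem P) (sma_inv_mem h Q hq0)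
  set y : V.comap (algebraMap E F) := ⟨algebraMap K[X] E (P.map A.subtype) /
      algebraMap K[X] E (Q.map A.subtype), hmem⟩ with hy
  refine ⟨y, ?_⟩
  apply (algebraMap Kk κ).injective
  rw [sma_rhoE_compat]
  have h1 : smaInc V y * smaLift h Q = smaLift h P := by
    apply Subtype.ext
    show algebraMap E F (algebraMap K[X] E (P.map A.subtype) /
      algebraMap K[X] E (Q.map A.subtype)) * algebraMap K[X] F (Q.map A.subtype) =
      algebraMap K[X] F (P.map A.subtype)
    rw [map_div₀, ← IsScalarTower.algebraMap_apply, ← IsScalarTower.algebraMap_apply,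
      div_mul_cancel₀ _ (sma_ne_zero h Q hq0)]
  have h2 := congrArg ρ h1
  rw [map_mul, sma_rho_lift, sma_rho_lift] at h2
  rw [map_div₀, ← IsScalarTower.algebraMap_apply, ← IsScalarTower.algebraMap_apply, ← h2,
    mul_div_cancel_right₀ _ (sma_algebraMap_ne h _ hq0)]

end SMAFrac

section SMAInt

variable {K k F κ : Type*} [Field K] [Field k] [Field F] [Field κ]
  [Algebra K[X] F] [Algebra k[X] κ]
  {A : ValuationSubring K} {res : A →+* k} {V : ValuationSubring F} {ρ : V →+* κ}

/-- Integrality over `A[X]` (through `A[X] → K[X] → F`). -/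
def SmaInt (A : ValuationSubring K) (x : F) : Prop :=
  ((algebraMap K[X] F).comp (mapRingHom A.subtype)).IsIntegralElem x

theorem sma_int_map (P : (A)[X]) : SmaInt A (algebraMap K[X] F (P.map A.subtype)) :=
  ((algebraMap K[X] F).comp (mapRingHom A.subtype)).isIntegralElem_map

theorem sma_int_add {x y : F} (hx : SmaInt A x) (hy : SmaInt A y) : SmaInt A (x + y) :=
  RingHom.IsIntegralElem.add _ hx hy

theorem sma_int_mul {x y : F} (hx : SmaInt A x) (hy : SmaInt A y) : SmaInt A (x * y) :=
  RingHom.IsIntegralElem.mul _ hx hy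

theorem sma_int_zero : SmaInt A (0 : F) := by
  have := sma_int_map (A := A) (F := F) 0
  rwa [Polynomial.map_zero, map_zero] at this

theorem sma_int_sum {ι : Type*} (s : Finset ι) (f : ι → F) (hf : ∀ i ∈ s, SmaInt A (f i)) :
    SmaInt A (∑ i ∈ s, f i) := by
  classical
  induction s using Finset.induction_on with
  | empty => simpa using sma_int_zero (A := A) (F := F)
  | insert a s ha ih =>
    rw [Finset.sum_insert ha]
    exact sma_int_add (hf a (Finset.mem_insert_self a s))
      (ih fun i hi => hf i (Finset.mem_insert_of_mem hi))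

theorem sma_int_isIntegral {x : F} (hx : SmaInt A x) : IsIntegral K[X] x := by
  obtain ⟨p, hp, hpx⟩ := hx
  refine ⟨p.map (mapRingHom A.subtype), hp.map _, ?_⟩
  rw [eval₂_map]
  exact hpx

/-- The reduction of an element integral over `A[X]` is integral over `k[X]`. -/
theorem sma_int_rho (h : SmaData A res V ρ) (x : V) (hx : SmaInt A (x : F)) :
    IsIntegral k[X] (ρ x) := by
  obtain ⟨p, hp, hpx⟩ := hx
  refine ⟨p.map (mapRingHom res), hp.map _, ?_⟩
  rw [eval₂_map]
  have h1 : (algebraMap k[X] κ).comp (mapRingHom res) = ρ.comp (smaLift h) := by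
    refine RingHom.ext fun P => ?_
    exact (sma_rho_lift h P).symm
  rw [h1, ← Polynomial.hom_eval₂]
  have h2 : eval₂ (smaLift h) x p = 0 := by
    apply Subtype.ext
    have h3 := Polynomial.hom_eval₂ p (smaLift h) V.subtype x
    rw [ValuationSubring.subtype_apply] at h3
    rw [h3]
    exact hpx
  rw [h2, map_zero]

end SMAInt

section SMABasis

variable {K k F κ E Kk : Type*} [Field K] [Field k] [Field F] [Field κ] [Field E] [Field Kk]
  [Algebra K[X] F] [Algebra k[X] κ]
  [Algebra K[X] E] [IsFractionRing K[X] E] [Algebra E F] [IsScalarTower K[X] E F]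
  [Algebra k[X] Kk] [IsFractionRing k[X] Kk] [Algebra Kk κ] [IsScalarTower k[X] Kk κ]
  {A : ValuationSubring K} {res : A →+* k} {V : ValuationSubring F} {ρ : V →+* κ}

/-- Every element of `V` has a multiple by some `D(t)`, `D ∈ A[X]` of nonzero reduction, which is
integral over `A[X]`. -/
theorem sma_exists_mul_int [Algebra.IsAlgebraic E F] (h : SmaData A res V ρ)
    (hint : ∀ x : F, x ∈ V → IsIntegral K[X] x → SmaInt A x) (y : V) :
    ∃ D : (A)[X], D.map res ≠ 0 ∧ SmaInt A (algebraMap K[X] F (D.map A.subtype) * (y : F)) := by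
  have halg : IsAlgebraic K[X] (y : F) :=
    (IsFractionRing.isAlgebraic_iff K[X] E F).mpr (Algebra.IsAlgebraic.isAlgebraic _)
  obtain ⟨D0, hD0, hD0int⟩ := halg.exists_integral_multiple
  obtain ⟨c, D, hc, hD0D, hD⟩ := sma_exists_primitive A res D0 hD0
  refine ⟨D, hD, hint _ (V.mul_mem _ _ (h.mem D) y.2) ?_⟩
  have h1 : algebraMap K[X] F (D.map A.subtype) * (y : F) =
      algebraMap K[X] F (C c⁻¹) * (D0 • (y : F)) := by
    rw [Algebra.smul_def, ← mul_assoc, ← map_mul, hD0D, ← mul_assoc, ← C_mul, inv_mul_cancel₀ hc,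
      C_1, one_mul]
  rw [h1]
  exact IsIntegral.mul isIntegral_algebraMap hD0int

/-- The `k[X]`-submodule of `κ` formed by the residues of the `A[X]`-integral elements of `V`. -/
def smaImage (h : SmaData A res V ρ) : Submodule k[X] κ where
  carrier := {z | ∃ x : V, SmaInt A (x : F) ∧ ρ x = z}
  add_mem' := by
    rintro z w ⟨x, hx, rfl⟩ ⟨y, hy, rfl⟩
    exact ⟨x + y, sma_int_add hx hy, map_add ρ x y⟩
  zero_mem' := ⟨0, sma_int_zero, map_zero ρ⟩
  smul_mem' := by
    rintro p z ⟨x, hx, rfl⟩
    obtain ⟨P, rfl⟩ := Polynomial.map_surjective res h.res_surj p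
    exact ⟨smaLift h P * x, sma_int_mul (sma_int_map P) hx, by
      rw [map_mul, sma_rho_lift, Algebra.smul_def]⟩

theorem sma_mem_image (h : SmaData A res V ρ) (x : V) (hx : SmaInt A (x : F)) :
    ρ x ∈ smaImage h := ⟨x, hx, rfl⟩

/-- The image of the `A[X]`-integral elements of `V` is a free `k[X]`-module of rank `[κ : Kk]`;
a basis lifts to a family `b` in `V`. -/
theorem sma_exists_basis [Algebra.IsAlgebraic E F] [FiniteDimensional Kk κ]
    [Algebra.IsSeparable Kk κ] (h : SmaData A res V ρ)
    (hint : ∀ x : F, x ∈ V → IsIntegral K[X] x → SmaInt A x) :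
    ∃ b : Fin (Module.finrank Kk κ) → V, (∀ i, SmaInt A (b i : F)) ∧
      LinearIndependent Kk (fun i => ρ (b i)) ∧
      ∀ x : V, SmaInt A (x : F) → ρ x ∈ Submodule.span k[X] (Set.range fun i => ρ (b i)) := by
  obtain ⟨v, hv1, hv2, hv3⟩ := sma_free_aux (Kk := Kk) (smaImage h)
    (fun z ⟨x, hx, hxz⟩ => hxz ▸ sma_int_rho h x hx) (by
      intro y
      obtain ⟨y', rfl⟩ := h.rho_surj y
      obtain ⟨D, hD, hDint⟩ := sma_exists_mul_int (E := E) h hint y'
      exact ⟨D.map res, hD, smaLift h D * y', hDint, by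
        rw [map_mul, sma_rho_lift, Algebra.smul_def]⟩)
  choose b hb1 hb2 using hv1
  have hbv : (fun i => ρ (b i)) = v := funext hb2
  exact ⟨b, hb1, hbv ▸ hv2, fun x hx => hbv ▸ hv3 _ ⟨x, hx, rfl⟩⟩

end SMABasis

end Fermat.Agent.S18
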