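import Mathlib
import Fermat.Agent.S18.SMAbs

/-!
# S18 / S37, package SMABS (part 2): (SM) over algebraically closed `(K, A, k)`

Setting of `SMAbs.lean` (`SmaData A res V ρ`), with `K` and `k` algebraically closed,
`E = Frac K[X]`, `Kk = Frac k[X]`, `[F : E] = [κ : Kk]`, `κ / Kk` separable, and every element of
`V` integral over `K[X]` integral over `A[X]` (`hint`).

* `sma_count_aux` (generic PID): if the discriminant of an integral basis is
  `unit * ∏ p_i ^ e_i` and the TOTAL number of places above the `p_i` is at most `∑ (d - e_i)`,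
  the basis spans the integral closure.
* `sma_root_notMem` (helper12's remark R1): for a lifted basis `b = M β` of the image of the
  `A[X]`-integral elements, `det M` has no root in `A`.
* `sma_discr`: hence `discr (b̄) = unit * ∏ (X - τ̄ i) ^ e i` if
  `discr (β) = unit * ∏ (X - τ i) ^ e i` for a `K[X]`-basis `β` of the integral closure of `K[X]`.
* `sma_basis`, `sma_main`: the image of the `A[X]`-integral elements of `V` is the whole integral
  closure of `k[X]` in `κ` (the affine special fibre is normal), with a lifted basis.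
-/

set_option autoImplicit false
set_option linter.unusedSectionVars false

namespace Fermat.Agent.S18

open Polynomial

section SMACount

/-- Multiplicity bound in a product of powers of pairwise non-associated primes. -/
theorem sma_pow_dvd_prod {R J : Type*} [CommRing R] [IsDomain R] [Fintype J] [DecidableEq J]
    (u : R) (hu : IsUnit u) (p : J → R) (hp : ∀ i, Prime (p i)) (hpd : ∀ i j, p i ∣ p j → i = j)
    (e : J → ℕ) (i : J) (m : ℕ) (hm : p i ^ m ∣ u * ∏ j, p j ^ e j) : m ≤ e i := by
  by_contra hlt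
  rw [not_le] at hlt
  have h1 : p i ^ (e i + 1) ∣ ∏ j, p j ^ e j :=
    (pow_dvd_pow (p i) hlt).trans ((hu.dvd_mul_left).mp hm)
  rw [← Finset.mul_prod_erase Finset.univ _ (Finset.mem_univ i), pow_succ] at h1
  have h2 : p i ∣ ∏ j ∈ Finset.univ.erase i, p j ^ e j :=
    (mul_dvd_mul_iff_left (pow_ne_zero _ (hp i).ne_zero)).mp h1
  obtain ⟨j, hj, hdvd⟩ := (hp i).exists_mem_finset_dvd h2
  have := hpd i j ((hp i).dvd_of_dvd_pow hdvd)
  exact (Finset.ne_of_mem_erase hj) this.symm

/-- The total-count criterion: if the discriminant of an integral basis `b` is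
`unit * ∏ p_i ^ e_i` and the total number of places above the `p_i` is at most `∑ (d - e_i)`,
then `b` spans the integral closure. -/
theorem sma_count_aux {R Kk κ ι J : Type*} [CommRing R] [IsDomain R] [IsPrincipalIdealRing R]
    [Field Kk] [Field κ] [Algebra R Kk] [IsFractionRing R Kk] [Algebra Kk κ] [Algebra R κ]
    [IsScalarTower R Kk κ] [FiniteDimensional Kk κ] [Algebra.IsSeparable Kk κ]
    [Fintype ι] [DecidableEq ι] [Fintype J] [DecidableEq J]
    (b : Module.Basis ι Kk κ) (hint : ∀ i, IsIntegral R (b i))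
    (u : R) (hu : IsUnit u) (p : J → R) (hp : ∀ i, Prime (p i)) (hpd : ∀ i j, p i ∣ p j → i = j)
    (e : J → ℕ) (hD : algebraMap R Kk (u * ∏ i, p i ^ e i) = Algebra.discr Kk b)
    (hdeg : ∀ i, ∀ Q : Ideal (integralClosure R κ), Q.IsMaximal →
      algebraMap R (integralClosure R κ) (p i) ∈ Q →
      ∀ x : integralClosure R κ, ∃ r : R, x - algebraMap R (integralClosure R κ) r ∈ Q)
    (hcount : ∀ s : J → Finset (Ideal (integralClosure R κ)),
      (∀ i, ∀ Q ∈ s i, Q.IsMaximal ∧ algebraMap R (integralClosure R κ) (p i) ∈ Q) →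
      ∑ i, ((s i).card + e i) ≤ Fintype.card J * Fintype.card ι) :
    ∀ x : κ, IsIntegral R x → x ∈ Submodule.span R (Set.range b) := by
  classical
  obtain ⟨bC, δ, hdisc, hδ0, hconcl⟩ := dscb_exists_index b hint _ hD
  refine hconcl ?_
  by_contra hnu
  -- finiteness of the sets of places
  have hfin : ∀ i, {Q : Ideal (integralClosure R κ) |
      Q.IsMaximal ∧ algebraMap R (integralClosure R κ) (p i) ∈ Q}.Finite := by
    intro i
    by_contra hinf
    obtain ⟨t, ht, hcard⟩ := Set.Infinite.exists_subset_card_eq hinf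
      (Fintype.card J * Fintype.card ι + 1)
    have h1 := hcount (fun j => if j = i then t else ∅) (by
      intro j Q hQ
      by_cases hj : j = i
      · subst hj
        rw [if_pos rfl] at hQ
        exact ht hQ
      · rw [if_neg hj] at hQ
        exact absurd hQ (Finset.notMem_empty Q))
    have h2 : (t.card + e i) ≤ ∑ j, ((if j = i then t else ∅).card + e j) := by
      have := Finset.single_le_sum (f := fun j => ((if j = i then t else ∅ : Finset _).card + e j))
        (fun j _ => Nat.zero_le _) (Finset.mem_univ i)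
      simpa using this
    omega
  set s : J → Finset (Ideal (integralClosure R κ)) := fun i => (hfin i).toFinset with hs
  have hsmem : ∀ i, ∀ Q ∈ s i, Q.IsMaximal ∧ algebraMap R (integralClosure R κ) (p i) ∈ Q := by
    intro i Q hQ
    exact (Set.Finite.mem_toFinset (hfin i)).mp hQ
  have h1 : ∀ i, p i ^ (Fintype.card ι - (s i).card) ∣ Algebra.discr R bC := by
    intro i
    refine dscb_pow_dvd_discr bC (p i) (hp i) (s i).card ?_ (hdeg i)
    intro t ht
    refine Finset.card_le_card fun Q hQ => ?_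
    exact (Set.Finite.mem_toFinset (hfin i)).mpr (ht Q hQ)
  have h2 : ∀ i, Fintype.card ι - (s i).card ≤ e i := by
    intro i
    refine sma_pow_dvd_prod u hu p hp hpd e i _ ?_
    rw [hdisc]
    exact (h1 i).mul_left _
  -- an irreducible factor of `δ`
  obtain ⟨q, hqirr, hqdvd⟩ := WfDvdMonoid.exists_irreducible_factor hnu hδ0
  have hq : Prime q := hqirr.prime
  have hqD : q ∣ ∏ i, p i ^ e i := by
    have : q ∣ u * ∏ i, p i ^ e i := by
      rw [hdisc]
      exact (hqdvd.trans (dvd_pow_self δ two_ne_zero)).mul_right _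
    exact (hu.dvd_mul_left).mp this
  obtain ⟨i₀, -, hi₀⟩ := hq.exists_mem_finset_dvd hqD
  have hqp : q ∣ p i₀ := hq.dvd_of_dvd_pow hi₀
  have hpq : p i₀ ∣ q := by
    obtain ⟨c, hc⟩ := hqp
    rcases (hp i₀).irreducible.isUnit_or_isUnit hc with hq' | hc'
    · exact absurd hq' hqirr.not_isUnit
    · rw [hc]
      exact (hc'.mul_right_dvd).mpr dvd_rfl
  have hpδ : p i₀ ∣ δ := hpq.trans hqdvd
  have h3 : 2 + (Fintype.card ι - (s i₀).card) ≤ e i₀ := by
    refine sma_pow_dvd_prod u hu p hp hpd e i₀ _ ?_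
    rw [hdisc, pow_add]
    exact mul_dvd_mul (pow_dvd_pow_of_dvd hpδ 2) (h1 i₀)
  have h4 := hcount s hsmem
  have h5 : ∑ i : J, (Fintype.card ι + if i = i₀ then 2 else 0) ≤ ∑ i, ((s i).card + e i) := by
    refine Finset.sum_le_sum fun i _ => ?_
    by_cases hi : i = i₀
    · subst hi
      rw [if_pos rfl]
      omega
    · rw [if_neg hi]
      have := h2 i
      omega
  rw [Finset.sum_add_distrib, Finset.sum_const, Finset.sum_ite_eq' Finset.univ i₀,
    if_pos (Finset.mem_univ i₀), Finset.card_univ, smul_eq_mul] at h5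
  omega

end SMACount

section SMARoots

variable {K k : Type*} [Field K] [Field k] (A : ValuationSubring K) (res : A →+* k)

/-- A product of linear factors `X - r` with all `r` outside the valuation ring is a nonzero
constant times a polynomial over `A` reducing to `1`. -/
theorem sma_prod_roots (hres : ∀ a : A, (a : K) ∈ A.nonunits → res a = 0) (s : Multiset K)
    (hs : ∀ r ∈ s, r ∉ A) :
    ∃ (c : K) (U : (A)[X]), c ≠ 0 ∧ (s.map fun r => X - C r).prod = C c * U.map A.subtype ∧
      U.map res = 1 := by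
  induction s using Multiset.induction_on with
  | empty => exact ⟨1, 1, one_ne_zero, by simp, by simp⟩
  | cons r s ih =>
    obtain ⟨c, U, hc, hprod, hU⟩ := ih fun r' hr' => hs r' (Multiset.mem_cons_of_mem hr')
    have hr : r ∉ A := hs r (Multiset.mem_cons_self r s)
    have hr0 : r ≠ 0 := fun h => hr (h ▸ A.zero_mem)
    have hri : r⁻¹ ∈ A := (A.mem_or_inv_mem r).resolve_left hr
    have hnu : ((⟨r⁻¹, hri⟩ : A) : K) ∈ A.nonunits := by
      rw [ValuationSubring.mem_nonunits_iff, map_inv₀]
      rw [← ValuationSubring.valuation_le_one_iff, not_le] at hr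
      exact inv_lt_one_of_one_lt₀ hr
    have h0 := hres _ hnu
    refine ⟨-r * c, (1 - C (⟨r⁻¹, hri⟩ : A) * X) * U, mul_ne_zero (neg_ne_zero.mpr hr0) hc, ?_, ?_⟩
    · rw [Multiset.map_cons, Multiset.prod_cons, hprod, Polynomial.map_mul, Polynomial.map_sub,
        Polynomial.map_one, Polynomial.map_mul, Polynomial.map_C, Polynomial.map_X]
      have h1 : X - C r = C (-r) * (1 - C r⁻¹ * X) := by
        rw [mul_sub, mul_one, ← mul_assoc, ← C_mul, neg_mul, mul_inv_cancel₀ hr0, C_neg, C_neg,
          C_1]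
        ring
      rw [h1, C_mul]
      show C (-r) * (1 - C r⁻¹ * X) * (C c * map A.subtype U) =
        C (-r) * C c * ((1 - C r⁻¹ * X) * map A.subtype U)
      ring
    · rw [Polynomial.map_mul, hU, Polynomial.map_sub, Polynomial.map_one, Polynomial.map_mul,
        Polynomial.map_C, h0]
      simp

end SMARoots

section SMARoot

variable {K k F κ : Type*} [Field K] [Field k] [Field F] [Field κ]
  [Algebra K[X] F] [Algebra k[X] κ]
  {A : ValuationSubring K} {res : A →+* k} {V : ValuationSubring F} {ρ : V →+* κ}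

/-- helper12's remark (R1): if `b` is a lifted basis of the image of the `A[X]`-integral elements
and `b = M β` with `β` integral over `K[X]`, then `det M` has no root in `A`. -/
theorem sma_root_notMem {n : Type*} [Fintype n] [DecidableEq n] (h : SmaData A res V ρ)
    (hint : ∀ x : F, x ∈ V → IsIntegral K[X] x → SmaInt A x)
    (b : n → V) (hli : LinearIndependent k[X] (fun i => ρ (b i)))
    (hspan : ∀ x : V, SmaInt A (x : F) → ρ x ∈ Submodule.span k[X] (Set.range fun i => ρ (b i)))
    (β : n → F) (hβ : ∀ j, IsIntegral K[X] (β j))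
    (M : Matrix n n K[X]) (hM : ∀ i, (b i : F) = ∑ j, M i j • β j)
    (r : A) : (M.det).eval (r : K) ≠ 0 := by
  classical
  intro h0
  have hdet : (M.map (eval (r : K))).det = 0 := by
    have h1 := RingHom.map_det (evalRingHom (r : K)) M
    rw [coe_evalRingHom, h0, RingHom.mapMatrix_apply] at h1
    exact h1.symm
  obtain ⟨v, hv0, hv⟩ := Matrix.exists_vecMul_eq_zero_iff.mpr hdet
  obtain ⟨i₁, hi₁⟩ : ∃ i, v i ≠ 0 := by
    by_contra hcon
    push Not at hcon
    exact hv0 (funext hcon)
  obtain ⟨i₀, -, hmax⟩ := Finset.exists_max_image Finset.univ (fun i => A.valuation (v i))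
    ⟨i₁, Finset.mem_univ i₁⟩
  have hvi₀ : v i₀ ≠ 0 := by
    intro hz
    have h2 := hmax i₁ (Finset.mem_univ i₁)
    rw [hz, map_zero, le_zero_iff, map_eq_zero] at h2
    exact hi₁ h2
  have hmem : ∀ i, v i / v i₀ ∈ A := by
    intro i
    rw [← ValuationSubring.valuation_le_one_iff, map_div₀]
    exact div_le_one_of_le₀ (hmax i (Finset.mem_univ i)) zero_le
  set lam : n → A := fun i => ⟨v i / v i₀, hmem i⟩ with hlam
  have hlam₀ : lam i₀ = 1 := Subtype.ext (div_self hvi₀)
  have hroot : ∀ j, (∑ i, C (lam i : K) * M i j).eval (r : K) = 0 := by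
    intro j
    have h3 := congrFun hv j
    simp only [Matrix.vecMul, dotProduct, Matrix.map_apply, Pi.zero_apply] at h3
    rw [eval_finsetSum]
    have h4 : ∑ i, eval (r : K) (C (lam i : K) * M i j) = (∑ i, v i * eval (r : K) (M i j)) / v i₀ := by
      rw [Finset.sum_div]
      refine Finset.sum_congr rfl fun i _ => ?_
      rw [eval_mul, eval_C]
      show v i / v i₀ * _ = _
      ring
    rw [h4, h3, zero_div]
  have hN : ∀ j, ∃ N : K[X], ∑ i, C (lam i : K) * M i j = (X - C (r : K)) * N := fun j =>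
    dvd_iff_isRoot.mpr (hroot j)
  choose N hN using hN
  set y : F := ∑ j, N j • β j with hy
  have hyint : IsIntegral K[X] y := by
    refine IsIntegral.sum _ fun j _ => ?_
    rw [Algebra.smul_def]
    exact isIntegral_algebraMap.mul (hβ j)
  set xV : V := ∑ i, smaLift h (C (lam i)) * b i with hxV
  set Q : (A)[X] := X - C r with hQ
  have hQmap : Q.map A.subtype = X - C (r : K) := by
    rw [hQ, Polynomial.map_sub, Polynomial.map_X, Polynomial.map_C]
    rfl
  have hQres : Q.map res ≠ 0 := by
    rw [hQ, Polynomial.map_sub, Polynomial.map_X, Polynomial.map_C]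
    exact X_sub_C_ne_zero _
  have hx : (xV : F) = algebraMap K[X] F (Q.map A.subtype) * y := by
    rw [hxV, hQmap, hy, Finset.mul_sum]
    have h5 : ((∑ i, smaLift h (C (lam i)) * b i : V) : F) =
        ∑ i, algebraMap K[X] F (C (lam i : K)) * (b i : F) := by
      rw [← ValuationSubring.subtype_apply, map_sum]
      refine Finset.sum_congr rfl fun i _ => ?_
      rw [map_mul, ValuationSubring.subtype_apply, ValuationSubring.subtype_apply, sma_lift_coe,
        Polynomial.map_C]
      rfl
    rw [h5]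
    have h6 : ∀ i, algebraMap K[X] F (C (lam i : K)) * (b i : F) =
        ∑ j, algebraMap K[X] F (C (lam i : K) * M i j) * β j := by
      intro i
      rw [hM i, Finset.mul_sum]
      refine Finset.sum_congr rfl fun j _ => ?_
      rw [Algebra.smul_def, map_mul, mul_assoc]
    rw [Finset.sum_congr rfl fun i _ => h6 i, Finset.sum_comm]
    refine Finset.sum_congr rfl fun j _ => ?_
    rw [← Finset.sum_mul, ← map_sum, hN j, map_mul, Algebra.smul_def, mul_assoc]
  have hyV : y ∈ V := by
    have h7 : y = (xV : F) * (algebraMap K[X] F (Q.map A.subtype))⁻¹ := by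
      rw [hx, mul_comm, ← mul_assoc, inv_mul_cancel₀ (sma_ne_zero h Q hQres), one_mul]
    rw [h7]
    exact V.mul_mem _ _ xV.2 (sma_inv_mem h Q hQres)
  have hyI : SmaInt A y := hint y hyV hyint
  obtain ⟨μ, hμ⟩ := (Submodule.mem_span_range_iff_exists_fun k[X]).mp (hspan ⟨y, hyV⟩ hyI)
  have hxV' : xV = smaLift h Q * ⟨y, hyV⟩ := Subtype.ext hx
  have h8 : ρ xV = ∑ i, C (res (lam i)) • ρ (b i) := by
    rw [hxV, map_sum]
    refine Finset.sum_congr rfl fun i _ => ?_
    rw [map_mul, sma_rho_lift, Polynomial.map_C, Algebra.smul_def]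
  have h9 : ρ xV = ∑ i, ((Q.map res) * μ i) • ρ (b i) := by
    rw [hxV', map_mul, sma_rho_lift, ← hμ, Finset.mul_sum]
    refine Finset.sum_congr rfl fun i _ => ?_
    rw [Algebra.smul_def, Algebra.smul_def, map_mul, mul_assoc]
  have h10 : ∑ i, (C (res (lam i)) - (Q.map res) * μ i) • ρ (b i) = 0 := by
    simp only [sub_smul]
    rw [Finset.sum_sub_distrib, ← h8, ← h9, sub_self]
  have h11 := Fintype.linearIndependent_iff.mp hli _ h10 i₀
  rw [hlam₀, map_one, C_1, sub_eq_zero] at h11
  have h12 : IsUnit (Q.map res) := IsUnit.of_mul_eq_one _ h11.symm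
  rw [hQ, Polynomial.map_sub, Polynomial.map_X, Polynomial.map_C] at h12
  exact Polynomial.not_isUnit_X_sub_C _ h12

end SMARoot

section SMADiscr

variable {K k F κ E Kk : Type*} [Field K] [Field k] [Field F] [Field κ] [Field E] [Field Kk]
  [Algebra K[X] F] [Algebra k[X] κ]
  [Algebra K[X] E] [IsFractionRing K[X] E] [Algebra E F] [IsScalarTower K[X] E F]
  [Algebra k[X] Kk] [IsFractionRing k[X] Kk] [Algebra Kk κ] [IsScalarTower k[X] Kk κ]
  {A : ValuationSubring K} {res : A →+* k} {V : ValuationSubring F} {ρ : V →+* κ}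

/-- The residues of a family in `V` whose residues are `Kk`-independent satisfy the
orthonormality hypothesis `hind` of `ValExt.lean` over `E`. -/
theorem sma_hind (h : SmaData A res V ρ) {d : ℕ} (b : Fin d → V)
    (hli : LinearIndependent Kk (fun i => ρ (b i))) :
    ∀ a : Fin d → E, (∀ i, algebraMap E F (a i) ∈ V) →
      ∑ i, algebraMap E F (a i) * (b i : F) ∈ V.nonunits →
      ∀ i, algebraMap E F (a i) ∈ V.nonunits := by
  intro a ha hsum i
  set y : Fin d → V.comap (algebraMap E F) := fun i => ⟨a i, ha i⟩ with hy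
  have h1 : ρ (∑ i, smaInc V (y i) * b i) = 0 := by
    apply h.rho_ker
    have h2 : ((∑ i, smaInc V (y i) * b i : V) : F) = ∑ i, algebraMap E F (a i) * (b i : F) := by
      rw [← ValuationSubring.subtype_apply, map_sum]
      rfl
    rw [h2]
    exact hsum
  rw [map_sum] at h1
  have h3 : ∑ i, smaRhoE (Kk := Kk) h (y i) • ρ (b i) = 0 := by
    rw [← h1]
    refine Finset.sum_congr rfl fun i _ => ?_
    rw [map_mul, Algebra.smul_def, sma_rhoE_compat]
  have h4 := Fintype.linearIndependent_iff.mp hli _ h3 i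
  have h5 : ρ (smaInc V (y i)) = 0 := by
    rw [← sma_rhoE_compat (Kk := Kk) h (y i), h4, map_zero]
  exact rdisc_nonunit_of_map_eq_zero V ρ _ h5

/-- The discriminant of the lifted basis reduces to `unit * ∏ (X - τ̄ i) ^ e i`. -/
theorem sma_discr {ι J : Type*} [Fintype ι] [DecidableEq ι] [Fintype J] [IsAlgClosed K]
    [FiniteDimensional E F] [FiniteDimensional Kk κ] [Algebra.IsSeparable Kk κ]
    (h : SmaData A res V ρ)
    (hint : ∀ x : F, x ∈ V → IsIntegral K[X] x → SmaInt A x)
    (hdeg : Module.finrank E F = Module.finrank Kk κ)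
    (β : Module.Basis ι E F) (hβint : ∀ i, IsIntegral K[X] (β i))
    (hβspan : ∀ x : F, IsIntegral K[X] x → x ∈ Submodule.span K[X] (Set.range β))
    (u : K) (τ : J → A) (e : J → ℕ)
    (hD : Algebra.discr E β = algebraMap K[X] E (C u * ∏ i, (X - C (τ i : K)) ^ e i))
    (b : Fin (Module.finrank Kk κ) → V) (hb : ∀ i, SmaInt A (b i : F))
    (hli : LinearIndependent Kk (fun i => ρ (b i)))
    (hspan : ∀ x : V, SmaInt A (x : F) →
      ρ x ∈ Submodule.span k[X] (Set.range fun i => ρ (b i))) :
    ∃ w : k, w ≠ 0 ∧ Algebra.discr Kk (fun i => ρ (b i)) =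
      algebraMap k[X] Kk (C w * ∏ i, (X - C (res (τ i))) ^ e i) := by
  classical
  have hind := sma_hind (E := E) (Kk := Kk) h b hli
  obtain ⟨D, hD1, hD2⟩ := rdisc_discr V ρ (smaRhoE (Kk := Kk) h) (fun i => (b i : F))
    (fun i => (b i).2) hdeg hind h.rho_surj (sma_rhoE_surj h) (sma_rhoE_ker h) (sma_rhoE_compat h)
  have hdne : Algebra.discr Kk (fun i => ρ (b i)) ≠ 0 := by
    have h1 := Algebra.discr_not_zero_of_basis Kk
      (Module.Basis.mk hli (hli.span_eq_top_of_card_eq_finrank' (by simp)).ge)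
    rwa [Module.Basis.coe_mk] at h1
  have hcard : Fintype.card ι = Module.finrank Kk κ := by
    rw [← Module.finrank_eq_card_basis β, hdeg]
  obtain ⟨e'⟩ : Nonempty (ι ≃ Fin (Module.finrank Kk κ)) := ⟨Fintype.equivFinOfCardEq hcard⟩
  set β' : Fin (Module.finrank Kk κ) → F := β ∘ e'.symm with hβ'
  have hβ'int : ∀ j, IsIntegral K[X] (β' j) := fun j => hβint _
  have hβ'disc : Algebra.discr E β' = Algebra.discr E β := Algebra.discr_reindex E β e'
  have hM : ∀ i, ∃ c : Fin (Module.finrank Kk κ) → K[X], (b i : F) = ∑ j, c j • β' j := by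
    intro i
    have h1 := hβspan _ (sma_int_isIntegral (hb i))
    have h2 : Set.range β = Set.range β' := by
      rw [hβ', Set.range_comp, Equiv.range_eq_univ, Set.image_univ]
    rw [h2] at h1
    obtain ⟨c, hc⟩ := (Submodule.mem_span_range_iff_exists_fun K[X]).mp h1
    exact ⟨c, hc.symm⟩
  choose M hM using hM
  set M' : Matrix (Fin (Module.finrank Kk κ)) (Fin (Module.finrank Kk κ)) K[X] :=
    Matrix.of M with hM'
  have hdisc : Algebra.discr E (fun i => (b i : F)) =
      (algebraMap K[X] E M'.det) ^ 2 * Algebra.discr E β := by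
    have h1 := Algebra.discr_of_matrix_mulVec (A := E) β' (M'.map (algebraMap K[X] E))
    have h2 : Matrix.mulVec ((M'.map (algebraMap K[X] E)).map (algebraMap E F)) β' =
        fun i => (b i : F) := by
      funext i
      rw [hM i]
      simp only [Matrix.mulVec, dotProduct, Matrix.map_apply]
      refine Finset.sum_congr rfl fun j _ => ?_
      rw [Algebra.smul_def, IsScalarTower.algebraMap_apply K[X] E F]
      rfl
    rw [h2, hβ'disc] at h1
    rw [h1, RingHom.map_det, RingHom.mapMatrix_apply]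
  have hdet0 : M'.det ≠ 0 := by
    intro h0
    rw [h0, map_zero, zero_pow two_ne_zero, zero_mul] at hdisc
    rw [hdisc] at hD1
    have hD0 : D = 0 := Subtype.ext hD1
    rw [hD0, map_zero] at hD2
    exact hdne hD2.symm
  have hliR : LinearIndependent k[X] (fun i => ρ (b i)) :=
    (LinearIndependent.iff_fractionRing k[X] Kk).mpr hli
  have hroots : ∀ r ∈ M'.det.roots, r ∉ A := by
    intro r hr hrA
    exact sma_root_notMem h hint b hliR hspan β' hβ'int M' hM ⟨r, hrA⟩ ((mem_roots hdet0).mp hr)
  obtain ⟨c, U, hc, hprod, hU⟩ := sma_prod_roots A res h.res_ker M'.det.roots hroots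
  have hsplit := (IsAlgClosed.splits M'.det).eq_prod_roots
  have hdetU : M'.det = C (M'.det.leadingCoeff * c) * U.map A.subtype := by
    rw [C_mul, mul_assoc, ← hprod]
    exact hsplit
  have hc0ne : M'.det.leadingCoeff * c ≠ 0 := mul_ne_zero (leadingCoeff_ne_zero.mpr hdet0) hc
  set c0 := M'.det.leadingCoeff * c with hc0
  obtain ⟨W, hW⟩ : ∃ W : (A)[X], W = U ^ 2 * ∏ i, (X - C (τ i)) ^ e i := ⟨_, rfl⟩
  have hWmap : W.map A.subtype = (U.map A.subtype) ^ 2 * ∏ i, (X - C (τ i : K)) ^ e i := by
    rw [hW, Polynomial.map_mul, Polynomial.map_pow, Polynomial.map_prod]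
    congr 1
    refine Finset.prod_congr rfl fun i _ => ?_
    rw [Polynomial.map_pow, Polynomial.map_sub, Polynomial.map_X, Polynomial.map_C]
    rfl
  have hWres : W.map res = ∏ i, (X - C (res (τ i))) ^ e i := by
    rw [hW, Polynomial.map_mul, Polynomial.map_pow, hU, one_pow, one_mul, Polynomial.map_prod]
    refine Finset.prod_congr rfl fun i _ => ?_
    rw [Polynomial.map_pow, Polynomial.map_sub, Polynomial.map_X, Polynomial.map_C]
  have hWne : W.map res ≠ 0 := by
    rw [hWres]
    exact Finset.prod_ne_zero_iff.mpr fun i _ => pow_ne_zero _ (X_sub_C_ne_zero _)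
  set w0 : K := c0 ^ 2 * u with hw0
  have hDE : (D : E) = algebraMap K[X] E (C w0 * W.map A.subtype) := by
    rw [hD1, hdisc, hD, ← map_pow, ← map_mul, hdetU, hWmap, hw0]
    congr 1
    simp only [C_mul, C_pow]
    ring
  have hDF : algebraMap E F (D : E) =
      algebraMap K[X] F (C w0) * algebraMap K[X] F (W.map A.subtype) := by
    rw [hDE, ← IsScalarTower.algebraMap_apply, map_mul]
  have hw0mem : algebraMap K[X] F (C w0) ∈ V := by
    have h1 : algebraMap K[X] F (C w0) =
        algebraMap E F (D : E) * (algebraMap K[X] F (W.map A.subtype))⁻¹ := by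
      rw [hDF, mul_assoc, mul_inv_cancel₀ (sma_ne_zero h W hWne), mul_one]
    rw [h1]
    exact V.mul_mem _ _ D.2 (sma_inv_mem h W hWne)
  have hw0A := sma_const_mem h w0 hw0mem
  have hinc : smaInc V D = smaLift h (C ⟨w0, hw0A⟩ * W) := by
    have hCW : (C (⟨w0, hw0A⟩ : A) * W).map A.subtype = C w0 * W.map A.subtype := by
      rw [Polynomial.map_mul, Polynomial.map_C]
      rfl
    apply Subtype.ext
    rw [sma_inc_coe, sma_lift_coe, hDF, hCW]
    exact (map_mul (algebraMap K[X] F) _ _).symm
  have hfin : algebraMap Kk κ (Algebra.discr Kk (fun i => ρ (b i))) =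
      algebraMap Kk κ (algebraMap k[X] Kk
        (C (res ⟨w0, hw0A⟩) * ∏ i, (X - C (res (τ i))) ^ e i)) := by
    rw [← IsScalarTower.algebraMap_apply, ← hWres, ← Polynomial.map_C, ← Polynomial.map_mul,
      ← sma_rho_lift h, ← hinc, ← sma_rhoE_compat (Kk := Kk) h D, hD2]
  have hfin' := (algebraMap Kk κ).injective hfin
  refine ⟨res ⟨w0, hw0A⟩, ?_, hfin'⟩
  intro hz
  rw [hz, C_0, zero_mul, map_zero] at hfin'
  exact hdne hfin'

/-- **(SM) over algebraically closed `(K, A, k)`, basis form.**  There is a family `b` in `V`,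
integral over `A[X]`, whose residues form a `Kk`-basis of `κ` and span the integral closure of
`k[X]` in `κ` over `k[X]`. -/
theorem sma_basis {ι J : Type*} [Fintype ι] [DecidableEq ι] [Fintype J] [DecidableEq J]
    [IsAlgClosed K] [IsAlgClosed k]
    [FiniteDimensional E F] [FiniteDimensional Kk κ] [Algebra.IsSeparable Kk κ]
    (h : SmaData A res V ρ)
    (hint : ∀ x : F, x ∈ V → IsIntegral K[X] x → SmaInt A x)
    (hdeg : Module.finrank E F = Module.finrank Kk κ)
    (β : Module.Basis ι E F) (hβint : ∀ i, IsIntegral K[X] (β i))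
    (hβspan : ∀ x : F, IsIntegral K[X] x → x ∈ Submodule.span K[X] (Set.range β))
    (u : K) (τ : J → A) (hτ : ∀ i j, res (τ i) = res (τ j) → i = j) (e : J → ℕ)
    (hD : Algebra.discr E β = algebraMap K[X] E (C u * ∏ i, (X - C (τ i : K)) ^ e i))
    (hcount : ∀ s : J → Finset (Ideal (integralClosure k[X] κ)),
      (∀ i, ∀ Q ∈ s i, Q.IsMaximal ∧
        algebraMap k[X] (integralClosure k[X] κ) (X - C (res (τ i))) ∈ Q) →
      ∑ i, ((s i).card + e i) ≤ Fintype.card J * Module.finrank Kk κ) :
    ∃ b : Fin (Module.finrank Kk κ) → V, (∀ i, SmaInt A (b i : F)) ∧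
      LinearIndependent Kk (fun i => ρ (b i)) ∧
      (∀ x : V, SmaInt A (x : F) →
        ρ x ∈ Submodule.span k[X] (Set.range fun i => ρ (b i))) ∧
      ∀ y : κ, IsIntegral k[X] y → y ∈ Submodule.span k[X] (Set.range fun i => ρ (b i)) := by
  classical
  obtain ⟨b, hb, hli, hspan⟩ := sma_exists_basis (E := E) (Kk := Kk) h hint
  obtain ⟨w, hw, hdiscr⟩ := sma_discr h hint hdeg β hβint hβspan u τ e hD b hb hli hspan
  refine ⟨b, hb, hli, hspan, ?_⟩
  obtain ⟨bK, hbK⟩ : ∃ bK : Module.Basis (Fin (Module.finrank Kk κ)) Kk κ,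
      ⇑bK = fun i => ρ (b i) :=
    ⟨Module.Basis.mk hli (hli.span_eq_top_of_card_eq_finrank' (by simp)).ge,
      Module.Basis.coe_mk _ _⟩
  have hmain := sma_count_aux (R := k[X]) bK
    (fun i => by rw [hbK]; exact sma_int_rho h (b i) (hb i))
    (C w) (isUnit_C.mpr hw.isUnit) (fun i => X - C (res (τ i))) (fun i => prime_X_sub_C _)
    (by
      intro i j hdvd
      apply hτ
      have h1 := dvd_iff_isRoot.mp hdvd
      rw [IsRoot.def, eval_sub, eval_X, eval_C, sub_eq_zero] at h1
      exact h1)
    e (by rw [hbK]; exact hdiscr.symm)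
    (by
      intro i Q hQ hpQ x
      haveI := hQ.isPrime
      refine dscb_residue_degree_one (evalRingHom (res (τ i))) (fun c => ⟨C c, eval_C⟩) Q
        (fun r hr => ?_) x
      obtain ⟨q, hq⟩ := dvd_iff_isRoot.mpr hr
      rw [hq, map_mul]
      exact Q.mul_mem_right _ hpQ)
    (by
      intro s hs
      rw [Fintype.card_fin]
      exact hcount s hs)
  intro y hy
  have h2 := hmain y hy
  rwa [hbK] at h2

/-- **(SM) over algebraically closed `(K, A, k)`.**  Every element of the residue field `κ` which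
is integral over `k[X]` is the residue of an element of `V` integral over `A[X]`. -/
theorem sma_main {ι J : Type*} [Fintype ι] [DecidableEq ι] [Fintype J] [DecidableEq J]
    [IsAlgClosed K] [IsAlgClosed k]
    [FiniteDimensional E F] [FiniteDimensional Kk κ] [Algebra.IsSeparable Kk κ]
    (h : SmaData A res V ρ)
    (hint : ∀ x : F, x ∈ V → IsIntegral K[X] x → SmaInt A x)
    (hdeg : Module.finrank E F = Module.finrank Kk κ)
    (β : Module.Basis ι E F) (hβint : ∀ i, IsIntegral K[X] (β i))
    (hβspan : ∀ x : F, IsIntegral K[X] x → x ∈ Submodule.span K[X] (Set.range β))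
    (u : K) (τ : J → A) (hτ : ∀ i j, res (τ i) = res (τ j) → i = j) (e : J → ℕ)
    (hD : Algebra.discr E β = algebraMap K[X] E (C u * ∏ i, (X - C (τ i : K)) ^ e i))
    (hcount : ∀ s : J → Finset (Ideal (integralClosure k[X] κ)),
      (∀ i, ∀ Q ∈ s i, Q.IsMaximal ∧
        algebraMap k[X] (integralClosure k[X] κ) (X - C (res (τ i))) ∈ Q) →
      ∑ i, ((s i).card + e i) ≤ Fintype.card J * Module.finrank Kk κ)
    (y : κ) (hy : IsIntegral k[X] y) : ∃ x : V, SmaInt A (x : F) ∧ ρ x = y := by
  classical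
  obtain ⟨b, hb, -, -, hspan⟩ := sma_basis (Kk := Kk) h hint hdeg β hβint hβspan u τ hτ e hD hcount
  obtain ⟨a, ha⟩ := (Submodule.mem_span_range_iff_exists_fun k[X]).mp (hspan y hy)
  have hP : ∀ i, ∃ P : (A)[X], P.map res = a i := fun i =>
    Polynomial.map_surjective res h.res_surj (a i)
  choose P hP using hP
  refine ⟨∑ i, smaLift h (P i) * b i, ?_, ?_⟩
  · have h1 : ((∑ i, smaLift h (P i) * b i : V) : F) =
        ∑ i, algebraMap K[X] F ((P i).map A.subtype) * (b i : F) := by
      rw [← ValuationSubring.subtype_apply, map_sum]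
      rfl
    rw [h1]
    exact sma_int_sum _ _ fun i _ => sma_int_mul (sma_int_map (P i)) (hb i)
  · rw [map_sum, ← ha]
    refine Finset.sum_congr rfl fun i _ => ?_
    rw [map_mul, sma_rho_lift, hP, Algebra.smul_def]

end SMADiscr

end Fermat.Agent.S18
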