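import Mathlib
import Fermat.Agent.S18.SMAbsMain

/-!
# S18 / S37, package SMABS (part 3): instance-light front end of `sma_basis`

`sma_basis` / `sma_main` (SMAbsMain.lean) take a packaged `SmaData`, the integrality lemma `hint`
and the degree equality `hdeg`.  Here these three inputs are produced from the hypotheses in the
shapes in which the Gauss-ring packages export them:

* elementary compatibilities of the residue maps `res : A →+* k`, `ρ : V →+* κ` with constants and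
  with the coordinate `t` (`smag_data`);
* uniqueness of `V` as an extension of its trace on `K(t)` (`huniq`, the shape of `gr_unique_t`),
  giving `hint` through `valext_integral` (`smag_hint`);
* an orthonormal family of `n = [F : K(t)]` elements of `V` over `K(t)` (`hind`, the shape of
  `gr_hind_t`), giving `hdeg` through `rdiscBasis` (`smag_setup`).

The `K[X]`-setup (`E`, `Kk` and all algebra instances) is the consumer's; it is tied to the
coordinate only through `hX : algebraMap K[X] F P = aeval t P` and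
`hXκ : algebraMap k[X] κ P = aeval (ρ t) P`.

`smag_basis`, `smag_basis_emb`, `smag_main`: the conclusions of `sma_basis` / `sma_main` in
elementwise form (polynomial combinations, `RingHom.IsIntegralElem`), indexed by `Fin n`.
-/

set_option autoImplicit false
set_option linter.unusedSectionVars false

namespace Fermat.Agent.S18

open Polynomial
open scoped IntermediateField

section SMAGBridge

variable {K F E : Type*} [Field K] [Field F] [Field E] [Algebra K F]
  [Algebra K[X] F] [Algebra K[X] E] [IsFractionRing K[X] E] [Algebra E F] [IsScalarTower K[X] E F]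

/-- The image of the fraction field `E` of `K[X]` in `F` lies in `K(t)`. -/
theorem smag_mem_adjoin (t : F) (hX : ∀ P : K[X], algebraMap K[X] F P = aeval t P) (e : E) :
    ∃ y : ↥K⟮t⟯, algebraMap ↥K⟮t⟯ F y = algebraMap E F e := by
  obtain ⟨p, q, hq, rfl⟩ := IsFractionRing.div_surjective (A := K[X]) e
  refine ⟨⟨aeval t p / aeval t q, (IntermediateField.mem_adjoin_simple_iff K _).mpr ⟨p, q, rfl⟩⟩, ?_⟩
  rw [map_div₀, ← IsScalarTower.algebraMap_apply, ← IsScalarTower.algebraMap_apply, hX, hX]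
  rfl

/-- Every element of `K(t)` is in the image of the fraction field `E` of `K[X]`. -/
theorem smag_exists_of_mem (t : F) (hX : ∀ P : K[X], algebraMap K[X] F P = aeval t P)
    (y : ↥K⟮t⟯) : ∃ e : E, algebraMap E F e = algebraMap ↥K⟮t⟯ F y := by
  obtain ⟨p, q, hpq⟩ := (IntermediateField.mem_adjoin_simple_iff K _).mp y.2
  refine ⟨algebraMap K[X] E p / algebraMap K[X] E q, ?_⟩
  rw [map_div₀, ← IsScalarTower.algebraMap_apply, ← IsScalarTower.algebraMap_apply, hX, hX]
  exact hpq.symm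

end SMAGBridge

section SMAGData

variable {K k F κ : Type*} [Field K] [Field k] [Field F] [Field κ]
  [Algebra K F] [Algebra k κ] [Algebra K[X] F] [Algebra k[X] κ]
  {A : ValuationSubring K} {res : A →+* k} {V : ValuationSubring F} {ρ : V →+* κ}

/-- `SmaData` from elementary compatibilities with constants and with the coordinate `t`. -/
theorem smag_data (hres : Function.Surjective res)
    (hresker : ∀ a : A, (a : K) ∈ A.nonunits → res a = 0)
    (hρ : Function.Surjective ρ) (hρker : ∀ x : V, (x : F) ∈ V.nonunits → ρ x = 0)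
    (hAV : ∀ a : A, algebraMap K F a ∈ V)
    (hρA : ∀ a : A, ρ ⟨algebraMap K F a, hAV a⟩ = algebraMap k κ (res a))
    (t : F) (ht : t ∈ V) (htr : Transcendental k (ρ ⟨t, ht⟩))
    (hX : ∀ P : K[X], algebraMap K[X] F P = aeval t P)
    (hXκ : ∀ P : k[X], algebraMap k[X] κ P = aeval (ρ ⟨t, ht⟩) P) :
    SmaData A res V ρ := by
  have hmem : ∀ P : (A)[X], algebraMap K[X] F (P.map A.subtype) ∈ V := by
    intro P
    rw [hX, aeval_def, eval₂_map, eval₂_eq_sum_range]
    exact V.toSubring.sum_mem fun i _ => V.mul_mem _ _ (hAV _) (V.toSubring.pow_mem ht i)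
  refine ⟨hres, hresker, hρ, hρker, ?_, hmem, ?_⟩
  · have h1 : (algebraMap k[X] κ : k[X] → κ) = aeval (ρ ⟨t, ht⟩) := funext hXκ
    rw [h1]
    exact transcendental_iff_injective.mp htr
  · intro P
    have key : ρ.comp (RingHom.codRestrict ((algebraMap K[X] F).comp (mapRingHom A.subtype)) V
        hmem) = (algebraMap k[X] κ).comp (mapRingHom res) := by
      apply Polynomial.ringHom_ext
      · intro a
        have h2 : RingHom.codRestrict ((algebraMap K[X] F).comp (mapRingHom A.subtype)) V hmem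
            (C a) = ⟨algebraMap K F a, hAV a⟩ := by
          apply Subtype.ext
          show algebraMap K[X] F ((C a).map A.subtype) = algebraMap K F a
          rw [Polynomial.map_C, hX, aeval_C]
          rfl
        rw [RingHom.comp_apply, h2, hρA, RingHom.comp_apply, coe_mapRingHom, Polynomial.map_C,
          hXκ, aeval_C]
      · have h2 : RingHom.codRestrict ((algebraMap K[X] F).comp (mapRingHom A.subtype)) V hmem
            X = ⟨t, ht⟩ := by
          apply Subtype.ext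
          show algebraMap K[X] F ((X : (A)[X]).map A.subtype) = t
          rw [Polynomial.map_X, hX, aeval_X]
        rw [RingHom.comp_apply, h2, RingHom.comp_apply, coe_mapRingHom, Polynomial.map_X,
          hXκ, aeval_X]
    exact RingHom.congr_fun key P

end SMAGData

section SMAGMain

variable {K k F κ E Kk : Type*} [Field K] [Field k] [Field F] [Field κ] [Field E] [Field Kk]
  [Algebra K F] [Algebra k κ]
  [Algebra K[X] F] [Algebra k[X] κ]
  [Algebra K[X] E] [IsFractionRing K[X] E] [Algebra E F] [IsScalarTower K[X] E F]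
  [Algebra k[X] Kk] [IsFractionRing k[X] Kk] [Algebra Kk κ] [IsScalarTower k[X] Kk κ]
  {A : ValuationSubring K} {res : A →+* k} {V : ValuationSubring F} {ρ : V →+* κ}

/-- Uniqueness of `V` over its trace on `K(t)` gives uniqueness over its trace on `E`. -/
theorem smag_huniq (t : F) (hX : ∀ P : K[X], algebraMap K[X] F P = aeval t P)
    (huniq : ∀ O' : ValuationSubring F,
      (∀ y : ↥K⟮t⟯, algebraMap ↥K⟮t⟯ F y ∈ O' ↔ algebraMap ↥K⟮t⟯ F y ∈ V) → O' = V)
    (O' : ValuationSubring F)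
    (hO' : ∀ y : E, algebraMap E F y ∈ O' ↔ algebraMap E F y ∈ V) : O' = V := by
  refine huniq O' fun y => ?_
  obtain ⟨e, he⟩ := smag_exists_of_mem (E := E) t hX y
  rw [← he]
  exact hO' e

/-- The orthonormality hypothesis over `K(t)` gives the one over `E`. -/
theorem smag_hind (t : F) (hX : ∀ P : K[X], algebraMap K[X] F P = aeval t P)
    {n : ℕ} (c : Fin n → F)
    (hind : ∀ a : Fin n → ↥K⟮t⟯, (∀ i, algebraMap ↥K⟮t⟯ F (a i) ∈ V) →
      ∑ i, algebraMap ↥K⟮t⟯ F (a i) * c i ∈ V.nonunits →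
      ∀ i, algebraMap ↥K⟮t⟯ F (a i) ∈ V.nonunits)
    (a : Fin n → E) (ha : ∀ i, algebraMap E F (a i) ∈ V)
    (hsum : ∑ i, algebraMap E F (a i) * c i ∈ V.nonunits) (i : Fin n) :
    algebraMap E F (a i) ∈ V.nonunits := by
  choose a' ha' using fun i => smag_mem_adjoin (E := E) t hX (a i)
  have h1 := hind a' (fun i => by rw [ha']; exact ha i)
    (by
      have h2 : ∑ i, algebraMap ↥K⟮t⟯ F (a' i) * c i = ∑ i, algebraMap E F (a i) * c i :=
        Finset.sum_congr rfl fun i _ => by rw [ha']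
      rw [h2]
      exact hsum) i
  rwa [ha'] at h1

/-- The integrality lemma `hint` of `sma_basis` from uniqueness of `V` over its trace on `E`. -/
theorem smag_hint [Algebra.IsAlgebraic E F] (h : SmaData A res V ρ)
    (huniqE : ∀ O' : ValuationSubring F,
      (∀ y : E, algebraMap E F y ∈ O' ↔ algebraMap E F y ∈ V) → O' = V)
    (x : F) (hx : x ∈ V) (hxi : IsIntegral K[X] x) : SmaInt A x := by
  letI : Algebra (A)[X] K[X] := (mapRingHom A.subtype).toAlgebra
  letI : Algebra (A)[X] F := ((algebraMap K[X] F).comp (mapRingHom A.subtype)).toAlgebra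
  haveI : IsScalarTower (A)[X] K[X] F := IsScalarTower.of_algebraMap_eq (fun _ => rfl)
  exact valext_integral (R := K[X]) (L := E) V huniqE (R₀ := (A)[X])
    (fun r hr => sma_poly_mem h r hr) x hx hxi

/-- The inputs `SmaData`, `hint`, `hdeg` (and finiteness) of `sma_basis` from the Gauss-ring
hypotheses. -/
theorem smag_setup (hres : Function.Surjective res)
    (hresker : ∀ a : A, (a : K) ∈ A.nonunits → res a = 0)
    (hρ : Function.Surjective ρ) (hρker : ∀ x : V, (x : F) ∈ V.nonunits → ρ x = 0)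
    (hAV : ∀ a : A, algebraMap K F a ∈ V)
    (hρA : ∀ a : A, ρ ⟨algebraMap K F a, hAV a⟩ = algebraMap k κ (res a))
    (t : F) (ht : t ∈ V) (htr : Transcendental k (ρ ⟨t, ht⟩))
    (hX : ∀ P : K[X], algebraMap K[X] F P = aeval t P)
    (hXκ : ∀ P : k[X], algebraMap k[X] κ P = aeval (ρ ⟨t, ht⟩) P)
    (huniq : ∀ O' : ValuationSubring F,
      (∀ y : ↥K⟮t⟯, algebraMap ↥K⟮t⟯ F y ∈ O' ↔ algebraMap ↥K⟮t⟯ F y ∈ V) → O' = V)
    (hfin : FiniteDimensional ↥K⟮t⟯ F)
    (n : ℕ) (c : Fin n → F) (hc : ∀ i, c i ∈ V) (hn : Module.finrank ↥K⟮t⟯ F = n)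
    (hind : ∀ a : Fin n → ↥K⟮t⟯, (∀ i, algebraMap ↥K⟮t⟯ F (a i) ∈ V) →
      ∑ i, algebraMap ↥K⟮t⟯ F (a i) * c i ∈ V.nonunits →
      ∀ i, algebraMap ↥K⟮t⟯ F (a i) ∈ V.nonunits) :
    SmaData A res V ρ ∧ (∀ x : F, x ∈ V → IsIntegral K[X] x → SmaInt A x) ∧
      FiniteDimensional E F ∧ Module.finrank E F = n ∧
      FiniteDimensional Kk κ ∧ Module.finrank Kk κ = n := by
  have h := smag_data hres hresker hρ hρker hAV hρA t ht htr hX hXκ
  have hindE := smag_hind (E := E) t hX c hind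
  have hliE : LinearIndependent E c := valext_linearIndependent V c hindE
  have hspanE : ⊤ ≤ Submodule.span E (Set.range c) := by
    intro x _
    obtain ⟨a, ha⟩ := valext_span V c hind hn x
    choose a' ha' using fun i => smag_exists_of_mem (E := E) t hX (a i)
    rw [Submodule.mem_span_range_iff_exists_fun]
    refine ⟨a', ?_⟩
    rw [ha]
    exact Finset.sum_congr rfl fun i _ => by rw [Algebra.smul_def, ha']
  have hfinE : FiniteDimensional E F := Module.Finite.of_basis (Module.Basis.mk hliE hspanE)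
  have hnE : Module.finrank E F = n := by
    rw [Module.finrank_eq_card_basis (Module.Basis.mk hliE hspanE), Fintype.card_fin]
  haveI : Algebra.IsAlgebraic E F := Algebra.IsAlgebraic.of_finite E F
  have hint := smag_hint (E := E) h (smag_huniq (E := E) t hX huniq)
  have bκ : Module.Basis (Fin n) Kk κ :=
    rdiscBasis V ρ (smaRhoE (E := E) (Kk := Kk) h) c hc hnE hindE hρ
      (sma_rhoE_surj h) (sma_rhoE_ker h) (fun y => sma_rhoE_compat h y)
  refine ⟨h, hint, hfinE, hnE, Module.Finite.of_basis bκ, ?_⟩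
  rw [Module.finrank_eq_card_basis bκ, Fintype.card_fin]

/-- **Front end of `sma_basis`.**  Over algebraically closed `(K, A, k)`: if `V` is the unique
extension of its trace on `K(t)`, has an orthonormal family of `n = [F : K(t)]` elements over
`K(t)`, the residue extension is separable, the discriminant of an integral basis of `F` over
`K[t]` is `u ∏ (t - τ_i)^{e_i}` with the `τ_i ∈ A` of pairwise distinct residues and the total
count `∑ (#s_i + e_i) ≤ #J n` holds on the residue side, then there are `n` elements of `V`,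
integral over `A[t]`, whose residues are `k[t̄]`-independent and span every element of `κ`
integral over `k[t̄]`. -/
theorem smag_basis {ι J : Type*} [Fintype ι] [DecidableEq ι] [Fintype J] [DecidableEq J]
    [IsAlgClosed K] [IsAlgClosed k] [Algebra.IsSeparable Kk κ]
    (hres : Function.Surjective res)
    (hresker : ∀ a : A, (a : K) ∈ A.nonunits → res a = 0)
    (hρ : Function.Surjective ρ) (hρker : ∀ x : V, (x : F) ∈ V.nonunits → ρ x = 0)
    (hAV : ∀ a : A, algebraMap K F a ∈ V)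
    (hρA : ∀ a : A, ρ ⟨algebraMap K F a, hAV a⟩ = algebraMap k κ (res a))
    (t : F) (ht : t ∈ V) (htr : Transcendental k (ρ ⟨t, ht⟩))
    (hX : ∀ P : K[X], algebraMap K[X] F P = aeval t P)
    (hXκ : ∀ P : k[X], algebraMap k[X] κ P = aeval (ρ ⟨t, ht⟩) P)
    (huniq : ∀ O' : ValuationSubring F,
      (∀ y : ↥K⟮t⟯, algebraMap ↥K⟮t⟯ F y ∈ O' ↔ algebraMap ↥K⟮t⟯ F y ∈ V) → O' = V)
    (hfin : FiniteDimensional ↥K⟮t⟯ F)
    (n : ℕ) (c : Fin n → F) (hc : ∀ i, c i ∈ V) (hn : Module.finrank ↥K⟮t⟯ F = n)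
    (hind : ∀ a : Fin n → ↥K⟮t⟯, (∀ i, algebraMap ↥K⟮t⟯ F (a i) ∈ V) →
      ∑ i, algebraMap ↥K⟮t⟯ F (a i) * c i ∈ V.nonunits →
      ∀ i, algebraMap ↥K⟮t⟯ F (a i) ∈ V.nonunits)
    (β : Module.Basis ι E F) (hβint : ∀ i, IsIntegral K[X] (β i))
    (hβspan : ∀ x : F, IsIntegral K[X] x → x ∈ Submodule.span K[X] (Set.range β))
    (u : K) (τ : J → A) (hτ : ∀ i j, res (τ i) = res (τ j) → i = j) (e : J → ℕ)
    (hD : Algebra.discr E β = algebraMap K[X] E (C u * ∏ i, (X - C (τ i : K)) ^ e i))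
    (hcount : ∀ s : J → Finset (Ideal (integralClosure k[X] κ)),
      (∀ i, ∀ Q ∈ s i, Q.IsMaximal ∧
        algebraMap k[X] (integralClosure k[X] κ) (X - C (res (τ i))) ∈ Q) →
      ∑ i, ((s i).card + e i) ≤ Fintype.card J * n) :
    ∃ (b : Fin n → F) (hb : ∀ i, b i ∈ V),
      (∀ i, (((aeval t : K[X] →ₐ[K] F) : K[X] →+* F).comp
        (mapRingHom A.subtype)).IsIntegralElem (b i)) ∧
      (∀ g : Fin n → k[X],
        ∑ i, aeval (ρ ⟨t, ht⟩) (g i) * ρ ⟨b i, hb i⟩ = 0 → ∀ i, g i = 0) ∧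
      (∀ z : κ, ((aeval (ρ ⟨t, ht⟩) : k[X] →ₐ[k] κ) : k[X] →+* κ).IsIntegralElem z →
        ∃ g : Fin n → k[X], z = ∑ i, aeval (ρ ⟨t, ht⟩) (g i) * ρ ⟨b i, hb i⟩) := by
  classical
  obtain ⟨h, hint, hfinE, hnE, hfinκ, hκ⟩ := smag_setup (E := E) (Kk := Kk) hres hresker hρ hρker
    hAV hρA t ht htr hX hXκ huniq hfin n c hc hn hind
  subst hκ
  obtain ⟨b, hb, hli, -, hspan⟩ := sma_basis (E := E) (Kk := Kk) h hint hnE β hβint hβspan u τ hτ
    e hD hcount
  refine ⟨fun i => (b i : F), fun i => (b i).2, ?_, ?_, ?_⟩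
  · intro i
    have heq : algebraMap K[X] F = ((aeval t : K[X] →ₐ[K] F) : K[X] →+* F) := RingHom.ext hX
    have hb' : ((algebraMap K[X] F).comp (mapRingHom A.subtype)).IsIntegralElem (b i : F) := hb i
    rw [heq] at hb'
    exact hb'
  · intro g hg i
    have h1 : ∑ i, algebraMap k[X] Kk (g i) • ρ (b i) = 0 := by
      rw [← hg]
      refine Finset.sum_congr rfl fun i _ => ?_
      rw [Algebra.smul_def, ← IsScalarTower.algebraMap_apply, hXκ]
    have h2 := Fintype.linearIndependent_iff.mp hli _ h1 i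
    exact IsFractionRing.injective k[X] Kk (by rw [h2, map_zero])
  · intro z hz
    have heq : algebraMap k[X] κ = ((aeval (ρ ⟨t, ht⟩) : k[X] →ₐ[k] κ) : k[X] →+* κ) :=
      RingHom.ext hXκ
    have hz' : IsIntegral k[X] z := by
      show (algebraMap k[X] κ).IsIntegralElem z
      rw [heq]
      exact hz
    obtain ⟨g, hg⟩ := (Submodule.mem_span_range_iff_exists_fun k[X]).mp (hspan z hz')
    refine ⟨g, ?_⟩
    rw [← hg]
    exact Finset.sum_congr rfl fun i _ => by rw [Algebra.smul_def, hXκ]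

/-- `smag_basis` with the residue field embedded in a bigger field `Ω` (e.g. `κ ⊆ k((q))`),
stated through `r = σ ∘ ρ : V →+* Ω`; the last clause is for residues of elements of `V`. -/
theorem smag_basis_emb {ι J : Type*} [Fintype ι] [DecidableEq ι] [Fintype J] [DecidableEq J]
    [IsAlgClosed K] [IsAlgClosed k] [Algebra.IsSeparable Kk κ]
    {Ω : Type*} [Field Ω] [Algebra k Ω] (σ : κ →ₐ[k] Ω) (r : V →+* Ω)
    (hr : ∀ x : V, σ (ρ x) = r x)
    (hres : Function.Surjective res)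
    (hresker : ∀ a : A, (a : K) ∈ A.nonunits → res a = 0)
    (hρ : Function.Surjective ρ) (hρker : ∀ x : V, (x : F) ∈ V.nonunits → ρ x = 0)
    (hAV : ∀ a : A, algebraMap K F a ∈ V)
    (hρA : ∀ a : A, ρ ⟨algebraMap K F a, hAV a⟩ = algebraMap k κ (res a))
    (t : F) (ht : t ∈ V) (htr : Transcendental k (ρ ⟨t, ht⟩))
    (hX : ∀ P : K[X], algebraMap K[X] F P = aeval t P)
    (hXκ : ∀ P : k[X], algebraMap k[X] κ P = aeval (ρ ⟨t, ht⟩) P)
    (huniq : ∀ O' : ValuationSubring F,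
      (∀ y : ↥K⟮t⟯, algebraMap ↥K⟮t⟯ F y ∈ O' ↔ algebraMap ↥K⟮t⟯ F y ∈ V) → O' = V)
    (hfin : FiniteDimensional ↥K⟮t⟯ F)
    (n : ℕ) (c : Fin n → F) (hc : ∀ i, c i ∈ V) (hn : Module.finrank ↥K⟮t⟯ F = n)
    (hind : ∀ a : Fin n → ↥K⟮t⟯, (∀ i, algebraMap ↥K⟮t⟯ F (a i) ∈ V) →
      ∑ i, algebraMap ↥K⟮t⟯ F (a i) * c i ∈ V.nonunits →
      ∀ i, algebraMap ↥K⟮t⟯ F (a i) ∈ V.nonunits)
    (β : Module.Basis ι E F) (hβint : ∀ i, IsIntegral K[X] (β i))
    (hβspan : ∀ x : F, IsIntegral K[X] x → x ∈ Submodule.span K[X] (Set.range β))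
    (u : K) (τ : J → A) (hτ : ∀ i j, res (τ i) = res (τ j) → i = j) (e : J → ℕ)
    (hD : Algebra.discr E β = algebraMap K[X] E (C u * ∏ i, (X - C (τ i : K)) ^ e i))
    (hcount : ∀ s : J → Finset (Ideal (integralClosure k[X] κ)),
      (∀ i, ∀ Q ∈ s i, Q.IsMaximal ∧
        algebraMap k[X] (integralClosure k[X] κ) (X - C (res (τ i))) ∈ Q) →
      ∑ i, ((s i).card + e i) ≤ Fintype.card J * n) :
    ∃ (b : Fin n → F) (hb : ∀ i, b i ∈ V),
      (∀ i, (((aeval t : K[X] →ₐ[K] F) : K[X] →+* F).comp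
        (mapRingHom A.subtype)).IsIntegralElem (b i)) ∧
      (∀ g : Fin n → k[X],
        ∑ i, aeval (r ⟨t, ht⟩) (g i) * r ⟨b i, hb i⟩ = 0 → ∀ i, g i = 0) ∧
      (∀ y : V, ((aeval (r ⟨t, ht⟩) : k[X] →ₐ[k] Ω) : k[X] →+* Ω).IsIntegralElem (r y) →
        ∃ g : Fin n → k[X], r y = ∑ i, aeval (r ⟨t, ht⟩) (g i) * r ⟨b i, hb i⟩) := by
  obtain ⟨b, hb, hbint, hli, hspan⟩ := smag_basis (E := E) (Kk := Kk) hres hresker hρ hρker
    hAV hρA t ht htr hX hXκ huniq hfin n c hc hn hind β hβint hβspan u τ hτ e hD hcount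
  have hσ : Function.Injective σ := σ.toRingHom.injective
  have haev : ∀ P : k[X], σ (aeval (ρ ⟨t, ht⟩) P) = aeval (r ⟨t, ht⟩) P := by
    intro P
    rw [← hr]
    exact (Polynomial.aeval_algHom_apply σ (ρ ⟨t, ht⟩) P).symm
  have hsum : ∀ g : Fin n → k[X], σ (∑ i, aeval (ρ ⟨t, ht⟩) (g i) * ρ ⟨b i, hb i⟩) =
      ∑ i, aeval (r ⟨t, ht⟩) (g i) * r ⟨b i, hb i⟩ := by
    intro g
    rw [map_sum]
    exact Finset.sum_congr rfl fun i _ => by rw [map_mul, haev, hr]
  refine ⟨b, hb, hbint, fun g hg i => hli g (hσ (by rw [hsum, hg, map_zero])) i, fun y hy => ?_⟩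
  have hy' : ((aeval (ρ ⟨t, ht⟩) : k[X] →ₐ[k] κ) : k[X] →+* κ).IsIntegralElem (ρ y) := by
    obtain ⟨p, hp, hpy⟩ := hy
    refine ⟨p, hp, hσ ?_⟩
    have h1 : (σ : κ →+* Ω).comp ((aeval (ρ ⟨t, ht⟩) : k[X] →ₐ[k] κ) : k[X] →+* κ) =
        ((aeval (r ⟨t, ht⟩) : k[X] →ₐ[k] Ω) : k[X] →+* Ω) := RingHom.ext haev
    have h2 := Polynomial.hom_eval₂ p ((aeval (ρ ⟨t, ht⟩) : k[X] →ₐ[k] κ) : k[X] →+* κ)
      (σ : κ →+* Ω) (ρ y)
    rw [h1] at h2
    rw [map_zero]
    refine Eq.trans h2 ?_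
    rw [← hpy]
    exact congrArg (fun w => eval₂ _ w p) (hr y)
  obtain ⟨g, hg⟩ := hspan (ρ y) hy'
  exact ⟨g, by rw [← hr, hg, hsum]⟩

/-- **Front end of `sma_main`.**  Under the hypotheses of `smag_basis`, every element of the
residue field integral over `k[t̄]` is the residue of an element of `V` integral over `A[t]`. -/
theorem smag_main {ι J : Type*} [Fintype ι] [DecidableEq ι] [Fintype J] [DecidableEq J]
    [IsAlgClosed K] [IsAlgClosed k] [Algebra.IsSeparable Kk κ]
    (hres : Function.Surjective res)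
    (hresker : ∀ a : A, (a : K) ∈ A.nonunits → res a = 0)
    (hρ : Function.Surjective ρ) (hρker : ∀ x : V, (x : F) ∈ V.nonunits → ρ x = 0)
    (hAV : ∀ a : A, algebraMap K F a ∈ V)
    (hρA : ∀ a : A, ρ ⟨algebraMap K F a, hAV a⟩ = algebraMap k κ (res a))
    (t : F) (ht : t ∈ V) (htr : Transcendental k (ρ ⟨t, ht⟩))
    (hX : ∀ P : K[X], algebraMap K[X] F P = aeval t P)
    (hXκ : ∀ P : k[X], algebraMap k[X] κ P = aeval (ρ ⟨t, ht⟩) P)
    (huniq : ∀ O' : ValuationSubring F,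
      (∀ y : ↥K⟮t⟯, algebraMap ↥K⟮t⟯ F y ∈ O' ↔ algebraMap ↥K⟮t⟯ F y ∈ V) → O' = V)
    (hfin : FiniteDimensional ↥K⟮t⟯ F)
    (n : ℕ) (c : Fin n → F) (hc : ∀ i, c i ∈ V) (hn : Module.finrank ↥K⟮t⟯ F = n)
    (hind : ∀ a : Fin n → ↥K⟮t⟯, (∀ i, algebraMap ↥K⟮t⟯ F (a i) ∈ V) →
      ∑ i, algebraMap ↥K⟮t⟯ F (a i) * c i ∈ V.nonunits →
      ∀ i, algebraMap ↥K⟮t⟯ F (a i) ∈ V.nonunits)
    (β : Module.Basis ι E F) (hβint : ∀ i, IsIntegral K[X] (β i))
    (hβspan : ∀ x : F, IsIntegral K[X] x → x ∈ Submodule.span K[X] (Set.range β))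
    (u : K) (τ : J → A) (hτ : ∀ i j, res (τ i) = res (τ j) → i = j) (e : J → ℕ)
    (hD : Algebra.discr E β = algebraMap K[X] E (C u * ∏ i, (X - C (τ i : K)) ^ e i))
    (hcount : ∀ s : J → Finset (Ideal (integralClosure k[X] κ)),
      (∀ i, ∀ Q ∈ s i, Q.IsMaximal ∧
        algebraMap k[X] (integralClosure k[X] κ) (X - C (res (τ i))) ∈ Q) →
      ∑ i, ((s i).card + e i) ≤ Fintype.card J * n)
    (z : κ) (hz : ((aeval (ρ ⟨t, ht⟩) : k[X] →ₐ[k] κ) : k[X] →+* κ).IsIntegralElem z) :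
    ∃ x : V, (((aeval t : K[X] →ₐ[K] F) : K[X] →+* F).comp
        (mapRingHom A.subtype)).IsIntegralElem (x : F) ∧ ρ x = z := by
  classical
  obtain ⟨h, hint, hfinE, hnE, hfinκ, hκ⟩ := smag_setup (E := E) (Kk := Kk) hres hresker hρ hρker
    hAV hρA t ht htr hX hXκ huniq hfin n c hc hn hind
  subst hκ
  have heq : algebraMap k[X] κ = ((aeval (ρ ⟨t, ht⟩) : k[X] →ₐ[k] κ) : k[X] →+* κ) :=
    RingHom.ext hXκ
  have hz' : IsIntegral k[X] z := by
    show (algebraMap k[X] κ).IsIntegralElem z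
    rw [heq]
    exact hz
  obtain ⟨x, hx, hxz⟩ := sma_main (E := E) (Kk := Kk) h hint hnE β hβint hβspan u τ hτ e hD
    hcount z hz'
  refine ⟨x, ?_, hxz⟩
  have heq' : algebraMap K[X] F = ((aeval t : K[X] →ₐ[K] F) : K[X] →+* F) := RingHom.ext hX
  have hx' : ((algebraMap K[X] F).comp (mapRingHom A.subtype)).IsIntegralElem (x : F) := hx
  rw [heq'] at hx'
  exact hx'

end SMAGMain

end Fermat.Agent.S18
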