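import Mathlib

/-!
# S18, SM-INST bookkeeping: the hypothesis `hcount` of `sma_basis` from a total count

`d0s_hcount`: if `e i + n i ≤ d`, `∑ n i = c`, the values `τb i` are pairwise distinct, and every
finite set of maximal ideals of the integral closure lying over the values `τb i` has at most `c`
elements, then `∑ i, ((s i).card + e i) ≤ card J * d` for every family `s` of finite sets of
maximal ideals with `s i` over `τb i`.
-/

set_option autoImplicit false

namespace Fermat.Agent.S18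

open Polynomial

theorem d0s_disjoint {k S : Type*} [Field k] [CommRing S] [Algebra k[X] S] {a b : k}
    (hab : a ≠ b) (Q : Ideal S) (hQ : Q ≠ ⊤) (ha : algebraMap k[X] S (X - C a) ∈ Q)
    (hb : algebraMap k[X] S (X - C b) ∈ Q) : False := by
  apply hQ
  rw [Ideal.eq_top_iff_one]
  have h1 : algebraMap k[X] S (C (b - a)) ∈ Q := by
    have h2 := Q.sub_mem ha hb
    rw [← map_sub] at h2
    have h3 : (X - C a : k[X]) - (X - C b) = C (b - a) := by
      rw [C_sub]; ring
    rwa [h3] at h2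
  have h4 : algebraMap k[X] S (C (b - a)⁻¹) * algebraMap k[X] S (C (b - a)) = 1 := by
    rw [← map_mul, ← C_mul, inv_mul_cancel₀ (sub_ne_zero.2 hab.symm), C_1, map_one]
  rw [← h4]
  exact Q.mul_mem_left _ h1

theorem d0s_hcount {k S : Type*} [Field k] [CommRing S] [Algebra k[X] S]
    {J : Type*} [Fintype J] [DecidableEq J] (d c : ℕ) (τb : J → k)
    (hτ : Function.Injective τb) (e n : J → ℕ) (hen : ∀ i, e i + n i ≤ d)
    (hn : ∑ i, n i = c)
    (htot : ∀ T : Finset (Ideal S),
      (∀ Q ∈ T, Q.IsMaximal ∧ ∃ i, algebraMap k[X] S (X - C (τb i)) ∈ Q) → T.card ≤ c)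
    (s : J → Finset (Ideal S))
    (hs : ∀ i, ∀ Q ∈ s i, Q.IsMaximal ∧ algebraMap k[X] S (X - C (τb i)) ∈ Q) :
    ∑ i, ((s i).card + e i) ≤ Fintype.card J * d := by
  classical
  have hdisj : ∀ i ∈ (Finset.univ : Finset J), ∀ j ∈ (Finset.univ : Finset J), i ≠ j →
      Disjoint (s i) (s j) := by
    intro i _ j _ hij
    rw [Finset.disjoint_left]
    intro Q hQi hQj
    exact d0s_disjoint (fun h => hij (hτ h)) Q (hs i Q hQi).1.ne_top (hs i Q hQi).2
      (hs j Q hQj).2
  have hcard : (Finset.univ.biUnion s).card = ∑ i, (s i).card := Finset.card_biUnion hdisj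
  have hle : (Finset.univ.biUnion s).card ≤ c := by
    apply htot
    intro Q hQ
    obtain ⟨i, -, hi⟩ := Finset.mem_biUnion.1 hQ
    exact ⟨(hs i Q hi).1, i, (hs i Q hi).2⟩
  calc ∑ i, ((s i).card + e i) = ∑ i, (s i).card + ∑ i, e i := Finset.sum_add_distrib
    _ ≤ ∑ i, n i + ∑ i, e i := by rw [← hcard, hn]; exact Nat.add_le_add_right hle _
    _ = ∑ i, (e i + n i) := by rw [← Finset.sum_add_distrib]; exact Finset.sum_congr rfl fun i _ => add_comm _ _
    _ ≤ ∑ _i : J, d := Finset.sum_le_sum fun i _ => hen i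
    _ = Fintype.card J * d := by rw [Finset.sum_const, Finset.card_univ, smul_eq_mul]

/-- The same bookkeeping for an arbitrary "lies over the `i`-th value" predicate `mem i Q`
(e.g. `∀ z : S, (z : Ω) = t̄ - τ̄ i → z ∈ Q`): only pairwise exclusivity is needed. -/
theorem d0s_hcount_gen {S : Type*} [CommRing S] {J : Type*} [Fintype J] [DecidableEq J]
    (d c : ℕ) (mem : J → Ideal S → Prop)
    (hexcl : ∀ i j, i ≠ j → ∀ Q : Ideal S, Q.IsMaximal → mem i Q → mem j Q → False)
    (e n : J → ℕ) (hen : ∀ i, e i + n i ≤ d) (hn : ∑ i, n i = c)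
    (htot : ∀ T : Finset (Ideal S), (∀ Q ∈ T, Q.IsMaximal ∧ ∃ i, mem i Q) → T.card ≤ c)
    (s : J → Finset (Ideal S)) (hs : ∀ i, ∀ Q ∈ s i, Q.IsMaximal ∧ mem i Q) :
    ∑ i, ((s i).card + e i) ≤ Fintype.card J * d := by
  classical
  have hdisj : ∀ i ∈ (Finset.univ : Finset J), ∀ j ∈ (Finset.univ : Finset J), i ≠ j →
      Disjoint (s i) (s j) := by
    intro i _ j _ hij
    rw [Finset.disjoint_left]
    intro Q hQi hQj
    exact hexcl i j hij Q (hs i Q hQi).1 (hs i Q hQi).2 (hs j Q hQj).2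
  have hcard : (Finset.univ.biUnion s).card = ∑ i, (s i).card := Finset.card_biUnion hdisj
  have hle : (Finset.univ.biUnion s).card ≤ c := by
    apply htot
    intro Q hQ
    obtain ⟨i, -, hi⟩ := Finset.mem_biUnion.1 hQ
    exact ⟨(hs i Q hi).1, i, (hs i Q hi).2⟩
  calc ∑ i, ((s i).card + e i) = ∑ i, (s i).card + ∑ i, e i := Finset.sum_add_distrib
    _ ≤ ∑ i, n i + ∑ i, e i := by rw [← hcard, hn]; exact Nat.add_le_add_right hle _
    _ = ∑ i, (e i + n i) := by
        rw [← Finset.sum_add_distrib]; exact Finset.sum_congr rfl fun i _ => add_comm _ _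
    _ ≤ ∑ _i : J, d := Finset.sum_le_sum fun i _ => hen i
    _ = Fintype.card J * d := by rw [Finset.sum_const, Finset.card_univ, smul_eq_mul]

/-- Exclusivity for elements differing by a unit: a proper ideal cannot contain both `x` and
`y` if `x - y` is a unit. -/
theorem d0s_excl_of_isUnit_sub {S : Type*} [CommRing S] {x y : S} (h : IsUnit (x - y))
    (Q : Ideal S) (hQ : Q ≠ ⊤) (hx : x ∈ Q) (hy : y ∈ Q) : False :=
  hQ (Ideal.eq_top_of_isUnit_mem Q (Q.sub_mem hx hy) h)

end Fermat.Agent.S18
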