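import Mathlib
import Fermat.Agent.S18.Disc0Count

/-!
# S18, package SMQ (part 1): abstract assembly lemmas for the cusp count and separability

Abstract forms (no modular objects) of the steps which turn the exports of the CUSPCOUNT
package into the hypotheses `hcount` and `hsep` of `smag_basis`:

* `smq_reg_abs`: the chart coordinate is regular at the cusps, hence so is every element
  integral over the polynomial ring in the chart coordinate;
* `smq_htot_abs`: a maximal ideal over a cusp value contains `Num(t)` and not `Den(t)`;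
* `smq_hcount_abs`: the inequality `hcount`;
* `smq_sep_abs`: separability, elementwise inside an ambient field.
-/

set_option autoImplicit false

noncomputable section

namespace Fermat.Agent.S18

open Polynomial

section Series

variable {k : Type*} [Field k]

theorem smq_coeff_algebraMap (c : k) (n : ℤ) :
    (algebraMap k (LaurentSeries k) c).coeff n = if n = 0 then c else 0 := by
  have h1 : algebraMap k (PowerSeries k) c = PowerSeries.C c := by simp
  rw [HahnSeries.algebraMap_apply', h1, HahnSeries.ofPowerSeries_C]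
  simp [HahnSeries.coeff_single]

theorem smq_coeff_mul_algebraMap (f : LaurentSeries k) (c : k) (n : ℤ) :
    (f * algebraMap k (LaurentSeries k) c).coeff n = f.coeff n * c := by
  have h1 : algebraMap k (PowerSeries k) c = PowerSeries.C c := by simp
  rw [HahnSeries.algebraMap_apply', h1, HahnSeries.ofPowerSeries_C]
  simp [HahnSeries.coeff_mul_single]

end Series

section Reg

variable {k κ : Type*} [Field k] [Field κ] [Algebra k κ] {Qi : Type*}
  (sig : Qi → κ →+* LaurentSeries k)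
  (hsc : ∀ q c, sig q (algebraMap k κ c) = algebraMap k (LaurentSeries k) c)
  (Reg : Subring κ)
  (hmem : ∀ y, y ∈ Reg ↔ ∀ q (n : ℤ), n < 0 → (sig q y).coeff n = 0)

include hsc hmem in
theorem smq_cst_mem_reg (c : k) : algebraMap k κ c ∈ Reg := by
  rw [hmem]
  intro q n hn
  rw [hsc, smq_coeff_algebraMap, if_neg hn.ne]

include hsc hmem in
theorem smq_aeval_mem_reg (tb : κ) (htb : tb ∈ Reg) (P : k[X]) : aeval tb P ∈ Reg := by
  rw [aeval_eq_sum_range]
  refine Reg.sum_mem fun i _ => ?_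
  rw [Algebra.smul_def]
  exact Reg.mul_mem (smq_cst_mem_reg sig hsc Reg hmem _) (Reg.pow_mem htb i)

include hsc hmem in
/-- The chart coordinate is regular at the cusps: `t̄` is a root of `x̄ · Den - Num`, whose
leading coefficient `x̄ · Den_n - Num_n` is a unit of the ring `Reg` of functions regular at the
cusps because `x̄` vanishes at the cusps and `Num_n ≠ 0`. -/
theorem smq_tb_mem_reg
    (hint : ∀ y : κ, IsIntegral Reg y → y ∈ Reg)
    (hinv : ∀ y, y ∈ Reg → (∀ q, (sig q y).coeff 0 ≠ 0) → y⁻¹ ∈ Reg)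
    (xb : κ) (hx : ∀ q (n : ℤ), n ≤ 0 → (sig q xb).coeff n = 0)
    (tb : κ) (Num Den : k[X]) (n : ℕ) (hNum : Num.natDegree ≤ n) (hDen : Den.natDegree ≤ n)
    (hlead : Num.coeff n ≠ 0) (hrel : aeval tb Den * xb = aeval tb Num) : tb ∈ Reg := by
  classical
  have hxReg : xb ∈ Reg := by
    rw [hmem]
    exact fun q m hm => hx q m hm.le
  have hcst := smq_cst_mem_reg sig hsc Reg hmem
  -- the polynomial over `Reg`
  let cR : k →+* Reg := (algebraMap k κ).codRestrict Reg hcst
  let xR : Reg := ⟨xb, hxReg⟩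
  let p : Reg[X] := C xR * Den.map cR - Num.map cR
  have hcoeff : ∀ i, ((p.coeff i : Reg) : κ) =
      xb * algebraMap k κ (Den.coeff i) - algebraMap k κ (Num.coeff i) := by
    intro i
    simp only [p, coeff_sub, coeff_C_mul, coeff_map]
    rfl
  have hp0 : aeval tb p = 0 := by
    have h1 : aeval tb p = xb * aeval tb Den - aeval tb Num := by
      simp only [p, map_sub, map_mul, aeval_C]
      have h2 : ∀ P : k[X], aeval tb (P.map cR) = aeval tb P := by
        intro P
        rw [aeval_def, eval₂_map, aeval_def]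
        rfl
      rw [h2, h2]
      rfl
    rw [h1, ← hrel, mul_comm, sub_self]
  -- the coefficient of degree `n` is a unit of `Reg`
  have hcn : ∀ q, (sig q ((p.coeff n : Reg) : κ)).coeff 0 ≠ 0 := by
    intro q
    rw [hcoeff, map_sub, map_mul, hsc, hsc, HahnSeries.coeff_sub, smq_coeff_mul_algebraMap,
      hx q 0 le_rfl, zero_mul, zero_sub, smq_coeff_algebraMap, if_pos rfl]
    exact neg_ne_zero.mpr hlead
  obtain hQ | ⟨⟨q0⟩⟩ := isEmpty_or_nonempty Qi
  · exact (hmem tb).mpr fun q => (hQ.false q).elim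
  have hcn0 : p.coeff n ≠ 0 := by
    intro h0
    exact hcn q0 (by rw [h0]; simp)
  have hdeg : p.natDegree = n := by
    refine le_antisymm ?_ (le_natDegree_of_ne_zero hcn0)
    refine (natDegree_sub_le _ _).trans (max_le ?_ ?_)
    · exact (natDegree_C_mul_le _ _).trans ((natDegree_map_le).trans hDen)
    · exact (natDegree_map_le).trans hNum
  have hlc : p.leadingCoeff = p.coeff n := by rw [leadingCoeff, hdeg]
  have hinvmem : ((p.coeff n : Reg) : κ)⁻¹ ∈ Reg := hinv _ (p.coeff n).2 hcn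
  have h1 : IsIntegral Reg (p.leadingCoeff • tb) := isIntegral_leadingCoeff_smul p tb hp0
  have h2 : IsIntegral Reg (algebraMap Reg κ ⟨((p.coeff n : Reg) : κ)⁻¹, hinvmem⟩) :=
    isIntegral_algebraMap
  have h3 := h2.mul h1
  have h4 : algebraMap Reg κ ⟨((p.coeff n : Reg) : κ)⁻¹, hinvmem⟩ * (p.leadingCoeff • tb) =
      tb := by
    rw [hlc]
    show ((p.coeff n : Reg) : κ)⁻¹ * (((p.coeff n : Reg) : κ) * tb) = tb
    rw [← mul_assoc, inv_mul_cancel₀, one_mul]
    intro h0
    exact hcn0 (Subtype.ext h0)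
  rw [h4] at h3
  exact hint tb h3

include hsc hmem in
/-- Every element integral over the polynomial ring in a regular coordinate is regular. -/
theorem smq_int_mem_reg (hint : ∀ y : κ, IsIntegral Reg y → y ∈ Reg) (tb : κ) (htb : tb ∈ Reg)
    (z : κ) (hz : ((aeval tb : k[X] →ₐ[k] κ) : k[X] →+* κ).IsIntegralElem z) : z ∈ Reg := by
  obtain ⟨p, hp, hpz⟩ := hz
  let φ : k[X] →+* Reg := ((aeval tb : k[X] →ₐ[k] κ) : k[X] →+* κ).codRestrict Reg
    (fun P => smq_aeval_mem_reg sig hsc Reg hmem tb htb P)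
  refine hint z ⟨p.map φ, hp.map φ, ?_⟩
  rw [eval₂_map]
  exact hpz

end Reg

section Count

variable {k κ S : Type*} [Field k] [Field κ] [Algebra k κ] [CommRing S]
  (f : S →+* κ) (hf : Function.Injective f) (tb xb : κ)
  (hpoly : ∀ P : k[X], ∃ z : S, f z = aeval tb P)
  (Num Den : k[X]) (hrel : aeval tb Den * xb = aeval tb Num)

include hf hpoly hrel in
/-- A maximal ideal over a cusp value `τ` (`Num(τ) = 0`, `Den(τ) ≠ 0`) contains `Num(t̄)` and
does not contain `Den(t̄)`. -/
theorem smq_exists_ab (τ : k) (hNum : Num.eval τ = 0) (hDen : Den.eval τ ≠ 0) (Q : Ideal S)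
    (hQ : Q.IsMaximal) (hmemQ : ∀ z : S, f z = tb - algebraMap k κ τ → z ∈ Q) :
    ∃ a ∈ Q, ∃ b, b ∉ Q ∧ f b * xb = f a := by
  obtain ⟨zt, hzt⟩ := hpoly (X - C τ)
  have hzt' : f zt = tb - algebraMap k κ τ := by
    rw [hzt, map_sub, aeval_X, aeval_C]
  have hztQ := hmemQ zt hzt'
  obtain ⟨a, ha⟩ := hpoly Num
  obtain ⟨b, hb⟩ := hpoly Den
  obtain ⟨N1, hN1⟩ := dvd_iff_isRoot.mpr hNum
  obtain ⟨n1, hn1⟩ := hpoly N1
  have ha' : a = zt * n1 := hf (by rw [ha, map_mul, hzt, hn1, ← map_mul, ← hN1])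
  obtain ⟨D1, hD1⟩ := X_sub_C_dvd_sub_C_eval (a := τ) (p := Den)
  obtain ⟨d1, hd1⟩ := hpoly D1
  obtain ⟨u, hu⟩ := hpoly (C (Den.eval τ))
  obtain ⟨u', hu'⟩ := hpoly (C (Den.eval τ)⁻¹)
  have hb' : b = zt * d1 + u := by
    apply hf
    rw [hb, map_add, map_mul, hzt, hd1, hu, ← map_mul, ← map_add, ← hD1]
    congr 1
    ring
  have huu : u * u' = 1 := by
    apply hf
    rw [map_mul, hu, hu', ← map_mul, ← C_mul, mul_inv_cancel₀ hDen, C_1, map_one, map_one]
  refine ⟨a, ?_, b, fun hbQ => ?_, by rw [hb, ha, hrel]⟩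
  · rw [ha']
    exact Q.mul_mem_right _ hztQ
  · have huQ : u ∈ Q := by
      have h1 : u = b - zt * d1 := by rw [hb']; ring
      rw [h1]
      exact Q.sub_mem hbQ (Q.mul_mem_right _ hztQ)
    apply hQ.ne_top
    rw [Ideal.eq_top_iff_one, ← huu]
    exact Q.mul_mem_right _ huQ

include hf hpoly hrel in
/-- **The hypothesis `hcount` of `smag_basis` / `sma_basis`, abstractly.**  `τb` are the
(pairwise distinct) cusp values of the chart coordinate, `Num(τb i) = 0`, `Den(τb i) ≠ 0`,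
`Den(t̄) · x̄ = Num(t̄)`; `hcard` is the total cusp count (`cc_card_le`); `(e, n)` come from the
characteristic-zero discriminant. -/
theorem smq_hcount_abs {J : Type*} [Fintype J] [DecidableEq J] (τb : J → k)
    (hτ : Function.Injective τb) (hNum : ∀ i, Num.eval (τb i) = 0)
    (hDen : ∀ i, Den.eval (τb i) ≠ 0) (c : ℕ)
    (hcard : ∀ s : Finset (Ideal S),
      (∀ Q ∈ s, Q.IsMaximal ∧ ∃ a ∈ Q, ∃ b, b ∉ Q ∧ f b * xb = f a) → s.card ≤ c)
    (d : ℕ) (e n : J → ℕ) (hen : ∀ i, e i + n i ≤ d) (hn : ∑ i, n i = c)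
    (s : J → Finset (Ideal S))
    (hs : ∀ i, ∀ Q ∈ s i, Q.IsMaximal ∧
      ∀ z : S, f z = tb - algebraMap k κ (τb i) → z ∈ Q) :
    ∑ i, ((s i).card + e i) ≤ Fintype.card J * d := by
  refine d0s_hcount_gen d c (fun i Q => ∀ z : S, f z = tb - algebraMap k κ (τb i) → z ∈ Q)
    ?_ e n hen hn ?_ s hs
  · intro i j hij Q hQ hi hj
    obtain ⟨zi, hzi⟩ := hpoly (X - C (τb i))
    obtain ⟨zj, hzj⟩ := hpoly (X - C (τb j))
    have hziQ := hi zi (by rw [hzi, map_sub, aeval_X, aeval_C])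
    have hzjQ := hj zj (by rw [hzj, map_sub, aeval_X, aeval_C])
    obtain ⟨u, hu⟩ := hpoly (C (τb j - τb i))
    obtain ⟨u', hu'⟩ := hpoly (C (τb j - τb i)⁻¹)
    have h1 : zi - zj = u := by
      apply hf
      rw [map_sub, hzi, hzj, hu, ← map_sub]
      congr 1
      rw [C_sub]
      ring
    have hne : τb j - τb i ≠ 0 := sub_ne_zero.mpr fun h => hij (hτ h.symm)
    have huu : u * u' = 1 := by
      apply hf
      rw [map_mul, hu, hu', ← map_mul, ← C_mul, mul_inv_cancel₀ hne, C_1, map_one, map_one]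
    apply hQ.ne_top
    rw [Ideal.eq_top_iff_one, ← huu, ← h1]
    exact Q.mul_mem_right _ (Q.sub_mem hziQ hzjQ)
  · intro T hT
    refine hcard T fun Q hQ => ⟨(hT Q hQ).1, ?_⟩
    obtain ⟨i, hi⟩ := (hT Q hQ).2
    exact smq_exists_ab f hf tb xb hpoly Num Den hrel (τb i) (hNum i) (hDen i) Q (hT Q hQ).1 hi

end Count

section Sep

open scoped IntermediateField

variable {k Ω : Type*} [Field k] [Field Ω] [Algebra k Ω]

/-- The inclusion `k(t̄) → κ` as an algebra structure (to be installed with `letI`). -/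
@[reducible] def smqAdjAlg (κ : IntermediateField k Ω) (tb : Ω) (htb : tb ∈ κ) :
    Algebra ↥k⟮tb⟯ ↥κ :=
  (IntermediateField.inclusion (IntermediateField.adjoin_simple_le_iff.mpr htb)).toRingHom.toAlgebra

/-- Separability of `κ / k(t̄)` read elementwise in the ambient field. -/
theorem smq_sep_abs (κ : IntermediateField k Ω) (tb : Ω) (htb : tb ∈ κ)
    (hsep : letI := smqAdjAlg κ tb htb; Algebra.IsSeparable ↥k⟮tb⟯ ↥κ) (y : Ω) (hy : y ∈ κ) :
    IsSeparable ↥k⟮tb⟯ y := by
  let _ := smqAdjAlg κ tb htb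
  have : IsScalarTower ↥k⟮tb⟯ ↥κ Ω := IsScalarTower.of_algebraMap_eq fun x => rfl
  have h := Algebra.IsSeparable.isSeparable ↥k⟮tb⟯ (⟨y, hy⟩ : ↥κ)
  have h2 := minpoly.algebraMap_eq (A := ↥k⟮tb⟯) (algebraMap ↥κ Ω).injective (⟨y, hy⟩ : ↥κ)
  unfold IsSeparable at h ⊢
  rw [← h2] at h
  exact h

/-- `x̄ = Num(t̄) / Den(t̄) ∈ k(t̄)`. -/
theorem smq_xb_mem_adjoin (tb xb : Ω) (Num Den : k[X]) (hDen : aeval tb Den ≠ 0)
    (hrel : aeval tb Den * xb = aeval tb Num) : xb ∈ k⟮tb⟯ := by
  rw [IntermediateField.mem_adjoin_simple_iff]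
  exact ⟨Num, Den, by rw [← hrel, mul_div_cancel_left₀ _ hDen]⟩

end Sep


end Fermat.Agent.S18
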