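import Mathlib
import Fermat.Agent.S18.SMQAbs
import Fermat.Agent.S18.SMAbsGauss
import Fermat.Agent.S18.SMInstDefs
import Fermat.Agent.S18.GaussChart
import Fermat.Agent.S18.Char0Ram
import Fermat.Agent.S18.HauptCusp3
import Fermat.Agent.S18.IfaceRed

/-!
# S18, package SMQ (part 3): the semistable model of a Hauptmodul chart over `ℚ̄`, from the
cusp-count data

`smq_main_of_cc`: for the chart coordinate `t = (h - c1) / (h - c0)` of a Hauptmodul record at level
`N'` (`ℓ ∤ N'`), base points `c0, c1 ∈ A` with `c0 - c1` a unit and `c0` non-cuspidal modulo the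
maximal ideal, there are `ψ(N') / ψ(a2)` elements of the Gauss valuation ring, integral over
`A[t]`, whose residues are `k[t̄]`-independent and span every residue integral over `k[t̄]`.

It is `smag_basis_emb` (the abstract semistable-model theorem) applied with
* the Gauss-ring inputs of `GaussChart` (`gch_*`),
* the characteristic-zero discriminant of `Char0Ram` (`c0r_main`),
* the cusp values of `HauptCusp` / `HauptCusp3`,
* the cusp count and the separability of the residue field, taken here as explicit hypotheses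
  in the shapes exported by the cusp-count package (`sig`, `Reg`, `hcard`, `hsepX`),
the arithmetic of the count being `smq_hcount_abs` of `SMQAbs`.

Names are prefixed `smq_`.
-/

set_option autoImplicit false
set_option linter.style.haveILetI false
set_option linter.unusedSectionVars false

noncomputable section

open ModularCurve Polynomial
open scoped IntermediateField

namespace Fermat.Agent.S18

open Fermat.Agent.S28

local notation "Qb" => AlgebraicClosure ℚ

/-! ### Abstract adapters -/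

section Adapters

variable {k κ : Type*} [Field k] [Field κ] [Algebra k κ]

/-- The count of `smq_hcount_abs` on the integral closure of `k[X]` in `κ` (`X ↦ t̄`), with the
fibres cut out by `X - τ̄ᵢ`. -/
theorem smq_hcount_closure [Algebra k[X] κ] (tb xb : κ)
    (hXκ : ∀ P : k[X], algebraMap k[X] κ P = aeval tb P)
    (Num Den : k[X]) (hrel : aeval tb Den * xb = aeval tb Num)
    {J : Type*} [Fintype J] [DecidableEq J] (τb : J → k) (hτ : Function.Injective τb)
    (hNum : ∀ i, Num.eval (τb i) = 0) (hDen : ∀ i, Den.eval (τb i) ≠ 0) (c : ℕ)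
    (hcard : ∀ s : Finset (Ideal ↥(integralClosure k[X] κ)),
      (∀ Q ∈ s, Q.IsMaximal ∧ ∃ a ∈ Q, ∃ b, b ∉ Q ∧
        algebraMap ↥(integralClosure k[X] κ) κ b * xb =
          algebraMap ↥(integralClosure k[X] κ) κ a) → s.card ≤ c)
    (d : ℕ) (e m : J → ℕ) (hen : ∀ i, e i + m i ≤ d) (hm : ∑ i, m i = c)
    (s : J → Finset (Ideal ↥(integralClosure k[X] κ)))
    (hs : ∀ i, ∀ Q ∈ s i, Q.IsMaximal ∧
      algebraMap k[X] ↥(integralClosure k[X] κ) (X - C (τb i)) ∈ Q) :
    ∑ i, ((s i).card + e i) ≤ Fintype.card J * d := by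
  have hf : Function.Injective (algebraMap ↥(integralClosure k[X] κ) κ) :=
    Subtype.val_injective
  have hpoly : ∀ P : k[X], ∃ z : ↥(integralClosure k[X] κ),
      algebraMap ↥(integralClosure k[X] κ) κ z = aeval tb P := by
    intro P
    refine ⟨algebraMap k[X] ↥(integralClosure k[X] κ) P, ?_⟩
    rw [← hXκ]
    rfl
  refine smq_hcount_abs (algebraMap ↥(integralClosure k[X] κ) κ) hf tb xb hpoly Num Den hrel τb hτ
    hNum hDen c hcard d e m hen hm s ?_
  intro i Q hQ
  refine ⟨(hs i Q hQ).1, fun z hz => ?_⟩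
  have h1 : z = algebraMap k[X] ↥(integralClosure k[X] κ) (X - C (τb i)) := by
    apply hf
    rw [hz]
    have h2 : algebraMap ↥(integralClosure k[X] κ) κ
        (algebraMap k[X] ↥(integralClosure k[X] κ) (X - C (τb i))) =
        algebraMap k[X] κ (X - C (τb i)) := rfl
    rw [h2, hXκ, map_sub, aeval_X, aeval_C]
  rw [h1]
  exact (hs i Q hQ).2

/-- `xb = Num(t̄) / Den(t̄)` lies in the image of `k(t̄)`. -/
theorem smq_range_of_rel {Kk : Type*} [Field Kk] [Algebra k[X] Kk] [Algebra Kk κ] (tb xb : κ)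
    (hXK : ∀ P : k[X], algebraMap Kk κ (algebraMap k[X] Kk P) = aeval tb P)
    (Num Den : k[X]) (hDen : aeval tb Den ≠ 0) (hrel : aeval tb Den * xb = aeval tb Num) :
    xb ∈ (algebraMap Kk κ).range := by
  refine ⟨algebraMap k[X] Kk Num / algebraMap k[X] Kk Den, ?_⟩
  rw [map_div₀, hXK, hXK, ← hrel, mul_div_assoc, mul_comm, div_mul_cancel₀ _ hDen]

/-- constants lie in the image of `k(t̄)`. -/
theorem smq_cst_range {Kk : Type*} [Field Kk] [Algebra k[X] Kk] [Algebra Kk κ] (tb : κ)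
    (hXK : ∀ P : k[X], algebraMap Kk κ (algebraMap k[X] Kk P) = aeval tb P) (c : k) :
    algebraMap k κ c ∈ (algebraMap Kk κ).range :=
  ⟨algebraMap k[X] Kk (C c), by rw [hXK, aeval_C]⟩

end Adapters

/-! ### The inverse of `j` in the Gauss valuation ring -/

section JInv

variable (N' : ℕ) [NeZero N'] {ℓ : ℕ} [Fact ℓ.Prime] (hℓN' : ¬ ℓ ∣ N')
  (A : ValuationSubring Qb) (hA : A.LiesOverPrime ℓ)

theorem smq_grRho_jd_ne_zero : grRho A ⟨jd Qb 1, gr_jd_mem A 1⟩ ≠ 0 := by
  rw [grRho_jd]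
  exact hcu_jd_ne_zero

/-- `1/j` lies in the Gauss valuation ring. -/
theorem smq_jinv_mem : (Fermat.Agent.S24.jBar N')⁻¹ ∈ grO A hA N' hℓN' := by
  rw [mem_grO_iff]
  show ((Fermat.Agent.S24.jBar N' : ↥(modularFunctionFieldBar N')) : LaurentSeries Qb)⁻¹ ∈ grV A
  rw [Fermat.Agent.S24.dg_coe_jBar, ← jd_one]
  exact gr_inv_mem A ⟨jd Qb 1, gr_jd_mem A 1⟩ (smq_grRho_jd_ne_zero A)

/-- the residue of `1/j` is `1/j`. -/
theorem smq_jinv_res (h : (Fermat.Agent.S24.jBar N')⁻¹ ∈ grO A hA N' hℓN') :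
    grRes A hA N' hℓN' ⟨_, h⟩ = (jd (IsLocalRing.ResidueField A) 1)⁻¹ := by
  have h1 := grRho_inv A ⟨jd Qb 1, gr_jd_mem A 1⟩ (smq_grRho_jd_ne_zero A)
  rw [grRho_jd] at h1
  rw [← h1, grRes_apply]
  congr 1
  apply Subtype.ext
  show ((Fermat.Agent.S24.jBar N' : ↥(modularFunctionFieldBar N')) : LaurentSeries Qb)⁻¹ =
    (jd Qb 1)⁻¹
  rw [Fermat.Agent.S24.dg_coe_jBar, jd_one]

variable {a2 : ℕ} (H : HauptRec a2 ℓ)

/-- the chart relation `Den(t̄) · (1/j) = Num(t̄)` in the residue field. -/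
theorem smq_rel_res {c0 c1 : Qb} (hc0 : c0 ∈ A) (hc1 : c1 ∈ A)
    (t : ↥(modularFunctionFieldBar N')) (ht : (t : LaurentSeries Qb) = cinstU H Qb c0 c1)
    (htV : t ∈ grO A hA N' hℓN') (hj : (Fermat.Agent.S24.jBar N')⁻¹ ∈ grO A hA N' hℓN') :
    aeval (smiRho A hA N' hℓN' ⟨t, htV⟩)
        (hcuDen H (IsLocalRing.ResidueField A) (IsLocalRing.residue A ⟨c0, hc0⟩)
          (IsLocalRing.residue A ⟨c1, hc1⟩)) * smiRho A hA N' hℓN' ⟨_, hj⟩ =
      aeval (smiRho A hA N' hℓN' ⟨t, htV⟩)
        (hcuNum H (IsLocalRing.ResidueField A) (IsLocalRing.residue A ⟨c0, hc0⟩)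
          (IsLocalRing.residue A ⟨c1, hc1⟩)) := by
  apply smiVal_injective A N'
  rw [map_mul, ← Polynomial.aeval_algHom_apply, ← Polynomial.aeval_algHom_apply, smiVal_smiRho,
    smiVal_smiRho, gch_grRes A hA N' hℓN' H hc0 hc1 t ht htV, smq_jinv_res]
  exact hcu_rel_inv' H _ _

end JInv

/-! ### The main theorem, from the cusp-count data -/

section Main

/-- **The semistable model of a Hauptmodul chart over `ℚ̄`, from the cusp-count data.**
`sig` are the reduced cusp expansions of the residue field, `Reg` the ring of elements regular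
at all cusps, `xb` the residue of `1/j`, `hcard` the bound of the number of maximal ideals over
the cusps by `cuspCount N'`, `hsepX` the separability criterion. -/
theorem smq_main_of_cc (N' : ℕ) [NeZero N'] {ℓ : ℕ} [Fact ℓ.Prime] (hℓN' : ¬ ℓ ∣ N') {a2 : ℕ}
    (H : HauptRec a2 ℓ) (ha2 : a2 ∣ N') (A : ValuationSubring Qb) (hA : A.LiesOverPrime ℓ)
    (c0 c1 : Qb) (hc0 : c0 ∈ A) (hc1 : c1 ∈ A) (h01 : (c0 - c1)⁻¹ ∈ A) (hc : c0 ≠ c1)
    (hq0 : (Polynomial.aeval c0 H.Qrad)⁻¹ ∈ A) (hq0' : Polynomial.aeval c0 H.Qrad ≠ 0)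
    (t : ↥(modularFunctionFieldBar N')) (ht : (t : LaurentSeries Qb) = cinstU H Qb c0 c1)
    {Qi : Type*} (sig : Qi → SmiKappa A N' →+* LaurentSeries (IsLocalRing.ResidueField A))
    (hsc : ∀ q (c : IsLocalRing.ResidueField A),
      sig q (algebraMap (IsLocalRing.ResidueField A) (SmiKappa A N') c) =
        algebraMap (IsLocalRing.ResidueField A) (LaurentSeries (IsLocalRing.ResidueField A)) c)
    (Reg : Subring (SmiKappa A N'))
    (hmem : ∀ y, y ∈ Reg ↔ ∀ q (n : ℤ), n < 0 → (sig q y).coeff n = 0)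
    (hint : ∀ y : SmiKappa A N', IsIntegral Reg y → y ∈ Reg)
    (hinv : ∀ y, y ∈ Reg → (∀ q, (sig q y).coeff 0 ≠ 0) → y⁻¹ ∈ Reg)
    (xb : SmiKappa A N')
    (hxb : xb = smiRho A hA N' hℓN' ⟨_, smq_jinv_mem N' hℓN' A hA⟩)
    (hx : ∀ q (n : ℤ), n ≤ 0 → (sig q xb).coeff n = 0)
    (hcard : ∀ (S : Type) [CommRing S] (f : S →+* SmiKappa A N'), Function.Injective f →
      (∀ z, f z ∈ Reg) → ∀ s : Finset (Ideal S),
        (∀ Q ∈ s, Q.IsMaximal ∧ ∃ a ∈ Q, ∃ b, b ∉ Q ∧ f b * xb = f a) →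
        s.card ≤ cuspCount N')
    (hsepX : ∀ (Kk : Type) [Field Kk] [Algebra Kk (SmiKappa A N')],
      xb ∈ (algebraMap Kk (SmiKappa A N')).range →
      (∀ c : IsLocalRing.ResidueField A,
        algebraMap (IsLocalRing.ResidueField A) (SmiKappa A N') c ∈
          (algebraMap Kk (SmiKappa A N')).range) →
      Algebra.IsSeparable Kk (SmiKappa A N')) :
    ∃ (htV : t ∈ grO A hA N' hℓN')
      (b : Fin (psi N' / psi a2) → ↥(modularFunctionFieldBar N'))
      (hb : ∀ i, b i ∈ grO A hA N' hℓN'),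
      (∀ i, (((Polynomial.aeval t : Qb[X] →ₐ[Qb] ↥(modularFunctionFieldBar N')) :
          Qb[X] →+* ↥(modularFunctionFieldBar N')).comp
            (Polynomial.mapRingHom A.subtype)).IsIntegralElem (b i)) ∧
      (∀ g : Fin (psi N' / psi a2) → (IsLocalRing.ResidueField A)[X],
        ∑ i, Polynomial.aeval (grRes A hA N' hℓN' ⟨t, htV⟩) (g i) *
          grRes A hA N' hℓN' ⟨b i, hb i⟩ = 0 → ∀ i, g i = 0) ∧
      (∀ y : ↥(grO A hA N' hℓN'),
        ((Polynomial.aeval (grRes A hA N' hℓN' ⟨t, htV⟩) :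
          (IsLocalRing.ResidueField A)[X] →ₐ[IsLocalRing.ResidueField A]
            LaurentSeries (IsLocalRing.ResidueField A)) :
          (IsLocalRing.ResidueField A)[X] →+*
            LaurentSeries (IsLocalRing.ResidueField A)).IsIntegralElem
              (grRes A hA N' hℓN' y) →
        ∃ g : Fin (psi N' / psi a2) → (IsLocalRing.ResidueField A)[X],
          grRes A hA N' hℓN' y = ∑ i, Polynomial.aeval (grRes A hA N' hℓN' ⟨t, htV⟩) (g i) *
            grRes A hA N' hℓN' ⟨b i, hb i⟩) := by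
  -- the base points
  have h0 : hcuGood H A c0 := hcuGood_of_inv_mem H A hc0 hq0' hq0
  have hv01 : A.valuation (c0 - c1) = 1 := hcu_val_sub_of_inv_mem A hc0 hc1 hc h01
  have htV : t ∈ grO A hA N' hℓN' := gch_mem A hA N' hℓN' H hc0 hc1 t ht
  refine ⟨htV, ?_⟩
  have hkcl : IsAlgClosed (IsLocalRing.ResidueField A) := ifr_residue_isAlgClosed A
  -- transcendence of the coordinate and of its residue
  have htrR : Transcendental (IsLocalRing.ResidueField A) (grRes A hA N' hℓN' ⟨t, htV⟩) :=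
    gch_transcendental A hA N' hℓN' H hc0 hc1 hc h01 t ht htV
  have htrκ : Transcendental (IsLocalRing.ResidueField A) (smiRho A hA N' hℓN' ⟨t, htV⟩) := by
    intro halg
    exact htrR (halg.algHom (smiVal A N'))
  have htrK : Transcendental Qb t := by
    intro halg
    have h1 := cinstU_transcendental H Qb c0 c1 hc
    rw [← ht] at h1
    exact h1 (halg.algHom (modularFunctionFieldBar N').val)
  -- the `K[X]`- and `k[X]`-structures (`X ↦ t`, `X ↦ t̄`)
  letI iPF : Algebra Qb[X] ↥(modularFunctionFieldBar N') := smiPolyAlgebra Qb t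
  letI iEF : Algebra (FractionRing Qb[X]) ↥(modularFunctionFieldBar N') :=
    smiFracAlgebra Qb t htrK
  letI iPκ : Algebra (IsLocalRing.ResidueField A)[X] (SmiKappa A N') :=
    smiPolyAlgebra (IsLocalRing.ResidueField A) (smiRho A hA N' hℓN' ⟨t, htV⟩)
  letI iKκ : Algebra (FractionRing (IsLocalRing.ResidueField A)[X]) (SmiKappa A N') :=
    smiFracAlgebra (IsLocalRing.ResidueField A) (smiRho A hA N' hℓN' ⟨t, htV⟩) htrκ
  haveI iT1 : IsScalarTower Qb[X] (FractionRing Qb[X]) ↥(modularFunctionFieldBar N') :=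
    smi_isScalarTower Qb t htrK
  haveI iT2 : IsScalarTower (IsLocalRing.ResidueField A)[X]
      (FractionRing (IsLocalRing.ResidueField A)[X]) (SmiKappa A N') :=
    smi_isScalarTower (IsLocalRing.ResidueField A) (smiRho A hA N' hℓN' ⟨t, htV⟩) htrκ
  have hX : ∀ P : Qb[X], algebraMap Qb[X] ↥(modularFunctionFieldBar N') P = aeval t P :=
    fun P => rfl
  have hXκ : ∀ P : (IsLocalRing.ResidueField A)[X],
      algebraMap (IsLocalRing.ResidueField A)[X] (SmiKappa A N') P =
        aeval (smiRho A hA N' hℓN' ⟨t, htV⟩) P := fun P => rfl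
  have hXK : ∀ P : (IsLocalRing.ResidueField A)[X],
      algebraMap (FractionRing (IsLocalRing.ResidueField A)[X]) (SmiKappa A N')
        (algebraMap (IsLocalRing.ResidueField A)[X]
          (FractionRing (IsLocalRing.ResidueField A)[X]) P) =
        aeval (smiRho A hA N' hℓN' ⟨t, htV⟩) P :=
    smi_fracAlgebra_algebraMap (IsLocalRing.ResidueField A) _ htrκ
  -- the characteristic-zero discriminant
  obtain ⟨β, u, e, m, hβint, hβspan, -, hem, hm, hD⟩ :=
    c0r_main N' H (E := FractionRing Qb[X]) ha2 c0 c1 hc hq0' t ht hX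
  -- the orthonormal basis
  obtain ⟨cb, hcb, hfd, -, hind, -⟩ := gch_hind A hA N' hℓN' H hc0 hc1 hc h01 t ht htV
  have hn : Module.finrank ↥Qb⟮t⟯ ↥(modularFunctionFieldBar N') = psi N' / psi a2 :=
    gch_finrank A hA N' hℓN' H hc t ht
  have hnE : Module.finrank (FractionRing Qb[X]) ↥(modularFunctionFieldBar N') =
      psi N' / psi a2 := by
    rw [← d0_finrank (E := FractionRing Qb[X]) t hX]
    exact hn
  -- the cusp-count package on the residue field
  have hρ : Function.Surjective (smiRho A hA N' hℓN') := smiRho_surjective A hA N' hℓN'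
  have hj := smq_jinv_mem N' hℓN' A hA
  have hrel : aeval (smiRho A hA N' hℓN' ⟨t, htV⟩)
        (hcuDen H (IsLocalRing.ResidueField A) (IsLocalRing.residue A ⟨c0, hc0⟩)
          (IsLocalRing.residue A ⟨c1, hc1⟩)) * xb =
      aeval (smiRho A hA N' hℓN' ⟨t, htV⟩)
        (hcuNum H (IsLocalRing.ResidueField A) (IsLocalRing.residue A ⟨c0, hc0⟩)
          (IsLocalRing.residue A ⟨c1, hc1⟩)) := by
    rw [hxb]
    exact smq_rel_res N' hℓN' A hA H hc0 hc1 t ht htV hj
  have htbReg : smiRho A hA N' hℓN' ⟨t, htV⟩ ∈ Reg :=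
    smq_tb_mem_reg sig hsc Reg hmem hint hinv xb hx
      (smiRho A hA N' hℓN' ⟨t, htV⟩) _ _ (psi a2) (hcuNum_natDegree_le H _ _)
      (hcuDen_natDegree_le H _ _) (hcu_residue_num_coeff_ne_zero H A ⟨c0, hc0⟩ ⟨c1, hc1⟩ h0) hrel
  have hDenne : aeval (smiRho A hA N' hℓN' ⟨t, htV⟩)
      (hcuDen H (IsLocalRing.ResidueField A) (IsLocalRing.residue A ⟨c0, hc0⟩)
        (IsLocalRing.residue A ⟨c1, hc1⟩)) ≠ 0 := by
    intro h
    have h1 := transcendental_iff.mp htrκ _ h
    have h2 := hcuTauRes_den H A hA ⟨c0, hc0⟩ ⟨c1, hc1⟩ h0 hv01 none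
    rw [h1, eval_zero] at h2
    exact h2 rfl
  -- separability of the residue field over `k(t̄)`
  haveI hsep : Algebra.IsSeparable (FractionRing (IsLocalRing.ResidueField A)[X])
      (SmiKappa A N') :=
    hsepX (FractionRing (IsLocalRing.ResidueField A)[X])
      (smq_range_of_rel _ _ hXK _ _ hDenne hrel) (fun c => smq_cst_range _ hXK c)
  -- the count
  have hcount : ∀ s : Option (hcuRoots H Qb) →
      Finset (Ideal ↥(integralClosure (IsLocalRing.ResidueField A)[X] (SmiKappa A N'))),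
      (∀ i, ∀ Q ∈ s i, Q.IsMaximal ∧
        algebraMap (IsLocalRing.ResidueField A)[X]
          ↥(integralClosure (IsLocalRing.ResidueField A)[X] (SmiKappa A N'))
          (X - C (IsLocalRing.residue A (hcuTauA H A ⟨c0, hc0⟩ ⟨c1, hc1⟩ h0 i))) ∈ Q) →
      ∑ i, ((s i).card + e i) ≤
        Fintype.card (Option (hcuRoots H Qb)) * (psi N' / psi a2) := by
    intro s hs
    refine smq_hcount_closure (smiRho A hA N' hℓN' ⟨t, htV⟩) xb hXκ _ _ hrel
      (hcuTauRes H A ⟨c0, hc0⟩ ⟨c1, hc1⟩ h0)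
      (hcuTauRes_injective H A hA _ _ h0 hv01) (hcuTauRes_num H A hA _ _ h0 hv01)
      (hcuTauRes_den H A hA _ _ h0 hv01) (cuspCount N') ?_ (psi N' / psi a2) e m
      (fun o => hnE ▸ hem o) hm s hs
    intro S hS
    refine hcard ↥(integralClosure (IsLocalRing.ResidueField A)[X] (SmiKappa A N'))
      (algebraMap ↥(integralClosure (IsLocalRing.ResidueField A)[X] (SmiKappa A N'))
        (SmiKappa A N')) Subtype.val_injective ?_ S hS
    intro z
    exact smq_int_mem_reg sig hsc Reg hmem hint (smiRho A hA N' hℓN' ⟨t, htV⟩) htbReg _ z.2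
  -- the abstract semistable-model theorem
  have hAV : ∀ a : A, algebraMap Qb ↥(modularFunctionFieldBar N') (a : Qb) ∈ grO A hA N' hℓN' :=
    fun a => (mem_grO_iff A hA N' hℓN' _).mpr (gr_algebraMap_mem A a)
  exact smag_basis_emb (E := FractionRing Qb[X])
    (Kk := FractionRing (IsLocalRing.ResidueField A)[X]) (smiVal A N') (grRes A hA N' hℓN')
    (fun x => rfl) IsLocalRing.residue_surjective
    (fun a ha => by
      obtain ⟨h1, h2⟩ := ValuationSubring.mem_nonunits_iff_exists_mem_maximalIdeal.mp ha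
      exact (IsLocalRing.residue_eq_zero_iff _).mpr h2)
    hρ (fun x hx => (smiRho_eq_zero_iff A hA N' hℓN' x).mpr hx)
    hAV (fun a => smiRho_algebraMap A hA N' hℓN' a (hAV a))
    t htV htrκ hX hXκ (gch_unique A hA N' hℓN' H hc t ht) hfd (psi N' / psi a2) cb hcb hn hind
    β hβint hβspan u (hcuTauA H A ⟨c0, hc0⟩ ⟨c1, hc1⟩ h0)
    (fun i j h => hcuTauRes_injective H A hA _ _ h0 hv01 h) e hD hcount

end Main

end Fermat.Agent.S18
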