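import Mathlib
import Fermat.Agent.S18.SMQCore
import Fermat.Agent.S18.CuspCount

/-!
# S18, package SMQ: the semistable model of a Hauptmodul chart over `ℚ̄`

`smq_main`: for the chart coordinate `t = (h - c1) / (h - c0)` of a Hauptmodul record at level
`N'` (`ℓ ∤ N'`), base points `c0, c1 ∈ A` with `c0 - c1` a unit and `c0` non-cuspidal modulo the
maximal ideal, there are `ψ(N') / ψ(a2)` elements of the Gauss valuation ring, integral over
`A[t]`, whose residues are `k[t̄]`-independent and span every residue integral over `k[t̄]`.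

It is `smq_main_of_cc` (`SMQCore`) applied to the cusp-count package `CuspCount` (`cc_*`) on
the residue field `SmiKappa A N'` with the residue map `smiRho`.

Names are prefixed `smq_`.
-/

set_option autoImplicit false

noncomputable section

open ModularCurve Polynomial
open scoped IntermediateField

namespace Fermat.Agent.S18

open Fermat.Agent.S28

local notation "Qb" => AlgebraicClosure ℚ

section Main

variable (N' : ℕ) [NeZero N'] {ℓ : ℕ} [Fact ℓ.Prime] (hℓN' : ¬ ℓ ∣ N')
  (A : ValuationSubring Qb) (hA : A.LiesOverPrime ℓ)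

/-- constants of the cusp-count package are the constants of the residue field. -/
theorem smq_ccCst_eq (c : IsLocalRing.ResidueField A) :
    ccCst A hA N' hℓN' (smiRho A hA N' hℓN') (smiRho_surjective A hA N' hℓN') c =
      algebraMap (IsLocalRing.ResidueField A) (SmiKappa A N') c := by
  obtain ⟨a, rfl⟩ := IsLocalRing.residue_surjective c
  have hmem : algebraMap Qb ↥(modularFunctionFieldBar N') (a : Qb) ∈ grO A hA N' hℓN' :=
    (mem_grO_iff A hA N' hℓN' _).mpr (gr_algebraMap_mem A a)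
  rw [cc_cst_residue' A hA N' hℓN' _ _ a hmem]
  exact smiRho_algebraMap A hA N' hℓN' a hmem

/-- **The semistable model of a Hauptmodul chart over `ℚ̄`.** -/
theorem smq_main (N' : ℕ) [NeZero N'] {ℓ : ℕ} [Fact ℓ.Prime] (hℓN' : ¬ ℓ ∣ N') {a2 : ℕ}
    (H : HauptRec a2 ℓ) (ha2 : a2 ∣ N') (A : ValuationSubring Qb) (hA : A.LiesOverPrime ℓ)
    (c0 c1 : Qb) (hc0 : c0 ∈ A) (hc1 : c1 ∈ A) (h01 : (c0 - c1)⁻¹ ∈ A) (hc : c0 ≠ c1)
    (hq0 : (Polynomial.aeval c0 H.Qrad)⁻¹ ∈ A) (hq0' : Polynomial.aeval c0 H.Qrad ≠ 0)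
    (t : ↥(modularFunctionFieldBar N')) (ht : (t : LaurentSeries Qb) = cinstU H Qb c0 c1) :
    ∃ (htV : t ∈ grO A hA N' hℓN')
      (b : Fin (psi N' / psi a2) → ↥(modularFunctionFieldBar N'))
      (hb : ∀ i, b i ∈ grO A hA N' hℓN'),
      (∀ i, (((Polynomial.aeval t : Qb[X] →ₐ[Qb] ↥(modularFunctionFieldBar N')) :
          Qb[X] →+* ↥(modularFunctionFieldBar N')).comp
            (Polynomial.mapRingHom A.subtype)).IsIntegralElem (b i)) ∧
      (∀ g : Fin (psi N' / psi a2) → (IsLocalRing.ResidueField A)[X],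
        ∑ i, Polynomial.aeval (grRes A hA N' hℓN' ⟨t, htV⟩) (g i) *
          grRes A hA N' hℓN' ⟨b i, hb i⟩ = 0 → ∀ i, g i = 0) ∧
      (∀ y : ↥(grO A hA N' hℓN'),
        ((Polynomial.aeval (grRes A hA N' hℓN' ⟨t, htV⟩) :
          (IsLocalRing.ResidueField A)[X] →ₐ[IsLocalRing.ResidueField A]
            LaurentSeries (IsLocalRing.ResidueField A)) :
          (IsLocalRing.ResidueField A)[X] →+*
            LaurentSeries (IsLocalRing.ResidueField A)).IsIntegralElem
              (grRes A hA N' hℓN' y) →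
        ∃ g : Fin (psi N' / psi a2) → (IsLocalRing.ResidueField A)[X],
          grRes A hA N' hℓN' y = ∑ i, Polynomial.aeval (grRes A hA N' hℓN' ⟨t, htV⟩) (g i) *
            grRes A hA N' hℓN' ⟨b i, hb i⟩) := by
  exact smq_main_of_cc N' hℓN' H ha2 A hA c0 c1 hc0 hc1 h01 hc hq0 hq0' t ht
    (ccSig A hA N' hℓN' (smiRho A hA N' hℓN') (smiRho_surjective A hA N' hℓN'))
    (fun q c => by
      rw [← smq_ccCst_eq N' hℓN' A hA c]
      exact cc_sig_cst A hA N' hℓN' (smiRho A hA N' hℓN') (smiRho_surjective A hA N' hℓN') q c)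
    (ccReg A hA N' hℓN' (smiRho A hA N' hℓN') (smiRho_surjective A hA N' hℓN'))
    (fun _ => cc_mem_reg A hA N' hℓN' (smiRho A hA N' hℓN') (smiRho_surjective A hA N' hℓN'))
    (cc_reg_isIntegral A hA N' hℓN' (smiRho A hA N' hℓN') (smiRho_surjective A hA N' hℓN'))
    (fun _ hy h0 =>
      cc_reg_inv A hA N' hℓN' (smiRho A hA N' hℓN') (smiRho_surjective A hA N' hℓN') hy h0)
    (ccX A hA N' hℓN' (smiRho A hA N' hℓN'))
    (cc_X_def A hA N' hℓN' (smiRho A hA N' hℓN') (smq_jinv_mem N' hℓN' A hA))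
    (cc_sig_X A hA N' hℓN' (smiRho A hA N' hℓN') (smiRho_surjective A hA N' hℓN'))
    (fun S _ f hf hreg s hs =>
      cc_card_le A hA N' hℓN' (smiRho A hA N' hℓN') (smiRho_surjective A hA N' hℓN') f hf hreg s
        hs)
    (fun Kk _ _ hX hc' =>
      cc_isSeparable A hA N' hℓN' (smiRho A hA N' hℓN') (smiRho_surjective A hA N' hℓN') hX
        (fun c => by
          rw [smq_ccCst_eq]
          exact hc' c))

end Main

end Fermat.Agent.S18
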