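import Mathlib
import Fermat.Agent.S18.SMInst
import Fermat.Agent.S18.SMQ

/-!
# S18, package SM-INST: the main statement

`sminst_main`: for a Hauptmodul record at level `N'` (`ℓ ∤ N'`) and a valuation subring `A` of
`ℚ̄` over `ℓ`, there are base points `c0 ≠ c1` in `A` with `c0 - c1` a unit and a finite set
`T ⊆ ℚ̄` such that over every number field `K0 ⊇ T` the special fibres of the two charts
`t = (h - c1) / (h - c0)` and `t⁻¹` of the level-`N'` function field over `K0` are Dedekind
domains (`cinstSMInst N' H A`).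

It is `sminst_of_smq` (descent to a field of definition, `SMInst`) applied to `smq_main` (the
statement over `ℚ̄`, `SMQ`).
-/

set_option autoImplicit false

open ModularCurve

namespace Fermat.Agent.S18

/-- **(SM-INST).** -/
theorem sminst_main (N' : ℕ) [NeZero N'] {ℓ : ℕ} [Fact ℓ.Prime] (hℓN' : ¬ ℓ ∣ N') {a2 : ℕ}
    (H : HauptRec a2 ℓ) (ha2 : a2 ∣ N') (A : ValuationSubring (AlgebraicClosure ℚ))
    (hA : A.LiesOverPrime ℓ) : cinstSMInst N' H A :=
  sminst_of_smq N' hℓN' H ha2 A hA (smq_main N' hℓN' H ha2 A hA)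

end Fermat.Agent.S18
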