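import Mathlib
import Fermat.Agent.S18.CechChart

/-!
# The graded ring `⊕_c I_c g^c` inside `F[g]`, `g ^ m = f`

For a subalgebra `S` of the field `F` closed under `m`-th roots, `I_c(S) = {y | y ^ m * f ^ c ∈ S}`
and `czRing D S = ⊕_{c < m} I_c(S) g ^ c` is a subalgebra of `B = F[g]`.
-/

set_option autoImplicit false

namespace Fermat.Agent.S18

/-- A ring `B`, free over the field `F` on the powers `1, g, …, g ^ (m - 1)` of an element `g`
with `g ^ m = f`. -/
structure CzData (F B : Type*) [Field F] [CommRing B] [Algebra F B] where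
  /-- the exponent -/
  m : ℕ
  hm : 0 < m
  /-- the element whose root is adjoined -/
  f : F
  /-- the root -/
  g : B
  /-- the power basis -/
  bas : Module.Basis (Fin m) F B
  hbas : ∀ i : Fin m, bas i = g ^ (i : ℕ)
  hg : g ^ m = algebraMap F B f

section Graded

variable {A F B : Type*} [CommRing A] [Field F] [Algebra A F] [CommRing B] [Algebra F B]
  [Algebra A B] [IsScalarTower A F B] (D : CzData F B)

/-- The `A`-submodule `⊕_c I_c(S) g^c`. -/
def czMod (S : Subalgebra A F) (hroot : ∀ z : F, z ^ D.m ∈ S → z ∈ S) : Submodule A B where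
  carrier := {x | ∀ i : Fin D.m, (D.bas.repr x i) ^ D.m * D.f ^ (i : ℕ) ∈ S}
  add_mem' := by
    intro x y hx hy i
    rw [map_add, Finsupp.add_apply]
    exact cz_twist_add S D.m hroot _ (hx i) (hy i)
  zero_mem' := by
    intro i
    rw [map_zero, Finsupp.zero_apply, zero_pow D.hm.ne', zero_mul]
    exact S.zero_mem
  smul_mem' := by
    intro a x hx i
    have h1 : a • x = (algebraMap A F a) • x := (algebraMap_smul F a x).symm
    rw [h1, map_smul, Finsupp.smul_apply, smul_eq_mul, mul_pow, mul_assoc]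
    exact S.mul_mem (S.pow_mem (S.algebraMap_mem a) D.m) (hx i)

theorem cz_mem_mod (S : Subalgebra A F) (hroot : ∀ z : F, z ^ D.m ∈ S → z ∈ S) (x : B) :
    x ∈ czMod D S hroot ↔ ∀ i : Fin D.m, (D.bas.repr x i) ^ D.m * D.f ^ (i : ℕ) ∈ S :=
  Iff.rfl

theorem cz_single_mem (S : Subalgebra A F) (hroot : ∀ z : F, z ^ D.m ∈ S → z ∈ S)
    (i : Fin D.m) (y : F) (hy : y ^ D.m * D.f ^ (i : ℕ) ∈ S) :
    algebraMap F B y * D.g ^ (i : ℕ) ∈ czMod D S hroot := by
  classical
  intro j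
  have h1 : algebraMap F B y * D.g ^ (i : ℕ) = y • D.bas i := by
    rw [D.hbas, Algebra.smul_def]
  rw [h1, map_smul, Finsupp.smul_apply, Module.Basis.repr_self, smul_eq_mul,
    Finsupp.single_apply]
  by_cases hji : i = j
  · subst hji; rw [if_pos rfl, mul_one]; exact hy
  · rw [if_neg hji, mul_zero, zero_pow D.hm.ne', zero_mul]; exact S.zero_mem

theorem cz_single_mem' (S : Subalgebra A F) (hroot : ∀ z : F, z ^ D.m ∈ S → z ∈ S)
    (c : ℕ) (y : F) (hy : y ^ D.m * D.f ^ c ∈ S) :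
    algebraMap F B y * D.g ^ c ∈ czMod D S hroot := by
  have hc : D.m * (c / D.m) + c % D.m = c := Nat.div_add_mod c D.m
  have hlt : c % D.m < D.m := Nat.mod_lt _ D.hm
  have h1 : algebraMap F B y * D.g ^ c =
      algebraMap F B (y * D.f ^ (c / D.m)) * D.g ^ ((⟨c % D.m, hlt⟩ : Fin D.m) : ℕ) := by
    conv_lhs => rw [← hc]
    rw [pow_add, pow_mul, D.hg, map_mul, map_pow]; ring
  rw [h1]
  apply cz_single_mem
  have h2 : (y * D.f ^ (c / D.m)) ^ D.m * D.f ^ ((⟨c % D.m, hlt⟩ : Fin D.m) : ℕ) =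
      y ^ D.m * D.f ^ c := by
    conv_rhs => rw [← hc]
    rw [mul_pow, ← pow_mul, pow_add, mul_comm (c / D.m) D.m]; ring
  rw [h2]; exact hy

theorem cz_expand (x : B) :
    x = ∑ i : Fin D.m, algebraMap F B (D.bas.repr x i) * D.g ^ (i : ℕ) := by
  conv_lhs => rw [← D.bas.sum_repr x]
  refine Finset.sum_congr rfl fun i _ => ?_
  rw [D.hbas, Algebra.smul_def]

theorem cz_mul_mem (S : Subalgebra A F) (hroot : ∀ z : F, z ^ D.m ∈ S → z ∈ S) {x y : B}
    (hx : x ∈ czMod D S hroot) (hy : y ∈ czMod D S hroot) : x * y ∈ czMod D S hroot := by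
  have e : x * y = (∑ i : Fin D.m, algebraMap F B (D.bas.repr x i) * D.g ^ (i : ℕ)) *
      (∑ j : Fin D.m, algebraMap F B (D.bas.repr y j) * D.g ^ (j : ℕ)) :=
    congrArg₂ (· * ·) (cz_expand D x) (cz_expand D y)
  rw [e, Finset.sum_mul_sum]
  refine Submodule.sum_mem _ fun i _ => Submodule.sum_mem _ fun j _ => ?_
  have h1 : algebraMap F B (D.bas.repr x i) * D.g ^ (i : ℕ) *
      (algebraMap F B (D.bas.repr y j) * D.g ^ (j : ℕ)) =
      algebraMap F B (D.bas.repr x i * D.bas.repr y j) * D.g ^ ((i : ℕ) + (j : ℕ)) := by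
    rw [map_mul, pow_add]; ring
  rw [h1]
  apply cz_single_mem'
  have h2 : (D.bas.repr x i * D.bas.repr y j) ^ D.m * D.f ^ ((i : ℕ) + (j : ℕ)) =
      ((D.bas.repr x i) ^ D.m * D.f ^ (i : ℕ)) * ((D.bas.repr y j) ^ D.m * D.f ^ (j : ℕ)) := by
    rw [pow_add]; ring
  rw [h2]; exact S.mul_mem (hx i) (hy j)

theorem cz_one_mem (S : Subalgebra A F) (hroot : ∀ z : F, z ^ D.m ∈ S → z ∈ S) :
    (1 : B) ∈ czMod D S hroot := by
  have h1 : (1 : B) = algebraMap F B 1 * D.g ^ ((⟨0, D.hm⟩ : Fin D.m) : ℕ) := by simp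
  rw [h1]
  apply cz_single_mem
  simp

/-- The graded subalgebra `⊕_c I_c(S) g^c`. -/
def czRing (S : Subalgebra A F) (hroot : ∀ z : F, z ^ D.m ∈ S → z ∈ S) : Subalgebra A B where
  carrier := (czMod D S hroot : Set B)
  add_mem' := (czMod D S hroot).add_mem
  zero_mem' := (czMod D S hroot).zero_mem
  mul_mem' := cz_mul_mem D S hroot
  one_mem' := cz_one_mem D S hroot
  algebraMap_mem' := fun a => by
    rw [Algebra.algebraMap_eq_smul_one]
    exact (czMod D S hroot).smul_mem a (cz_one_mem D S hroot)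

theorem cz_mem_ring (S : Subalgebra A F) (hroot : ∀ z : F, z ^ D.m ∈ S → z ∈ S) (x : B) :
    x ∈ czRing D S hroot ↔ ∀ i : Fin D.m, (D.bas.repr x i) ^ D.m * D.f ^ (i : ℕ) ∈ S :=
  Iff.rfl

theorem cz_ring_mono (S S' : Subalgebra A F) (hroot : ∀ z : F, z ^ D.m ∈ S → z ∈ S)
    (hroot' : ∀ z : F, z ^ D.m ∈ S' → z ∈ S') (h : S ≤ S') :
    czRing D S hroot ≤ czRing D S' hroot' :=
  fun _ hx i => h (hx i)

/-- The element with prescribed coordinates. -/
noncomputable def czElt (c : Fin D.m → F) : B := ∑ i : Fin D.m, algebraMap F B (c i) * D.g ^ (i : ℕ)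

theorem cz_repr_elt (c : Fin D.m → F) (i : Fin D.m) : D.bas.repr (czElt D c) i = c i := by
  have h1 : czElt D c = ∑ i : Fin D.m, c i • D.bas i :=
    Finset.sum_congr rfl fun i _ => by rw [D.hbas, Algebra.smul_def]
  rw [h1]
  exact congrFun (D.bas.repr_sum_self c) i

theorem cz_elt_mem (S : Subalgebra A F) (hroot : ∀ z : F, z ^ D.m ∈ S → z ∈ S)
    (c : Fin D.m → F) (hc : ∀ i : Fin D.m, (c i) ^ D.m * D.f ^ (i : ℕ) ∈ S) :
    czElt D c ∈ czRing D S hroot := by
  intro i
  rw [cz_repr_elt]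
  exact hc i

theorem cz_repr_algebraMap_mul (s : F) (x : B) (i : Fin D.m) :
    D.bas.repr (algebraMap F B s * x) i = s * D.bas.repr x i := by
  rw [← Algebra.smul_def, map_smul, Finsupp.smul_apply, smul_eq_mul]

theorem cz_repr_smul (a : A) (x : B) (i : Fin D.m) :
    D.bas.repr (a • x) i = algebraMap A F a * D.bas.repr x i := by
  have h1 : a • x = (algebraMap A F a) • x := (algebraMap_smul F a x).symm
  rw [h1, map_smul, Finsupp.smul_apply, smul_eq_mul]

/-- Divisibility by a scalar can be tested on coordinates. -/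
theorem cz_exists_smul (S : Subalgebra A F) (hroot : ∀ z : F, z ^ D.m ∈ S → z ∈ S)
    (τ : A) (hτ0 : algebraMap A F τ ≠ 0) (x : B)
    (h : ∀ i : Fin D.m, ∃ v : F, v ^ D.m * D.f ^ (i : ℕ) ∈ S ∧
      D.bas.repr x i = algebraMap A F τ * v) :
    ∃ x' ∈ czRing D S hroot, x = τ • x' := by
  refine ⟨algebraMap F B (algebraMap A F τ)⁻¹ * x, ?_, ?_⟩
  · intro i
    obtain ⟨v, hv, hxv⟩ := h i
    rw [cz_repr_algebraMap_mul, hxv, ← mul_assoc, inv_mul_cancel₀ hτ0, one_mul]
    exact hv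
  · symm
    calc τ • (algebraMap F B (algebraMap A F τ)⁻¹ * x)
        = (algebraMap A F τ) • (algebraMap F B (algebraMap A F τ)⁻¹ * x) :=
          (algebraMap_smul F τ _).symm
      _ = algebraMap F B (algebraMap A F τ) * (algebraMap F B (algebraMap A F τ)⁻¹ * x) :=
          Algebra.smul_def _ _
      _ = x := by rw [← mul_assoc, ← map_mul, mul_inv_cancel₀ hτ0, map_one, one_mul]

end Graded

/-! ### A geometric sum identity -/

theorem cz_geom_sq {R : Type*} [CommRing R] (g : R) (m : ℕ) :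
    (∑ i ∈ Finset.range m, g ^ i) ^ 2 =
      (m : R) * (∑ i ∈ Finset.range m, g ^ i) +
        (g ^ m - 1) * ∑ k ∈ Finset.range m, ∑ i ∈ Finset.range k, g ^ i := by
  have h1 : ∀ k : ℕ, g ^ k * (∑ i ∈ Finset.range m, g ^ i) =
      (∑ i ∈ Finset.range m, g ^ i) + (g ^ m - 1) * (∑ i ∈ Finset.range k, g ^ i) := by
    intro k
    have a := geom_sum_mul g k
    have b := mul_geom_sum g m
    linear_combination (-(∑ i ∈ Finset.range m, g ^ i)) * a + (∑ i ∈ Finset.range k, g ^ i) * b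
  have h2 : (∑ i ∈ Finset.range m, g ^ i) ^ 2 =
      ∑ k ∈ Finset.range m, g ^ k * (∑ i ∈ Finset.range m, g ^ i) := by
    rw [sq, Finset.sum_mul]
  rw [h2, Finset.sum_congr rfl (fun k _ => h1 k), Finset.sum_add_distrib, Finset.sum_const,
    Finset.card_range, nsmul_eq_mul, ← Finset.mul_sum]

/-! ### Finite generation of the twisted modules -/

theorem cz_twist_fg {A F : Type*} [CommRing A] [Field F] [Algebra A F]
    (t : F) (O : Subalgebra A F) [IsNoetherianRing O] (b : Finset F)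
    (hb : ∀ y ∈ b, y ∈ O)
    (hspan : ∀ y ∈ O, y ∈ Submodule.span A
      (Set.image2 (fun (k : ℕ) (y' : F) => t ^ k * y') Set.univ (b : Set F)))
    (m : ℕ) (hm : 0 < m) (hroot : ∀ z : F, z ^ m ∈ O → z ∈ O)
    (hfrac : ∀ x : F, ∃ a ∈ O, ∃ s ∈ O, s ≠ 0 ∧ x * s = a)
    (f : F) (hf : f ≠ 0) (c : ℕ) :
    ∃ S : Finset F, (∀ y ∈ S, y ^ m * f ^ c ∈ O) ∧
      ∀ y : F, y ^ m * f ^ c ∈ O → y ∈ Submodule.span A
        (Set.image2 (fun (k : ℕ) (y' : F) => t ^ k * y') Set.univ (S : Set F)) := by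
  classical
  obtain ⟨a, ha, s, hs, hs0, hfs⟩ := hfrac f
  have ha0 : a ≠ 0 := by rw [← hfs]; exact mul_ne_zero hf hs0
  set φ : F := a ^ c with hφ
  have hφ0 : φ ≠ 0 := pow_ne_zero c ha0
  have hφfs : φ = f ^ c * s ^ c := by rw [hφ, ← hfs, mul_pow]
  have key : ∀ y : F, y ^ m * f ^ c ∈ O → φ * y ∈ O := by
    intro y hy
    apply hroot
    have h1 : (φ * y) ^ m = φ ^ (m - 1) * ((y ^ m * f ^ c) * s ^ c) := by
      have h2 : φ ^ m = φ ^ (m - 1) * φ := by
        rw [← pow_succ, Nat.sub_add_cancel hm]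
      rw [mul_pow, h2]
      conv_lhs => rw [mul_assoc, hφfs]
      rw [← hφfs]; ring_nf
      rw [hφfs]; ring
    rw [h1]
    exact O.mul_mem (O.pow_mem (O.pow_mem ha c) (m - 1)) (O.mul_mem hy (O.pow_mem hs c))
  let J : Ideal O :=
    { carrier := {w | ((w : F) / φ) ^ m * f ^ c ∈ O}
      add_mem' := by
        intro w w' hw hw'
        have h1 : ((w + w' : O) : F) / φ = (w : F) / φ + (w' : F) / φ := by
          push_cast; ring
        show (((w + w' : O) : F) / φ) ^ m * f ^ c ∈ O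
        rw [h1]
        exact cz_twist_add O m hroot (f ^ c) hw hw'
      zero_mem' := by
        show (((0 : O) : F) / φ) ^ m * f ^ c ∈ O
        simp [zero_pow hm.ne']
      smul_mem' := by
        intro r w hw
        have h1 : (((r • w : O) : F) / φ) ^ m * f ^ c =
            (r : F) ^ m * (((w : F) / φ) ^ m * f ^ c) := by
          rw [smul_eq_mul]; push_cast; ring
        show (((r • w : O) : F) / φ) ^ m * f ^ c ∈ O
        rw [h1]
        exact O.mul_mem (O.pow_mem r.2 m) hw }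
  obtain ⟨Z, hZ⟩ := (IsNoetherian.noetherian J : J.FG)
  have hZJ : ∀ z ∈ Z, ((z : F) / φ) ^ m * f ^ c ∈ O := by
    intro z hz
    have h1 : z ∈ J := by rw [← hZ]; exact Submodule.subset_span hz
    exact h1
  refine ⟨Finset.image₂ (fun (y' : F) (z : O) => y' * ((z : F) / φ)) b Z, ?_, ?_⟩
  · intro y hy
    obtain ⟨y', hy', z, hz, rfl⟩ := Finset.mem_image₂.mp hy
    have h1 : (y' * ((z : F) / φ)) ^ m * f ^ c = y' ^ m * (((z : F) / φ) ^ m * f ^ c) := by ring
    rw [h1]
    exact O.mul_mem (O.pow_mem (hb y' hy') m) (hZJ z hz)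
  · intro y hy
    have hmul : ∀ o ∈ O, ∀ z ∈ Z, o * ((z : F) / φ) ∈ Submodule.span A
        (Set.image2 (fun (k : ℕ) (y' : F) => t ^ k * y') Set.univ
          ((Finset.image₂ (fun (y' : F) (z : O) => y' * ((z : F) / φ)) b Z : Finset F) :
            Set F)) := by
      intro o ho z hz
      have h2 := Submodule.apply_mem_span_image_of_mem_span
        (LinearMap.mulRight A ((z : F) / φ)) (hspan o ho)
      rw [LinearMap.mulRight_apply] at h2
      refine Submodule.span_mono ?_ h2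
      rintro _ ⟨_, ⟨k, -, y', hy', rfl⟩, rfl⟩
      refine ⟨k, trivial, y' * ((z : F) / φ), ?_, ?_⟩
      · exact Finset.mem_coe.mpr (Finset.mem_image₂_of_mem hy' hz)
      · simp only [LinearMap.mulRight_apply]; ring
    have hw : (⟨φ * y, key y hy⟩ : O) ∈ J := by
      show (((⟨φ * y, key y hy⟩ : O) : F) / φ) ^ m * f ^ c ∈ O
      have h1 : ((⟨φ * y, key y hy⟩ : O) : F) / φ = y := by
        show φ * y / φ = y
        field_simp
      rw [h1]; exact hy
    rw [← hZ] at hw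
    obtain ⟨r, -, hr⟩ := Submodule.mem_span_finset.mp hw
    have h3 : y = ∑ z ∈ Z, (r z : F) * ((z : F) / φ) := by
      have h4 : (φ * y : F) = ∑ z ∈ Z, (r z : F) * (z : F) := by
        have h5 : ((∑ a ∈ Z, r a • a : O) : F) = φ * y := congrArg (Subtype.val) hr
        rw [← h5]
        simp
      have h6 : y = (φ * y) / φ := by field_simp
      rw [h6, h4, Finset.sum_div]
      refine Finset.sum_congr rfl fun z _ => ?_
      ring
    rw [h3]
    exact Submodule.sum_mem _ fun z hz => hmul _ (r z).2 z hz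

/-- Division by powers of the uniformizer inside a chart. -/
theorem cz_div_pow {A F : Type*} [CommRing A] [Field F] [Algebra A F] (τ : A)
    (VG : ValuationSubring F) (O : Subalgebra A F)
    (hτV : algebraMap A F τ ∈ VG.nonunits) (hτ0 : algebraMap A F τ ≠ 0)
    (hVτ : ∀ x ∈ O, x ∈ VG.nonunits → ∃ y ∈ O, x = algebraMap A F τ * y)
    (k : ℕ) (u : F) (hu : u ∈ O) (v : F) (hv : v ∈ VG) (h : u = algebraMap A F τ ^ k * v) :
    v ∈ O := by
  induction k generalizing u with
  | zero => rw [pow_zero, one_mul] at h; rw [← h]; exact hu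
  | succ k ih =>
    have h1 : u ∈ VG.nonunits := by
      rw [h, pow_succ', mul_assoc]
      exact cz_nonunits_mul VG hτV (VG.mul_mem _ _ (VG.pow_mem (VG.nonunits_subset hτV) k) hv)
    obtain ⟨y, hy, hxy⟩ := hVτ u hu h1
    refine ih y hy ?_
    apply mul_left_cancel₀ hτ0
    rw [← hxy, h, pow_succ']; ring

end Fermat.Agent.S18
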