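import Mathlib
import Fermat.Agent.S18.ConnAmb
import Fermat.Agent.S18.CechGraded

/-!
# `(SM) ⟹ (S18')`: the abstract main theorem
-/

set_option autoImplicit false

namespace Fermat.Agent.S18

open Polynomial in
/-- The data for `AdjoinRoot (X ^ m - C f)`. -/
noncomputable def czAdjoin {F : Type*} [Field F] (m : ℕ) (hm : 0 < m) (f : F) :
    CzData F (AdjoinRoot (X ^ m - C f : F[X])) where
  m := m
  hm := hm
  f := f
  g := AdjoinRoot.root _
  bas := (AdjoinRoot.powerBasis' (monic_X_pow_sub_C f hm.ne')).basis.reindex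
    (finCongr (by rw [AdjoinRoot.powerBasis'_dim, natDegree_X_pow_sub_C]))
  hbas := by
    intro i
    rw [Module.Basis.reindex_apply, PowerBasis.coe_basis, AdjoinRoot.powerBasis'_gen]
    simp
  hg := by
    have h := AdjoinRoot.eval₂_root (X ^ m - C f : F[X])
    rw [eval₂_sub, eval₂_pow, eval₂_X, eval₂_C, sub_eq_zero] at h
    rw [h]; rfl

/-- The assembly for an arbitrary model `B = F[g]`, `g ^ m = f` of the Kummer algebra. -/
theorem cz_main_aux {A F B : Type*} [CommRing A] [IsNoetherianRing A] [IsLocalRing A] [Field F]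
    [Algebra A F] [CommRing B] [Algebra F B] [Algebra A B] [IsScalarTower A F B] (D : CzData F B)
    (τ : A) (hτ : τ ∈ IsLocalRing.maximalIdeal A) (hm2 : 1 < D.m) (hmA : IsUnit (D.m : A))
    (VG : ValuationSubring F) (hτV : algebraMap A F τ ∈ VG.nonunits)
    (hτ0 : algebraMap A F τ ≠ 0)
    (t tinv : F) (ht : t * tinv = 1) (O0 O1 : Subalgebra A F) (ht0 : t ∈ O0) (ht1 : tinv ∈ O1)
    (b0 : Finset F) (hb0 : ∀ y ∈ b0, y ∈ O0)
    (hspan0 : ∀ y ∈ O0, y ∈ Submodule.span A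
      (Set.image2 (fun (k : ℕ) (y' : F) => t ^ k * y') Set.univ (b0 : Set F)))
    (b1 : Finset F) (hb1 : ∀ y ∈ b1, y ∈ O1)
    (hspan1 : ∀ y ∈ O1, y ∈ Submodule.span A
      (Set.image2 (fun (k : ℕ) (y' : F) => tinv ^ k * y') Set.univ (b1 : Set F)))
    (h01 : ∀ x ∈ O0, ∃ n : ℕ, x * tinv ^ n ∈ O1) (h10 : ∀ x ∈ O1, ∃ n : ℕ, x * t ^ n ∈ O0)
    (hfrac0 : ∀ x : F, ∃ a ∈ O0, ∃ s ∈ O0, s ≠ 0 ∧ x * s = a)
    (hroot0 : ∀ z : F, z ^ D.m ∈ O0 → z ∈ O0) (hroot1 : ∀ z : F, z ^ D.m ∈ O1 → z ∈ O1)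
    (hcap : ∀ x ∈ O0, x ∈ O1 → x ∈ Set.range (algebraMap A F))
    (hV0 : ∀ x ∈ O0, x ∈ VG) (hV1 : ∀ x ∈ O1, x ∈ VG)
    (hVτ0 : ∀ x ∈ O0, x ∈ VG.nonunits → ∃ y ∈ O0, x = algebraMap A F τ * y)
    (hVτ1 : ∀ x ∈ O1, x ∈ VG.nonunits → ∃ y ∈ O1, x = algebraMap A F τ * y)
    (hD0 : IsDedekindDomain (O0 ⧸ Ideal.span {algebraMap A O0 τ}))
    (hD1 : IsDedekindDomain (O1 ⧸ Ideal.span {algebraMap A O1 τ}))
    (hf : D.f - 1 ∈ VG.nonunits)
    (hord : ∀ V : ValuationSubring F, (∀ a : A, algebraMap A F a ∈ V) →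
        (algebraMap A F τ)⁻¹ ∈ V → IsPrincipalIdealRing V →
        ∃ w : F, w ≠ 0 ∧ D.f * w ^ D.m ∈ V ∧ (D.f * w ^ D.m)⁻¹ ∈ V) :
    ∃ (c : A) (G : F), D.f = algebraMap A F c * G ^ D.m := by
  classical
  have hm : 0 < D.m := D.hm
  have : IsNoetherianRing O0 := cz_noeth t O0 ht0 b0 hb0 hspan0
  have : IsNoetherianRing O1 := cz_noeth tinv O1 ht1 b1 hb1 hspan1
  have htinv0 : tinv ≠ 0 := right_ne_zero_of_mul_eq_one ht
  have h01' : ∀ x ∈ O0, ∃ n : ℕ, ∀ N, n ≤ N → x * tinv ^ N ∈ O1 := by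
    intro x hx
    obtain ⟨n, hn⟩ := h01 x hx
    refine ⟨n, fun N hN => ?_⟩
    obtain ⟨d, rfl⟩ := Nat.exists_eq_add_of_le hN
    rw [pow_add, ← mul_assoc]
    exact O1.mul_mem hn (O1.pow_mem ht1 d)
  have hfrac1 : ∀ x : F, ∃ a ∈ O1, ∃ s ∈ O1, s ≠ 0 ∧ x * s = a := by
    intro x
    obtain ⟨a, ha, s, hs, hs0, h⟩ := hfrac0 x
    obtain ⟨n1, hn1⟩ := h01' a ha
    obtain ⟨n2, hn2⟩ := h01' s hs
    refine ⟨a * tinv ^ (n1 + n2), hn1 _ (Nat.le_add_right _ _), s * tinv ^ (n1 + n2),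
      hn2 _ (Nat.le_add_left _ _), mul_ne_zero hs0 (pow_ne_zero _ htinv0), ?_⟩
    rw [← h]; ring
  have hfV : D.f ∈ VG := by
    have h1 : D.f = 1 + (D.f - 1) := by ring
    rw [h1]; exact VG.add_mem _ _ VG.one_mem (VG.nonunits_subset hf)
  have hνf : VG.valuation D.f = 1 := by
    have h1 : D.f = 1 + (D.f - 1) := by ring
    rw [h1]; exact Valuation.map_one_add_of_lt _ (VG.mem_nonunits_iff.mp hf)
  have hf0 : D.f ≠ 0 := fun h0 => by
    rw [h0, map_zero] at hνf; exact zero_ne_one hνf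
  have htwV : ∀ (z : F) (c : ℕ), z ^ D.m * D.f ^ c ∈ VG → z ∈ VG := by
    intro z c hz
    rw [← VG.valuation_le_one_iff] at hz ⊢
    rw [map_mul, map_pow, map_pow, hνf, one_pow, mul_one] at hz
    exact (pow_le_one_iff_of_nonneg zero_le hm.ne').mp hz
  have hVtw : ∀ (z : F) (c : ℕ), z ∈ VG → z ^ D.m * D.f ^ c ∈ VG := fun z c hz =>
    VG.mul_mem _ _ (VG.pow_mem hz D.m) (VG.pow_mem hfV c)
  -- the sections on the two charts
  have hy0 : ∀ c : ℕ, ∃ y : F, y ^ D.m * D.f ^ c ∈ O0 ∧ y - 1 ∈ VG.nonunits :=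
    cz_chart τ D.m hm VG hτV hτ0 O0 hfrac0 hroot0 hV0 hVτ0
      (fun a s w hs h => cz_hroot_of_closed (algebraMap A O0 τ) D.m hm a s w hs h)
      (fun n hn hτn P hP => by
        have := hn
        exact cz_hloc_of_dedekind (algebraMap A O0 τ) n hτn P hP)
      D.f hf hord
  have hy1 : ∀ c : ℕ, ∃ y : F, y ^ D.m * D.f ^ c ∈ O1 ∧ y - 1 ∈ VG.nonunits :=
    cz_chart τ D.m hm VG hτV hτ0 O1 hfrac1 hroot1 hV1 hVτ1
      (fun a s w hs h => cz_hroot_of_closed (algebraMap A O1 τ) D.m hm a s w hs h)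
      (fun n hn hτn P hP => by
        have := hn
        exact cz_hloc_of_dedekind (algebraMap A O1 τ) n hτn P hP)
      D.f hf hord
  choose y0 hy0O hy0N using hy0
  choose y1 hy1O hy1N using hy1
  obtain ⟨minv, hminv⟩ := hmA.exists_right_inv
  have hmF : (D.m : F) * algebraMap A F minv = 1 := by
    have h1 := congrArg (algebraMap A F) hminv
    rwa [map_mul, map_natCast, map_one] at h1
  have hmF0 : (D.m : F) ≠ 0 := left_ne_zero_of_mul_eq_one hmF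
  have hminvF : algebraMap A F minv = (D.m : F)⁻¹ := eq_inv_of_mul_eq_one_right hmF
  have hminvO0 : (D.m : F)⁻¹ ∈ O0 := hminvF ▸ O0.algebraMap_mem minv
  have hminvO1 : (D.m : F)⁻¹ ∈ O1 := hminvF ▸ O1.algebraMap_mem minv
  have hminvV : (D.m : F)⁻¹ ∈ VG := hV0 _ hminvO0
  -- the subalgebras `VG` and `O01`
  let VGa : Subalgebra A F :=
    { VG.toSubring.toSubsemiring with
      algebraMap_mem' := fun a => hV0 _ (O0.algebraMap_mem a) }
  have hrootV : ∀ z : F, z ^ D.m ∈ VGa → z ∈ VGa := fun z hz =>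
    htwV z 0 (by rw [pow_zero, mul_one]; exact hz)
  let O01 : Subalgebra A F :=
    { carrier := {x | ∃ n : ℕ, x * t ^ n ∈ O0}
      mul_mem' := by
        rintro x y ⟨n, hn⟩ ⟨n', hn'⟩
        refine ⟨n + n', ?_⟩
        have h1 : x * y * t ^ (n + n') = x * t ^ n * (y * t ^ n') := by rw [pow_add]; ring
        rw [h1]; exact O0.mul_mem hn hn'
      one_mem' := ⟨0, by rw [pow_zero, mul_one]; exact O0.one_mem⟩
      add_mem' := by
        rintro x y ⟨n, hn⟩ ⟨n', hn'⟩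
        refine ⟨n + n', ?_⟩
        have h1 : (x + y) * t ^ (n + n') = x * t ^ n * t ^ n' + y * t ^ n' * t ^ n := by
          rw [pow_add]; ring
        rw [h1]
        exact O0.add_mem (O0.mul_mem hn (O0.pow_mem ht0 n')) (O0.mul_mem hn' (O0.pow_mem ht0 n))
      zero_mem' := ⟨0, by rw [zero_mul]; exact O0.zero_mem⟩
      algebraMap_mem' := fun a => ⟨0, by rw [pow_zero, mul_one]; exact O0.algebraMap_mem a⟩ }
  have hroot01 : ∀ z : F, z ^ D.m ∈ O01 → z ∈ O01 := by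
    rintro z ⟨n, hn⟩
    refine ⟨n, hroot0 _ ?_⟩
    have h1 : (z * t ^ n) ^ D.m = z ^ D.m * t ^ n * (t ^ n) ^ (D.m - 1) := by
      have h2 : (t ^ n) ^ D.m = t ^ n * (t ^ n) ^ (D.m - 1) := by
        rw [← pow_succ', Nat.sub_add_cancel hm]
      rw [mul_pow, h2]; ring
    rw [h1]
    exact O0.mul_mem hn (O0.pow_mem (O0.pow_mem ht0 n) _)
  have hO0le : O0 ≤ O01 := fun x hx => ⟨0, by rw [pow_zero, mul_one]; exact hx⟩
  have hO1le : O1 ≤ O01 := fun x hx => h10 x hx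
  -- the graded rings
  set R0 := czRing D O0 hroot0 with hR0
  set R1 := czRing D O1 hroot1 with hR1
  set R01 := czRing D O01 hroot01 with hR01
  set W := czRing D VGa hrootV with hW
  have hR0R01 : R0 ≤ R01 := cz_ring_mono D O0 O01 hroot0 hroot01 hO0le
  have hR1R01 : R1 ≤ R01 := cz_ring_mono D O1 O01 hroot1 hroot01 hO1le
  have hWmem : ∀ x : B, (∀ i : Fin D.m, D.bas.repr x i ∈ VG) → x ∈ W :=
    fun x hx => (cz_mem_ring D VGa hrootV x).mpr fun i => hVtw _ _ (hx i)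
  have hWcoord : ∀ x ∈ W, ∀ i : Fin D.m, D.bas.repr x i ∈ VG :=
    fun x hx i => htwV _ _ ((cz_mem_ring D VGa hrootV x).mp hx i)
  have hWdiv : ∀ x : B, (∀ i : Fin D.m, D.bas.repr x i ∈ VG.nonunits) →
      ∃ x' ∈ W, x = τ • x' := by
    intro x hx
    refine cz_exists_smul D VGa hrootV τ hτ0 x (fun i => ?_)
    obtain ⟨v, hv, hxv⟩ := cz_frac2 τ VG O0 hτV hτ0 hfrac0 hV0 hVτ0 _ (hx i)
    exact ⟨v, hVtw v _ hv, hxv⟩
  have hdesc : ∀ (O : Subalgebra A F) (hrootO : ∀ z : F, z ^ D.m ∈ O → z ∈ O),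
      (∀ u ∈ O, ∀ v ∈ VG, u = algebraMap A F τ ^ D.m * v → v ∈ O) →
      ∀ x ∈ czRing D O hrootO, ∀ x' ∈ W, x = τ • x' → x' ∈ czRing D O hrootO := by
    intro O hrootO hO x hx x' hx' hxx'
    refine (cz_mem_ring D O hrootO x').mpr fun i => ?_
    refine hO _ ((cz_mem_ring D O hrootO x).mp hx i) _
      ((cz_mem_ring D VGa hrootV x').mp hx' i) ?_
    rw [hxx', cz_repr_smul]; ring
  have hdiv0 : ∀ u ∈ O0, ∀ v ∈ VG, u = algebraMap A F τ ^ D.m * v → v ∈ O0 :=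
    fun u hu v hv h => cz_div_pow τ VG O0 hτV hτ0 hVτ0 D.m u hu v hv h
  have hdiv1 : ∀ u ∈ O1, ∀ v ∈ VG, u = algebraMap A F τ ^ D.m * v → v ∈ O1 :=
    fun u hu v hv h => cz_div_pow τ VG O1 hτV hτ0 hVτ1 D.m u hu v hv h
  have hdiv01 : ∀ u ∈ O01, ∀ v ∈ VG, u = algebraMap A F τ ^ D.m * v → v ∈ O01 := by
    rintro u ⟨n, hn⟩ v hv h
    refine ⟨n, hdiv0 _ hn (v * t ^ n) (VG.mul_mem _ _ hv (VG.pow_mem (hV0 t ht0) n)) ?_⟩
    rw [h]; ring
  -- the approximate idempotents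
  set e0 : B := czElt D (fun i => (D.m : F)⁻¹ * y0 (i : ℕ)) with he0def
  set e1 : B := czElt D (fun i => (D.m : F)⁻¹ * y1 (i : ℕ)) with he1def
  set ε : B := czElt D (fun _ => (D.m : F)⁻¹) with hεdef
  have he0 : e0 ∈ R0 := cz_elt_mem D O0 hroot0 _ (fun i => by
    have h1 : ((D.m : F)⁻¹ * y0 (i : ℕ)) ^ D.m * D.f ^ (i : ℕ) =
        ((D.m : F)⁻¹) ^ D.m * (y0 (i : ℕ) ^ D.m * D.f ^ (i : ℕ)) := by ring
    rw [h1]; exact O0.mul_mem (O0.pow_mem hminvO0 _) (hy0O _))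
  have he1 : e1 ∈ R1 := cz_elt_mem D O1 hroot1 _ (fun i => by
    have h1 : ((D.m : F)⁻¹ * y1 (i : ℕ)) ^ D.m * D.f ^ (i : ℕ) =
        ((D.m : F)⁻¹) ^ D.m * (y1 (i : ℕ) ^ D.m * D.f ^ (i : ℕ)) := by ring
    rw [h1]; exact O1.mul_mem (O1.pow_mem hminvO1 _) (hy1O _))
  have hε : ε ∈ W := hWmem _ (fun i => by rw [hεdef, cz_repr_elt]; exact hminvV)
  have he0W : e0 ∈ W := cz_ring_mono D O0 VGa hroot0 hrootV (fun x hx => hV0 x hx) he0
  have he1W : e1 ∈ W := cz_ring_mono D O1 VGa hroot1 hrootV (fun x hx => hV1 x hx) he1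
  obtain ⟨d0, hd0W, hd0⟩ := hWdiv (e0 - ε) (fun i => by
    rw [map_sub, Finsupp.sub_apply, he0def, hεdef, cz_repr_elt, cz_repr_elt]
    have h1 : (D.m : F)⁻¹ * y0 (i : ℕ) - (D.m : F)⁻¹ = (y0 (i : ℕ) - 1) * (D.m : F)⁻¹ := by
      ring
    rw [h1]; exact cz_nonunits_mul VG (hy0N _) hminvV)
  obtain ⟨d1, hd1W, hd1⟩ := hWdiv (e1 - ε) (fun i => by
    rw [map_sub, Finsupp.sub_apply, he1def, hεdef, cz_repr_elt, cz_repr_elt]
    have h1 : (D.m : F)⁻¹ * y1 (i : ℕ) - (D.m : F)⁻¹ = (y1 (i : ℕ) - 1) * (D.m : F)⁻¹ := by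
      ring
    rw [h1]; exact cz_nonunits_mul VG (hy1N _) hminvV)
  obtain ⟨dε, hdεW, hdε⟩ : ∃ d ∈ W, ε ^ 2 - ε = τ • d := by
    obtain ⟨v, hv, hfv⟩ := cz_frac2 τ VG O0 hτV hτ0 hfrac0 hV0 hVτ0 _ hf
    set Sg : B := ∑ i ∈ Finset.range D.m, D.g ^ i with hSg
    set T : B := ∑ k ∈ Finset.range D.m, ∑ i ∈ Finset.range k, D.g ^ i with hT
    have hgW : ∀ i : ℕ, D.g ^ i ∈ W := by
      intro i
      have h1 : D.g ^ i = algebraMap F B 1 * D.g ^ i := by rw [map_one, one_mul]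
      rw [h1]
      exact cz_single_mem' D VGa hrootV i 1 (hVtw 1 i VG.one_mem)
    have hTW : T ∈ W := Subalgebra.sum_mem _ fun k _ => Subalgebra.sum_mem _ fun i _ => hgW i
    have hεS : ε = algebraMap F B (D.m : F)⁻¹ * Sg := by
      rw [hεdef, czElt, hSg, Finset.mul_sum]
      exact Fin.sum_univ_eq_sum_range (fun i => algebraMap F B (D.m : F)⁻¹ * D.g ^ i) D.m
    have hsq := cz_geom_sq D.g D.m
    refine ⟨algebraMap F B (((D.m : F)⁻¹) ^ 2 * v) * T, ?_, ?_⟩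
    · refine hWmem _ (fun i => ?_)
      rw [cz_repr_algebraMap_mul]
      exact VG.mul_mem _ _ (VG.mul_mem _ _ (VG.pow_mem hminvV 2) hv) (hWcoord T hTW i)
    · have hcast : (D.m : B) = algebraMap F B (D.m : F) :=
        (map_natCast (algebraMap F B) D.m).symm
      have hτB : τ • (algebraMap F B (((D.m : F)⁻¹) ^ 2 * v) * T) =
          algebraMap F B (algebraMap A F τ) *
            (algebraMap F B (D.m : F)⁻¹ ^ 2 * algebraMap F B v) * T := by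
        rw [Algebra.smul_def, IsScalarTower.algebraMap_apply A F B, map_mul, map_pow]; ring
      have h3 : D.g ^ D.m - 1 = algebraMap F B (algebraMap A F τ) * algebraMap F B v := by
        rw [D.hg, ← map_mul, ← hfv, map_sub, map_one]
      have h4 : algebraMap F B (D.m : F)⁻¹ * (D.m : B) = 1 := by
        rw [hcast, ← map_mul, inv_mul_cancel₀ hmF0, map_one]
      rw [hτB, hεS]
      linear_combination (algebraMap F B (D.m : F)⁻¹) ^ 2 * hsq +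
        (algebraMap F B (D.m : F)⁻¹ * Sg) * h4 + (algebraMap F B (D.m : F)⁻¹) ^ 2 * T * h3
  have hi0 : ∃ x ∈ R0, e0 ^ 2 - e0 = τ • x := by
    have hx'W : dε + d0 * (ε + ε - 1) + τ • (d0 * d0) ∈ W :=
      W.add_mem (W.add_mem hdεW (W.mul_mem hd0W (W.sub_mem (W.add_mem hε hε) W.one_mem)))
        (W.smul_mem (W.mul_mem hd0W hd0W) τ)
    have heq : e0 ^ 2 - e0 = τ • (dε + d0 * (ε + ε - 1) + τ • (d0 * d0)) := by
      have h1 : e0 = ε + τ • d0 := by rw [← hd0]; ring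
      rw [h1]
      simp only [Algebra.smul_def] at hdε ⊢
      linear_combination hdε
    exact ⟨_, hdesc O0 hroot0 hdiv0 _ (R0.sub_mem (R0.pow_mem he0 2) he0) _ hx'W heq, heq⟩
  have hi1 : ∃ x ∈ R1, e1 ^ 2 - e1 = τ • x := by
    have hx'W : dε + d1 * (ε + ε - 1) + τ • (d1 * d1) ∈ W :=
      W.add_mem (W.add_mem hdεW (W.mul_mem hd1W (W.sub_mem (W.add_mem hε hε) W.one_mem)))
        (W.smul_mem (W.mul_mem hd1W hd1W) τ)
    have heq : e1 ^ 2 - e1 = τ • (dε + d1 * (ε + ε - 1) + τ • (d1 * d1)) := by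
      have h1 : e1 = ε + τ • d1 := by rw [← hd1]; ring
      rw [h1]
      simp only [Algebra.smul_def] at hdε ⊢
      linear_combination hdε
    exact ⟨_, hdesc O1 hroot1 hdiv1 _ (R1.sub_mem (R1.pow_mem he1 2) he1) _ hx'W heq, heq⟩
  have h01c : ∃ c ∈ R01, e0 - e1 = τ • c := by
    have heq : e0 - e1 = τ • (d0 - d1) := by
      rw [smul_sub, ← hd0, ← hd1]; ring
    exact ⟨d0 - d1, hdesc O01 hroot01 hdiv01 _ (R01.sub_mem (hR0R01 he0) (hR1R01 he1)) _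
      (W.sub_mem hd0W hd1W) heq, heq⟩
  -- finiteness of the first cohomology
  set u : B := algebraMap F B t with hu
  set v : B := algebraMap F B tinv with hv
  have huv : u * v = 1 := by rw [hu, hv, ← map_mul, ht, map_one]
  have huR0 : u ∈ R0 := by
    have h1 : u = algebraMap F B t * D.g ^ 0 := by rw [pow_zero, mul_one]
    rw [h1]
    exact cz_single_mem' D O0 hroot0 0 t (by rw [pow_zero, mul_one]; exact O0.pow_mem ht0 _)
  have hvR1 : v ∈ R1 := by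
    have h1 : v = algebraMap F B tinv * D.g ^ 0 := by rw [pow_zero, mul_one]
    rw [h1]
    exact cz_single_mem' D O1 hroot1 0 tinv (by rw [pow_zero, mul_one]; exact O1.pow_mem ht1 _)
  have hgen := fun i : Fin D.m =>
    cz_twist_fg t O0 b0 hb0 hspan0 D.m D.hm hroot0 hfrac0 D.f hf0 (i : ℕ)
  choose S hS1 hS2 using hgen
  set bb : Finset B := Finset.univ.biUnion
    (fun i : Fin D.m => (S i).image (fun y => algebraMap F B y * D.g ^ (i : ℕ))) with hbb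
  have hbb_mem : ∀ y ∈ bb, ∃ i : Fin D.m, ∃ y' ∈ S i,
      y = algebraMap F B y' * D.g ^ (i : ℕ) := by
    intro y hy
    rw [hbb, Finset.mem_biUnion] at hy
    obtain ⟨i, -, hy⟩ := hy
    obtain ⟨y', hy', rfl⟩ := Finset.mem_image.mp hy
    exact ⟨i, y', hy', rfl⟩
  have hbbR0 : ∀ y ∈ bb, y ∈ R0 := by
    intro y hy
    obtain ⟨i, y', hy', rfl⟩ := hbb_mem y hy
    exact cz_single_mem D O0 hroot0 i y' (hS1 i y' hy')
  have hbbspan : ∀ y ∈ R0, y ∈ Submodule.span A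
      (Set.image2 (fun (k : ℕ) (y' : B) => u ^ k * y') Set.univ (bb : Set B)) := by
    intro x hx
    rw [cz_expand D x]
    refine Submodule.sum_mem _ fun i _ => ?_
    have h1 := hS2 i (D.bas.repr x i) ((cz_mem_ring D O0 hroot0 x).mp hx i)
    let L : F →ₗ[A] B := (LinearMap.mulRight A (D.g ^ (i : ℕ))).comp
      ((Algebra.linearMap F B).restrictScalars A)
    have hL : ∀ z : F, L z = algebraMap F B z * D.g ^ (i : ℕ) := fun z => rfl
    have h2 := Submodule.apply_mem_span_image_of_mem_span L h1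
    rw [hL] at h2
    refine Submodule.span_mono ?_ h2
    rintro _ ⟨_, ⟨k, -, y', hy', rfl⟩, rfl⟩
    refine ⟨k, trivial, algebraMap F B y' * D.g ^ (i : ℕ), ?_, ?_⟩
    · rw [hbb]
      exact Finset.mem_coe.mpr (Finset.mem_biUnion.mpr
        ⟨i, Finset.mem_univ _, Finset.mem_image_of_mem _ hy'⟩)
    · rw [hL, hu, map_mul, map_pow]; ring
  have hNy : ∀ y ∈ bb, ∃ n : ℕ, ∀ N, n ≤ N → y * v ^ N ∈ R1 := by
    intro y hy
    obtain ⟨i, y', hy', rfl⟩ := hbb_mem y hy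
    obtain ⟨n, hn⟩ := h01' _ (hS1 i y' hy')
    refine ⟨n, fun N hN => ?_⟩
    have h1 : algebraMap F B y' * D.g ^ (i : ℕ) * v ^ N =
        algebraMap F B (y' * tinv ^ N) * D.g ^ (i : ℕ) := by
      rw [hv, map_mul, map_pow]; ring
    rw [h1]
    refine cz_single_mem D O1 hroot1 i _ ?_
    have h2 : (y' * tinv ^ N) ^ D.m * D.f ^ (i : ℕ) =
        (y' ^ D.m * D.f ^ (i : ℕ) * tinv ^ N) * (tinv ^ N) ^ (D.m - 1) := by
      have h3 : (tinv ^ N) ^ D.m = tinv ^ N * (tinv ^ N) ^ (D.m - 1) := by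
        rw [← pow_succ', Nat.sub_add_cancel D.hm]
      rw [mul_pow, h3]; ring
    rw [h2]
    exact O1.mul_mem (hn N hN) (O1.pow_mem (O1.pow_mem ht1 N) _)
  choose! nf hnf using hNy
  have hN : ∀ y ∈ bb, y * v ^ (bb.sup nf) ∈ R1 :=
    fun y hy => hnf y hy _ (Finset.le_sup hy)
  have htop : ∀ x ∈ R01, ∃ n : ℕ, x * u ^ n ∈ R0 := by
    intro x hx
    have h1 : ∀ i : Fin D.m, ∃ n : ℕ,
        (D.bas.repr x i) ^ D.m * D.f ^ (i : ℕ) * t ^ n ∈ O0 :=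
      fun i => (cz_mem_ring D O01 hroot01 x).mp hx i
    choose n hn using h1
    refine ⟨Finset.univ.sup n, (cz_mem_ring D O0 hroot0 _).mpr fun i => ?_⟩
    have hle : n i ≤ Finset.univ.sup n := Finset.le_sup (Finset.mem_univ i)
    have h2 : D.bas.repr (x * u ^ Finset.univ.sup n) i =
        t ^ Finset.univ.sup n * D.bas.repr x i := by
      rw [hu, ← map_pow, mul_comm, cz_repr_algebraMap_mul]
    rw [h2]
    have h3 : (t ^ Finset.univ.sup n * D.bas.repr x i) ^ D.m * D.f ^ (i : ℕ) =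
        ((D.bas.repr x i) ^ D.m * D.f ^ (i : ℕ) * t ^ n i) *
          t ^ (Finset.univ.sup n * D.m - n i) := by
      have h4 : n i ≤ Finset.univ.sup n * D.m := le_trans hle (Nat.le_mul_of_pos_right _ D.hm)
      have h5 : (t ^ Finset.univ.sup n) ^ D.m =
          t ^ n i * t ^ (Finset.univ.sup n * D.m - n i) := by
        rw [← pow_mul, ← pow_add, Nat.add_sub_cancel' h4]
      rw [mul_pow, h5]; ring
    rw [h3]
    exact O0.mul_mem (hn i) (O0.pow_mem ht0 _)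
  have hfin := conn_finite_amb u v huv R0 R1 R01 hR0R01 hR1R01 huR0 hvR1 bb hbbR0 hbbspan
    (bb.sup nf) hN htop
  have hreg : ∀ x : B, τ • x = 0 → x = 0 := by
    intro x hx
    rw [← algebraMap_smul F τ x] at hx
    exact (smul_eq_zero.mp hx).resolve_left hτ0
  obtain ⟨a0, ha0, a1, ha1, hE⟩ := conn_core_amb τ hτ hreg R0 R1 R01 hR0R01 hR1R01 hfin
    e0 e1 he0 he1 hi0 hi1 h01c
  -- the coordinate at `g ^ 1`
  obtain ⟨i1, hi1v⟩ : ∃ i1 : Fin D.m, (i1 : ℕ) = 1 := ⟨⟨1, hm2⟩, rfl⟩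
  have hER0 : e0 - τ • a0 ∈ R0 := R0.sub_mem he0 (R0.smul_mem ha0 τ)
  have hER1 : e0 - τ • a0 ∈ R1 := by rw [hE]; exact R1.add_mem he1 (R1.smul_mem ha1 τ)
  set z : F := D.bas.repr (e0 - τ • a0) i1 with hz
  have hz0 : z ^ D.m * D.f ∈ O0 := by
    have h1 := (cz_mem_ring D O0 hroot0 _).mp hER0 i1
    rwa [hi1v, pow_one] at h1
  have hz1 : z ^ D.m * D.f ∈ O1 := by
    have h1 := (cz_mem_ring D O1 hroot1 _).mp hER1 i1
    rwa [hi1v, pow_one] at h1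
  obtain ⟨lam, hlam⟩ := hcap _ hz0 hz1
  by_cases hzz : z = 0
  · exfalso
    have h1 : z = (D.m : F)⁻¹ * y0 1 - algebraMap A F τ * D.bas.repr a0 i1 := by
      rw [hz, map_sub, Finsupp.sub_apply, cz_repr_smul, he0def, cz_repr_elt, hi1v]
    have h2 : D.bas.repr a0 i1 ∈ VG :=
      htwV _ _ (hV0 _ ((cz_mem_ring D O0 hroot0 a0).mp ha0 i1))
    have h3 : y0 1 ∈ VG.nonunits := by
      have h4 : y0 1 = algebraMap A F τ * ((D.m : F) * D.bas.repr a0 i1) := by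
        have h5 : (D.m : F)⁻¹ * y0 1 = algebraMap A F τ * D.bas.repr a0 i1 := by
          rw [hzz] at h1; linear_combination -h1
        field_simp at h5
        linear_combination h5
      rw [h4]
      exact cz_nonunits_mul VG hτV (VG.mul_mem _ _ (natCast_mem VG D.m) h2)
    have h6 : (1 : F) ∈ VG.nonunits := by
      have h7 : (1 : F) = y0 1 - (y0 1 - 1) := by ring
      rw [h7]; exact VG.nonunits.sub_mem h3 (hy0N 1)
    exact cz_one_not_mem_nonunits VG h6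
  · refine ⟨lam, z⁻¹, ?_⟩
    rw [hlam, inv_pow]
    field_simp

/-- **`(SM) ⟹ (S18')`.**  Let `A` be a noetherian local ring, `τ` in its maximal ideal, `F` a
field over `A` with a valuation subring `VG` (the Gauss valuation), `O0`, `O1` two charts of a
model of `F` over `A` (finite over `A[t]`, `A[t⁻¹]`, glued along `t`), closed under `m`-th roots,
with `O_i ∩ 𝔪_VG = τ O_i`, with only constant global sections and with Dedekind special fibres
`O_i ⧸ τ`.  If `f ≡ 1` modulo `𝔪_VG` and `f` is a unit times an `m`-th power in every principal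
valuation ring of `F` containing `A` and `τ⁻¹`, then `f` is a constant times an `m`-th power. -/
theorem cz_main {A F : Type*} [CommRing A] [IsNoetherianRing A] [IsLocalRing A] [Field F]
    [Algebra A F]
    (τ : A) (hτ : τ ∈ IsLocalRing.maximalIdeal A) (m : ℕ) (hm : 0 < m) (hmA : IsUnit (m : A))
    (VG : ValuationSubring F) (hτV : algebraMap A F τ ∈ VG.nonunits)
    (hτ0 : algebraMap A F τ ≠ 0)
    (t tinv : F) (ht : t * tinv = 1) (O0 O1 : Subalgebra A F) (ht0 : t ∈ O0) (ht1 : tinv ∈ O1)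
    (b0 : Finset F) (hb0 : ∀ y ∈ b0, y ∈ O0)
    (hspan0 : ∀ y ∈ O0, y ∈ Submodule.span A
      (Set.image2 (fun (k : ℕ) (y' : F) => t ^ k * y') Set.univ (b0 : Set F)))
    (b1 : Finset F) (hb1 : ∀ y ∈ b1, y ∈ O1)
    (hspan1 : ∀ y ∈ O1, y ∈ Submodule.span A
      (Set.image2 (fun (k : ℕ) (y' : F) => tinv ^ k * y') Set.univ (b1 : Set F)))
    (h01 : ∀ x ∈ O0, ∃ n : ℕ, x * tinv ^ n ∈ O1) (h10 : ∀ x ∈ O1, ∃ n : ℕ, x * t ^ n ∈ O0)
    (hfrac0 : ∀ x : F, ∃ a ∈ O0, ∃ s ∈ O0, s ≠ 0 ∧ x * s = a)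
    (hroot0 : ∀ z : F, z ^ m ∈ O0 → z ∈ O0) (hroot1 : ∀ z : F, z ^ m ∈ O1 → z ∈ O1)
    (hcap : ∀ x ∈ O0, x ∈ O1 → x ∈ Set.range (algebraMap A F))
    (hV0 : ∀ x ∈ O0, x ∈ VG) (hV1 : ∀ x ∈ O1, x ∈ VG)
    (hVτ0 : ∀ x ∈ O0, x ∈ VG.nonunits → ∃ y ∈ O0, x = algebraMap A F τ * y)
    (hVτ1 : ∀ x ∈ O1, x ∈ VG.nonunits → ∃ y ∈ O1, x = algebraMap A F τ * y)
    (hD0 : IsDedekindDomain (O0 ⧸ Ideal.span {algebraMap A O0 τ}))
    (hD1 : IsDedekindDomain (O1 ⧸ Ideal.span {algebraMap A O1 τ}))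
    (f : F) (hf : f - 1 ∈ VG.nonunits)
    (hord : ∀ V : ValuationSubring F, (∀ a : A, algebraMap A F a ∈ V) →
        (algebraMap A F τ)⁻¹ ∈ V → IsPrincipalIdealRing V →
        ∃ w : F, w ≠ 0 ∧ f * w ^ m ∈ V ∧ (f * w ^ m)⁻¹ ∈ V) :
    ∃ (c : A) (G : F), f = algebraMap A F c * G ^ m := by
  rcases Nat.lt_or_ge 1 m with hm2 | hm1
  · exact cz_main_aux (czAdjoin m hm f) τ hτ hm2 hmA VG hτV hτ0 t tinv ht O0 O1 ht0 ht1
      b0 hb0 hspan0 b1 hb1 hspan1 h01 h10 hfrac0 hroot0 hroot1 hcap hV0 hV1 hVτ0 hVτ1 hD0 hD1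
      hf hord
  · obtain rfl : m = 1 := le_antisymm hm1 hm
    exact ⟨1, f, by simp⟩

end Fermat.Agent.S18
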