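import Mathlib
import Fermat.Agent.S18.Charts
import Fermat.Agent.S18.ChartsAdapt
import Fermat.Agent.S18.GaussRing
import Fermat.Agent.S18.GaussAbs

/-!
# S18, package CHARTS (part 3): the chart hypotheses for a Gauss valuation ring

`K0` a field of characteristic zero, `A0 : ValuationSubring K0` a DVR, `F` a field over `K0`
embedded in `K0((q))` by `ι`, and `V : ValuationSubring F` the trace of the Gauss ring `grV A0`
(hypotheses `hV`, `hnon`, `hdec`, `hspan`, `huniqJ`: the exports of the Gauss-ring package for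
`F = laurentBaseChange K0 (modularFunctionFieldFull M)`, `V = grO`, `J = grJ`).
For a chart coordinate `t ∈ F` with `t, t⁻¹ ∈ V`, residue transcendental over the residue field
and `J ∈ K0(t)`, `chg_all` gives the conjunction of the chart hypotheses of the abstract core
(the conclusion of `cht_all`).  `F` is kept abstract so that instance search stays fast.

Usage with the Gauss-ring package (`GaussMain`), for `A0 : ValuationSubring K0` over `ℓ ∤ M`: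
```
  obtain ⟨b, -, hspan, -, -⟩ := gr_hind_j A0 hA M hℓM
  have := chg_all A0 (laurentBaseChange K0 (modularFunctionFieldFull M)).val (grO A0 hA M hℓM)
    (fun x => mem_grO_iff A0 hA M hℓM x) (fun x => gr_mem_nonunits_iff A0 hA M hℓM x)
    (fun x hx => gr_exists_unit A0 hA M hℓM (x : LaurentSeries K0) x.2
      (fun h0 => hx (Subtype.ext h0)))
    (grJ K0 M) b hspan (gr_unique_j A0 hA M hℓM) τ hτ t htV htV' htres hj m hm
```
with `htres : Transcendental (IsLocalRing.ResidueField ↥A0) (grRes A0 hA M hℓM ⟨t, htV⟩)` and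
`hj : grJ K0 M ∈ K0⟮t⟯` (needs `CharZero K0`, e.g. `algebraRat.charZero K0`).
-/

set_option autoImplicit false

noncomputable section

open Polynomial
open scoped IntermediateField

namespace Fermat.Agent.S18

section

variable {K0 : Type*} [Field K0] (A0 : ValuationSubring K0)
  {F : Type*} [Field F] [Algebra K0 F] (ι : F →ₐ[K0] LaurentSeries K0)

omit [Algebra K0 F] in
/-- The Gauss ring `(grV A0, grRho A0)` satisfies the hypotheses of the abstract core. -/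
theorem chg_gabHyp : GabHyp A0 (grV A0) (grRho A0) where
  mem := gr_algebraMap_mem A0
  rho := grRho_algebraMap A0
  inv := gr_inv_mem A0

theorem chg_coe_algebraMap (a : ↥A0) :
    ι (algebraMap ↥A0 F a) = algebraMap K0 (LaurentSeries K0) (a : K0) := by
  rw [IsScalarTower.algebraMap_apply ↥A0 K0 F, AlgHom.commutes]
  rfl

theorem chg_coe_aeval (t : F) (p : (↥A0)[X]) :
    ι (aeval t p) = aeval (ι t) (p.map A0.subtype) := by
  have h1 : aeval t p = aeval t (p.map (algebraMap ↥A0 K0)) := (aeval_map_algebraMap K0 t p).symm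
  rw [h1]
  exact (Polynomial.aeval_algHom_apply ι t (p.map A0.subtype)).symm

variable (V : ValuationSubring F) (hV : ∀ x : F, x ∈ V ↔ ι x ∈ grV A0)
  (hnon : ∀ x : F, x ∈ V.nonunits ↔ ∃ h : ι x ∈ grV A0, grRho A0 ⟨ι x, h⟩ = 0)

include hV in
/-- (hA): `A0 ⊆ V`. -/
theorem chg_hA (a : ↥A0) : algebraMap ↥A0 F a ∈ V := by
  rw [hV, chg_coe_algebraMap]
  exact gr_algebraMap_mem A0 a

include hnon in
/-- (hτV): a non-unit of `A0` is a non-unit of `V`. -/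
theorem chg_htauV (τ : ↥A0) (hτ : ¬ IsUnit τ) : algebraMap ↥A0 F τ ∈ V.nonunits := by
  rw [hnon]
  have hmem : ι (algebraMap ↥A0 F τ) ∈ grV A0 := by
    rw [chg_coe_algebraMap]
    exact gr_algebraMap_mem A0 τ
  refine ⟨hmem, ?_⟩
  have h := grRho_algebraMap A0 τ
  have h0 : IsLocalRing.residue ↥A0 τ = 0 := by
    rw [IsLocalRing.residue_eq_zero_iff]
    exact (IsLocalRing.mem_maximalIdeal τ).mpr hτ
  rw [h0, map_zero] at h
  rw [← h]
  congr 1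
  exact Subtype.ext (chg_coe_algebraMap A0 ι τ)

include hV in
/-- The decomposition `x = c * u` in the field `F`. -/
theorem chg_decomp
    (hdec : ∀ x : F, x ≠ 0 → ∃ (c : K0) (u : grV A0), c ≠ 0 ∧ grRho A0 u ≠ 0 ∧
      ι x = algebraMap K0 (LaurentSeries K0) c * (u : LaurentSeries K0))
    (x : F) (hx : x ≠ 0) :
    ∃ (c : K0) (u : F), u ∈ V ∧ u⁻¹ ∈ V ∧ x = algebraMap K0 F c * u := by
  obtain ⟨c, u, hc, hu, hxu⟩ := hdec x hx
  have hcF : algebraMap K0 F c ≠ 0 := by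
    rw [Ne, map_eq_zero]
    exact hc
  have hcE : algebraMap K0 (LaurentSeries K0) c ≠ 0 := by
    rw [Ne, map_eq_zero]
    exact hc
  have hcoe : ι (x * (algebraMap K0 F c)⁻¹) = (u : LaurentSeries K0) := by
    rw [map_mul, map_inv₀, AlgHom.commutes, hxu]
    field_simp
  refine ⟨c, x * (algebraMap K0 F c)⁻¹, ?_, ?_, ?_⟩
  · rw [hV, hcoe]
    exact u.2
  · rw [hV, map_inv₀, hcoe]
    exact gr_inv_mem A0 u hu
  · field_simp

/-- The residue of a polynomial in `t` over `A0`. -/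
theorem chg_res_aeval (t : F) (ht : ι t ∈ grV A0) (p : (↥A0)[X]) (h : ι (aeval t p) ∈ grV A0) :
    grRho A0 ⟨_, h⟩ = aeval (grRho A0 ⟨ι t, ht⟩) (p.map (IsLocalRing.residue ↥A0)) := by
  have h1 := gab_rho_aeval (chg_gabHyp A0) (⟨ι t, ht⟩ : grV A0) p
  rw [← h1]
  congr 1
  exact Subtype.ext (chg_coe_aeval A0 ι t p)

include hnon in
/-- (hG): primitive polynomials in `t` are units of `V`. -/
theorem chg_hG [IsDiscreteValuationRing ↥A0] (τ : ↥A0) (hτ : Irreducible τ)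
    (t : F) (ht : ι t ∈ grV A0)
    (htres : Transcendental (IsLocalRing.ResidueField ↥A0) (grRho A0 ⟨ι t, ht⟩))
    (p : (↥A0)[X]) (hp : ∃ i, ¬ τ ∣ p.coeff i) :
    aeval t p ∉ V.nonunits := by
  rw [hnon]
  rintro ⟨h, h0⟩
  rw [chg_res_aeval A0 ι t ht p h] at h0
  have hp0 : p.map (IsLocalRing.residue ↥A0) = 0 := by
    by_contra hne
    exact htres ⟨_, hne, h0⟩
  obtain ⟨i, hi⟩ := hp
  apply hi
  have hc : (p.map (IsLocalRing.residue ↥A0)).coeff i = 0 := by rw [hp0, coeff_zero]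
  rw [coeff_map, IsLocalRing.residue_eq_zero_iff, hτ.maximalIdeal_eq,
    Ideal.mem_span_singleton] at hc
  exact hc

/-- `t` is transcendental over `K0`. -/
theorem chg_transcendental (t : F) (ht : ι t ∈ grV A0)
    (htres : Transcendental (IsLocalRing.ResidueField ↥A0) (grRho A0 ⟨ι t, ht⟩)) :
    Transcendental K0 t := by
  have h1 : Transcendental K0 (ι t) :=
    gab_transcendental (chg_gabHyp A0) (⟨ι t, ht⟩ : grV A0) htres
  intro halg
  exact h1 (halg.algHom ι)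

include hV hnon in
/-- All chart hypotheses of the abstract core for a Gauss valuation ring `V` and a chart
coordinate `t` (with `t, t⁻¹ ∈ V`, residue of `t` transcendental, `J ∈ K0(t)`). -/
theorem chg_all [CharZero K0] [IsDiscreteValuationRing ↥A0]
    (hdec : ∀ x : F, x ≠ 0 → ∃ (c : K0) (u : grV A0), c ≠ 0 ∧ grRho A0 u ≠ 0 ∧
      ι x = algebraMap K0 (LaurentSeries K0) c * (u : LaurentSeries K0))
    (J : F) {n : ℕ} (b : Fin n → F)
    (hspan : ∀ x : F, ∃ a : Fin n → ↥K0⟮J⟯, x = ∑ i, algebraMap ↥K0⟮J⟯ F (a i) * b i)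
    (huniqJ : ∀ O' : ValuationSubring F,
      (∀ y : ↥K0⟮J⟯, algebraMap ↥K0⟮J⟯ F y ∈ O' ↔ algebraMap ↥K0⟮J⟯ F y ∈ V) → O' = V)
    (τ : ↥A0) (hτ : Irreducible τ) (t : F) (htV : t ∈ V) (htV' : t⁻¹ ∈ V)
    (htres : Transcendental (IsLocalRing.ResidueField ↥A0) (grRho A0 ⟨ι t, (hV t).mp htV⟩))
    (hj : J ∈ K0⟮t⟯) (m : ℕ) (hm : 0 < m) :
    t * t⁻¹ = 1 ∧ t ∈ chtO ↥A0 {t} ∧ t⁻¹ ∈ chtO ↥A0 {t⁻¹} ∧
    (∃ b0 : Finset F, (∀ y ∈ b0, y ∈ chtO ↥A0 {t}) ∧ ∀ y ∈ chtO ↥A0 {t}, y ∈ Submodule.span ↥A0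
      (Set.image2 (fun (k : ℕ) (y' : F) => t ^ k * y') Set.univ (b0 : Set F))) ∧
    (∃ b1 : Finset F, (∀ y ∈ b1, y ∈ chtO ↥A0 {t⁻¹}) ∧ ∀ y ∈ chtO ↥A0 {t⁻¹},
      y ∈ Submodule.span ↥A0
      (Set.image2 (fun (k : ℕ) (y' : F) => t⁻¹ ^ k * y') Set.univ (b1 : Set F))) ∧
    (∀ x ∈ chtO ↥A0 {t}, ∃ n : ℕ, x * t⁻¹ ^ n ∈ chtO ↥A0 {t⁻¹}) ∧
    (∀ x ∈ chtO ↥A0 {t⁻¹}, ∃ n : ℕ, x * t ^ n ∈ chtO ↥A0 {t}) ∧
    (∀ x : F, ∃ a ∈ chtO ↥A0 {t}, ∃ s ∈ chtO ↥A0 {t}, s ≠ 0 ∧ x * s = a) ∧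
    (∀ z : F, z ^ m ∈ chtO ↥A0 {t} → z ∈ chtO ↥A0 {t}) ∧
    (∀ z : F, z ^ m ∈ chtO ↥A0 {t⁻¹} → z ∈ chtO ↥A0 {t⁻¹}) ∧
    (∀ x ∈ chtO ↥A0 {t}, x ∈ chtO ↥A0 {t⁻¹} → x ∈ Set.range (algebraMap ↥A0 F)) ∧
    (∀ x ∈ chtO ↥A0 {t}, x ∈ V) ∧ (∀ x ∈ chtO ↥A0 {t⁻¹}, x ∈ V) ∧
    (∀ x ∈ chtO ↥A0 {t}, x ∈ V.nonunits → ∃ y ∈ chtO ↥A0 {t}, x = algebraMap ↥A0 F τ * y) ∧
    (∀ x ∈ chtO ↥A0 {t⁻¹}, x ∈ V.nonunits →
      ∃ y ∈ chtO ↥A0 {t⁻¹}, x = algebraMap ↥A0 F τ * y) := by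
  have hAV := chg_hA A0 ι V hV
  have hτV := chg_htauV A0 ι V hnon τ hτ.not_isUnit
  have hL : ∀ y : ↥K0⟮J⟯, algebraMap ↥K0⟮J⟯ F y ∈ K0⟮t⟯ :=
    fun y => (IntermediateField.adjoin_simple_le_iff.mpr hj) y.2
  have ht := chg_transcendental A0 ι t ((hV t).mp htV) htres
  exact cht_all (K0 := K0) V hAV hτ hτV
    (cht_htaugen_of_decomp (K0 := K0) V hAV hτ hτV (chg_decomp A0 ι V hV hdec))
    t ht htV htV' (chg_hG A0 ι V hnon τ hτ t ((hV t).mp htV) htres)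
    (cht_hfin_of_span (K0 := K0) t ht hL b hspan)
    (cht_huniq_of_sub (K0 := K0) V t hL huniqJ)
    (cht_hconst_of_embedding ι) m hm

end

end Fermat.Agent.S18
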