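import Mathlib
import Fermat.Agent.S18.Conn

/-!
# Integrality transfer between the two charts

`conn_isIntegral_mul_pow`: if `u * v = 1` and `y` is integral over `A[u]`, then `y * v ^ n` is
integral over `A[v]` for all large `n`.
-/

set_option autoImplicit false

namespace Fermat.Agent.S18

open Polynomial

section

variable {A L : Type*} [CommRing A] [CommRing L] [Algebra A L]

theorem conn_aeval_mul_pow_mem (u v : L) (huv : u * v = 1) (q : A[X]) (M : ℕ)
    (hM : q.natDegree ≤ M) : aeval u q * v ^ M ∈ Algebra.adjoin A {v} := by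
  rw [aeval_eq_sum_range, Finset.sum_mul]
  refine Subalgebra.sum_mem _ fun j hj => ?_
  rw [Finset.mem_range] at hj
  obtain ⟨d, rfl⟩ := Nat.exists_eq_add_of_le (show j ≤ M by omega)
  have : q.coeff j • u ^ j * v ^ (j + d) = q.coeff j • v ^ d := by
    rw [pow_add, smul_mul_assoc, ← mul_assoc, ← mul_pow, huv, one_pow, one_mul]
  rw [this]
  exact Subalgebra.smul_mem _ (Subalgebra.pow_mem _ (Algebra.self_mem_adjoin_singleton A v) _) _

/-- If `u * v = 1` and `y` is integral over `A[u]`, then `y * v ^ n` is integral over `A[v]`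
for all sufficiently large `n`. -/
theorem conn_isIntegral_mul_pow (u v : L) (huv : u * v = 1) (y : L)
    (hy : IsIntegral (Algebra.adjoin A {u}) y) :
    ∃ N : ℕ, ∀ n : ℕ, N ≤ n → IsIntegral (Algebra.adjoin A {v}) (y * v ^ n) := by
  classical
  obtain ⟨P, hPm, hP0⟩ := hy
  set d := P.natDegree with hd
  have hc : ∀ i : ℕ, ∃ q : A[X], aeval u q = ((P.coeff i : Algebra.adjoin A {u}) : L) := by
    intro i
    have h2 : ((P.coeff i : Algebra.adjoin A {u}) : L) ∈ (aeval u : A[X] →ₐ[A] L).range := by
      rw [← Algebra.adjoin_singleton_eq_range_aeval]; exact (P.coeff i).2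
    exact h2
  choose q hq using hc
  refine ⟨(Finset.range (d + 1)).sup fun i => (q i).natDegree, fun e he => ?_⟩
  have hqdeg : ∀ i, i < d + 1 → (q i).natDegree ≤ e := fun i hi =>
    le_trans (Finset.le_sup (f := fun i => (q i).natDegree) (Finset.mem_range.mpr hi)) he
  set c : ℕ → L := fun i => ((P.coeff i : Algebra.adjoin A {u}) : L) with hcdef
  set S : L[X] := ∑ i ∈ Finset.range d, C (c i * v ^ (e * (d - i))) * X ^ i with hS
  set Q : L[X] := X ^ d + S with hQ
  have hSdeg : S.degree < d := by
    rw [degree_lt_iff_coeff_zero]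
    intro m hm
    rw [hS, finsetSum_coeff]
    apply Finset.sum_eq_zero
    intro i hi
    rw [Finset.mem_range] at hi
    rw [coeff_C_mul, coeff_X_pow, if_neg (by omega), mul_zero]
  have hQm : Q.Monic := monic_X_pow_add hSdeg
  have hmemc : ∀ i, i < d → c i * v ^ (e * (d - i)) ∈ Algebra.adjoin A {v} := by
    intro i hi
    rw [hcdef]
    simp only
    rw [← hq i]
    apply conn_aeval_mul_pow_mem u v huv
    refine le_trans (hqdeg i (by omega)) ?_
    exact Nat.le_mul_of_pos_right e (by omega)
  have hQlift : Q ∈ lifts (algebraMap (Algebra.adjoin A {v}) L) := by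
    rw [lifts_iff_coeff_lifts]
    intro k
    have hrange : ∀ x : L, x ∈ Algebra.adjoin A {v} →
        x ∈ Set.range (algebraMap (Algebra.adjoin A {v}) L) := fun x hx => ⟨⟨x, hx⟩, rfl⟩
    apply hrange
    rw [hQ, coeff_add, coeff_X_pow, hS, finsetSum_coeff]
    refine Subalgebra.add_mem _ ?_ ?_
    · split_ifs
      · exact Subalgebra.one_mem _
      · exact Subalgebra.zero_mem _
    · refine Subalgebra.sum_mem _ fun i hi => ?_
      rw [Finset.mem_range] at hi
      rw [coeff_C_mul, coeff_X_pow]
      split_ifs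
      · rw [mul_one]; exact hmemc i hi
      · rw [mul_zero]; exact Subalgebra.zero_mem _
  obtain ⟨q', hq'map, -, hq'm⟩ := lifts_and_natDegree_eq_and_monic hQlift hQm
  refine ⟨q', hq'm, ?_⟩
  rw [eval₂_eq_eval_map, hq'map, hQ, eval_add, eval_pow, eval_X, hS, eval_finsetSum]
  have hrel : ∑ i ∈ Finset.range (d + 1), c i * y ^ i = 0 := by
    have := hP0
    rw [eval₂_eq_sum_range] at this
    exact this
  have hlead : c d = 1 := by
    rw [hcdef]
    simp only
    have : P.coeff d = 1 := hPm.coeff_natDegree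
    rw [this]; rfl
  rw [Finset.sum_range_succ, hlead, one_mul] at hrel
  have hterm : ∀ i ∈ Finset.range d,
      eval (y * v ^ e) (C (c i * v ^ (e * (d - i))) * X ^ i) = v ^ (e * d) * (c i * y ^ i) := by
    intro i hi
    rw [Finset.mem_range] at hi
    rw [eval_mul, eval_C, eval_pow, eval_X, mul_pow, ← pow_mul]
    have : e * d = e * (d - i) + e * i := by
      rw [← Nat.mul_add, Nat.sub_add_cancel hi.le]
    rw [this, pow_add]; ring
  rw [Finset.sum_congr rfl hterm, ← Finset.mul_sum, mul_pow, ← pow_mul]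
  have : y ^ d * v ^ (e * d) + v ^ (e * d) * ∑ i ∈ Finset.range d, c i * y ^ i =
      v ^ (e * d) * (∑ i ∈ Finset.range d, c i * y ^ i + y ^ d) := by ring
  rw [this, hrel, mul_zero]

end

end Fermat.Agent.S18
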