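import Mathlib

/-!
# S18, work package COREINST, part 3: transfer of the Dedekind property between two
descriptions of a chart

The abstract core theorem wants `IsDedekindDomain (O ⧸ span {algebraMap A O τ})` for a chart
`O : Subalgebra A F`, while the special-fibre package produces the same statement for
`O' = integralClosure R F` (with `R = A[X]` acting through the chart coordinate) and `π = C τ`.
If the two subalgebras have the same elements and `τ`, `π` have the same image in `F`, the
quotient rings are isomorphic.
-/

set_option autoImplicit false

namespace Fermat.Agent.S18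

/-- being a Dedekind domain is invariant under ring isomorphisms -/
theorem cinst_isDedekindDomain_of_ringEquiv {S T : Type*} [CommRing S] [CommRing T]
    (φ : S ≃+* T) (hT : IsDedekindDomain T) : IsDedekindDomain S := by
  have hdom : IsDomain S := φ.toMulEquiv.isDomain T
  have hn : IsNoetherianRing S := isNoetherianRing_of_ringEquiv T φ.symm
  have hdim : Ring.DimensionLEOne S := Ring.DimensionLEOne.of_ringEquiv φ
  have hic : IsIntegrallyClosed S := IsIntegrallyClosed.of_equiv φ.symm
  exact { hdom, hn, hdim, hic with }

section Transfer

variable {A F R : Type*} [CommRing A] [Field F] [Algebra A F] [CommRing R] [Algebra R F]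

/-- two subalgebras (over different base rings) with the same elements are isomorphic rings -/
def cinstCarrierEquiv (O : Subalgebra A F) (O' : Subalgebra R F)
    (hcar : ∀ x : F, x ∈ O ↔ x ∈ O') : O ≃+* O' where
  toFun x := ⟨x, (hcar x).mp x.2⟩
  invFun x := ⟨x, (hcar x).mpr x.2⟩
  left_inv _ := rfl
  right_inv _ := rfl
  map_mul' _ _ := rfl
  map_add' _ _ := rfl

theorem cinstCarrierEquiv_coe (O : Subalgebra A F) (O' : Subalgebra R F)
    (hcar : ∀ x : F, x ∈ O ↔ x ∈ O') (x : O) :
    ((cinstCarrierEquiv O O' hcar x : O') : F) = (x : F) := rfl

/-- the quotients of the two descriptions of a chart by "the same" element are isomorphic -/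
def cinstQuotEquiv (O : Subalgebra A F) (O' : Subalgebra R F)
    (hcar : ∀ x : F, x ∈ O ↔ x ∈ O') (τ : A) (π : R)
    (hτπ : algebraMap A F τ = algebraMap R F π) :
    (O ⧸ Ideal.span {algebraMap A O τ}) ≃+* (O' ⧸ Ideal.span {algebraMap R O' π}) :=
  Ideal.quotientEquiv _ _ (cinstCarrierEquiv O O' hcar) (by
    rw [Ideal.map_span, Set.image_singleton]
    congr 2
    apply Subtype.ext
    show algebraMap R F π = algebraMap A F τ
    exact hτπ.symm)

/-- **Transfer.** The Dedekind property of the special fibre of a chart does not depend on the
description of the chart. -/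
theorem cinst_isDedekindDomain_transfer (O : Subalgebra A F) (O' : Subalgebra R F)
    (hcar : ∀ x : F, x ∈ O ↔ x ∈ O') (τ : A) (π : R)
    (hτπ : algebraMap A F τ = algebraMap R F π)
    (hD : IsDedekindDomain (O' ⧸ Ideal.span {algebraMap R O' π})) :
    IsDedekindDomain (O ⧸ Ideal.span {algebraMap A O τ}) :=
  cinst_isDedekindDomain_of_ringEquiv (cinstQuotEquiv O O' hcar τ π hτπ) hD

end Transfer

end Fermat.Agent.S18
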