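import Fermat.Agent.S18.CuspInj
import Fermat.Agent.S24.CosetsCusps
import Fermat.Agent.S24.CosetsIndex

/-!
# S18, package CUSPCOUNT: the `T`-orbit labelling of the reduced cusp expansions

* `cciOrb M`: the set of `T`-orbits on `SL(2, ℤ) ⧸ Γ₀(M)`, a finite type of cardinality
  `cuspCount M` (`cci_card_orb`);
* `cci_coeff_zero_orbit`: along a `T`-orbit the reduced cusp expansions of a Gauss-integral
  function have the same constant coefficient (the hypothesis `hc` of `cca_card_le`).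
-/

set_option autoImplicit false

noncomputable section

open ModularCurve Polynomial Fermat.Agent.S24
open scoped IntermediateField MatrixGroups

namespace Fermat.Agent.S18

local notation "Qb" => AlgebraicClosure ℚ

/-- The `T`-orbits on `SL(2, ℤ) ⧸ Γ₀(M)` (the cusps of `X₀(M)`). -/
abbrev cciOrb (M : ℕ) : Type :=
  MulAction.orbitRel.Quotient (Subgroup.zpowers (ModularGroup.T : SL(2, ℤ)))
    (SL(2, ℤ) ⧸ CongruenceSubgroup.Gamma0 M)

/-- The orbit of a coset. -/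
def cciOrbMk (M : ℕ) (q : SL(2, ℤ) ⧸ CongruenceSubgroup.Gamma0 M) : cciOrb M :=
  Quotient.mk'' q

instance cciOrb_finite (M : ℕ) [NeZero M] : Finite (cciOrb M) :=
  Quotient.finite _

instance cciOrb_fintype (M : ℕ) [NeZero M] : Fintype (cciOrb M) := Fintype.ofFinite _

theorem cci_card_orb (M : ℕ) [NeZero M] : Fintype.card (cciOrb M) = cuspCount M := by
  rw [← Nat.card_eq_fintype_card]
  exact card_orbits_T M (NeZero.ne M)

theorem cciOrbMk_eq_iff (M : ℕ) (q q' : SL(2, ℤ) ⧸ CongruenceSubgroup.Gamma0 M) :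
    cciOrbMk M q = cciOrbMk M q' ↔ ∃ n : ℤ, q = (ModularGroup.T ^ n : SL(2, ℤ)) • q' := by
  rw [cciOrbMk, cciOrbMk, Quotient.eq'']
  constructor
  · rintro ⟨⟨g, hg⟩, rfl⟩
    obtain ⟨n, rfl⟩ := Subgroup.mem_zpowers_iff.mp hg
    exact ⟨n, rfl⟩
  · rintro ⟨n, rfl⟩
    exact ⟨⟨_, n, rfl⟩, rfl⟩

section Main

variable (A : ValuationSubring Qb) (M : ℕ) [NeZero M]

/-- One step: `T • q` and `q` give the same constant coefficient. -/
theorem cci_coeff_zero_T (x : ↥(modularFunctionFieldBar M))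
    (hx : ∀ q, ccjTau M q x ∈ grV A) (q : SL(2, ℤ) ⧸ CongruenceSubgroup.Gamma0 M) :
    (grRho A ⟨ccjTau M (ModularGroup.T • q) x, hx _⟩).coeff 0 =
      (grRho A ⟨ccjTau M q x, hx q⟩).coeff 0 := by
  obtain ⟨ζ, hζ, h⟩ := cci_res_T A M
  rw [h q x (hx q) (hx _), ccjTwist_coeff, zpow_zero, one_mul]

theorem cci_coeff_zero_pow (x : ↥(modularFunctionFieldBar M))
    (hx : ∀ q, ccjTau M q x ∈ grV A) (q : SL(2, ℤ) ⧸ CongruenceSubgroup.Gamma0 M) (n : ℕ) :
    (grRho A ⟨ccjTau M ((ModularGroup.T ^ n : SL(2, ℤ)) • q) x, hx _⟩).coeff 0 =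
      (grRho A ⟨ccjTau M q x, hx q⟩).coeff 0 := by
  induction n with
  | zero =>
    have e : ((ModularGroup.T ^ 0 : SL(2, ℤ)) • q) = q := by rw [pow_zero, one_smul]
    have e2 : (⟨ccjTau M ((ModularGroup.T ^ 0 : SL(2, ℤ)) • q) x, hx _⟩ : grV A) =
        ⟨ccjTau M q x, hx q⟩ := Subtype.ext (by rw [e])
    rw [e2]
  | succ n ih =>
    have e : ((ModularGroup.T ^ (n + 1) : SL(2, ℤ)) • q) =
        ModularGroup.T • ((ModularGroup.T ^ n : SL(2, ℤ)) • q) := by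
      rw [pow_succ', mul_smul]
    have e2 : (⟨ccjTau M ((ModularGroup.T ^ (n + 1) : SL(2, ℤ)) • q) x, hx _⟩ : grV A) =
        ⟨ccjTau M (ModularGroup.T • ((ModularGroup.T ^ n : SL(2, ℤ)) • q)) x, hx _⟩ :=
      Subtype.ext (by rw [e])
    rw [e2, cci_coeff_zero_T A M x hx, ih]

theorem cci_coeff_zero_zpow (x : ↥(modularFunctionFieldBar M))
    (hx : ∀ q, ccjTau M q x ∈ grV A) (q : SL(2, ℤ) ⧸ CongruenceSubgroup.Gamma0 M) (n : ℤ) :
    (grRho A ⟨ccjTau M ((ModularGroup.T ^ n : SL(2, ℤ)) • q) x, hx _⟩).coeff 0 =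
      (grRho A ⟨ccjTau M q x, hx q⟩).coeff 0 := by
  obtain ⟨m, rfl | rfl⟩ := n.eq_nat_or_neg
  · have e2 : (⟨ccjTau M ((ModularGroup.T ^ (m : ℤ) : SL(2, ℤ)) • q) x, hx _⟩ : grV A) =
        ⟨ccjTau M ((ModularGroup.T ^ m : SL(2, ℤ)) • q) x, hx _⟩ :=
      Subtype.ext (by rw [zpow_natCast])
    rw [e2, cci_coeff_zero_pow A M x hx q m]
  · -- `q = T ^ m • (T ^ (-m) • q)`
    have h1 := cci_coeff_zero_pow A M x hx ((ModularGroup.T ^ (-(m : ℤ)) : SL(2, ℤ)) • q) m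
    have e : ((ModularGroup.T ^ m : SL(2, ℤ)) • ((ModularGroup.T ^ (-(m : ℤ)) : SL(2, ℤ)) • q))
        = q := by
      rw [← mul_smul, ← zpow_natCast, ← zpow_add, add_neg_cancel, zpow_zero, one_smul]
    have e2 : (⟨ccjTau M ((ModularGroup.T ^ m : SL(2, ℤ)) •
        ((ModularGroup.T ^ (-(m : ℤ)) : SL(2, ℤ)) • q)) x, hx _⟩ : grV A) =
        ⟨ccjTau M q x, hx q⟩ := Subtype.ext (by rw [e])
    rw [e2] at h1
    exact h1.symm

/-- **Along a `T`-orbit the reduced cusp expansions have the same constant coefficient.** -/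
theorem cci_coeff_zero_orbit (x : ↥(modularFunctionFieldBar M))
    (hx : ∀ q, ccjTau M q x ∈ grV A) (q q' : SL(2, ℤ) ⧸ CongruenceSubgroup.Gamma0 M)
    (h : cciOrbMk M q = cciOrbMk M q') :
    (grRho A ⟨ccjTau M q x, hx q⟩).coeff 0 = (grRho A ⟨ccjTau M q' x, hx q'⟩).coeff 0 := by
  obtain ⟨n, hn⟩ := (cciOrbMk_eq_iff M q q').1 h
  have e2 : (⟨ccjTau M q x, hx q⟩ : grV A) =
      ⟨ccjTau M ((ModularGroup.T ^ n : SL(2, ℤ)) • q') x, hx _⟩ := Subtype.ext (by rw [hn])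
  rw [e2, cci_coeff_zero_zpow A M x hx q' n]

end Main

end Fermat.Agent.S18
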