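import Fermat.Agent.S18.Disc0Rel
import Fermat.Agent.S24.Classify
import Fermat.Agent.S24.CosetsFinal
import Fermat.Agent.S24.Degree
import Fermat.Agent.S24.SysFin
import Fermat.Agent.S24.SysCusp

/-!
# S18, package DISC0 (part 3): the fibre facts of `j` at level `N` (from S24) and the
characteristic-zero discriminant of a Hauptmodul chart of `X₀(N)`

`d0l_hgen`, `d0l_h0`, `d0l_h1728`, `d0l_card_poles`: the hypotheses of `d0r_main` for
`j = jBar N` in the function field of `X₀(N)` over `ℚ̄`.  `d0l_main`: `d0r_main` at level `N`.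
-/

set_option autoImplicit false

namespace Fermat.Agent.S18

open ModularCurve AlgebraicCurve IntermediateField Polynomial Fermat.Agent.S24
open scoped MatrixGroups

section level

variable (N : ℕ) [NeZero N]

local notation "Qb" => AlgebraicClosure ℚ
set_option quotPrecheck false in
local notation "Fb" => ↥(ModularCurve.modularFunctionFieldBar N)

/-- Generic fibres of `j` on `X₀(N)` are unramified. -/
theorem d0l_hgen (a : Qb) (ha0 : a ≠ 0) (ha1 : a ≠ 1728) (P : Place Qb Fb)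
    (hP : 0 < P.ord (jBar N - algebraMap Qb Fb a)) :
    P.ord (jBar N - algebraMap Qb Fb a) = 1 := by
  have hx := transcendental_jBar' N
  have _i0 := finiteDimensional_jBar' N
  obtain ⟨S, hS⟩ := exists_laurentSystem_generic N a ha0 ha1
  have _i3 := sf_finiteDimensional_sub (jBar N) a
  exact S.ord_eq_one (sf_transcendental_sub hx a) hS P hP

/-- The fibre of `j` over `0`: ramification indices divide `3`. -/
theorem d0l_h0 (P : Place Qb Fb) (hP : 0 < P.ord (jBar N)) :
    ∃ m : ℤ, 0 < m ∧ m * P.ord (jBar N) = 3 := by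
  have hx := transcendental_jBar' N
  have _i0 := finiteDimensional_jBar' N
  obtain ⟨S, hS, -⟩ := exists_laurentSystem_zero N
  obtain ⟨m, hm0, hm⟩ := S.exists_mul_ord_eq hx P hP
  refine ⟨m, hm0, ?_⟩
  rw [hm, hS]
  rfl

/-- The fibre of `j` over `1728`: ramification indices divide `2`. -/
theorem d0l_h1728 (P : Place Qb Fb) (hP : 0 < P.ord (jBar N - algebraMap Qb Fb 1728)) :
    ∃ m : ℤ, 0 < m ∧ m * P.ord (jBar N - algebraMap Qb Fb 1728) = 2 := by
  have hx := transcendental_jBar' N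
  have _i0 := finiteDimensional_jBar' N
  obtain ⟨S, hS, -⟩ := exists_laurentSystem_1728 N
  have _i1 := sf_finiteDimensional_sub (jBar N) (1728 : Qb)
  obtain ⟨m, hm0, hm⟩ := S.exists_mul_ord_eq (sf_transcendental_sub hx 1728) P hP
  refine ⟨m, hm0, ?_⟩
  rw [hm, hS]
  rfl

/-- The number of places of `X₀(N)` above `j = ∞` is the number of cusps. -/
theorem d0l_card_poles : Nat.card (zeroPlaces Qb (jBar N)⁻¹) = cuspCount N := by
  have hx := transcendental_jBar' N
  have _i0 := finiteDimensional_jBar' N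
  obtain ⟨S, -, hSπ⟩ := exists_laurentSystem_infty N
  have _i2 := sf_finiteDimensional_inv (K := Qb) (jBar N)
  rw [S.card_zeroPlaces (sf_transcendental_inv hx), hSπ, orbCount_T]

/-- **The characteristic-zero discriminant of the chart `t = (h - c₁)/(h - c₀)` of a Hauptmodul
`h` on `X₀(N)`**, with `∑ n = cuspCount N`.  `jBar N * Q(h) = P(h)`; `ρ` enumerates the roots
of `Q` (the finite cusp values of `h`); `c₀` is not a cusp value. -/
theorem d0l_main {E : Type*} [Field E] [Algebra Qb[X] E] [IsFractionRing Qb[X] E]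
    [Algebra E Fb] [Algebra Qb[X] Fb] [IsScalarTower Qb[X] E Fb]
    [FiniteDimensional E Fb] {J : Type*} [Fintype J]
    (h : Fb) (Pp Q P3 P2 : Qb[X]) (hrel : jBar N * aeval h Q = aeval h Pp)
    (hcop : IsCoprime Pp Q) (hdeg : Q.natDegree < Pp.natDegree) (hcube : Pp = P3 ^ 3)
    (hsq : Pp - 1728 * Q = P2 ^ 2) (c0 c1 : Qb) (hc : c0 ≠ c1) (hQc0 : Q.eval c0 ≠ 0)
    (hX : ∀ P : Qb[X], algebraMap Qb[X] Fb P =
      aeval ((h - algebraMap Qb Fb c1) / (h - algebraMap Qb Fb c0)) P)
    (ρ : J → Qb) (hρ : Function.Injective ρ) (hρQ : ∀ r : Qb, Q.eval r = 0 ↔ ∃ i, ρ i = r) :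
    ∃ (β : Module.Basis (Fin (Module.finrank E Fb)) E Fb) (u : Qb) (e n : Option J → ℕ),
      (∀ i, IsIntegral Qb[X] (β i)) ∧
      (∀ x : Fb, IsIntegral Qb[X] x → x ∈ Submodule.span Qb[X] (Set.range β)) ∧ u ≠ 0 ∧
      (∀ o, e o + n o ≤ Module.finrank E Fb) ∧ ∑ o, n o = cuspCount N ∧
      Algebra.discr E β = algebraMap Qb[X] E (C u * ∏ o, (X - C (d0Tau c0 c1 ρ o)) ^ e o) := by
  obtain ⟨β, u, e, n, h1, h2, h3, h4, h5, h6⟩ :=
    d0r_main (E := E) (jBar N) h Pp Q P3 P2 hrel hcop hdeg hcube hsq (d0l_hgen N) (d0l_h0 N)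
      (d0l_h1728 N) c0 c1 hc hQc0 hX ρ hρ hρQ
  exact ⟨β, u, e, n, h1, h2, h3, h4, by rw [h5, d0l_card_poles], h6⟩

end level

end Fermat.Agent.S18
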