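import Fermat.Agent.S18.Disc0

/-!
# S18, package DISC0 (part 2): the fibres of a Hauptmodul `h` from the fibres of `j`

Abstract, record-generic bridge: `j * Q(h) = P(h)` with `P`, `Q` coprime, `deg Q < deg P`,
`P = P3 ^ 3`, `P - 1728 Q = P2 ^ 2`, and the three facts about the fibres of `j` that S24 proves
at every level.  Output: the hypotheses of `d0_discr_factorization_moebius` and the total count
of the places above `j = ∞`.
-/

set_option autoImplicit false

namespace Fermat.Agent.S18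

open AlgebraicCurve IntermediateField Polynomial Fermat.Agent.S24

section rel

variable {K F : Type*} [Field K] [Field F] [Algebra K F]

/-- If `h` is regular at `P`, so is every polynomial in `h`. -/
theorem d0r_aeval_mem (P : Place K F) (h : F) (hh : h ∈ P.toValuationSubring) (R : K[X]) :
    aeval h R ∈ P.toValuationSubring := by
  rw [aeval_eq_sum_range]
  refine sum_mem fun i _ => ?_
  rw [Algebra.smul_def]
  exact mul_mem (P.algebraMap_mem' _) (pow_mem hh i)

theorem d0r_mem_of_pos (P : Place K F) (h : F) (c : K)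
    (hpos : 0 < P.ord (h - algebraMap K F c)) : h ∈ P.toValuationSubring := by
  have h1 : h - algebraMap K F c ∈ P.toValuationSubring := (sf_ord_nonneg_iff P _).1 hpos.le
  have := add_mem h1 (P.algebraMap_mem' c)
  simpa using this

theorem d0r_ne_of_pos (P : Place K F) {x : F} (hpos : 0 < P.ord x) : x ≠ 0 := by
  rintro rfl
  rw [P.ord_zero] at hpos
  exact lt_irrefl _ hpos

/-- At a zero of `h - c`, a polynomial `R` with `R(c) ≠ 0` is a unit. -/
theorem d0r_ord_aeval_eq_zero (P : Place K F) (h : F) (c : K)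
    (hpos : 0 < P.ord (h - algebraMap K F c)) (R : K[X]) (hR : R.eval c ≠ 0) :
    aeval h R ≠ 0 ∧ P.ord (aeval h R) = 0 := by
  obtain ⟨q, hq⟩ := Polynomial.X_sub_C_dvd_sub_C_eval (a := c) (p := R)
  have h1 : aeval h R = algebraMap K F (R.eval c) + (h - algebraMap K F c) * aeval h q := by
    have h2 : R = C (R.eval c) + (X - C c) * q := by rw [← hq]; ring
    conv_lhs => rw [h2]
    simp [aeval_C]
  have hc0 : algebraMap K F (R.eval c) ≠ 0 := by
    rw [Ne, map_eq_zero]
    exact hR
  by_cases hq0 : (h - algebraMap K F c) * aeval h q = 0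
  · rw [h1, hq0, add_zero, sf_ord_algebraMap]
    exact ⟨hc0, rfl⟩
  · have hlt : P.ord (algebraMap K F (R.eval c)) <
        P.ord ((h - algebraMap K F c) * aeval h q) := by
      rw [sf_ord_algebraMap, P.ord_mul (left_ne_zero_of_mul hq0) (right_ne_zero_of_mul hq0)]
      have h3 : 0 ≤ P.ord (aeval h q) :=
        (sf_ord_nonneg_iff _ _).2 (d0r_aeval_mem P h (d0r_mem_of_pos P h c hpos) q)
      omega
    have h4 := d0_ord_add_eq P hc0 hlt
    refine ⟨?_, by rw [h1, h4, sf_ord_algebraMap]⟩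
    rw [h1]
    intro h5
    rw [h5, P.ord_zero, sf_ord_algebraMap] at h4
    rw [sf_ord_algebraMap] at hlt
    have h6 : (h - algebraMap K F c) * aeval h q = - algebraMap K F (R.eval c) :=
      eq_neg_of_add_eq_zero_right h5
    rw [h6, sf_ord_neg, sf_ord_algebraMap] at hlt
    exact lt_irrefl _ hlt

/-- At a zero of `h - c`: the order of `R(h)` is `mult_c(R) * ord(h - c)`. -/
theorem d0r_ord_aeval (P : Place K F) (h : F) (c : K)
    (hpos : 0 < P.ord (h - algebraMap K F c)) (R : K[X]) (hR : R ≠ 0) :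
    aeval h R ≠ 0 ∧
      P.ord (aeval h R) = (R.rootMultiplicity c : ℤ) * P.ord (h - algebraMap K F c) := by
  obtain ⟨q, hq, hndvd⟩ := Polynomial.exists_eq_pow_rootMultiplicity_mul_and_not_dvd R hR c
  have hqc : q.eval c ≠ 0 := fun h0 => hndvd (dvd_iff_isRoot.2 h0)
  have h1 : aeval h R = (h - algebraMap K F c) ^ R.rootMultiplicity c * aeval h q := by
    conv_lhs => rw [hq]
    simp [aeval_C]
  have hne : h - algebraMap K F c ≠ 0 := d0r_ne_of_pos P hpos
  obtain ⟨hq0, hq1⟩ := d0r_ord_aeval_eq_zero P h c hpos q hqc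
  refine ⟨by rw [h1]; exact mul_ne_zero (pow_ne_zero _ hne) hq0, ?_⟩
  rw [h1, P.ord_mul (pow_ne_zero _ hne) hq0, sf_ord_pow, hq1, add_zero]

/-- At a pole of `h`: the order of `R(h)` is `deg R * ord h`. -/
theorem d0r_ord_aeval_of_neg (P : Place K F) (h : F) (hneg : P.ord h < 0) (R : K[X])
    (hR : R ≠ 0) :
    aeval h R ≠ 0 ∧ P.ord (aeval h R) = (R.natDegree : ℤ) * P.ord h := by
  have hh0 : h ≠ 0 := by
    rintro rfl
    rw [P.ord_zero] at hneg
    exact lt_irrefl _ hneg
  let _ : Invertible h := invertibleOfNonzero hh0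
  have h1 : aeval h R = aeval h⁻¹ R.reverse * h ^ R.natDegree := by
    have := Polynomial.eval₂_reverse_mul_pow (algebraMap K F) h R
    rw [invOf_eq_inv] at this
    rw [aeval_def, aeval_def, this]
  have hpos : 0 < P.ord (h⁻¹ - algebraMap K F 0) := by
    rw [map_zero, sub_zero, P.ord_inv]
    omega
  have hrev : R.reverse.eval 0 ≠ 0 := by
    rw [← coeff_zero_eq_eval_zero, coeff_zero_reverse]
    exact leadingCoeff_ne_zero.2 hR
  obtain ⟨h2, h3⟩ := d0r_ord_aeval_eq_zero P h⁻¹ 0 hpos R.reverse hrev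
  refine ⟨by rw [h1]; exact mul_ne_zero h2 (pow_ne_zero _ hh0), ?_⟩
  rw [h1, P.ord_mul h2 (pow_ne_zero _ hh0), h3, sf_ord_pow, zero_add]

end rel

section fibres

variable {K F : Type*} [Field K] [Field F] [Algebra K F]

/-- `j - a` as a rational function of `h`. -/
theorem d0r_sub_eq (j h : F) (Pp Q : K[X]) (hrel : j * aeval h Q = aeval h Pp)
    (hQh : aeval h Q ≠ 0) (a : K) :
    j - algebraMap K F a = aeval h (Pp - C a * Q) / aeval h Q := by
  rw [eq_div_iff hQh, sub_mul, hrel, map_sub, map_mul, aeval_C]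

theorem d0r_sub_ne_zero (Pp Q : K[X]) (hdeg : Q.natDegree < Pp.natDegree) (a : K) :
    Pp - C a * Q ≠ 0 := by
  intro h0
  have h1 : Pp = C a * Q := sub_eq_zero.1 h0
  have h2 : (C a * Q).natDegree ≤ Q.natDegree := natDegree_C_mul_le a Q
  rw [← h1] at h2
  omega

/-- **Unramified fibres of `h`.**  Away from the roots of `Q` (the cusp values), all the zeros
of `h - c` are simple. -/
theorem d0r_ord_eq_one (j h : F) (Pp Q P3 P2 : K[X]) (hrel : j * aeval h Q = aeval h Pp)
    (hdeg : Q.natDegree < Pp.natDegree) (hcube : Pp = P3 ^ 3) (hsq : Pp - 1728 * Q = P2 ^ 2)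
    (hh : Transcendental K h)
    (hgen : ∀ a : K, a ≠ 0 → a ≠ 1728 → ∀ P : Place K F,
      0 < P.ord (j - algebraMap K F a) → P.ord (j - algebraMap K F a) = 1)
    (h0 : ∀ P : Place K F, 0 < P.ord j → ∃ m : ℤ, 0 < m ∧ m * P.ord j = 3)
    (h1728 : ∀ P : Place K F, 0 < P.ord (j - algebraMap K F 1728) →
      ∃ m : ℤ, 0 < m ∧ m * P.ord (j - algebraMap K F 1728) = 2)
    (c : K) (hQc : Q.eval c ≠ 0) (P : Place K F) (hpos : 0 < P.ord (h - algebraMap K F c)) :
    P.ord (h - algebraMap K F c) = 1 := by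
  have hQ0 : Q ≠ 0 := by
    rintro rfl
    simp at hQc
  have hQh : aeval h Q ≠ 0 := fun h1 => hQ0 ((transcendental_iff.1 hh) Q h1)
  obtain ⟨-, hQord⟩ := d0r_ord_aeval_eq_zero P h c hpos Q hQc
  -- the value of `j`
  set a : K := Pp.eval c / Q.eval c with ha
  have hRc : (Pp - C a * Q).eval c = 0 := by
    rw [eval_sub, eval_mul, eval_C, ha, div_mul_cancel₀ _ hQc, sub_self]
  have hR0 := d0r_sub_ne_zero Pp Q hdeg a
  -- order of `j - a`
  have hord : ∀ (R : K[X]), R ≠ 0 → Pp - C a * Q = R →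
      P.ord (j - algebraMap K F a) = P.ord (aeval h R) := by
    intro R hR hRe
    have hRh : aeval h R ≠ 0 := fun h1 => hR ((transcendental_iff.1 hh) R h1)
    rw [d0r_sub_eq j h Pp Q hrel hQh a, hRe, sf_ord_div P hRh hQh, hQord, sub_zero]
  have hm : (0 : ℤ) ≤ P.ord (h - algebraMap K F c) := hpos.le
  by_cases ha0 : a = 0
  · -- `j = 0`: `P = P3 ^ 3`
    have hP30 : P3 ≠ 0 := by
      rintro rfl
      apply hR0
      rw [ha0, hcube]
      simp
    have hP3c : P3.eval c = 0 := by
      have h1 : Pp.eval c = 0 := by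
        rw [ha0, C_0, zero_mul, sub_zero] at hRc
        exact hRc
      rw [hcube, eval_pow] at h1
      exact pow_eq_zero_iff (n := 3) (by norm_num) |>.1 h1
    have hmu : 0 < P3.rootMultiplicity c := (rootMultiplicity_pos hP30).2 hP3c
    have h1 := hord (P3 ^ 3) (pow_ne_zero _ hP30) (by rw [ha0, C_0, zero_mul, sub_zero, hcube])
    rw [ha0, map_zero, sub_zero, map_pow, sf_ord_pow, (d0r_ord_aeval P h c hpos P3 hP30).2]
      at h1
    obtain ⟨m, hm0, hm3⟩ := h0 P (by
      rw [h1]
      have : (0 : ℤ) < (P3.rootMultiplicity c : ℤ) * P.ord (h - algebraMap K F c) :=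
        mul_pos (by exact_mod_cast hmu) hpos
      push_cast
      omega)
    rw [h1] at hm3
    have h2 : m * (P3.rootMultiplicity c : ℤ) * P.ord (h - algebraMap K F c) = 1 := by
      push_cast at hm3
      linarith
    exact Int.eq_one_of_mul_eq_one_left hm h2
  by_cases ha1 : a = 1728
  · -- `j = 1728`: `P - 1728 Q = P2 ^ 2`
    have hC : (C (1728 : K) : K[X]) = 1728 := map_ofNat C 1728
    have hRe : Pp - C a * Q = P2 ^ 2 := by rw [ha1, hC, hsq]
    have hP20 : P2 ≠ 0 := by
      rintro rfl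
      apply hR0
      rw [hRe]
      simp
    have hP2c : P2.eval c = 0 := by
      rw [hRe, eval_pow] at hRc
      exact pow_eq_zero_iff (n := 2) (by norm_num) |>.1 hRc
    have hmu : 0 < P2.rootMultiplicity c := (rootMultiplicity_pos hP20).2 hP2c
    have h1 := hord (P2 ^ 2) (pow_ne_zero _ hP20) hRe
    rw [map_pow, sf_ord_pow, (d0r_ord_aeval P h c hpos P2 hP20).2] at h1
    rw [ha1] at h1
    obtain ⟨m, hm0, hm2⟩ := h1728 P (by
      rw [h1]
      have : (0 : ℤ) < (P2.rootMultiplicity c : ℤ) * P.ord (h - algebraMap K F c) :=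
        mul_pos (by exact_mod_cast hmu) hpos
      push_cast
      omega)
    rw [h1] at hm2
    have h2 : m * (P2.rootMultiplicity c : ℤ) * P.ord (h - algebraMap K F c) = 1 := by
      push_cast at hm2
      linarith
    exact Int.eq_one_of_mul_eq_one_left hm h2
  · -- generic value
    have hmu : 0 < (Pp - C a * Q).rootMultiplicity c := (rootMultiplicity_pos hR0).2 hRc
    have h1 := hord _ hR0 rfl
    rw [(d0r_ord_aeval P h c hpos _ hR0).2] at h1
    have h2 := hgen a ha0 ha1 P (by
      rw [h1]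
      exact mul_pos (by exact_mod_cast hmu) hpos)
    rw [h1] at h2
    exact Int.eq_one_of_mul_eq_one_left hm h2

/-- **The poles of `j`** are the poles of `h` and the zeros of `h - r`, `r` a root of `Q`. -/
theorem d0r_pole_iff [IsAlgClosed K] [CharZero K] (j h : F) (Pp Q : K[X])
    (hrel : j * aeval h Q = aeval h Pp) (hcop : IsCoprime Pp Q)
    (hdeg : Q.natDegree < Pp.natDegree) (hQ0 : Q ≠ 0) (hh : Transcendental K h)
    [FiniteDimensional K⟮h⟯ F] (P : Place K F) :
    P.ord j < 0 ↔ (P.ord h < 0 ∨ ∃ r : K, Q.eval r = 0 ∧ 0 < P.ord (h - algebraMap K F r)) := by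
  have hP0 : Pp ≠ 0 := by
    rintro rfl
    simp at hdeg
  have hQh : aeval h Q ≠ 0 := fun h1 => hQ0 ((transcendental_iff.1 hh) Q h1)
  have hPh : aeval h Pp ≠ 0 := fun h1 => hP0 ((transcendental_iff.1 hh) Pp h1)
  have hj : j = aeval h Pp / aeval h Q := by rw [eq_div_iff hQh, hrel]
  have hjord : P.ord j = P.ord (aeval h Pp) - P.ord (aeval h Q) := by
    rw [hj, sf_ord_div P hPh hQh]
  constructor
  · intro hneg
    rcases place_center h hh P with ⟨a, ha⟩ | hinf
    · by_cases hQa : Q.eval a = 0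
      · exact Or.inr ⟨a, hQa, ha⟩
      · exfalso
        obtain ⟨-, h1⟩ := d0r_ord_aeval_eq_zero P h a ha Q hQa
        have h2 : 0 ≤ P.ord (aeval h Pp) :=
          (sf_ord_nonneg_iff _ _).2 (d0r_aeval_mem P h (d0r_mem_of_pos P h a ha) Pp)
        rw [hjord, h1] at hneg
        omega
    · left
      rw [P.ord_inv] at hinf
      omega
  · rintro (hneg | ⟨r, hQr, hr⟩)
    · rw [hjord, (d0r_ord_aeval_of_neg P h hneg Pp hP0).2,
        (d0r_ord_aeval_of_neg P h hneg Q hQ0).2, ← sub_mul]
      apply mul_neg_of_pos_of_neg _ hneg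
      have : (Q.natDegree : ℤ) < Pp.natDegree := by exact_mod_cast hdeg
      omega
    · have hPr : Pp.eval r ≠ 0 := by
        intro hPr
        obtain ⟨u, v, huv⟩ := hcop
        have h1 := congrArg (eval r) huv
        rw [eval_add, eval_mul, eval_mul, hPr, hQr, mul_zero, mul_zero, add_zero, eval_one] at h1
        exact zero_ne_one h1
      obtain ⟨-, h1⟩ := d0r_ord_aeval_eq_zero P h r hr Pp hPr
      have hmu : 0 < Q.rootMultiplicity r := (rootMultiplicity_pos hQ0).2 hQr
      rw [hjord, h1, (d0r_ord_aeval P h r hr Q hQ0).2]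
      have : (0 : ℤ) < (Q.rootMultiplicity r : ℤ) * P.ord (h - algebraMap K F r) :=
        mul_pos (by exact_mod_cast hmu) hr
      omega

/-- `j` is not constant. -/
theorem d0r_transcendental_j [IsAlgClosed K] (j h : F) (Pp Q : K[X])
    (hrel : j * aeval h Q = aeval h Pp) (hdeg : Q.natDegree < Pp.natDegree)
    (hh : Transcendental K h) : Transcendental K j := by
  intro halg
  obtain ⟨a, rfl⟩ := sf_mem_range_of_isAlgebraic halg
  apply d0r_sub_ne_zero Pp Q hdeg a
  apply (transcendental_iff.1 hh)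
  rw [map_sub, map_mul, aeval_C, ← hrel, sub_self]

/-- **Counting the places above `j = ∞`** by the cusp values of `h`: the hypotheses `hcusp`,
`hinf` of `d0_discr_factorization_moebius` hold with counts adding up to the number of poles
of `j`. -/
theorem d0r_counts [IsAlgClosed K] [CharZero K] (j h : F) (Pp Q : K[X])
    (hrel : j * aeval h Q = aeval h Pp) (hcop : IsCoprime Pp Q)
    (hdeg : Q.natDegree < Pp.natDegree) (hQ0 : Q ≠ 0) (hh : Transcendental K h)
    [FiniteDimensional K⟮h⟯ F] {J : Type*} [Fintype J] (ρ : J → K)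
    (hρQ : ∀ r : K, Q.eval r = 0 → ∃ i, ρ i = r) :
    ∃ (n : J → ℕ) (ninf : ℕ),
      (∀ i, ∃ s : Finset (Place K F),
        (∀ P ∈ s, 0 < P.ord (h - algebraMap K F (ρ i))) ∧ n i ≤ s.card) ∧
      (∃ s : Finset (Place K F), (∀ P ∈ s, P.ord h < 0) ∧ ninf ≤ s.card) ∧
      ninf + ∑ i, n i = Nat.card (zeroPlaces K j⁻¹) := by
  classical
  have hj := d0r_transcendental_j j h Pp Q hrel hdeg hh
  have hjinv := sf_transcendental_inv hj
  have hfd : FiniteDimensional K⟮j⁻¹⟯ F := sf_finiteDimensional_of_transcendental h hjinv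
  have hfin := zeroPlaces_finite (K := K) j⁻¹ hjinv
  set Z : Finset (Place K F) := hfin.toFinset with hZ
  have hZmem : ∀ P, P ∈ Z ↔ P.ord j < 0 := by
    intro P
    rw [hZ, Set.Finite.mem_toFinset]
    show 0 < P.ord j⁻¹ ↔ _
    rw [P.ord_inv]
    omega
  let f : Place K F → Option J := fun P =>
    if P.ord h < 0 then none
    else if hx : ∃ i, 0 < P.ord (h - algebraMap K F (ρ i)) then some hx.choose else none
  have hf_some : ∀ P i, f P = some i → 0 < P.ord (h - algebraMap K F (ρ i)) := by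
    intro P i hPi
    simp only [f] at hPi
    split_ifs at hPi with h1 h2
    · have h3 := Option.some.inj hPi
      rw [← h3]
      exact h2.choose_spec
  have hf_none : ∀ P ∈ Z, f P = none → P.ord h < 0 := by
    intro P hP hPn
    by_contra hnn
    rcases (d0r_pole_iff j h Pp Q hrel hcop hdeg hQ0 hh P).1 ((hZmem P).1 hP) with h1 | h1
    · exact hnn h1
    · obtain ⟨r, hQr, hr⟩ := h1
      obtain ⟨i, rfl⟩ := hρQ r hQr
      simp only [f] at hPn
      rw [if_neg hnn, dif_pos ⟨i, hr⟩] at hPn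
      exact Option.some_ne_none _ hPn
  refine ⟨fun i => (Z.filter fun P => f P = some i).card, (Z.filter fun P => f P = none).card,
    fun i => ⟨Z.filter fun P => f P = some i, fun P hP => hf_some P i (Finset.mem_filter.1 hP).2,
      le_rfl⟩,
    ⟨Z.filter fun P => f P = none, fun P hP => hf_none P (Finset.mem_filter.1 hP).1
      (Finset.mem_filter.1 hP).2, le_rfl⟩, ?_⟩
  have h1 : Z.card = ∑ o : Option J, (Z.filter fun P => f P = o).card :=
    Finset.card_eq_sum_card_fiberwise (f := f) (t := Finset.univ) fun P _ => Finset.mem_univ _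
  rw [Fintype.sum_option] at h1
  rw [← h1, hZ, Nat.card_eq_card_finite_toFinset hfin]

end fibres

section main

variable {K E F : Type*} [Field K] [Field E] [Field F] [Algebra K F]
  [Algebra K[X] E] [IsFractionRing K[X] E] [Algebra E F] [Algebra K[X] F] [IsScalarTower K[X] E F]

omit [Field E] [Algebra K[X] E] [IsFractionRing K[X] E] [Algebra E F] [Algebra K[X] F]
  [IsScalarTower K[X] E F] in
theorem d0r_transcendental_h (h : F) (c0 c1 : K)
    (ht : Transcendental K ((h - algebraMap K F c1) / (h - algebraMap K F c0))) :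
    Transcendental K h := by
  intro halg
  apply ht
  rw [div_eq_mul_inv]
  exact (halg.sub (isAlgebraic_algebraMap c1)).mul (halg.sub (isAlgebraic_algebraMap c0)).inv

/-- **The characteristic-zero discriminant of the chart `t = (h - c₁)/(h - c₀)` of a Hauptmodul
`h`, with the total cusp count.**  `j * Q(h) = P(h)`; `ρ` enumerates the roots of `Q`; `c₀` is
not a root of `Q`.  The three hypotheses on the fibres of `j` are what S24 proves at every
level. -/
theorem d0r_main [IsAlgClosed K] [CharZero K] [FiniteDimensional E F] {J : Type*} [Fintype J]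
    (j h : F) (Pp Q P3 P2 : K[X]) (hrel : j * aeval h Q = aeval h Pp) (hcop : IsCoprime Pp Q)
    (hdeg : Q.natDegree < Pp.natDegree) (hcube : Pp = P3 ^ 3) (hsq : Pp - 1728 * Q = P2 ^ 2)
    (hgen : ∀ a : K, a ≠ 0 → a ≠ 1728 → ∀ P : Place K F,
      0 < P.ord (j - algebraMap K F a) → P.ord (j - algebraMap K F a) = 1)
    (h0 : ∀ P : Place K F, 0 < P.ord j → ∃ m : ℤ, 0 < m ∧ m * P.ord j = 3)
    (h1728 : ∀ P : Place K F, 0 < P.ord (j - algebraMap K F 1728) →
      ∃ m : ℤ, 0 < m ∧ m * P.ord (j - algebraMap K F 1728) = 2)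
    (c0 c1 : K) (hc : c0 ≠ c1) (hQc0 : Q.eval c0 ≠ 0)
    (hX : ∀ P : K[X], algebraMap K[X] F P =
      aeval ((h - algebraMap K F c1) / (h - algebraMap K F c0)) P)
    (ρ : J → K) (hρ : Function.Injective ρ) (hρQ : ∀ r : K, Q.eval r = 0 ↔ ∃ i, ρ i = r) :
    ∃ (β : Module.Basis (Fin (Module.finrank E F)) E F) (u : K) (e n : Option J → ℕ),
      (∀ i, IsIntegral K[X] (β i)) ∧
      (∀ x : F, IsIntegral K[X] x → x ∈ Submodule.span K[X] (Set.range β)) ∧ u ≠ 0 ∧
      (∀ o, e o + n o ≤ Module.finrank E F) ∧ ∑ o, n o = Nat.card (zeroPlaces K j⁻¹) ∧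
      Algebra.discr E β = algebraMap K[X] E (C u * ∏ o, (X - C (d0Tau c0 c1 ρ o)) ^ e o) := by
  have ht := d0_transcendental E _ hX
  have hh := d0r_transcendental_h h c0 c1 ht
  have hfd := d0_finiteDimensional (E := E) _ hX
  have hfdh : FiniteDimensional K⟮h⟯ F :=
    sf_finiteDimensional_of_transcendental (K := K)
      ((h - algebraMap K F c1) / (h - algebraMap K F c0)) hh
  have hQ0 : Q ≠ 0 := by
    rintro rfl
    simp at hQc0
  obtain ⟨n, ninf, hcusp, hinf, hsum⟩ :=
    d0r_counts j h Pp Q hrel hcop hdeg hQ0 hh ρ fun r hr => (hρQ r).1 hr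
  have hρ0 : ∀ i, ρ i ≠ c0 := fun i hi => hQc0 (by rw [← hi]; exact (hρQ _).2 ⟨i, rfl⟩)
  have hunr : ∀ c : K, (∀ i, ρ i ≠ c) → ∀ P : Place K F,
      0 < P.ord (h - algebraMap K F c) → P.ord (h - algebraMap K F c) = 1 := by
    intro c hcρ P hP
    refine d0r_ord_eq_one j h Pp Q P3 P2 hrel hdeg hcube hsq hh hgen h0 h1728 c ?_ P hP
    intro hQc
    obtain ⟨i, hi⟩ := (hρQ c).1 hQc
    exact hcρ i hi
  obtain ⟨β, u, e, hint, hspan, hu, he, hdisc⟩ :=
    d0_discr_factorization_moebius (E := E) h c0 c1 hc hX ρ hρ hρ0 n ninf hcusp hinf hunr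
  refine ⟨β, u, e, d0N ninf n, hint, hspan, hu, he, ?_, hdisc⟩
  rw [Fintype.sum_option]
  exact hsum

end main

end Fermat.Agent.S18
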