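import Fermat.Agent.S18.DiscBound

/-!
# S18, package DISC (second part): places as valuation subrings, total counts, intrinsic form

* `dscp_exists_valuationSubring`: a nonzero prime of a Dedekind domain is the centre of a
  valuation subring of the fraction field.
* `dscp_integral_mem_span`: the discriminant criterion of `DiscBound.lean` with places counted
  as valuation subrings of `L` (independent of the chart).
* `dscp_integral_mem_span_total`: the same with only a total count over finitely many primes.
* `dscp_isDedekindDomain`, `dscp_isDedekindDomain_total`: intrinsic form for a domain `B` which is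
  finite free over the PID `R`, with `Frac B / Frac R` separable.
-/

namespace Fermat.Agent.S18

open Module
open scoped nonZeroDivisors

/-- A nonzero prime of a Dedekind domain is the centre of a valuation subring of the fraction
field. -/
theorem dscp_exists_valuationSubring {S L : Type*} [CommRing S] [IsDedekindDomain S] [Field L]
    [Algebra S L] [IsFractionRing S L] (Q : Ideal S) (hQ : Q.IsPrime) (hQ0 : Q ≠ ⊥) :
    ∃ V : ValuationSubring L, (∀ x : S, algebraMap S L x ∈ V) ∧
      (∀ x : S, algebraMap S L x ∈ V.nonunits ↔ x ∈ Q) := by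
  let v : IsDedekindDomain.HeightOneSpectrum S := ⟨Q, hQ, hQ0⟩
  refine ⟨(v.valuation L).valuationSubring, fun x => ?_, fun x => ?_⟩
  · exact (Valuation.mem_valuationSubring_iff _ _).2 (v.valuation_le_one x)
  · rw [ValuationSubring.mem_nonunits_iff_or]
    constructor
    · rintro (h | h)
      · have h0 : x = 0 := IsFractionRing.injective S L (by rw [h, map_zero])
        rw [h0]
        exact Q.zero_mem
      · rw [Valuation.mem_valuationSubring_iff, map_inv₀, not_le] at h
        have hne : v.valuation L (algebraMap S L x) ≠ 0 := by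
          intro h0
          rw [h0, inv_zero] at h
          exact not_lt_of_ge zero_le_one h
        have hlt : v.valuation L (algebraMap S L x) < 1 :=
          (one_lt_inv₀ (zero_lt_iff.2 hne)).1 h
        exact (v.valuation_lt_one_iff_mem x).1 hlt
    · intro hx
      by_cases h0 : x = 0
      · left
        rw [h0, map_zero]
      · right
        rw [Valuation.mem_valuationSubring_iff, map_inv₀, not_le]
        have hlt : v.valuation L (algebraMap S L x) < 1 := (v.valuation_lt_one_iff_mem x).2 hx
        have hne : v.valuation L (algebraMap S L x) ≠ 0 := by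
          rw [Valuation.ne_zero_iff]
          exact fun h => h0 (IsFractionRing.injective S L (by rw [h, map_zero]))
        exact (one_lt_inv₀ (zero_lt_iff.2 hne)).2 hlt

/-- Transfer of a count of valuation subrings to a count of ideals. -/
theorem dscp_card_le_of_valuationSubring {S L : Type*} [CommRing S] [Field L] [Algebra S L]
    (P : ValuationSubring L → Prop) (n : ℕ)
    (hV : ∀ s : Finset (ValuationSubring L), (∀ V ∈ s, P V) → s.card ≤ n)
    (s : Finset (Ideal S))
    (hs : ∀ Q ∈ s, ∃ V : ValuationSubring L, P V ∧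
      ∀ x : S, algebraMap S L x ∈ V.nonunits ↔ x ∈ Q) : s.card ≤ n := by
  classical
  choose! W hW1 hW2 using hs
  have hinj : Set.InjOn W (s : Set (Ideal S)) := by
    intro Q hQ Q' hQ' h
    ext x
    rw [← hW2 Q hQ x, ← hW2 Q' hQ' x, h]
  rw [← Finset.card_image_of_injOn hinj]
  apply hV
  intro V hVmem
  obtain ⟨Q, hQ, rfl⟩ := Finset.mem_image.1 hVmem
  exact hW1 Q hQ

section Closure

variable {R K L : Type*} [CommRing R] [IsDomain R] [IsPrincipalIdealRing R]
  [Field K] [Field L] [Algebra R K] [IsFractionRing R K] [Algebra K L] [Algebra R L]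
  [IsScalarTower R K L] [FiniteDimensional K L] [Algebra.IsSeparable K L]

include K in
/-- Every maximal ideal of the integral closure above `p ≠ 0` is the centre of a valuation
subring of `L` containing `R` in which `p` is not a unit. -/
theorem dscp_exists_valuationSubring_closure (Q : Ideal (integralClosure R L)) (hQ : Q.IsMaximal)
    (p : R) (hp0 : p ≠ 0) (hpQ : algebraMap R (integralClosure R L) p ∈ Q) :
    ∃ V : ValuationSubring L, (∀ r : R, algebraMap R L r ∈ V) ∧ algebraMap R L p ∈ V.nonunits ∧
      (∀ x : integralClosure R L, (x : L) ∈ V) ∧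
      (∀ x : integralClosure R L, (x : L) ∈ V.nonunits ↔ x ∈ Q) := by
  have hded : IsDedekindDomain (integralClosure R L) := integralClosure.isDedekindDomain R K L
  have hfrac : IsFractionRing (integralClosure R L) L :=
    IsIntegralClosure.isFractionRing_of_finite_extension R K L (integralClosure R L)
  have hQ0 : Q ≠ ⊥ := by
    intro h0
    rw [h0, Ideal.mem_bot] at hpQ
    have hinj : Function.Injective (algebraMap R (integralClosure R L)) := by
      have h1 : Function.Injective (algebraMap R L) := by
        rw [IsScalarTower.algebraMap_eq R K L]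
        exact (algebraMap K L).injective.comp (IsFractionRing.injective R K)
      intro a c hac
      apply h1
      have := congrArg (algebraMap (integralClosure R L) L) hac
      rwa [← IsScalarTower.algebraMap_apply, ← IsScalarTower.algebraMap_apply] at this
    exact hp0 (hinj (by rw [hpQ, map_zero]))
  obtain ⟨V, hV1, hV2⟩ := dscp_exists_valuationSubring (L := L) Q hQ.isPrime hQ0
  refine ⟨V, fun r => ?_, ?_, fun x => hV1 x, fun x => hV2 x⟩
  · have := hV1 (algebraMap R (integralClosure R L) r)
    rwa [← IsScalarTower.algebraMap_apply] at this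
  · have := (hV2 (algebraMap R (integralClosure R L) p)).2 hpQ
    rwa [← IsScalarTower.algebraMap_apply] at this

variable {ι : Type*} [Fintype ι] [DecidableEq ι]

/-- The discriminant criterion with places counted as valuation subrings of `L`. -/
theorem dscp_integral_mem_span (b : Module.Basis ι K L)
    (hint : ∀ i, IsIntegral R (b i))
    (D : R) (hD : algebraMap R K D = Algebra.discr K b)
    (hloc : ∀ p : R, Prime p → p ^ 2 ∣ D → ∃ n : ℕ,
        (∀ s : Finset (ValuationSubring L),
          (∀ V ∈ s, (∀ r : R, algebraMap R L r ∈ V) ∧ algebraMap R L p ∈ V.nonunits) →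
            s.card ≤ n) ∧
        (∀ V : ValuationSubring L, (∀ r : R, algebraMap R L r ∈ V) →
          algebraMap R L p ∈ V.nonunits →
          ∀ x ∈ V, ∃ r : R, x - algebraMap R L r ∈ V.nonunits) ∧
        ¬ p ^ (Fintype.card ι - n + 2) ∣ D) :
    ∀ x : L, IsIntegral R x → x ∈ Submodule.span R (Set.range b) := by
  refine dscb_integral_mem_span b hint D hD fun p hp hp2 => ?_
  obtain ⟨n, hcV, hdV, hnd⟩ := hloc p hp hp2
  refine ⟨n, fun s hs => ?_, fun Q hQ hpQ x => ?_, hnd⟩
  · refine dscp_card_le_of_valuationSubring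
      (fun V => (∀ r : R, algebraMap R L r ∈ V) ∧ algebraMap R L p ∈ V.nonunits) n hcV s ?_
    intro Q hQ
    obtain ⟨V, h1, h2, -, h4⟩ :=
      dscp_exists_valuationSubring_closure (K := K) Q (hs Q hQ).1 p hp.ne_zero (hs Q hQ).2
    exact ⟨V, ⟨h1, h2⟩, h4⟩
  · obtain ⟨V, h1, h2, h3, h4⟩ :=
      dscp_exists_valuationSubring_closure (K := K) Q hQ p hp.ne_zero hpQ
    obtain ⟨r, hr⟩ := hdV V h1 h2 (x : L) (h3 x)
    refine ⟨r, (h4 _).1 ?_⟩
    simpa using hr

/-- Total-count variant (ideal form): if `v_p (disc b) ≤ d - n_p` at finitely many pairwise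
non-associated primes, the discriminant has no other square prime factor, and the TOTAL number of
maximal ideals of the integral closure above these primes is at most `∑ n_p`, then the lattice
spanned by `b` is the integral closure, and there are at most `n_p` maximal ideals above each
`p`. -/
theorem dscp_integral_mem_span_total_ideal (b : Module.Basis ι K L)
    (hint : ∀ i, IsIntegral R (b i))
    (D : R) (hD : algebraMap R K D = Algebra.discr K b)
    (ps : Finset R) (nn : R → ℕ)
    (hps : ∀ p ∈ ps, Prime p) (hpair : ∀ p ∈ ps, ∀ q ∈ ps, p ∣ q → p = q)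
    (hnn : ∀ p ∈ ps, nn p ≤ Fintype.card ι)
    (hD1 : ∀ p ∈ ps, ¬ p ^ (Fintype.card ι - nn p + 1) ∣ D)
    (hD2 : ∀ q : R, Prime q → q ^ 2 ∣ D → ∃ p ∈ ps, q ∣ p)
    (hdeg : ∀ p ∈ ps, ∀ Q : Ideal (integralClosure R L), Q.IsMaximal →
      algebraMap R (integralClosure R L) p ∈ Q →
      ∀ x : integralClosure R L, ∃ r : R, x - algebraMap R (integralClosure R L) r ∈ Q)
    (htotal : ∀ s : Finset (Ideal (integralClosure R L)),
      (∀ Q ∈ s, Q.IsMaximal ∧ ∃ p ∈ ps, algebraMap R (integralClosure R L) p ∈ Q) →
        s.card ≤ ∑ p ∈ ps, nn p) :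
    (∀ x : L, IsIntegral R x → x ∈ Submodule.span R (Set.range b)) ∧
    (∀ p ∈ ps, ∀ s : Finset (Ideal (integralClosure R L)),
      (∀ Q ∈ s, Q.IsMaximal ∧ algebraMap R (integralClosure R L) p ∈ Q) → s.card ≤ nn p) ∧
    (∀ p ∈ ps, ∃ s : Finset (Ideal (integralClosure R L)),
      (∀ Q ∈ s, Q.IsMaximal ∧ algebraMap R (integralClosure R L) p ∈ Q) ∧ s.card = nn p) := by
  classical
  obtain ⟨bC, δ, hdisc, hδ0, hconcl⟩ := dscb_exists_index b hint D hD
  -- finiteness of the sets of maximal ideals above the primes of `ps`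
  have hfin : ∀ p ∈ ps, {Q : Ideal (integralClosure R L) |
      Q.IsMaximal ∧ algebraMap R (integralClosure R L) p ∈ Q}.Finite := by
    intro p hp
    by_contra hinf
    obtain ⟨s, hs, hcard⟩ := Set.Infinite.exists_subset_card_eq hinf (∑ p ∈ ps, nn p + 1)
    have := htotal s (fun Q hQ => ⟨(hs hQ).1, p, hp, (hs hQ).2⟩)
    omega
  let F : R → Finset (Ideal (integralClosure R L)) := fun p =>
    if hp : p ∈ ps then (hfin p hp).toFinset else ∅
  have hFmem : ∀ p ∈ ps, ∀ Q, Q ∈ F p ↔
      (Q.IsMaximal ∧ algebraMap R (integralClosure R L) p ∈ Q) := by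
    intro p hp Q
    simp only [F, dif_pos hp, Set.Finite.mem_toFinset]
    rfl
  -- lower bound for the number of maximal ideals
  have hA : ∀ p ∈ ps, nn p ≤ (F p).card := by
    intro p hp
    by_contra hlt
    rw [not_le] at hlt
    have h1 : p ^ (Fintype.card ι - (F p).card) ∣ Algebra.discr R bC := by
      refine dscb_pow_dvd_discr bC p (hps p hp) (F p).card (fun s hs => ?_) (hdeg p hp)
      exact Finset.card_le_card fun Q hQ => (hFmem p hp Q).2 (hs Q hQ)
    apply hD1 p hp
    have h2 : Fintype.card ι - nn p + 1 ≤ Fintype.card ι - (F p).card := by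
      have := hnn p hp
      omega
    rw [hdisc]
    exact ((pow_dvd_pow p h2).trans h1).mul_left _
  -- the sets are pairwise disjoint
  have hdisj : (ps : Set R).PairwiseDisjoint F := by
    intro p hp q hq hpq
    rw [Function.onFun, Finset.disjoint_left]
    intro Q hQp hQq
    have h1 := (hFmem p hp Q).1 hQp
    have h2 := (hFmem q hq Q).1 hQq
    have hcop : IsCoprime p q :=
      ((hps p hp).irreducible.coprime_iff_not_dvd).2 fun hdvd => hpq (hpair p hp q hq hdvd)
    obtain ⟨u, v, huv⟩ := hcop
    have h3 : (1 : integralClosure R L) ∈ Q := by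
      have h4 : (1 : integralClosure R L) =
          algebraMap R (integralClosure R L) u * algebraMap R (integralClosure R L) p +
          algebraMap R (integralClosure R L) v * algebraMap R (integralClosure R L) q := by
        rw [← map_mul, ← map_mul, ← map_add, huv, map_one]
      rw [h4]
      exact Q.add_mem (Q.mul_mem_left _ h1.2) (Q.mul_mem_left _ h2.2)
    exact h1.1.ne_top ((Ideal.eq_top_iff_one Q).2 h3)
  have hB : ∑ p ∈ ps, (F p).card ≤ ∑ p ∈ ps, nn p := by
    rw [← Finset.card_biUnion hdisj]
    apply htotal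
    intro Q hQ
    obtain ⟨p, hp, hQp⟩ := Finset.mem_biUnion.1 hQ
    have := (hFmem p hp Q).1 hQp
    exact ⟨this.1, p, hp, this.2⟩
  have hC : ∀ p ∈ ps, nn p = (F p).card := by
    have hsum : ∑ p ∈ ps, nn p = ∑ p ∈ ps, (F p).card :=
      le_antisymm (Finset.sum_le_sum hA) hB
    exact (Finset.sum_eq_sum_iff_of_le hA).1 hsum
  refine ⟨hconcl ?_, fun p hp s hs => ?_, fun p hp => ⟨F p, fun Q hQ => (hFmem p hp Q).1 hQ,
    (hC p hp).symm⟩⟩
  · by_contra hnu
    obtain ⟨q, hqirr, hqdvd⟩ := WfDvdMonoid.exists_irreducible_factor hnu hδ0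
    have hq : Prime q := hqirr.prime
    have hq2 : q ^ 2 ∣ D := by
      rw [hdisc]
      exact (pow_dvd_pow_of_dvd hqdvd 2).mul_right _
    obtain ⟨p, hp, hqp⟩ := hD2 q hq hq2
    have hassoc : Associated q p := hq.irreducible.associated_of_dvd (hps p hp).irreducible hqp
    have hpδ : p ∣ δ := hassoc.symm.dvd.trans hqdvd
    apply hD1 p hp
    have h1 : p ^ (Fintype.card ι - (F p).card) ∣ Algebra.discr R bC := by
      refine dscb_pow_dvd_discr bC p (hps p hp) (F p).card (fun s hs => ?_) (hdeg p hp)
      exact Finset.card_le_card fun Q hQ => (hFmem p hp Q).2 (hs Q hQ)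
    rw [hC p hp, hdisc]
    have h2 : p ^ (Fintype.card ι - (F p).card + 1) ∣ p ^ (Fintype.card ι - (F p).card + 2) :=
      pow_dvd_pow p (by omega)
    refine h2.trans ?_
    rw [pow_add, mul_comm (δ ^ 2)]
    exact mul_dvd_mul h1 (pow_dvd_pow_of_dvd hpδ 2)
  · rw [hC p hp]
    exact Finset.card_le_card fun Q hQ => (hFmem p hp Q).2 (hs Q hQ)

/-- Total-count variant with places counted as valuation subrings of `L`. The last conclusion
produces, for each of the primes, exactly `n_p` valuation subrings above it. -/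
theorem dscp_integral_mem_span_total (b : Module.Basis ι K L)
    (hint : ∀ i, IsIntegral R (b i))
    (D : R) (hD : algebraMap R K D = Algebra.discr K b)
    (ps : Finset R) (nn : R → ℕ)
    (hps : ∀ p ∈ ps, Prime p) (hpair : ∀ p ∈ ps, ∀ q ∈ ps, p ∣ q → p = q)
    (hnn : ∀ p ∈ ps, nn p ≤ Fintype.card ι)
    (hD1 : ∀ p ∈ ps, ¬ p ^ (Fintype.card ι - nn p + 1) ∣ D)
    (hD2 : ∀ q : R, Prime q → q ^ 2 ∣ D → ∃ p ∈ ps, q ∣ p)
    (hdeg : ∀ p ∈ ps, ∀ V : ValuationSubring L, (∀ r : R, algebraMap R L r ∈ V) →
      algebraMap R L p ∈ V.nonunits → ∀ x ∈ V, ∃ r : R, x - algebraMap R L r ∈ V.nonunits)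
    (htotal : ∀ s : Finset (ValuationSubring L),
      (∀ V ∈ s, (∀ r : R, algebraMap R L r ∈ V) ∧
        ∃ p ∈ ps, algebraMap R L p ∈ V.nonunits) → s.card ≤ ∑ p ∈ ps, nn p) :
    (∀ x : L, IsIntegral R x → x ∈ Submodule.span R (Set.range b)) ∧
    (∀ p ∈ ps, ∃ s : Finset (ValuationSubring L),
      (∀ V ∈ s, (∀ r : R, algebraMap R L r ∈ V) ∧ algebraMap R L p ∈ V.nonunits) ∧
        s.card = nn p) := by
  classical
  have h := dscp_integral_mem_span_total_ideal b hint D hD ps nn hps hpair hnn hD1 hD2
    (fun p hp Q hQ hpQ x => by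
      obtain ⟨V, h1, h2, h3, h4⟩ :=
        dscp_exists_valuationSubring_closure (K := K) Q hQ p (hps p hp).ne_zero hpQ
      obtain ⟨r, hr⟩ := hdeg p hp V h1 h2 (x : L) (h3 x)
      refine ⟨r, (h4 _).1 ?_⟩
      simpa using hr)
    (fun s hs => by
      refine dscp_card_le_of_valuationSubring
        (fun V => (∀ r : R, algebraMap R L r ∈ V) ∧
          ∃ p ∈ ps, algebraMap R L p ∈ V.nonunits) _ htotal s ?_
      intro Q hQ
      obtain ⟨hQmax, p, hp, hpQ⟩ := hs Q hQ
      obtain ⟨V, h1, h2, -, h4⟩ :=
        dscp_exists_valuationSubring_closure (K := K) Q hQmax p (hps p hp).ne_zero hpQ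
      exact ⟨V, ⟨h1, p, hp, h2⟩, h4⟩)
  refine ⟨h.1, fun p hp => ?_⟩
  obtain ⟨s, hs, hcard⟩ := h.2.2 p hp
  have hex : ∀ Q ∈ s, ∃ V : ValuationSubring L,
      ((∀ r : R, algebraMap R L r ∈ V) ∧ algebraMap R L p ∈ V.nonunits) ∧
      ∀ x : integralClosure R L, (x : L) ∈ V.nonunits ↔ x ∈ Q := by
    intro Q hQ
    obtain ⟨V, h1, h2, -, h4⟩ :=
      dscp_exists_valuationSubring_closure (K := K) Q (hs Q hQ).1 p (hps p hp).ne_zero (hs Q hQ).2
    exact ⟨V, ⟨h1, h2⟩, h4⟩
  choose! W hW1 hW2 using hex
  have hinj : Set.InjOn W (s : Set (Ideal (integralClosure R L))) := by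
    intro Q hQ Q' hQ' hQQ'
    ext x
    rw [← hW2 Q hQ x, ← hW2 Q' hQ' x, hQQ']
  refine ⟨s.image W, fun V hV => ?_, ?_⟩
  · obtain ⟨Q, hQ, rfl⟩ := Finset.mem_image.1 hV
    exact hW1 Q hQ
  · rw [Finset.card_image_of_injOn hinj, hcard]

end Closure

/-- The `K`-basis of `L = Frac B` induced by an `R`-basis of `B`, and its discriminant. -/
theorem dscp_exists_basis {R B : Type*} [CommRing R] [IsDomain R] [CommRing B]
    [IsDomain B] [Algebra R B] (K L : Type*) [Field K] [Field L] [Algebra R K]
    [IsFractionRing R K] [Algebra B L] [IsFractionRing B L] [Algebra K L] [Algebra R L]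
    [IsScalarTower R K L] [IsScalarTower R B L] {ι : Type*} [Fintype ι] [DecidableEq ι]
    (b : Basis ι R B) :
    ∃ bL : Basis ι K L, (∀ i, bL i = algebraMap B L (b i)) ∧
      Algebra.discr K bL = algebraMap R K (Algebra.discr R b) := by
  have hfin : Module.Finite R B := Module.Finite.of_basis b
  have hfree : Module.Free R B := Module.Free.of_basis b
  have hint : Algebra.IsIntegral R B := Algebra.IsIntegral.of_finite R B
  have hloc : IsLocalization (Algebra.algebraMapSubmonoid B R⁰) L := inferInstance
  refine ⟨b.localizationLocalization K R⁰ L, fun i => ?_, ?_⟩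
  · exact Basis.localizationLocalization_apply K R⁰ L b i
  · exact Algebra.discr_localizationLocalization R R⁰ L b

/-- Intrinsic reformulation: if every element of `L = Frac B` integral over `R` lies in the
`R`-span of (the image of) a basis of `B`, then `B` is integrally closed. -/
theorem dscp_isIntegrallyClosed_of_span {R B : Type*} [CommRing R] [CommRing B]
    [Algebra R B] (L : Type*) [Field L] [Algebra B L]
    [IsFractionRing B L] [Algebra R L] [IsScalarTower R B L] {ι : Type*} [Fintype ι]
    (b : Basis ι R B)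
    (h : ∀ x : L, IsIntegral R x →
      x ∈ Submodule.span R (Set.range fun i => algebraMap B L (b i))) :
    IsIntegrallyClosed B := by
  have hfin : Module.Finite R B := Module.Finite.of_basis b
  have hint : Algebra.IsIntegral R B := Algebra.IsIntegral.of_finite R B
  rw [isIntegrallyClosed_iff L]
  intro x hx
  have hxR : IsIntegral R x := isIntegral_trans x hx
  have h1 := h x hxR
  have h2 : Submodule.span R (Set.range fun i => algebraMap B L (b i)) ≤
      LinearMap.range (IsScalarTower.toAlgHom R B L).toLinearMap := by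
    rw [Submodule.span_le]
    rintro _ ⟨i, rfl⟩
    exact ⟨b i, rfl⟩
  obtain ⟨y, hy⟩ := h2 h1
  exact ⟨y, hy⟩

/-- A domain which is finite free over a PID and integrally closed is a Dedekind domain. -/
theorem dscp_isDedekindDomain_of_isIntegrallyClosed {R B : Type*} [CommRing R] [IsDomain R]
    [IsPrincipalIdealRing R] [CommRing B] [IsDomain B] [Algebra R B] {ι : Type*} [Fintype ι]
    (b : Basis ι R B) (h : IsIntegrallyClosed B) : IsDedekindDomain B := by
  have hfin : Module.Finite R B := Module.Finite.of_basis b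
  have hint : Algebra.IsIntegral R B := Algebra.IsIntegral.of_finite R B
  have h1 : IsNoetherian R B := isNoetherian_of_isNoetherianRing_of_finite R B
  have hnoeth : IsNoetherianRing B := isNoetherianRing_iff.mpr (isNoetherian_of_tower R h1)
  have hdim : Ring.DimensionLEOne B := Ring.DimensionLEOne.of_isIntegral R B
  exact { hnoeth, hdim, h with }

/-- Intrinsic discriminant criterion (places = valuation subrings of `L = Frac B`): a domain `B`,
finite free over the PID `R` with `Frac B / Frac R` separable, whose discriminant is small enough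
at every prime, is integrally closed, hence a Dedekind domain. -/
theorem dscp_isDedekindDomain {R B : Type*} [CommRing R] [IsDomain R]
    [IsPrincipalIdealRing R] [CommRing B] [IsDomain B] [Algebra R B]
    (K L : Type*) [Field K] [Field L] [Algebra R K]
    [IsFractionRing R K] [Algebra B L] [IsFractionRing B L] [Algebra K L] [Algebra R L]
    [IsScalarTower R K L] [IsScalarTower R B L] [Algebra.IsSeparable K L]
    {ι : Type*} [Fintype ι] [DecidableEq ι] (b : Basis ι R B)
    (hloc : ∀ p : R, Prime p → p ^ 2 ∣ Algebra.discr R b → ∃ n : ℕ,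
        (∀ s : Finset (ValuationSubring L),
          (∀ V ∈ s, (∀ r : R, algebraMap R L r ∈ V) ∧ algebraMap R L p ∈ V.nonunits) →
            s.card ≤ n) ∧
        (∀ V : ValuationSubring L, (∀ r : R, algebraMap R L r ∈ V) →
          algebraMap R L p ∈ V.nonunits →
          ∀ x ∈ V, ∃ r : R, x - algebraMap R L r ∈ V.nonunits) ∧
        ¬ p ^ (Fintype.card ι - n + 2) ∣ Algebra.discr R b) :
    IsIntegrallyClosed B ∧ IsDedekindDomain B := by
  obtain ⟨bL, hbL, hdisc⟩ := dscp_exists_basis K L b
  have hfd : FiniteDimensional K L := Module.Finite.of_basis bL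
  have hfin : Module.Finite R B := Module.Finite.of_basis b
  have hintB : Algebra.IsIntegral R B := Algebra.IsIntegral.of_finite R B
  have hint : ∀ i, IsIntegral R (bL i) := fun i => by
    rw [hbL i]
    exact (Algebra.IsIntegral.isIntegral (R := R) (b i)).algebraMap
  have hspan := dscp_integral_mem_span bL hint (Algebra.discr R b) hdisc.symm hloc
  have hrange : Set.range bL = Set.range fun i => algebraMap B L (b i) := by
    congr 1
    funext i
    exact hbL i
  rw [hrange] at hspan
  have hic := dscp_isIntegrallyClosed_of_span L b hspan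
  exact ⟨hic, dscp_isDedekindDomain_of_isIntegrallyClosed b hic⟩

/-- Intrinsic total-count variant. -/
theorem dscp_isDedekindDomain_total {R B : Type*} [CommRing R] [IsDomain R]
    [IsPrincipalIdealRing R] [CommRing B] [IsDomain B] [Algebra R B]
    (K L : Type*) [Field K] [Field L] [Algebra R K]
    [IsFractionRing R K] [Algebra B L] [IsFractionRing B L] [Algebra K L] [Algebra R L]
    [IsScalarTower R K L] [IsScalarTower R B L] [Algebra.IsSeparable K L]
    {ι : Type*} [Fintype ι] [DecidableEq ι] (b : Basis ι R B)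
    (ps : Finset R) (nn : R → ℕ)
    (hps : ∀ p ∈ ps, Prime p) (hpair : ∀ p ∈ ps, ∀ q ∈ ps, p ∣ q → p = q)
    (hnn : ∀ p ∈ ps, nn p ≤ Fintype.card ι)
    (hD1 : ∀ p ∈ ps, ¬ p ^ (Fintype.card ι - nn p + 1) ∣ Algebra.discr R b)
    (hD2 : ∀ q : R, Prime q → q ^ 2 ∣ Algebra.discr R b → ∃ p ∈ ps, q ∣ p)
    (hdeg : ∀ p ∈ ps, ∀ V : ValuationSubring L, (∀ r : R, algebraMap R L r ∈ V) →
      algebraMap R L p ∈ V.nonunits → ∀ x ∈ V, ∃ r : R, x - algebraMap R L r ∈ V.nonunits)
    (htotal : ∀ s : Finset (ValuationSubring L),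
      (∀ V ∈ s, (∀ r : R, algebraMap R L r ∈ V) ∧
        ∃ p ∈ ps, algebraMap R L p ∈ V.nonunits) → s.card ≤ ∑ p ∈ ps, nn p) :
    IsIntegrallyClosed B ∧ IsDedekindDomain B ∧
    (∀ p ∈ ps, ∃ s : Finset (ValuationSubring L),
      (∀ V ∈ s, (∀ r : R, algebraMap R L r ∈ V) ∧ algebraMap R L p ∈ V.nonunits) ∧
        s.card = nn p) := by
  obtain ⟨bL, hbL, hdisc⟩ := dscp_exists_basis K L b
  have hfd : FiniteDimensional K L := Module.Finite.of_basis bL
  have hfin : Module.Finite R B := Module.Finite.of_basis b
  have hintB : Algebra.IsIntegral R B := Algebra.IsIntegral.of_finite R B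
  have hint : ∀ i, IsIntegral R (bL i) := fun i => by
    rw [hbL i]
    exact (Algebra.IsIntegral.isIntegral (R := R) (b i)).algebraMap
  obtain ⟨hspan, hexact⟩ := dscp_integral_mem_span_total bL hint (Algebra.discr R b) hdisc.symm
    ps nn hps hpair hnn hD1 hD2 hdeg htotal
  have hrange : Set.range bL = Set.range fun i => algebraMap B L (b i) := by
    congr 1
    funext i
    exact hbL i
  rw [hrange] at hspan
  have hic := dscp_isIntegrallyClosed_of_span L b hspan
  exact ⟨hic, dscp_isDedekindDomain_of_isIntegrallyClosed b hic, hexact⟩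

end Fermat.Agent.S18
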