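import Mathlib
import Fermat.Prelude.Def_ModularCurve_ReductionModL
import Fermat.Prelude.Def_FLTPrelim_Ramification
import Fermat.Agent.S18.GaussRing
import Fermat.Agent.S18.GaussDvr
import Fermat.Agent.S18.DvrDef

/-!
# S18/S37, package GAUSSRING (part 7): the Gauss valuation ring at every level

`GaussMain` constructs the Gauss valuation ring `grO` of the level-`M` function field over an
arbitrary `(K, A)` when the residue characteristic `ℓ` does not divide `M`.  Here:

* `GraDecomp A F`: every nonzero element of the intermediate field `F ⊆ K((q))` is a constant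
  times a unit of the Gauss ring `grV A`;
* `graOf A F hF : ValuationSubring F` for any such `F` (`mem_graOf_iff`, `gra_mem_nonunits_iff`),
  with residue map `graRes`;
* `gra_decomp_dvr`: `GraDecomp` holds for every level over a discrete valuation ring;
* `gra_decomp`: `GraDecomp` holds for every level `M` over `(ℚ̄, A)`, `A` over a prime `ℓ`
  (no hypothesis `ℓ ∤ M`), by descent to a discrete valuation ring of definition;
* `graO A hℓ hA M : ValuationSubring (modularFunctionFieldBar M)`.

Names are prefixed `gra` / `Gra`.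
-/

set_option autoImplicit false

noncomputable section

open ModularCurve

namespace Fermat.Agent.S18

section General

variable {K : Type*} [Field K] (A : ValuationSubring K)
  (F : IntermediateField K (LaurentSeries K))

/-- Every nonzero element of `F` is a constant times a unit of the Gauss ring. -/
def GraDecomp : Prop :=
  ∀ x ∈ F, x ≠ 0 → ∃ (c : K) (u : grV A), c ≠ 0 ∧ grRho A u ≠ 0 ∧
    x = algebraMap K (LaurentSeries K) c * (u : LaurentSeries K)

variable {A F}

theorem gra_mem_or_inv_mem (hF : GraDecomp A F) (x : LaurentSeries K) (hx : x ∈ F) :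
    x ∈ grV A ∨ x⁻¹ ∈ grV A := by
  by_cases hx0 : x = 0
  · left
    rw [hx0]
    exact (grV A).zero_mem
  obtain ⟨c, u, hc, hu, hxu⟩ := hF x hx hx0
  rcases A.mem_or_inv_mem c with hcA | hcA
  · left
    rw [hxu]
    exact (grV A).mul_mem (gr_algebraMap_mem A ⟨c, hcA⟩) u.2
  · right
    rw [hxu, mul_inv, ← map_inv₀]
    exact (grV A).mul_mem (gr_algebraMap_mem A ⟨c⁻¹, hcA⟩) (gr_inv_mem A u hu)

/-- The Gauss valuation ring of an intermediate field with the decomposition property. -/
def graOf (hF : GraDecomp A F) : ValuationSubring ↥F where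
  carrier := {x | (x : LaurentSeries K) ∈ grV A}
  mul_mem' := fun ha hb => (grV A).mul_mem ha hb
  one_mem' := (grV A).one_mem
  add_mem' := fun ha hb => (grV A).add_mem ha hb
  zero_mem' := (grV A).zero_mem
  neg_mem' := fun ha => (grV A).neg_mem ha
  mem_or_inv_mem' := fun x => gra_mem_or_inv_mem hF (x : LaurentSeries K) x.2

theorem mem_graOf_iff (hF : GraDecomp A F) (x : ↥F) :
    x ∈ graOf hF ↔ (x : LaurentSeries K) ∈ grV A := Iff.rfl

/-- The inclusion of the Gauss valuation ring of `F` into the Gauss ring of `K((q))`. -/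
def graToV (hF : GraDecomp A F) : ↥(graOf hF) →+* grV A where
  toFun x := ⟨((x : ↥F) : LaurentSeries K), x.2⟩
  map_one' := rfl
  map_mul' _ _ := rfl
  map_zero' := rfl
  map_add' _ _ := rfl

/-- The residue map of the Gauss valuation ring of `F`, with values in `k((q))`. -/
def graRes (hF : GraDecomp A F) :
    ↥(graOf hF) →+* LaurentSeries (IsLocalRing.ResidueField A) :=
  (grRho A).comp (graToV hF)

theorem graRes_apply (hF : GraDecomp A F) (x : ↥(graOf hF)) :
    graRes hF x = grRho A ⟨((x : ↥F) : LaurentSeries K), x.2⟩ := rfl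

/-- The non-units of the Gauss valuation ring are the elements with residue zero. -/
theorem gra_mem_nonunits_iff (hF : GraDecomp A F) (x : ↥F) :
    x ∈ (graOf hF).nonunits ↔
      ∃ h : (x : LaurentSeries K) ∈ grV A, grRho A ⟨(x : LaurentSeries K), h⟩ = 0 := by
  constructor
  · intro hx
    have hv : (graOf hF).valuation x < 1 := (ValuationSubring.mem_nonunits_iff _).mp hx
    have hmem : x ∈ graOf hF := (ValuationSubring.valuation_le_one_iff _ _).mp hv.le
    refine ⟨hmem, ?_⟩
    by_contra hρ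
    have hinv : (x : LaurentSeries K)⁻¹ ∈ grV A := gr_inv_mem A ⟨_, hmem⟩ hρ
    have hx0 : x ≠ 0 := by
      rintro rfl
      apply hρ
      have : (⟨((0 : ↥F) : LaurentSeries K), hmem⟩ : grV A) = 0 := rfl
      rw [this, map_zero]
    have hinv' : x⁻¹ ∈ graOf hF := hinv
    have h1 : (graOf hF).valuation x⁻¹ ≤ 1 :=
      (ValuationSubring.valuation_le_one_iff _ _).mpr hinv'
    have hv0 : (graOf hF).valuation x ≠ 0 := (Valuation.ne_zero_iff _).mpr hx0
    rw [map_inv₀, inv_le_one₀ (zero_lt_iff.mpr hv0)] at h1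
    exact absurd hv (not_lt.mpr h1)
  · rintro ⟨h, hρ⟩
    by_cases hx0 : x = 0
    · rw [hx0, ValuationSubring.mem_nonunits_iff, map_zero]
      exact zero_lt_one
    · have hx0' : (x : LaurentSeries K) ≠ 0 := fun h0 => hx0 (Subtype.ext h0)
      have hnot : (x : LaurentSeries K)⁻¹ ∉ grV A := gr_inv_notMem A ⟨_, h⟩ hρ hx0'
      rw [ValuationSubring.mem_nonunits_iff]
      by_contra hv
      rw [not_lt] at hv
      apply hnot
      have hv0 : (graOf hF).valuation x ≠ 0 := (Valuation.ne_zero_iff _).mpr hx0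
      have h1 : (graOf hF).valuation x⁻¹ ≤ 1 := by
        rw [map_inv₀, inv_le_one₀ (zero_lt_iff.mpr hv0)]
        exact hv
      exact (ValuationSubring.valuation_le_one_iff _ _).mp h1

theorem gra_mem_nonunits_iff_graRes (hF : GraDecomp A F) (x : ↥(graOf hF)) :
    (x : ↥F) ∈ (graOf hF).nonunits ↔ graRes hF x = 0 := by
  rw [gra_mem_nonunits_iff]
  exact ⟨fun ⟨_, h⟩ => h, fun h => ⟨x.2, h⟩⟩

/-- The trace of the Gauss valuation ring on the constants is `A`. -/
theorem gra_algebraMap_mem_iff (hF : GraDecomp A F) (c : K) :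
    algebraMap K ↥F c ∈ graOf hF ↔ c ∈ A :=
  gr_algebraMap_mem_iff A c

end General

/-! ### Discrete valuation rings: every level -/

section Dvr

variable {K₀ : Type*} [Field K₀] [Algebra ℚ K₀] (A₀ : ValuationSubring K₀)
  [IsDiscreteValuationRing ↥A₀]

theorem gra_of_gdvProp {x : LaurentSeries K₀} (hx : gdvProp A₀ x) (hx0 : x ≠ 0) :
    ∃ (c : K₀) (u : grV A₀), c ≠ 0 ∧ grRho A₀ u ≠ 0 ∧
      x = algebraMap K₀ (LaurentSeries K₀) c * (u : LaurentSeries K₀) := by
  rcases hx with rfl | ⟨c, hc, u, hu, rfl⟩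
  · exact absurd rfl hx0
  · refine ⟨c, ⟨u, hu.2.1⟩, hc, fun h0 => ?_, rfl⟩
    exact gr_inv_notMem A₀ ⟨u, hu.2.1⟩ h0 hu.1 hu.2.2

theorem gra_decomp_dvr (M : ℕ) [NeZero M] :
    GraDecomp A₀ (laurentBaseChange K₀ (modularFunctionFieldFull M)) :=
  fun _ hx hx0 => gra_of_gdvProp A₀ (gdv_full_le A₀ M hx) hx0

end Dvr

/-! ### `(ℚ̄, A)`: every level, by descent to a discrete valuation ring of definition -/

section Qbar

theorem gra_decomp (A : ValuationSubring (AlgebraicClosure ℚ)) {ℓ : ℕ} (hℓ : ℓ ≠ 0)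
    (hA : A.LiesOverPrime ℓ) (M : ℕ) [NeZero M] :
    GraDecomp A (modularFunctionFieldBar M) := by
  intro x hx hx0
  obtain ⟨K₀, -, -, hdvr, -, -, hX⟩ := dvd_exists_bc ℓ hℓ A hA ∅ (modularFunctionFieldFull M) {x}
    (fun y hy => by
      rw [Finset.mem_singleton] at hy
      rw [hy]
      exact hx)
  obtain ⟨x₀, hx₀, rfl⟩ := hX x (Finset.mem_singleton_self x)
  haveI := hdvr
  have hx₀0 : x₀ ≠ 0 := fun h0 => hx0 (by rw [h0, map_zero])
  obtain ⟨c, u, hc, hu, rfl⟩ := gra_of_gdvProp
    (A.comap (algebraMap (↥K₀) (AlgebraicClosure ℚ))) (gdv_full_le _ M hx₀) hx₀0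
  have hu1 : coeffMap (algebraMap (↥K₀) (AlgebraicClosure ℚ)) (u : LaurentSeries ↥K₀) ∈ grV A :=
    bcf_grV_mem A u.2
  refine ⟨algebraMap (↥K₀) (AlgebraicClosure ℚ) c, ⟨_, hu1⟩, ?_, ?_, ?_⟩
  · exact fun h0 => hc ((algebraMap (↥K₀) (AlgebraicClosure ℚ)).injective (by rw [h0, map_zero]))
  · intro h0
    exact hu ((bcf_grRho_eq_zero_iff A u).mp h0)
  · rw [map_mul]
    congr 1
    rw [algebraMap_laurentSeries_eq_single, algebraMap_laurentSeries_eq_single, coeffMap_single]

/-- The Gauss valuation ring of the level-`M` function field over `ℚ̄`, for every level `M`. -/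
def graO (A : ValuationSubring (AlgebraicClosure ℚ)) {ℓ : ℕ} (hℓ : ℓ ≠ 0)
    (hA : A.LiesOverPrime ℓ) (M : ℕ) [NeZero M] :
    ValuationSubring ↥(modularFunctionFieldBar M) :=
  graOf (gra_decomp A hℓ hA M)

theorem mem_graO_iff (A : ValuationSubring (AlgebraicClosure ℚ)) {ℓ : ℕ} (hℓ : ℓ ≠ 0)
    (hA : A.LiesOverPrime ℓ) (M : ℕ) [NeZero M] (x : ↥(modularFunctionFieldBar M)) :
    x ∈ graO A hℓ hA M ↔ (x : LaurentSeries (AlgebraicClosure ℚ)) ∈ grV A := Iff.rfl

end Qbar

end Fermat.Agent.S18
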