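import Mathlib
import Fermat.Agent.S18.NormalizeDesc
import Fermat.Agent.S18.IfaceNormal
import Fermat.Agent.S18.IfaceRed

/-!
# S18, chain lemma: the frozen statement from the core statement

`glc_main`: the frozen statement S18 (a torsion point of order prime to `ℓ` of `J₀(N)` with trivial
reduction modulo `ℓ` is trivial), assuming that for every prime `p ≠ ℓ` there is an auxiliary level
`N'` (a multiple of `N` prime to `ℓ`) for which the core statement `nrmCoreStmt` holds over all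
sufficiently large number fields.

Chain: reduction to prime order (`ifr_prime_order`), normal form (`ifn_normal_form`),
normalisation + level raising + Kummer descent (`nrm_main'`), conclusion (`ifr_conclude`).
-/

set_option autoImplicit false

open ModularCurve AlgebraicCurve

namespace Fermat.Agent.S18

local notation "Qb" => AlgebraicClosure ℚ

theorem glc_main (N : ℕ) [NeZero N] {ℓ : ℕ} [Fact ℓ.Prime]
    (A : ValuationSubring Qb) (hA : A.LiesOverPrime ℓ)
    (h : ReductionInputsModL A N)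
    (hcore : ∀ p : ℕ, p.Prime → p ≠ ℓ → ∃ N' : ℕ, N' ≠ 0 ∧ N ∣ N' ∧ ¬ ℓ ∣ N' ∧
      ∃ T : Finset Qb, ∀ (K0 : IntermediateField ℚ Qb) [FiniteDimensional ℚ K0],
        (∀ c ∈ T, c ∈ K0) → nrmCoreStmt ↥K0 (A.comap (algebraMap ↥K0 Qb)) N' p)
    (m : ℕ) (hm : ¬ ℓ ∣ m) (z : JZero N) (hmz : m • z = 0) (hz : reductionModL A N z = 0) :
    z = 0 := by
  by_contra hz0
  have hm0 : m ≠ 0 := fun h0 => hm (h0 ▸ dvd_zero ℓ)
  obtain ⟨p, hp, hpm, k, hkz, hpkz⟩ := ifr_prime_order m hm0 z hz0 hmz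
  have hpℓ : p ≠ ℓ := fun h0 => hm (h0 ▸ hpm)
  have hredk : reductionModL A N (k • z) = 0 := by
    rw [map_nsmul, hz, smul_zero]
  obtain ⟨D, hD⟩ := Pic0.mk_surjective (k • z)
  rw [← hD] at hkz hpkz hredk
  obtain ⟨Y, g', hY0, hg0, hord, hY, hg, hgne, hYg⟩ :=
    ifn_normal_form N A h p hp.pos D hpkz hredk
  obtain ⟨N', hN'0, hNN', hℓN', hc⟩ := hcore p hp hpℓ
  have : NeZero N' := ⟨hN'0⟩
  have hord' : ∀ P : Place Qb ↥(modularFunctionFieldBar N), (p : ℤ) ∣ P.ord Y :=
    fun P => ⟨_, hord P⟩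
  obtain ⟨g, hYg'⟩ := nrm_main' N N' hNN' hp hpℓ A hA hℓN' hc Y g' hY0 hg0 hord' hY hg hgne hYg
  exact hkz (ifr_conclude D p hp.ne_zero Y g hY0 hord 1 (by rw [map_one, one_mul, hYg']))

end Fermat.Agent.S18
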