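import Mathlib

/-!
# S18: polynomial certificates for the level-9 Hauptmodul record

`P = (X + 9)³ (X³ + 243 X² + 2187 X + 6561)³`, `Q = X⁹ (X² + 9 X + 27)`, `Qrad = X (X² + 9 X + 27)`.
Over every field in which `3 ≠ 0`: `P` and `Q` are coprime and `Qrad` is separable.
Over `ℤ`: `P - 1728 Q = P2²` with an explicit `P2`, and `P = P3³`.
-/

set_option autoImplicit false

open Polynomial

noncomputable section

namespace Fermat.Agent.S18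

section Field

variable (K : Type*) [Field K]

theorem hp9c_pow_ne_zero (h3 : (3 : K) ≠ 0) (n : ℕ) : ((3 : K) ^ n) ≠ 0 := pow_ne_zero n h3

/-- `C c⁻¹ * c = 1` for a numeral `c = 3 ^ n`. -/
theorem hp9c_inv_mul (h3 : (3 : K) ≠ 0) (n : ℕ) :
    C (((3 : K) ^ n)⁻¹) * (3 : K[X]) ^ n = 1 := by
  rw [← map_ofNat (C : K →+* K[X]) 3, ← map_pow, ← C_mul,
    inv_mul_cancel₀ (pow_ne_zero n h3), C_1]

theorem hp9c_coprime_a (h3 : (3 : K) ≠ 0) : IsCoprime (X + 9 : K[X]) X :=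
  ⟨C (((3 : K) ^ 2)⁻¹), -C (((3 : K) ^ 2)⁻¹), by linear_combination hp9c_inv_mul K h3 2⟩

theorem hp9c_coprime_b (h3 : (3 : K) ≠ 0) : IsCoprime (X + 9 : K[X]) (X ^ 2 + 9 * X + 27) :=
  ⟨-(C (((3 : K) ^ 3)⁻¹) * X), C (((3 : K) ^ 3)⁻¹), by linear_combination hp9c_inv_mul K h3 3⟩

theorem hp9c_coprime_c (h3 : (3 : K) ≠ 0) :
    IsCoprime (X ^ 3 + 243 * X ^ 2 + 2187 * X + 6561 : K[X]) X :=
  ⟨C (((3 : K) ^ 8)⁻¹), -(C (((3 : K) ^ 8)⁻¹) * (X ^ 2 + 243 * X + 2187)), by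
    linear_combination hp9c_inv_mul K h3 8⟩

theorem hp9c_coprime_d (h3 : (3 : K) ≠ 0) :
    IsCoprime (X ^ 3 + 243 * X ^ 2 + 2187 * X + 6561 : K[X]) (X ^ 2 + 9 * X + 27) :=
  ⟨-(C (((3 : K) ^ 9)⁻¹) * ((X ^ 3 + 243 * X ^ 2 + 2187 * X + 6561) -
      2 * (X + 234) * (X ^ 2 + 9 * X + 27))),
    C (((3 : K) ^ 9)⁻¹) * (2916 - (X + 234) ^ 2 * (X ^ 2 + 9 * X + 27)), by
    linear_combination hp9c_inv_mul K h3 9⟩

/-- `P` and `Q` of level 9 are coprime in characteristic `≠ 3`. -/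
theorem hp9c_isCoprime (h3 : (3 : K) ≠ 0) :
    IsCoprime ((X + 9) ^ 3 * (X ^ 3 + 243 * X ^ 2 + 2187 * X + 6561) ^ 3 : K[X])
      (X ^ 9 * (X ^ 2 + 9 * X + 27)) := by
  have ha := hp9c_coprime_a K h3
  have hb := hp9c_coprime_b K h3
  have hc := hp9c_coprime_c K h3
  have hd := hp9c_coprime_d K h3
  exact IsCoprime.mul_left (IsCoprime.mul_right ha.pow_right hb).pow_left
    (IsCoprime.mul_right hc.pow_right hd).pow_left

/-- `Qrad = X (X² + 9 X + 27)` is separable in characteristic `≠ 3`. -/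
theorem hp9c_separable (h3 : (3 : K) ≠ 0) : (X * (X ^ 2 + 9 * X + 27) : K[X]).Separable := by
  have hd : derivative (X * (X ^ 2 + 9 * X + 27) : K[X]) = 3 * X ^ 2 + 18 * X + 27 := by
    simp only [derivative_mul, derivative_X, derivative_add, derivative_X_pow, derivative_ofNat,
      Nat.cast_ofNat, map_ofNat]
    ring
  rw [separable_def, hd]
  exact ⟨-C (((3 : K) ^ 3)⁻¹), C (((3 : K) ^ 4)⁻¹) * (X + 3), by
    linear_combination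
      (-3 * C (((3 : K) ^ 4)⁻¹) * (X * (X ^ 2 + 9 * X + 27))) * hp9c_inv_mul K h3 3 +
      (C (((3 : K) ^ 3)⁻¹) * (X * (X ^ 2 + 9 * X + 27)) + 1) * hp9c_inv_mul K h3 4⟩

end Field

/-! ### Identities over `ℤ` -/

theorem hp9c_cube :
    ((X + 9) ^ 3 * (X ^ 3 + 243 * X ^ 2 + 2187 * X + 6561) ^ 3 : ℤ[X]) =
      (X ^ 4 + 252 * X ^ 3 + 4374 * X ^ 2 + 26244 * X + 59049) ^ 3 := by
  ring

theorem hp9c_square :
    ((X + 9) ^ 3 * (X ^ 3 + 243 * X ^ 2 + 2187 * X + 6561) ^ 3 : ℤ[X]) -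
        1728 * (X ^ 9 * (X ^ 2 + 9 * X + 27)) =
      (X ^ 6 - 486 * X ^ 5 - 24057 * X ^ 4 - 367416 * X ^ 3 - 2657205 * X ^ 2 - 9565938 * X -
        14348907) ^ 2 := by
  ring

theorem hp9c_P_monic :
    ((X + 9) ^ 3 * (X ^ 3 + 243 * X ^ 2 + 2187 * X + 6561) ^ 3 : ℤ[X]).Monic := by
  monicity!

theorem hp9c_Q_monic : (X ^ 9 * (X ^ 2 + 9 * X + 27) : ℤ[X]).Monic := by
  monicity!

theorem hp9c_Qrad_monic : (X * (X ^ 2 + 9 * X + 27) : ℤ[X]).Monic := by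
  monicity!

theorem hp9c_P_natDegree :
    ((X + 9) ^ 3 * (X ^ 3 + 243 * X ^ 2 + 2187 * X + 6561) ^ 3 : ℤ[X]).natDegree = 12 := by
  compute_degree!

theorem hp9c_Q_natDegree : (X ^ 9 * (X ^ 2 + 9 * X + 27) : ℤ[X]).natDegree = 11 := by
  compute_degree!

theorem hp9c_map_P (K : Type*) [Field K] :
    ((X + 9) ^ 3 * (X ^ 3 + 243 * X ^ 2 + 2187 * X + 6561) ^ 3 : ℤ[X]).map (Int.castRingHom K) =
      (X + 9) ^ 3 * (X ^ 3 + 243 * X ^ 2 + 2187 * X + 6561) ^ 3 := by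
  simp only [Polynomial.map_pow, Polynomial.map_add, Polynomial.map_mul, Polynomial.map_X,
    Polynomial.map_ofNat]

theorem hp9c_map_Q (K : Type*) [Field K] :
    (X ^ 9 * (X ^ 2 + 9 * X + 27) : ℤ[X]).map (Int.castRingHom K) =
      X ^ 9 * (X ^ 2 + 9 * X + 27) := by
  simp only [Polynomial.map_pow, Polynomial.map_add, Polynomial.map_mul, Polynomial.map_X,
    Polynomial.map_ofNat]

theorem hp9c_map_Qrad (K : Type*) [Field K] :
    (X * (X ^ 2 + 9 * X + 27) : ℤ[X]).map (Int.castRingHom K) = X * (X ^ 2 + 9 * X + 27) := by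
  simp only [Polynomial.map_pow, Polynomial.map_add, Polynomial.map_mul, Polynomial.map_X,
    Polynomial.map_ofNat]

theorem hp9c_Qrad_dvd : (X * (X ^ 2 + 9 * X + 27) : ℤ[X]) ∣ X ^ 9 * (X ^ 2 + 9 * X + 27) :=
  ⟨X ^ 8, by ring⟩

theorem hp9c_dvd_Qrad_pow :
    (X ^ 9 * (X ^ 2 + 9 * X + 27) : ℤ[X]) ∣ (X * (X ^ 2 + 9 * X + 27)) ^ 9 :=
  ⟨(X ^ 2 + 9 * X + 27) ^ 8, by ring⟩

end Fermat.Agent.S18
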