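import Mathlib
import Fermat.Prelude.Def_AlgebraicCurve_DivisorClassGroup

/-!
# S18, package HORD: from `m ∣ Q.ord f` at all places to the valuation-subring form

The abstract core theorem of S18 consumes the hypothesis "`m` divides the order of `f` at every
place of `F / K₀`" in the form

`∀ V : ValuationSubring F, (∀ a : A, algebraMap A F a ∈ V) → (algebraMap A F τ)⁻¹ ∈ V →
    IsPrincipalIdealRing V → ∃ w : F, w ≠ 0 ∧ f * w ^ m ∈ V ∧ (f * w ^ m)⁻¹ ∈ V`

(`A` a discrete valuation ring with uniformizer `τ` and fraction field `K₀`).  This file derives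
that form from the Prelude `AlgebraicCurve.Place` form.

* `hord_place`: at one place.
* `hord_main`: the valuation-subring form, `K = A[1/τ]` given elementwise.
* `hord_main_dvr`: the same for a discrete valuation ring `A` with fraction field `K`.
-/

set_option autoImplicit false

namespace Fermat.Agent.S18

open AlgebraicCurve

/-- A nonzero function whose order at a place is divisible by `m` is, at that place, a unit times
an `m`-th power. -/
theorem hord_place {K F : Type*} [Field K] [Field F] [Algebra K F] (Q : Place K F) (m : ℕ)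
    (f : F) (hf : f ≠ 0) (h : (m : ℤ) ∣ Q.ord f) :
    ∃ w : F, w ≠ 0 ∧ f * w ^ m ∈ Q.toValuationSubring ∧
      (f * w ^ m)⁻¹ ∈ Q.toValuationSubring := by
  obtain ⟨π, hπ⟩ := IsDiscreteValuationRing.exists_irreducible Q.toValuationSubring
  obtain ⟨u, hu⟩ := Q.exists_unit_mul_zpow hf hπ
  obtain ⟨k, hk⟩ := h
  have hπ0 : (π : F) ≠ 0 := by
    simpa [ne_eq, ZeroMemClass.coe_eq_zero] using hπ.ne_zero
  have key : f * ((π : F) ^ (-k)) ^ m = ((u : Q.toValuationSubring) : F) := by
    have h1 : ((π : F) ^ (-k)) ^ m = (π : F) ^ (-k * (m : ℤ)) := by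
      rw [zpow_mul, zpow_natCast]
    rw [h1]
    conv_lhs => rw [hu, hk]
    rw [mul_assoc, ← zpow_add₀ hπ0]
    have h2 : (m : ℤ) * k + -k * (m : ℤ) = 0 := by ring
    rw [h2, zpow_zero, mul_one]
  refine ⟨(π : F) ^ (-k), zpow_ne_zero _ hπ0, ?_, ?_⟩
  · rw [key]; exact (u : Q.toValuationSubring).2
  · rw [key]
    have h3 : (((u⁻¹ : (Q.toValuationSubring)ˣ) : Q.toValuationSubring) : F)
        = (((u : Q.toValuationSubring) : F))⁻¹ := by
      have h4 : (((u : Q.toValuationSubring) : F))
          * (((u⁻¹ : (Q.toValuationSubring)ˣ) : Q.toValuationSubring) : F) = 1 := by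
        rw [← MulMemClass.coe_mul, Units.mul_inv]; rfl
      exact eq_inv_of_mul_eq_one_right h4
    rw [← h3]
    exact ((u⁻¹ : (Q.toValuationSubring)ˣ) : Q.toValuationSubring).2

/-- **HORD.**  If `K = A[1/τ]` and `m` divides the order of `f ≠ 0` at every place of `F / K`,
then at every principal valuation subring `V` of `F` containing `A` and `1/τ` the function `f` is a
unit times an `m`-th power. -/
theorem hord_main {A K F : Type*} [CommRing A] [Field K] [Field F] [Algebra A K] [Algebra A F]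
    [Algebra K F] [IsScalarTower A K F] (τ : A) (hτ0 : algebraMap A F τ ≠ 0)
    (hK : ∀ c : K, ∃ a : A, ∃ n : ℕ, c * algebraMap A K τ ^ n = algebraMap A K a)
    (m : ℕ) (f : F) (hf : f ≠ 0) (hpl : ∀ Q : Place K F, (m : ℤ) ∣ Q.ord f)
    (V : ValuationSubring F) (hAV : ∀ a : A, algebraMap A F a ∈ V)
    (hτV : (algebraMap A F τ)⁻¹ ∈ V) (hV : IsPrincipalIdealRing V) :
    ∃ w : F, w ≠ 0 ∧ f * w ^ m ∈ V ∧ (f * w ^ m)⁻¹ ∈ V := by
  by_cases htop : V = ⊤
  · exact ⟨1, one_ne_zero, by rw [htop]; trivial, by rw [htop]; trivial⟩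
  have hKV : ∀ c : K, algebraMap K F c ∈ V := by
    intro c
    obtain ⟨a, n, hc⟩ := hK c
    have h1 : algebraMap K F c * algebraMap A F τ ^ n = algebraMap A F a := by
      rw [IsScalarTower.algebraMap_apply A K F, IsScalarTower.algebraMap_apply A K F a, ← hc,
        map_mul, map_pow]
    have h3 : algebraMap K F c = algebraMap A F a * ((algebraMap A F τ)⁻¹) ^ n := by
      rw [← h1, mul_assoc, ← mul_pow, mul_inv_cancel₀ hτ0, one_pow, mul_one]
    rw [h3]
    exact V.mul_mem _ _ (hAV a) (pow_mem hτV n)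
  let Q : Place K F := ⟨V, hKV, htop, hV⟩
  exact hord_place Q m f hf (hpl Q)

/-- In a discrete valuation ring `A` with uniformizer `τ` and fraction field `K`, every element of
`K` is `a / τ ^ n`. -/
theorem hord_frac_dvr {A K : Type*} [CommRing A] [IsDomain A] [IsDiscreteValuationRing A]
    [Field K] [Algebra A K] [IsFractionRing A K] (τ : A) (hτ : Irreducible τ) (c : K) :
    ∃ a : A, ∃ n : ℕ, c * algebraMap A K τ ^ n = algebraMap A K a := by
  obtain ⟨a, b, hb, rfl⟩ := IsFractionRing.div_surjective (A := A) c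
  have hb0 : b ≠ 0 := nonZeroDivisors.ne_zero hb
  obtain ⟨n, u, hu⟩ := IsDiscreteValuationRing.eq_unit_mul_pow_irreducible hb0 hτ
  refine ⟨a * ((u⁻¹ : Aˣ) : A), n, ?_⟩
  have hbK : algebraMap A K b ≠ 0 := by
    intro h
    exact hb0 ((IsFractionRing.injective A K) (by rw [h, map_zero]))
  rw [div_mul_eq_mul_div, div_eq_iff hbK, ← map_pow, ← map_mul, ← map_mul]
  congr 1
  rw [hu]
  have h1 : ((u⁻¹ : Aˣ) : A) * (u : A) = 1 := Units.inv_mul u
  calc a * τ ^ n = a * (((u⁻¹ : Aˣ) : A) * (u : A)) * τ ^ n := by rw [h1, mul_one]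
    _ = a * ((u⁻¹ : Aˣ) : A) * ((u : A) * τ ^ n) := by ring

/-- **HORD** for a discrete valuation ring `A` with uniformizer `τ` and fraction field `K`: the
hypothesis `hord` of the core theorem from divisibility of the orders at all places of `F / K`. -/
theorem hord_main_dvr {A K F : Type*} [CommRing A] [IsDomain A] [IsDiscreteValuationRing A]
    [Field K] [Field F] [Algebra A K] [IsFractionRing A K] [Algebra A F]
    [Algebra K F] [IsScalarTower A K F] (τ : A) (hτ : Irreducible τ)
    (m : ℕ) (f : F) (hf : f ≠ 0) (hpl : ∀ Q : Place K F, (m : ℤ) ∣ Q.ord f) :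
    ∀ V : ValuationSubring F, (∀ a : A, algebraMap A F a ∈ V) → (algebraMap A F τ)⁻¹ ∈ V →
      IsPrincipalIdealRing V → ∃ w : F, w ≠ 0 ∧ f * w ^ m ∈ V ∧ (f * w ^ m)⁻¹ ∈ V := by
  intro V hAV hτV hV
  have hτ0 : algebraMap A F τ ≠ 0 := by
    rw [IsScalarTower.algebraMap_apply A K F]
    intro h
    have h1 := (map_eq_zero (algebraMap K F)).mp h
    exact hτ.ne_zero ((IsFractionRing.injective A K) (by rw [h1, map_zero]))
  exact hord_main τ hτ0 (hord_frac_dvr τ hτ) m f hf hpl V hAV hτV hV

end Fermat.Agent.S18
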