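import Fermat.Agent.S24.Hurwitz
import Fermat.Agent.S24.Classify
import Fermat.Agent.S24.CosetsFinal
import Fermat.Agent.S24.Degree
import Fermat.Agent.S24.SysFin
import Fermat.Agent.S24.SysCusp

/-!
# S18: the fibres of `j` on `X₀(N)` over `ℚ̄` (instantiation of S24)

The three facts about the fibres of `j = jBar N` on the function field
`modularFunctionFieldBar N` in exactly the hypothesis shapes `hgen`, `h0`, `h1728` of
`d0r_main` / `d0r_ord_eq_one` (Disc0Rel.lean), and the number of places above `j = ∞`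
(`= cuspCount N`).  All names are prefixed `jfb_`.
-/

set_option autoImplicit false

open ModularCurve AlgebraicCurve IntermediateField Fermat.Agent.S24
open scoped MatrixGroups

namespace Fermat.Agent.S18

variable (N : ℕ) [NeZero N]

/-- Generic fibres of `j` are unramified. -/
theorem jfb_gen : ∀ a : AlgebraicClosure ℚ, a ≠ 0 → a ≠ 1728 →
    ∀ P : Place (AlgebraicClosure ℚ) ↥(modularFunctionFieldBar N),
      0 < P.ord (jBar N - algebraMap (AlgebraicClosure ℚ) ↥(modularFunctionFieldBar N) a) →
      P.ord (jBar N - algebraMap (AlgebraicClosure ℚ) ↥(modularFunctionFieldBar N) a) = 1 := by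
  intro a ha0 ha1 P hP
  have hx := transcendental_jBar' N
  have _i0 := finiteDimensional_jBar' N
  obtain ⟨S, hS⟩ := exists_laurentSystem_generic N a ha0 ha1
  have _i3 := sf_finiteDimensional_sub (jBar N) a
  exact S.ord_eq_one (sf_transcendental_sub hx a) hS P hP

/-- Over `j = 0` the ramification index divides `3`. -/
theorem jfb_zero : ∀ P : Place (AlgebraicClosure ℚ) ↥(modularFunctionFieldBar N),
    0 < P.ord (jBar N) → ∃ m : ℤ, 0 < m ∧ m * P.ord (jBar N) = 3 := by
  intro P hP
  have hx := transcendental_jBar' N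
  have _i0 := finiteDimensional_jBar' N
  obtain ⟨S₀, hS₀, -⟩ := exists_laurentSystem_zero N
  obtain ⟨m, hm0, hm⟩ := S₀.exists_mul_ord_eq hx P hP
  exact ⟨m, hm0, by rw [hm, hS₀]; rfl⟩

/-- Over `j = 1728` the ramification index divides `2`. -/
theorem jfb_1728 : ∀ P : Place (AlgebraicClosure ℚ) ↥(modularFunctionFieldBar N),
    0 < P.ord (jBar N - algebraMap (AlgebraicClosure ℚ) ↥(modularFunctionFieldBar N) 1728) →
    ∃ m : ℤ, 0 < m ∧
      m * P.ord (jBar N - algebraMap (AlgebraicClosure ℚ) ↥(modularFunctionFieldBar N) 1728) = 2 := by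
  intro P hP
  have hx := transcendental_jBar' N
  have _i0 := finiteDimensional_jBar' N
  have hx1 := sf_transcendental_sub hx (1728 : AlgebraicClosure ℚ)
  have _i1 := sf_finiteDimensional_sub (jBar N) (1728 : AlgebraicClosure ℚ)
  obtain ⟨S₁, hS₁, -⟩ := exists_laurentSystem_1728 N
  obtain ⟨m, hm0, hm⟩ := S₁.exists_mul_ord_eq hx1 P hP
  exact ⟨m, hm0, by rw [hm, hS₁]; rfl⟩

/-- The number of places above `j = ∞` is the number of cusps. -/
theorem jfb_card_infty :
    Nat.card (zeroPlaces (AlgebraicClosure ℚ) (jBar N)⁻¹) = cuspCount N := by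
  have hx := transcendental_jBar' N
  have _i0 := finiteDimensional_jBar' N
  have hxi := sf_transcendental_inv hx
  have _i2 := sf_finiteDimensional_inv (K := AlgebraicClosure ℚ) (jBar N)
  obtain ⟨Sᵢ, -, hSᵢπ⟩ := exists_laurentSystem_infty N
  have hci := Sᵢ.card_zeroPlaces hxi
  rw [hSᵢπ] at hci
  rw [hci, orbCount_T]

/-- `j` is transcendental and the function field is finite over `ℚ̄(j)` of degree `ψ(N)`. -/
theorem jfb_finrank :
    Module.finrank (AlgebraicClosure ℚ)⟮jBar N⟯ ↥(modularFunctionFieldBar N) = dedekindPsi N := by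
  have hx := transcendental_jBar' N
  have _i0 := finiteDimensional_jBar' N
  obtain ⟨S₀, -, -⟩ := exists_laurentSystem_zero N
  rw [← S₀.card_eq, card_cosets]

end Fermat.Agent.S18
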