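import Mathlib

/-!
# S18 helper: the abstract `ϖ`-adic Newton / polar-part induction

`nwt_main` is a purely algebraic statement (commutative rings and modules only).  Intended use:
`A` a ring of definition with a prime element `ϖ`, `R` a ring of expansions at an unramified
non-cuspidal value (for instance a finite product of power series rings over `A` with parameter
`T`), `M` the unit ball of a twisted Riemann-Roch space multiplied by `T ^ s`, `U` the unit ball
of the untwisted space of pole order at most `m * s` multiplied by `T ^ (m * s)`, and `ρ` the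
polar part map (the coefficients of degree `< s`).  The conclusion produces an element of `M`
without a pole whose reduction is `1`.
-/

namespace Fermat.Agent.S18

section ring

variable {R : Type*} [CommRing R]

/-- second order binomial expansion -/
theorem nwt_binom (a b : R) (m : ℕ) :
    ∃ c : R, (a + b) ^ (m + 1) = a ^ (m + 1) + ((m + 1 : ℕ) : R) * a ^ m * b + b ^ 2 * c := by
  induction m with
  | zero => exact ⟨0, by simp⟩
  | succ k ih =>
    obtain ⟨c, hc⟩ := ih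
    refine ⟨(a + b) * c + ((k + 1 : ℕ) : R) * a ^ k, ?_⟩
    rw [pow_succ, hc]
    push_cast
    ring

/-- powers of `1 + π r` are `1` modulo `π` -/
theorem nwt_one_add_pow (π r1 : R) (n : ℕ) : ∃ e : R, (1 + π * r1) ^ n = 1 + π * e := by
  induction n with
  | zero => exact ⟨0, by simp⟩
  | succ k ih =>
    obtain ⟨e, he⟩ := ih
    exact ⟨e + r1 + π * e * r1, by rw [pow_succ, he]; ring⟩

/-- if `T` is a nonzerodivisor modulo `π` then so is `T ^ n` -/
theorem nwt_div_T {π T : R} (hT : ∀ a b : R, T * a = π * b → ∃ a' : R, a = π * a') (n : ℕ) :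
    ∀ a b : R, T ^ n * a = π * b → ∃ a' : R, a = π * a' := by
  induction n with
  | zero => intro a b h; exact ⟨b, by simpa using h⟩
  | succ k ih =>
    intro a b h
    obtain ⟨a1, ha1⟩ := hT (T ^ k * a) b (by rw [← h]; ring)
    exact ih a a1 ha1

end ring

section alg

variable {A R : Type*} [CommRing A] [CommRing R] [Algebra A R]

/-- iterating the saturation hypothesis `j` times -/
theorem nwt_sat_iter (ϖ : A) (T : R) (n : ℕ)
    (hreg : ∀ a : R, algebraMap A R ϖ * a = 0 → a = 0)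
    (hT : ∀ a b : R, T * a = algebraMap A R ϖ * b → ∃ a' : R, a = algebraMap A R ϖ * a')
    (U : Submodule A R)
    (hsat : ∀ W ∈ U, (∃ a b : R, W = T ^ n * a + algebraMap A R ϖ * b) →
      ∃ w0 : A, ∃ W' ∈ U, W = algebraMap A R w0 * T ^ n + algebraMap A R ϖ * W')
    (i : ℕ) : ∀ W ∈ U, ∀ a b : R, W = T ^ n * a + algebraMap A R ϖ ^ i * b →
      ∃ w0 : A, ∃ W' ∈ U, ∃ a' : R,
        W = algebraMap A R w0 * T ^ n + algebraMap A R ϖ ^ i * W' ∧ W' = T ^ n * a' + b := by
  induction i with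
  | zero =>
    intro W hW a b h
    exact ⟨0, W, hW, a, by simp, by simpa using h⟩
  | succ k ih =>
    intro W hW a b h
    obtain ⟨w0, W1, hW1, h1⟩ := hsat W hW ⟨a, algebraMap A R ϖ ^ k * b, by rw [h]; ring⟩
    obtain ⟨a1, ha1⟩ := nwt_div_T hT n (a - algebraMap A R w0)
      (W1 - algebraMap A R ϖ ^ k * b) (by linear_combination h1 - h)
    have h2 : W1 = T ^ n * a1 + algebraMap A R ϖ ^ k * b := by
      have h0 : algebraMap A R ϖ * (W1 - (T ^ n * a1 + algebraMap A R ϖ ^ k * b)) = 0 := by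
        linear_combination h - h1 + T ^ n * ha1
      exact sub_eq_zero.mp (hreg _ h0)
    obtain ⟨w1, W', hW', a', h3, h4⟩ := ih W1 hW1 a1 b h2
    refine ⟨w0 + ϖ * w1, W', hW', a', ?_, h4⟩
    rw [map_add, map_mul]
    linear_combination h1 + algebraMap A R ϖ * h3

/-- the improvement step of the induction -/
theorem nwt_step (ϖ : A) (T : R) (k s : ℕ) (μ : A) (hμ : μ * ((k + 1 : ℕ) : A) = 1)
    (hreg : ∀ a : R, algebraMap A R ϖ * a = 0 → a = 0)
    (hT : ∀ a b : R, T * a = algebraMap A R ϖ * b → ∃ a' : R, a = algebraMap A R ϖ * a')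
    (M U : Submodule A R) (f f1 : R) (hf : f = 1 + algebraMap A R ϖ * f1)
    (hpow : ∀ x ∈ M, x ^ (k + 1) * f ∈ U)
    (hsat : ∀ W ∈ U, (∃ a b : R, W = T ^ ((k + 1) * s) * a + algebraMap A R ϖ * b) →
      ∃ w0 : A, ∃ W' ∈ U, W = algebraMap A R w0 * T ^ ((k + 1) * s) + algebraMap A R ϖ * W')
    (hlift : ∀ W' ∈ U, (∃ a b : R, W' = T ^ (k * s) * a + algebraMap A R ϖ * b) →
      ∃ z ∈ M, ∃ c : R, T ^ (k * s) * z - W' = algebraMap A R ϖ * c)
    (j : ℕ) (x : R) (hx : x ∈ M) (r p c : R)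
    (hxr : x = T ^ s * r + algebraMap A R ϖ ^ (j + 1) * p)
    (hxc : x - T ^ s = algebraMap A R ϖ * c) :
    ∃ x' ∈ M, ∃ r' p' c' : R,
      x' = T ^ s * r' + algebraMap A R ϖ ^ (j + 1 + 1) * p' ∧
        x' - T ^ s = algebraMap A R ϖ * c' := by
  obtain ⟨r1, hr1⟩ := nwt_div_T hT s (r - 1) (c - algebraMap A R ϖ ^ j * p)
    (by linear_combination hxc - hxr)
  obtain ⟨c1, hc1⟩ := nwt_binom (T ^ s * r) (algebraMap A R ϖ ^ (j + 1) * p) k
  obtain ⟨e, he⟩ := nwt_one_add_pow (algebraMap A R ϖ) r1 k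
  have hr : r = 1 + algebraMap A R ϖ * r1 := by linear_combination hr1
  have hW : x ^ (k + 1) * f ∈ U := hpow x hx
  obtain ⟨w0, W', hW', a', -, h4⟩ := nwt_sat_iter ϖ T ((k + 1) * s) hreg hT U hsat (j + 1) _ hW
    (r ^ (k + 1) * f)
    (((k + 1 : ℕ) : R) * T ^ (k * s) * r ^ k * p * f +
      algebraMap A R ϖ ^ (j + 1) * (p ^ 2 * c1 * f))
    (by rw [hxr, hc1]; push_cast; ring)
  obtain ⟨z, hz, c2, hc2⟩ := hlift W' hW'
    ⟨T ^ s * a' + ((k + 1 : ℕ) : R) * r ^ k * p * f,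
      algebraMap A R ϖ ^ j * (p ^ 2 * c1 * f), by rw [h4]; ring⟩
  obtain ⟨d, hd⟩ := nwt_div_T hT (k * s)
    (z - T ^ s * a' - ((k + 1 : ℕ) : R) * r ^ k * p * f)
    (c2 + algebraMap A R ϖ ^ j * (p ^ 2 * c1 * f)) (by linear_combination hc2 + h4)
  have hz' : z = T ^ s * a' + ((k + 1 : ℕ) : R) * r ^ k * p * f + algebraMap A R ϖ * d := by
    linear_combination hd
  have hrk : r ^ k * f = 1 + algebraMap A R ϖ * (e + f1 + algebraMap A R ϖ * e * f1) := by
    rw [hr, he, hf]; ring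
  have hμ' : algebraMap A R μ * ((k + 1 : ℕ) : R) = 1 := by
    have h0 := congrArg (algebraMap A R) hμ
    simpa using h0
  refine ⟨x - (ϖ ^ (j + 1) * μ) • z, M.sub_mem hx (M.smul_mem _ hz),
    r - algebraMap A R ϖ ^ (j + 1) * algebraMap A R μ * a',
    -(p * (e + f1 + algebraMap A R ϖ * e * f1)) - algebraMap A R μ * d,
    c - algebraMap A R ϖ ^ j * algebraMap A R μ * z, ?_, ?_⟩
  · rw [Algebra.smul_def, map_mul, map_pow]
    linear_combination hxr - algebraMap A R ϖ ^ (j + 1) * algebraMap A R μ * hz' -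
      algebraMap A R ϖ ^ (j + 1) * algebraMap A R μ * ((k + 1 : ℕ) : R) * p * hrk -
      algebraMap A R ϖ ^ (j + 1) * p *
        (1 + algebraMap A R ϖ * (e + f1 + algebraMap A R ϖ * e * f1)) * hμ'
  · rw [Algebra.smul_def, map_mul, map_pow]
    linear_combination hxc

/-- **Abstract Newton / polar part induction.**  `ϖ` is a nonzerodivisor on `R`, `T` is a
nonzerodivisor on `R / ϖ R`, `ρ` is a linear map into a noetherian module with kernel `T ^ s R`
("polar part"), `f ≡ 1` modulo `ϖ`, `m` is invertible.  If `x ^ m * f ∈ U` for `x ∈ M`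
(`hpow`), elements of `U` which are divisible by `T ^ (m * s)` modulo `ϖ` are constant multiples
of `T ^ (m * s)` modulo `ϖ U` (`hsat`), elements of `U` divisible by `T ^ ((m - 1) * s)` modulo
`ϖ` are congruent to `T ^ ((m - 1) * s) * z` with `z ∈ M` (`hlift`), and `T ^ s` lifts to `M`
modulo `ϖ` (`hone`), then `M` contains an element divisible by `T ^ s` and congruent to `T ^ s`
modulo `ϖ`. -/
theorem nwt_main {A R Q : Type*} [CommRing A] [CommRing R] [Algebra A R] [AddCommGroup Q]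
    [Module A Q] [IsNoetherian A Q]
    (ϖ : A) (T : R) (m s : ℕ) (hm : IsUnit (m : A))
    (hreg : ∀ a : R, ϖ • a = 0 → a = 0)
    (hT : ∀ a b : R, T * a = ϖ • b → ∃ a' : R, a = ϖ • a')
    (ρ : R →ₗ[A] Q) (hρ0 : ∀ r : R, ρ (T ^ s * r) = 0)
    (hρ1 : ∀ x : R, ρ x = 0 → ∃ r : R, x = T ^ s * r)
    (M U : Submodule A R) (f : R) (hf : ∃ f1 : R, f = 1 + ϖ • f1)
    (hpow : ∀ x ∈ M, x ^ m * f ∈ U)
    (hsat : ∀ W ∈ U, (∃ a b : R, W = T ^ (m * s) * a + ϖ • b) →
      ∃ w0 : A, ∃ W' ∈ U, W = w0 • T ^ (m * s) + ϖ • W')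
    (hlift : ∀ W' ∈ U, (∃ a b : R, W' = T ^ ((m - 1) * s) * a + ϖ • b) →
      ∃ z ∈ M, ∃ c : R, T ^ ((m - 1) * s) * z - W' = ϖ • c)
    (hone : ∃ x0 ∈ M, ∃ c : R, x0 - T ^ s = ϖ • c) :
    ∃ x ∈ M, (∃ r : R, x = T ^ s * r) ∧ ∃ c : R, x - T ^ s = ϖ • c := by
  rcases Nat.eq_zero_or_pos m with hm0 | hmpos
  · subst hm0
    have h01A : (0 : A) = 1 := by
      obtain ⟨u, hu⟩ := hm
      have h0 := u.inv_mul
      rw [hu] at h0
      simpa using h0
    have h01 : (0 : R) = 1 := by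
      have h0 := congrArg (algebraMap A R) h01A
      simpa using h0
    have : Subsingleton R := subsingleton_of_zero_eq_one h01
    obtain ⟨x0, hx0, c, hc⟩ := hone
    exact ⟨x0, hx0, ⟨0, Subsingleton.elim _ _⟩, ⟨c, hc⟩⟩
  · obtain ⟨k, rfl⟩ : ∃ k, m = k + 1 := ⟨m - 1, by omega⟩
    obtain ⟨μ, hμ⟩ : ∃ μ : A, μ * ((k + 1 : ℕ) : A) = 1 := by
      obtain ⟨u, hu⟩ := hm
      exact ⟨↑u⁻¹, by rw [← hu]; exact u.inv_mul⟩
    simp only [Algebra.smul_def] at hreg hT hf hsat hlift hone ⊢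
    simp only [Nat.add_sub_cancel] at hlift
    obtain ⟨f1, hf1⟩ := hf
    have key : ∀ j : ℕ, ∃ x ∈ M, ∃ r p c : R,
        x = T ^ s * r + algebraMap A R ϖ ^ (j + 1) * p ∧ x - T ^ s = algebraMap A R ϖ * c := by
      intro j
      induction j with
      | zero =>
        obtain ⟨x0, hx0, c, hc⟩ := hone
        exact ⟨x0, hx0, 1, c, c, by linear_combination hc, hc⟩
      | succ j ih =>
        obtain ⟨x, hx, r, p, c, h1, h2⟩ := ih
        exact nwt_step ϖ T k s μ hμ hreg hT M U f f1 hf1 hpow hsat hlift j x hx r p c h1 h2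
    have hmono : Monotone (fun j : ℕ => (M.map ρ).comap (LinearMap.lsmul A Q (ϖ ^ j))) := by
      intro j j' hjj' q hq
      simp only [Submodule.mem_comap, LinearMap.lsmul_apply] at hq ⊢
      obtain ⟨d, rfl⟩ := Nat.exists_eq_add_of_le hjj'
      rw [pow_add, mul_comm, mul_smul]
      exact Submodule.smul_mem _ _ hq
    obtain ⟨N0, hN0⟩ := monotone_stabilizes_iff_noetherian.mpr ‹IsNoetherian A Q› ⟨_, hmono⟩
    obtain ⟨x, hx, r, p, c, h1, h2⟩ := key N0
    have hρx : ρ x = ϖ ^ (N0 + 1) • ρ p := by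
      have h0 : algebraMap A R ϖ ^ (N0 + 1) * p = (ϖ ^ (N0 + 1)) • p := by
        rw [Algebra.smul_def, map_pow]
      rw [h1, map_add, hρ0, zero_add, h0, map_smul]
    have hp : ρ p ∈ (M.map ρ).comap (LinearMap.lsmul A Q (ϖ ^ (N0 + 1))) := by
      simp only [Submodule.mem_comap, LinearMap.lsmul_apply]
      rw [← hρx]
      exact Submodule.mem_map_of_mem hx
    have hN1 := hN0 (N0 + 1) (Nat.le_succ _)
    simp only [OrderHom.coe_mk] at hN1
    rw [← hN1] at hp
    simp only [Submodule.mem_comap, LinearMap.lsmul_apply, Submodule.mem_map] at hp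
    obtain ⟨y', hy', hy'2⟩ := hp
    refine ⟨x - ϖ • y', M.sub_mem hx (M.smul_mem _ hy'), ?_, ?_⟩
    · apply hρ1
      rw [map_sub, map_smul, hρx, hy'2, smul_smul, ← pow_succ', sub_self]
    · exact ⟨c - y', by rw [Algebra.smul_def]; linear_combination h2⟩

end alg

end Fermat.Agent.S18
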