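import Mathlib
import Fermat.Agent.S18.NormalizeDesc
import Fermat.Agent.S18.IfaceRed
import Fermat.Agent.S24.SumFormulaBase

/-!
# S18, package NORMALIZE (part 3): the constant-residue case

`nrm_const`: a nonzero function `Y` of level `N` over `ℚ̄` whose divisor is divisible by the prime
`p ≠ ℓ` and whose Gauss residue is a nonzero constant is a `p`-th power (under the core statement
at an auxiliary level `N'`).  This is `nrm_main'` with `g'` a constant lifting a `p`-th root of the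
residue (the residue field of `A` is algebraically closed).

`nrm_const_pic`: consequently a degree-zero divisor `D` with `p • D = div Y` for such a `Y` is
principal.

`nrm_tor`: a class of prime order `p ≠ ℓ` is trivial as soon as every Gauss unit `Y` with
`div Y = p • D` has constant Gauss residue (torsion step of the Eichler–Shimura package).
-/

set_option autoImplicit false

open ModularCurve AlgebraicCurve

namespace Fermat.Agent.S18

local notation "Qb" => AlgebraicClosure ℚ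

theorem nrm_const (N N' : ℕ) [NeZero N] [NeZero N'] (hNN' : N ∣ N') {ℓ p : ℕ} [Fact ℓ.Prime]
    (hp : p.Prime) (hpℓ : p ≠ ℓ) (A : ValuationSubring Qb) (hA : A.LiesOverPrime ℓ)
    (hℓN' : ¬ ℓ ∣ N')
    (hcore : ∃ T : Finset Qb, ∀ (K0 : IntermediateField ℚ Qb) [FiniteDimensional ℚ K0],
      (∀ c ∈ T, c ∈ K0) → nrmCoreStmt ↥K0 (A.comap (algebraMap ↥K0 Qb)) N' p)
    (Y : ↥(modularFunctionFieldBar N)) (hY0 : Y ≠ 0)
    (hord : ∀ P : Place Qb ↥(modularFunctionFieldBar N), (p : ℤ) ∣ P.ord Y)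
    (hY : (Y : LaurentSeries Qb) ∈ grV A)
    (c : IsLocalRing.ResidueField A) (hc : c ≠ 0)
    (hYc : grRho A ⟨_, hY⟩ =
      algebraMap (IsLocalRing.ResidueField A) (LaurentSeries (IsLocalRing.ResidueField A)) c) :
    ∃ g : ↥(modularFunctionFieldBar N), Y = g ^ p := by
  -- a `p`-th root of the residue, lifted to `A`
  have hk : IsAlgClosed (IsLocalRing.ResidueField A) := ifr_residue_isAlgClosed A
  obtain ⟨μb, hμb⟩ := IsAlgClosed.exists_pow_nat_eq c hp.pos
  obtain ⟨μ, rfl⟩ := IsLocalRing.residue_surjective (R := A) μb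
  have hμ0 : IsLocalRing.residue A μ ≠ 0 := by
    intro h0
    rw [h0, zero_pow hp.ne_zero] at hμb
    exact hc hμb.symm
  -- the constant function `μ`
  set g' : ↥(modularFunctionFieldBar N) := algebraMap Qb ↥(modularFunctionFieldBar N) (μ : Qb)
    with hg'
  have hg'coe : (g' : LaurentSeries Qb) = algebraMap Qb (LaurentSeries Qb) (μ : Qb) := rfl
  have hg : (g' : LaurentSeries Qb) ∈ grV A := by
    rw [hg'coe]
    exact gr_algebraMap_mem A μ
  have hgρ : grRho A ⟨_, hg⟩ =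
      algebraMap (IsLocalRing.ResidueField A) (LaurentSeries (IsLocalRing.ResidueField A))
        (IsLocalRing.residue A μ) := by
    have h1 : (⟨(g' : LaurentSeries Qb), hg⟩ : grV A) =
        ⟨algebraMap Qb (LaurentSeries Qb) (μ : Qb), gr_algebraMap_mem A μ⟩ := Subtype.ext hg'coe
    rw [h1, grRho_algebraMap]
  have hg0 : g' ≠ 0 := by
    have hμne : (μ : Qb) ≠ 0 := by
      intro h0
      have h1 : μ = 0 := Subtype.ext h0
      exact hμ0 (by rw [h1, map_zero])
    exact (map_ne_zero _).mpr hμne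
  have hgne : grRho A ⟨_, hg⟩ ≠ 0 := by
    rw [hgρ]
    exact fun h1 => hμ0 ((map_eq_zero _).mp h1)
  have hYg : grRho A ⟨_, hY⟩ = grRho A ⟨_, hg⟩ ^ p := by
    rw [hYc, hgρ, ← map_pow, hμb]
  exact nrm_main' N N' hNN' hp hpℓ A hA hℓN' hcore Y g' hY0 hg0 hord hY hg hgne hYg

theorem nrm_const_pic (N N' : ℕ) [NeZero N] [NeZero N'] (hNN' : N ∣ N') {ℓ p : ℕ} [Fact ℓ.Prime]
    (hp : p.Prime) (hpℓ : p ≠ ℓ) (A : ValuationSubring Qb) (hA : A.LiesOverPrime ℓ)
    (hℓN' : ¬ ℓ ∣ N')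
    (hcore : ∃ T : Finset Qb, ∀ (K0 : IntermediateField ℚ Qb) [FiniteDimensional ℚ K0],
      (∀ c ∈ T, c ∈ K0) → nrmCoreStmt ↥K0 (A.comap (algebraMap ↥K0 Qb)) N' p)
    (D : Divisor.degZero (K := Qb) (F := ↥(modularFunctionFieldBar N)))
    (Y : ↥(modularFunctionFieldBar N)) (hY0 : Y ≠ 0)
    (hord : ∀ P : Place Qb ↥(modularFunctionFieldBar N),
      P.ord Y = p * (D : Divisor Qb ↥(modularFunctionFieldBar N)) P)
    (hY : (Y : LaurentSeries Qb) ∈ grV A)
    (c : IsLocalRing.ResidueField A) (hc : c ≠ 0)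
    (hYc : grRho A ⟨_, hY⟩ =
      algebraMap (IsLocalRing.ResidueField A) (LaurentSeries (IsLocalRing.ResidueField A)) c) :
    Pic0.mk D = 0 := by
  obtain ⟨g, hg⟩ := nrm_const N N' hNN' hp hpℓ A hA hℓN' hcore Y hY0 (fun P => ⟨_, hord P⟩) hY c hc
    hYc
  exact ifr_conclude D p hp.ne_zero Y g hY0 hord 1 (by rw [map_one, one_mul, hg])

theorem nrm_tor (N N' : ℕ) [NeZero N] [NeZero N'] (hNN' : N ∣ N') {ℓ p : ℕ} [Fact ℓ.Prime]
    (hp : p.Prime) (hpℓ : p ≠ ℓ) (A : ValuationSubring Qb) (hA : A.LiesOverPrime ℓ)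
    (hℓN' : ¬ ℓ ∣ N')
    (hcore : ∃ T : Finset Qb, ∀ (K0 : IntermediateField ℚ Qb) [FiniteDimensional ℚ K0],
      (∀ c ∈ T, c ∈ K0) → nrmCoreStmt ↥K0 (A.comap (algebraMap ↥K0 Qb)) N' p)
    (D : Divisor.degZero (K := Qb) (F := ↥(modularFunctionFieldBar N)))
    (hpD : p • Pic0.mk D = 0)
    (hconst : ∀ Y : ↥(modularFunctionFieldBar N), Y ≠ 0 →
      (∀ P : Place Qb ↥(modularFunctionFieldBar N),
        P.ord Y = p * (D : Divisor Qb ↥(modularFunctionFieldBar N)) P) →
      ∀ hY : (Y : LaurentSeries Qb) ∈ grV A, grRho A ⟨_, hY⟩ ≠ 0 →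
        ∃ c : IsLocalRing.ResidueField A, grRho A ⟨_, hY⟩ =
          algebraMap (IsLocalRing.ResidueField A)
            (LaurentSeries (IsLocalRing.ResidueField A)) c) :
    Pic0.mk D = 0 := by
  -- `p • D` is principal
  have h1 : p • (D : Divisor Qb ↥(modularFunctionFieldBar N)) ∈
      Divisor.principal (K := Qb) (F := ↥(modularFunctionFieldBar N)) := by
    have h2 : Pic0.mk (p • D) = 0 := hpD
    have h3 := (QuotientAddGroup.eq_zero_iff _).mp h2
    rw [AddSubgroup.mem_addSubgroupOf] at h3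
    simpa using h3
  obtain ⟨Y0, hY00, hY0ord⟩ := h1
  have hℓN : ¬ ℓ ∣ N := fun h => hℓN' (h.trans hNN')
  -- normalise `Y0` to a Gauss unit
  have hY0c : (Y0 : LaurentSeries Qb) ≠ 0 := fun h0 => hY00 (Subtype.ext h0)
  obtain ⟨c, u, hc0, hu, hYu⟩ := gr_exists_unit A hA N hℓN (Y0 : LaurentSeries Qb) Y0.2 hY0c
  have hcF : algebraMap Qb ↥(modularFunctionFieldBar N) c ≠ 0 := (map_ne_zero _).mpr hc0
  set Y : ↥(modularFunctionFieldBar N) :=
    Y0 * (algebraMap Qb ↥(modularFunctionFieldBar N) c)⁻¹ with hYdef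
  have hYcoe : (Y : LaurentSeries Qb) = (u : LaurentSeries Qb) := by
    have hcL : algebraMap Qb (LaurentSeries Qb) c ≠ 0 := (map_ne_zero _).mpr hc0
    have h4 : (Y : LaurentSeries Qb) =
        (Y0 : LaurentSeries Qb) * (algebraMap Qb (LaurentSeries Qb) c)⁻¹ := rfl
    rw [h4, hYu, mul_comm (algebraMap Qb (LaurentSeries Qb) c), mul_assoc,
      mul_inv_cancel₀ hcL, mul_one]
  have hY0' : Y ≠ 0 := mul_ne_zero hY00 (inv_ne_zero hcF)
  have hY : (Y : LaurentSeries Qb) ∈ grV A := by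
    rw [hYcoe]
    exact u.2
  have hYu' : (⟨(Y : LaurentSeries Qb), hY⟩ : grV A) = u := Subtype.ext hYcoe
  have hρ : grRho A ⟨_, hY⟩ ≠ 0 := by
    rw [hYu']
    exact hu
  have hord : ∀ P : Place Qb ↥(modularFunctionFieldBar N),
      P.ord Y = p * (D : Divisor Qb ↥(modularFunctionFieldBar N)) P := by
    intro P
    rw [hYdef, P.ord_mul hY00 (inv_ne_zero hcF), P.ord_inv,
      Fermat.Agent.S24.sf_ord_algebraMap, neg_zero, add_zero, ← hY0ord P]
    simp
  obtain ⟨cb, hcb⟩ := hconst Y hY0' hord hY hρ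
  have hcb0 : cb ≠ 0 := by
    intro h0
    rw [h0, map_zero] at hcb
    exact hρ hcb
  exact nrm_const_pic N N' hNN' hp hpℓ A hA hℓN' hcore D Y hY0' hord hY cb hcb0 hcb

end Fermat.Agent.S18
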