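import Mathlib
import Fermat.Agent.S18.SMAbsGauss

/-!
# S18 / S37, package SMABS (part 4): `smag_basis` for a residue map into an ambient field

The residue map is given as a ring homomorphism `r : V →+* Ω` into an ambient field `Ω`
(`Ω = k((q))` in the application), not assumed surjective; the residue field `κ` is its image
(an intermediate field of `Ω / k`, constructed inside).  All hypotheses on the residue side are
stated elementwise inside `Ω`:

* separability: `∀ x : V, IsSeparable ↥k⟮t̄⟯ (r x)`;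
* the count, on the explicit subring `smagB k r t̄ : Subring Ω` of residues integral over `k[t̄]`
  (`smag_mem_B`, `smag_aeval_mem_B`).

`smag_omega` is `smag_basis_emb` in this form.  Also exported: the canonical algebra structures
`smagAlg K t : Algebra K[X] F`, `smagAlgAdj K t : Algebra K[X] ↥K⟮t⟯` with
`smag_isFractionRing_adjoin`, `smag_isScalarTower_adjoin`.
-/

set_option autoImplicit false
set_option linter.unusedSectionVars false
set_option linter.style.haveILetI false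

namespace Fermat.Agent.S18

open Polynomial
open scoped IntermediateField

section SMAGAlg

variable (K : Type*) {F : Type*} [Field K] [Field F] [Algebra K F]

/-- The `K[X]`-algebra structure on `F` through `X ↦ t` (install with `letI`). -/
@[reducible] noncomputable def smagAlg (t : F) : Algebra K[X] F :=
  ((aeval t : K[X] →ₐ[K] F) : K[X] →+* F).toAlgebra

/-- The `K[X]`-algebra structure on `K(t)` through `X ↦ t` (install with `letI`). -/
@[reducible] noncomputable def smagAlgAdj (t : F) : Algebra K[X] ↥K⟮t⟯ :=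
  ((aeval (⟨t, IntermediateField.mem_adjoin_simple_self K t⟩ : ↥K⟮t⟯) : K[X] →ₐ[K] ↥K⟮t⟯) :
    K[X] →+* ↥K⟮t⟯).toAlgebra

theorem smag_algAdj_coe (t : F) (P : K[X]) :
    letI := smagAlgAdj K t
    ((algebraMap K[X] ↥K⟮t⟯ P : ↥K⟮t⟯) : F) = aeval t P :=
  (aeval_algHom_apply (K⟮t⟯).val
    (⟨t, IntermediateField.mem_adjoin_simple_self K t⟩ : ↥K⟮t⟯) P).symm

theorem smag_isScalarTower_adjoin (t : F) :
    letI := smagAlg K t
    letI := smagAlgAdj K t
    IsScalarTower K[X] ↥K⟮t⟯ F := by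
  letI := smagAlg K t
  letI := smagAlgAdj K t
  exact IsScalarTower.of_algebraMap_eq fun P => (smag_algAdj_coe K t P).symm

/-- `K(t)` is the fraction field of `K[X]` (`X ↦ t`) when `t` is transcendental. -/
theorem smag_isFractionRing_adjoin (t : F) (ht : Transcendental K t) :
    letI := smagAlgAdj K t
    IsFractionRing K[X] ↥K⟮t⟯ := by
  letI := smagAlgAdj K t
  have hcoe : ∀ P : K[X], ((algebraMap K[X] ↥K⟮t⟯ P : ↥K⟮t⟯) : F) = aeval t P :=
    smag_algAdj_coe K t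
  haveI : FaithfulSMul K[X] ↥K⟮t⟯ := by
    rw [faithfulSMul_iff_algebraMap_injective]
    intro P Q h
    exact transcendental_iff_injective.mp ht (by rw [← hcoe, ← hcoe, h])
  refine IsFractionRing.of_field K[X] ↥K⟮t⟯ (fun z => ?_)
  obtain ⟨p, q, hpq⟩ := (IntermediateField.mem_adjoin_simple_iff K _).mp z.2
  refine ⟨p, q, Subtype.ext ?_⟩
  rw [hpq, IntermediateField.coe_div, hcoe, hcoe]

end SMAGAlg

section SMAGB

variable (k : Type*) {S Ω : Type*} [Field k] [CommRing S] [Field Ω] [Algebra k Ω]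

/-- The subring of `Ω` of the values of `r` which are integral over `k[t̄]`. -/
noncomputable def smagB (r : S →+* Ω) (tb : Ω) : Subring Ω :=
  letI : Algebra k[X] Ω := ((aeval tb : k[X] →ₐ[k] Ω) : k[X] →+* Ω).toAlgebra
  r.range ⊓ (integralClosure k[X] Ω).toSubring

theorem smag_mem_B (r : S →+* Ω) (tb z : Ω) :
    z ∈ smagB k r tb ↔
      (∃ x, r x = z) ∧ ((aeval tb : k[X] →ₐ[k] Ω) : k[X] →+* Ω).IsIntegralElem z :=
  Iff.rfl

end SMAGB

section SMAGTransfer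

/-- Transfer of a count of maximal ideals along a surjective ring homomorphism. -/
theorem smag_count_transfer {S S' : Type*} [CommRing S] [CommRing S'] (ψ : S' →+* S)
    (hψ : Function.Surjective ψ) {J : Type*} [Fintype J]
    (P : J → Ideal S → Prop) (P' : J → Ideal S' → Prop)
    (hPP' : ∀ i (Q : Ideal S), Q.IsMaximal → P i Q → P' i (Q.comap ψ))
    (e : J → ℕ) (N : ℕ)
    (hcount' : ∀ s' : J → Finset (Ideal S'), (∀ i, ∀ Q ∈ s' i, Q.IsMaximal ∧ P' i Q) →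
      ∑ i, ((s' i).card + e i) ≤ N)
    (s : J → Finset (Ideal S)) (hs : ∀ i, ∀ Q ∈ s i, Q.IsMaximal ∧ P i Q) :
    ∑ i, ((s i).card + e i) ≤ N := by
  classical
  have hinj : Function.Injective (Ideal.comap ψ) := Ideal.comap_injective_of_surjective ψ hψ
  have h := hcount' (fun i => (s i).image (Ideal.comap ψ)) (by
    intro i Q' hQ'
    obtain ⟨Q, hQ, rfl⟩ := Finset.mem_image.mp hQ'
    haveI := (hs i Q hQ).1
    exact ⟨Ideal.comap_isMaximal_of_surjective ψ hψ, hPP' i Q (hs i Q hQ).1 (hs i Q hQ).2⟩)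
  have hcard : ∀ i, ((s i).image (Ideal.comap ψ)).card = (s i).card := fun i =>
    Finset.card_image_of_injective _ hinj
  simpa only [hcard] using h

variable {k Ω : Type*} [Field k] [Field Ω] [Algebra k Ω]

/-- Separability of `κ / L` for intermediate fields `L ≤ κ` of `Ω / k`, read elementwise. -/
theorem smag_isSeparable (κ L : IntermediateField k Ω) (hle : L ≤ κ)
    (hsep : ∀ z ∈ κ, IsSeparable ↥L z) :
    letI : Algebra ↥L ↥κ := (IntermediateField.inclusion hle).toRingHom.toAlgebra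
    Algebra.IsSeparable ↥L ↥κ := by
  letI : Algebra ↥L ↥κ := (IntermediateField.inclusion hle).toRingHom.toAlgebra
  haveI : IsScalarTower ↥L ↥κ Ω := IsScalarTower.of_algebraMap_eq fun x => rfl
  refine ⟨fun y => ?_⟩
  have h := hsep (y : Ω) y.2
  have h2 := minpoly.algebraMap_eq (A := ↥L) (algebraMap ↥κ Ω).injective y
  unfold IsSeparable at h ⊢
  rw [← h2]
  exact h

/-- Integrality over `k[t̄]` inside an intermediate field and inside the ambient field. -/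
theorem smag_int_iff (κ : IntermediateField k Ω) (tb : ↥κ) (z : ↥κ) :
    ((aeval tb : k[X] →ₐ[k] ↥κ) : k[X] →+* ↥κ).IsIntegralElem z ↔
      ((aeval (tb : Ω) : k[X] →ₐ[k] Ω) : k[X] →+* Ω).IsIntegralElem (z : Ω) := by
  have h2 : (κ.val : ↥κ →+* Ω).comp ((aeval tb : k[X] →ₐ[k] ↥κ) : k[X] →+* ↥κ) =
      ((aeval (tb : Ω) : k[X] →ₐ[k] Ω) : k[X] →+* Ω) :=
    RingHom.ext fun P => (aeval_algHom_apply κ.val tb P).symm
  have h1 : ∀ p : k[X][X], ((eval₂ ((aeval tb : k[X] →ₐ[k] ↥κ) : k[X] →+* ↥κ) z p : ↥κ) : Ω) =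
      eval₂ ((aeval (tb : Ω) : k[X] →ₐ[k] Ω) : k[X] →+* Ω) (z : Ω) p := by
    intro p
    have h3 := Polynomial.hom_eval₂ p ((aeval tb : k[X] →ₐ[k] ↥κ) : k[X] →+* ↥κ)
      (κ.val : ↥κ →+* Ω) z
    rw [h2] at h3
    exact h3
  constructor
  · rintro ⟨p, hp, hpz⟩
    exact ⟨p, hp, by rw [← h1, hpz]; rfl⟩
  · rintro ⟨p, hp, hpz⟩
    exact ⟨p, hp, Subtype.ext (by rw [h1, hpz]; rfl)⟩

/-- The comparison map from `smagB` onto the integral closure of `k[X]` in the image field. -/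
theorem smag_exists_psi {S : Type*} [CommRing S] (r : S →+* Ω) (κ : IntermediateField k Ω)
    (hκ : ∀ z, z ∈ κ ↔ z ∈ Set.range r) (tb : ↥κ) :
    letI : Algebra k[X] ↥κ := ((aeval tb : k[X] →ₐ[k] ↥κ) : k[X] →+* ↥κ).toAlgebra
    ∃ ψ : ↥(smagB k r (tb : Ω)) →+* ↥(integralClosure k[X] ↥κ),
      Function.Surjective ψ ∧ ∀ z, (((ψ z : ↥(integralClosure k[X] ↥κ)) : ↥κ) : Ω) = (z : Ω) := by
  letI : Algebra k[X] ↥κ := ((aeval tb : k[X] →ₐ[k] ↥κ) : k[X] →+* ↥κ).toAlgebra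
  have hmemκ : ∀ z : ↥(smagB k r (tb : Ω)), (z : Ω) ∈ κ := fun z =>
    (hκ _).mpr ((smag_mem_B k r (tb : Ω) (z : Ω)).mp z.2).1
  let ψ₀ : ↥(smagB k r (tb : Ω)) →+* ↥κ :=
    (smagB k r (tb : Ω)).subtype.codRestrict κ.toSubring hmemκ
  have hψ₀ : ∀ z, ((ψ₀ z : ↥κ) : Ω) = (z : Ω) := fun z => rfl
  have hint : ∀ z, ψ₀ z ∈ (integralClosure k[X] ↥κ).toSubring := by
    intro z
    show ((aeval tb : k[X] →ₐ[k] ↥κ) : k[X] →+* ↥κ).IsIntegralElem (ψ₀ z)
    rw [smag_int_iff]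
    exact ((smag_mem_B k r (tb : Ω) (z : Ω)).mp z.2).2
  refine ⟨ψ₀.codRestrict (integralClosure k[X] ↥κ).toSubring hint, ?_, fun z => rfl⟩
  intro y
  have hy : ((aeval tb : k[X] →ₐ[k] ↥κ) : k[X] →+* ↥κ).IsIntegralElem (y : ↥κ) := y.2
  rw [smag_int_iff] at hy
  have hyB : ((y : ↥κ) : Ω) ∈ smagB k r (tb : Ω) :=
    (smag_mem_B k r (tb : Ω) _).mpr ⟨(hκ _).mp (y : ↥κ).2, hy⟩
  exact ⟨⟨_, hyB⟩, Subtype.ext (Subtype.ext rfl)⟩

end SMAGTransfer

section SMAGKappa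

variable {K k F Ω : Type*} [Field K] [Field k] [Field F] [Field Ω] [Algebra K F] [Algebra k Ω]
  {A : ValuationSubring K} {res : A →+* k} {V : ValuationSubring F}

/-- The image of the residue map is an intermediate field of `Ω / k`. -/
theorem smag_exists_kappa (r : V →+* Ω) (hres : Function.Surjective res)
    (hrker : ∀ x : V, (x : F) ∈ V.nonunits → r x = 0)
    (hAV : ∀ a : A, algebraMap K F a ∈ V)
    (hrA : ∀ a : A, r ⟨algebraMap K F a, hAV a⟩ = algebraMap k Ω (res a)) :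
    ∃ κ : IntermediateField k Ω, ∀ z, z ∈ κ ↔ z ∈ Set.range r := by
  refine ⟨{ r.range with
    algebraMap_mem' := fun c => by
      obtain ⟨a, rfl⟩ := hres c
      exact ⟨_, hrA a⟩
    inv_mem' := ?_ }, fun z => Iff.rfl⟩
  rintro _ ⟨x, rfl⟩
  by_cases hx : r x = 0
  · rw [hx, inv_zero]
    exact ⟨0, map_zero r⟩
  · have h1 : ¬ (x : F) ∈ V.nonunits := fun hn => hx (hrker x hn)
    rw [ValuationSubring.mem_nonunits_iff, not_lt] at h1
    have hxi : (x : F)⁻¹ ∈ V := by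
      rw [← ValuationSubring.valuation_le_one_iff, map_inv₀]
      exact inv_le_one_of_one_le₀ h1
    have hx0 : (x : F) ≠ 0 := by
      intro h0
      apply hx
      have : x = 0 := Subtype.ext h0
      rw [this, map_zero]
    refine ⟨⟨(x : F)⁻¹, hxi⟩, ?_⟩
    refine eq_inv_of_mul_eq_one_left ?_
    rw [← map_mul]
    have : (⟨(x : F)⁻¹, hxi⟩ : V) * x = 1 := Subtype.ext (inv_mul_cancel₀ hx0)
    rw [this, map_one]

/-- Polynomials in `t̄` lie in `smagB`. -/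
theorem smag_aeval_mem_B (r : V →+* Ω) (hres : Function.Surjective res)
    (hAV : ∀ a : A, algebraMap K F a ∈ V)
    (hrA : ∀ a : A, r ⟨algebraMap K F a, hAV a⟩ = algebraMap k Ω (res a))
    (t : F) (ht : t ∈ V) (P : k[X]) : aeval (r ⟨t, ht⟩) P ∈ smagB k r (r ⟨t, ht⟩) := by
  refine (smag_mem_B k r _ _).mpr ⟨?_, ?_⟩
  · rw [aeval_eq_sum_range]
    refine r.range.sum_mem fun i _ => ?_
    rw [Algebra.smul_def]
    refine r.range.mul_mem ?_ (r.range.pow_mem ⟨_, rfl⟩ i)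
    obtain ⟨a, ha⟩ := hres (P.coeff i)
    exact ⟨_, (hrA a).trans (by rw [ha])⟩
  · exact RingHom.isIntegralElem_map _

end SMAGKappa

section SMAGOmega

variable {K k F Ω E : Type*} [Field K] [Field k] [Field F] [Field Ω] [Field E]

/-- **`smag_basis` for a residue map into an ambient field** (`κ` := the image of `r`). -/
theorem smag_omega [IsAlgClosed K] [IsAlgClosed k] [Algebra K F] [Algebra k Ω]
    (A : ValuationSubring K) (res : A →+* k) (hres : Function.Surjective res)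
    (hresker : ∀ a : A, (a : K) ∈ A.nonunits → res a = 0)
    (V : ValuationSubring F) (r : V →+* Ω) (hrker : ∀ x : V, (x : F) ∈ V.nonunits → r x = 0)
    (hAV : ∀ a : A, algebraMap K F a ∈ V)
    (hrA : ∀ a : A, r ⟨algebraMap K F a, hAV a⟩ = algebraMap k Ω (res a))
    (t : F) (ht : t ∈ V) (htr : Transcendental k (r ⟨t, ht⟩))
    (huniq : ∀ O' : ValuationSubring F,
      (∀ y : ↥K⟮t⟯, algebraMap ↥K⟮t⟯ F y ∈ O' ↔ algebraMap ↥K⟮t⟯ F y ∈ V) → O' = V)
    (n : ℕ) (c : Fin n → F) (hc : ∀ i, c i ∈ V) (hn : Module.finrank ↥K⟮t⟯ F = n)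
    [FiniteDimensional ↥K⟮t⟯ F]
    (hind : ∀ a : Fin n → ↥K⟮t⟯, (∀ i, algebraMap ↥K⟮t⟯ F (a i) ∈ V) →
      ∑ i, algebraMap ↥K⟮t⟯ F (a i) * c i ∈ V.nonunits →
      ∀ i, algebraMap ↥K⟮t⟯ F (a i) ∈ V.nonunits)
    (hsep : ∀ x : V, IsSeparable ↥k⟮r ⟨t, ht⟩⟯ (r x))
    [Algebra K[X] F] [Algebra K[X] E] [IsFractionRing K[X] E] [Algebra E F]
    [IsScalarTower K[X] E F] (hX : ∀ P : K[X], algebraMap K[X] F P = aeval t P)
    {ι J : Type*} [Fintype ι] [DecidableEq ι] [Fintype J] [DecidableEq J]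
    (β : Module.Basis ι E F) (hβint : ∀ i, IsIntegral K[X] (β i))
    (hβspan : ∀ x : F, IsIntegral K[X] x → x ∈ Submodule.span K[X] (Set.range β))
    (u : K) (τ : J → A) (hτ : ∀ i j, res (τ i) = res (τ j) → i = j) (e : J → ℕ)
    (hD : Algebra.discr E β = algebraMap K[X] E (C u * ∏ i, (X - C (τ i : K)) ^ e i))
    (hcount : ∀ s : J → Finset (Ideal ↥(smagB k r (r ⟨t, ht⟩))),
      (∀ i, ∀ Q ∈ s i, Q.IsMaximal ∧
        ∀ z : ↥(smagB k r (r ⟨t, ht⟩)),
          (z : Ω) = r ⟨t, ht⟩ - algebraMap k Ω (res (τ i)) → z ∈ Q) →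
      ∑ i, ((s i).card + e i) ≤ Fintype.card J * n) :
    ∃ (b : Fin n → F) (hb : ∀ i, b i ∈ V),
      (∀ i, (((aeval t : K[X] →ₐ[K] F) : K[X] →+* F).comp
        (mapRingHom A.subtype)).IsIntegralElem (b i)) ∧
      (∀ g : Fin n → k[X],
        ∑ i, aeval (r ⟨t, ht⟩) (g i) * r ⟨b i, hb i⟩ = 0 → ∀ i, g i = 0) ∧
      (∀ y : V, ((aeval (r ⟨t, ht⟩) : k[X] →ₐ[k] Ω) : k[X] →+* Ω).IsIntegralElem (r y) →
        ∃ g : Fin n → k[X], r y = ∑ i, aeval (r ⟨t, ht⟩) (g i) * r ⟨b i, hb i⟩) := by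
  classical
  obtain ⟨κ, hκ⟩ := smag_exists_kappa r hres hrker hAV hrA
  have htκ : r ⟨t, ht⟩ ∈ κ := (hκ _).mpr ⟨_, rfl⟩
  let ρ : V →+* ↥κ := r.codRestrict κ.toSubring (fun x => (hκ _).mpr ⟨x, rfl⟩)
  have hρ : Function.Surjective ρ := by
    rintro ⟨z, hz⟩
    obtain ⟨x, rfl⟩ := (hκ z).mp hz
    exact ⟨x, Subtype.ext rfl⟩
  have hρker : ∀ x : V, (x : F) ∈ V.nonunits → ρ x = 0 := fun x hx =>
    Subtype.ext (hrker x hx)
  have hρA : ∀ a : A, ρ ⟨algebraMap K F a, hAV a⟩ = algebraMap k ↥κ (res a) := fun a =>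
    Subtype.ext (hrA a)
  have htrρ : Transcendental k (ρ ⟨t, ht⟩) := fun halg => htr (halg.algHom κ.val)
  have hle : k⟮r ⟨t, ht⟩⟯ ≤ κ := IntermediateField.adjoin_simple_le_iff.mpr htκ
  letI algKκ : Algebra ↥k⟮r ⟨t, ht⟩⟯ ↥κ := (IntermediateField.inclusion hle).toRingHom.toAlgebra
  letI algXκ : Algebra k[X] ↥κ := ((aeval (ρ ⟨t, ht⟩) : k[X] →ₐ[k] ↥κ) : k[X] →+* ↥κ).toAlgebra
  letI algXKk : Algebra k[X] ↥k⟮r ⟨t, ht⟩⟯ := smagAlgAdj k (r ⟨t, ht⟩)
  haveI hfrac : IsFractionRing k[X] ↥k⟮r ⟨t, ht⟩⟯ := smag_isFractionRing_adjoin k (r ⟨t, ht⟩) htr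
  haveI htower : IsScalarTower k[X] ↥k⟮r ⟨t, ht⟩⟯ ↥κ :=
    IsScalarTower.of_algebraMap_eq fun P => Subtype.ext (by
      show ((aeval (ρ ⟨t, ht⟩) P : ↥κ) : Ω) =
        ((algebraMap k[X] ↥k⟮r ⟨t, ht⟩⟯ P : ↥k⟮r ⟨t, ht⟩⟯) : Ω)
      rw [smag_algAdj_coe]
      exact (aeval_algHom_apply κ.val (ρ ⟨t, ht⟩) P).symm)
  haveI hsepκ : Algebra.IsSeparable ↥k⟮r ⟨t, ht⟩⟯ ↥κ :=
    smag_isSeparable κ k⟮r ⟨t, ht⟩⟯ hle (fun z hz => by
      obtain ⟨x, rfl⟩ := (hκ z).mp hz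
      exact hsep x)
  have hcount' : ∀ s : J → Finset (Ideal ↥(integralClosure k[X] ↥κ)),
      (∀ i, ∀ Q ∈ s i, Q.IsMaximal ∧
        algebraMap k[X] ↥(integralClosure k[X] ↥κ) (X - C (res (τ i))) ∈ Q) →
      ∑ i, ((s i).card + e i) ≤ Fintype.card J * n := by
    obtain ⟨ψ, hψ, hψc⟩ := smag_exists_psi (k := k) r κ hκ (ρ ⟨t, ht⟩)
    intro s hs
    refine smag_count_transfer ψ hψ
      (fun i Q => algebraMap k[X] ↥(integralClosure k[X] ↥κ) (X - C (res (τ i))) ∈ Q)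
      (fun i Q' => ∀ z : ↥(smagB k r (r ⟨t, ht⟩)),
        (z : Ω) = r ⟨t, ht⟩ - algebraMap k Ω (res (τ i)) → z ∈ Q') ?_ e _ hcount s hs
    intro i Q hQ hPQ z hz
    rw [Ideal.mem_comap]
    have h1 : ψ z = algebraMap k[X] ↥(integralClosure k[X] ↥κ) (X - C (res (τ i))) := by
      apply Subtype.ext
      apply Subtype.ext
      rw [hψc, hz]
      show _ = ((aeval (ρ ⟨t, ht⟩) (X - C (res (τ i))) : ↥κ) : Ω)
      rw [map_sub, aeval_X, aeval_C]
      rfl
    rw [h1]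
    exact hPQ
  exact smag_basis_emb (E := E) (Kk := ↥k⟮r ⟨t, ht⟩⟯) κ.val r (fun x => rfl) hres hresker hρ
    hρker hAV hρA t ht htrρ hX (fun P => rfl) huniq inferInstance n c hc hn hind β hβint hβspan
    u τ hτ e hD hcount'

end SMAGOmega

end Fermat.Agent.S18
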