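import Mathlib
import Fermat.Agent.S18.Charts
import Fermat.Agent.S18.SMInstAbs

/-!
# S18, package SM-INST, K0 side, piece (e): the bridge to the chart subalgebra

`A0` is a commutative ring (a valuation subring of the field `K0` in the application), `F0` a
field with compatible `A0`- and `K0`-algebra structures and `t : F0` the chart coordinate.  The
special-fibre package (`SMInstAbs`) speaks about `integralClosure A0[X] F0` for an
`A0[X]`-algebra structure on `F0` (`X ↦ t`), while the abstract core wants the chart subalgebra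
`chtO A0 {t}`.

* `smie_aeval_toRingHom_eq`, `smie_mem_chtO_iff_comp`, `smie_mem_chtO_iff_subtype`: membership in
  the chart ring in the spelling of the `Qbar`-side package (`smq_main`, `smibStmt`): integrality
  with respect to the ring homomorphism `A0[X] → K0[X] → F0`;
* `smie_mem_chtO_iff_toAlgebra`, `smie_bridge`: the chart ring is `integralClosure A0[X] F0` for
  the algebra structure `(aeval t).toRingHom.toAlgebra`, and the Dedekind property of the special
  fibre transfers;
* `smie_dedekind_of_valuation'`: `sminst_dedekind_of_valuation'` followed by the bridge, with all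
  instance plumbing inside: no `A0[X]`-algebra instance appears in the statement, the hypotheses
  are elementwise in terms of `aeval t` and `chtO A0 {t}` (the kernel hypothesis in the shape of
  `smik_hker`), the conclusion is the one-chart statement of the core (`cinstSMChart`).
-/

set_option autoImplicit false

namespace Fermat.Agent.S18

open Polynomial

section Generic

variable {A0 K0 F0 : Type*} [CommRing A0] [Field K0] [Algebra A0 K0] [Field F0] [Algebra K0 F0]
  [Algebra A0 F0] [IsScalarTower A0 K0 F0]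

/-- Evaluation at `t` of polynomials over `A0` factors through `K0[X]`. -/
theorem smie_aeval_toRingHom_eq (t : F0) :
    (Polynomial.aeval t : A0[X] →ₐ[A0] F0).toRingHom =
      ((Polynomial.aeval t : K0[X] →ₐ[K0] F0) : K0[X] →+* F0).comp
        (Polynomial.mapRingHom (algebraMap A0 K0)) := by
  refine Polynomial.ringHom_ext (fun a => ?_) ?_
  · simp [IsScalarTower.algebraMap_apply A0 K0 F0]
  · simp

theorem smie_aeval_eq_aeval_map (t : F0) (p : A0[X]) :
    Polynomial.aeval t p = Polynomial.aeval t (p.map (algebraMap A0 K0)) := by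
  have h := congrArg (fun f : A0[X] →+* F0 => f p) (smie_aeval_toRingHom_eq (A0 := A0) (K0 := K0) t)
  exact h

/-- Membership in the chart ring, in the spelling of the `Qbar`-side package. -/
theorem smie_mem_chtO_iff_comp (t x : F0) :
    x ∈ chtO A0 {t} ↔
      (((Polynomial.aeval t : K0[X] →ₐ[K0] F0) : K0[X] →+* F0).comp
        (Polynomial.mapRingHom (algebraMap A0 K0))).IsIntegralElem x := by
  rw [cht_mem_iff, cht_isIntegral_adjoin_iff, smie_aeval_toRingHom_eq (K0 := K0)]

omit [Field K0] [Algebra A0 K0] [Algebra K0 F0] [IsScalarTower A0 K0 F0] in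
/-- Membership in the chart ring as integrality over `A0[X]` for the algebra structure
`X ↦ t`. -/
theorem smie_mem_chtO_iff_toAlgebra (t x : F0) :
    x ∈ chtO A0 {t} ↔
      @IsIntegral A0[X] F0 _ _ (Polynomial.aeval t : A0[X] →ₐ[A0] F0).toRingHom.toAlgebra x := by
  rw [cht_mem_iff, cht_isIntegral_adjoin_iff]
  rfl

omit [Field K0] [Algebra A0 K0] [Algebra K0 F0] [IsScalarTower A0 K0 F0] in
/-- **Piece (e): the bridge.** The Dedekind property of the special fibre of
`integralClosure A0[X] F0` (any `A0[X]`-algebra structure on `F0` given by `X ↦ t`; output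
shape of `sminst_dedekind_of_valuation'`) gives the Dedekind property of the special fibre of
the chart subalgebra `chtO A0 {t}`. -/
theorem smie_bridge (t : F0) (τ : A0) [Algebra A0[X] F0]
    (halg : ∀ p : A0[X], algebraMap A0[X] F0 p = Polynomial.aeval t p)
    (h : IsDedekindDomain (integralClosure A0[X] F0 ⧸
      Ideal.span {algebraMap A0[X] (integralClosure A0[X] F0) (C τ)})) :
    IsDedekindDomain (chtO A0 {t} ⧸ Ideal.span {algebraMap A0 (chtO A0 {t}) τ}) :=
  cht_dedekind_bridge t τ halg h

omit [Field K0] [Algebra A0 K0] [Algebra K0 F0] [IsScalarTower A0 K0 F0] in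
/-- **The one-chart statement from the valuation-ring inputs** (`sminst_dedekind_of_valuation'`
followed by the bridge; no `A0[X]`-algebra instance appears in the statement).

* `res0`, `τ`: the residue map of `A0` and a generator of its kernel;
* `V0`, `ρV`: a valuation subring of `F0` containing `A0[t]` and its residue map onto `κ0`;
* `f0 : k0[X] →+* κ0`: the reduction of `A0[t]`;
* `hker`: a non-unit of `V0` in the chart ring is `τ` times an element of the chart ring
  (shape of `smik_hker`);
* `hfin`: every `k0[X]`-independent finite family of `κ0` has at most `d` elements;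
* `b0`: `d` elements of the chart ring whose residues, pushed into a bigger field `κ` over
  `k[X]`, are `k[X]`-independent and span the `k[X]`-integral elements coming from `κ0`. -/
theorem smie_dedekind_of_valuation' [IsDomain A0] (t : F0)
    {k0 : Type*} [Field k0] (res0 : A0 →+* k0) (hres0 : Function.Surjective res0)
    (τ : A0) (hτ : ∀ a : A0, res0 a = 0 ↔ τ ∣ a)
    (V0 : ValuationSubring F0) (hAV : ∀ p : A0[X], Polynomial.aeval t p ∈ V0)
    {κ0 : Type*} [Field κ0] (ρV : ↥V0 →+* κ0) (hρVsurj : Function.Surjective ρV)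
    (hρV : ∀ x : ↥V0, ρV x = 0 → (x : F0) ∈ V0.nonunits)
    (f0 : k0[X] →+* κ0)
    (hf0 : ∀ p : A0[X], ρV ⟨Polynomial.aeval t p, hAV p⟩ = f0 (p.map res0))
    (hf0inj : Function.Injective f0)
    (hker : ∀ x : F0, x ∈ chtO A0 {t} → x ∈ V0.nonunits →
      ∃ y ∈ chtO A0 {t}, x = algebraMap A0 F0 τ * y)
    (d : ℕ)
    (hfin : ∀ (n : ℕ) (c : Fin n → κ0),
      (∀ g : Fin n → k0[X], ∑ i, f0 (g i) * c i = 0 → ∀ i, g i = 0) → n ≤ d)
    {k : Type*} [Field k] (φ : k0 →+* k) (hφ : φ.IsIntegral)
    {κ : Type*} [Field κ] (f : k[X] →+* κ) (j : κ0 →+* κ)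
    (hj : ∀ r : k0[X], j (f0 r) = f (r.map φ))
    (b0 : Fin d → F0) (hb0 : ∀ i, b0 i ∈ chtO A0 {t}) (hb0V : ∀ i, b0 i ∈ V0)
    (hli : ∀ g : Fin d → k[X], ∑ i, f (g i) * j (ρV ⟨b0 i, hb0V i⟩) = 0 → ∀ i, g i = 0)
    (hspan : ∀ x : ↥V0, f.IsIntegralElem (j (ρV x)) →
      ∃ g : Fin d → k[X], j (ρV x) = ∑ i, f (g i) * j (ρV ⟨b0 i, hb0V i⟩)) :
    IsDedekindDomain (chtO A0 {t} ⧸ Ideal.span {algebraMap A0 (chtO A0 {t}) τ}) := by
  let _ : Algebra A0[X] F0 := (Polynomial.aeval t : A0[X] →ₐ[A0] F0).toRingHom.toAlgebra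
  have halg : ∀ p : A0[X], algebraMap A0[X] F0 p = Polynomial.aeval t p := fun _ => rfl
  have hmem : ∀ x : F0, x ∈ chtO A0 {t} ↔ IsIntegral A0[X] x :=
    fun x => smie_mem_chtO_iff_toAlgebra t x
  have hC : algebraMap A0[X] F0 (C τ) = algebraMap A0 F0 τ := by
    rw [halg, aeval_C]
  refine smie_bridge t τ halg ?_
  refine sminst_dedekind_of_valuation' res0 hres0 τ hτ V0 hAV ρV hρVsurj hρV f0 hf0 hf0inj ?_ d
    hfin φ hφ f j hj b0 (fun i => (hmem _).mp (hb0 i)) hb0V hli hspan
  intro x hx hxV
  obtain ⟨y, hy, hxy⟩ := hker x ((hmem x).mpr hx) hxV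
  exact ⟨y, (hmem y).mp hy, by rw [hC]; exact hxy⟩

end Generic

section Val

variable {K0 : Type*} [Field K0] (A0 : ValuationSubring K0) {F0 : Type*} [Field F0]
  [Algebra K0 F0] [Algebra (↥A0) F0] [IsScalarTower (↥A0) K0 F0]

/-- Membership in the chart ring over a valuation subring `A0 ⊆ K0`, verbatim in the spelling of
`smq_main` / `smibStmt` (integrality with respect to `A0[X] → K0[X] → F0`, the first map being
`Polynomial.mapRingHom A0.subtype`). -/
theorem smie_mem_chtO_iff_subtype (t x : F0) :
    x ∈ chtO (↥A0) {t} ↔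
      (((Polynomial.aeval t : K0[X] →ₐ[K0] F0) : K0[X] →+* F0).comp
        (Polynomial.mapRingHom A0.subtype)).IsIntegralElem x :=
  smie_mem_chtO_iff_comp (A0 := ↥A0) (K0 := K0) t x

/-- Any `A0`-algebra structure on `F0` compatible with the `K0`-structure is the obvious one. -/
theorem smie_algebraMap_eq (a : ↥A0) : algebraMap (↥A0) F0 a = algebraMap K0 F0 (a : K0) :=
  IsScalarTower.algebraMap_apply (↥A0) K0 F0 a

end Val

end Fermat.Agent.S18
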