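import Mathlib
import Fermat.Agent.S18.SMInstDefs
import Fermat.Agent.S18.Disc0
import Fermat.Agent.S18.RedDisc

/-!
# S18, package SM-INST, slice SMI-SETUP: the Gauss-ring hypotheses of `sma_main` for a chart

On top of `SMInstDefs` (`SmiKappa A M`, `smiVal`, `smiRho`, `smiPolyAlgebra`, `smiFracAlgebra`).
Generic in `(K, A)`: `A : ValuationSubring K` over `ℓ ∤ M`, `k` its residue field,
`F = ↥(laurentBaseChange K (modularFunctionFieldFull M))`, `V = grO A hA M hℓM`, `κ = SmiKappa A M`,
`ρ = smiRho A hA M hℓM`; `t ∈ V` a coordinate with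
`htr : Transcendental k (grRes A hA M hℓM ⟨t, ht⟩)` and `hj : grJ K M ∈ K⟮t⟯`.

* `smisTbar`: the residue `t̄ = ρ t ∈ κ`; `smis_tbar_transcendental`, `smis_transcendental`;
* `smis_hAV`: `P ∈ A[X] ⇒ P(t) ∈ V` and `ρ (P(t)) = P̄(t̄)`;
* `smis_poly_mem`: `p ∈ K[X]`, `p(t) ∈ V ⇒ p ∈ A[X]` (Gauss lemma);
* `smis_hint`: `x ∈ V` integral over `K[t]` is integral over `A[t]`;
* `smis_hdeg` / `smis_hdeg_frac`: `[κ : k(t̄)] = [F : K(t)]`, both finite, in the `K⟮t⟯`-form and
  in the `FractionRing K[X]`-form of `SMInstDefs`;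
* `smis_basis`: an orthonormal family of `V` whose residues are a `k(t̄)`-basis of `κ`.
-/

set_option autoImplicit false
set_option linter.style.haveILetI false
set_option linter.unusedSectionVars false

noncomputable section

open ModularCurve Polynomial
open scoped IntermediateField

namespace Fermat.Agent.S18

/-! ### Generic: `K(t)` as the fraction field of `K[X]` -/

section smisGen

variable (K : Type*) {F : Type*} [Field K] [Field F] [Algebra K F] (t : F)

/-- The `K[X]`-algebra structure on `K(t)` given by `X ↦ t` (install with `letI`). -/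
@[reducible] def smisAlgE : Algebra K[X] ↥K⟮t⟯ :=
  ((Polynomial.aeval (IntermediateField.AdjoinSimple.gen K t) : K[X] →ₐ[K] ↥K⟮t⟯) :
    K[X] →+* ↥K⟮t⟯).toAlgebra

theorem smis_coe_aeval_gen (p : K[X]) :
    ((aeval (IntermediateField.AdjoinSimple.gen K t) p : ↥K⟮t⟯) : F) = aeval t p := by
  have h := Polynomial.aeval_algebraMap_apply (A := ↥K⟮t⟯) (B := F)
    (IntermediateField.AdjoinSimple.gen K t) p
  rw [IntermediateField.AdjoinSimple.algebraMap_gen] at h
  exact h.symm

theorem smis_isScalarTower_E :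
    letI := smiPolyAlgebra K t
    letI := smisAlgE K t
    IsScalarTower K[X] ↥K⟮t⟯ F := by
  letI := smiPolyAlgebra K t
  letI := smisAlgE K t
  refine IsScalarTower.of_algebraMap_eq fun p => ?_
  exact (smis_coe_aeval_gen K t p).symm

theorem smis_isFractionRing_E (ht : Transcendental K t) :
    letI := smisAlgE K t
    IsFractionRing K[X] ↥K⟮t⟯ := by
  letI := smisAlgE K t
  let e : RatFunc K ≃ₐ[K[X]] ↥K⟮t⟯ :=
    AlgEquiv.ofRingEquiv (f := (RatFunc.algEquivOfTranscendental t ht).toRingEquiv)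
      (fun g => RatFunc.algEquivOfTranscendental_algebraMap t ht g)
  exact IsLocalization.isLocalization_of_algEquiv (nonZeroDivisors K[X]) e

end smisGen

/-! ### Units of the Gauss ring, the residue of the coordinate -/

section smisChart

variable {K : Type*} [Field K] [Algebra ℚ K] (A : ValuationSubring K) {ℓ : ℕ} [Fact ℓ.Prime]
  (hA : A.LiesOverPrime ℓ) (M : ℕ) [NeZero M] (hℓM : ¬ ℓ ∣ M)

theorem smis_algebraMap_mem (c : A) :
    algebraMap K ↥(laurentBaseChange K (modularFunctionFieldFull M)) (c : K) ∈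
      grO A hA M hℓM :=
  gr_algebraMap_mem A c

/-- elements with nonzero residue are units of `grO`. -/
theorem smis_inv_mem (x : ↥(grO A hA M hℓM)) (hx : smiRho A hA M hℓM x ≠ 0) :
    (x : ↥(laurentBaseChange K (modularFunctionFieldFull M)))⁻¹ ∈ grO A hA M hℓM := by
  have h : grRes A hA M hℓM x ≠ 0 := fun h0 =>
    hx (smiVal_injective A M (by rw [smiVal_smiRho, h0, map_zero]))
  exact gr_inv_mem A (grOToV A hA M hℓM x) h

theorem smis_rho_inv (x : ↥(grO A hA M hℓM)) (hx : smiRho A hA M hℓM x ≠ 0) :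
    smiRho A hA M hℓM ⟨_, smis_inv_mem A hA M hℓM x hx⟩ = (smiRho A hA M hℓM x)⁻¹ := by
  have h0 : (x : ↥(laurentBaseChange K (modularFunctionFieldFull M))) ≠ 0 := by
    intro h
    apply hx
    have : x = 0 := Subtype.ext h
    rw [this, map_zero]
  have h1 : x * ⟨_, smis_inv_mem A hA M hℓM x hx⟩ = 1 :=
    Subtype.ext (mul_inv_cancel₀ h0)
  have h2 := congrArg (smiRho A hA M hℓM) h1
  rw [map_mul, map_one] at h2
  exact eq_inv_of_mul_eq_one_right h2

variable (t : ↥(laurentBaseChange K (modularFunctionFieldFull M))) (ht : t ∈ grO A hA M hℓM)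

/-- The residue `t̄ ∈ κ` of the coordinate. -/
def smisTbar : SmiKappa A M := smiRho A hA M hℓM ⟨t, ht⟩

theorem smiVal_smisTbar :
    smiVal A M (smisTbar A hA M hℓM t ht) = grRes A hA M hℓM ⟨t, ht⟩ := rfl

theorem smis_coe_aeval (p : K[X]) :
    ((aeval t p : ↥(laurentBaseChange K (modularFunctionFieldFull M))) : LaurentSeries K) =
      aeval (t : LaurentSeries K) p :=
  (Polynomial.aeval_algebraMap_apply (A := ↥(laurentBaseChange K (modularFunctionFieldFull M)))
    (B := LaurentSeries K) t p).symm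

theorem smiVal_aeval (z : SmiKappa A M) (p : (IsLocalRing.ResidueField A)[X]) :
    smiVal A M (aeval z p) = aeval (smiVal A M z) p :=
  (Polynomial.aeval_algHom_apply (smiVal A M) z p).symm

theorem smis_tbar_transcendental
    (htr : Transcendental (IsLocalRing.ResidueField A) (grRes A hA M hℓM ⟨t, ht⟩)) :
    Transcendental (IsLocalRing.ResidueField A) (smisTbar A hA M hℓM t ht) := by
  rw [transcendental_iff] at htr ⊢
  intro p hp
  apply htr p
  have h := congrArg (smiVal A M) hp
  rw [smiVal_aeval, smiVal_smisTbar, map_zero] at h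
  exact h

theorem smis_transcendental
    (htr : Transcendental (IsLocalRing.ResidueField A) (grRes A hA M hℓM ⟨t, ht⟩)) :
    Transcendental K t := by
  have h1 : Transcendental K ((⟨(t : LaurentSeries K), ht⟩ : grV A) : LaurentSeries K) :=
    gab_transcendental (gr_gabHyp A) (⟨(t : LaurentSeries K), ht⟩ : grV A) htr
  rw [transcendental_iff] at h1 ⊢
  intro p hp
  apply h1 p
  have h := congrArg (fun z : ↥(laurentBaseChange K (modularFunctionFieldFull M)) =>
    (z : LaurentSeries K)) hp
  simp only [smis_coe_aeval] at h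
  exact h

/-- `(hAV)`: polynomials over `A` in `t` lie in `grO`, and reduce coefficientwise. -/
theorem smis_hAV (P : A[X]) :
    ∃ h : aeval t (P.map A.subtype) ∈ grO A hA M hℓM,
      smiRho A hA M hℓM ⟨_, h⟩ =
        aeval (smisTbar A hA M hℓM t ht) (P.map (IsLocalRing.residue A)) := by
  have h1 := gab_aeval_mem (gr_gabHyp A) (⟨(t : LaurentSeries K), ht⟩ : grV A) P
  have hmem : aeval t (P.map A.subtype) ∈ grO A hA M hℓM := by
    rw [mem_grO_iff, smis_coe_aeval]
    exact h1
  refine ⟨hmem, smiVal_injective A M ?_⟩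
  rw [smiVal_aeval, smiVal_smisTbar, smiVal_smiRho, grRes_apply]
  have h2 := gab_rho_aeval (gr_gabHyp A) (⟨(t : LaurentSeries K), ht⟩ : grV A) P
  refine Eq.trans ?_ h2
  congr 1
  exact Subtype.ext (smis_coe_aeval M t _)

/-- Gauss lemma: a polynomial over `K` whose value at `t` lies in `grO` has coefficients in
`A`. -/
theorem smis_poly_mem
    (htr : Transcendental (IsLocalRing.ResidueField A) (grRes A hA M hℓM ⟨t, ht⟩))
    (p : K[X]) (hp : aeval t p ∈ grO A hA M hℓM) : ∃ P : A[X], P.map A.subtype = p := by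
  by_cases hp0 : p = 0
  · exact ⟨0, by rw [hp0, Polynomial.map_zero]⟩
  obtain ⟨c, R, hc, hPR, i₀, -, hR⟩ :=
    gab_content A ({()} : Finset Unit) (fun _ => p) ⟨(), Finset.mem_singleton_self _, hp0⟩
  have hpR : p = C c * (R ()).map A.subtype := hPR () (Finset.mem_singleton_self _)
  set τ : grV A := ⟨(t : LaurentSeries K), ht⟩ with hτ
  set u : grV A := (R ()).eval₂ (gabToV (gr_gabHyp A)) τ with hu
  have hρu : grRho A u ≠ 0 := by
    rw [hu, gab_rho_eval₂]
    intro h0
    exact hR (transcendental_iff.mp htr _ h0)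
  have hval : aeval (t : LaurentSeries K) p =
      algebraMap K (LaurentSeries K) c * (u : LaurentSeries K) := by
    rw [hu, gab_coe_eval₂, hpR, map_mul, Polynomial.aeval_C]
  have hmem : algebraMap K (LaurentSeries K) c * (u : LaurentSeries K) ∈ grV A := by
    rw [← hval, ← smis_coe_aeval]
    exact hp
  have hcA : c ∈ A := gab_const_mem (gr_gabHyp A) c u hρu hmem
  refine ⟨C (⟨c, hcA⟩ : A) * R (), ?_⟩
  rw [Polynomial.map_mul, Polynomial.map_C, hpR]
  rfl

/-- `(hint)`: an element of `grO` integral over `K[t]` is integral over `A[t]`. -/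
theorem smis_hint
    (htr : Transcendental (IsLocalRing.ResidueField A) (grRes A hA M hℓM ⟨t, ht⟩))
    (hj : grJ K M ∈ K⟮t⟯)
    (x : ↥(laurentBaseChange K (modularFunctionFieldFull M))) (hx : x ∈ grO A hA M hℓM)
    (hint : ((Polynomial.aeval t : K[X] →ₐ[K] ↥(laurentBaseChange K (modularFunctionFieldFull M))) :
      K[X] →+* ↥(laurentBaseChange K (modularFunctionFieldFull M))).IsIntegralElem x) :
    (((Polynomial.aeval t : K[X] →ₐ[K] ↥(laurentBaseChange K (modularFunctionFieldFull M))) :
      K[X] →+* ↥(laurentBaseChange K (modularFunctionFieldFull M))).comp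
        (Polynomial.mapRingHom A.subtype)).IsIntegralElem x := by
  have htK : Transcendental K t := smis_transcendental A hA M hℓM t ht htr
  obtain ⟨n, b, hb, hfin, hFD, -⟩ := gr_hind_t A hA M hℓM t ht htr hj
  letI : Algebra K[X] ↥(laurentBaseChange K (modularFunctionFieldFull M)) := smiPolyAlgebra K t
  letI : Algebra K[X] ↥K⟮t⟯ := smisAlgE K t
  haveI : IsScalarTower K[X] ↥K⟮t⟯ ↥(laurentBaseChange K (modularFunctionFieldFull M)) :=
    smis_isScalarTower_E K t
  haveI : IsFractionRing K[X] ↥K⟮t⟯ := smis_isFractionRing_E K t htK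
  letI : Algebra A[X] K[X] := (Polynomial.mapRingHom A.subtype).toAlgebra
  letI : Algebra A[X] ↥(laurentBaseChange K (modularFunctionFieldFull M)) :=
    ((algebraMap K[X] ↥(laurentBaseChange K (modularFunctionFieldFull M))).comp
      (Polynomial.mapRingHom A.subtype)).toAlgebra
  haveI : IsScalarTower A[X] K[X] ↥(laurentBaseChange K (modularFunctionFieldFull M)) :=
    IsScalarTower.of_algebraMap_eq (fun _ => rfl)
  haveI : Algebra.IsAlgebraic ↥K⟮t⟯ ↥(laurentBaseChange K (modularFunctionFieldFull M)) :=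
    Algebra.IsAlgebraic.of_finite _ _
  have hR₀ : ∀ r : K[X],
      algebraMap K[X] ↥(laurentBaseChange K (modularFunctionFieldFull M)) r ∈ grO A hA M hℓM →
        ∃ r₀ : A[X], algebraMap A[X] K[X] r₀ = r :=
    fun r hr => smis_poly_mem A hA M hℓM t ht htr r hr
  exact valext_integral (R := K[X]) (L := ↥K⟮t⟯) (grO A hA M hℓM)
    (gr_unique_t A hA M hℓM t hj) (R₀ := A[X]) hR₀ x hx hint

end smisChart

end Fermat.Agent.S18
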