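import Mathlib
import Fermat.Agent.S18.SMQAbs

/-!
# S18, package SMQ (part 2): the cusp count and the separability, for a residue field inside an
ambient field

The residue field `κ` of the Gauss valuation ring is an intermediate field of `Ω / k`
(`Ω = k((q))`).  Given the exports of the cusp-count package (the cusp expansions `sig`, the ring
`Reg` of elements regular at all cusps, the uniformiser `xb = 1/j`, the count of maximal ideals
over the cusps and the separability criterion) and the chart relation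
`Den(t̄) · xb = Num(t̄)`, we derive

* `smq_hcount_of_cusp`: the count hypothesis of the abstract semistable-model theorem, on a
  subring `B ⊆ κ` of elements integral over `k[t̄]`;
* `smq_sep_of_cusp`: separability of `κ / k(t̄)`, elementwise in `Ω`.

Names are prefixed `smq_`.
-/

set_option autoImplicit false

noncomputable section

open Polynomial
open scoped IntermediateField

namespace Fermat.Agent.S18

section Cusp

universe u

variable {k : Type*} [Field k] {Ω : Type u} [Field Ω] [Algebra k Ω]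
  (κ : IntermediateField k Ω) {Qi : Type*}
  (sig : Qi → ↥κ →+* LaurentSeries k)
  (hsc : ∀ q c, sig q (algebraMap k ↥κ c) = algebraMap k (LaurentSeries k) c)
  (Reg : Subring ↥κ)
  (hmem : ∀ y, y ∈ Reg ↔ ∀ q (n : ℤ), n < 0 → (sig q y).coeff n = 0)
  (hint : ∀ y : ↥κ, IsIntegral Reg y → y ∈ Reg)
  (hinv : ∀ y, y ∈ Reg → (∀ q, (sig q y).coeff 0 ≠ 0) → y⁻¹ ∈ Reg)
  (xb : ↥κ) (hx : ∀ q (n : ℤ), n ≤ 0 → (sig q xb).coeff n = 0)
  (tb : Ω) (htb : tb ∈ κ) (Num Den : k[X])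
  (hrel : aeval tb Den * (xb : Ω) = aeval tb Num)

omit [Algebra k Ω] in
/-- evaluation of polynomials commutes with the inclusion of an intermediate field -/
theorem smq_coe_aeval {k : Type*} [Field k] {Ω : Type*} [Field Ω] [Algebra k Ω]
    (κ : IntermediateField k Ω) (tb : Ω) (htb : tb ∈ κ) (P : k[X]) :
    ((aeval (⟨tb, htb⟩ : ↥κ) P : ↥κ) : Ω) = aeval tb P :=
  (aeval_algHom_apply κ.val (⟨tb, htb⟩ : ↥κ) P).symm

include hrel in
theorem smq_rel_kappa :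
    aeval (⟨tb, htb⟩ : ↥κ) Den * xb = aeval (⟨tb, htb⟩ : ↥κ) Num := by
  apply Subtype.ext
  show ((aeval (⟨tb, htb⟩ : ↥κ) Den : ↥κ) : Ω) * (xb : Ω) = ((aeval (⟨tb, htb⟩ : ↥κ) Num : ↥κ) : Ω)
  rw [smq_coe_aeval, smq_coe_aeval]
  exact hrel

/-- integrality over `k[t̄]` descends from the ambient field to the intermediate field -/
theorem smq_int_kappa (z : Ω) (hz : z ∈ κ)
    (hzi : ((aeval tb : k[X] →ₐ[k] Ω) : k[X] →+* Ω).IsIntegralElem z) :
    ((aeval (⟨tb, htb⟩ : ↥κ) : k[X] →ₐ[k] ↥κ) : k[X] →+* ↥κ).IsIntegralElem (⟨z, hz⟩ : ↥κ) := by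
  obtain ⟨p, hp, hpz⟩ := hzi
  refine ⟨p, hp, ?_⟩
  apply Subtype.ext
  have h1 := Polynomial.hom_eval₂ p
    ((aeval (⟨tb, htb⟩ : ↥κ) : k[X] →ₐ[k] ↥κ) : k[X] →+* ↥κ) (κ.val : ↥κ →+* Ω) (⟨z, hz⟩ : ↥κ)
  have h2 : (κ.val : ↥κ →+* Ω).comp
      ((aeval (⟨tb, htb⟩ : ↥κ) : k[X] →ₐ[k] ↥κ) : k[X] →+* ↥κ) =
      ((aeval tb : k[X] →ₐ[k] Ω) : k[X] →+* Ω) := by
    refine RingHom.ext fun P => ?_
    exact smq_coe_aeval κ tb htb P
  rw [h2] at h1
  exact h1.trans hpz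

include hsc hmem hint hinv hx hrel htb in
/-- **The count hypothesis from the cusp count.**  `B ⊆ κ` a subring of elements integral over
`k[t̄]` containing `k[t̄]`; `τb i` the residues of the cusp values of the chart. -/
theorem smq_hcount_of_cusp (n : ℕ) (hNum : Num.natDegree ≤ n) (hDen : Den.natDegree ≤ n)
    (hlead : Num.coeff n ≠ 0)
    (B : Subring Ω) (hBκ : ∀ z ∈ B, z ∈ κ)
    (hBint : ∀ z ∈ B, ((aeval tb : k[X] →ₐ[k] Ω) : k[X] →+* Ω).IsIntegralElem z)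
    (hBpoly : ∀ P : k[X], aeval tb P ∈ B)
    {J : Type*} [Fintype J] [DecidableEq J] (τb : J → k) (hτ : Function.Injective τb)
    (hNum0 : ∀ i, Num.eval (τb i) = 0) (hDen0 : ∀ i, Den.eval (τb i) ≠ 0) (c : ℕ)
    (hcard : ∀ f : ↥B →+* ↥κ, Function.Injective f → (∀ z, f z ∈ Reg) →
      ∀ s : Finset (Ideal ↥B),
        (∀ Q ∈ s, Q.IsMaximal ∧ ∃ a ∈ Q, ∃ b, b ∉ Q ∧ f b * xb = f a) → s.card ≤ c)
    (d : ℕ) (e m : J → ℕ) (hen : ∀ i, e i + m i ≤ d) (hm : ∑ i, m i = c)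
    (s : J → Finset (Ideal ↥B))
    (hs : ∀ i, ∀ Q ∈ s i, Q.IsMaximal ∧
      ∀ z : ↥B, (z : Ω) = tb - algebraMap k Ω (τb i) → z ∈ Q) :
    ∑ i, ((s i).card + e i) ≤ Fintype.card J * d := by
  set tb' : ↥κ := ⟨tb, htb⟩ with htb'
  have hrel' : aeval tb' Den * xb = aeval tb' Num := smq_rel_kappa κ xb tb htb Num Den hrel
  have htbReg : tb' ∈ Reg :=
    smq_tb_mem_reg sig hsc Reg hmem hint hinv xb hx tb' Num Den n hNum hDen hlead hrel'
  let f : ↥B →+* ↥κ := B.subtype.codRestrict κ.toSubring (fun z => hBκ z z.2)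
  have hfcoe : ∀ z : ↥B, ((f z : ↥κ) : Ω) = (z : Ω) := fun z => rfl
  have hf : Function.Injective f := by
    intro z w hzw
    apply Subtype.ext
    rw [← hfcoe z, ← hfcoe w, hzw]
  have hreg : ∀ z, f z ∈ Reg := by
    intro z
    have h1 := smq_int_kappa κ tb htb (z : Ω) (hBκ z z.2) (hBint z z.2)
    exact smq_int_mem_reg sig hsc Reg hmem hint tb' htbReg (f z) h1
  have hpoly : ∀ P : k[X], ∃ z : ↥B, f z = aeval tb' P := by
    intro P
    refine ⟨⟨aeval tb P, hBpoly P⟩, ?_⟩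
    apply Subtype.ext
    rw [hfcoe, smq_coe_aeval]
  refine smq_hcount_abs f hf tb' xb hpoly Num Den hrel' τb hτ hNum0 hDen0 c
    (fun s hs => hcard f hf hreg s hs) d e m hen hm s ?_
  intro i Q hQ
  refine ⟨(hs i Q hQ).1, fun z hz => (hs i Q hQ).2 z ?_⟩
  have h1 := congrArg (Subtype.val : ↥κ → Ω) hz
  rw [hfcoe] at h1
  rw [h1]
  rfl

include hrel htb in
/-- **Separability of `κ / k(t̄)` from the cusp-count separability criterion.** -/
theorem smq_sep_of_cusp (hDenne : aeval tb Den ≠ 0)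
    (hsepX : ∀ (Kk : Type u) [Field Kk] [Algebra Kk ↥κ], xb ∈ (algebraMap Kk ↥κ).range →
      (∀ c, algebraMap k ↥κ c ∈ (algebraMap Kk ↥κ).range) → Algebra.IsSeparable Kk ↥κ)
    (y : Ω) (hy : y ∈ κ) : IsSeparable ↥k⟮tb⟯ y := by
  refine smq_sep_abs κ tb htb ?_ y hy
  let _ := smqAdjAlg κ tb htb
  refine hsepX ↥k⟮tb⟯ ?_ ?_
  · have h1 : (xb : Ω) ∈ k⟮tb⟯ := smq_xb_mem_adjoin tb (xb : Ω) Num Den hDenne hrel
    exact ⟨⟨(xb : Ω), h1⟩, Subtype.ext rfl⟩
  · intro c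
    exact ⟨algebraMap k ↥k⟮tb⟯ c, Subtype.ext rfl⟩

end Cusp

end Fermat.Agent.S18
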