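import Mathlib

namespace Fermat.Agent.S18

open Module

section tmd

variable {R S : Type*} [CommRing R] [IsDedekindDomain R] [CommRing S] [Algebra R S]
  [IsDedekindDomain S] [Module.Finite R S] [Module.Free R S]

omit [IsDedekindDomain S] [Module.Finite R S] [Module.Free R S] [IsDedekindDomain R] in
theorem tmd_map_span (p : R) :
    Ideal.map (algebraMap R S) (Ideal.span {p}) = Ideal.span {algebraMap R S p} := by
  rw [Ideal.map_span, Set.image_singleton]

theorem tmd_span_isMaximal {p : R} (hp : Prime p) : (Ideal.span {p} : Ideal R).IsMaximal := by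
  have h1 : (Ideal.span {p} : Ideal R).IsPrime := (Ideal.span_singleton_prime hp.ne_zero).2 hp
  exact h1.isMaximal (by simpa using hp.ne_zero)

attribute [local instance] Ideal.Quotient.field in
/-- The trace of an element which is a nonzero idempotent modulo `p` is not divisible by `p`
(residue characteristic zero). -/
theorem tmd_trace_idem {p : R} (hp : Prime p) (hchar : ∀ n : ℕ, n ≠ 0 → ¬ p ∣ (n : R))
    (x : S) (hx2 : x * x - x ∈ Ideal.span {algebraMap R S p})
    (hx : x ∉ Ideal.span {algebraMap R S p}) :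
    Algebra.trace R S x ∉ Ideal.span {p} := by
  intro htr
  have hmax : (Ideal.span {p} : Ideal R).IsMaximal := tmd_span_isMaximal hp
  have : CharZero (R ⧸ (Ideal.span {p} : Ideal R)) := by
    refine charZero_of_inj_zero fun n hn => ?_
    by_contra hn0
    apply hchar n hn0
    rw [← map_natCast (Ideal.Quotient.mk (Ideal.span {p} : Ideal R)), Ideal.Quotient.eq_zero_iff_mem,
      Ideal.mem_span_singleton] at hn
    exact hn
  have htq := Algebra.trace_quotient_eq_of_isDedekindDomain (R := R) (S := S) (Ideal.span {p}) x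
  rw [Algebra.intTrace_eq_trace, (Ideal.Quotient.eq_zero_iff_mem).2 htr] at htq
  set I : Ideal S := Ideal.map (algebraMap R S) (Ideal.span {p}) with hI
  have hIeq : I = Ideal.span {algebraMap R S p} := tmd_map_span p
  set xb : S ⧸ I := Ideal.Quotient.mk I x with hxb
  have hidem : IsIdempotentElem (Algebra.lmul (R ⧸ (Ideal.span {p} : Ideal R)) (S ⧸ I) xb) := by
    show _ * _ = _
    rw [← map_mul]
    congr 1
    rw [hxb, ← map_mul, Ideal.Quotient.eq, hIeq]
    exact hx2
  rw [Algebra.trace_apply] at htq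
  have h0 := (LinearMap.IsIdempotentElem.trace_eq_zero_iff hidem).1 htq
  have h1 : xb = 0 := by
    have := congrArg (fun f => f 1) h0
    simpa using this
  rw [hxb, Ideal.Quotient.eq_zero_iff_mem, hIeq] at h1
  exact hx h1

/-- For a maximal ideal `P` of `S` above `p` there is an element `x` (an idempotent modulo `p`
supported at `P`) whose trace is prime to `p`, and which multiplies a power of `P` into `pS`. -/
theorem tmd_exists_idem {p : R} (hp : Prime p) (hchar : ∀ n : ℕ, n ≠ 0 → ¬ p ∣ (n : R))
    (P : Ideal S) (hP : P.IsMaximal) (hpP : algebraMap R S p ∈ P) :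
    ∃ x : S, Algebra.trace R S x ∉ Ideal.span {p} ∧
      ∃ e : ℕ, ∀ u ∈ P ^ e, u * x ∈ Ideal.span {algebraMap R S p} := by
  set I : Ideal S := Ideal.span {algebraMap R S p} with hI
  have hinj : Function.Injective (algebraMap R S) := FaithfulSMul.algebraMap_injective R S
  have hp0 : algebraMap R S p ≠ 0 := fun h => hp.ne_zero (hinj (by rw [h, map_zero]))
  have hI0 : I ≠ 0 := by
    rw [hI, Ne, Ideal.zero_eq_bot, Ideal.span_singleton_eq_bot]
    exact hp0
  have hIP : I ≤ P := by
    rw [hI, Ideal.span_singleton_le_iff_mem]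
    exact hpP
  have hPdvd : P ∣ I := Ideal.dvd_iff_le.2 hIP
  have hPunit : ¬ IsUnit P := by
    rw [Ideal.isUnit_iff]
    exact hP.ne_top
  have hfin : FiniteMultiplicity P I := FiniteMultiplicity.of_not_isUnit hPunit hI0
  obtain ⟨Q, hQ, hnd⟩ := hfin.exists_eq_pow_mul_and_not_dvd
  have he1 : multiplicity P I ≠ 0 := (multiplicity_pos_of_dvd hPdvd).ne'
  set e := multiplicity P I with he
  have hPQ : P ⊔ Q = ⊤ := by
    by_contra hne
    have h1 : P = P ⊔ Q := hP.eq_of_le hne le_sup_left
    apply hnd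
    rw [Ideal.dvd_iff_le]
    calc Q ≤ P ⊔ Q := le_sup_right
      _ = P := h1.symm
  have hPQe : P ^ e ⊔ Q = ⊤ := Ideal.pow_sup_eq_top hPQ
  have h1mem : (1 : S) ∈ P ^ e ⊔ Q := by rw [hPQe]; trivial
  obtain ⟨a, ha, x, hx, hax⟩ := Submodule.mem_sup.1 h1mem
  have hmul : ∀ u ∈ P ^ e, u * x ∈ I := by
    intro u hu
    rw [hQ]
    exact Ideal.mul_mem_mul hu hx
  refine ⟨x, ?_, e, hmul⟩
  apply tmd_trace_idem hp hchar
  · have h2 : x * x - x = -(a * x) := by
      have : a = 1 - x := by rw [← hax]; ring
      rw [this]; ring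
    rw [h2]
    exact neg_mem (hmul a ha)
  · intro hxI
    have hxP : x ∈ P := hIP hxI
    have haP : a ∈ P := Ideal.pow_le_self he1 ha
    have : (1 : S) ∈ P := by rw [← hax]; exact add_mem haP hxP
    exact hP.ne_top ((Ideal.eq_top_iff_one P).2 this)

/-- If `ζ` lies outside a maximal ideal `P` above `p`, then `Tr(ζ s)` is prime to `p` for
some `s`. -/
theorem tmd_exists_trace_not_mem {p : R} (hp : Prime p) (hchar : ∀ n : ℕ, n ≠ 0 → ¬ p ∣ (n : R))
    (P : Ideal S) (hP : P.IsMaximal) (hpP : algebraMap R S p ∈ P) (ζ : S) (hζ : ζ ∉ P) :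
    ∃ s : S, Algebra.trace R S (ζ * s) ∉ Ideal.span {p} := by
  obtain ⟨x, hx, e, hmul⟩ := tmd_exists_idem hp hchar P hP hpP
  obtain ⟨t, m, hm, htm⟩ := hP.exists_inv hζ
  set g : S := ∑ i ∈ Finset.range e, m ^ i with hg
  have h1 : ζ * (t * g) - 1 = -(m ^ e) := by
    have h2 : t * ζ = 1 - m := by rw [← htm]; ring
    have h3 := mul_neg_geom_sum m e
    rw [← h2, ← hg] at h3
    rw [← sub_eq_zero]
    have : ζ * (t * g) = t * ζ * g := by ring
    rw [this, h3]; ring
  have h4 : m ^ e * x ∈ Ideal.span {algebraMap R S p} := hmul _ (Ideal.pow_mem_pow hm e)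
  obtain ⟨c, hc⟩ := Ideal.mem_span_singleton'.1 h4
  refine ⟨t * g * x, ?_⟩
  have h5 : ζ * (t * g * x) = x - p • c := by
    have : ζ * (t * g * x) = x + (ζ * (t * g) - 1) * x := by ring
    rw [this, h1, Algebra.smul_def, neg_mul, ← hc]; ring
  rw [h5, map_sub, map_smul]
  intro h6
  apply hx
  have h7 : p • Algebra.trace R S c ∈ Ideal.span {p} := by
    rw [smul_eq_mul]
    exact Ideal.mul_mem_right _ _ (Ideal.mem_span_singleton_self p)
  have := add_mem h6 h7
  simpa using this

/-- Tame lemma 1: the "trace radical" `{w | Tr(w S) ⊆ pR}` is contained in every maximal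
ideal above `p`. -/
theorem tmd_mem_of_trace_mem {p : R} (hp : Prime p) (hchar : ∀ n : ℕ, n ≠ 0 → ¬ p ∣ (n : R))
    (w : S) (hw : ∀ s : S, Algebra.trace R S (w * s) ∈ Ideal.span {p})
    (P : Ideal S) (hP : P.IsMaximal) (hpP : algebraMap R S p ∈ P) : w ∈ P := by
  by_contra hwP
  obtain ⟨s, hs⟩ := tmd_exists_trace_not_mem hp hchar P hP hpP w hwP
  exact hs (hw s)

/-- Tame lemma 2 (saturation): if `Tr(z S) ⊆ p² R` then `z ∈ pS`. -/
theorem tmd_mem_span_of_trace_mem_sq {p : R} (hp : Prime p)
    (hchar : ∀ n : ℕ, n ≠ 0 → ¬ p ∣ (n : R))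
    (z : S) (hz : ∀ s : S, Algebra.trace R S (z * s) ∈ Ideal.span {p ^ 2}) :
    z ∈ Ideal.span {algebraMap R S p} := by
  set I : Ideal S := Ideal.span {algebraMap R S p} with hI
  have hinj : Function.Injective (algebraMap R S) := FaithfulSMul.algebraMap_injective R S
  have hp0 : algebraMap R S p ≠ 0 := fun h => hp.ne_zero (hinj (by rw [h, map_zero]))
  have hI0 : I ≠ ⊥ := by
    rw [hI, Ne, Ideal.span_singleton_eq_bot]
    exact hp0
  set Z : Ideal S := Ideal.span {z} with hZ
  set g : Ideal S := Z ⊔ I with hg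
  have hg0 : g ≠ 0 := by
    intro h
    apply hI0
    have : I ≤ g := le_sup_right
    rw [h] at this
    exact le_bot_iff.1 this
  obtain ⟨I₁, hI₁⟩ : g ∣ I := Ideal.dvd_iff_le.2 le_sup_right
  obtain ⟨Z₁, hZ₁⟩ : g ∣ Z := Ideal.dvd_iff_le.2 le_sup_left
  have hsup : Z₁ ⊔ I₁ = ⊤ := by
    have h1 : g * (Z₁ ⊔ I₁) = g * ⊤ := by
      rw [Ideal.mul_sup, ← hI₁, ← hZ₁, Ideal.mul_top]
    exact mul_left_cancel₀ hg0 h1
  by_cases hI₁top : I₁ = ⊤
  · have : I = g := by rw [hI₁, hI₁top, Ideal.mul_top]
    rw [this]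
    exact le_sup_left (a := Z) (Ideal.mem_span_singleton_self z)
  · exfalso
    obtain ⟨P, hP, hIP⟩ := Ideal.exists_le_maximal I₁ hI₁top
    have hpP : algebraMap R S p ∈ P := by
      apply hIP
      have h1 : algebraMap R S p ∈ I := Ideal.mem_span_singleton_self _
      rw [hI₁] at h1
      have h2 : g * I₁ ≤ I₁ := Ideal.mul_le_right
      exact h2 h1
    have h1mem : (1 : S) ∈ Z₁ ⊔ I₁ := by rw [hsup]; trivial
    obtain ⟨ζ, hζ, ι, hι, hζι⟩ := Submodule.mem_sup.1 h1mem
    have hζP : ζ ∉ P := by
      intro h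
      have : (1 : S) ∈ P := by rw [← hζι]; exact add_mem h (hIP hι)
      exact hP.ne_top ((Ideal.eq_top_iff_one P).2 this)
    have h2 : algebraMap R S p * ζ ∈ Ideal.span {z} * I₁ := by
      have h3 : algebraMap R S p * ζ ∈ I * Z₁ :=
        Ideal.mul_mem_mul (Ideal.mem_span_singleton_self _) hζ
      have h4 : I * Z₁ = Z * I₁ := by
        rw [hI₁, hZ₁]; ring
      rw [h4] at h3
      exact h3
    obtain ⟨s₀, -, hs₀⟩ := Ideal.mem_span_singleton_mul.1 h2
    obtain ⟨s, hs⟩ := tmd_exists_trace_not_mem hp hchar P hP hpP ζ hζP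
    have h5 := hz (s₀ * s)
    have h6 : z * (s₀ * s) = p • (ζ * s) := by
      rw [← mul_assoc, hs₀, Algebra.smul_def]; ring
    rw [h6, map_smul, Ideal.mem_span_singleton] at h5
    obtain ⟨r, hr⟩ := h5
    apply hs
    rw [Ideal.mem_span_singleton]
    refine ⟨r, ?_⟩
    have h7 : p * Algebra.trace R S (ζ * s) = p * (p * r) := by
      rw [← smul_eq_mul, hr]; ring
    exact mul_left_cancel₀ hp.ne_zero h7

omit [IsDedekindDomain R] [IsDedekindDomain S] [Module.Finite R S] [Module.Free R S] in
/-- The "trace radical" of `p`: elements `w` with `Tr(w S) ⊆ pR`. In residue characteristic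
zero this is the radical of `pS`. -/
def tmd_traceRad (p : R) : Ideal S where
  carrier := {w | ∀ s : S, Algebra.trace R S (w * s) ∈ Ideal.span {p}}
  add_mem' := by
    intro a b ha hb s
    rw [add_mul, map_add]
    exact add_mem (ha s) (hb s)
  zero_mem' := by
    intro s
    simp
  smul_mem' := by
    intro c w hw s
    have : c • w * s = w * (c * s) := by rw [smul_eq_mul]; ring
    rw [this]
    exact hw (c * s)

omit [IsDedekindDomain R] [IsDedekindDomain S] [Module.Finite R S] [Module.Free R S] in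
theorem tmd_mem_traceRad {p : R} {w : S} :
    w ∈ tmd_traceRad (S := S) p ↔ ∀ s : S, Algebra.trace R S (w * s) ∈ Ideal.span {p} :=
  Iff.rfl

omit [IsDedekindDomain R] [IsDedekindDomain S] [Module.Finite R S] [Module.Free R S] in
theorem tmd_span_le_traceRad (p : R) :
    Ideal.span {algebraMap R S p} ≤ tmd_traceRad (S := S) p := by
  rw [Ideal.span_singleton_le_iff_mem, tmd_mem_traceRad]
  intro s
  rw [← Algebra.smul_def, map_smul, smul_eq_mul]
  exact Ideal.mul_mem_right _ _ (Ideal.mem_span_singleton_self p)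

omit [IsDedekindDomain R] in
/-- A square matrix whose reduction modulo the prime `p` has trivial kernel has determinant
prime to `p`. -/
theorem tmd_not_dvd_det [IsDomain R] {ι : Type*} [Fintype ι] [DecidableEq ι] {p : R} (hp : Prime p)
    (M : Matrix ι ι R)
    (h : ∀ a : ι → R, (∀ i, p ∣ (M.mulVec a) i) → ∀ j, p ∣ a j) : ¬ p ∣ M.det := by
  intro hdet
  have hprime : (Ideal.span {p} : Ideal R).IsPrime := (Ideal.span_singleton_prime hp.ne_zero).2 hp
  set f : R →+* R ⧸ (Ideal.span {p} : Ideal R) := Ideal.Quotient.mk _ with hf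
  have hf0 : ∀ c : R, f c = 0 ↔ p ∣ c := by
    intro c
    rw [hf, Ideal.Quotient.eq_zero_iff_mem, Ideal.mem_span_singleton]
  have hdet' : (f.mapMatrix M).det = 0 := by
    rw [← RingHom.map_det, hf0]
    exact hdet
  obtain ⟨v, hv0, hv⟩ := Matrix.exists_mulVec_eq_zero_iff.2 hdet'
  have hsurj : ∀ j, ∃ c : R, f c = v j := fun j => Ideal.Quotient.mk_surjective (v j)
  choose a ha using hsurj
  apply hv0
  have hdiv : ∀ i, p ∣ (M.mulVec a) i := by
    intro i
    rw [← hf0, RingHom.map_mulVec]
    have : (f ∘ a) = v := funext ha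
    rw [this]
    have := congrFun hv i
    simpa using this
  funext j
  rw [← ha j, Pi.zero_apply, hf0]
  exact h a hdiv j

/-- Block determinant argument: for a family `(u, n)` adapted to the trace radical, the
discriminant is not divisible by `p ^ (δ + 1)`, `δ` the number of `n`'s. -/
theorem tmd_block {r δ : ℕ} (b : Basis (Fin r ⊕ Fin δ) R S) {p : R} (hp : Prime p)
    (hchar : ∀ n : ℕ, n ≠ 0 → ¬ p ∣ (n : R))
    (u : Fin r → S) (n : Fin δ → S)
    (hn : ∀ k, n k ∈ tmd_traceRad (S := S) p)
    (hnind : ∀ a : Fin δ → R, (∑ k, a k • n k) ∈ Ideal.span {algebraMap R S p} → ∀ k, p ∣ a k)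
    (huind : ∀ a : Fin r → R, (∑ k, a k • u k) ∈ tmd_traceRad (S := S) p → ∀ k, p ∣ a k) :
    ¬ p ^ (δ + 1) ∣ Algebra.discr R b := by
  classical
  have hq : ∀ (i : Fin r ⊕ Fin δ) (k : Fin δ), ∃ c : R, Algebra.trace R S (b i * n k) = p * c := by
    intro i k
    have := hn k (b i)
    rw [Ideal.mem_span_singleton] at this
    obtain ⟨c, hc⟩ := this
    exact ⟨c, by rw [mul_comm, hc]⟩
  choose q hq using hq
  set T : Matrix (Fin r ⊕ Fin δ) (Fin r ⊕ Fin δ) R := Algebra.traceMatrix R b with hT
  set V : Matrix (Fin r ⊕ Fin δ) (Fin r ⊕ Fin δ) R := fun i j => b.repr (Sum.elim u n j) i with hV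
  set T' : Matrix (Fin r ⊕ Fin δ) (Fin r ⊕ Fin δ) R :=
    fun i j => Sum.elim (fun k => Algebra.trace R S (b i * u k)) (fun k => q i k) j with hT'
  set D : Matrix (Fin r ⊕ Fin δ) (Fin r ⊕ Fin δ) R :=
    Matrix.diagonal (Sum.elim (fun _ => (1 : R)) (fun _ => p)) with hD
  have hTV : T * V = T' * D := by
    ext i j
    rw [Matrix.mul_apply, hD, Matrix.mul_diagonal]
    have h1 : ∑ k, T i k * V k j = Algebra.trace R S (b i * Sum.elim u n j) := by
      conv_rhs => rw [← b.sum_repr (Sum.elim u n j), Finset.mul_sum, map_sum]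
      refine Finset.sum_congr rfl fun k _ => ?_
      rw [hT, Algebra.traceMatrix_apply, Algebra.traceForm_apply, mul_smul_comm, map_smul,
        smul_eq_mul, mul_comm]
    rw [h1]
    rcases j with k | k
    · simp [hT']
    · simp only [hT', Sum.elim_inr]
      rw [hq i k, mul_comm]
  have hdetD : D.det = p ^ δ := by
    rw [hD, Matrix.det_diagonal, Fintype.prod_sum_type]
    simp
  have hdet : T.det * V.det = T'.det * p ^ δ := by
    rw [← Matrix.det_mul, hTV, Matrix.det_mul, hdetD]
  have hT'det : ¬ p ∣ T'.det := by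
    apply tmd_not_dvd_det hp
    intro a ha
    set x : S := ∑ k, a (Sum.inl k) • u k with hx
    set y : S := ∑ k, a (Sum.inr k) • n k with hy
    have h1 : ∀ i, Algebra.trace R S ((p • x + y) * b i) = p * (T'.mulVec a) i := by
      intro i
      rw [Matrix.mulVec, dotProduct, Fintype.sum_sum_type]
      simp only [hT', Sum.elim_inl, Sum.elim_inr]
      rw [add_mul, map_add, smul_mul_assoc, map_smul, hx, hy, Finset.sum_mul, Finset.sum_mul,
        map_sum, map_sum, mul_add, smul_eq_mul]
      congr 1
      · congr 1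
        refine Finset.sum_congr rfl fun k _ => ?_
        rw [smul_mul_assoc, map_smul, smul_eq_mul, mul_comm (u k), mul_comm]
      · rw [Finset.mul_sum]
        refine Finset.sum_congr rfl fun k _ => ?_
        rw [smul_mul_assoc, map_smul, smul_eq_mul, mul_comm (n k), hq i k]
        ring
    have h2 : ∀ s : S, Algebra.trace R S ((p • x + y) * s) ∈ Ideal.span {p ^ 2} := by
      intro s
      rw [← b.sum_repr s, Finset.mul_sum, map_sum]
      refine Ideal.sum_mem _ fun i _ => ?_
      rw [mul_smul_comm, map_smul, smul_eq_mul, h1 i]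
      obtain ⟨c, hc⟩ := ha i
      rw [hc, Ideal.mem_span_singleton]
      exact ⟨b.repr s i * c, by ring⟩
    have h3 := tmd_mem_span_of_trace_mem_sq hp hchar _ h2
    obtain ⟨w, hw⟩ := Ideal.mem_span_singleton'.1 h3
    have hwJ : w ∈ tmd_traceRad (S := S) p := by
      intro s
      have h4 := h2 s
      rw [← hw, mul_comm w, ← Algebra.smul_def, smul_mul_assoc, map_smul, smul_eq_mul,
        Ideal.mem_span_singleton] at h4
      obtain ⟨c, hc⟩ := h4
      rw [Ideal.mem_span_singleton]
      refine ⟨c, mul_left_cancel₀ hp.ne_zero ?_⟩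
      rw [hc]; ring
    have hy1 : y ∈ Ideal.span {algebraMap R S p} := by
      rw [Ideal.mem_span_singleton']
      refine ⟨w - x, ?_⟩
      rw [sub_mul, hw, mul_comm x, ← Algebra.smul_def]; ring
    have hinr : ∀ k, p ∣ a (Sum.inr k) := hnind (fun k => a (Sum.inr k)) hy1
    choose a' ha' using hinr
    set y' : S := ∑ k, a' k • n k with hy'
    have hy'J : y' ∈ tmd_traceRad (S := S) p := by
      refine Ideal.sum_mem _ fun k _ => ?_
      rw [Algebra.smul_def]
      exact Ideal.mul_mem_left _ _ (hn k)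
    have hyy' : y = p • y' := by
      rw [hy, hy', Finset.smul_sum]
      refine Finset.sum_congr rfl fun k _ => ?_
      rw [ha' k, mul_smul]
    have hxJ : x ∈ tmd_traceRad (S := S) p := by
      have h5 : p • x = p • (w - y') := by
        rw [smul_sub, ← hyy', Algebra.smul_def p w, mul_comm, hw]; ring
      have hinj : Function.Injective (algebraMap R S) := FaithfulSMul.algebraMap_injective R S
      have hp0 : algebraMap R S p ≠ 0 := fun h => hp.ne_zero (hinj (by rw [h, map_zero]))
      have h6 : x = w - y' := by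
        rw [Algebra.smul_def, Algebra.smul_def] at h5
        exact mul_left_cancel₀ hp0 h5
      rw [h6]
      exact sub_mem hwJ hy'J
    have hinl : ∀ k, p ∣ a (Sum.inl k) := huind (fun k => a (Sum.inl k)) hxJ
    intro j
    rcases j with k | k
    · exact hinl k
    · exact ⟨a' k, ha' k⟩
  intro hdvd
  apply hT'det
  have h1 : p ^ (δ + 1) ∣ T'.det * p ^ δ := by
    rw [← hdet]
    exact Dvd.dvd.mul_right (by rw [hT, ← Algebra.discr_def]; exact hdvd) _
  rw [pow_succ', mul_comm p] at h1
  exact (mul_dvd_mul_iff_left (pow_ne_zero δ hp.ne_zero)).1 (by rwa [mul_comm T'.det] at h1)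

attribute [local instance] Ideal.Quotient.field in
/-- Core statement: there are `r` elements `u` spanning `S` modulo the trace radical of `p`
(over `R`), with `¬ p ^ (d - r + 1) ∣ disc`. -/
theorem tmd_core {ι : Type*} [Fintype ι] [DecidableEq ι] (b : Basis ι R S) {p : R}
    (hp : Prime p) (hchar : ∀ n : ℕ, n ≠ 0 → ¬ p ∣ (n : R)) :
    ∃ (r δ : ℕ) (u : Fin r → S), r + δ = Fintype.card ι ∧ ¬ p ^ (δ + 1) ∣ Algebra.discr R b ∧
      ∀ s : S, ∃ a : Fin r → R, s - ∑ k, a k • u k ∈ tmd_traceRad (S := S) p := by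
  classical
  have hmax : (Ideal.span {p} : Ideal R).IsMaximal := tmd_span_isMaximal hp
  set f : R →+* R ⧸ (Ideal.span {p} : Ideal R) := Ideal.Quotient.mk _ with hf
  have hf0 : ∀ c : R, f c = 0 ↔ p ∣ c := by
    intro c
    rw [hf, Ideal.Quotient.eq_zero_iff_mem, Ideal.mem_span_singleton]
  have hfsurj : Function.Surjective f := Ideal.Quotient.mk_surjective
  -- the reduction map in coordinates
  let ρ : S →ₗ[R] (ι → R ⧸ (Ideal.span {p} : Ideal R)) :=
    { toFun := fun s i => f (b.repr s i)
      map_add' := by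
        intro s t
        funext i
        simp
      map_smul' := by
        intro c s
        funext i
        simp only [map_smul, Finsupp.smul_apply, smul_eq_mul, map_mul, RingHom.id_apply,
          Pi.smul_apply]
        rw [Algebra.smul_def]
        rfl }
  have hρ : ∀ s i, ρ s i = f (b.repr s i) := fun s i => rfl
  have hρsmul : ∀ (c : R) (s : S), ρ (c • s) = f c • ρ s := by
    intro c s
    funext i
    rw [hρ, Pi.smul_apply, hρ, map_smul, Finsupp.smul_apply, smul_eq_mul, map_mul, smul_eq_mul]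
  have hρker : ∀ s, ρ s = 0 ↔ s ∈ Ideal.span {algebraMap R S p} := by
    intro s
    constructor
    · intro h
      have h1 : ∀ i, p ∣ b.repr s i := by
        intro i
        rw [← hf0, ← hρ, h]
        rfl
      choose c hc using h1
      rw [Ideal.mem_span_singleton']
      refine ⟨∑ i, c i • b i, ?_⟩
      rw [mul_comm, ← Algebra.smul_def, Finset.smul_sum]
      conv_rhs => rw [← b.sum_repr s]
      refine Finset.sum_congr rfl fun i _ => ?_
      rw [hc i, mul_smul]
    · intro h
      obtain ⟨t, ht⟩ := Ideal.mem_span_singleton'.1 h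
      funext i
      rw [hρ, ← ht, mul_comm, ← Algebra.smul_def, map_smul, Finsupp.smul_apply, smul_eq_mul,
        Pi.zero_apply, hf0]
      exact dvd_mul_right p _
  have hρsurj : Function.Surjective ρ := by
    intro v
    choose c hc using fun i => hfsurj (v i)
    refine ⟨b.equivFun.symm c, ?_⟩
    funext i
    rw [hρ, ← b.equivFun_apply, LinearEquiv.apply_symm_apply, hc]
  -- the image of the trace radical
  let Kb : Submodule (R ⧸ (Ideal.span {p} : Ideal R)) (ι → R ⧸ (Ideal.span {p} : Ideal R)) :=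
    { carrier := {v | ∃ w ∈ tmd_traceRad (S := S) p, ρ w = v}
      add_mem' := by
        rintro _ _ ⟨w, hw, rfl⟩ ⟨w', hw', rfl⟩
        exact ⟨w + w', add_mem hw hw', map_add ρ w w'⟩
      zero_mem' := ⟨0, zero_mem _, map_zero ρ⟩
      smul_mem' := by
        rintro c _ ⟨w, hw, rfl⟩
        obtain ⟨a, rfl⟩ := hfsurj c
        refine ⟨a • w, ?_, hρsmul a w⟩
        rw [Algebra.smul_def]
        exact Ideal.mul_mem_left _ _ hw }
  have hKb : ∀ v, v ∈ Kb ↔ ∃ w ∈ tmd_traceRad (S := S) p, ρ w = v := fun v => Iff.rfl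
  have hρKb : ∀ s, ρ s ∈ Kb ↔ s ∈ tmd_traceRad (S := S) p := by
    intro s
    constructor
    · rintro ⟨w, hw, hws⟩
      have h1 : ρ (s - w) = 0 := by rw [map_sub, hws, sub_self]
      have h2 := tmd_span_le_traceRad (S := S) p ((hρker _).1 h1)
      have := add_mem h2 hw
      simpa using this
    · intro h
      exact ⟨s, h, rfl⟩
  set δ := Module.finrank (R ⧸ (Ideal.span {p} : Ideal R)) Kb with hδ
  set r := Module.finrank (R ⧸ (Ideal.span {p} : Ideal R))
    ((ι → R ⧸ (Ideal.span {p} : Ideal R)) ⧸ Kb) with hr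
  have hcard : r + δ = Fintype.card ι := by
    rw [hr, hδ, Submodule.finrank_quotient_add_finrank, Module.finrank_fintype_fun_eq_card]
  let nb := Module.finBasis (R ⧸ (Ideal.span {p} : Ideal R)) Kb
  let ub := Module.finBasis (R ⧸ (Ideal.span {p} : Ideal R))
    ((ι → R ⧸ (Ideal.span {p} : Ideal R)) ⧸ Kb)
  have hn : ∀ k : Fin δ, ∃ w ∈ tmd_traceRad (S := S) p, ρ w = (nb k : ι → _) := fun k => (nb k).2
  choose n hnJ hnρ using hn
  have hu : ∀ k : Fin r, ∃ s : S, Kb.mkQ (ρ s) = ub k := by
    intro k
    obtain ⟨v, hv⟩ := Kb.mkQ_surjective (ub k)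
    obtain ⟨s, hs⟩ := hρsurj v
    exact ⟨s, by rw [hs, hv]⟩
  choose u hu using hu
  have hρsum : ∀ {m : ℕ} (a : Fin m → R) (t : Fin m → S),
      ρ (∑ k, a k • t k) = ∑ k, f (a k) • ρ (t k) := by
    intro m a t
    rw [map_sum]
    exact Finset.sum_congr rfl fun k _ => hρsmul _ _
  have hnind : ∀ a : Fin δ → R, (∑ k, a k • n k) ∈ Ideal.span {algebraMap R S p} →
      ∀ k, p ∣ a k := by
    intro a ha
    have h1 := (hρker _).2 ha
    rw [hρsum] at h1
    have h2 : ∑ k, f (a k) • nb k = 0 := by
      apply Subtype.ext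
      rw [Submodule.coe_sum, Submodule.coe_zero, ← h1]
      refine Finset.sum_congr rfl fun k _ => ?_
      rw [Submodule.coe_smul, hnρ]
    intro k
    rw [← hf0]
    exact Fintype.linearIndependent_iff.1 nb.linearIndependent _ h2 k
  have huind : ∀ a : Fin r → R, (∑ k, a k • u k) ∈ tmd_traceRad (S := S) p → ∀ k, p ∣ a k := by
    intro a ha
    have h1 := (hρKb _).2 ha
    rw [hρsum] at h1
    have h2 : ∑ k, f (a k) • ub k = 0 := by
      have h3 := (Submodule.Quotient.mk_eq_zero Kb).2 h1
      rw [← Submodule.mkQ_apply, map_sum] at h3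
      rw [← h3]
      refine Finset.sum_congr rfl fun k _ => ?_
      rw [map_smul, hu]
    intro k
    rw [← hf0]
    exact Fintype.linearIndependent_iff.1 ub.linearIndependent _ h2 k
  have hcard' : Fintype.card ι = Fintype.card (Fin r ⊕ Fin δ) := by
    rw [Fintype.card_sum, Fintype.card_fin, Fintype.card_fin, hcard]
  let e : ι ≃ Fin r ⊕ Fin δ := Fintype.equivOfCardEq hcard'
  refine ⟨r, δ, u, hcard, ?_, ?_⟩
  · have h1 := tmd_block (b.reindex e) hp hchar u n hnJ hnind huind
    have h2 : Algebra.discr R (b.reindex e) = Algebra.discr R b := by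
      rw [Basis.coe_reindex]
      exact Algebra.discr_reindex R b e
    rwa [h2] at h1
  · intro s
    have hα : ∀ k : Fin r, ∃ c : R, f c = ub.repr (Kb.mkQ (ρ s)) k := fun k => hfsurj _
    choose a ha using hα
    refine ⟨a, ?_⟩
    rw [← hρKb, ← Submodule.Quotient.mk_eq_zero Kb, ← Submodule.mkQ_apply, map_sub, map_sub,
      hρsum, map_sum, sub_eq_zero]
    conv_lhs => rw [← ub.sum_repr (Kb.mkQ (ρ s))]
    refine Finset.sum_congr rfl fun k _ => ?_
    rw [map_smul, hu, ha]

/-- **Tame upper bound for the discriminant, point form.** `R` a Dedekind domain, `p` a prime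
element with residue characteristic zero, `S` a Dedekind domain which is free of finite rank over
`R` with basis `b`. For any finite set `φ` of distinct `R`-algebra maps `S → Ω` into a field in
which `p = 0` ("points of the fibre over `p`"), `v_p(disc b) ≤ rank - #φ`. -/
theorem tmd_not_dvd_discr_of_algHom {R S Ω ι : Type*} [CommRing R] [IsDedekindDomain R]
    [CommRing S] [Algebra R S] [IsDedekindDomain S]
    [Fintype ι] [DecidableEq ι] (b : Basis ι R S)
    (p : R) (hp : Prime p) (hchar : ∀ n : ℕ, n ≠ 0 → ¬ p ∣ (n : R))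
    [Field Ω] [Algebra R Ω] (hpΩ : algebraMap R Ω p = 0)
    (φ : Finset (S →ₐ[R] Ω)) :
    ¬ p ^ (Fintype.card ι - φ.card + 1) ∣ Algebra.discr R b := by
  classical
  have : Module.Finite R S := Module.Finite.of_basis b
  have : Module.Free R S := Module.Free.of_basis b
  obtain ⟨r, δ, u, hcard, hnd, hspan⟩ := tmd_core b hp hchar
  have hinj : Function.Injective (algebraMap R S) := FaithfulSMul.algebraMap_injective R S
  have hp0 : algebraMap R S p ≠ 0 := fun h => hp.ne_zero (hinj (by rw [h, map_zero]))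
  -- every point kills the trace radical
  have hkill : ∀ ψ : S →ₐ[R] Ω, ∀ w ∈ tmd_traceRad (S := S) p, ψ w = 0 := by
    intro ψ w hw
    have hker : (RingHom.ker (ψ : S →+* Ω)).IsPrime := RingHom.ker_isPrime _
    have hpker : algebraMap R S p ∈ RingHom.ker (ψ : S →+* Ω) := by
      rw [RingHom.mem_ker]
      show ψ (algebraMap R S p) = 0
      rw [AlgHom.commutes, hpΩ]
    have hne : RingHom.ker (ψ : S →+* Ω) ≠ ⊥ := by
      intro h
      rw [h, Ideal.mem_bot] at hpker
      exact hp0 hpker
    have hmaxker := hker.isMaximal hne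
    have := tmd_mem_of_trace_mem hp hchar w hw _ hmaxker hpker
    exact (RingHom.mem_ker).1 this
  -- hence its values are determined by the values on `u`
  have hval : ∀ s : S, ∃ a : Fin r → R, ∀ ψ : S →ₐ[R] Ω,
      ψ s = ∑ k, algebraMap R Ω (a k) * ψ (u k) := by
    intro s
    obtain ⟨a, ha⟩ := hspan s
    refine ⟨a, fun ψ => ?_⟩
    have h1 := hkill ψ _ ha
    rw [map_sub, sub_eq_zero] at h1
    rw [h1, map_sum]
    refine Finset.sum_congr rfl fun k _ => ?_
    rw [map_smul, Algebra.smul_def]
  -- independence of characters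
  have hli : LinearIndependent Ω (fun ψ : φ => fun k : Fin r => (ψ : S →ₐ[R] Ω) (u k)) := by
    rw [Fintype.linearIndependent_iff]
    intro g hg ψ₀
    have hchar' := linearIndependent_monoidHom S Ω
    have h1 : ∀ s : S, ∑ ψ : φ, g ψ * (ψ : S →ₐ[R] Ω) s = 0 := by
      intro s
      obtain ⟨a, ha⟩ := hval s
      have h2 : ∀ k : Fin r, ∑ ψ : φ, g ψ * (ψ : S →ₐ[R] Ω) (u k) = 0 := by
        intro k
        have := congrFun hg k
        simpa [Finset.sum_apply] using this
      calc ∑ ψ : φ, g ψ * (ψ : S →ₐ[R] Ω) s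
          = ∑ ψ : φ, ∑ k, algebraMap R Ω (a k) * (g ψ * (ψ : S →ₐ[R] Ω) (u k)) := by
            refine Finset.sum_congr rfl fun ψ _ => ?_
            rw [ha, Finset.mul_sum]
            refine Finset.sum_congr rfl fun k _ => ?_
            ring
        _ = ∑ k, algebraMap R Ω (a k) * ∑ ψ : φ, g ψ * (ψ : S →ₐ[R] Ω) (u k) := by
            rw [Finset.sum_comm]
            refine Finset.sum_congr rfl fun k _ => ?_
            rw [Finset.mul_sum]
        _ = 0 := by
            refine Finset.sum_eq_zero fun k _ => ?_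
            rw [h2 k, mul_zero]
    have hinjφ : Function.Injective (fun ψ : φ => (((ψ : S →ₐ[R] Ω) : S →+* Ω) : S →* Ω)) := by
      intro ψ₁ ψ₂ h
      apply Subtype.ext
      apply AlgHom.ext
      intro s
      exact congrArg (fun m : S →* Ω => m s) h
    have hli' := hchar'.comp _ hinjφ
    rw [Fintype.linearIndependent_iff] at hli'
    refine hli' g ?_ ψ₀
    funext s
    have := h1 s
    simpa [Finset.sum_apply] using this
  have hle : φ.card ≤ r := by
    have := hli.fintype_card_le_finrank
    simpa using this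
  intro hdvd
  apply hnd
  refine dvd_trans (pow_dvd_pow p ?_) hdvd
  omega

attribute [local instance] Ideal.Quotient.field in
/-- Core statement, prime-ideal form: there are `r`, `δ` with `r + δ = rank`,
`¬ p ^ (δ + 1) ∣ disc`, and at most `r` maximal ideals of `S` above `p`. -/
theorem tmd_core_primes {R S ι : Type*} [CommRing R] [IsDedekindDomain R]
    [CommRing S] [Algebra R S] [IsDedekindDomain S]
    [Fintype ι] [DecidableEq ι] (b : Basis ι R S)
    (p : R) (hp : Prime p) (hchar : ∀ n : ℕ, n ≠ 0 → ¬ p ∣ (n : R)) :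
    ∃ r δ : ℕ, r + δ = Fintype.card ι ∧ ¬ p ^ (δ + 1) ∣ Algebra.discr R b ∧
      ∀ s : Finset (Ideal S), (∀ Q ∈ s, Q.IsMaximal ∧ algebraMap R S p ∈ Q) → s.card ≤ r := by
  classical
  have : Module.Finite R S := Module.Finite.of_basis b
  have : Module.Free R S := Module.Free.of_basis b
  obtain ⟨r, δ, u, hcard, hnd, hspan⟩ := tmd_core b hp hchar
  refine ⟨r, δ, hcard, hnd, fun s hs => ?_⟩
  have hmax : (Ideal.span {p} : Ideal R).IsMaximal := tmd_span_isMaximal hp
  set f : R →+* R ⧸ (Ideal.span {p} : Ideal R) := Ideal.Quotient.mk _ with hf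
  have hf0 : ∀ c : R, f c = 0 ↔ p ∣ c := by
    intro c
    rw [hf, Ideal.Quotient.eq_zero_iff_mem, Ideal.mem_span_singleton]
  have hfsurj : Function.Surjective f := Ideal.Quotient.mk_surjective
  -- separating elements
  have hsep : ∀ P : s, ∃ t : S, t ∉ (P : Ideal S) ∧ ∀ P' : s, P' ≠ P → t ∈ (P' : Ideal S) := by
    intro P
    have hPmax : (P : Ideal S).IsMaximal := (hs P P.2).1
    have h1 : ∀ P' : Ideal S, P' ∈ s.erase (P : Ideal S) → ∃ x ∈ P', x ∉ (P : Ideal S) := by
      intro P' hP'
      have hP's : P' ∈ s := Finset.mem_of_mem_erase hP'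
      have hne : P' ≠ (P : Ideal S) := Finset.ne_of_mem_erase hP'
      have hP'max : P'.IsMaximal := (hs P' hP's).1
      by_contra hcon
      push Not at hcon
      exact hne (hP'max.eq_of_le hPmax.ne_top hcon)
    choose! x hx hx' using h1
    refine ⟨∏ P' ∈ s.erase (P : Ideal S), x P', ?_, ?_⟩
    · have := hPmax.isPrime
      rw [Ideal.IsPrime.prod_mem_iff]
      rintro ⟨P', hP', hmem⟩
      exact hx' P' hP' hmem
    · intro P' hne
      have hP' : (P' : Ideal S) ∈ s.erase (P : Ideal S) :=
        Finset.mem_erase.2 ⟨fun h => hne (Subtype.ext h), P'.2⟩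
      exact Ideal.mem_of_dvd _ (Finset.dvd_prod_of_mem x hP') (hx _ hP')
  choose t ht ht' using hsep
  have hA : ∀ P : s, ∃ a : Fin r → R, t P - ∑ k, a k • u k ∈ tmd_traceRad (S := S) p :=
    fun P => hspan (t P)
  choose A hA using hA
  have hli : LinearIndependent (R ⧸ (Ideal.span {p} : Ideal R))
      (fun P : s => fun k : Fin r => f (A P k)) := by
    rw [Fintype.linearIndependent_iff]
    intro g hg P₀
    choose c hc using fun P : s => hfsurj (g P)
    have h1 : ∀ k : Fin r, p ∣ ∑ P : s, c P * A P k := by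
      intro k
      rw [← hf0, map_sum]
      have h0 := congrFun hg k
      rw [Finset.sum_apply, Pi.zero_apply] at h0
      rw [← h0]
      refine Finset.sum_congr rfl fun P _ => ?_
      rw [map_mul, hc, Pi.smul_apply, smul_eq_mul]
    -- σ := Σ c_P t_P lies in the trace radical
    have h2 : ∑ P : s, c P • t P ∈ tmd_traceRad (S := S) p := by
      have h3 : ∑ P : s, c P • t P
          = ∑ P : s, c P • (t P - ∑ k, A P k • u k) + ∑ k, (∑ P : s, c P * A P k) • u k := by
        have h4 : ∑ k, (∑ P : s, c P * A P k) • u k = ∑ P : s, c P • ∑ k, A P k • u k := by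
          simp only [Finset.sum_smul, Finset.smul_sum, mul_smul]
          rw [Finset.sum_comm]
        rw [h4, ← Finset.sum_add_distrib]
        refine Finset.sum_congr rfl fun P _ => ?_
        rw [← smul_add, sub_add_cancel]
      rw [h3]
      refine add_mem (Ideal.sum_mem _ fun P _ => ?_) (Ideal.sum_mem _ fun k _ => ?_)
      · rw [Algebra.smul_def]
        exact Ideal.mul_mem_left _ _ (hA P)
      · apply tmd_span_le_traceRad (S := S) p
        obtain ⟨d, hd⟩ := h1 k
        rw [hd, mul_smul, Algebra.smul_def, Ideal.mem_span_singleton]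
        exact dvd_mul_right _ _
    have hP₀max : (P₀ : Ideal S).IsMaximal := (hs P₀ P₀.2).1
    have hP₀p : algebraMap R S p ∈ (P₀ : Ideal S) := (hs P₀ P₀.2).2
    have h5 : ∑ P : s, c P • t P ∈ (P₀ : Ideal S) :=
      tmd_mem_of_trace_mem hp hchar _ h2 _ hP₀max hP₀p
    have h6 : c P₀ • t P₀ ∈ (P₀ : Ideal S) := by
      rw [← Finset.add_sum_erase Finset.univ _ (Finset.mem_univ P₀)] at h5
      have h7 : ∑ P ∈ Finset.univ.erase P₀, c P • t P ∈ (P₀ : Ideal S) := by
        refine Ideal.sum_mem _ fun P hP => ?_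
        rw [Algebra.smul_def]
        exact Ideal.mul_mem_left _ _ (ht' P P₀ (Finset.ne_of_mem_erase hP).symm)
      have := sub_mem h5 h7
      simpa using this
    rw [Algebra.smul_def] at h6
    have h8 : algebraMap R S (c P₀) ∈ (P₀ : Ideal S) :=
      (hP₀max.isPrime.mem_or_mem h6).resolve_right (ht P₀)
    have h9 : (Ideal.span {p} : Ideal R) = Ideal.comap (algebraMap R S) (P₀ : Ideal S) := by
      apply hmax.eq_of_le (Ideal.comap_ne_top _ hP₀max.ne_top)
      rw [Ideal.span_singleton_le_iff_mem, Ideal.mem_comap]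
      exact hP₀p
    have h10 : c P₀ ∈ (Ideal.span {p} : Ideal R) := by
      rw [h9, Ideal.mem_comap]
      exact h8
    rw [← hc P₀, hf0, ← Ideal.mem_span_singleton]
    exact h10
  have := hli.fintype_card_le_finrank
  simpa using this

/-- **Tame upper bound for the discriminant, prime-ideal form.** `R` a Dedekind domain, `p` a
prime element with residue characteristic zero, `S` a Dedekind domain which is free of finite
rank over `R` with basis `b`. For any finite set `s` of maximal ideals of `S` above `p`,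
`v_p(disc b) ≤ rank - #s`. -/
theorem tmd_not_dvd_discr_of_primes {R S ι : Type*} [CommRing R] [IsDedekindDomain R]
    [CommRing S] [Algebra R S] [IsDedekindDomain S]
    [Fintype ι] [DecidableEq ι] (b : Basis ι R S)
    (p : R) (hp : Prime p) (hchar : ∀ n : ℕ, n ≠ 0 → ¬ p ∣ (n : R))
    (s : Finset (Ideal S)) (hs : ∀ Q ∈ s, Q.IsMaximal ∧ algebraMap R S p ∈ Q) :
    ¬ p ^ (Fintype.card ι - s.card + 1) ∣ Algebra.discr R b := by
  obtain ⟨r, δ, hcard, hnd, hle⟩ := tmd_core_primes b p hp hchar
  have h1 := hle s hs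
  intro hdvd
  apply hnd
  refine dvd_trans (pow_dvd_pow p ?_) hdvd
  omega

/-- In residue characteristic zero there are at most `rank` maximal ideals above `p`. -/
theorem tmd_card_primes_le {R S ι : Type*} [CommRing R] [IsDedekindDomain R]
    [CommRing S] [Algebra R S] [IsDedekindDomain S]
    [Fintype ι] [DecidableEq ι] (b : Basis ι R S)
    (p : R) (hp : Prime p) (hchar : ∀ n : ℕ, n ≠ 0 → ¬ p ∣ (n : R))
    (s : Finset (Ideal S)) (hs : ∀ Q ∈ s, Q.IsMaximal ∧ algebraMap R S p ∈ Q) :
    s.card ≤ Fintype.card ι := by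
  obtain ⟨r, δ, hcard, hnd, hle⟩ := tmd_core_primes b p hp hchar
  have h1 := hle s hs
  omega

/-! ### Places as valuation subrings -/

/-- Valuation subrings are integrally closed in the ambient field. -/
theorem tmd_mem_of_isIntegral {L : Type*} [Field L] (V : ValuationSubring L) {R : Type*}
    [CommRing R] [Algebra R L] (hR : ∀ r : R, algebraMap R L r ∈ V) (x : L)
    (hx : IsIntegral R x) : x ∈ V := by
  have h1 : IsIntegral V x := by
    obtain ⟨P, hP, hPx⟩ := hx
    let f : R →+* V := (algebraMap R L).codRestrict V.toSubring hR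
    refine ⟨P.map f, hP.map f, ?_⟩
    rw [Polynomial.eval₂_map]
    have : (algebraMap V L).comp f = algebraMap R L := by
      ext r
      rfl
    rw [this]
    exact hPx
  obtain ⟨y, hy⟩ := (IsIntegrallyClosed.isIntegral_iff (R := V) (K := L)).mp h1
  rw [← hy]
  exact y.2

/-- The centre on `S` of a valuation subring of `L = Frac S` containing `S`. -/
def tmd_center {S L : Type*} [CommRing S] [Field L] [Algebra S L] (V : ValuationSubring L)
    (hV : ∀ x : S, algebraMap S L x ∈ V) : Ideal S :=
  Ideal.comap ((algebraMap S L).codRestrict V.toSubring hV) (IsLocalRing.maximalIdeal V)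

theorem tmd_mem_center {S L : Type*} [CommRing S] [Field L] [Algebra S L]
    (V : ValuationSubring L) (hV : ∀ x : S, algebraMap S L x ∈ V) (x : S) :
    x ∈ tmd_center V hV ↔ algebraMap S L x ∈ V.nonunits := by
  rw [tmd_center, Ideal.mem_comap, ValuationSubring.mem_nonunits_iff_exists_mem_maximalIdeal]
  constructor
  · intro h
    exact ⟨hV x, h⟩
  · rintro ⟨_, h⟩
    exact h

theorem tmd_center_isPrime {S L : Type*} [CommRing S] [Field L] [Algebra S L]
    (V : ValuationSubring L) (hV : ∀ x : S, algebraMap S L x ∈ V) :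
    (tmd_center V hV).IsPrime := by
  rw [tmd_center]
  exact Ideal.comap_isPrime _ _

/-- A valuation subring containing the Dedekind domain `S` is determined by its centre, provided
the centre is nonzero. -/
theorem tmd_le_of_center_eq {S L : Type*} [CommRing S] [IsDedekindDomain S] [Field L]
    [Algebra S L] [IsFractionRing S L] (V V' : ValuationSubring L)
    (hV : ∀ x : S, algebraMap S L x ∈ V) (hV' : ∀ x : S, algebraMap S L x ∈ V')
    (h0 : tmd_center V hV ≠ ⊥) (h : tmd_center V hV = tmd_center V' hV') : V ≤ V' := by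
  intro x hx
  let v : IsDedekindDomain.HeightOneSpectrum S := ⟨tmd_center V hV, tmd_center_isPrime V hV, h0⟩
  have hunit : ∀ (W : ValuationSubring L) (hW : ∀ y : S, algebraMap S L y ∈ W) (d : S),
      d ∉ tmd_center W hW → (algebraMap S L d)⁻¹ ∈ W := by
    intro W hW d hd
    rw [tmd_mem_center, ValuationSubring.mem_nonunits_iff_or] at hd
    push Not at hd
    exact hd.2
  have hne : ∀ d : S, d ∉ tmd_center V hV → algebraMap S L d ≠ 0 := by
    intro d hd h0'
    apply hd
    have : d = 0 := IsFractionRing.injective S L (by rw [h0', map_zero])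
    rw [this]
    exact zero_mem _
  obtain ⟨n, d, hnd | hnd⟩ := v.exists_primeCompl_mul_eq_or_mul_eq x
  · have hd : (d : S) ∉ tmd_center V hV := d.2
    have hd' : (d : S) ∉ tmd_center V' hV' := by rw [← h]; exact hd
    have h1 : x = algebraMap S L n * (algebraMap S L d)⁻¹ := by
      rw [← hnd, mul_assoc, mul_inv_cancel₀ (hne d hd), mul_one]
    rw [h1]
    exact V'.mul_mem _ _ (hV' n) (hunit V' hV' d hd')
  · have hd : (d : S) ∉ tmd_center V hV := d.2
    have hdne := hne d hd
    -- `n` is a unit of `V`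
    have hn : n ∉ tmd_center V hV := by
      rw [tmd_mem_center, ValuationSubring.mem_nonunits_iff_or]
      push Not
      have hn0 : algebraMap S L n ≠ 0 := by
        intro h0'
        rw [h0', mul_zero] at hnd
        exact hdne hnd.symm
      refine ⟨hn0, ?_⟩
      have hx0 : x ≠ 0 := by
        intro h0'
        rw [h0', zero_mul] at hnd
        exact hdne hnd.symm
      have h2 : (algebraMap S L n)⁻¹ = x * (algebraMap S L d)⁻¹ := by
        rw [← hnd, mul_inv, ← mul_assoc, mul_inv_cancel₀ hx0, one_mul]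
      rw [h2]
      exact V.mul_mem _ _ hx (hunit V hV d hd)
    have hn' : n ∉ tmd_center V' hV' := by rw [← h]; exact hn
    have hn0 := hne n hn
    have h1 : x = algebraMap S L d * (algebraMap S L n)⁻¹ := by
      rw [← hnd, mul_assoc, mul_inv_cancel₀ hn0, mul_one]
    rw [h1]
    exact V'.mul_mem _ _ (hV' d) (hunit V' hV' n hn')

/-- Conversion of a set of places (valuation subrings of `L` containing `R` in which `p` is not
a unit) into a set of maximal ideals of `S` above `p` of the same cardinality. -/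
theorem tmd_exists_primes_of_valuationSubring {R S L : Type*} [CommRing R] [IsDomain R]
    [CommRing S] [Algebra R S] [IsDedekindDomain S] [Module.Finite R S] [FaithfulSMul R S]
    [Field L] [Algebra S L] [IsFractionRing S L] [Algebra R L] [IsScalarTower R S L]
    (p : R) (hp0 : p ≠ 0) (s : Finset (ValuationSubring L))
    (hs : ∀ V ∈ s, (∀ r : R, algebraMap R L r ∈ V) ∧ algebraMap R L p ∈ V.nonunits) :
    ∃ t : Finset (Ideal S), (∀ Q ∈ t, Q.IsMaximal ∧ algebraMap R S p ∈ Q) ∧ t.card = s.card := by
  classical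
  have hS : ∀ V ∈ s, ∀ x : S, algebraMap S L x ∈ V := by
    intro V hV x
    apply tmd_mem_of_isIntegral V (hs V hV).1
    have hx : IsIntegral R x := Algebra.IsIntegral.isIntegral x
    exact hx.map (IsScalarTower.toAlgHom R S L)
  let c : ValuationSubring L → Ideal S := fun V =>
    if hV : V ∈ s then tmd_center V (hS V hV) else ⊥
  have hc : ∀ V (hV : V ∈ s), c V = tmd_center V (hS V hV) := by
    intro V hV
    simp only [c, dif_pos hV]
  have hpc : ∀ V (hV : V ∈ s), algebraMap R S p ∈ c V := by
    intro V hV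
    rw [hc V hV, tmd_mem_center, ← IsScalarTower.algebraMap_apply]
    exact (hs V hV).2
  have hp0' : algebraMap R S p ≠ 0 := by
    intro h
    exact hp0 (FaithfulSMul.algebraMap_injective R S (by rw [h, map_zero]))
  have hc0 : ∀ V (hV : V ∈ s), c V ≠ ⊥ := by
    intro V hV h
    have := hpc V hV
    rw [h, Ideal.mem_bot] at this
    exact hp0' this
  have hinj : Set.InjOn c (s : Set (ValuationSubring L)) := by
    intro V hV V' hV' h
    have hV : V ∈ s := hV
    have hV' : V' ∈ s := hV'
    have h1 : tmd_center V (hS V hV) = tmd_center V' (hS V' hV') := by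
      rw [← hc V hV, ← hc V' hV']; exact h
    have h0 : tmd_center V (hS V hV) ≠ ⊥ := by rw [← hc V hV]; exact hc0 V hV
    have h0' : tmd_center V' (hS V' hV') ≠ ⊥ := by rw [← hc V' hV']; exact hc0 V' hV'
    exact le_antisymm (tmd_le_of_center_eq V V' _ _ h0 h1)
      (tmd_le_of_center_eq V' V _ _ h0' h1.symm)
  refine ⟨s.image c, ?_, Finset.card_image_of_injOn hinj⟩
  intro Q hQ
  obtain ⟨V, hV, rfl⟩ := Finset.mem_image.1 hQ
  refine ⟨?_, hpc V hV⟩
  have hprime : (c V).IsPrime := by
    rw [hc V hV]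
    exact tmd_center_isPrime V _
  exact hprime.isMaximal (hc0 V hV)

/-- **Tame upper bound for the discriminant, valuation-subring form.** Points of the fibre over
`p` are counted as valuation subrings of `L = Frac S` containing `R` in which `p` is not a
unit. -/
theorem tmd_not_dvd_discr_of_valuationSubring {R S L ι : Type*} [CommRing R]
    [IsDedekindDomain R] [CommRing S] [Algebra R S] [IsDedekindDomain S]
    [Field L] [Algebra S L] [IsFractionRing S L] [Algebra R L] [IsScalarTower R S L]
    [Fintype ι] [DecidableEq ι] (b : Basis ι R S)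
    (p : R) (hp : Prime p) (hchar : ∀ n : ℕ, n ≠ 0 → ¬ p ∣ (n : R))
    (s : Finset (ValuationSubring L))
    (hs : ∀ V ∈ s, (∀ r : R, algebraMap R L r ∈ V) ∧ algebraMap R L p ∈ V.nonunits) :
    ¬ p ^ (Fintype.card ι - s.card + 1) ∣ Algebra.discr R b ∧ s.card ≤ Fintype.card ι := by
  have : Module.Finite R S := Module.Finite.of_basis b
  have : Module.Free R S := Module.Free.of_basis b
  obtain ⟨t, ht, hcard⟩ := tmd_exists_primes_of_valuationSubring (S := S) p hp.ne_zero s hs
  rw [← hcard]
  exact ⟨tmd_not_dvd_discr_of_primes b p hp hchar t ht, tmd_card_primes_le b p hp hchar t ht⟩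

end tmd

section factorization

open Polynomial

/-- **Discriminant factorisation over `K[X]`, `K` algebraically closed of characteristic zero.**
If the fibre of `F / K(X)` over every value `c` outside the finite family `τ` contains
`[F : K(X)]` places, and the fibre over `τ i` contains at least `n i` places (places = valuation
subrings of `F` containing `K[X]` in which `X - c` is not a unit), then an integral basis `β`
has discriminant `u * ∏ (X - τ i) ^ e i` with `e i + n i ≤ [F : K(X)]`. -/
theorem tmd_discr_factorization {K E F J : Type*} [Field K] [IsAlgClosed K] [CharZero K]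
    [Field E] [Field F] [Algebra K[X] E] [IsFractionRing K[X] E] [Algebra E F] [Algebra K[X] F]
    [IsScalarTower K[X] E F] [FiniteDimensional E F]
    [Fintype J] (τ : J → K) (hτ : Function.Injective τ) (n : J → ℕ)
    (hcusp : ∀ i, ∃ s : Finset (ValuationSubring F),
      (∀ V ∈ s, (∀ r : K[X], algebraMap K[X] F r ∈ V) ∧
        algebraMap K[X] F (X - C (τ i)) ∈ V.nonunits) ∧ n i ≤ s.card)
    (hunr : ∀ c : K, (∀ i, τ i ≠ c) → ∃ s : Finset (ValuationSubring F),
      (∀ V ∈ s, (∀ r : K[X], algebraMap K[X] F r ∈ V) ∧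
        algebraMap K[X] F (X - C c) ∈ V.nonunits) ∧ Module.finrank E F ≤ s.card) :
    ∃ (β : Module.Basis (Fin (Module.finrank E F)) E F) (u : K) (e : J → ℕ),
      (∀ i, IsIntegral K[X] (β i)) ∧
      (∀ x : F, IsIntegral K[X] x → x ∈ Submodule.span K[X] (Set.range β)) ∧ u ≠ 0 ∧
      (∀ i, e i + n i ≤ Module.finrank E F) ∧
      Algebra.discr E β = algebraMap K[X] E (C u * ∏ i, (X - C (τ i)) ^ e i) := by
  classical
  have hinjE : Function.Injective (algebraMap K[X] E) := IsFractionRing.injective K[X] E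
  have : CharZero E := charZero_of_injective_algebraMap hinjE
  have : Algebra.IsSeparable E F := inferInstance
  have : Module.IsTorsionFree K[X] F := by
    rw [Module.isTorsionFree_iff_algebraMap_injective]
    rw [IsScalarTower.algebraMap_eq K[X] E F]
    exact (algebraMap E F).injective.comp hinjE
  set S := integralClosure K[X] F with hS
  have hded : IsDedekindDomain S := integralClosure.isDedekindDomain K[X] E F
  have hfrac : IsFractionRing S F :=
    IsIntegralClosure.isFractionRing_of_finite_extension K[X] E F S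
  have hfin : Module.Finite K[X] S := IsIntegralClosure.finite K[X] E F S
  have hfree : Module.Free K[X] S := IsIntegralClosure.module_free K[X] E F S
  have hrank : Module.finrank K[X] S = Module.finrank E F := IsIntegralClosure.rank K[X] E F S
  have hloc : IsLocalization (Algebra.algebraMapSubmonoid S (nonZeroDivisors K[X])) F :=
    IsIntegralClosure.isLocalization K[X] E F S
  let b : Module.Basis (Fin (Module.finrank E F)) K[X] S :=
    (Module.finBasis K[X] S).reindex (finCongr hrank)
  let β : Module.Basis (Fin (Module.finrank E F)) E F :=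
    b.localizationLocalization E (nonZeroDivisors K[X]) F
  have hβ : ∀ i, β i = (b i : F) := fun i =>
    Module.Basis.localizationLocalization_apply E (nonZeroDivisors K[X]) F b i
  set D : K[X] := Algebra.discr K[X] b with hD
  have hDβ : Algebra.discr E β = algebraMap K[X] E D :=
    Algebra.discr_localizationLocalization K[X] (nonZeroDivisors K[X]) F b
  have hD0 : D ≠ 0 := by
    intro h0
    have := Algebra.discr_not_zero_of_basis E β
    rw [hDβ, h0, map_zero] at this
    exact this rfl
  have hd : Fintype.card (Fin (Module.finrank E F)) = Module.finrank E F := Fintype.card_fin _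
  -- local bounds
  have hchar : ∀ c : K, ∀ m : ℕ, m ≠ 0 → ¬ (X - C c) ∣ ((m : ℕ) : K[X]) := by
    intro c m hm hdvd
    have hunit : IsUnit ((m : ℕ) : K[X]) := by
      rw [← map_natCast (C : K →+* K[X])]
      exact (isUnit_C).2 (isUnit_iff_ne_zero.2 (Nat.cast_ne_zero.2 hm))
    exact (prime_X_sub_C c).not_isUnit (isUnit_of_dvd_unit hdvd hunit)
  have hlocal : ∀ (c : K) (s : Finset (ValuationSubring F)),
      (∀ V ∈ s, (∀ r : K[X], algebraMap K[X] F r ∈ V) ∧
        algebraMap K[X] F (X - C c) ∈ V.nonunits) →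
      ¬ (X - C c) ^ (Module.finrank E F - s.card + 1) ∣ D ∧ s.card ≤ Module.finrank E F := by
    intro c s hs
    have := tmd_not_dvd_discr_of_valuationSubring (S := S) (L := F) b (X - C c)
      (prime_X_sub_C c) (hchar c) s hs
    rwa [hd] at this
  -- exponents
  let e : J → ℕ := fun i => D.rootMultiplicity (τ i)
  have he : ∀ i, e i + n i ≤ Module.finrank E F := by
    intro i
    obtain ⟨s, hs, hns⟩ := hcusp i
    obtain ⟨h1, h2⟩ := hlocal (τ i) s hs
    have h3 : (X - C (τ i)) ^ e i ∣ D := pow_rootMultiplicity_dvd D (τ i)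
    have h4 : e i < Module.finrank E F - s.card + 1 := by
      by_contra hcon
      push Not at hcon
      exact h1 (dvd_trans (pow_dvd_pow _ hcon) h3)
    omega
  -- the cofactor
  have hcop : ((Finset.univ : Finset J) : Set J).Pairwise
      (Function.onFun IsCoprime fun i => (X - C (τ i)) ^ e i) := by
    intro i _ j _ hij
    apply IsCoprime.pow
    apply isCoprime_X_sub_C_of_isUnit_sub
    rw [isUnit_iff_ne_zero, sub_ne_zero]
    exact fun h => hij (hτ h)
  have hprod : ∏ i, (X - C (τ i)) ^ e i ∣ D :=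
    Finset.prod_dvd_of_coprime hcop fun i _ => pow_rootMultiplicity_dvd D (τ i)
  obtain ⟨Q, hQ⟩ := hprod
  have hQ0 : Q ≠ 0 := by
    intro h0
    rw [h0, mul_zero] at hQ
    exact hD0 hQ
  have hQdeg : Q.degree = 0 := by
    by_contra hdeg
    obtain ⟨a, ha⟩ := IsAlgClosed.exists_root Q hdeg
    have hdvdQ : (X - C a) ∣ Q := dvd_iff_isRoot.2 ha
    by_cases hex : ∃ i, τ i = a
    · obtain ⟨i₀, rfl⟩ := hex
      have h1 : (X - C (τ i₀)) ^ (e i₀ + 1) ∣ D := by
        rw [hQ, ← Finset.mul_prod_erase Finset.univ _ (Finset.mem_univ i₀), pow_succ]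
        obtain ⟨Q', hQ'⟩ := hdvdQ
        refine ⟨(∏ i ∈ Finset.univ.erase i₀, (X - C (τ i)) ^ e i) * Q', ?_⟩
        rw [hQ']
        ring
      have h2 := (le_rootMultiplicity_iff hD0).2 h1
      exact absurd h2 (by simp [e])
    · push Not at hex
      obtain ⟨s, hs, hds⟩ := hunr a hex
      obtain ⟨h1, h2⟩ := hlocal a s hs
      apply h1
      have h3 : Module.finrank E F - s.card + 1 = 1 := by omega
      rw [h3, pow_one, hQ]
      exact Dvd.dvd.mul_left hdvdQ _
  have hQC : Q = C (Q.coeff 0) := eq_C_of_degree_eq_zero hQdeg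
  refine ⟨β, Q.coeff 0, e, ?_, ?_, ?_, he, ?_⟩
  · intro i
    rw [hβ]
    exact (b i).2
  · intro x hx
    let y : S := ⟨x, hx⟩
    have h2 : (y : F) = ∑ i, b.repr y i • β i := by
      conv_lhs => rw [← b.sum_repr y]
      rw [AddSubmonoidClass.coe_finsetSum]
      refine Finset.sum_congr rfl fun i _ => ?_
      rw [hβ]
      rfl
    have h3 : (y : F) ∈ Submodule.span K[X] (Set.range β) := by
      rw [h2]
      exact Submodule.sum_mem _ fun i _ =>
        Submodule.smul_mem _ _ (Submodule.subset_span ⟨i, rfl⟩)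
    exact h3
  · intro h0
    rw [h0, map_zero] at hQC
    exact hQ0 hQC
  · rw [hDβ, hQ, ← hQC, mul_comm]

end factorization

end Fermat.Agent.S18



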