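/-
S18 package TAMEDISC-PID (helper5), alternate shapes of the tame discriminant bound (main TAME file: TameDisc.lean by helper11).  Mathlib only.

Tame upper bound for the discriminant exponent: for a PID `R` with fraction field `K`, a finite
separable extension `L / K`, an `R`-basis `b` of the integral closure of `R` in `L`, a prime `p`
of `R` such that `1, ..., n` (`n = [L : K]`) are prime to `p`, and any finite set `s` of maximal
ideals of the integral closure above `p`:   `v_p(disc b) ≤ n - #s`.

Together with the lower bound `p ^ (n - #places) ∣ disc` this determines the discriminant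
exponent at tame primes (residue degree one): `v_p(disc) = n - #places above p`.

Main statements: `tmdp_not_pow_dvd_discr` (basis of the integral closure),
`tmdp_not_pow_dvd_discr_field` (`K`-basis of `L` spanning the integral closure),
`tmdp_la` (linear algebra core).
-/
import Mathlib

set_option autoImplicit false

namespace Fermat.Agent.S18

open Matrix nonZeroDivisors

attribute [local instance] FractionRing.liftAlgebra FractionRing.isScalarTower_liftAlgebra

/-- Linear algebra core: if `H * G = (p * t) • 1` with `p ∤ t`, and `G` has an `r × r`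
compression `C * G * Cᵀ` whose determinant is prime to `p`, then `v_p(det G) ≤ n - r`. -/
theorem tmdp_la {R ι : Type*} [CommRing R] [IsDomain R] [Fintype ι] [DecidableEq ι]
    {p t : R} (hp : Prime p) (ht : ¬ p ∣ t) (G H : Matrix ι ι R)
    (hHG : H * G = (p * t) • (1 : Matrix ι ι R))
    (r : ℕ) (C : Matrix (Fin r) ι R) (hC : ¬ p ∣ (C * G * Cᵀ).det) :
    ¬ p ^ (Fintype.card ι - r + 1) ∣ G.det := by
  intro hdvd
  have hW : H * (G * Cᵀ) = p • (t • Cᵀ) := by
    rw [← Matrix.mul_assoc, hHG, Matrix.smul_mul, Matrix.one_mul, mul_smul]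
  have h1 : (fromBlocks H 0 0 (1 : Matrix (Fin r) (Fin r) R)) *
      (fromBlocks (1 : Matrix ι ι R) (G * Cᵀ) (-C) 0) =
      (fromBlocks H (t • Cᵀ) (-C) 0) *
        (fromBlocks (1 : Matrix ι ι R) 0 0 (p • (1 : Matrix (Fin r) (Fin r) R))) := by
    rw [fromBlocks_multiply, fromBlocks_multiply, hW]
    congr 1
    · simp
    · simp
    · simp
    · simp
  have h2 := congrArg Matrix.det h1
  rw [Matrix.det_mul, Matrix.det_mul, det_fromBlocks_zero₁₂, det_fromBlocks_one₁₁,
    det_fromBlocks_zero₁₂, Matrix.det_one, Matrix.det_one, mul_one, one_mul,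
    Matrix.det_smul, Matrix.det_one, mul_one, Fintype.card_fin] at h2
  have h3 : (0 - -C * (G * Cᵀ)) = C * G * Cᵀ := by
    rw [zero_sub, Matrix.neg_mul, neg_neg, Matrix.mul_assoc]
  rw [h3] at h2
  have h4 : p ^ r ∣ H.det :=
    hp.pow_dvd_of_dvd_mul_right r hC ⟨_, h2.trans (mul_comm _ _)⟩
  have h5 : H.det * G.det = (p * t) ^ Fintype.card ι := by
    rw [← Matrix.det_mul, hHG, Matrix.det_smul, Matrix.det_one, mul_one]
  have h6 : p ^ r * p ^ (Fintype.card ι - r + 1) ∣ (p * t) ^ Fintype.card ι :=
    h5 ▸ mul_dvd_mul h4 hdvd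
  have h7 : p ^ (Fintype.card ι + 1) ∣ p ^ r * p ^ (Fintype.card ι - r + 1) := by
    rw [← pow_add]
    exact pow_dvd_pow p (by omega)
  have h8 : p ^ Fintype.card ι * p ∣ p ^ Fintype.card ι * t ^ Fintype.card ι := by
    rw [← pow_succ, ← mul_pow]
    exact h7.trans h6
  have h9 : p ∣ t ^ Fintype.card ι :=
    (mul_dvd_mul_iff_left (pow_ne_zero _ hp.ne_zero)).mp h8
  exact ht (hp.dvd_of_dvd_pow h9)

section Abstract

variable {A K L B : Type*} [CommRing A] [Field K] [CommRing B] [Field L]
  [Algebra A K] [Algebra B L] [Algebra A B] [Algebra K L] [Algebra A L]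
  [IsScalarTower A K L] [IsScalarTower A B L] [IsDomain A] [IsPrincipalIdealRing A]
  [IsFractionRing A K] [FiniteDimensional K L] [Algebra.IsSeparable K L]
  [IsIntegralClosure B A L] [IsFractionRing B L] [IsDedekindDomain B]
  [Module.IsTorsionFree A B] [Module.Finite A B]

attribute [local instance] Ideal.Quotient.field in
/-- The trace of a CRT idempotent for a coprime factorisation `pB = P * Q` is prime to `p`
in the tame case. -/
theorem tmdp_intTrace_not_mem
    (p : A) (hp : Prime p)
    (P Q : Ideal B)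
    (hPQ : P * Q = Ideal.map (algebraMap A B) (Ideal.span {p}))
    (hcop : IsCoprime P Q) (hP : P ≠ ⊤)
    (x : B) (hxQ : x ∈ Q) (hx1 : x - 1 ∈ P)
    (htame : ∀ m : ℕ, 0 < m → m ≤ Module.finrank K L → ¬ p ∣ (m : A)) :
    Algebra.intTrace A B x ∉ Ideal.span {p} := by
  have hmax : (Ideal.span {p} : Ideal A).IsMaximal :=
    PrincipalIdealRing.isMaximal_of_irreducible hp.irreducible
  set 𝔭 : Ideal A := Ideal.span {p} with h𝔭
  have hleP : 𝔭 ≤ P.comap (algebraMap A B) := by
    rw [← Ideal.map_le_iff_le_comap, ← hPQ]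
    exact Ideal.mul_le_left
  have hleQ : 𝔭 ≤ Q.comap (algebraMap A B) := by
    rw [← Ideal.map_le_iff_le_comap, ← hPQ]
    exact Ideal.mul_le_right
  let _ : Algebra (A ⧸ 𝔭) (B ⧸ P) := Ideal.Quotient.algebraQuotientOfLEComap hleP
  let _ : Algebra (A ⧸ 𝔭) (B ⧸ Q) := Ideal.Quotient.algebraQuotientOfLEComap hleQ
  have : IsScalarTower A (A ⧸ 𝔭) (B ⧸ P) := .of_algebraMap_eq' rfl
  have : IsScalarTower A (A ⧸ 𝔭) (B ⧸ Q) := .of_algebraMap_eq' rfl
  have : Module.Finite (A ⧸ 𝔭) (B ⧸ P) :=
    Module.Finite.of_restrictScalars_finite A (A ⧸ 𝔭) (B ⧸ P)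
  have : Module.Finite (A ⧸ 𝔭) (B ⧸ Q) :=
    Module.Finite.of_restrictScalars_finite A (A ⧸ 𝔭) (B ⧸ Q)
  let e : (B ⧸ 𝔭.map (algebraMap A B)) ≃ₐ[A ⧸ 𝔭] ((B ⧸ P) × B ⧸ Q) :=
    { __ := (Ideal.quotEquivOfEq hPQ.symm).trans (Ideal.quotientMulEquivQuotientProd P Q hcop),
      commutes' := Quotient.ind fun _ ↦ rfl }
  have he : e (Ideal.Quotient.mk _ x) = (1, 0) := by
    have h1 : e (Ideal.Quotient.mk _ x) = (Ideal.Quotient.mk P x, Ideal.Quotient.mk Q x) := rfl
    rw [h1]
    refine Prod.ext ?_ ?_
    · show Ideal.Quotient.mk P x = 1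
      rw [← map_one (Ideal.Quotient.mk P), Ideal.Quotient.eq]
      exact hx1
    · show Ideal.Quotient.mk Q x = 0
      exact Ideal.Quotient.eq_zero_iff_mem.mpr hxQ
  have htr : Ideal.Quotient.mk 𝔭 (Algebra.intTrace A B x) =
      ((Module.finrank (A ⧸ 𝔭) (B ⧸ P) : ℕ) : A ⧸ 𝔭) := by
    rw [← Algebra.trace_quotient_eq_of_isDedekindDomain, ← Algebra.trace_eq_of_algEquiv e, he,
      Algebra.trace_prod_apply]
    simp only [map_zero, add_zero]
    rw [← map_one (algebraMap (A ⧸ 𝔭) (B ⧸ P)), Algebra.trace_algebraMap]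
    simp
  have : Nontrivial (B ⧸ P) := Ideal.Quotient.nontrivial_iff.mpr hP
  have hpos : 0 < Module.finrank (A ⧸ 𝔭) (B ⧸ P) := Module.finrank_pos
  have hle : Module.finrank (A ⧸ 𝔭) (B ⧸ P) ≤ Module.finrank K L := by
    rw [← Ideal.finrank_quotient_map 𝔭 K L (S := B)]
    let f : (B ⧸ 𝔭.map (algebraMap A B)) →ₗ[A ⧸ 𝔭] (B ⧸ P) :=
      (LinearMap.fst (A ⧸ 𝔭) (B ⧸ P) (B ⧸ Q)).comp e.toLinearMap
    refine LinearMap.finrank_le_finrank_of_surjective (f := f) ?_
    intro y
    obtain ⟨z, hz⟩ := e.surjective (y, 0)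
    refine ⟨z, ?_⟩
    show (e z).1 = y
    rw [hz]
  intro hmem
  have h0 : ((Module.finrank (A ⧸ 𝔭) (B ⧸ P) : ℕ) : A ⧸ 𝔭) = 0 := by
    rw [← htr]
    exact Ideal.Quotient.eq_zero_iff_mem.mpr hmem
  have h1 : ((Module.finrank (A ⧸ 𝔭) (B ⧸ P) : ℕ) : A) ∈ 𝔭 := by
    rw [← Ideal.Quotient.eq_zero_iff_mem, map_natCast]
    exact h0
  exact htame _ hpos hle (Ideal.mem_span_singleton.mp h1)

omit [Algebra A K] [Algebra B L] [Algebra K L] [Algebra A L] [IsScalarTower A K L]
  [IsScalarTower A B L] [IsFractionRing A K] [FiniteDimensional K L] [Algebra.IsSeparable K L]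
  [IsIntegralClosure B A L] [IsFractionRing B L] [Module.Finite A B] [IsPrincipalIdealRing A] in
/-- Coprime factorisation of `pB` at a maximal ideal `P` containing `p`, with a CRT idempotent. -/
theorem tmdp_exists_factor (p : A) (hp : Prime p) (P : Ideal B) (hPmax : P.IsMaximal)
    (hpP : algebraMap A B p ∈ P) :
    ∃ (e : ℕ) (Q : Ideal B) (x : B), e ≠ 0 ∧
      P ^ e * Q = Ideal.map (algebraMap A B) (Ideal.span {p}) ∧ IsCoprime (P ^ e) Q ∧
      x ∈ Q ∧ x - 1 ∈ P ^ e := by
  have hinj : Function.Injective (algebraMap A B) := FaithfulSMul.algebraMap_injective A B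
  have hmap_ne : Ideal.map (algebraMap A B) (Ideal.span {p}) ≠ ⊥ := by
    rw [Ne, Ideal.map_eq_bot_iff_of_injective hinj, Ideal.span_singleton_eq_bot]
    exact hp.ne_zero
  have hP0 : P ≠ ⊥ := by
    rintro rfl
    rw [Ideal.mem_bot, map_eq_zero_iff _ hinj] at hpP
    exact hp.ne_zero hpP
  have hPprime : Prime P := Ideal.prime_of_isPrime hP0 hPmax.isPrime
  have hle : Ideal.map (algebraMap A B) (Ideal.span {p}) ≤ P := by
    rw [Ideal.map_le_iff_le_comap, Ideal.span_singleton_le_iff_mem]
    exact hpP
  obtain ⟨e, Q, hQ, hfac⟩ := WfDvdMonoid.max_power_factor hmap_ne hPprime.irreducible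
  have he : e ≠ 0 := by
    rintro rfl
    rw [pow_zero, one_mul] at hfac
    exact hQ (hfac ▸ Ideal.dvd_iff_le.mpr hle)
  have hcop1 : IsCoprime P Q := by
    rw [Ideal.isCoprime_iff_sup_eq]
    by_contra h
    have h2 : P = P ⊔ Q := hPmax.eq_of_le h le_sup_left
    exact hQ (Ideal.dvd_iff_le.mpr (h2 ▸ le_sup_right))
  have hcop : IsCoprime (P ^ e) Q := hcop1.pow_left
  obtain ⟨a, ha, b, hb, hab⟩ := Ideal.isCoprime_iff_exists.mp hcop
  refine ⟨e, Q, b, he, hfac.symm, hcop, hb, ?_⟩
  have : b - 1 = -a := by rw [← hab]; ring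
  rw [this]
  exact neg_mem ha

include K L in
/-- Separability passes to the canonical fraction fields. -/
theorem tmdp_fracSep : Algebra.IsSeparable (FractionRing A) (FractionRing B) := by
  have H : RingHom.comp (algebraMap (FractionRing A) (FractionRing B))
      ↑(FractionRing.algEquiv A K).symm.toRingEquiv =
        RingHom.comp ↑(FractionRing.algEquiv B L).symm.toRingEquiv (algebraMap K L) := by
    apply IsLocalization.ringHom_ext A⁰
    ext
    simp only [RingHom.coe_comp, RingHom.coe_coe,
      AlgEquiv.coe_ringEquiv, Function.comp_apply, AlgEquiv.commutes,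
      ← IsScalarTower.algebraMap_apply]
    rw [IsScalarTower.algebraMap_apply A B L, AlgEquiv.commutes, ← IsScalarTower.algebraMap_apply]
  exact Algebra.IsSeparable.of_equiv_equiv _ _ H

/-- In the tame case, a power of a prime above `p` dividing the different divides `pB`. -/
theorem tmdp_pow_dvd_map (p : A) (hp : Prime p)
    (htame : ∀ m : ℕ, 0 < m → m ≤ Module.finrank K L → ¬ p ∣ (m : A))
    (P : Ideal B) (hPmax : P.IsMaximal) (hpP : algebraMap A B p ∈ P) (n : ℕ)
    (hn : P ^ n ∣ differentIdeal A B) :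
    P ^ n ∣ Ideal.map (algebraMap A B) (Ideal.span {p}) := by
  have := tmdp_fracSep (A := A) (K := K) (L := L) (B := B)
  obtain ⟨e, Q, x, he, hfac, hcop, hxQ, hx1⟩ := tmdp_exists_factor p hp P hPmax hpP
  have hPe : P ^ e ≠ ⊤ := by
    intro h
    exact hPmax.ne_top (top_le_iff.mp (h ▸ Ideal.pow_le_self he))
  have hnd : ¬ P ^ e ∣ differentIdeal A B :=
    not_dvd_differentIdeal_of_intTrace_not_mem A (P ^ e) Q hfac x hxQ
      (tmdp_intTrace_not_mem (K := K) (L := L) p hp (P ^ e) Q hfac hcop hPe x hxQ hx1 htame)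
  have hlt : n ≤ e := by
    by_contra h
    exact hnd ((pow_dvd_pow P (by omega)).trans hn)
  exact (pow_dvd_pow P hlt).trans (hfac ▸ Dvd.intro _ rfl)

/-- In the tame case `p * t` lies in the different for some `t` prime to `p`. -/
theorem tmdp_exists_mul_mem_different (p : A) (hp : Prime p)
    (htame : ∀ m : ℕ, 0 < m → m ≤ Module.finrank K L → ¬ p ∣ (m : A)) :
    ∃ t : A, ¬ p ∣ t ∧ algebraMap A B (p * t) ∈ differentIdeal A B := by
  have hsep := tmdp_fracSep (A := A) (K := K) (L := L) (B := B)
  have hD0 : differentIdeal A B ≠ ⊥ := differentIdeal_ne_bot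
  obtain ⟨y, hyD, hy0⟩ := Submodule.exists_mem_ne_zero_of_ne_bot hD0
  have hyint : IsIntegral A y := Algebra.IsIntegral.isIntegral y
  have hcomap : (differentIdeal A B).comap (algebraMap A B) ≠ ⊥ :=
    Ideal.comap_ne_bot_of_integral_mem hy0 hyD hyint
  obtain ⟨d, hdD, hd0⟩ := Submodule.exists_mem_ne_zero_of_ne_bot hcomap
  rw [Ideal.mem_comap] at hdD
  obtain ⟨a, t, ht, hdt⟩ := WfDvdMonoid.max_power_factor hd0 hp.irreducible
  refine ⟨t, ht, ?_⟩
  have hdvd : differentIdeal A B ∣ Ideal.span {algebraMap A B (p * t)} := by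
    rw [UniqueFactorizationMonoid.dvd_iff_emultiplicity_le hD0]
    intro P hP
    rw [emultiplicity_le_emultiplicity_iff]
    intro n hn
    have hP0 : P ≠ ⊥ := hP.ne_zero
    have hPprime : P.IsPrime := (Ideal.prime_iff_isPrime hP0).mp hP
    have hPmax : P.IsMaximal := hPprime.isMaximal hP0
    have hpt : Ideal.span {algebraMap A B (p * t)} =
        Ideal.map (algebraMap A B) (Ideal.span {p}) * Ideal.span {algebraMap A B t} := by
      rw [Ideal.map_span, Set.image_singleton, Ideal.span_singleton_mul_span_singleton, map_mul]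
    by_cases hpP : algebraMap A B p ∈ P
    · have h1 := tmdp_pow_dvd_map (K := K) (L := L) p hp htame P hPmax hpP n hn
      rw [hpt]
      exact h1.trans (Dvd.intro _ rfl)
    · have hcop : IsCoprime P (Ideal.span {algebraMap A B p}) := by
        rw [Ideal.isCoprime_iff_sup_eq]
        by_contra h
        have h2 : P = P ⊔ Ideal.span {algebraMap A B p} := hPmax.eq_of_le h le_sup_left
        apply hpP
        rw [h2]
        exact Ideal.mem_sup_right (Ideal.mem_span_singleton_self _)
      have hcop' : IsCoprime (P ^ n) (Ideal.span {algebraMap A B p} ^ a) := hcop.pow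
      have h3 : Ideal.span {algebraMap A B d} =
          Ideal.span {algebraMap A B p} ^ a * Ideal.span {algebraMap A B t} := by
        rw [hdt, map_mul, map_pow, ← Ideal.span_singleton_mul_span_singleton,
          Ideal.span_singleton_pow]
      have h4 : P ^ n ∣ Ideal.span {algebraMap A B d} :=
        hn.trans (Ideal.dvd_iff_le.mpr ((Ideal.span_singleton_le_iff_mem _).mpr hdD))
      rw [h3] at h4
      have h5 : P ^ n ∣ Ideal.span {algebraMap A B t} := hcop'.dvd_of_dvd_mul_left h4
      rw [hpt]
      exact h5.trans (Dvd.intro_left _ rfl)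
  exact Ideal.dvd_iff_le.mp hdvd (Ideal.mem_span_singleton_self _)

/-- In the tame case, `p * t` times any element of the trace dual is integral. -/
theorem tmdp_exists_smul_integral (p : A) (hp : Prime p)
    (htame : ∀ m : ℕ, 0 < m → m ≤ Module.finrank K L → ¬ p ∣ (m : A)) :
    ∃ t : A, ¬ p ∣ t ∧ ∀ x : L,
      (∀ y : B, ∃ r : A, Algebra.trace K L (x * algebraMap B L y) = algebraMap A K r) →
        ∃ z : B, algebraMap B L z = algebraMap A L (p * t) * x := by
  obtain ⟨t, ht, hmem⟩ := tmdp_exists_mul_mem_different (K := K) (L := L) (B := B) p hp htame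
  refine ⟨t, ht, fun x hx => ?_⟩
  have h1 : (1 : FractionalIdeal B⁰ L) ≠ 0 := one_ne_zero
  have hxdual : x ∈ FractionalIdeal.dual A K (1 : FractionalIdeal B⁰ L) := by
    rw [FractionalIdeal.mem_dual h1]
    intro a ha
    rw [FractionalIdeal.mem_one_iff] at ha
    obtain ⟨y, rfl⟩ := ha
    obtain ⟨r, hr⟩ := hx y
    exact ⟨r, hr.symm⟩
  have hc : algebraMap B L (algebraMap A B (p * t)) ∈
      (FractionalIdeal.dual A K (1 : FractionalIdeal B⁰ L))⁻¹ := by
    rw [← coeIdeal_differentIdeal A K L B, FractionalIdeal.mem_coeIdeal]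
    exact ⟨_, hmem, rfl⟩
  rw [FractionalIdeal.mem_inv_iff (FractionalIdeal.dual_ne_zero A K h1)] at hc
  have h2 := hc x hxdual
  rw [FractionalIdeal.mem_one_iff] at h2
  obtain ⟨z, hz⟩ := h2
  refine ⟨z, ?_⟩
  rw [hz, ← IsScalarTower.algebraMap_apply]

/-- Core statement in the abstract setting: `B` the integral closure of the PID `A` in `L`,
`b` a `K`-basis of `L` consisting of elements of `B` and spanning `B` over `A`. -/
theorem tmdp_core {ι : Type*} [Fintype ι] [DecidableEq ι] (b : Module.Basis ι K L) (bB : ι → B)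
    (hbB : ∀ i, algebraMap B L (bB i) = b i)
    (hspan : ∀ z : B, ∃ c : ι → A, algebraMap B L z = ∑ i, algebraMap A L (c i) * b i)
    (D : A) (hD : algebraMap A K D = Algebra.discr K b)
    (p : A) (hp : Prime p) (s : Finset (Ideal B))
    (hs : ∀ Q ∈ s, Q.IsMaximal ∧ algebraMap A B p ∈ Q)
    (htame : ∀ m : ℕ, 0 < m → m ≤ Fintype.card ι → ¬ p ∣ (m : A)) :
    ¬ p ^ (Fintype.card ι - s.card + 1) ∣ D := by
  classical
  have hn : Module.finrank K L = Fintype.card ι := Module.finrank_eq_card_basis b
  have htame' : ∀ m : ℕ, 0 < m → m ≤ Module.finrank K L → ¬ p ∣ (m : A) := by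
    rw [hn]; exact htame
  have hinjK : Function.Injective (algebraMap A K) := IsFractionRing.injective A K
  let G : Matrix ι ι A := Matrix.of fun i j => Algebra.intTrace A B (bB i * bB j)
  have hGK : ∀ i j, algebraMap A K (G i j) = Algebra.trace K L (b i * b j) := by
    intro i j
    simp only [G, Matrix.of_apply]
    rw [Algebra.algebraMap_intTrace (K := K) (L := L), map_mul, hbB, hbB]
  have hdet : G.det = D := by
    apply hinjK
    rw [hD, Algebra.discr_def, RingHom.map_det]
    congr 1
    ext i j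
    rw [RingHom.mapMatrix_apply, Matrix.map_apply, hGK, Algebra.traceMatrix_apply,
      Algebra.traceForm_apply]
  have hsm : ∀ (a : A) (y : L), algebraMap A L a * y = algebraMap A K a • y := by
    intro a y
    rw [Algebra.smul_def, ← IsScalarTower.algebraMap_apply]
  have hform : ∀ (z w : B) (u v : ι → A),
      algebraMap B L z = ∑ i, algebraMap A L (u i) * b i →
      algebraMap B L w = ∑ j, algebraMap A L (v j) * b j →
      algebraMap A K (∑ i, ∑ j, u i * G i j * v j) =
        Algebra.trace K L (algebraMap B L z * algebraMap B L w) := by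
    intro z w u v hz hw
    rw [hz, hw, Finset.sum_mul_sum, map_sum, map_sum]
    refine Finset.sum_congr rfl fun i _ => ?_
    rw [map_sum, map_sum]
    refine Finset.sum_congr rfl fun j _ => ?_
    rw [map_mul, map_mul, hGK]
    have h1 : algebraMap A L (u i) * b i * (algebraMap A L (v j) * b j) =
        (algebraMap A K (u i) * algebraMap A K (v j)) • (b i * b j) := by
      rw [hsm, hsm, smul_mul_smul_comm]
    rw [h1, map_smul, smul_eq_mul]
    ring
  -- the matrix `H`
  obtain ⟨t, ht, hint⟩ := tmdp_exists_smul_integral (K := K) (L := L) (B := B) p hp htame'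
  let b' := (Algebra.traceForm K L).dualBasis (traceForm_nondegenerate K L) b
  have hb' : ∀ i j, Algebra.trace K L (b' i * b j) = if j = i then 1 else 0 := fun i j =>
    LinearMap.BilinForm.apply_dualBasis_left (traceForm_nondegenerate K L) b i j
  have hz : ∀ i, ∃ z : B, algebraMap B L z = algebraMap A L (p * t) * b' i := by
    intro i
    apply hint
    intro y
    obtain ⟨c, hc⟩ := hspan y
    refine ⟨c i, ?_⟩
    rw [hc, Finset.mul_sum, map_sum]
    have h1 : ∀ j, Algebra.trace K L (b' i * (algebraMap A L (c j) * b j)) =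
        if j = i then algebraMap A K (c j) else 0 := by
      intro j
      have h2 : b' i * (algebraMap A L (c j) * b j) = algebraMap A K (c j) • (b' i * b j) := by
        rw [hsm, mul_smul_comm]
      rw [h2, map_smul, hb', smul_eq_mul]
      split_ifs <;> simp
    simp only [h1, Finset.sum_ite_eq', Finset.mem_univ, if_true]
  choose z hz using hz
  choose H hH using fun i => hspan (z i)
  have hHG : (Matrix.of H) * G = (p * t) • (1 : Matrix ι ι A) := by
    ext i k
    apply hinjK
    rw [Matrix.mul_apply, map_sum]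
    simp only [Matrix.of_apply, map_mul, hGK, Matrix.smul_apply, Matrix.one_apply, smul_eq_mul]
    have h1 : ∑ j, algebraMap A K (H i j) * Algebra.trace K L (b j * b k) =
        Algebra.trace K L (algebraMap B L (z i) * b k) := by
      rw [hH, Finset.sum_mul, map_sum]
      refine Finset.sum_congr rfl fun j _ => ?_
      have h2 : algebraMap A L (H i j) * b j * b k = algebraMap A K (H i j) • (b j * b k) := by
        rw [hsm, smul_mul_assoc]
      rw [h2, map_smul, smul_eq_mul]
    rw [h1, hz]
    have h3 : algebraMap A L (p * t) * b' i * b k = algebraMap A K (p * t) • (b' i * b k) := by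
      rw [hsm, smul_mul_assoc]
    rw [h3, map_smul, hb', smul_eq_mul, map_mul]
    by_cases hik : i = k
    · subst hik; simp
    · rw [if_neg (fun h => hik h.symm), if_neg hik]; simp
  -- the matrix `C`
  let eqv : Fin s.card ≃ s := s.equivFin.symm
  have hQ : ∀ i : Fin s.card, ((eqv i : Ideal B)).IsMaximal ∧
      algebraMap A B p ∈ (eqv i : Ideal B) := fun i => hs _ (eqv i).2
  choose e Q x he hfac hcop hxQ hx1 using fun i =>
    tmdp_exists_factor p hp (eqv i : Ideal B) (hQ i).1 (hQ i).2
  choose C hC using fun i => hspan (x i)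
  have hM : ∀ i i', (Matrix.of C * G * (Matrix.of C)ᵀ) i i' =
      Algebra.intTrace A B (x i * x i') := by
    intro i i'
    apply hinjK
    rw [Algebra.algebraMap_intTrace (K := K) (L := L), map_mul,
      ← hform (x i) (x i') (C i) (C i') (hC i) (hC i')]
    congr 1
    simp only [Matrix.mul_apply, Matrix.transpose_apply, Matrix.of_apply, Finset.sum_mul]
    rw [Finset.sum_comm]
  have hoff : ∀ i i', i ≠ i' → Algebra.intTrace A B (x i * x i') ∈ Ideal.span {p} := by
    intro i i' hii'
    have hne : (eqv i : Ideal B) ≠ eqv i' := fun h => hii' (eqv.injective (Subtype.ext h))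
    have hcop2 : IsCoprime ((eqv i : Ideal B) ^ e i) ((eqv i' : Ideal B) ^ e i') := by
      have h1 : IsCoprime (eqv i : Ideal B) (eqv i' : Ideal B) :=
        Ideal.isCoprime_iff_sup_eq.mpr (Ideal.IsMaximal.coprime_of_ne (hQ i).1 (hQ i').1 hne)
      exact h1.pow
    have hdvd : (eqv i : Ideal B) ^ e i ∣ Q i' := by
      apply hcop2.dvd_of_dvd_mul_left
      rw [hfac i', ← hfac i]
      exact Dvd.intro _ rfl
    have hmem : x i * x i' ∈ Ideal.map (algebraMap A B) (Ideal.span {p}) := by
      rw [← hfac i, mul_comm (x i)]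
      exact Ideal.mul_mem_mul (Ideal.le_of_dvd hdvd (hxQ i')) (hxQ i)
    rw [Ideal.map_span, Set.image_singleton, Ideal.mem_span_singleton] at hmem
    obtain ⟨w, hw⟩ := hmem
    rw [hw, ← Algebra.smul_def, map_smul, smul_eq_mul]
    exact Ideal.mul_mem_right _ _ (Ideal.mem_span_singleton_self p)
  have hdiag : ∀ i, Algebra.intTrace A B (x i * x i) ∉ Ideal.span {p} := by
    intro i
    have hPe : (eqv i : Ideal B) ^ e i ≠ ⊤ := fun h =>
      (hQ i).1.ne_top (top_le_iff.mp (h ▸ Ideal.pow_le_self (he i)))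
    refine tmdp_intTrace_not_mem (K := K) (L := L) p hp _ (Q i) (hfac i) (hcop i) hPe
      (x i * x i) (Ideal.mul_mem_left _ _ (hxQ i)) ?_ htame'
    have h1 : x i * x i - 1 = (x i - 1) * (x i + 1) := by ring
    rw [h1]
    exact Ideal.mul_mem_right _ _ (hx1 i)
  have hCdet : ¬ p ∣ (Matrix.of C * G * (Matrix.of C)ᵀ).det := by
    have hprime : (Ideal.span {p} : Ideal A).IsPrime :=
      (Ideal.span_singleton_prime hp.ne_zero).mpr hp
    intro hdvd
    have h0 : Ideal.Quotient.mk (Ideal.span {p}) (Matrix.of C * G * (Matrix.of C)ᵀ).det = 0 :=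
      Ideal.Quotient.eq_zero_iff_mem.mpr (Ideal.mem_span_singleton.mpr hdvd)
    rw [RingHom.map_det] at h0
    have h1 : (Ideal.Quotient.mk (Ideal.span {p})).mapMatrix
        (Matrix.of C * G * (Matrix.of C)ᵀ) =
        Matrix.diagonal (fun i => Ideal.Quotient.mk (Ideal.span {p})
          (Algebra.intTrace A B (x i * x i))) := by
      ext i i'
      rw [RingHom.mapMatrix_apply, Matrix.map_apply, hM, Matrix.diagonal_apply]
      split_ifs with h
      · subst h; rfl
      · exact Ideal.Quotient.eq_zero_iff_mem.mpr (hoff i i' h)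
    rw [h1, Matrix.det_diagonal, Finset.prod_eq_zero_iff] at h0
    obtain ⟨i, -, hi⟩ := h0
    exact hdiag i (Ideal.Quotient.eq_zero_iff_mem.mp hi)
  have hfin := tmdp_la hp ht G (Matrix.of H) hHG s.card (Matrix.of C) hCdet
  rwa [hdet] at hfin

end Abstract

section Concrete

/-- The integral closure of `R` in `L` is torsion free over `R`. -/
theorem tmdp_torsionFree {R K L : Type*} [CommRing R] [IsDomain R]
    [Field K] [Field L] [Algebra R K] [IsFractionRing R K] [Algebra K L] [Algebra R L]
    [IsScalarTower R K L] : Module.IsTorsionFree R ↥(integralClosure R L) := by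
  rw [Module.isTorsionFree_iff_algebraMap_injective]
  have h : Function.Injective (algebraMap R L) := by
    rw [IsScalarTower.algebraMap_eq R K L]
    exact (algebraMap K L).injective.comp (IsFractionRing.injective R K)
  intro a b hab
  apply h
  have h2 := congrArg (algebraMap ↥(integralClosure R L) L) hab
  rwa [← IsScalarTower.algebraMap_apply, ← IsScalarTower.algebraMap_apply] at h2

/-- **Tame discriminant bound, field form.**  `b` is a `K`-basis of `L` made of integral elements
and spanning the integral closure of `R` in `L`; `D` is its discriminant.  If `1, ..., n` are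
prime to `p` and `s` is any finite set of maximal ideals of the integral closure containing `p`,
then `v_p(D) ≤ n - #s`. -/
theorem tmdp_not_pow_dvd_discr_field
    {R K L ι : Type*} [CommRing R] [IsDomain R] [IsPrincipalIdealRing R]
    [Field K] [Field L] [Algebra R K] [IsFractionRing R K] [Algebra K L] [Algebra R L]
    [IsScalarTower R K L] [FiniteDimensional K L] [Algebra.IsSeparable K L]
    [Fintype ι] [DecidableEq ι] (b : Module.Basis ι K L)
    (hint : ∀ i, IsIntegral R (b i))
    (hspan : ∀ x : L, IsIntegral R x → x ∈ Submodule.span R (Set.range b))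
    (D : R) (hD : algebraMap R K D = Algebra.discr K b)
    (p : R) (hp : Prime p)
    (s : Finset (Ideal (integralClosure R L)))
    (hs : ∀ Q ∈ s, Q.IsMaximal ∧ algebraMap R (integralClosure R L) p ∈ Q)
    (htame : ∀ m : ℕ, 0 < m → m ≤ Fintype.card ι → ¬ p ∣ (m : R)) :
    ¬ p ^ (Fintype.card ι - s.card + 1) ∣ D := by
  have i1 := integralClosure.isDedekindDomain R K L
  have i2 := integralClosure.isFractionRing_of_finite_extension (A := R) K L
  have i3 : Module.Finite R ↥(integralClosure R L) := IsIntegralClosure.finite R K L _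
  have i4 : Module.IsTorsionFree R ↥(integralClosure R L) := tmdp_torsionFree (K := K)
  refine tmdp_core (A := R) (K := K) (L := L) (B := ↥(integralClosure R L)) b
    (fun i => ⟨b i, hint i⟩) (fun i => rfl) ?_ D hD p hp s hs htame
  intro z
  obtain ⟨c, hc⟩ := (Submodule.mem_span_range_iff_exists_fun R).mp (hspan z z.2)
  refine ⟨c, ?_⟩
  show (z : L) = _
  rw [← hc]
  exact Finset.sum_congr rfl fun i _ => (Algebra.smul_def _ _)

/-- **Tame discriminant bound.**  `b` is an `R`-basis of the integral closure of the PID `R`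
in the finite separable extension `L / K`.  If `1, ..., n` are prime to `p` and `s` is any finite
set of maximal ideals of the integral closure containing `p`, then `v_p(disc b) ≤ n - #s`.
(`K` cannot be inferred from the statement: pass `(K := K)`.) -/
theorem tmdp_not_pow_dvd_discr
    {R K L ι : Type*} [CommRing R] [IsDomain R] [IsPrincipalIdealRing R]
    [Field K] [Field L] [Algebra R K] [IsFractionRing R K] [Algebra K L] [Algebra R L]
    [IsScalarTower R K L] [FiniteDimensional K L] [Algebra.IsSeparable K L]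
    [Fintype ι] [DecidableEq ι] (b : Module.Basis ι R (integralClosure R L))
    (p : R) (hp : Prime p)
    (s : Finset (Ideal (integralClosure R L)))
    (hs : ∀ Q ∈ s, Q.IsMaximal ∧ algebraMap R (integralClosure R L) p ∈ Q)
    (htame : ∀ m : ℕ, 0 < m → m ≤ Fintype.card ι → ¬ p ∣ (m : R)) :
    ¬ p ^ (Fintype.card ι - s.card + 1) ∣ Algebra.discr R b := by
  have i1 := integralClosure.isDedekindDomain R K L
  have i2 := integralClosure.isFractionRing_of_finite_extension (A := R) K L
  have i3 : Module.Finite R ↥(integralClosure R L) := IsIntegralClosure.finite R K L _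
  have i4 : Module.IsTorsionFree R ↥(integralClosure R L) := tmdp_torsionFree (K := K)
  have i5 : IsLocalization (Algebra.algebraMapSubmonoid ↥(integralClosure R L) R⁰) L :=
    IsIntegralClosure.isLocalization R K L _
  let bK : Module.Basis ι K L := b.localizationLocalization K R⁰ L
  have hbK : ∀ i, bK i = algebraMap ↥(integralClosure R L) L (b i) := fun i =>
    Module.Basis.localizationLocalization_apply K R⁰ L b i
  have hdisc : algebraMap R K (Algebra.discr R b) = Algebra.discr K bK :=
    (Algebra.discr_localizationLocalization R R⁰ L b).symm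
  refine tmdp_core (A := R) (K := K) (L := L) (B := ↥(integralClosure R L)) bK
    (fun i => b i) (fun i => (hbK i).symm) ?_ (Algebra.discr R b) hdisc p hp s hs htame
  intro z
  refine ⟨fun i => b.repr z i, ?_⟩
  conv_lhs => rw [← b.sum_repr z]
  rw [map_sum]
  refine Finset.sum_congr rfl fun i _ => ?_
  rw [hbK, Algebra.smul_def, map_mul, ← IsScalarTower.algebraMap_apply]

end Concrete

end Fermat.Agent.S18
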