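import Mathlib

/-!
# S18: the exact discriminant exponent in residue characteristic zero (tame case, exact form)

`R` a principal ideal domain, `p` a prime element whose residue field `R ⧸ (p)` has
characteristic zero, `B` a Dedekind domain which is a free `R`-module with basis `y`.
If every maximal ideal of `B` above `p` has residue degree one (automatic when `R ⧸ (p)` is
algebraically closed), then the exact power of `p` dividing the discriminant of `y` is
`p ^ (d - n)`, where `d` is the rank and `n` the number of maximal ideals of `B` above `p`.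

The proof avoids the different ideal and completions:
* (matrix part) `p ^ (d - rank (T mod p)) ∣ det T` for every square matrix `T`, and equality of
  the exponents as soon as `T c ≡ 0 mod p ^ 2` forces `c ≡ 0 mod p`;
* the radical of the trace form of `B / p B` is the nilradical (residue characteristic zero);
* `Tr (x B) ⊆ p ^ 2 R` forces `x ∈ p B` (ideal arithmetic in the Dedekind domain `B`);
* the rank of the trace form modulo `p` is the number of maximal ideals above `p`.
-/

set_option autoImplicit false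

namespace Fermat.Agent.S18

open Matrix Polynomial

section MatrixPart

variable {R : Type*} [CommRing R] {ι : Type*} [Fintype ι] [DecidableEq ι]

/-- If the columns indexed by `Z` are divisible by `p`, then `p ^ #Z` divides the determinant. -/
theorem tmx_pow_card_dvd_det (p : R) (A : Matrix ι ι R) (Z : Finset ι)
    (h : ∀ i, ∀ j ∈ Z, p ∣ A i j) : p ^ Z.card ∣ A.det := by
  rw [Matrix.det_apply']
  refine Finset.dvd_sum fun σ _ => dvd_mul_of_dvd_right ?_ _
  have h1 : p ^ Z.card ∣ ∏ i ∈ Z, A (σ i) i := by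
    rw [← Finset.prod_const]
    exact Finset.prod_dvd_prod_of_dvd _ _ fun j hj => h (σ j) j hj
  exact h1.trans (Finset.prod_dvd_prod_of_subset _ _ _ (Finset.subset_univ Z))

omit [Fintype ι] in
theorem tmx_lift_transvec (p : R) (t : TransvectionStruct ι (R ⧸ Ideal.span {p})) :
    ∃ t' : TransvectionStruct ι R,
      t'.toMatrix.map (Ideal.Quotient.mk (Ideal.span {p})) = t.toMatrix := by
  obtain ⟨c, hc⟩ := Ideal.Quotient.mk_surjective t.c
  refine ⟨⟨t.i, t.j, t.hij, c⟩, ?_⟩
  ext a b
  simp only [TransvectionStruct.toMatrix, transvection, Matrix.map_apply, Matrix.add_apply,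
    Matrix.one_apply, Matrix.single_apply, map_add]
  split_ifs <;> simp [hc]

theorem tmx_lift_transvec_list (p : R) (L : List (TransvectionStruct ι (R ⧸ Ideal.span {p}))) :
    ∃ L' : List (TransvectionStruct ι R),
      ((L'.map TransvectionStruct.toMatrix).prod).map (Ideal.Quotient.mk (Ideal.span {p})) =
        (L.map TransvectionStruct.toMatrix).prod := by
  induction L with
  | nil => exact ⟨[], by simp⟩
  | cons t L ih =>
    obtain ⟨t', ht'⟩ := tmx_lift_transvec p t
    obtain ⟨L', hL'⟩ := ih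
    refine ⟨t' :: L', ?_⟩
    simp only [List.map_cons, List.prod_cons]
    rw [Matrix.map_mul, ht', hL']

/-- `p ^ (d - rank (T mod p))` divides `det T`. -/
theorem tmx_pow_dvd_det (p : R) [hmax : (Ideal.span {p}).IsMaximal] (T : Matrix ι ι R) :
    p ^ (Fintype.card ι - (T.map (Ideal.Quotient.mk (Ideal.span {p}))).rank) ∣ T.det := by
  classical
  let _ := Ideal.Quotient.field (Ideal.span {p})
  obtain ⟨L, L', D, hD⟩ := Matrix.Pivot.exists_list_transvec_mul_mul_list_transvec_eq_diagonal
    (T.map (Ideal.Quotient.mk (Ideal.span {p})))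
  obtain ⟨U, hU⟩ := tmx_lift_transvec_list p L
  obtain ⟨V, hV⟩ := tmx_lift_transvec_list p L'
  set T' := (U.map TransvectionStruct.toMatrix).prod * T * (V.map TransvectionStruct.toMatrix).prod
    with hT'def
  have hT' : T'.map (Ideal.Quotient.mk (Ideal.span {p})) = diagonal D := by
    rw [hT'def, Matrix.map_mul, Matrix.map_mul, hU, hV, hD]
  have hdet : T'.det = T.det := by
    rw [hT'def, Matrix.det_mul, Matrix.det_mul, TransvectionStruct.det_toMatrix_prod,
      TransvectionStruct.det_toMatrix_prod, one_mul, mul_one]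
  set Z : Finset ι := Finset.univ.filter (fun j => D j = 0) with hZdef
  have hZ : ∀ i, ∀ j ∈ Z, p ∣ T' i j := by
    intro i j hj
    have hj' : D j = 0 := (Finset.mem_filter.mp hj).2
    have h1 : Ideal.Quotient.mk (Ideal.span {p}) (T' i j) = 0 := by
      have h2 := congrFun (congrFun hT' i) j
      rw [Matrix.map_apply] at h2
      rw [h2, diagonal_apply]
      split_ifs with hij
      · rw [hij]; exact hj'
      · rfl
    exact Ideal.mem_span_singleton.mp (Ideal.Quotient.eq_zero_iff_mem.mp h1)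
  have hcard : Z.card = Fintype.card ι - (T.map (Ideal.Quotient.mk (Ideal.span {p}))).rank := by
    have hr : (T.map (Ideal.Quotient.mk (Ideal.span {p}))).rank = (diagonal D).rank := by
      rw [← hD, rank_mul_eq_left_of_isUnit_det, rank_mul_eq_right_of_isUnit_det]
      · rw [TransvectionStruct.det_toMatrix_prod]; exact isUnit_one
      · rw [TransvectionStruct.det_toMatrix_prod]; exact isUnit_one
    rw [hr, rank_diagonal, Fintype.card_subtype]
    have h3 : (Finset.univ.filter (fun j => D j ≠ 0)).card + Z.card = Fintype.card ι := by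
      rw [hZdef, add_comm]
      have h4 := Finset.card_filter_add_card_filter_not (s := (Finset.univ : Finset ι))
        (fun j => D j = 0)
      rw [Finset.card_univ] at h4
      exact h4
    omega
  rw [← hcard, ← hdet]
  exact tmx_pow_card_dvd_det p T' Z hZ

/-- Dividing out powers of `p`: if `T c ≡ 0 mod p ^ 2` forces `c ≡ 0 mod p`, then any matrix
identity `T * S = p ^ (m + 1) * g` can be improved to `T * S' = p * g`. -/
theorem tmx_exists_mul_eq [IsDomain R] (p : R) (hp0 : p ≠ 0) (T : Matrix ι ι R) (g : R)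
    (hsq : ∀ c : ι → R, (∀ i, p ^ 2 ∣ (T *ᵥ c) i) → ∀ j, p ∣ c j) (m : ℕ) :
    ∀ S : Matrix ι ι R, T * S = (p ^ (m + 1) * g) • (1 : Matrix ι ι R) →
      ∃ S' : Matrix ι ι R, T * S' = (p * g) • (1 : Matrix ι ι R) := by
  induction m with
  | zero =>
    intro S hS
    exact ⟨S, by simpa using hS⟩
  | succ m ih =>
    intro S hS
    have hdiv : ∀ i j, p ∣ S i j := by
      intro i j
      refine hsq (fun i => S i j) (fun i' => ?_) i
      have h1 : (T *ᵥ fun i => S i j) i' = (T * S) i' j := by
        simp [Matrix.mulVec, dotProduct, Matrix.mul_apply]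
      rw [h1, hS, Matrix.smul_apply, Matrix.one_apply, smul_eq_mul]
      refine Dvd.dvd.mul_right (Dvd.dvd.mul_right ?_ _) _
      exact pow_dvd_pow p (by omega)
    choose S₁ hS₁ using hdiv
    have hS' : S = p • Matrix.of S₁ := by
      ext i j
      simp [hS₁ i j]
    refine ih (Matrix.of S₁) ?_
    ext i j
    have h2 := congrFun (congrFun hS i) j
    rw [hS', Matrix.mul_smul, Matrix.smul_apply, smul_eq_mul] at h2
    have h3 : p * (T * Matrix.of S₁) i j =
        p * ((p ^ (m + 1) * g) • (1 : Matrix ι ι R)) i j := by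
      rw [h2]
      simp only [Matrix.smul_apply, smul_eq_mul]
      ring
    exact mul_left_cancel₀ hp0 h3

/-- Upper bound for the `p`-adic valuation of `det T`. -/
theorem tmx_not_pow_succ_dvd_det [IsDomain R] [IsPrincipalIdealRing R] (p : R) (hp : Prime p)
    (T : Matrix ι ι R) (hdet : T.det ≠ 0)
    (hsq : ∀ c : ι → R, (∀ i, p ^ 2 ∣ (T *ᵥ c) i) → ∀ j, p ∣ c j) :
    ¬ p ^ (Fintype.card ι - (T.map (Ideal.Quotient.mk (Ideal.span {p}))).rank + 1) ∣ T.det := by
  classical
  have hmax : (Ideal.span {p}).IsMaximal :=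
    PrincipalIdealRing.isMaximal_of_irreducible hp.irreducible
  let _ := Ideal.Quotient.field (Ideal.span {p})
  have hfin : FiniteMultiplicity p T.det := FiniteMultiplicity.of_not_isUnit hp.not_isUnit hdet
  obtain ⟨g, hg, hpg⟩ := hfin.exists_eq_pow_mul_and_not_dvd
  set a := multiplicity p T.det with ha
  -- a matrix `S` with `T * S = p * g`
  have hS : ∃ S : Matrix ι ι R, T * S = (p * g) • (1 : Matrix ι ι R) := by
    rcases Nat.eq_zero_or_pos a with h0 | hpos
    · refine ⟨p • T.adjugate, ?_⟩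
      rw [Matrix.mul_smul, Matrix.mul_adjugate, hg, h0, pow_zero, one_mul, smul_smul]
    · obtain ⟨m, hm⟩ : ∃ m, a = m + 1 := ⟨a - 1, by omega⟩
      refine tmx_exists_mul_eq p hp.ne_zero T g hsq m T.adjugate ?_
      rw [Matrix.mul_adjugate, hg, hm]
  obtain ⟨S, hS⟩ := hS
  -- ranks
  have hzero : T.map (Ideal.Quotient.mk (Ideal.span {p})) *
      S.map (Ideal.Quotient.mk (Ideal.span {p})) = 0 := by
    rw [← Matrix.map_mul, hS]
    ext i j
    simp only [Matrix.map_apply, Matrix.smul_apply, Matrix.one_apply, smul_eq_mul,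
      Matrix.zero_apply, map_mul]
    have : Ideal.Quotient.mk (Ideal.span {p}) p = 0 :=
      Ideal.Quotient.eq_zero_iff_mem.mpr (Ideal.mem_span_singleton_self p)
    rw [this]
    ring
  have hrank := Matrix.rank_add_rank_le_card_of_mul_eq_zero hzero
  have h1 := tmx_pow_dvd_det p S
  intro h2
  have hprod : T.det * S.det = (p * g) ^ Fintype.card ι := by
    rw [← Matrix.det_mul, hS, Matrix.det_smul, Matrix.det_one, mul_one]
  have h3 : p ^ (Fintype.card ι + 1) ∣ (p * g) ^ Fintype.card ι := by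
    rw [← hprod]
    have h5 := mul_dvd_mul h2 h1
    rw [← pow_add] at h5
    refine dvd_trans (pow_dvd_pow p ?_) h5
    omega
  rw [mul_pow, pow_succ] at h3
  have h4 : p ∣ g ^ Fintype.card ι :=
    (mul_dvd_mul_iff_left (pow_ne_zero _ hp.ne_zero)).mp h3
  exact hpg (hp.dvd_of_dvd_pow h4)

end MatrixPart


section AlgebraPart

variable {R : Type*} [CommRing R] {B : Type*} [CommRing B] [Algebra R B]
  {ι : Type*} [Fintype ι] [DecidableEq ι]

/-- The regular representation of `B` in the basis `y`, reduced modulo `p`. -/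
noncomputable def tmxLam (y : Module.Basis ι R B) (p : R) :
    B →+* Matrix ι ι (R ⧸ Ideal.span {p}) :=
  (RingHom.mapMatrix (Ideal.Quotient.mk (Ideal.span {p}))).comp
    (Algebra.leftMulMatrix y).toRingHom

theorem tmxLam_apply (y : Module.Basis ι R B) (p : R) (x : B) :
    tmxLam y p x = (Algebra.leftMulMatrix y x).map (Ideal.Quotient.mk (Ideal.span {p})) := rfl

theorem tmxLam_trace (y : Module.Basis ι R B) (p : R) (x : B) :
    (tmxLam y p x).trace = Ideal.Quotient.mk (Ideal.span {p}) (Algebra.trace R B x) := by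
  rw [Algebra.trace_eq_matrix_trace y, tmxLam_apply, AddMonoidHom.map_trace]

theorem tmxLam_algebraMap (y : Module.Basis ι R B) (p : R) (r : R) :
    tmxLam y p (algebraMap R B r) =
      algebraMap (R ⧸ Ideal.span {p}) (Matrix ι ι (R ⧸ Ideal.span {p}))
        (Ideal.Quotient.mk (Ideal.span {p}) r) := by
  rw [tmxLam_apply, AlgHom.commutes]
  ext i j
  rw [Matrix.map_apply, Matrix.algebraMap_eq_diagonal, Matrix.algebraMap_eq_diagonal,
    Matrix.diagonal_apply, Matrix.diagonal_apply]
  split_ifs <;> simp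

theorem tmxLam_aeval (y : Module.Basis ι R B) (p : R) (x : B) (q : R[X]) :
    tmxLam y p (aeval x q) =
      aeval (tmxLam y p x) (q.map (Ideal.Quotient.mk (Ideal.span {p}))) := by
  rw [aeval_def, aeval_def, Polynomial.hom_eval₂, Polynomial.eval₂_map]
  congr 1
  ext r : 1
  exact tmxLam_algebraMap y p r

theorem tmxLam_eq_zero_iff (y : Module.Basis ι R B) (p : R) (x : B) :
    tmxLam y p x = 0 ↔ x ∈ Ideal.span {algebraMap R B p} := by
  constructor
  · intro h
    have h1 : ∀ i j, p ∣ y.repr (x * y j) i := by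
      intro i j
      have h2 := congrFun (congrFun h i) j
      rw [tmxLam_apply, Matrix.map_apply, Algebra.leftMulMatrix_eq_repr_mul] at h2
      exact Ideal.mem_span_singleton.mp (Ideal.Quotient.eq_zero_iff_mem.mp h2)
    have h2 : ∀ j, x * y j ∈ Ideal.span {algebraMap R B p} := by
      intro j
      rw [← y.sum_repr (x * y j)]
      refine Ideal.sum_mem _ fun i _ => ?_
      obtain ⟨q, hq⟩ := h1 i j
      rw [hq, mul_smul, Algebra.smul_def]
      exact Ideal.mul_mem_right _ _ (Ideal.mem_span_singleton_self _)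
    have h3 : x = ∑ j, y.repr 1 j • (x * y j) := by
      conv_lhs => rw [← mul_one x, ← y.sum_repr 1, Finset.mul_sum]
      refine Finset.sum_congr rfl fun j _ => ?_
      rw [mul_smul_comm]
    rw [h3]
    refine Ideal.sum_mem _ fun j _ => ?_
    rw [Algebra.smul_def]
    exact Ideal.mul_mem_left _ _ (h2 j)
  · intro h
    obtain ⟨b, rfl⟩ := Ideal.mem_span_singleton'.mp h
    rw [map_mul, tmxLam_algebraMap]
    have : Ideal.Quotient.mk (Ideal.span {p}) p = 0 :=
      Ideal.Quotient.eq_zero_iff_mem.mpr (Ideal.mem_span_singleton_self p)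
    rw [this, map_zero, mul_zero]

/-- In residue characteristic zero, the radical of the trace form modulo `p` is the radical of
`p B`. -/
theorem tmx_mem_radical_iff (y : Module.Basis ι R B) (p : R) [hmax : (Ideal.span {p}).IsMaximal]
    [CharZero (R ⧸ Ideal.span {p})] (x : B) :
    x ∈ (Ideal.span {algebraMap R B p}).radical ↔ ∀ b : B, p ∣ Algebra.trace R B (x * b) := by
  classical
  let _ := Ideal.Quotient.field (Ideal.span {p})
  constructor
  · rintro ⟨m, hm⟩ b
    have h1 : (x * b) ^ m ∈ Ideal.span {algebraMap R B p} := by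
      rw [mul_pow]
      exact Ideal.mul_mem_right _ _ hm
    have h2 : (tmxLam y p (x * b)) ^ m = 0 := by
      rw [← map_pow]
      exact (tmxLam_eq_zero_iff y p _).mpr h1
    have h3 : IsNilpotent (tmxLam y p (x * b)).trace :=
      Matrix.isNilpotent_trace_of_isNilpotent ⟨m, h2⟩
    have h4 := h3.eq_zero
    rw [tmxLam_trace] at h4
    exact Ideal.mem_span_singleton.mp (Ideal.Quotient.eq_zero_iff_mem.mp h4)
  · intro h
    set M := tmxLam y p x with hM
    have hχ0 : M.charpoly ≠ 0 := (Matrix.charpoly_monic M).ne_zero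
    obtain ⟨g, hg, hXg⟩ := Polynomial.exists_eq_pow_rootMultiplicity_mul_and_not_dvd M.charpoly hχ0 0
    rw [map_zero, sub_zero] at hg hXg
    set s := Polynomial.rootMultiplicity 0 M.charpoly with hs
    have hcop : IsCoprime ((X : (R ⧸ Ideal.span {p})[X]) ^ (s + 1)) g :=
      ((Polynomial.irreducible_X.coprime_iff_not_dvd).mpr hXg).pow_left
    obtain ⟨u, v, huv⟩ := hcop
    obtain ⟨u', hu'⟩ := Polynomial.map_surjective _ Ideal.Quotient.mk_surjective u
    set E := aeval M (u * X ^ (s + 1)) with hE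
    have hχM : aeval M (X ^ s * g) = 0 := by
      rw [← hg]; exact Matrix.aeval_self_charpoly M
    -- `E` is idempotent
    have hidem : E * E = E := by
      have h1 : (u * X ^ (s + 1)) * (u * X ^ (s + 1)) =
          u * X ^ (s + 1) - u * v * X * (X ^ s * g) := by
        have : u * X ^ (s + 1) = 1 - v * g := by rw [← huv]; ring
        calc (u * X ^ (s + 1)) * (u * X ^ (s + 1)) = (u * X ^ (s + 1)) * (1 - v * g) := by
              rw [← this]
          _ = u * X ^ (s + 1) - u * v * X * (X ^ s * g) := by ring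
      rw [hE, ← map_mul, h1, map_sub, map_mul (aeval M) (u * v * X), hχM, mul_zero, sub_zero]
    -- `E` is in the image of `x B`
    have hEx : E = tmxLam y p (x * aeval x (u' * X ^ s)) := by
      rw [map_mul, tmxLam_aeval, Polynomial.map_mul, Polynomial.map_pow, Polynomial.map_X, hu',
        ← hM, hE]
      have : u * X ^ (s + 1) = X * (u * X ^ s) := by ring
      rw [this, map_mul, aeval_X]
    have htr : E.trace = 0 := by
      rw [hEx, tmxLam_trace]
      exact Ideal.Quotient.eq_zero_iff_mem.mpr (Ideal.mem_span_singleton.mpr (h _))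
    -- hence `E = 0`
    have hE0 : E = 0 := by
      have h1 : IsIdempotentElem (Matrix.toLin' E) := by
        unfold IsIdempotentElem
        rw [Module.End.mul_eq_comp, ← Matrix.toLin'_mul, hidem]
      have h2 : LinearMap.trace (R ⧸ Ideal.span {p}) _ (Matrix.toLin' E) = 0 := by
        rw [Matrix.trace_toLin'_eq]; exact htr
      have h3 := (LinearMap.IsIdempotentElem.trace_eq_zero_iff h1).mp h2
      exact Matrix.toLin'.injective (by rw [h3, map_zero])
    have h1 : aeval M v * aeval M g = 1 := by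
      have h2 : aeval M (u * X ^ (s + 1) + v * g) = 1 := by rw [huv, map_one]
      rw [map_add, ← hE, hE0, zero_add, map_mul] at h2
      exact h2
    have h2 : M ^ s = 0 := by
      have h3 : M ^ s * aeval M g = 0 := by
        rw [map_mul, map_pow, aeval_X] at hχM
        exact hχM
      have h4 : aeval M g * aeval M v = 1 := by
        rw [← map_mul, mul_comm, map_mul]; exact h1
      calc M ^ s = M ^ s * (aeval M g * aeval M v) := by rw [h4, mul_one]
        _ = 0 := by rw [← mul_assoc, h3, zero_mul]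
    refine ⟨s, (tmxLam_eq_zero_iff y p _).mp ?_⟩
    rw [map_pow]
    exact h2


/-- `Tr (x B) ⊆ p ^ 2 R` forces `x ∈ p B`. -/
theorem tmx_mem_span_of_sq [IsDomain R] [IsDedekindDomain B]
    (y : Module.Basis ι R B) (p : R) (hp0 : p ≠ 0)
    [hmax : (Ideal.span {p}).IsMaximal] [CharZero (R ⧸ Ideal.span {p})] (x : B)
    (h : ∀ b : B, p ^ 2 ∣ Algebra.trace R B (x * b)) : x ∈ Ideal.span {algebraMap R B p} := by
  classical
  have hpB : algebraMap R B p ≠ 0 := fun h0 =>
    hp0 (y.algebraMap_injective (by rw [h0, map_zero]))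
  set 𝔭 : Ideal B := Ideal.span {algebraMap R B p} with h𝔭
  -- the ideal of all such `x`
  let I : Ideal B :=
    { carrier := {x | ∀ b : B, p ^ 2 ∣ Algebra.trace R B (x * b)}
      add_mem' := by
        intro a c ha hc b
        rw [add_mul, map_add]
        exact dvd_add (ha b) (hc b)
      zero_mem' := by
        intro b
        rw [zero_mul, map_zero]
        exact dvd_zero _
      smul_mem' := by
        intro c a ha b
        rw [smul_eq_mul, mul_comm c a, mul_assoc]
        exact ha (c * b) }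
  have hxI : x ∈ I := h
  obtain ⟨𝔠, h𝔠⟩ : I ⊔ 𝔭 ∣ 𝔭 := Ideal.dvd_iff_le.mpr le_sup_right
  -- `I * 𝔠 ≤ 𝔭 * rad 𝔭`
  have hA : I * 𝔠 ≤ 𝔭 * 𝔭.radical := by
    rw [Ideal.mul_le]
    intro a ha w hw
    have h1 : a * w ∈ 𝔭 := by
      rw [h𝔠]
      exact Ideal.mul_mem_mul (Ideal.mem_sup_left ha) hw
    obtain ⟨z, hz⟩ := Ideal.mem_span_singleton'.mp h1
    have hz' : z ∈ 𝔭.radical := by
      rw [tmx_mem_radical_iff y p]
      intro b
      have h2 : p ^ 2 ∣ p * Algebra.trace R B (z * b) := by
        have h3 : p * Algebra.trace R B (z * b) = Algebra.trace R B (a * (w * b)) := by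
          rw [← smul_eq_mul, ← map_smul, Algebra.smul_def, ← mul_assoc a w b, ← hz]
          congr 1
          ring
        rw [h3]
        exact ha (w * b)
      rw [pow_two] at h2
      exact (mul_dvd_mul_iff_left hp0).mp h2
    rw [← hz, mul_comm z]
    exact Ideal.mul_mem_mul (Ideal.mem_span_singleton_self _) hz'
  -- `rad 𝔭 ⊔ 𝔠 = ⊤`
  have hB : 𝔭.radical ⊔ 𝔠 = ⊤ := by
    have h1 : 𝔭 ≤ 𝔭 * (𝔭.radical ⊔ 𝔠) := by
      calc 𝔭 = (I ⊔ 𝔭) * 𝔠 := h𝔠
        _ = I * 𝔠 ⊔ 𝔭 * 𝔠 := Ideal.sup_mul _ _ _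
        _ ≤ 𝔭 * 𝔭.radical ⊔ 𝔭 * 𝔠 := sup_le_sup_right hA _
        _ = 𝔭 * (𝔭.radical ⊔ 𝔠) := (Ideal.mul_sup _ _ _).symm
    have h2 : algebraMap R B p ∈ 𝔭 * (𝔭.radical ⊔ 𝔠) := h1 (Ideal.mem_span_singleton_self _)
    obtain ⟨z, hz, hz'⟩ := Ideal.mem_span_singleton_mul.mp h2
    have hz1 : z = 1 := by
      have : algebraMap R B p * z = algebraMap R B p * 1 := by rw [hz', mul_one]
      exact mul_left_cancel₀ hpB this
    rw [Ideal.eq_top_iff_one, ← hz1]
    exact hz
  -- `I ⊔ 𝔭 ≤ (I ⊔ 𝔭) * rad 𝔭 ⊔ 𝔭`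
  have hC : I ⊔ 𝔭 ≤ (I ⊔ 𝔭) * 𝔭.radical ⊔ 𝔭 := by
    calc I ⊔ 𝔭 = (I ⊔ 𝔭) * (𝔭.radical ⊔ 𝔠) := by rw [hB, Ideal.mul_top]
      _ = (I ⊔ 𝔭) * 𝔭.radical ⊔ (I ⊔ 𝔭) * 𝔠 := Ideal.mul_sup _ _ _
      _ = (I ⊔ 𝔭) * 𝔭.radical ⊔ 𝔭 := by rw [← h𝔠]
      _ ≤ _ := le_rfl
  have hD : ∀ m : ℕ, I ⊔ 𝔭 ≤ 𝔭.radical ^ m ⊔ 𝔭 := by
    intro m
    induction m with
    | zero => rw [pow_zero, Ideal.one_eq_top, top_sup_eq]; exact le_top
    | succ m ih =>
      refine hC.trans (sup_le ?_ le_sup_right)
      calc (I ⊔ 𝔭) * 𝔭.radical ≤ (𝔭.radical ^ m ⊔ 𝔭) * 𝔭.radical := Ideal.mul_mono_left ih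
        _ = 𝔭.radical ^ m * 𝔭.radical ⊔ 𝔭 * 𝔭.radical := Ideal.sup_mul _ _ _
        _ ≤ 𝔭.radical ^ (m + 1) ⊔ 𝔭 := by
          rw [pow_succ]
          exact sup_le_sup_left Ideal.mul_le_left _
  obtain ⟨m, hm⟩ := Ideal.exists_radical_pow_le_of_fg 𝔭 (IsNoetherian.noetherian _)
  exact (hD m).trans (sup_le hm le_rfl) (Ideal.mem_sup_left hxI)

omit [DecidableEq ι] in
/-- Rows of the Gram matrix of the trace form. -/
theorem tmx_traceMatrix_mulVec (y : Module.Basis ι R B) (c : ι → R) (i : ι) :
    (Algebra.traceMatrix R y *ᵥ c) i = Algebra.trace R B (y i * ∑ j, c j • y j) := by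
  rw [Finset.mul_sum, map_sum]
  simp only [Matrix.mulVec, dotProduct, Algebra.traceMatrix_apply, Algebra.traceForm_apply]
  refine Finset.sum_congr rfl fun j _ => ?_
  rw [mul_smul_comm, map_smul, smul_eq_mul, mul_comm]

omit [DecidableEq ι] in
theorem tmx_dvd_trace_of_basis (y : Module.Basis ι R B) (q : R) (x : B)
    (h : ∀ i, q ∣ Algebra.trace R B (y i * x)) (b : B) : q ∣ Algebra.trace R B (x * b) := by
  rw [← y.sum_repr b, Finset.mul_sum, map_sum]
  refine Finset.dvd_sum fun i _ => ?_
  rw [mul_smul_comm, map_smul, smul_eq_mul, mul_comm x]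
  exact Dvd.dvd.mul_left (h i) _

/-- The square-zero condition for the Gram matrix. -/
theorem tmx_traceMatrix_sq [IsDomain R] [IsDedekindDomain B]
    (y : Module.Basis ι R B) (p : R) (hp0 : p ≠ 0)
    [hmax : (Ideal.span {p}).IsMaximal] [CharZero (R ⧸ Ideal.span {p})] (c : ι → R)
    (h : ∀ i, p ^ 2 ∣ (Algebra.traceMatrix R y *ᵥ c) i) (j : ι) : p ∣ c j := by
  have h1 : ∑ j, c j • y j ∈ Ideal.span {algebraMap R B p} := by
    refine tmx_mem_span_of_sq y p hp0 _ (tmx_dvd_trace_of_basis y _ _ fun i => ?_)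
    rw [← tmx_traceMatrix_mulVec]
    exact h i
  obtain ⟨z, hz⟩ := Ideal.mem_span_singleton'.mp h1
  have h2 : c j = y.repr (∑ j, c j • y j) j := by rw [y.repr_sum_self]
  rw [h2, ← hz, mul_comm, ← Algebra.smul_def, map_smul, Finsupp.smul_apply, smul_eq_mul]
  exact dvd_mul_right _ _

/-- A maximal ideal above `p` meets `R` in `(p)`. -/
theorem tmx_algebraMap_mem_iff (p : R) [hmax : (Ideal.span {p}).IsMaximal] (Q : Ideal B)
    (hQ : Q.IsMaximal) (hpQ : algebraMap R B p ∈ Q) (r : R) :
    algebraMap R B r ∈ Q ↔ p ∣ r := by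
  have h1 : Ideal.span {p} ≤ Q.comap (algebraMap R B) := by
    rw [Ideal.span_le, Set.singleton_subset_iff]
    exact hpQ
  have h2 : Ideal.span {p} = Q.comap (algebraMap R B) :=
    hmax.eq_of_le (Ideal.comap_ne_top _ hQ.ne_top) h1
  rw [← Ideal.mem_span_singleton, h2, Ideal.mem_comap]

omit [DecidableEq ι] in
/-- The matrix of residues of the basis at finitely many degree-one maximal ideals above `p`:
it computes membership in these ideals, and it is surjective (Chinese remainder theorem). -/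
theorem tmx_exists_residue_matrix (y : Module.Basis ι R B) (p : R)
    [hmax : (Ideal.span {p}).IsMaximal] (s : Finset (Ideal B))
    (hs : ∀ Q ∈ s, Q.IsMaximal ∧ algebraMap R B p ∈ Q)
    (hdeg : ∀ Q : Ideal B, Q.IsMaximal → algebraMap R B p ∈ Q →
      ∀ x : B, ∃ r : R, x - algebraMap R B r ∈ Q) :
    ∃ X : Matrix s ι (R ⧸ Ideal.span {p}),
      (∀ (c : ι → R) (Q : s), ∑ j, c j • y j ∈ Q.1 ↔
          (X *ᵥ fun j => Ideal.Quotient.mk (Ideal.span {p}) (c j)) Q = 0) ∧
      ∀ a : s → R ⧸ Ideal.span {p}, ∃ c : ι → R,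
          (X *ᵥ fun j => Ideal.Quotient.mk (Ideal.span {p}) (c j)) = a := by
  classical
  have hch : ∀ (Q : s) (j : ι), ∃ r : R, y j - algebraMap R B r ∈ Q.1 := fun Q j =>
    hdeg Q.1 (hs Q.1 Q.2).1 (hs Q.1 Q.2).2 (y j)
  choose rr hrr using hch
  have key : ∀ (c : ι → R) (Q : s),
      ∑ j, c j • y j - algebraMap R B (∑ j, c j * rr Q j) ∈ Q.1 := by
    intro c Q
    have h1 : ∑ j, c j • y j - algebraMap R B (∑ j, c j * rr Q j) =
        ∑ j, c j • (y j - algebraMap R B (rr Q j)) := by
      rw [map_sum, ← Finset.sum_sub_distrib]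
      refine Finset.sum_congr rfl fun j _ => ?_
      rw [smul_sub, map_mul, Algebra.smul_def (c j) (algebraMap R B (rr Q j))]
    rw [h1]
    refine Ideal.sum_mem _ fun j _ => ?_
    rw [Algebra.smul_def]
    exact Ideal.mul_mem_left _ _ (hrr Q j)
  have hval : ∀ (c : ι → R) (Q : s),
      (Matrix.of (fun (Q : s) (j : ι) => Ideal.Quotient.mk (Ideal.span {p}) (rr Q j)) *ᵥ
        fun j => Ideal.Quotient.mk (Ideal.span {p}) (c j)) Q =
      Ideal.Quotient.mk (Ideal.span {p}) (∑ j, c j * rr Q j) := by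
    intro c Q
    simp only [Matrix.mulVec, dotProduct, Matrix.of_apply, map_sum, map_mul]
    exact Finset.sum_congr rfl fun j _ => mul_comm _ _
  refine ⟨Matrix.of fun (Q : s) (j : ι) => Ideal.Quotient.mk (Ideal.span {p}) (rr Q j), ?_, ?_⟩
  · intro c Q
    rw [hval, Ideal.Quotient.eq_zero_iff_mem, Ideal.mem_span_singleton,
      ← tmx_algebraMap_mem_iff p Q.1 (hs Q.1 Q.2).1 (hs Q.1 Q.2).2]
    constructor
    · intro h
      have h2 := Q.1.sub_mem h (key c Q)
      rwa [sub_sub_cancel] at h2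
    · intro h
      have h2 := Q.1.add_mem (key c Q) h
      rwa [sub_add_cancel] at h2
  · intro a
    have hlift : ∀ Q : s, ∃ r : R, Ideal.Quotient.mk (Ideal.span {p}) r = a Q := fun Q =>
      Ideal.Quotient.mk_surjective (a Q)
    choose r hr using hlift
    have hcop : Pairwise (Function.onFun IsCoprime fun Q : s => Q.1) := by
      intro Q Q' hne
      exact Ideal.isCoprime_iff_sup_eq.mpr (Ideal.IsMaximal.coprime_of_ne (hs Q.1 Q.2).1
        (hs Q'.1 Q'.2).1 (fun h => hne (Subtype.ext h)))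
    obtain ⟨b, hb⟩ := Ideal.exists_forall_sub_mem_ideal hcop (fun Q => algebraMap R B (r Q))
    refine ⟨fun j => y.repr b j, ?_⟩
    funext Q
    rw [hval, ← hr Q, Ideal.Quotient.eq, Ideal.mem_span_singleton,
      ← tmx_algebraMap_mem_iff p Q.1 (hs Q.1 Q.2).1 (hs Q.1 Q.2).2, map_sub]
    have h1 := key (fun j => y.repr b j) Q
    rw [y.sum_repr] at h1
    have h2 := Q.1.sub_mem (hb Q) h1
    rwa [sub_sub_sub_cancel_left] at h2

omit [DecidableEq ι] in
theorem tmx_card_le (y : Module.Basis ι R B) (p : R)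
    [hmax : (Ideal.span {p}).IsMaximal] (s : Finset (Ideal B))
    (hs : ∀ Q ∈ s, Q.IsMaximal ∧ algebraMap R B p ∈ Q)
    (hdeg : ∀ Q : Ideal B, Q.IsMaximal → algebraMap R B p ∈ Q →
      ∀ x : B, ∃ r : R, x - algebraMap R B r ∈ Q) : s.card ≤ Fintype.card ι := by
  classical
  let _ := Ideal.Quotient.field (Ideal.span {p})
  obtain ⟨X, -, hsurj⟩ := tmx_exists_residue_matrix y p s hs hdeg
  have h1 : LinearMap.range X.mulVecLin = ⊤ := by
    rw [LinearMap.range_eq_top]
    intro a
    obtain ⟨c, hc⟩ := hsurj a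
    exact ⟨_, hc⟩
  have h2 := LinearMap.finrank_range_le X.mulVecLin
  rw [h1, finrank_top, Module.finrank_pi, Module.finrank_pi, Fintype.card_coe] at h2
  exact h2

omit [DecidableEq ι] in
/-- There are finitely many degree-one maximal ideals above `p`. -/
theorem tmx_finite_primes (y : Module.Basis ι R B) (p : R)
    [hmax : (Ideal.span {p}).IsMaximal]
    (hdeg : ∀ Q : Ideal B, Q.IsMaximal → algebraMap R B p ∈ Q →
      ∀ x : B, ∃ r : R, x - algebraMap R B r ∈ Q) :
    {Q : Ideal B | Q.IsMaximal ∧ algebraMap R B p ∈ Q}.Finite := by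
  by_contra hinf
  obtain ⟨t, ht, hcard⟩ := Set.Infinite.exists_subset_card_eq hinf (Fintype.card ι + 1)
  have h1 := tmx_card_le y p t (fun Q hQ => ht hQ) hdeg
  omega

/-- The rank of the trace form modulo `p` is the number of maximal ideals above `p`. -/
theorem tmx_rank_traceMatrix [IsDomain R] [IsDedekindDomain B]
    (y : Module.Basis ι R B) (p : R) (hp0 : p ≠ 0)
    [hmax : (Ideal.span {p}).IsMaximal] [CharZero (R ⧸ Ideal.span {p})]
    (hdeg : ∀ Q : Ideal B, Q.IsMaximal → algebraMap R B p ∈ Q →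
      ∀ x : B, ∃ r : R, x - algebraMap R B r ∈ Q) :
    ((Algebra.traceMatrix R y).map (Ideal.Quotient.mk (Ideal.span {p}))).rank =
      {Q : Ideal B | Q.IsMaximal ∧ algebraMap R B p ∈ Q}.ncard := by
  classical
  let _ := Ideal.Quotient.field (Ideal.span {p})
  have hfin := tmx_finite_primes y p hdeg
  set s := hfin.toFinset with hs
  have hs' : ∀ Q ∈ s, Q.IsMaximal ∧ algebraMap R B p ∈ Q := fun Q hQ =>
    (Set.Finite.mem_toFinset hfin).mp hQ
  obtain ⟨X, hX, hsurj⟩ := tmx_exists_residue_matrix y p s hs' hdeg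
  have hpB : algebraMap R B p ≠ 0 := fun h0 =>
    hp0 (y.algebraMap_injective (by rw [h0, map_zero]))
  -- the kernels agree
  have hker : LinearMap.ker
      ((Algebra.traceMatrix R y).map (Ideal.Quotient.mk (Ideal.span {p}))).mulVecLin =
      LinearMap.ker X.mulVecLin := by
    ext v
    obtain ⟨c, rfl⟩ : ∃ c : ι → R, (fun j => Ideal.Quotient.mk (Ideal.span {p}) (c j)) = v := by
      choose c hc using fun j => Ideal.Quotient.mk_surjective (v j)
      exact ⟨c, funext hc⟩
    rw [LinearMap.mem_ker, LinearMap.mem_ker, Matrix.mulVecLin_apply, Matrix.mulVecLin_apply]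
    have h1 : ((Algebra.traceMatrix R y).map (Ideal.Quotient.mk (Ideal.span {p})) *ᵥ
        fun j => Ideal.Quotient.mk (Ideal.span {p}) (c j)) = 0 ↔
        ∀ i, p ∣ (Algebra.traceMatrix R y *ᵥ c) i := by
      rw [funext_iff]
      refine forall_congr' fun i => ?_
      have h := RingHom.map_mulVec (Ideal.Quotient.mk (Ideal.span {p}))
        (Algebra.traceMatrix R y) c i
      rw [show (fun j => Ideal.Quotient.mk (Ideal.span {p}) (c j)) =
        (Ideal.Quotient.mk (Ideal.span {p})) ∘ c from rfl, ← h, Pi.zero_apply,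
        Ideal.Quotient.eq_zero_iff_mem, Ideal.mem_span_singleton]
    have h2 : (∀ i, p ∣ (Algebra.traceMatrix R y *ᵥ c) i) ↔
        ∑ j, c j • y j ∈ (Ideal.span {algebraMap R B p}).radical := by
      rw [tmx_mem_radical_iff y p]
      constructor
      · intro h
        exact tmx_dvd_trace_of_basis y p _ fun i => by
          rw [← tmx_traceMatrix_mulVec]; exact h i
      · intro h i
        rw [tmx_traceMatrix_mulVec, mul_comm]
        exact h (y i)
    have h3 : ∑ j, c j • y j ∈ (Ideal.span {algebraMap R B p}).radical ↔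
        ∀ Q : s, ∑ j, c j • y j ∈ Q.1 := by
      rw [Ideal.radical_eq_sInf, Ideal.mem_sInf]
      constructor
      · intro h Q
        have hQ := hs' Q.1 Q.2
        exact h ⟨(Ideal.span_singleton_le_iff_mem _).mpr hQ.2, hQ.1.isPrime⟩
      · intro h J hJ
        have hpJ : algebraMap R B p ∈ J := hJ.1 (Ideal.mem_span_singleton_self _)
        have hJ0 : J ≠ ⊥ := by
          rintro rfl
          exact hpB (by simpa using hpJ)
        have hJmax : J.IsMaximal := hJ.2.isMaximal hJ0
        have hJs : J ∈ s := (Set.Finite.mem_toFinset hfin).mpr ⟨hJmax, hpJ⟩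
        exact h ⟨J, hJs⟩
    rw [h1, h2, h3, funext_iff]
    exact forall_congr' fun Q => hX c Q
  have hX1 : LinearMap.range X.mulVecLin = ⊤ := by
    rw [LinearMap.range_eq_top]
    intro a
    obtain ⟨c, hc⟩ := hsurj a
    exact ⟨_, hc⟩
  have e1 := LinearMap.finrank_range_add_finrank_ker
    ((Algebra.traceMatrix R y).map (Ideal.Quotient.mk (Ideal.span {p}))).mulVecLin
  have e2 := LinearMap.finrank_range_add_finrank_ker X.mulVecLin
  rw [hX1, finrank_top, Module.finrank_pi, Module.finrank_pi, Fintype.card_coe] at e2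
  rw [hker, Module.finrank_pi] at e1
  rw [Set.ncard_eq_toFinset_card _ hfin]
  have e3 : ((Algebra.traceMatrix R y).map (Ideal.Quotient.mk (Ideal.span {p}))).rank =
      Module.finrank (R ⧸ Ideal.span {p}) (LinearMap.range
        ((Algebra.traceMatrix R y).map (Ideal.Quotient.mk (Ideal.span {p}))).mulVecLin) := rfl
  rw [e3]
  change _ = s.card
  omega

/-- **Tame discriminant exponent.** `R` a PID, `p` a prime with residue characteristic zero, `B`
a Dedekind domain, free over `R` with basis `y`, all maximal ideals of `B` above `p` of residue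
degree one. Then the set of maximal ideals above `p` is finite, of cardinality `n ≤ d`, and
`p ^ (d - n)` exactly divides the discriminant of `y`. -/
theorem tmx_discr [IsDomain R] [IsPrincipalIdealRing R] [IsDedekindDomain B]
    (y : Module.Basis ι R B) (p : R) (hp : Prime p) [CharZero (R ⧸ Ideal.span {p})]
    (hdeg : ∀ Q : Ideal B, Q.IsMaximal → algebraMap R B p ∈ Q →
      ∀ x : B, ∃ r : R, x - algebraMap R B r ∈ Q)
    (hdisc : Algebra.discr R y ≠ 0) :
    {Q : Ideal B | Q.IsMaximal ∧ algebraMap R B p ∈ Q}.Finite ∧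
    {Q : Ideal B | Q.IsMaximal ∧ algebraMap R B p ∈ Q}.ncard ≤ Fintype.card ι ∧
    p ^ (Fintype.card ι - {Q : Ideal B | Q.IsMaximal ∧ algebraMap R B p ∈ Q}.ncard) ∣
      Algebra.discr R y ∧
    ¬ p ^ (Fintype.card ι - {Q : Ideal B | Q.IsMaximal ∧ algebraMap R B p ∈ Q}.ncard + 1) ∣
      Algebra.discr R y := by
  classical
  have hmax : (Ideal.span {p}).IsMaximal :=
    PrincipalIdealRing.isMaximal_of_irreducible hp.irreducible
  have hfin := tmx_finite_primes y p hdeg
  have hrank := tmx_rank_traceMatrix y p hp.ne_zero hdeg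
  refine ⟨hfin, ?_, ?_, ?_⟩
  · rw [Set.ncard_eq_toFinset_card _ hfin]
    exact tmx_card_le y p _ (fun Q hQ => (Set.Finite.mem_toFinset hfin).mp hQ) hdeg
  · rw [← hrank, Algebra.discr_def]
    exact tmx_pow_dvd_det p _
  · rw [← hrank, Algebra.discr_def]
    rw [Algebra.discr_def] at hdisc
    exact tmx_not_pow_succ_dvd_det p hp _ hdisc (tmx_traceMatrix_sq y p hp.ne_zero)

end AlgebraPart

section PolynomialPart

variable {K : Type*} [Field K] {B : Type*} [CommRing B] [Algebra K[X] B]

/-- Over an algebraically closed field `K`, every maximal ideal of an integral `K[X]`-algebra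
lying above `X - c` has residue degree one. -/
theorem tmx_residue_degree_one [IsAlgClosed K] [IsDomain B] [Algebra.IsIntegral K[X] B] (c : K)
    (Q : Ideal B) (hQ : Q.IsMaximal) (hcQ : algebraMap K[X] B (X - C c) ∈ Q) (x : B) :
    ∃ r : K[X], x - algebraMap K[X] B r ∈ Q := by
  let f : K →+* B ⧸ Q := (Ideal.Quotient.mk Q).comp ((algebraMap K[X] B).comp C)
  have hcomp : (Ideal.Quotient.mk Q).comp (algebraMap K[X] B) = f.comp (evalRingHom c) := by
    refine Polynomial.ringHom_ext (fun a => ?_) ?_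
    · simp [f]
    · simp only [RingHom.coe_comp, Function.comp_apply, coe_evalRingHom, eval_X, f]
      rw [Ideal.Quotient.eq, ← map_sub]
      exact hcQ
  have hf : f.IsIntegral := by
    intro z
    obtain ⟨x, rfl⟩ := Ideal.Quotient.mk_surjective z
    obtain ⟨g, hg_monic, hg⟩ := Algebra.IsIntegral.isIntegral (R := K[X]) x
    refine ⟨g.map (evalRingHom c), hg_monic.map _, ?_⟩
    rw [Polynomial.eval₂_map, ← hcomp, ← Polynomial.hom_eval₂, hg, map_zero]
  have _ : IsDomain (B ⧸ Q) := (Ideal.Quotient.isDomain_iff_prime Q).mpr hQ.isPrime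
  obtain ⟨a, ha⟩ := (IsAlgClosed.ringHom_bijective_of_isIntegral f hf).2 (Ideal.Quotient.mk Q x)
  refine ⟨C a, ?_⟩
  rw [← Ideal.Quotient.eq]
  exact ha.symm

/-- **Tame discriminant exponent over `K[X]`**, `K` algebraically closed of characteristic
zero: for a Dedekind domain `B` free over `K[X]` with basis `y` and nonzero discriminant, the
multiplicity of `c` as a root of the discriminant is `d - n_c`, where `n_c` is the (finite)
number of maximal ideals of `B` above `X - c`. -/
theorem tmx_rootMultiplicity_discr [CharZero K] [IsAlgClosed K] [IsDedekindDomain B]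
    {ι : Type*} [Fintype ι] [DecidableEq ι] (y : Module.Basis ι K[X] B)
    (hdisc : Algebra.discr K[X] y ≠ 0) (c : K) :
    {Q : Ideal B | Q.IsMaximal ∧ algebraMap K[X] B (X - C c) ∈ Q}.Finite ∧
    {Q : Ideal B | Q.IsMaximal ∧ algebraMap K[X] B (X - C c) ∈ Q}.ncard ≤ Fintype.card ι ∧
    (Algebra.discr K[X] y).rootMultiplicity c =
      Fintype.card ι - {Q : Ideal B | Q.IsMaximal ∧ algebraMap K[X] B (X - C c) ∈ Q}.ncard := by
  have _ : Module.Finite K[X] B := Module.Finite.of_basis y
  have _ : Algebra.IsIntegral K[X] B := Algebra.IsIntegral.of_finite K[X] B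
  have _ : CharZero (K[X] ⧸ Ideal.span {X - C c}) :=
    charZero_of_injective_ringHom
      (f := ((quotientSpanXSubCAlgEquiv c).symm : K →+* K[X] ⧸ Ideal.span {X - C c}))
      (AlgEquiv.injective _)
  obtain ⟨h1, h2, h3, h4⟩ := tmx_discr y (X - C c) (prime_X_sub_C c)
    (fun Q hQ hcQ x => tmx_residue_degree_one c Q hQ hcQ x) hdisc
  refine ⟨h1, h2, le_antisymm ?_ ?_⟩
  · by_contra hlt
    push Not at hlt
    exact h4 ((le_rootMultiplicity_iff hdisc).mp hlt)
  · exact (le_rootMultiplicity_iff hdisc).mpr h3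

end PolynomialPart

end Fermat.Agent.S18
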